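/-
Gauss valuations on fields of fractions of Laurent series with finitely generated coefficient
modules (no discreteness needed: the coefficients of such a series attain a largest valuation).
-/
import Mathlib.RingTheory.LaurentSeries
import Mathlib.RingTheory.Valuation.ValuationSubring
import Mathlib.RingTheory.Finiteness.Subalgebra
import Mathlib.RingTheory.PrincipalIdealDomain
import Mathlib.FieldTheory.IntermediateField.Adjoin.Basic
import Mathlib.RingTheory.Algebraic.Basic
import Fermat.Prelude.Def_ModularCurve_LaurentCoeff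

set_option autoImplicit false

noncomputable section

namespace Fermat.Agent.Carayol

open ModularCurve Polynomial IntermediateField

variable {K : Type*} [Field K]

/-- The series has all its coefficients in one finitely generated additive group. -/
def IsFinCoeff (f : LaurentSeries K) : Prop :=
  ∃ M : Submodule ℤ K, M.FG ∧ ∀ n, f.coeff n ∈ M

theorem isFinCoeff_single (n : ℤ) (c : K) : IsFinCoeff (HahnSeries.single n c) := by
  classical
  refine ⟨Submodule.span ℤ {c}, Submodule.fg_span_singleton c, fun m => ?_⟩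
  rw [HahnSeries.coeff_single]
  split_ifs with h
  · exact Submodule.subset_span rfl
  · exact Submodule.zero_mem _

variable (K) in
/-- The subalgebra of Laurent series with finitely generated coefficient module. -/
def finCoeff : Subalgebra K (LaurentSeries K) where
  carrier := {f | IsFinCoeff f}
  mul_mem' := by
    rintro f g ⟨M, hM, hf⟩ ⟨N, hN, hg⟩
    refine ⟨M * N, hM.mul hN, fun n => ?_⟩
    rw [HahnSeries.coeff_mul]
    exact Submodule.sum_mem _ fun ij _ => Submodule.mul_mem_mul (hf _) (hg _)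
  add_mem' := by
    rintro f g ⟨M, hM, hf⟩ ⟨N, hN, hg⟩
    exact ⟨M ⊔ N, hM.sup hN, fun n => by
      rw [HahnSeries.coeff_add]
      exact Submodule.add_mem _ (Submodule.mem_sup_left (hf n)) (Submodule.mem_sup_right (hg n))⟩
  algebraMap_mem' c := by
    rw [algebraMap_laurentSeries_eq_single]
    exact isFinCoeff_single 0 c

theorem mem_finCoeff {f : LaurentSeries K} : f ∈ finCoeff K ↔ IsFinCoeff f := Iff.rfl

variable (K) in
/-- The field of quotients of series with finitely generated coefficient module. -/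
def finFrac : IntermediateField K (LaurentSeries K) :=
  IntermediateField.adjoin K (finCoeff K : Set (LaurentSeries K))

theorem exists_eq_div_of_mem_finFrac {f : LaurentSeries K} (hf : f ∈ finFrac K) :
    ∃ a ∈ finCoeff K, ∃ b ∈ finCoeff K, b ≠ 0 ∧ f * b = a := by
  rw [finFrac, IntermediateField.mem_adjoin_iff_div, Algebra.adjoin_eq] at hf
  obtain ⟨a, ha, b, hb, h⟩ := hf
  rcases eq_or_ne b 0 with h0 | h0
  · refine ⟨0, (finCoeff K).zero_mem, 1, (finCoeff K).one_mem, one_ne_zero, ?_⟩
    rw [h, h0, div_zero, zero_mul]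
  · exact ⟨a, ha, b, hb, h0, by rw [h, div_mul_cancel₀ a h0]⟩

section Primitive

variable (A : ValuationSubring K)

/-- The coefficients of a series in `finCoeff` attain a largest valuation. -/
theorem IsFinCoeff.exists_max {f : LaurentSeries K} (hf : IsFinCoeff f) (hf0 : f ≠ 0) :
    ∃ n₀, f.coeff n₀ ≠ 0 ∧ ∀ n, A.valuation (f.coeff n) ≤ A.valuation (f.coeff n₀) := by
  classical
  obtain ⟨M, hM, hfM⟩ := hf
  haveI : IsNoetherian ℤ M := isNoetherian_of_fg_of_noetherian M hM
  have hle : Submodule.span ℤ (Set.range f.coeff) ≤ M :=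
    Submodule.span_le.mpr (by rintro x ⟨n, rfl⟩; exact hfM n)
  obtain ⟨T, hTsub, hT⟩ := (Submodule.fg_span_iff_fg_span_finset_subset _).mp
    (Submodule.FG.of_le_of_isNoetherian hle)
  rcases T.eq_empty_or_nonempty with hTe | hTne
  · exfalso
    apply hf0
    ext n
    have hmem : f.coeff n ∈ Submodule.span ℤ (Set.range f.coeff) :=
      Submodule.subset_span ⟨n, rfl⟩
    rw [hT, hTe, Finset.coe_empty, Submodule.span_empty, Submodule.mem_bot] at hmem
    simpa using hmem
  obtain ⟨c, hc, hmax⟩ := T.exists_max_image (fun x => A.valuation x) hTne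
  obtain ⟨n₀, rfl⟩ := hTsub hc
  have key : ∀ x ∈ Submodule.span ℤ (Set.range f.coeff),
      A.valuation x ≤ A.valuation (f.coeff n₀) := by
    intro x hx
    rw [hT] at hx
    induction hx using Submodule.span_induction with
    | mem y hy => exact hmax y hy
    | zero => simp
    | add y z _ _ hy hz => exact (A.valuation.map_add _ _).trans (max_le hy hz)
    | smul m y _ hy =>
      rw [zsmul_eq_mul, map_mul]
      exact le_trans (mul_le_of_le_one_left'
        ((A.valuation_le_one_iff _).mpr (intCast_mem A m))) hy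
  refine ⟨n₀, fun h0 => hf0 ?_, fun n => key _ (Submodule.subset_span ⟨n, rfl⟩)⟩
  ext n
  have := key _ (Submodule.subset_span ⟨n, rfl⟩)
  rw [h0, map_zero, le_zero_iff, map_eq_zero] at this
  simpa using this

/-- Laurent series with coefficients in `A`. -/
def integralSeries (f : LaurentSeries K) (h : ∀ n, f.coeff n ∈ A) : LaurentSeries A :=
  { coeff := fun n => ⟨f.coeff n, h n⟩
    isPWO_support' := f.isPWO_support'.mono fun n hn h0 => hn (Subtype.ext h0) }

theorem coeffMap_integralSeries (f : LaurentSeries K) (h : ∀ n, f.coeff n ∈ A) :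
    coeffMap A.subtype (integralSeries A f h) = f := by
  ext n; rfl

variable {k : Type*} [Field k] (π : A →+* k)

/-- A nonzero series in `finCoeff` is a constant times an integral series with nonzero reduction. -/
theorem exists_primitive {f : LaurentSeries K} (hf : f ∈ finCoeff K) (hf0 : f ≠ 0) :
    ∃ c : K, c ≠ 0 ∧ ∃ y : LaurentSeries A,
      coeffMap A.subtype y = HahnSeries.single (0 : ℤ) c * f ∧ coeffMap π y ≠ 0 := by
  obtain ⟨n₀, hn₀, hmax⟩ := IsFinCoeff.exists_max A hf hf0
  have hint : ∀ n, (HahnSeries.single (0 : ℤ) (f.coeff n₀)⁻¹ * f).coeff n ∈ A := fun n => by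
    rw [HahnSeries.coeff_single_zero_mul, ← A.valuation_le_one_iff, map_mul, map_inv₀]
    rw [inv_mul_le_one₀ (zero_lt_iff.mpr ((_root_.map_ne_zero _).mpr hn₀))]
    exact hmax n
  refine ⟨(f.coeff n₀)⁻¹, inv_ne_zero hn₀, integralSeries A _ hint,
    coeffMap_integralSeries A _ hint, fun h => ?_⟩
  have := congrArg (fun z : LaurentSeries k => z.coeff n₀) h
  simp only [coeffMap_coeff, HahnSeries.coeff_zero] at this
  have e : (integralSeries A _ hint).coeff n₀ = 1 :=
    Subtype.ext (by simp [integralSeries, inv_mul_cancel₀ hn₀])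
  rw [e, map_one] at this
  exact one_ne_zero this

end Primitive

section GaussRing

variable (A : ValuationSubring K) {k : Type*} [Field k] (π : A →+* k)

/-- Quotients of integral series whose denominator has nonzero reduction. -/
def IsGaussIntegral (f : LaurentSeries K) : Prop :=
  ∃ y₁ y₂ : LaurentSeries A, coeffMap π y₂ ≠ 0 ∧
    f * coeffMap A.subtype y₂ = coeffMap A.subtype y₁

/-- The Gauss valuation ring inside `LaurentSeries K`. -/
def gaussSubring : Subring (LaurentSeries K) where
  carrier := {f | IsGaussIntegral A π f}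
  one_mem' := ⟨1, 1, by simp, by simp⟩
  zero_mem' := ⟨0, 1, by simp, by simp⟩
  neg_mem' := by
    rintro f ⟨y₁, y₂, h, e⟩
    exact ⟨-y₁, y₂, h, by rw [neg_mul, e, map_neg]⟩
  mul_mem' := by
    rintro f g ⟨y₁, y₂, h, e⟩ ⟨z₁, z₂, h', e'⟩
    refine ⟨y₁ * z₁, y₂ * z₂, by rw [map_mul]; exact mul_ne_zero h h', ?_⟩
    rw [map_mul, map_mul, ← e, ← e']; ring
  add_mem' := by
    rintro f g ⟨y₁, y₂, h, e⟩ ⟨z₁, z₂, h', e'⟩
    refine ⟨y₁ * z₂ + z₁ * y₂, y₂ * z₂, by rw [map_mul]; exact mul_ne_zero h h', ?_⟩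
    rw [map_add, map_mul, map_mul, map_mul, ← e, ← e']; ring

theorem coeffMap_subtype_injective :
    Function.Injective (coeffMap A.subtype : LaurentSeries A →+* LaurentSeries K) := by
  intro a b h
  ext n
  simpa using congrArg (fun z : LaurentSeries K => z.coeff n) h

/-- The reduction on the Gauss ring, as a function. -/
def gaussRedFun (f : gaussSubring A π) : LaurentSeries k :=
  coeffMap π f.2.choose / coeffMap π f.2.choose_spec.choose

variable {A π}

theorem gaussRedFun_eq (f : gaussSubring A π) {y₁ y₂ : LaurentSeries A}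
    (h : coeffMap π y₂ ≠ 0) (e : (f : LaurentSeries K) * coeffMap A.subtype y₂
      = coeffMap A.subtype y₁) :
    gaussRedFun A π f = coeffMap π y₁ / coeffMap π y₂ := by
  obtain ⟨h', e'⟩ := f.2.choose_spec.choose_spec
  set z₁ := f.2.choose
  set z₂ := f.2.choose_spec.choose
  have : z₁ * y₂ = y₁ * z₂ := coeffMap_subtype_injective A (by
    rw [map_mul, map_mul, ← e, ← e']; ring)
  rw [gaussRedFun, div_eq_div_iff h' h, ← map_mul, ← map_mul, this]

variable (A π)

/-- The reduction on the Gauss ring. -/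
def gaussRed : gaussSubring A π →+* LaurentSeries k where
  toFun := gaussRedFun A π
  map_one' := by rw [gaussRedFun_eq 1 (y₁ := 1) (y₂ := 1) (by simp) (by simp)]; simp
  map_zero' := by rw [gaussRedFun_eq 0 (y₁ := 0) (y₂ := 1) (by simp) (by simp)]; simp
  map_mul' f g := by
    obtain ⟨y₁, y₂, h, e⟩ := f.2
    obtain ⟨z₁, z₂, h', e'⟩ := g.2
    rw [gaussRedFun_eq f h e, gaussRedFun_eq g h' e',
      gaussRedFun_eq (f * g) (y₁ := y₁ * z₁) (y₂ := y₂ * z₂)
        (by rw [map_mul]; exact mul_ne_zero h h')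
        (by rw [Subring.coe_mul, map_mul, map_mul, ← e, ← e']; ring),
      map_mul, map_mul, mul_div_mul_comm]
  map_add' f g := by
    obtain ⟨y₁, y₂, h, e⟩ := f.2
    obtain ⟨z₁, z₂, h', e'⟩ := g.2
    rw [gaussRedFun_eq f h e, gaussRedFun_eq g h' e',
      gaussRedFun_eq (f + g) (y₁ := y₁ * z₂ + z₁ * y₂) (y₂ := y₂ * z₂)
        (by rw [map_mul]; exact mul_ne_zero h h')
        (by rw [Subring.coe_add, map_add, map_mul, map_mul, map_mul, ← e, ← e']; ring),
      map_mul, map_add, map_mul, map_mul, div_add_div _ _ h h', mul_comm (coeffMap π z₁)]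

variable {A π}

theorem coeffMap_mem_gaussSubring (y : LaurentSeries A) :
    coeffMap A.subtype y ∈ gaussSubring A π :=
  ⟨y, 1, by simp, by simp⟩

theorem gaussRed_coeffMap (y : LaurentSeries A) :
    gaussRed A π ⟨_, coeffMap_mem_gaussSubring y⟩ = coeffMap π y := by
  show gaussRedFun A π _ = _
  rw [gaussRedFun_eq _ (y₁ := y) (y₂ := 1) (by simp) (by simp)]
  simp

theorem algebraMap_mem_gaussSubring_iff [IsLocalHom π] {a : K} :
    algebraMap K (LaurentSeries K) a ∈ gaussSubring A π ↔ a ∈ A := by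
  refine ⟨fun ⟨y₁, y₂, h, e⟩ => ?_, fun ha => ?_⟩
  · by_contra ha
    have ha0 : a ≠ 0 := fun h0 => ha (h0 ▸ A.zero_mem)
    have hinv : a⁻¹ ∈ A := (A.mem_or_inv_mem a).resolve_left ha
    have e2 : y₂ = HahnSeries.single (0 : ℤ) (⟨a⁻¹, hinv⟩ : A) * y₁ := by
      apply coeffMap_subtype_injective A
      rw [map_mul, coeffMap_single, ← e]
      show _ = HahnSeries.single (0 : ℤ) a⁻¹ * _
      rw [algebraMap_laurentSeries_eq_single, ← mul_assoc, HahnSeries.single_mul_single,
        inv_mul_cancel₀ ha0, add_zero]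
      exact (one_mul _).symm
    have hπ : π ⟨a⁻¹, hinv⟩ = 0 := by
      by_contra h0
      obtain ⟨b, hb⟩ := isUnit_of_map_unit π _ (isUnit_iff_ne_zero.mpr h0)
      have h1 : ((b : A) : K) * ((b⁻¹ : Aˣ) : A) = 1 := by
        exact_mod_cast congrArg (fun z : A => (z : K)) b.mul_inv
      rw [hb] at h1
      apply ha
      have h2 : a = (((b⁻¹ : Aˣ) : A) : K) :=
        (mul_left_cancel₀ (inv_ne_zero ha0) (by rw [h1]; exact inv_mul_cancel₀ ha0))
      rw [h2]
      exact SetLike.coe_mem _
    exact h (by rw [e2, map_mul, coeffMap_single, hπ, map_zero, zero_mul])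
  · refine ⟨HahnSeries.single (0 : ℤ) (⟨a, ha⟩ : A), 1, by simp, ?_⟩
    rw [map_one, mul_one, coeffMap_single, algebraMap_laurentSeries_eq_single]
    rfl

theorem gaussRed_eq_zero_of {f : gaussSubring A π}
    (hf : (f : LaurentSeries K)⁻¹ ∉ gaussSubring A π) : gaussRed A π f = 0 := by
  obtain ⟨y₁, y₂, h, e⟩ := f.2
  show gaussRedFun A π f = 0
  rw [gaussRedFun_eq f h e]
  by_contra hne
  have h1 : coeffMap π y₁ ≠ 0 := fun h0 => hne (by rw [h0, zero_div])
  have hf0 : (f : LaurentSeries K) ≠ 0 := fun h0 => hf (by rw [h0, inv_zero]; exact zero_mem _)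
  exact hf ⟨y₂, y₁, h1, by rw [← e, ← mul_assoc, inv_mul_cancel₀ hf0, one_mul]⟩

theorem inv_mem_gaussSubring_of_red_ne_zero {f : gaussSubring A π}
    (hf : gaussRed A π f ≠ 0) : (f : LaurentSeries K)⁻¹ ∈ gaussSubring A π := by
  by_contra h
  exact hf (gaussRed_eq_zero_of h)

/-- On `finFrac` the Gauss ring is a valuation ring. -/
theorem mem_or_inv_mem_gaussSubring [IsLocalHom π] {f : LaurentSeries K} (hf : f ∈ finFrac K) :
    f ∈ gaussSubring A π ∨ f⁻¹ ∈ gaussSubring A π := by
  rcases eq_or_ne f 0 with rfl | hf0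
  · exact Or.inl (zero_mem _)
  obtain ⟨a, ha, b, hb, hb0, e⟩ := exists_eq_div_of_mem_finFrac hf
  have ha0 : a ≠ 0 := e ▸ mul_ne_zero hf0 hb0
  obtain ⟨c, hc, y, hy, hy0⟩ := exists_primitive A π ha ha0
  obtain ⟨d, hd, z, hz, hz0⟩ := exists_primitive A π hb hb0
  have key : ∀ {g : LaurentSeries K} {r : K} {u w : LaurentSeries A}, r ∈ A →
      coeffMap π w ≠ 0 → g * coeffMap A.subtype w = HahnSeries.single (0 : ℤ) r * coeffMap A.subtype u →
      g ∈ gaussSubring A π := by
    intro g r u w hr hw he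
    refine ⟨HahnSeries.single (0 : ℤ) (⟨r, hr⟩ : A) * u, w, hw, ?_⟩
    rw [he, map_mul, coeffMap_single]
    rfl
  rcases A.mem_or_inv_mem (d / c) with h | h
  · refine Or.inl (key h hz0 (u := y) ?_)
    rw [hy, hz, ← mul_assoc (HahnSeries.single _ _), HahnSeries.single_mul_single, add_zero,
      div_mul_cancel₀ d hc, mul_left_comm, e]
  · refine Or.inr (key h hy0 (u := z) ?_)
    rw [hy, hz, ← mul_assoc (HahnSeries.single _ _) (HahnSeries.single _ _),
      HahnSeries.single_mul_single, add_zero, inv_div, div_mul_cancel₀ c hd, mul_left_comm, ← e,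
      ← mul_assoc (f⁻¹), inv_mul_cancel₀ hf0, one_mul]

end GaussRing

end Fermat.Agent.Carayol
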