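/-
Algebra for the tame inertia at `q` of a two dimensional representation: traces of powers under a
quadratic relation, and the comparison of the trace with a value read off a torsion family.
-/
import Mathlib.LinearAlgebra.Matrix.Charpoly.Coeff
import Mathlib.LinearAlgebra.Matrix.ToLin
import Mathlib.LinearAlgebra.Trace
import Mathlib.LinearAlgebra.Determinant
import Mathlib.RingTheory.LocalRing.MaximalIdeal.Basic
import Mathlib.RingTheory.Nilpotent.Basic
import Mathlib.Algebra.CharP.Lemmas
import Mathlib.Tactic.LinearCombination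
import Mathlib.Tactic.Module
import Mathlib.Tactic.NoncommRing

set_option autoImplicit false

namespace Fermat.Agent.Carayol.TameTrace

variable {O : Type*} [CommRing O]

/-- The traces of the powers of an element with trace `t` and determinant `d`. -/
def trSeq (t d : O) : ℕ → O
  | 0 => 2
  | 1 => t
  | j + 2 => t * trSeq t d (j + 1) - d * trSeq t d j

/-- The coefficients `(a, b)` with `g ^ j = a g + b`. -/
def powCoeff (t d : O) : ℕ → O × O
  | 0 => (0, 1)
  | j + 1 => (t * (powCoeff t d j).1 + (powCoeff t d j).2, -(d * (powCoeff t d j).1))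

section Quad

variable {E : Type*} [Ring E] [Algebra O E] {g : E} {t d : O}

theorem mul_conj_eq (h : g * g - t • g + d • 1 = 0) : g * (t • 1 - g) = d • (1 : E) := by
  rw [mul_sub, mul_smul_comm, mul_one]
  linear_combination (norm := module) -h

theorem conj_mul_eq (h : g * g - t • g + d • 1 = 0) : (t • 1 - g) * g = d • (1 : E) := by
  rw [sub_mul, smul_mul_assoc, one_mul]
  linear_combination (norm := module) -h

theorem pow_eq_powCoeff (h : g * g - t • g + d • 1 = 0) (j : ℕ) :
    g ^ j = (powCoeff t d j).1 • g + (powCoeff t d j).2 • 1 := by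
  induction j with
  | zero => simp [powCoeff]
  | succ j ih =>
    have h' : g * g = t • g - d • 1 := by linear_combination (norm := module) h
    rw [pow_succ, ih, add_mul, smul_mul_assoc, smul_mul_assoc, one_mul, h', powCoeff]
    module

theorem pow_add_conj_pow (h : g * g - t • g + d • 1 = 0) (j : ℕ) :
    g ^ j + (t • 1 - g) ^ j = trSeq t d j • (1 : E) := by
  induction j using Nat.twoStepInduction with
  | zero => rw [pow_zero, pow_zero, trSeq, two_smul]
  | one => rw [pow_one, pow_one, trSeq, add_sub_cancel]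
  | more j ih ih' =>
    have e : g ^ (j + 2) + (t • 1 - g) ^ (j + 2)
        = t • (g ^ (j + 1) + (t • 1 - g) ^ (j + 1)) - d • (g ^ j + (t • 1 - g) ^ j) := by
      set u := t • (1 : E) - g with hu
      have h1 : g * g = t • g - d • 1 := by linear_combination (norm := module) h
      have h2 : u * u = t • u - d • 1 := by
        have := conj_mul_eq h
        rw [← hu] at this
        nth_rw 2 [hu]
        rw [mul_sub, mul_smul_comm, mul_one, this]
      rw [pow_add, pow_add u, pow_two, pow_two, h1, h2, mul_sub, mul_sub, mul_smul_comm,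
        mul_smul_comm, mul_smul_comm, mul_smul_comm, mul_one, mul_one, ← pow_succ, ← pow_succ]
      module
    rw [e, ih, ih', trSeq]
    module

/-- The quadratic relation of a power. -/
theorem quad_pow (h : g * g - t • g + d • 1 = 0) (j : ℕ) :
    g ^ j * g ^ j - trSeq t d j • g ^ j + d ^ j • 1 = 0 := by
  have hc : Commute (t • 1 - g) g := (conj_mul_eq h).trans (mul_conj_eq h).symm
  have e : trSeq t d j • g ^ j = g ^ j * g ^ j + d ^ j • (1 : E) := by
    rw [← one_mul (g ^ j), ← smul_mul_assoc, ← pow_add_conj_pow h j, one_mul, add_mul,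
      ← hc.mul_pow, conj_mul_eq h, smul_pow, one_pow]
  rw [e]
  abel

end Quad

/-- The companion matrix. -/
def comp (t d : O) : Matrix (Fin 2) (Fin 2) O := !![0, -d; 1, t]

theorem quad_matrix (A : Matrix (Fin 2) (Fin 2) O) :
    A * A - A.trace • A + A.det • 1 = 0 := by
  ext i j
  fin_cases i <;> fin_cases j <;>
    simp [Matrix.mul_apply, Matrix.trace_fin_two, Matrix.det_fin_two] <;> ring

theorem trace_comp (t d : O) : (comp t d).trace = t := by simp [comp, Matrix.trace_fin_two]

theorem det_comp (t d : O) : (comp t d).det = d := by simp [comp, Matrix.det_fin_two]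

theorem quad_comp (t d : O) : comp t d * comp t d - t • comp t d + d • 1 = 0 := by
  simpa only [trace_comp, det_comp] using quad_matrix (comp t d)

theorem trace_pow (A : Matrix (Fin 2) (Fin 2) O) (j : ℕ) :
    (A ^ j).trace = trSeq A.trace A.det j := by
  induction j using Nat.twoStepInduction with
  | zero => simp [trSeq]
  | one => simp [trSeq]
  | more j ih ih' =>
    have h : A * A = A.trace • A - A.det • 1 := by
      linear_combination (norm := module) quad_matrix A
    have e : A ^ (j + 2) = A.trace • A ^ (j + 1) - A.det • A ^ j := by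
      rw [pow_add, pow_two, h, mul_sub, mul_smul_comm, mul_smul_comm, mul_one, ← pow_succ]
    rw [e, Matrix.trace_sub, Matrix.trace_smul, Matrix.trace_smul, ih, ih', trSeq, smul_eq_mul,
      smul_eq_mul]

theorem trace_pow_linearMap {V : Type*} [AddCommGroup V] [Module O V] [Module.Free O V]
    [Module.Finite O V] [Nontrivial O] (hV : Module.finrank O V = 2) (f : Module.End O V) (j : ℕ) :
    LinearMap.trace O V (f ^ j) = trSeq (LinearMap.trace O V f) (LinearMap.det f) j := by
  let b := Module.finBasisOfFinrankEq O V hV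
  rw [LinearMap.trace_eq_matrix_trace O b, LinearMap.trace_eq_matrix_trace O b,
    ← LinearMap.det_toMatrix b, ← trace_pow]
  exact congrArg Matrix.trace (map_pow (LinearMap.toMatrixAlgEquiv b) f j)

theorem quad_linearMap {V : Type*} [AddCommGroup V] [Module O V] [Module.Free O V]
    [Module.Finite O V] [Nontrivial O] (hV : Module.finrank O V = 2) (f : Module.End O V) :
    f * f - LinearMap.trace O V f • f + LinearMap.det f • 1 = 0 := by
  let b := Module.finBasisOfFinrankEq O V hV
  apply (LinearMap.toMatrixAlgEquiv b).injective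
  rw [map_zero, map_add, map_sub, map_smul, map_smul, map_mul, map_one,
    LinearMap.trace_eq_matrix_trace O b, ← LinearMap.det_toMatrix b]
  exact quad_matrix _

theorem trSeq_add_pow {μ μ' : O} (h : μ * μ' = 1) (j : ℕ) :
    trSeq (μ + μ') 1 j = μ ^ j + μ' ^ j := by
  induction j using Nat.twoStepInduction with
  | zero => simp [trSeq]; norm_num
  | one => simp [trSeq]
  | more j ih ih' =>
    rw [trSeq, ih, ih']
    linear_combination (μ ^ j + μ' ^ j) * h

theorem trSeq_mul {t : O} {m n : ℕ} (h : n ≤ m) :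
    trSeq t 1 m * trSeq t 1 n = trSeq t 1 (m + n) + trSeq t 1 (m - n) := by
  set g := comp t (1 : O)
  set u := t • (1 : Matrix (Fin 2) (Fin 2) O) - g
  have hq := quad_comp t (1 : O)
  have hgu : g * u = 1 := (mul_conj_eq hq).trans (one_smul O 1)
  have hug : u * g = 1 := (conj_mul_eq hq).trans (one_smul O 1)
  have hc : Commute g u := hgu.trans hug.symm
  obtain ⟨k, rfl⟩ := Nat.le.dest h
  have e : (trSeq t 1 (n + k) * trSeq t 1 n) • (1 : Matrix (Fin 2) (Fin 2) O)
      = (trSeq t 1 (n + k + n) + trSeq t 1 k) • 1 := by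
    rw [add_smul, ← pow_add_conj_pow hq, ← pow_add_conj_pow hq, ← one_mul (1 : Matrix _ _ O),
      ← smul_mul_smul_comm, one_mul, ← pow_add_conj_pow hq, ← pow_add_conj_pow hq]
    change (g ^ (n + k) + u ^ (n + k)) * (g ^ n + u ^ n) = _
    have h1 : g ^ (n + k) * u ^ n = g ^ k := by
      rw [add_comm n k, pow_add, mul_assoc, ← hc.mul_pow, hgu, one_pow, mul_one]
    have h2 : u ^ (n + k) * g ^ n = u ^ k := by
      rw [add_comm n k, pow_add, mul_assoc, ← hc.symm.mul_pow, hug, one_pow, mul_one]
    rw [add_mul, mul_add, mul_add, h1, h2, ← pow_add, ← pow_add]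
    abel
  simpa using congrFun (congrFun e 0) 0

theorem trSeq_two (j : ℕ) : trSeq (2 : O) 1 j = 2 := by
  have := trSeq_add_pow (one_mul (1 : O)) j
  norm_num at this
  exact this

/-- If a power has trace `2`, it is unipotent with nilpotent part killed by `4 - t²`. -/
theorem powCoeff_sq_mul_eq_zero {t : O} {m : ℕ} (h : trSeq t 1 m = 2) :
    (powCoeff t 1 m).1 ^ 2 * (4 - t ^ 2) = 0 := by
  have e := pow_eq_powCoeff (quad_comp t (1 : O)) m
  have h1 := congrArg Matrix.trace e
  have h2 := congrArg Matrix.det e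
  rw [trace_pow, trace_comp, det_comp, h] at h1
  rw [Matrix.det_pow, det_comp, one_pow] at h2
  simp [comp, Matrix.trace_fin_two, Matrix.det_fin_two] at h1 h2
  linear_combination -4 * h2 + (t * (powCoeff t 1 m).1 + 2 * (powCoeff t 1 m).2 + 2) * h1

theorem powCoeff_congr {t : O} {I : Ideal O} (ht : t - 2 ∈ I) (j : ℕ) :
    (powCoeff t 1 j).1 - j ∈ I ∧ (powCoeff t 1 j).2 - (1 - j) ∈ I := by
  induction j with
  | zero => simp [powCoeff]
  | succ j ih =>
    simp only [powCoeff, Nat.cast_succ, one_mul]
    constructor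
    · have : t * (powCoeff t 1 j).1 + (powCoeff t 1 j).2 - ((j : O) + 1)
          = (t - 2) * (powCoeff t 1 j).1 + 2 * ((powCoeff t 1 j).1 - j)
            + ((powCoeff t 1 j).2 - (1 - j)) := by ring
      rw [this]
      exact I.add_mem (I.add_mem (I.mul_mem_right _ ht) (I.mul_mem_left _ ih.1)) ih.2
    · have : -(powCoeff t 1 j).1 - (1 - ((j : O) + 1)) = -((powCoeff t 1 j).1 - j) := by ring
      rw [this]
      exact I.neg_mem ih.1

section Local

variable [IsDomain O] [IsLocalRing O]

theorem four_sub_sq_ne_zero {t : O} (h2 : IsUnit (2 : O))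
    (ht : t - 2 ∈ IsLocalRing.maximalIdeal O) (h : t ≠ 2) : 4 - t ^ 2 ≠ 0 := by
  intro h0
  have h1 : (2 - t) * (2 + t) = 0 := by linear_combination h0
  rcases mul_eq_zero.mp h1 with h1 | h1
  · exact h (sub_eq_zero.mp h1).symm
  · refine (IsLocalRing.mem_maximalIdeal _).mp ht ?_
    rw [show t - 2 = -(2 * 2) by linear_combination h1]
    exact (h2.mul h2).neg

/-- The tame relation `A ~ A ^ q` forces `A ^ (q - 1)` to be unipotent. -/
theorem trSeq_sub_one_eq_two {t : O} {q : ℕ} (hq : 1 ≤ q) (h2 : IsUnit (2 : O))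
    (hq1 : IsUnit ((q + 1 : ℕ) : O)) (ht : t - 2 ∈ IsLocalRing.maximalIdeal O)
    (h : trSeq t 1 q = t) : trSeq t 1 (q - 1) = 2 := by
  by_cases htt : t = 2
  · rw [htt, trSeq_two]
  have e1 := trSeq_mul (t := t) hq
  have e2 := trSeq_mul (t := t) (le_refl q)
  have e3 := trSeq_mul (t := t) (le_refl 1)
  have e4 := trSeq_mul (t := t) (show q - 1 ≤ q + 1 by omega)
  rw [show q + 1 + (q - 1) = q + q by omega, show q + 1 - (q - 1) = 1 + 1 by omega] at e4
  simp only [trSeq, h, Nat.sub_self] at e1 e2 e3 e4
  set x := trSeq t 1 (q + 1)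
  set y := trSeq t 1 (q - 1)
  have key : (y - 2) * (x - 2) = 0 := by
    linear_combination e4 - e2 + e3 + 2 * e1
  rcases mul_eq_zero.mp key with hy | hx
  · exact sub_eq_zero.mp hy
  · exfalso
    have h0 := powCoeff_sq_mul_eq_zero (sub_eq_zero.mp hx)
    have h0' := pow_eq_zero_iff two_ne_zero |>.mp
      ((mul_eq_zero.mp h0).resolve_right (four_sub_sq_ne_zero h2 ht htt))
    have h1 := (powCoeff_congr ht (q + 1)).1
    rw [h0', zero_sub, neg_mem_iff] at h1
    exact (IsLocalRing.mem_maximalIdeal _).mp h1 hq1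

/-- A power with trace `2` of a semisimple element is trivial. -/
theorem pow_eq_one_of_trSeq {E : Type*} [Ring E] [Algebra O E] {g : E} {t : O} {m : ℕ}
    (h2 : IsUnit (2 : O)) (ht : t - 2 ∈ IsLocalRing.maximalIdeal O) (htt : t ≠ 2)
    (hm : trSeq t 1 m = 2) (hg : g * g - t • g + 1 = 0) : g ^ m = 1 := by
  have h0 := powCoeff_sq_mul_eq_zero hm
  have ha := pow_eq_zero_iff two_ne_zero |>.mp
    ((mul_eq_zero.mp h0).resolve_right (four_sub_sq_ne_zero h2 ht htt))
  have h1 := congrArg Matrix.trace (pow_eq_powCoeff (quad_comp t (1 : O)) m)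
  rw [trace_pow, trace_comp, det_comp, hm] at h1
  simp [comp, ha] at h1
  have hb : (powCoeff t 1 m).2 = 1 := h2.mul_left_cancel (by linear_combination -h1)
  rw [pow_eq_powCoeff (t := t) (d := (1 : O)) (by rwa [one_smul]) m, ha, hb, zero_smul, one_smul,
    zero_add]

end Local

/-- The trace is the value read off a family of modules on which a fixed vector of `G ^ m` is
killed by `G² - s G + 1`, as soon as one vector does not die in the family. -/
theorem eq_of_kill [IsDomain O] {E : Type*} [AddCommGroup E] [Module O E] {ι : Type*}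
    {Q : ι → Type*} [∀ i, AddCommGroup (Q i)] [∀ i, Module O (Q i)]
    (G : Module.End O E) {t s k : O} (hG : G * G - t • G + 1 = 0) (hk : k ≠ 0) (m : ℕ)
    (hm : t ≠ 2 → G ^ m = 1) (Y : ∀ i, E →ₗ[O] Q i)
    (hkill : ∀ v, (∀ i, Y i ((G ^ m) v) = Y i v) →
      ∀ i, k • (Y i (G (G v)) - s • Y i (G v) + Y i v) = 0)
    (v₀ : E) (hv₀ : ∀ c : O, c ≠ 0 → ∃ i, c • Y i v₀ ≠ 0) : t = s := by
  by_contra hts
  have hGv : ∀ v : E, G (G v) = t • G v - v := fun v => by
    have h := LinearMap.congr_fun hG v
    simp only [LinearMap.add_apply, LinearMap.sub_apply, LinearMap.smul_apply,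
      Module.End.mul_apply, Module.End.one_apply, LinearMap.zero_apply] at h
    linear_combination (norm := module) h
  have hcne : k * (t - s) ≠ 0 := mul_ne_zero hk (sub_ne_zero.mpr hts)
  by_cases htt : t = 2
  · set w := G v₀ - v₀ with hw
    have hGw : G w = w := by
      rw [hw, map_sub, hGv, htt]
      module
    have hpw : ∀ j : ℕ, (G ^ j) w = w := fun j => by
      induction j with
      | zero => rw [pow_zero, Module.End.one_apply]
      | succ j ih => rw [pow_succ, Module.End.mul_apply, hGw, ih]
    have hYw : ∀ i, (k * (t - s)) • Y i w = 0 := fun i => by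
      rw [← hkill w (fun j => by rw [hpw]) i, hGw, hGw, htt]
      module
    have hpv : ∀ j : ℕ, (G ^ j) v₀ = v₀ + (j : O) • w := fun j => by
      induction j with
      | zero => rw [pow_zero, Module.End.one_apply, Nat.cast_zero, zero_smul, add_zero]
      | succ j ih =>
        rw [pow_succ', Module.End.mul_apply, ih, map_add, map_smul, hGw, Nat.cast_succ, hw]
        module
    obtain ⟨i, hi⟩ := hv₀ _ (mul_ne_zero hcne hcne)
    refine hi ?_
    have hfix : ∀ j, ∀ l : ℕ, Y j ((G ^ l) ((k * (t - s)) • v₀)) = Y j ((k * (t - s)) • v₀) :=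
      fun j l => by
        rw [map_smul, hpv, smul_add, map_add, smul_comm _ (l : O), map_smul, map_smul (Y j),
          map_smul (Y j), hYw, smul_zero, add_zero]
    rw [← hkill _ (fun j => hfix j m) i,
      show G (G ((k * (t - s)) • v₀)) = (G ^ 2) ((k * (t - s)) • v₀) by
        rw [pow_two, Module.End.mul_apply],
      show G ((k * (t - s)) • v₀) = (G ^ 1) ((k * (t - s)) • v₀) by rw [pow_one], hfix, hfix,
      map_smul, htt]
    module
  · obtain ⟨i, hi⟩ := hv₀ _ hcne
    refine hi ?_
    set u := t • v₀ - G v₀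
    have hGu : G u = v₀ := by
      rw [map_sub, map_smul, hGv]
      module
    rw [← hkill u (fun j => by rw [hm htt, Module.End.one_apply]) i, hGu,
      show Y i u = t • Y i v₀ - Y i (G v₀) by rw [map_sub, map_smul]]
    module

section Unipotent

/-- A unipotent element has `p`-power order when `p` is nilpotent. -/
theorem exists_pow_prime_pow_eq_one {R : Type*} [Ring R] {p : ℕ} (hp : p.Prime)
    (hnil : IsNilpotent (p : R)) {x : R} (hx : IsNilpotent (x - 1)) :
    ∃ N : ℕ, x ^ p ^ N = 1 := by
  obtain ⟨M, hM⟩ := hnil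
  obtain ⟨K, hK⟩ := hx
  obtain ⟨r, hr⟩ := (Commute.one_right (x - 1)).exists_add_pow_prime_pow_eq hp K
  have hxK : (x - 1) ^ p ^ K = 0 :=
    pow_eq_zero_of_le (Nat.lt_pow_self hp.one_lt).le hK
  rw [sub_add_cancel, hxK, one_pow, zero_add] at hr
  have key : ∀ j : ℕ, ∃ w, x ^ p ^ (K + j) = 1 + (p : R) ^ (j + 1) * w := by
    intro j
    induction j with
    | zero => exact ⟨(x - 1) * 1 * r, by rw [add_zero, hr, pow_one, mul_assoc, mul_assoc, mul_assoc]⟩
    | succ j ih =>
      obtain ⟨w, hw⟩ := ih
      rw [← add_assoc, pow_succ p, pow_mul, hw]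
      set z := 1 + (p : R) ^ (j + 1) * w with hz
      have hz' : ∀ i : ℕ, ∃ s, z ^ i = 1 + (p : R) * s := by
        intro i
        induction i with
        | zero => exact ⟨0, by rw [pow_zero, mul_zero, add_zero]⟩
        | succ i ih =>
          obtain ⟨s, hs⟩ := ih
          refine ⟨(p : R) ^ j * w + s * z, ?_⟩
          have e : (p : R) * ((p : R) ^ j * w) = (p : R) ^ (j + 1) * w := by
            rw [← mul_assoc, ← pow_succ']
          rw [pow_succ, hs, add_mul, one_mul, mul_add (p : R), e, mul_assoc, ← add_assoc, ← hz]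
      choose s hs using hz'
      have hsum : ∑ i ∈ Finset.range p, z ^ i = (p : R) * (1 + ∑ i ∈ Finset.range p, s i) := by
        simp only [hs, Finset.sum_add_distrib, ← Finset.mul_sum, Finset.sum_const,
          Finset.card_range, nsmul_one, mul_add, mul_one]
      refine ⟨w * (1 + ∑ i ∈ Finset.range p, s i), ?_⟩
      rw [← sub_eq_iff_eq_add', ← mul_geom_sum, hsum, show z - 1 = (p : R) ^ (j + 1) * w by
        rw [hz, add_sub_cancel_left], mul_assoc, ← mul_assoc w,
        ← (Nat.cast_commute p w).eq, mul_assoc, ← mul_assoc, ← pow_succ]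
  obtain ⟨w, hw⟩ := key M
  exact ⟨K + M, by rw [hw, pow_succ, hM, zero_mul, zero_mul, add_zero]⟩

end Unipotent

end Fermat.Agent.Carayol.TameTrace
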