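/-
The Galois action on the vectors of a Tate module which are eigen for almost all `T_ℓ`: it is
killed by the characteristic polynomial of the representation with the same Frobenius traces.
-/
import Fermat.Agent.GaloisAdic.Main
import Fermat.Agent.Carayol.BTame
import Fermat.Prelude.Def_GaloisRep_Adic
import Mathlib.LinearAlgebra.Matrix.Charpoly.Coeff

set_option autoImplicit false

noncomputable section

open scoped Matrix

namespace Fermat.Agent.Carayol.TameTrace

open GaloisAdic ModularCurve IsLocalRing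

local notation "ℚbar" => AlgebraicClosure ℚ
local notation "Γℚ" => AlgebraicClosure ℚ ≃ₐ[ℚ] AlgebraicClosure ℚ

theorem eq_of_forall_sub_mem_pow {O : Type*} [CommRing O] [IsLocalRing O]
    [IsHausdorff (maximalIdeal O) O] {x y : O} (h : ∀ n, x - y ∈ maximalIdeal O ^ n) : x = y :=
  (IsHausdorff.eq_iff_smodEq (I := maximalIdeal O)).2 fun n => by
    rw [SModEq.sub_mem, Ideal.smul_top_eq_map, Algebra.algebraMap_self, Ideal.map_id]
    exact h n

variable {O : Type} [CommRing O] [IsLocalRing O]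

section Rep

variable (ρ : GaloisRepAdic O)

/-- A basis of the representation space. -/
def repBasis : Module.Basis (Fin 2) O ρ.V := Module.finBasisOfFinrankEq O ρ.V ρ.finrank_eq

/-- The matrices of the representation. -/
def repMat : Γℚ →* Matrix (Fin 2) (Fin 2) O :=
  (LinearMap.toMatrixAlgEquiv (repBasis ρ) :
    Module.End O ρ.V →* Matrix (Fin 2) (Fin 2) O).comp ρ.ρ

theorem trace_repMat (σ : Γℚ) : (repMat ρ σ).trace = LinearMap.trace O ρ.V (ρ.ρ σ) :=
  (LinearMap.trace_eq_matrix_trace O (repBasis ρ) _).symm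

theorem det_repMat (σ : Γℚ) : (repMat ρ σ).det = LinearMap.det (ρ.ρ σ) :=
  LinearMap.det_toMatrix (repBasis ρ) _

theorem trace_det_of_charpoly {σ : Γℚ} {a d : O} (h : LinearMap.charpoly (ρ.ρ σ)
    = Polynomial.X ^ 2 - Polynomial.C a * Polynomial.X + Polynomial.C d) :
    (repMat ρ σ).trace = a ∧ (repMat ρ σ).det = d := by
  rw [← LinearMap.charpoly_toMatrix (ρ.ρ σ) (repBasis ρ)] at h
  have h' : (repMat ρ σ).charpoly = _ := h
  rw [Matrix.charpoly_fin_two] at h'
  have h1 := congrArg (fun P => Polynomial.coeff P 1) h'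
  have h0 := congrArg (fun P => Polynomial.coeff P 0) h'
  simp [Polynomial.coeff_X] at h1 h0
  exact ⟨h1, h0⟩

theorem repMat_continuous (n : ℕ) :
    ∃ L : IntermediateField ℚ ℚbar, FiniteDimensional ℚ L ∧
      ∀ σ : Γℚ, (∀ x ∈ L, σ x = x) → ∀ i j, (repMat ρ σ - 1) i j ∈ maximalIdeal O ^ n := by
  obtain ⟨L, hL, h⟩ := ρ.isAdicContinuous n
  refine ⟨L, hL, fun σ hσ i j => ?_⟩
  have e : (repMat ρ σ - 1) i j
      = (repBasis ρ).repr (ρ.ρ σ (repBasis ρ j) - repBasis ρ j) i := by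
    rw [Matrix.sub_apply, map_sub, Finsupp.sub_apply]
    congr 1
    · exact LinearMap.toMatrix_apply _ _ _ _ _
    · simp [Matrix.one_apply, Finsupp.single_apply, eq_comm]
  rw [e]
  refine Submodule.smul_induction_on
    (p := fun x => (repBasis ρ).repr x i ∈ maximalIdeal O ^ n) (h σ hσ (repBasis ρ j)) ?_ ?_
  · intro c hc x _
    rw [map_smul, Finsupp.smul_apply, smul_eq_mul]
    exact Ideal.mul_mem_right _ _ hc
  · intro x y hx hy
    rw [map_add, Finsupp.add_apply]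
    exact Ideal.add_mem _ hx hy

end Rep

variable {p : ℕ} [Fact p.Prime] [IsAdicComplete (maximalIdeal O) O]
  (hp : (p : O) ∈ maximalIdeal O) {N : ℕ} [NeZero N]

section Eigen

variable (F : TorsionFrame N p)

/-- The Galois matrices with coefficients in `O`. -/
def galMatO : Γℚ →* Matrix (Fin F.H.r) (Fin F.H.r) O :=
  (padicIntHom O hp).mapMatrix.toMonoidHom.comp F.galMatrix

/-- The eigen vectors of the `T_ℓ`, `ℓ` a prime outside `S` not dividing `N`. -/
def eigenSub (S : Finset ℕ) (a : ℕ → O) : Submodule O (Fin F.H.r → O) where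
  carrier := {v | ∀ (ℓ : ℕ) (hℓ : ℓ.Prime), ℓ ∉ S → ¬ ℓ ∣ N →
    (F.H.mat (heckeGenAt N ⟨ℓ, hℓ⟩)).map (Int.castRingHom O) *ᵥ v = a ℓ • v}
  add_mem' hv hw ℓ hℓ h h' := by rw [Matrix.mulVec_add, hv ℓ hℓ h h', hw ℓ hℓ h h', smul_add]
  zero_mem' ℓ hℓ h h' := by rw [Matrix.mulVec_zero, smul_zero]
  smul_mem' c v hv ℓ hℓ h h' := by rw [Matrix.mulVec_smul, hv ℓ hℓ h h', smul_comm]

variable {F} (hF : TorsionFacts N p) {S : Finset ℕ} {a : ℕ → O}

theorem map_heckeMatrix (t : CuspForm.heckeAlgebra N 2 (∅ : Set ℕ)) :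
    (padicIntHom O hp).mapMatrix (F.heckeMatrix t) = (F.H.mat t).map (Int.castRingHom O) := by
  ext i j
  simp [TorsionFrame.heckeMatrix]

include hF in
theorem galMatO_mem {v : Fin F.H.r → O} (hv : v ∈ eigenSub F S a) (σ : Γℚ) :
    galMatO hp F σ *ᵥ v ∈ eigenSub F S a := fun ℓ hℓ h h' => by
  have hc := (F.commute_galMatrix_heckeMatrix hF.hecke_comm σ (heckeGenAt N ⟨ℓ, hℓ⟩)).map
    (padicIntHom O hp).mapMatrix
  rw [map_heckeMatrix] at hc
  rw [Matrix.mulVec_mulVec, show _ * galMatO hp F σ = _ from hc.eq.symm, ← Matrix.mulVec_mulVec,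
    hv ℓ hℓ h h', Matrix.mulVec_smul]
  rfl

/-- The Galois action on the eigen vectors. -/
def eigenEnd (S : Finset ℕ) (a : ℕ → O) : Γℚ →* Module.End O (eigenSub F S a) where
  toFun σ := (galMatO hp F σ).mulVecLin.restrict fun v hv => galMatO_mem hp hF hv σ
  map_one' := LinearMap.ext fun v => Subtype.ext <| by simp
  map_mul' σ τ := LinearMap.ext fun v => Subtype.ext <| by
    simp [Module.End.mul_apply, Matrix.mulVec_mulVec]

theorem coe_eigenEnd (σ : Γℚ) (v : eigenSub F S a) :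
    (eigenEnd hp hF S a σ v : Fin F.H.r → O) = galMatO hp F σ *ᵥ v := rfl

variable (ρ : GaloisRepAdic O)
  (hρ : ∀ ℓ : ℕ, ℓ.Prime → ℓ ∉ S →
    ∀ A : ValuationSubring ℚbar, A.LiesOverPrime ℓ → ∀ σ : Γℚ, A.IsFrobeniusAt σ ℓ →
      LinearMap.charpoly (ρ.ρ σ)
        = Polynomial.X ^ 2 - Polynomial.C (a ℓ) * Polynomial.X + Polynomial.C ((ℓ : O)))

include hρ in
theorem eigenEnd_frobenius {ℓ : ℕ} (hℓ : ℓ.Prime) (hℓS : ℓ ∉ S) (hℓN : ¬ ℓ ∣ N) (hℓp : ℓ ≠ p)
    {A : ValuationSubring ℚbar} (hA : A.LiesOverPrime ℓ) {τ : Γℚ} (hτ : A.IsFrobeniusAt τ ℓ) :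
    eigenEnd (F := F) hp hF S a τ * eigenEnd hp hF S a τ
      - (repMat ρ τ).trace • eigenEnd hp hF S a τ + (repMat ρ τ).det • 1 = 0 := by
  obtain ⟨h1, h2⟩ := trace_det_of_charpoly ρ (hρ ℓ hℓ hℓS A hA τ hτ)
  refine LinearMap.ext fun v => Subtype.ext ?_
  have h := congrArg (· *ᵥ (v : Fin F.H.r → O)) (map_padicQuadratic hp
    (F.galMatrix_quadratic ⟨ℓ, hℓ⟩ (hF.frobenius ⟨ℓ, hℓ⟩ hℓN hℓp A hA τ hτ)))
  simp only [Matrix.add_mulVec, Matrix.sub_mulVec, ← Matrix.mulVec_mulVec, Matrix.zero_mulVec]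
    at h
  rw [show ((F.heckeMatrix (heckeGenAt N ⟨ℓ, hℓ⟩)).map (padicIntHom O hp))
      = (F.H.mat (heckeGenAt N ⟨ℓ, hℓ⟩)).map (Int.castRingHom O) from map_heckeMatrix hp _] at h
  have hv := galMatO_mem hp hF v.2 τ ℓ hℓ hℓS hℓN
  simp only [galMatO, RingHom.toMonoidHom_eq_coe, MonoidHom.coe_comp, MonoidHom.coe_coe,
    Function.comp_apply, RingHom.mapMatrix_apply] at hv
  rw [hv, Matrix.natCast_mulVec] at h
  simp only [LinearMap.add_apply, LinearMap.sub_apply, LinearMap.smul_apply,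
    Module.End.mul_apply, Module.End.one_apply, LinearMap.zero_apply, Submodule.coe_add,
    Submodule.coe_sub, Submodule.coe_smul, coe_eigenEnd, h1, h2, ZeroMemClass.coe_zero]
  exact h

/-- The approximation of a Galois element by powers of good Frobenius elements. -/
theorem exists_frobenius_approx (hsmooth : TorsionFacts N p) (σ : Γℚ) (S : Finset ℕ) (n : ℕ) :
    ∃ ℓ : ℕ, ℓ.Prime ∧ ℓ ∉ S ∧ ¬ ℓ ∣ N ∧ ℓ ≠ p ∧ ∃ A : ValuationSubring ℚbar,
      A.LiesOverPrime ℓ ∧ ∃ τ : Γℚ, A.IsFrobeniusAt τ ℓ ∧ ∃ j : ℕ,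
      (Ideal.Quotient.mk (maximalIdeal O ^ n)).mapMatrix (galMatO hp F σ)
          = (Ideal.Quotient.mk _).mapMatrix (galMatO hp F (τ ^ j)) ∧
      (Ideal.Quotient.mk (maximalIdeal O ^ n)).mapMatrix (repMat ρ σ)
          = (Ideal.Quotient.mk _).mapMatrix (repMat ρ (τ ^ j)) ∧
      padicIntHom O hp (padicCyclo p σ) - padicIntHom O hp (padicCyclo p (τ ^ j))
        ∈ maximalIdeal O ^ n := by
  obtain ⟨L₁, hL₁, h₁⟩ := repMat_continuous ρ n
  obtain ⟨L₂, hL₂, h₂⟩ := F.galMatrix_continuous hsmooth.smooth n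
  obtain ⟨L₃, hL₃, h₃⟩ := padicCyclo_continuous p n
  have := hL₁; have := hL₂; have := hL₃
  have := IntermediateField.finiteDimensional_sup L₂ L₃
  have := IntermediateField.finiteDimensional_sup L₁ (L₂ ⊔ L₃)
  obtain ⟨ℓ, hℓ, hℓT, A, hA, τ, hτ, ⟨j, hj⟩, -⟩ :=
    Density.exists_frobenius_pow σ (L₁ ⊔ (L₂ ⊔ L₃)) (S ∪ (N * p).primeFactors)
  rw [Finset.mem_union, not_or, Nat.mem_primeFactors_of_ne_zero
    (mul_ne_zero (NeZero.ne N) (Fact.out (p := p.Prime)).ne_zero)] at hℓT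
  refine ⟨ℓ, hℓ, hℓT.1, fun h => hℓT.2 ⟨hℓ, dvd_mul_of_dvd_left h p⟩,
    fun h => hℓT.2 ⟨hℓ, h ▸ dvd_mul_left p N⟩, A, hA, τ, hτ, j, ?_⟩
  set g := σ⁻¹ * τ ^ j with hg
  have hfix : ∀ x ∈ L₁ ⊔ (L₂ ⊔ L₃), g x = x := fun x hx => by
    rw [hg, AlgEquiv.mul_apply, ← hj x hx]
    exact σ.symm_apply_apply x
  have e : τ ^ j = σ * g := by rw [hg, mul_inv_cancel_left]
  refine ⟨?_, ?_, ?_⟩
  · have : (Ideal.Quotient.mk (maximalIdeal O ^ n)).mapMatrix (galMatO hp F g) = 1 := by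
      ext i k
      rw [← map_one (Ideal.Quotient.mk (maximalIdeal O ^ n)).mapMatrix]
      simp only [RingHom.mapMatrix_apply, Matrix.map_apply]
      rw [Ideal.Quotient.eq, ← Matrix.sub_apply,
        ← map_one (padicIntHom O hp).mapMatrix]
      simp only [galMatO, RingHom.toMonoidHom_eq_coe, MonoidHom.coe_comp, MonoidHom.coe_coe,
        Function.comp_apply, RingHom.mapMatrix_apply, Matrix.sub_apply, Matrix.map_apply,
        ← map_sub]
      exact padicIntHom_mem_pow O hp (h₂ g (fun y hy => hfix y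
        (SetLike.le_def.1 (le_sup_of_le_right (le_sup_left)) hy)) i k)
    rw [e, map_mul, map_mul, this, mul_one]
  · have : (Ideal.Quotient.mk (maximalIdeal O ^ n)).mapMatrix (repMat ρ g) = 1 := by
      ext i k
      rw [← map_one (Ideal.Quotient.mk (maximalIdeal O ^ n)).mapMatrix]
      simp only [RingHom.mapMatrix_apply, Matrix.map_apply]
      rw [Ideal.Quotient.eq, ← Matrix.sub_apply]
      exact h₁ g (fun y hy => hfix y (SetLike.le_def.1 le_sup_left hy)) i k
    rw [e, map_mul, map_mul, this, mul_one]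
  · rw [e, map_mul, map_mul, ← neg_sub, neg_mem_iff,
      show padicIntHom O hp (padicCyclo p σ) * padicIntHom O hp (padicCyclo p g)
          - padicIntHom O hp (padicCyclo p σ)
        = padicIntHom O hp (padicCyclo p σ)
          * (padicIntHom O hp (padicCyclo p g) - 1) by ring]
    refine Ideal.mul_mem_left _ _ ?_
    rw [← map_one (padicIntHom O hp), ← map_sub]
    refine padicIntHom_mem_pow O hp ?_
    rw [map_sub, h₃ g (fun y hy => hfix y
      (SetLike.le_def.1 (le_sup_of_le_right (le_sup_right)) hy)), map_one, sub_self]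

include hρ hF F in
/-- The determinant is the cyclotomic character. -/
theorem det_eq_padicCyclo (σ : Γℚ) :
    LinearMap.det (ρ.ρ σ) = padicIntHom O hp (padicCyclo p σ) := by
  rw [← det_repMat]
  refine eq_of_forall_sub_mem_pow fun n => ?_
  obtain ⟨ℓ, hℓ, hℓS, hℓN, hℓp, A, hA, τ, hτ, j, -, h2, h3⟩ :=
    exists_frobenius_approx (F := F) hp ρ hF σ S n
  have hd := (trace_det_of_charpoly ρ (hρ ℓ hℓ hℓS A hA τ hτ)).2
  have hdet : (repMat ρ σ).det - (repMat ρ (τ ^ j)).det ∈ maximalIdeal O ^ n := by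
    rw [← Ideal.Quotient.eq, RingHom.map_det, RingHom.map_det, h2]
  have e : (repMat ρ (τ ^ j)).det = padicIntHom O hp (padicCyclo p (τ ^ j)) := by
    rw [map_pow, Matrix.det_pow, hd, map_pow, map_pow, padicCyclo_frobenius p hℓ hℓp hA hτ,
      map_natCast]
  rw [e] at hdet
  simpa using Ideal.sub_mem _ hdet h3

include hρ in
/-- The characteristic polynomial of the representation kills the eigen vectors. -/
theorem eigenEnd_quad (σ : Γℚ) :
    eigenEnd (F := F) hp hF S a σ * eigenEnd hp hF S a σ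
      - (repMat ρ σ).trace • eigenEnd hp hF S a σ + (repMat ρ σ).det • 1 = 0 := by
  refine LinearMap.ext fun v => Subtype.ext (funext fun i => ?_)
  refine eq_of_forall_sub_mem_pow fun n => ?_
  obtain ⟨ℓ, hℓ, hℓS, hℓN, hℓp, A, hA, τ, hτ, j, h1, h2, -⟩ :=
    exists_frobenius_approx (F := F) hp ρ hF σ S n
  have hq := quad_pow (E := Module.End O (eigenSub F S a))
    (eigenEnd_frobenius (F := F) hp hF ρ hρ hℓ hℓS hℓN hℓp hA hτ) j
  rw [← map_pow, ← trace_pow, ← Matrix.det_pow, ← map_pow (repMat ρ)] at hq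
  have hz := congrFun (congrArg Subtype.val (LinearMap.congr_fun hq v)) i
  simp only [LinearMap.add_apply, LinearMap.sub_apply, LinearMap.smul_apply,
    Module.End.mul_apply, Module.End.one_apply, LinearMap.zero_apply, Submodule.coe_add,
    Submodule.coe_sub, Submodule.coe_smul, coe_eigenEnd, ZeroMemClass.coe_zero] at hz ⊢
  rw [← hz, ← Ideal.Quotient.eq]
  set π := Ideal.Quotient.mk (maximalIdeal O ^ n)
  simp only [RingHom.mapMatrix_apply] at h1 h2
  simp only [Matrix.mulVec_mulVec, Pi.add_apply, Pi.sub_apply, Pi.smul_apply, smul_eq_mul,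
    map_add, map_sub, map_mul, RingHom.map_mulVec, Matrix.map_mul, h1,
    AddMonoidHom.map_trace π, RingHom.map_det, RingHom.mapMatrix_apply, h2]

end Eigen

end Fermat.Agent.Carayol.TameTrace
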