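/-
The frame of `J₀(N)[p^∞]` given by the generators of `H₁`, and eigen vectors in its coordinates
from eigen classes with coefficients in `O`.
-/
import Fermat.Agent.GaloisAdic.Inputs
import Fermat.Agent.Carayol.BDensity
import Fermat.Agent.Raise.Degeneracy

set_option autoImplicit false

noncomputable section

namespace Fermat.Agent.Carayol.TameTrace

open GaloisAdic
open scoped Matrix

variable (N : ℕ) [NeZero N] (p : ℕ) [Fact p.Prime]

instance neZero_prime_pow (n : ℕ) : NeZero (p ^ n) :=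
  ⟨pow_ne_zero _ (Fact.out (p := p.Prime)).ne_zero⟩

/-- The coordinates on `J₀(N)[pⁿ]` given by the generators. -/
def parCoord (n : ℕ) : (Fin (HeckeCohom.rk N) → ZMod (p ^ n)) →+ ModularCurve.JZero N :=
  (Torsion.jTorsion N (p ^ n)).subtype.comp (Torsion.torsionCoord N (p ^ n)).toAddMonoidHom

theorem isTorsionIso_parCoord (n : ℕ) :
    (parHeckeMatrices N).IsTorsionIso p n (parCoord N p n) := by
  refine ⟨Subtype.val_injective.comp (Torsion.torsionCoord N (p ^ n)).injective, fun x => ?_,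
    fun q v => ?_⟩
  · constructor
    · rintro ⟨v, rfl⟩
      exact Torsion.mem_jTorsion.1 (Subtype.coe_prop _)
    · intro hx
      obtain ⟨v, hv⟩ := (Torsion.torsionCoord N (p ^ n)).surjective ⟨x, Torsion.mem_jTorsion.2 hx⟩
      exact ⟨v, congrArg Subtype.val hv⟩
  · let P := ParHom.parEquiv (ParHom.neg_one_mem_Gamma0 N) ℤ (ZMod (p ^ n))
    show ModularCurve.heckeOperatorBar N q (Torsion.torsionEquiv N (p ^ n) (P.symm v) :
        ModularCurve.JZero N) = (Torsion.torsionEquiv N (p ^ n) (P.symm _) : ModularCurve.JZero N)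
    rw [Torsion.heckeOperatorBar_torsionEquiv]
    congr 2
    apply P.injective
    refine Eq.trans ?_ (P.apply_symm_apply _).symm
    funext i
    have h := HeckeCohom.heckeAct_gen (R := ℤ) (A := ZMod (p ^ n)) (heckeGenAt N q) (P.symm v) i
    rw [heckeAct_heckeGenAt] at h
    refine h.trans ?_
    show _ = ∑ j, (parHeckeMatrices N).genMod (p ^ n) q i j * v j
    refine Finset.sum_congr rfl fun j _ => ?_
    have hj : ((P.symm v : _) : Additive (CongruenceSubgroup.Gamma0 N) →+ ZMod (p ^ n))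
        (Additive.ofMul (HeckeCohom.gen N j)) = v j := by
      rw [HeckeCohom.gen, ← ParHom.parEquiv_apply (R := ℤ)]
      exact congrFun (P.apply_symm_apply v) j
    rw [hj]
    simp [HeckeMatrices.genMod, parHeckeMatrices]
    rfl

theorem parCoord_compat (n : ℕ) (v : Fin (HeckeCohom.rk N) → ZMod (p ^ (n + 1))) :
    p • parCoord N p (n + 1) v
      = parCoord N p n fun i => ZMod.castHom (pow_dvd_pow p n.le_succ) (ZMod (p ^ n)) (v i) := by
  have : NeZero p := ⟨(Fact.out (p := p.Prime)).ne_zero⟩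
  let P := ParHom.parEquiv (ParHom.neg_one_mem_Gamma0 N) ℤ (ZMod (p ^ (n + 1)))
  let P' := ParHom.parEquiv (ParHom.neg_one_mem_Gamma0 N) ℤ (ZMod (p ^ n))
  let w : Fin (HeckeCohom.rk N) → ZMod (p ^ n) :=
    fun i => ZMod.castHom (pow_dvd_pow p n.le_succ) (ZMod (p ^ n)) (v i)
  refine Torsion.nsmul_torsionEquiv N (p ^ n) p (P.symm v) (P'.symm w) ?_
  let ψ : Torsion.CharMod N (p ^ n) :=
    ⟨(ZMod.castHom (pow_dvd_pow p n.le_succ) (ZMod (p ^ n))).toAddMonoidHom.comp
      (P.symm v : Additive (CongruenceSubgroup.Gamma0 N) →+ ZMod (p ^ (n + 1))),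
      ParHom.mem_parEllHoms.2 fun γ hγ => by
        rw [AddMonoidHom.comp_apply, ParHom.mem_parEllHoms.1 (P.symm v).2 γ hγ, map_zero]⟩
  have hψ : P'.symm w = ψ := by
    apply P'.injective
    rw [LinearEquiv.apply_symm_apply]
    funext i
    have h := congrFun (P.apply_symm_apply v) i
    rw [ParHom.parEquiv_apply] at h
    rw [ParHom.parEquiv_apply]
    exact (congrArg (ZMod.castHom (pow_dvd_pow p n.le_succ) (ZMod (p ^ n))) h).symm
  rw [hψ]
  exact rfl

/-- The frame given by the generators. -/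
def parFrame : TorsionFrame N p where
  H := parHeckeMatrices N
  e := parCoord N p
  isTorsionIso := isTorsionIso_parCoord N p
  compat := parCoord_compat N p

variable {N} {O : Type} [CommRing O]

/-- The coordinates of a class with coefficients in `O`. -/
def coordVec (φ : ParHom.parEllHoms (CongruenceSubgroup.Gamma0 N) O O) :
    Fin (parFrame N p).H.r → O :=
  fun i => (φ : Additive (CongruenceSubgroup.Gamma0 N) →+ O) (Additive.ofMul (HeckeCohom.gen N i))

variable [IsLocalRing O]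

omit [IsLocalRing O] in
/-- An eigen class at level `N` restricted to level `4 N`. -/
theorem exists_raise_four {N' : ℕ} [NeZero N'] (hN' : N' = N * 2 * 2) {S : Finset ℕ} {a : ℕ → O}
    (φ : ParHom.parEllHoms (CongruenceSubgroup.Gamma0 N) O O)
    (hφ : ∀ ℓ : Nat.Primes, (ℓ : ℕ) ∉ S → HeckeCohom.heckeParEll N O O ℓ φ = a ℓ • φ)
    (hle : CongruenceSubgroup.Gamma0 N' ≤ CongruenceSubgroup.Gamma0 N) :
    ∃ φ' : ParHom.parEllHoms (CongruenceSubgroup.Gamma0 N') O O,
      (∀ g : CongruenceSubgroup.Gamma0 N',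
        (φ' : Additive (CongruenceSubgroup.Gamma0 N') →+ O) (Additive.ofMul g)
          = (φ : Additive (CongruenceSubgroup.Gamma0 N) →+ O)
              (Additive.ofMul (Subgroup.inclusion hle g))) ∧
      ∀ ℓ : Nat.Primes, (ℓ : ℕ) ∉ S → ¬ (ℓ : ℕ) ∣ N' →
        HeckeCohom.heckeParEll N' O O ℓ φ' = a ℓ • φ' := by
  subst hN'
  have : Fact (Nat.Prime 2) := ⟨Nat.prime_two⟩
  refine ⟨Raise.res0 (q := 2) O O (Raise.res0 (q := 2) O O φ), fun g => rfl, fun ℓ hℓ hN => ?_⟩
  rw [Raise.heckeParEll_res0 ℓ hN, Raise.heckeParEll_res0 ℓ fun h => hN (h.mul_right 2), hφ ℓ hℓ,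
    map_smul, map_smul]

omit [IsLocalRing O] in
theorem coordVec_mem_eigenSub {S : Finset ℕ} {a : ℕ → O}
    {φ : ParHom.parEllHoms (CongruenceSubgroup.Gamma0 N) O O}
    (hφ : ∀ ℓ : Nat.Primes, (ℓ : ℕ) ∉ S → ¬ (ℓ : ℕ) ∣ N →
      HeckeCohom.heckeParEll N O O ℓ φ = a ℓ • φ) :
    coordVec p φ ∈ eigenSub (parFrame N p) S a := fun ℓ hℓ hS hN => by
  funext i
  have h := HeckeCohom.heckeAct_gen (R := O) (A := O) (heckeGenAt N ⟨ℓ, hℓ⟩) φ i
  have e : HeckeCohom.heckeAct N O O (heckeGenAt N ⟨ℓ, hℓ⟩) φ = a ℓ • φ :=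
    (LinearMap.congr_fun (heckeAct_heckeGenAt O O ⟨ℓ, hℓ⟩) φ).trans (hφ ⟨ℓ, hℓ⟩ hS hN)
  erw [e] at h
  refine Eq.trans ?_ h.symm
  simp [Matrix.mulVec, dotProduct, parFrame, parHeckeMatrices, coordVec]
  rfl

end Fermat.Agent.Carayol.TameTrace
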