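/-
The gluing step of the cuspidality argument (Carayol's theorem).

`Br` is the set of branches at the singular points `P` of the special fibre of `X(q; M')`, whose
components are indexed by `G ⧸ B`. A gluing class `φ : Br → A`, taken modulo functions of the
component plus functions of the point, which is fixed by the torus and by inertia and has
vanishing norms to the two Borel subgroups containing the torus, is killed by an explicit
positive integer.
-/
import Fermat.Agent.Carayol.CuspidalGroup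

set_option autoImplicit false

namespace Fermat.Agent.Carayol

open Matrix
open scoped MatrixGroups

namespace Cuspidal

variable {q : ℕ} [Fact q.Prime]

attribute [-simp] ZMod.inv_coe_unit

variable (q) in
/-- The upper triangular subgroup. -/
def borel : Subgroup SL(2, ZMod q) where
  carrier := {g | g 1 0 = 0}
  one_mem' := by simp
  mul_mem' {g h} hg hh := by
    simp only [Set.mem_ofPred_eq] at hg hh ⊢
    simp [Matrix.mul_apply, Fin.sum_univ_two, hg, hh]
  inv_mem' {g} hg := by
    simp only [Set.mem_ofPred_eq] at hg ⊢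
    simp [Matrix.SpecialLinearGroup.coe_inv, Matrix.adjugate_fin_two, hg]

theorem mem_borel {g : SL(2, ZMod q)} : g ∈ borel q ↔ g 1 0 = 0 := Iff.rfl

theorem bor_mem (p : (ZMod q)ˣ × ZMod q) : bor p ∈ borel q := by
  rw [mem_borel]
  simp [bor, Matrix.mul_apply, Fin.sum_univ_two]

theorem uni_mem (β : ZMod q) : uni β ∈ borel q := by
  rw [mem_borel]
  simp

theorem tor_mem (a : (ZMod q)ˣ) : tor a ∈ borel q := by
  rw [mem_borel]
  simp

/-- The inverse on parameters of the Borel subgroup. -/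
def borInv : (ZMod q)ˣ × ZMod q ≃ (ZMod q)ˣ × ZMod q :=
  Function.Involutive.toPerm (fun p => (p.1⁻¹, -((p.1 : ZMod q) * p.1 * p.2))) fun p => by
    obtain ⟨a, β⟩ := p
    have ha : (a : ZMod q) ≠ 0 := a.ne_zero
    refine Prod.ext (inv_inv a) ?_
    simp only [Units.val_inv_eq_inv_val]
    field_simp

theorem borInv_apply (p : (ZMod q)ˣ × ZMod q) :
    borInv p = (p.1⁻¹, -((p.1 : ZMod q) * p.1 * p.2)) := rfl

theorem bor_borInv (p : (ZMod q)ˣ × ZMod q) : bor (borInv p) = (bor p)⁻¹ := by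
  obtain ⟨a, β⟩ := p
  have ha : (a : ZMod q) ≠ 0 := a.ne_zero
  rw [eq_inv_iff_mul_eq_one]
  ext i j
  fin_cases i <;> fin_cases j <;>
    simp [borInv_apply, bor, Matrix.mul_apply, Fin.sum_univ_two, Units.val_inv_eq_inv_val, ha]
  field_simp
  ring

theorem sum_bor_inv {A : Type*} [AddCommGroup A] (f : SL(2, ZMod q) → A) :
    ∑ p, f (bor p)⁻¹ = ∑ p, f (bor p) := by
  simp_rw [← bor_borInv]
  exact Equiv.sum_comp borInv fun p => f (bor p)

/-- Two opposite unipotent subgroups generate `SL₂`. -/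
theorem mem_of_unipotents (S : Subgroup SL(2, ZMod q)) (hU : ∀ β, uni β ∈ S)
    (hL : ∀ β, weyl * uni β * weyl⁻¹ ∈ S) (g : SL(2, ZMod q)) : g ∈ S := by
  have key : ∀ g : SL(2, ZMod q), g 1 0 ≠ 0 → g ∈ S := by
    intro g hc
    have e : g = uni ((g 0 0 - 1) / g 1 0) * (weyl * uni (-(g 1 0)) * weyl⁻¹) *
        uni ((g 1 1 - 1) / g 1 0) := by
      have hdet : g 0 0 * g 1 1 - g 0 1 * g 1 0 = 1 := by
        have h := g.2
        rwa [Matrix.det_fin_two] at h
      ext i j
      fin_cases i <;> fin_cases j <;>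
        simp [Matrix.mul_apply, Fin.sum_univ_two, Matrix.SpecialLinearGroup.coe_inv,
          Matrix.adjugate_fin_two]
      · field_simp
        ring
      · field_simp
        linear_combination -hdet
      · field_simp
        ring
    rw [e]
    exact mul_mem (mul_mem (hU _) (hL _)) (hU _)
  rcases eq_or_ne (g 1 0) 0 with hc | hc
  · have ha : g 0 0 ≠ 0 := by
      intro h0
      have h := g.2
      rw [Matrix.det_fin_two, h0, hc] at h
      simp at h
    have h1 : ((weyl : SL(2, ZMod q)) * uni (-1) * weyl⁻¹) * g ∈ S := by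
      refine key _ ?_
      simpa [Matrix.mul_apply, Fin.sum_univ_two, Matrix.SpecialLinearGroup.coe_inv,
        Matrix.adjugate_fin_two, hc] using ha
    exact (Subgroup.mul_mem_cancel_left S (hL _)).mp h1
  · exact key g hc

section Function

variable {A : Type*} [AddCommGroup A] (E : SL(2, ZMod q) → A)

/-- Functions on the components. -/
theorem nsmul_sub_eq_zero
    (hE : ∀ g h, h ∈ borel q → E (g * h) = E g) (htw : ∀ c g, E (twist c g) = E g)
    (hS : ∑ p, E (bor p) = ∑ p, E (bor p * weyl))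
    (hS' : ∑ p, E (weyl * bor p) = ∑ p, E (weyl * bor p * weyl))
    (g : SL(2, ZMod q)) :
    ((q * q - 1) * (q - 1)) • (E g - E 1) = 0 := by
  have hT : ∀ a g, E (tor a * g) = E g := fun a g => by
    rw [← twist_sq, hE _ _ (tor_mem a), htw]
  have hB1 : ∀ p, E (bor p) = E 1 := fun p => by
    simpa using hE 1 (bor p) (bor_mem p)
  have hwB : ∀ p, E (weyl * bor p) = E weyl := fun p => hE _ _ (bor_mem p)
  have h1 : ∀ β : ZMod q, β ≠ 0 → E (uni β * weyl) = E (uni 1 * weyl) := fun β hβ => by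
    calc E (uni β * weyl) = E (uni β * (weyl * tor (Units.mk0 β hβ)⁻¹)) := by
          rw [← mul_assoc, hE _ _ (tor_mem _)]
      _ = E (twist (Units.mk0 β hβ) (uni 1 * weyl)) := by
          rw [map_mul, twist_uni, twist_weyl, weyl_mul_tor, inv_inv, Units.val_mk0, mul_one]
      _ = _ := htw _ _
  -- the generic value
  have hgen : ∀ g : SL(2, ZMod q), g 1 0 ≠ 0 → g 0 0 ≠ 0 → E g = E (uni 1 * weyl) := by
    intro g hc ha
    rcases bruhat g with ⟨p, rfl⟩ | ⟨α, a, β, rfl⟩
    · exact absurd (bor_mem p) hc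
    · have hα : α ≠ 0 := by
        rintro rfl
        exact ha (by simp [Matrix.mul_apply, Fin.sum_univ_two])
      rw [hE _ _ (uni_mem β), hE _ _ (tor_mem a), h1 α hα]
  set x := E 1 - E (uni 1 * weyl) with hx
  set y := E weyl - E (uni 1 * weyl) with hy
  have key : ∀ (f : SL(2, ZMod q) → A) (u v : A), f 1 = u →
      (∀ β : ZMod q, β ≠ 0 → f (uni β) = v) →
      ∑ β : ZMod q, f (uni β) = u + (q - 1) • v := by
    intro f u v h0 hne
    rw [← Finset.add_sum_erase _ _ (Finset.mem_univ (0 : ZMod q)), uni_zero, h0,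
      Finset.sum_congr rfl fun β hβ => hne β (Finset.ne_of_mem_erase hβ),
      Finset.sum_const, Finset.card_erase_of_mem (Finset.mem_univ _), Finset.card_univ,
      ZMod.card]
  have hq : 2 ≤ q := (Fact.out : q.Prime).two_le
  have hqq : (q - 1) * q = (q - 1) * (q - 1) + (q - 1) := by
    rw [← Nat.mul_succ, Nat.succ_eq_add_one, Nat.sub_add_cancel (by omega)]
  have e1 : ((q - 1) * q) • x = (q - 1) • y := by
    simp only [hB1] at hS
    simp only [Fintype.sum_prod_type, bor, mul_assoc, hT] at hS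
    rw [key (fun g => E (g * weyl)) (E weyl) (E (uni 1 * weyl)) (by rw [one_mul]) h1] at hS
    simp only [Finset.sum_const, Finset.card_univ, ZMod.card_units, ZMod.card, smul_smul] at hS
    rw [hx, hy, smul_sub, hS, smul_add, smul_smul, smul_sub]
    rw [hqq, add_smul]
    abel
  have e2 : ((q - 1) * q) • y = (q - 1) • x := by
    have hw : ∀ p : (ZMod q)ˣ × ZMod q,
        E (weyl * bor p * weyl) = E (weyl * uni p.2 * weyl) := fun p => by
      rw [bor, ← mul_assoc, weyl_mul_tor, mul_assoc _ weyl, mul_assoc, hT]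
    simp only [hwB, hw] at hS'
    have hm1 : E (weyl * weyl) = E 1 := by
      simpa using hE 1 (weyl * weyl) (by rw [mem_borel]; simp [Matrix.mul_apply, Fin.sum_univ_two])
    have hne : ∀ β : ZMod q, β ≠ 0 → E (weyl * uni β * weyl) = E (uni 1 * weyl) := fun β hβ =>
      hgen _ (by simpa [Matrix.mul_apply, Fin.sum_univ_two] using hβ)
        (by simp [Matrix.mul_apply, Fin.sum_univ_two])
    simp only [Fintype.sum_prod_type] at hS'
    rw [key (fun g => E (weyl * g * weyl)) (E 1) (E (uni 1 * weyl)) (by rw [mul_one, hm1]) hne]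
      at hS'
    simp only [Finset.sum_const, Finset.card_univ, ZMod.card_units, ZMod.card, smul_smul] at hS'
    rw [hx, hy, smul_sub, hS', smul_add, smul_smul, smul_sub]
    rw [hqq, add_smul]
    abel
  have hk : ∀ u v : A, ((q - 1) * q) • u = (q - 1) • v → ((q - 1) * q) • v = (q - 1) • u →
      ((q * q - 1) * (q - 1)) • u = 0 := by
    intro u v hu hv
    have : (q * q * (q - 1)) • u = (q - 1) • u := by
      rw [show q * q * (q - 1) = q * ((q - 1) * q) by ring, mul_smul, hu, smul_smul,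
        mul_comm q (q - 1), hv]
    rw [Nat.sub_mul, one_mul, sub_nsmul _ (Nat.le_mul_of_pos_left _ (by positivity)), this]
    abel
  have hxk := hk x y e1 e2
  have hyk := hk y x e2 e1
  rcases bruhat g with ⟨p, rfl⟩ | ⟨α, a, β, rfl⟩
  · rw [hB1, sub_self, smul_zero]
  · rw [hE _ _ (uni_mem β), hE _ _ (tor_mem a)]
    rcases eq_or_ne α 0 with rfl | hα
    · rw [uni_zero, one_mul, show E weyl - E 1 = y - x by rw [hx, hy]; abel, smul_sub, hxk,
        hyk, sub_zero]
    · rw [h1 α hα, ← neg_sub, smul_neg, ← hx, hxk, neg_zero]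

end Function

section Gluing

variable {Br P A C : Type*} [AddCommGroup A] [MulAction SL(2, ZMod q) Br]
  [MulAction SL(2, ZMod q) P] [MulAction SL(2, ZMod q) C] (comp : Br → C) (pt : Br → P)

variable (A) in
/-- Trivial gluing data: a function of the component plus a function of the point. -/
def trivialGluing : AddSubgroup (Br → A) where
  carrier := {f | ∃ (a : C → A) (b : P → A), ∀ β, f β = a (comp β) + b (pt β)}
  zero_mem' := ⟨0, 0, fun β => by simp⟩
  add_mem' {f f'} := by
    rintro ⟨a, b, h⟩ ⟨a', b', h'⟩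
    exact ⟨a + a', b + b', fun β => by simp only [Pi.add_apply, h, h']; abel⟩
  neg_mem' {f} := by
    rintro ⟨a, b, h⟩
    exact ⟨-a, -b, fun β => by simp only [Pi.neg_apply, h]; abel⟩

omit [MulAction SL(2, ZMod q) Br] [MulAction SL(2, ZMod q) P] [MulAction SL(2, ZMod q) C] in
theorem mem_trivialGluing {f : Br → A} :
    f ∈ trivialGluing A comp pt ↔ ∃ (a : C → A) (b : P → A),
      ∀ β, f β = a (comp β) + b (pt β) := Iff.rfl

variable {comp pt}

/-- The integer killing gluing classes. -/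
def gluingExponent (q : ℕ) : ℕ :=
  (q * q - 1) * (q - 1) * (q * (q - 1) ^ 2)

theorem gluingExponent_pos : 0 < gluingExponent q := by
  have hq : 2 ≤ q := (Fact.out : q.Prime).two_le
  have : 4 ≤ q * q := Nat.mul_le_mul hq hq
  simp only [gluingExponent]
  have h1 : 0 < q * q - 1 := by omega
  have h2 : 0 < q - 1 := by omega
  positivity

/-- On a set `D` of components, stable under `U` and inertia pointwise, `φ` is killed modulo
trivial gluing data. -/
theorem exists_nsmul_eq_on
    (hcomp : ∀ (g : SL(2, ZMod q)) β, comp (g • β) = g • comp β)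
    (hpt : ∀ (g : SL(2, ZMod q)) β, pt (g • β) = g • pt β)
    (D : Set C) (hU : ∀ (x : ZMod q) β, comp β ∈ D → uni x • β = β)
    (σ : (ZMod q)ˣ → Br → Br)
    (hσ : ∀ c (g : SL(2, ZMod q)) β, σ c (g • β) = twist c g • σ c β)
    (hσfix : ∀ c β, comp β ∈ D → σ c β = β)
    {φ : Br → A}
    (hT : ∀ a : (ZMod q)ˣ, (fun β => φ (tor a • β) - φ β) ∈ trivialGluing A comp pt)
    (hσφ : ∀ c, (fun β => φ (σ c β) - φ β) ∈ trivialGluing A comp pt)
    (hB : (fun β => ∑ p : (ZMod q)ˣ × ZMod q, φ (bor p • β)) ∈ trivialGluing A comp pt)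
    (hB' : (fun β => ∑ p : (ZMod q)ˣ × ZMod q, φ ((weyl : SL(2, ZMod q)) • bor p • β)) ∈
      trivialGluing A comp pt) (g : SL(2, ZMod q)) :
    ∃ (a : C → A) (b : P → A), ∀ β, comp (g⁻¹ • β) ∈ D →
      (q * (q - 1) ^ 2) • φ β = a (comp β) + b (pt β) := by
  -- restriction to the components in `D`
  let W₀ : AddSubgroup ({β : Br // comp β ∈ D} → A) :=
    { carrier := {f | ∃ (a : C → A) (b : P → A), ∀ β, f β = a (comp β.1) + b (pt β.1)}
      zero_mem' := ⟨0, 0, fun β => by simp⟩
      add_mem' := fun {f f'} ⟨a, b, h⟩ ⟨a', b', h'⟩ =>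
        ⟨a + a', b + b', fun β => by simp only [Pi.add_apply, h, h']; abel⟩
      neg_mem' := fun {f} ⟨a, b, h⟩ =>
        ⟨-a, -b, fun β => by simp only [Pi.neg_apply, h]; abel⟩ }
  have hstab : ∀ g : SL(2, ZMod q), ∀ f ∈ trivialGluing A comp pt,
      (fun β : {β : Br // comp β ∈ D} => f (g • β.1)) ∈ W₀ := by
    rintro g f ⟨a, b, h⟩
    exact ⟨fun c => a (g • c), fun s => b (g • s), fun β => by simp only [h, hcomp, hpt]⟩
  let Φ : SL(2, ZMod q) → ({β : Br // comp β ∈ D} → A) ⧸ W₀ :=
    fun g => QuotientAddGroup.mk fun β => φ (g⁻¹ • β.1)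
  have heq : ∀ f f' : {β : Br // comp β ∈ D} → A, f' - f ∈ W₀ →
      (QuotientAddGroup.mk f' : _ ⧸ W₀) = QuotientAddGroup.mk f := fun f f' h => by
    rw [← sub_eq_zero, ← QuotientAddGroup.mk_sub, QuotientAddGroup.eq_zero_iff]
    exact h
  have hΦsum : ∀ (ι : Type) [Fintype ι] (g : ι → SL(2, ZMod q)),
      (fun β : {β : Br // comp β ∈ D} => ∑ i, φ ((g i)⁻¹ • β.1)) ∈ W₀ →
      ∑ i, Φ (g i) = 0 := by
    intro ι _ g h
    have : ∑ i, Φ (g i) = QuotientAddGroup.mk' W₀
        (∑ i, fun β : {β : Br // comp β ∈ D} => φ ((g i)⁻¹ • β.1)) := by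
      rw [map_sum]
      rfl
    rw [this, QuotientAddGroup.mk'_apply, QuotientAddGroup.eq_zero_iff]
    convert h using 1
    ext β
    simp
  have hkey : ∀ g, (q * (q - 1) ^ 2) • Φ g = 0 := by
    refine nsmul_eq_zero Φ (fun x g => ?_) (fun g a => ?_) (fun c g => ?_) ?_ ?_ ?_
    · refine heq _ _ ?_
      convert W₀.zero_mem using 1
      funext β
      have hx : (uni x)⁻¹ • β.1 = β.1 := by rw [inv_smul_eq_iff, hU x β.1 β.2]
      simp [_root_.mul_inv_rev, mul_smul, hx]
    · refine heq _ _ ?_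
      convert W₀.neg_mem (hstab ((tor a)⁻¹ * g⁻¹) _ (hT a)) using 1
      funext β
      simp [_root_.mul_inv_rev, mul_smul]
    · refine heq _ _ ?_
      convert hstab g⁻¹ _ (hσφ c) using 1
      funext β
      simp [hσ, map_inv, hσfix c β.1 β.2]
    · refine hΦsum _ _ ?_
      convert hstab 1 _ hB using 1
      funext β
      simp only [one_smul]
      exact sum_bor_inv (fun h => φ (h • β.1))
    · refine hΦsum _ _ ?_
      convert hstab (weyl : SL(2, ZMod q))⁻¹ _ hB using 1
      funext β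
      simp only [_root_.mul_inv_rev, mul_smul]
      exact sum_bor_inv (fun h => φ (h • (weyl : SL(2, ZMod q))⁻¹ • β.1))
    · refine hΦsum _ _ ?_
      have hw : ((weyl : SL(2, ZMod q)))⁻¹ = weyl * tor (-1) := by
        rw [inv_eq_iff_mul_eq_one]
        ext i j
        fin_cases i <;> fin_cases j <;> simp [Matrix.mul_apply, Fin.sum_univ_two]
      obtain ⟨a, b, h⟩ := hT (-1)
      have h2 : (fun β => ∑ p : (ZMod q)ˣ × ZMod q,
          φ ((weyl : SL(2, ZMod q)) • (tor (-1) : SL(2, ZMod q)) • bor p • β)) ∈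
            trivialGluing A comp pt := by
        have hcentral : ∀ g : SL(2, ZMod q), tor (-1) * g = g * tor (-1) := fun g => by
          ext i j
          fin_cases i <;> fin_cases j <;> simp [Matrix.mul_apply, Fin.sum_univ_two]
        have hd : (fun β => ∑ p : (ZMod q)ˣ × ZMod q,
            (φ ((tor (-1) : SL(2, ZMod q)) • (weyl : SL(2, ZMod q)) • bor p • β) -
              φ ((weyl : SL(2, ZMod q)) • bor p • β))) ∈ trivialGluing A comp pt := by
          have hm : ∀ p : (ZMod q)ˣ × ZMod q,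
              (fun β => φ ((tor (-1) : SL(2, ZMod q)) • (weyl : SL(2, ZMod q)) • bor p • β) -
                φ ((weyl : SL(2, ZMod q)) • bor p • β)) ∈ trivialGluing A comp pt := fun p =>
            (mem_trivialGluing _ _).mpr ⟨fun L => a ((weyl : SL(2, ZMod q)) • bor p • L),
              fun s => b ((weyl : SL(2, ZMod q)) • bor p • s),
              fun β => by simpa [hcomp, hpt] using h ((weyl : SL(2, ZMod q)) • bor p • β)⟩
          convert sum_mem (t := (Finset.univ : Finset ((ZMod q)ˣ × ZMod q)))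
            (fun p _ => hm p) using 1
          funext β
          simp
        convert add_mem hd hB' using 1
        funext β
        simp [Finset.sum_sub_distrib, smul_smul, hcentral, mul_assoc]
      convert hstab 1 _ h2 using 1
      funext β
      simp only [one_smul, _root_.mul_inv_rev, hw, mul_smul]
      exact sum_bor_inv (fun h => φ ((weyl : SL(2, ZMod q)) • (tor (-1) : SL(2, ZMod q)) • h • β.1))
  have h := hkey g⁻¹
  simp only [Φ, ← QuotientAddGroup.mk_nsmul, QuotientAddGroup.eq_zero_iff] at h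
  obtain ⟨a, b, hb⟩ := h
  refine ⟨fun c => a (g⁻¹ • c), fun s => b (g⁻¹ • s), fun β hβ => ?_⟩
  simpa [hcomp, hpt] using hb ⟨g⁻¹ • β, hβ⟩

/-- The gluing lemma, for components lying over the projective line `G ⧸ B`. -/
theorem nsmul_mem_trivialGluing
    (hcomp : ∀ (g : SL(2, ZMod q)) β, comp (g • β) = g • comp β)
    (hpt : ∀ (g : SL(2, ZMod q)) β, pt (g • β) = g • pt β)
    (C₀ : C) (htrans : ∀ c : C, ∃ g : SL(2, ZMod q), g • C₀ = c)
    (line : C → SL(2, ZMod q) ⧸ borel q)
    (hline : ∀ (g : SL(2, ZMod q)) c, line (g • c) = g • line c)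
    (hline₀ : line C₀ = QuotientGroup.mk 1)
    (hU : ∀ (x : ZMod q) β, comp β = C₀ → uni x • β = β)
    (σ : (ZMod q)ˣ → Br → Br)
    (hσ : ∀ c (g : SL(2, ZMod q)) β, σ c (g • β) = twist c g • σ c β)
    (hσfix : ∀ c β, comp β = C₀ → σ c β = β)
    {φ : Br → A}
    (hT : ∀ a : (ZMod q)ˣ, (fun β => φ (tor a • β) - φ β) ∈ trivialGluing A comp pt)
    (hσφ : ∀ c, (fun β => φ (σ c β) - φ β) ∈ trivialGluing A comp pt)
    (hB : (fun β => ∑ p : (ZMod q)ˣ × ZMod q, φ (bor p • β)) ∈ trivialGluing A comp pt)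
    (hB' : (fun β => ∑ p : (ZMod q)ˣ × ZMod q, φ ((weyl : SL(2, ZMod q)) • bor p • β)) ∈
      trivialGluing A comp pt) :
    gluingExponent q • φ ∈ trivialGluing A comp pt := by
  classical
  set k₁ := q * (q - 1) ^ 2 with hk₁
  set k₂ := (q * q - 1) * (q - 1) with hk₂
  set L₀ : SL(2, ZMod q) ⧸ borel q := QuotientGroup.mk 1 with hL₀
  have hlineg : ∀ g : SL(2, ZMod q), line (g • C₀) = QuotientGroup.mk g := fun g => by
    rw [hline, hline₀, hL₀, MulAction.Quotient.smul_mk, smul_eq_mul, mul_one]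
  -- every branch over the line `∞` is the translate of one on `C₀` by the Borel subgroup
  have hmove : ∀ β, line (comp β) = L₀ → ∃ (p : (ZMod q)ˣ × ZMod q) (β₀ : Br), comp β₀ = C₀ ∧ bor p • β₀ = β := by
    intro β hβ
    obtain ⟨g, hg⟩ := htrans (comp β)
    have hgB : g ∈ borel q := by
      rw [← hg, hlineg, hL₀, QuotientGroup.eq, mul_one] at hβ
      simpa using inv_mem hβ
    rcases bruhat g with ⟨p, rfl⟩ | ⟨α, a, γ, rfl⟩
    · exact ⟨p, (bor p)⁻¹ • β, by rw [hcomp, ← hg, inv_smul_smul], smul_inv_smul _ _⟩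
    · exfalso
      rw [mem_borel] at hgB
      simp [Matrix.mul_apply, Fin.sum_univ_two] at hgB
  have hUD : ∀ (x : ZMod q) β, line (comp β) = L₀ → uni x • β = β := by
    intro x β hβ
    obtain ⟨⟨a, y⟩, β₀, h0, rfl⟩ := hmove β hβ
    have : uni x * bor (a, y) = bor (a, y) * uni (x / ((a : ZMod q) * (a : ZMod q))) := by
      have ha : (a : ZMod q) ≠ 0 := a.ne_zero
      ext i j
      fin_cases i <;> fin_cases j <;>
        simp [bor, Matrix.mul_apply, Fin.sum_univ_two]
      field_simp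
      ring
    rw [smul_smul, this, mul_smul, hU _ _ h0]
  have hσD : ∀ c β, line (comp β) = L₀ → σ c β = β := by
    intro c β hβ
    obtain ⟨⟨a, y⟩, β₀, h0, rfl⟩ := hmove β hβ
    have : twist c (bor (a, y)) = bor (a, y) * uni ((c : ZMod q) * y - y) := by
      ext i j
      fin_cases i <;> fin_cases j <;>
        simp [bor, Matrix.mul_apply, Fin.sum_univ_two]
      ring
    rw [hσ, hσfix c _ h0, this, mul_smul, hU _ _ h0]
  -- on each line `k₁ • φ` is trivial
  have hfac : ∀ L : SL(2, ZMod q) ⧸ borel q, ∃ (a : C → A) (b : P → A),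
      ∀ β, line (comp β) = L → k₁ • φ β = a (comp β) + b (pt β) := by
    intro L
    obtain ⟨g, rfl⟩ := QuotientGroup.mk_surjective L
    obtain ⟨a, b, h⟩ := exists_nsmul_eq_on hcomp hpt {c | line c = L₀} hUD σ hσ hσD hT hσφ
      hB hB' g
    refine ⟨a, b, fun β hβ => h β ?_⟩
    show line (comp (g⁻¹ • β)) = L₀
    rw [hcomp, hline, hβ, MulAction.Quotient.smul_mk, smul_eq_mul, inv_mul_cancel, hL₀]
  choose af f hf using hfac
  let A₁ : C → A := fun c => af (line c) c
  have hval₀ : ∀ β, k₁ • φ β = A₁ (comp β) + f (line (comp β)) (pt β) :=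
    fun β => hf _ β rfl
  -- points with branches on two lines are fixed and lie on every component
  let Shared : P → Prop :=
    fun s => ∃ β β', pt β = s ∧ pt β' = s ∧ line (comp β) ≠ line (comp β')
  have hstabL : ∀ β (g : SL(2, ZMod q)), line (comp β) = QuotientGroup.mk g → ∀ x,
      (g * uni x * g⁻¹) • pt β = pt β := fun β g hβ x => by
    have hb : line (comp (g⁻¹ • β)) = L₀ := by
      rw [hcomp, hline, hβ, MulAction.Quotient.smul_mk, smul_eq_mul, inv_mul_cancel, hL₀]
    rw [← hpt, mul_smul, mul_smul, hUD x _ hb, smul_inv_smul]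
  have hfix : ∀ s, Shared s → ∀ g : SL(2, ZMod q), g • s = s := by
    rintro s ⟨β, β', hs, hs', hne⟩ g
    obtain ⟨g₁, h₁⟩ := QuotientGroup.mk_surjective (line (comp β))
    obtain ⟨g₂, h₂⟩ := QuotientGroup.mk_surjective (line (comp β'))
    have hU' : ∀ x, g₁ * uni x * g₁⁻¹ ∈ MulAction.stabilizer SL(2, ZMod q) s := fun x => by
      rw [MulAction.mem_stabilizer_iff, ← hs, hstabL β g₁ h₁.symm x]
    have hU'' : ∀ x, g₂ * uni x * g₂⁻¹ ∈ MulAction.stabilizer SL(2, ZMod q) s := fun x => by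
      rw [MulAction.mem_stabilizer_iff, ← hs', hstabL β' g₂ h₂.symm x]
    let S := MulAction.stabilizer SL(2, ZMod q) s
    let S' : Subgroup SL(2, ZMod q) := S.comap (MulAut.conj g₁).toMonoidHom
    have hS' : ∀ h, h ∈ S' ↔ g₁ * h * g₁⁻¹ ∈ S := fun h => by
      simp [S', Subgroup.mem_comap, MulAut.conj_apply]
    have hu : ∀ x, uni x ∈ S' := fun x => (hS' _).mpr (hU' x)
    rcases bruhat (g₁⁻¹ * g₂) with ⟨p, hp⟩ | ⟨α, a, γ, hp⟩
    · exact absurd (by rw [← h₁, ← h₂, QuotientGroup.eq, hp]; exact bor_mem p) hne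
    have hl : ∀ x, weyl * uni x * weyl⁻¹ ∈ S' := by
      intro x
      have ha : (a : ZMod q) ≠ 0 := a.ne_zero
      have h2 : g₁⁻¹ * g₂ * uni (x / ((a : ZMod q) * (a : ZMod q))) * (g₁⁻¹ * g₂)⁻¹ ∈ S' := by
        rw [hS']
        convert hU'' (x / ((a : ZMod q) * (a : ZMod q))) using 1
        group
      have e : weyl * uni x * weyl⁻¹ = (uni α)⁻¹ *
          (g₁⁻¹ * g₂ * uni (x / ((a : ZMod q) * (a : ZMod q))) * (g₁⁻¹ * g₂)⁻¹) * uni α := by
        have hc : tor a * uni γ * uni (x / ((a : ZMod q) * (a : ZMod q))) * (tor a * uni γ)⁻¹ =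
            uni x := by
          have e2 : uni γ * uni (x / ((a : ZMod q) * (a : ZMod q))) =
              uni (x / ((a : ZMod q) * (a : ZMod q))) * uni γ := by
            ext i j
            fin_cases i <;> fin_cases j <;> simp [Matrix.mul_apply, Fin.sum_univ_two, add_comm]
          calc tor a * uni γ * uni (x / ((a : ZMod q) * (a : ZMod q))) * (tor a * uni γ)⁻¹
              = tor a * (uni γ * uni (x / ((a : ZMod q) * (a : ZMod q)))) * (uni γ)⁻¹ *
                  (tor a)⁻¹ := by
                group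
            _ = tor a * uni (x / ((a : ZMod q) * (a : ZMod q))) * (tor a)⁻¹ := by rw [e2]; group
            _ = uni x * tor a * (tor a)⁻¹ := by
                rw [tor_mul_uni]
                congr 3
                field_simp
            _ = uni x := by group
        rw [hp, ← hc]
        group
      rw [e]
      exact mul_mem (mul_mem (inv_mem (hu α)) h2) (hu α)
    have := mem_of_unipotents S' hu hl (g₁⁻¹ * g * g₁)
    rw [hS'] at this
    have e : g₁ * (g₁⁻¹ * g * g₁) * g₁⁻¹ = g := by group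
    rw [e] at this
    exact this
  have hev : ∀ s, Shared s → ∀ c : C, ∃ β, comp β = c ∧ pt β = s := by
    intro s hs c
    obtain ⟨β, -, hβ, -, -⟩ := id hs
    obtain ⟨h, hh⟩ := htrans (comp β)
    obtain ⟨g, hg⟩ := htrans c
    refine ⟨(g * h⁻¹) • β, ?_, ?_⟩
    · rw [hcomp, ← hh, smul_smul, inv_mul_cancel_right, hg]
    · rw [hpt, hβ, hfix s hs]
  have hval : ∀ (g h : SL(2, ZMod q)) β, comp β = h • C₀ → Shared (pt β) →
      k₁ • φ (g • β) = A₁ ((g * h) • C₀) + f (QuotientGroup.mk (g * h)) (pt β) := by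
    intro g h β hβ hs
    rw [hval₀, hcomp, hpt, hfix _ hs, hβ, smul_smul, hlineg]
  -- differences between two shared points
  have hdiff : ∀ s s', Shared s → Shared s' → ∀ g : SL(2, ZMod q),
      k₂ • ((f (QuotientGroup.mk g) s - f (QuotientGroup.mk g) s') -
        (f L₀ s - f L₀ s')) = 0 := by
    intro s s' hs hs' g
    set E : SL(2, ZMod q) → A := fun g =>
      f (QuotientGroup.mk g) s - f (QuotientGroup.mk g) s' with hEdef
    -- a trivial gluing class has no double differences
    have hdd : ∀ F ∈ trivialGluing A comp pt, ∀ β₁ β₁' β₂ β₂', comp β₁ = comp β₁' →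
        comp β₂ = comp β₂' → pt β₁ = pt β₂ → pt β₁' = pt β₂' →
        F β₁ - F β₁' = F β₂ - F β₂' := by
      rintro F ⟨a, b, h⟩ β₁ β₁' β₂ β₂' e₁ e₂ e₃ e₄
      rw [h, h, h, h, e₁, e₂, e₃, e₄]
      abel
    have hsumE : ∀ (r : (ZMod q)ˣ × ZMod q → SL(2, ZMod q)),
        (fun β => ∑ p, φ (r p • β)) ∈ trivialGluing A comp pt →
        ∀ h h', ∑ p, E (r p * h) = ∑ p, E (r p * h') := by
      intro r hr h h'
      obtain ⟨β₁, hc₁, hp₁⟩ := hev s hs (h • C₀)
      obtain ⟨β₁', hc₁', hp₁'⟩ := hev s' hs' (h • C₀)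
      obtain ⟨β₂, hc₂, hp₂⟩ := hev s hs (h' • C₀)
      obtain ⟨β₂', hc₂', hp₂'⟩ := hev s' hs' (h' • C₀)
      have := congrArg (fun x => k₁ • x)
        (hdd _ hr β₁ β₁' β₂ β₂' (hc₁.trans hc₁'.symm) (hc₂.trans hc₂'.symm)
          (hp₁.trans hp₂.symm) (hp₁'.trans hp₂'.symm))
      simp only [smul_sub, Finset.smul_sum] at this
      simp only [← hp₁, ← hp₁'] at hs hs'
      simp only [hval _ h β₁ hc₁ hs, hval _ h β₁' hc₁' hs',
        hval _ h' β₂ hc₂ (by rw [hp₂, ← hp₁]; exact hs),
        hval _ h' β₂' hc₂' (by rw [hp₂', ← hp₁']; exact hs'), hp₁, hp₁', hp₂, hp₂',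
        ← Finset.sum_sub_distrib, add_sub_add_left_eq_sub] at this
      exact this
    have htw : ∀ c g, E (twist c g) = E g := by
      intro c g
      have aux : ∀ g, ∀ s, Shared s → ∃ β, comp β = g • C₀ ∧ pt β = s ∧
          comp (σ c β) = twist c g • C₀ ∧ pt (σ c β) = s := by
        intro g s hs
        obtain ⟨β₀, h0, hp0⟩ := hev s hs C₀
        refine ⟨g • β₀, ?_, by rw [hpt, hp0, hfix s hs], ?_,
          by rw [hσ, hσfix c β₀ h0, hpt, hp0, hfix s hs]⟩
        · rw [hcomp, h0]
        · rw [hσ, hσfix c β₀ h0, hcomp, h0]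
      obtain ⟨β₁, hc₁, hp₁, hd₁, he₁⟩ := aux g s hs
      obtain ⟨β₁', hc₁', hp₁', hd₁', he₁'⟩ := aux g s' hs'
      obtain ⟨β₂, hc₂, hp₂, hd₂, he₂⟩ := aux 1 s hs
      obtain ⟨β₂', hc₂', hp₂', hd₂', he₂'⟩ := aux 1 s' hs'
      have := congrArg (fun x => k₁ • x)
        (hdd _ (hσφ c) β₁ β₁' β₂ β₂' (hc₁.trans hc₁'.symm) (hc₂.trans hc₂'.symm)
          (hp₁.trans hp₂.symm) (hp₁'.trans hp₂'.symm))
      simp only [smul_sub, hval₀, hc₁, hc₁', hc₂, hc₂', hd₁, hd₁', hd₂, hd₂', he₁, he₁', he₂,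
        he₂', hp₁, hp₁', hp₂, hp₂', hlineg, map_one] at this
      simp only [hEdef]
      rw [← sub_eq_zero] at this ⊢
      rw [← this]
      abel
    have hE : ∀ g h, h ∈ borel q → E (g * h) = E g := fun g h hh => by
      simp only [hEdef, QuotientGroup.mk_mul_of_mem g hh]
    have hwS : (fun β => ∑ p : (ZMod q)ˣ × ZMod q, φ ((weyl * bor p) • β)) ∈
        trivialGluing A comp pt := by
      simpa [mul_smul] using hB'
    have hS₁ := hsumE bor hB 1 weyl
    have hS₂ := hsumE (fun p => weyl * bor p) hwS 1 weyl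
    simp only [mul_one] at hS₁ hS₂
    have := nsmul_sub_eq_zero E hE htw hS₁ hS₂ g
    simpa [hEdef, hk₂] using this
  -- assemble
  have hkφ : gluingExponent q • φ = k₂ • k₁ • φ := by rw [smul_smul, gluingExponent]
  rw [hkφ, mem_trivialGluing]
  let a : SL(2, ZMod q) ⧸ borel q → A := fun L =>
    if h : ∃ s, Shared s then k₂ • (f L h.choose - f L₀ h.choose) else 0
  let b : P → A := fun s =>
    if Shared s then k₂ • f L₀ s
    else if h : ∃ β, pt β = s then
      k₂ • f (line (comp h.choose)) s - a (line (comp h.choose))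
    else 0
  refine ⟨fun c => k₂ • A₁ c + a (line c), b, fun β => ?_⟩
  simp only [Pi.smul_apply, hval₀, smul_add]
  rw [add_assoc, add_right_inj]
  by_cases hs : Shared (pt β)
  · have he : ∃ s, Shared s := ⟨_, hs⟩
    simp only [a, b, if_pos hs, dif_pos he]
    obtain ⟨g, hg⟩ := QuotientGroup.mk_surjective (line (comp β))
    have h := hdiff (pt β) he.choose hs he.choose_spec g
    rw [hg] at h
    rw [← sub_eq_zero, ← h]
    simp only [smul_sub]
    abel
  · have he : ∃ β', pt β' = pt β := ⟨β, rfl⟩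
    have hc : line (comp he.choose) = line (comp β) := by
      by_contra hne
      exact hs ⟨_, β, he.choose_spec, rfl, hne⟩
    simp only [b, if_neg hs, dif_pos he, hc]
    abel

/-- The gluing lemma, for any transitive set of components whose base point and the branches on
it are fixed by the unipotent group and by inertia. -/
theorem nsmul_mem_trivialGluing_of_isPretransitive [MulAction.IsPretransitive SL(2, ZMod q) C]
    (hcomp : ∀ (g : SL(2, ZMod q)) β, comp (g • β) = g • comp β)
    (hpt : ∀ (g : SL(2, ZMod q)) β, pt (g • β) = g • pt β)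
    (C₀ : C) (hUC : ∀ x : ZMod q, uni x • C₀ = C₀)
    (hU : ∀ (x : ZMod q) β, comp β = C₀ → uni x • β = β)
    (σ : (ZMod q)ˣ → Br → Br)
    (hσ : ∀ c (g : SL(2, ZMod q)) β, σ c (g • β) = twist c g • σ c β)
    (hσfix : ∀ c β, comp β = C₀ → σ c β = β)
    {φ : Br → A}
    (hT : ∀ a : (ZMod q)ˣ, (fun β => φ (tor a • β) - φ β) ∈ trivialGluing A comp pt)
    (hσφ : ∀ c, (fun β => φ (σ c β) - φ β) ∈ trivialGluing A comp pt)
    (hB : (fun β => ∑ p : (ZMod q)ˣ × ZMod q, φ (bor p • β)) ∈ trivialGluing A comp pt)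
    (hB' : (fun β => ∑ p : (ZMod q)ˣ × ZMod q, φ ((weyl : SL(2, ZMod q)) • bor p • β)) ∈
      trivialGluing A comp pt) :
    gluingExponent q • φ ∈ trivialGluing A comp pt := by
  classical
  set H := MulAction.stabilizer SL(2, ZMod q) C₀ with hH
  by_cases hle : H ≤ borel q
  · -- the line map
    let line : C → SL(2, ZMod q) ⧸ borel q := fun c =>
      QuotientGroup.mk (MulAction.exists_smul_eq SL(2, ZMod q) C₀ c).choose
    have hl : ∀ (g : SL(2, ZMod q)) c, g • C₀ = c → line c = QuotientGroup.mk g := by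
      intro g c hg
      refine QuotientGroup.eq.mpr (hle ?_)
      have hs := (MulAction.exists_smul_eq SL(2, ZMod q) C₀ c).choose_spec
      rw [hH, MulAction.mem_stabilizer_iff, mul_smul, hg, inv_smul_eq_iff, hs]
    refine nsmul_mem_trivialGluing hcomp hpt C₀
      (fun c => MulAction.exists_smul_eq SL(2, ZMod q) C₀ c) line (fun g c => ?_)
      (hl 1 C₀ (one_smul _ _)) hU σ hσ hσfix hT hσφ hB hB'
    obtain ⟨h, hh⟩ := MulAction.exists_smul_eq SL(2, ZMod q) C₀ c
    rw [hl (g * h) (g • c) (by rw [mul_smul, hh]), hl h c hh]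
    rfl
  · -- a single component
    have hall : ∀ g : SL(2, ZMod q), g ∈ H := by
      obtain ⟨h, hhH, hhB⟩ := SetLike.not_le_iff_exists.mp hle
      have hu : ∀ x, uni x ∈ H := fun x => MulAction.mem_stabilizer_iff.mpr (hUC x)
      rcases bruhat h with ⟨p, rfl⟩ | ⟨α, a, γ, rfl⟩
      · exact absurd (bor_mem p) hhB
      have hwt : weyl * tor a ∈ H := by
        have := mul_mem (mul_mem (inv_mem (hu α)) hhH) (inv_mem (hu γ))
        simpa [mul_assoc] using this
      refine mem_of_unipotents H hu fun x => ?_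
      have hc := mul_mem (mul_mem hwt (hu (x / ((a : ZMod q) * (a : ZMod q))))) (inv_mem hwt)
      have ha : (a : ZMod q) ≠ 0 := a.ne_zero
      convert hc using 1
      rw [mul_assoc weyl (tor a), tor_mul_uni,
        show (a : ZMod q) * (a : ZMod q) * (x / ((a : ZMod q) * (a : ZMod q))) = x by field_simp]
      group
    obtain ⟨a, b, h⟩ := exists_nsmul_eq_on hcomp hpt {c | c = C₀} hU σ hσ hσfix hT hσφ hB hB' 1
    refine (mem_trivialGluing _ _).mpr ⟨fun c => ((q * q - 1) * (q - 1)) • a c,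
      fun s => ((q * q - 1) * (q - 1)) • b s, fun β => ?_⟩
    have hβ : comp ((1 : SL(2, ZMod q))⁻¹ • β) = C₀ := by
      obtain ⟨g, hg⟩ := MulAction.exists_smul_eq SL(2, ZMod q) C₀ (comp β)
      rw [inv_one, one_smul, ← hg]
      exact MulAction.mem_stabilizer_iff.mp (hall g)
    rw [Pi.smul_apply, gluingExponent, mul_smul, h β hβ, smul_add]

end Gluing

end Cuspidal

end Fermat.Agent.Carayol
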