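/-
Group theory for the inertia of twisted systems at a prime `q`: the intertwining between vectors
fixed by the torus and vectors fixed by the unipotent group with torus character `χ = ξ²`.

`σ` is an inertia element with `σ (g • m) = twist c g • σ m`, `r` the reduction to the component
at infinity.
-/
import Fermat.Agent.Carayol.CuspidalGluing
import Mathlib.NumberTheory.MulChar.Basic
import Mathlib.Algebra.BigOperators.Field

set_option autoImplicit false

namespace Fermat.Agent.Carayol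

open Matrix Cuspidal
open scoped MatrixGroups

namespace TwistInertia

variable {q : ℕ} [Fact q.Prime]

attribute [local simp] Units.val_inv_eq_inv_val
attribute [-simp] ZMod.inv_coe_unit

theorem uni_add (α β : ZMod q) : uni (α + β) = uni α * uni β := by
  ext i j
  fin_cases i <;> fin_cases j <;> simp [Matrix.mul_apply, Fin.sum_univ_two, add_comm]

theorem weyl_mul_weyl : (weyl : SL(2, ZMod q)) * weyl = tor (-1) := by
  ext i j
  fin_cases i <;> fin_cases j <;> simp [Matrix.mul_apply, Fin.sum_univ_two]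

theorem tor_neg_one_comm (g : SL(2, ZMod q)) : tor (-1) * g = g * tor (-1) := by
  ext i j
  fin_cases i <;> fin_cases j <;> simp [Matrix.mul_apply, Fin.sum_univ_two]

theorem weyl_uni_weyl (m : (ZMod q)ˣ) :
    weyl * uni (m : ZMod q) * weyl =
      uni (-(m : ZMod q)⁻¹) * weyl * tor m * uni (-(m : ZMod q)⁻¹) := by
  have hm : (m : ZMod q) * (m : ZMod q)⁻¹ = 1 := mul_inv_cancel₀ m.ne_zero
  ext i j
  fin_cases i <;> fin_cases j <;> simp [Matrix.mul_apply, Fin.sum_univ_two, hm]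

section Operators

variable {R : Type*} [CommRing R] {M : Type*} [AddCommGroup M] [Module R M]
  [DistribMulAction SL(2, ZMod q) M] [SMulCommClass SL(2, ZMod q) R M]

variable (q) in
/-- The sum over the unipotent group. -/
def sumU (m : M) : M := ∑ β : ZMod q, uni β • m

/-- The sum over the unipotent group weighted by a character of `(ℤ/q)ˣ`. -/
def twU (ξ : MulChar (ZMod q) R) (m : M) : M := ∑ γ : ZMod q, ξ γ • uni γ • m

/-- From vectors fixed by the torus to vectors fixed by the unipotent group. -/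
def lop (ξ : MulChar (ZMod q) R) (m : M) : M :=
  sumU q ((weyl : SL(2, ZMod q)) • twU ξ ((weyl : SL(2, ZMod q)) • m))

/-- The twist of a vector fixed by the unipotent group. -/
def rop (ψ : MulChar (ZMod q) R) (z : M) : M :=
  (weyl : SL(2, ZMod q)) • twU ψ ((weyl : SL(2, ZMod q)) • z)

variable (ξ : MulChar (ZMod q) R)

omit [SMulCommClass SL(2, ZMod q) R M] [Module R M] in
theorem uni_smul_sumU (α : ZMod q) (m : M) : uni α • sumU q m = sumU q m := by
  simp only [sumU, Finset.smul_sum, smul_smul, ← uni_add]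
  exact Equiv.sum_comp (Equiv.addLeft α) fun β => uni β • m

omit [SMulCommClass SL(2, ZMod q) R M] [Module R M] in
theorem tor_smul_sumU (a : (ZMod q)ˣ) (m : M) :
    tor a • sumU q m = sumU q (tor a • m) := by
  simp only [sumU, Finset.smul_sum, smul_smul, tor_mul_uni]
  exact Equiv.sum_comp (Equiv.mulLeft₀ _ (mul_ne_zero a.ne_zero a.ne_zero))
    fun β => (uni β * tor a) • m

theorem uni_smul_lop (α : ZMod q) (m : M) : uni α • lop ξ m = lop ξ m := uni_smul_sumU α _

theorem tor_smul_twU (a : (ZMod q)ˣ) (m : M) :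
    tor a • twU ξ m = ξ (((a⁻¹ * a⁻¹ : (ZMod q)ˣ)) : ZMod q) • twU ξ (tor a • m) := by
  simp only [twU, Finset.smul_sum, smul_comm (tor a), smul_smul, tor_mul_uni]
  refine Fintype.sum_equiv (Equiv.mulLeft₀ _ (mul_ne_zero a.ne_zero a.ne_zero)) _ _ fun γ => ?_
  rw [Equiv.mulLeft₀_apply, ← map_mul]
  congr 2
  have ha : (a : ZMod q) ≠ 0 := a.ne_zero
  simp only [Units.val_mul, Units.val_inv_eq_inv_val]
  field_simp

theorem tor_smul_lop {m : M} (hm : ∀ a : (ZMod q)ˣ, tor a • m = m) (a : (ZMod q)ˣ) :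
    tor a • lop ξ m = ξ ((a * a : (ZMod q)ˣ) : ZMod q) • lop ξ m := by
  have e : tor a • (weyl : SL(2, ZMod q)) • twU ξ ((weyl : SL(2, ZMod q)) • m) =
      (weyl : SL(2, ZMod q)) • tor a⁻¹ • twU ξ ((weyl : SL(2, ZMod q)) • m) := by
    rw [smul_smul, smul_smul, weyl_mul_tor, inv_inv]
  rw [lop, tor_smul_sumU, e, tor_smul_twU, inv_inv,
    smul_smul (tor a⁻¹), ← weyl_mul_tor, mul_smul, hm, smul_comm]
  simp only [sumU, Finset.smul_sum, smul_comm (uni _) (ξ _)]

theorem tor_smul_rop (ψ : MulChar (ZMod q) R) {z : M} {χ : (ZMod q)ˣ → R}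
    (hz : ∀ a : (ZMod q)ˣ, tor a • z = χ a • z) (a : (ZMod q)ˣ) :
    tor a • rop ψ z = (ψ ((a * a : (ZMod q)ˣ) : ZMod q) * χ a) • rop ψ z := by
  have e : tor a • rop ψ z =
      (weyl : SL(2, ZMod q)) • tor a⁻¹ • twU ψ ((weyl : SL(2, ZMod q)) • z) := by
    rw [rop, smul_smul, smul_smul, weyl_mul_tor, inv_inv]
  rw [e, tor_smul_twU, inv_inv, smul_smul (tor a⁻¹), ← weyl_mul_tor, mul_smul, hz, rop,
    smul_comm (weyl : SL(2, ZMod q)), mul_smul]
  congr 1
  simp only [twU, Finset.smul_sum, smul_comm (weyl : SL(2, ZMod q)) (χ a),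
    smul_comm (uni _) (χ a), smul_comm (ψ _) (χ a),
    smul_comm (weyl : SL(2, ZMod q)) (ψ _)]

variable {c : (ZMod q)ˣ} {σ : M →ₗ[R] M}
  (hσ : ∀ (g : SL(2, ZMod q)) m, σ (g • m) = twist c g • σ m)

include hσ in
theorem map_sumU (m : M) : σ (sumU q m) = sumU q (σ m) := by
  simp only [sumU, map_sum, hσ, twist_uni]
  exact Equiv.sum_comp (Equiv.mulLeft₀ _ c.ne_zero) fun β => uni β • σ m

include hσ in
theorem map_twU (m : M) : σ (twU ξ m) = ξ ((c⁻¹ : (ZMod q)ˣ) : ZMod q) • twU ξ (σ m) := by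
  simp only [twU, map_sum, map_smul, hσ, twist_uni, Finset.smul_sum, smul_smul]
  refine Fintype.sum_equiv (Equiv.mulLeft₀ _ c.ne_zero) _ _ fun γ => ?_
  rw [Equiv.mulLeft₀_apply, ← map_mul]
  congr 2
  simp [← mul_assoc, inv_mul_cancel₀ c.ne_zero]

include hσ in
/-- The twisted equivariance of `lop` under inertia. -/
theorem map_lop {m : M} (hm : ∀ a : (ZMod q)ˣ, tor a • σ m = σ m) :
    σ (lop ξ m) = ξ (c : ZMod q) • lop ξ (σ m) := by
  rw [lop, map_sumU hσ, hσ, twist_weyl, map_twU ξ hσ, hσ, twist_weyl, ← inv_inv c,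
    ← weyl_mul_tor, mul_smul, mul_smul, hm, smul_comm (tor c⁻¹), tor_smul_twU, inv_inv,
    smul_smul, ← map_mul, smul_smul (tor c⁻¹), ← weyl_mul_tor, mul_smul, hm, lop,
    smul_comm (weyl : SL(2, ZMod q))]
  simp only [sumU, Finset.smul_sum, smul_comm (uni _) (ξ _)]
  congr! 3
  simp [← mul_assoc, inv_mul_cancel₀ c.ne_zero]

end Operators

section Identity

variable {R : Type*} [CommRing R] [IsDomain R] {M : Type*} [AddCommGroup M] [Module R M]
  [DistribMulAction SL(2, ZMod q) M] [SMulCommClass SL(2, ZMod q) R M]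

omit [IsDomain R] in
theorem sum_units {N : Type*} [AddCommMonoid N] (χ : (ZMod q)ˣ → N) (f : ZMod q → N) (h0 : f 0 = 0)
    (h : ∀ u : (ZMod q)ˣ, f u = χ u) : ∑ m, f m = ∑ u, χ u := by
  rw [← Finset.sum_erase (s := Finset.univ) (a := (0 : ZMod q)) h0]
  refine Finset.sum_bij' (fun m hm => Units.mk0 m (Finset.ne_of_mem_erase hm))
    (fun u _ => (u : ZMod q)) (fun _ _ => Finset.mem_univ _)
    (fun u _ => Finset.mem_erase.mpr ⟨u.ne_zero, Finset.mem_univ _⟩) (fun _ _ => rfl)
    (fun u _ => Units.ext rfl) fun m hm => ?_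
  rw [← h, Units.val_mk0]

theorem mulChar_sum_units {χ : MulChar (ZMod q) R} (hχ : χ ≠ 1) :
    ∑ u : (ZMod q)ˣ, χ (u : ZMod q) = 0 := by
  rw [← sum_units (fun u : (ZMod q)ˣ => χ (u : ZMod q)) (fun m => χ m) (MulChar.map_zero χ)
    fun _ => rfl]
  exact MulChar.sum_eq_zero_of_ne_one hχ

/-- `lop ψ⁻¹` undoes `rop ψ` up to `q (q - 1)`. -/
theorem lop_rop (ψ : MulChar (ZMod q) R) (hψ : ψ ≠ 1) {χ : MulChar (ZMod q) R} (hχ : χ ≠ 1)
    {z : M} (hU : ∀ β : ZMod q, uni β • z = z) (hT : ∀ a : (ZMod q)ˣ, tor a • z = χ (a : ZMod q) • z) :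
    lop ψ⁻¹ (rop ψ z) = (ψ (-1) * (q * (q - 1) : R)) • z := by
  haveI := SMulCommClass.symm SL(2, ZMod q) R M
  have hneg : χ (-1) * χ (-1) = 1 := by rw [← map_mul, neg_one_mul, neg_neg, map_one]
  have hzneg : tor (-1 : (ZMod q)ˣ) • z = χ (-1) • z := by
    rw [hT, Units.val_neg, Units.val_one]
  -- the product of the two weighted sums
  have hconv : ∀ m : M, twU ψ⁻¹ (twU ψ m) =
      ψ (-1) • ((q : R) • m - sumU q m) := by
    intro m
    have e1 : twU ψ⁻¹ (twU ψ m) =
        ∑ n : ZMod q, (∑ γ : ZMod q, ψ⁻¹ γ * ψ (n - γ)) • uni n • m := by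
      simp only [twU, Finset.smul_sum, Finset.sum_smul, smul_comm (uni _) (ψ _), smul_smul]
      rw [Finset.sum_comm (f := fun n γ => (ψ⁻¹ γ * ψ (n - γ)) • uni n • m)]
      refine Finset.sum_congr rfl fun γ _ => ?_
      refine Fintype.sum_equiv (Equiv.addLeft γ) _ _ fun b => ?_
      rw [Equiv.coe_addLeft, add_sub_cancel_left, uni_add]
    have hJ0 : ∑ γ : ZMod q, ψ⁻¹ γ * ψ (0 - γ) = ψ (-1) * (q - 1 : R) := by
      rw [sum_units (N := R) (fun _ => ψ (-1)) (fun γ => ψ⁻¹ γ * ψ (0 - γ))]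
      · simp [Finset.card_univ, ZMod.card_units, (Fact.out : q.Prime).one_le, mul_comm,
          Nat.totient_prime (Fact.out : q.Prime)]
      · simp [MulChar.map_zero]
      · intro u
        rw [zero_sub, ← neg_one_mul (u : ZMod q), map_mul, mul_left_comm]
        rw [← MulChar.mul_apply, inv_mul_cancel, MulChar.one_apply_coe, mul_one]
    have hJ : ∀ n : ZMod q, n ≠ 0 → ∑ γ : ZMod q, ψ⁻¹ γ * ψ (n - γ) = -ψ (-1) := by
      intro n hn
      rw [← Finset.sum_erase (s := Finset.univ) (a := (0 : ZMod q)) (by simp [MulChar.map_zero])]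
      have hs := MulChar.sum_eq_zero_of_ne_one hψ
      rw [← Finset.sum_erase_add _ _ (Finset.mem_univ (-1 : ZMod q)), add_eq_zero_iff_eq_neg] at hs
      rw [← hs]
      refine Finset.sum_bij' (fun γ _ => n / γ - 1) (fun t _ => n / (t + 1)) ?_ ?_ ?_ ?_ ?_
      · intro γ hγ
        have hγ0 := Finset.ne_of_mem_erase hγ
        refine Finset.mem_erase.mpr ⟨fun h => ?_, Finset.mem_univ _⟩
        exact div_ne_zero hn hγ0 (by linear_combination h)
      · intro t ht
        have ht0 := Finset.ne_of_mem_erase ht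
        refine Finset.mem_erase.mpr ⟨div_ne_zero hn fun h => ht0 ?_, Finset.mem_univ _⟩
        linear_combination h
      · intro γ hγ
        have hγ0 := Finset.ne_of_mem_erase hγ
        rw [sub_add_cancel, div_div_cancel₀ hn]
      · intro t ht
        rw [div_div_cancel₀ hn, add_sub_cancel_right]
      · intro γ hγ
        have hγ0 := Finset.ne_of_mem_erase hγ
        rw [MulChar.inv_apply', ← map_mul]
        congr 1
        field_simp
    rw [e1, ← Finset.add_sum_erase _ _ (Finset.mem_univ (0 : ZMod q)), hJ0,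
      Finset.sum_congr rfl fun n hn => congrArg (· • uni n • m) (hJ n (Finset.ne_of_mem_erase hn)),
      ← Finset.smul_sum, Finset.sum_erase_eq_sub (Finset.mem_univ _), sumU, uni_zero, one_smul]
    module
  -- the two sums against `z`
  have h2 : sumU q ((weyl : SL(2, ZMod q)) • (weyl : SL(2, ZMod q)) • z) =
      ((q : R) * χ (-1)) • z := by
    rw [smul_smul, weyl_mul_weyl, hzneg]
    simp only [sumU, smul_comm (uni _) (χ _), hU, Finset.sum_const, Finset.card_univ, ZMod.card]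
    module
  have h3 : sumU q ((weyl : SL(2, ZMod q)) • sumU q ((weyl : SL(2, ZMod q)) • z)) =
      ((q : R) * χ (-1)) • z := by
    set S := sumU q ((weyl : SL(2, ZMod q)) • z) with hS
    have hterm : ∀ u : (ZMod q)ˣ,
        sumU q ((weyl : SL(2, ZMod q)) • uni (u : ZMod q) • (weyl : SL(2, ZMod q)) • z) =
          χ (u : ZMod q) • S := by
      intro u
      rw [smul_smul, smul_smul, weyl_uni_weyl, mul_smul, hU, mul_smul, hT, mul_smul]
      simp only [smul_comm (weyl : SL(2, ZMod q)) (χ _), smul_comm (uni _) (χ _), sumU, hS,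
        ← Finset.smul_sum, smul_smul, ← uni_add]
      congr 1
      refine Fintype.sum_equiv (Equiv.addRight (-(u : ZMod q)⁻¹)) _ _ fun β => ?_
      rw [Equiv.coe_addRight, ← mul_assoc, ← uni_add]
    have hsplit : sumU q ((weyl : SL(2, ZMod q)) • S) = ∑ m : ZMod q,
        sumU q ((weyl : SL(2, ZMod q)) • uni m • (weyl : SL(2, ZMod q)) • z) := by
      simp only [hS, sumU, Finset.smul_sum]
      exact Finset.sum_comm
    rw [hsplit, ← Finset.add_sum_erase _ _ (Finset.mem_univ (0 : ZMod q))]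
    have hrest : ∑ m ∈ Finset.univ.erase (0 : ZMod q),
        sumU q ((weyl : SL(2, ZMod q)) • uni m • (weyl : SL(2, ZMod q)) • z) = 0 := by
      rw [Finset.sum_congr rfl fun m hm => by
        rw [← Units.val_mk0 (Finset.ne_of_mem_erase hm), hterm (Units.mk0 m _), Units.val_mk0]]
      rw [← Finset.sum_smul, Finset.sum_erase _ (MulChar.map_zero χ),
        MulChar.sum_eq_zero_of_ne_one hχ, zero_smul]
    rw [hrest, add_zero, uni_zero, one_smul, h2]
  have hlin : ∀ (a : R) (m : M), sumU q ((weyl : SL(2, ZMod q)) • a • m) =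
      a • sumU q ((weyl : SL(2, ZMod q)) • m) := by
    intro a m
    simp only [sumU, Finset.smul_sum, smul_comm (weyl : SL(2, ZMod q)) a, smul_comm (uni _) a]
  have hlin' : ∀ m m' : M, sumU q ((weyl : SL(2, ZMod q)) • (m - m')) =
      sumU q ((weyl : SL(2, ZMod q)) • m) - sumU q ((weyl : SL(2, ZMod q)) • m') := by
    intro m m'
    simp only [sumU, smul_sub, Finset.sum_sub_distrib]
  have hinner : (weyl : SL(2, ZMod q)) • rop ψ z = χ (-1) • twU ψ ((weyl : SL(2, ZMod q)) • z) := by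
    rw [rop, smul_smul, weyl_mul_weyl]
    simp only [twU, Finset.smul_sum, smul_comm (tor (-1)) (ψ _)]
    refine Finset.sum_congr rfl fun γ _ => ?_
    rw [smul_smul (tor (-1)), tor_neg_one_comm, mul_smul, smul_smul (tor (-1)), tor_neg_one_comm,
      mul_smul, hzneg]
    simp only [smul_comm (weyl : SL(2, ZMod q)) (χ (-1)), smul_comm (uni γ) (χ (-1)),
      smul_comm (ψ γ) (χ (-1))]
  have htw : ∀ (a : R) (m : M), twU ψ⁻¹ (a • m) = a • twU ψ⁻¹ m := by
    intro a m
    simp only [twU, Finset.smul_sum, smul_comm (uni _) a, smul_comm a (ψ⁻¹ _)]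
  rw [lop, hinner, htw, hconv, hlin, hlin, hlin', hlin, h2, h3]
  match_scalars
  linear_combination (ψ (-1) * ((q : R) * q - q)) * hneg

end Identity

section Component

variable {R : Type*} [CommRing R] {M : Type*} [AddCommGroup M] [Module R M]
  [DistribMulAction SL(2, ZMod q) M] [SMulCommClass SL(2, ZMod q) R M]
  {A : Type*} [AddCommGroup A] [Module R A] (r : M →ₗ[R] A)

/-- For `z` fixed by `U` with torus character `χ`, the image of `(σ - 1) (σ' - χ c') z` dies on
every component. -/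
theorem map_smul_eq_zero (χ : (ZMod q)ˣ → R)
    (hrU : ∀ (β : ZMod q) m, r (uni β • m) = r m)
    {c c' : (ZMod q)ˣ} {σ σ' : M →ₗ[R] M}
    (hσ : ∀ (g : SL(2, ZMod q)) m, σ (g • m) = twist c g • σ m)
    (hσ' : ∀ (g : SL(2, ZMod q)) m, σ' (g • m) = twist c' g • σ' m)
    (hrσ : ∀ m, r (σ m) = r m) (hrσ' : ∀ m, r (σ' m) = r m)
    {z : M} (hU : ∀ β : ZMod q, uni β • z = z) (hT : ∀ a : (ZMod q)ˣ, tor a • z = χ a • z)
    (g : SL(2, ZMod q)) :
    r (g • (σ (σ' z - χ c' • z) - (σ' z - χ c' • z))) = 0 := by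
  have main : ∀ (c : (ZMod q)ˣ) (σ : M →ₗ[R] M),
      (∀ (g : SL(2, ZMod q)) m, σ (g • m) = twist c g • σ m) → (∀ m, r (σ m) = r m) →
      ∀ (w : M), (∀ β : ZMod q, uni β • w = w) → (∀ a : (ZMod q)ˣ, tor a • w = χ a • w) →
      (∀ β : ZMod q, uni β • σ w = σ w) ∧ (∀ a : (ZMod q)ˣ, tor a • σ w = χ a • σ w) ∧
      r ((weyl : SL(2, ZMod q)) • σ w) = χ c • r ((weyl : SL(2, ZMod q)) • w) := by
    intro c σ hσ hrσ w hUw hTw
    refine ⟨fun β => ?_, fun a => ?_, ?_⟩
    · have h := hσ (uni ((c : ZMod q)⁻¹ * β)) w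
      rw [hUw, twist_uni, ← mul_assoc, mul_inv_cancel₀ c.ne_zero, one_mul] at h
      exact h.symm
    · have h := hσ (tor a) w
      rw [hTw, twist_tor, map_smul] at h
      exact h.symm
    · have h := congrArg r (hσ ((weyl : SL(2, ZMod q)) * tor c) w)
      have e : twist c ((weyl : SL(2, ZMod q)) * tor c) = weyl := by
        rw [map_mul, twist_weyl, twist_tor, mul_assoc, weyl_mul_tor, ← mul_assoc, ← tor_mul,
          mul_inv_cancel, tor_one, one_mul]
      rw [e, hrσ, mul_smul, hTw, smul_comm, map_smul] at h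
      exact h.symm
  obtain ⟨hU', hT', hw'⟩ := main c' σ' hσ' hrσ' z hU hT
  set u := σ' z - χ c' • z with hu
  have hUu : ∀ β : ZMod q, uni β • u = u := fun β => by
    rw [hu, smul_sub, hU', smul_comm, hU]
  have hTu : ∀ a : (ZMod q)ˣ, tor a • u = χ a • u := fun a => by
    rw [hu, smul_sub, smul_sub, hT', smul_comm (tor a), hT, smul_comm (χ a)]
  have hwu : r ((weyl : SL(2, ZMod q)) • u) = 0 := by
    rw [hu, smul_sub, map_sub, hw', smul_comm (weyl : SL(2, ZMod q)) (χ c'),
      LinearMap.map_smul, sub_self]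
  clear_value u
  obtain ⟨hUv, hTv, hwv⟩ := main c σ hσ hrσ u hUu hTu
  set v := σ u - u with hv
  have hUv' : ∀ β : ZMod q, uni β • v = v := fun β => by rw [hv, smul_sub, hUv, hUu]
  have hTv' : ∀ a : (ZMod q)ˣ, tor a • v = χ a • v := fun a => by
    rw [hv, smul_sub, hTv, hTu, smul_sub]
  have h1 : r v = 0 := by rw [hv, map_sub, hrσ, sub_self]
  have h2 : r ((weyl : SL(2, ZMod q)) • v) = 0 := by
    rw [hv, smul_sub, map_sub, hwv, hwu, smul_zero, sub_zero]
  rcases bruhat g with ⟨p, rfl⟩ | ⟨α, a, β, rfl⟩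
  · rw [bor, mul_smul, hUv', hTv', map_smul, h1, smul_zero]
  · rw [mul_smul, hUv', mul_smul, hTv', mul_smul, hrU, smul_comm, map_smul, h2, smul_zero]

end Component

section Gluing

variable {Br P C : Type*} {R : Type*} [CommRing R] {A : Type*} [AddCommGroup A] [Module R A]
  [MulAction SL(2, ZMod q) Br] [MulAction SL(2, ZMod q) P] [MulAction SL(2, ZMod q) C]
  {comp : Br → C} {pt : Br → P}

/-- Gluing data fixed by `U` and with torus character `χ` are killed by `1 - χ a`. -/
theorem smul_mem_trivialGluing (χ : (ZMod q)ˣ → R)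
    (hcomp : ∀ (g : SL(2, ZMod q)) β, comp (g • β) = g • comp β)
    (hpt : ∀ (g : SL(2, ZMod q)) β, g • pt β = pt β ∧ pt (g • β) = g • pt β)
    [MulAction.IsPretransitive SL(2, ZMod q) C] (C₀ : C)
    (hU : ∀ (x : ZMod q) β, comp β = C₀ → uni x • β = β)
    (hT : ∀ (a : (ZMod q)ˣ) β, comp β = C₀ → tor a • β = β)
    (hUC : ∀ x : ZMod q, uni x • C₀ = C₀) (hTC : ∀ a : (ZMod q)ˣ, tor a • C₀ = C₀)
    {φ : Br → A}
    (hφU : ∀ x : ZMod q, (fun β => φ (uni x • β) - φ β) ∈ trivialGluing A comp pt)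
    (hφT : ∀ a, (fun β => φ (tor a • β) - χ a • φ β) ∈ trivialGluing A comp pt)
    (a : (ZMod q)ˣ) : (1 - χ a) • φ ∈ trivialGluing A comp pt := by
  classical
  obtain ⟨A₁, B₁, h₁⟩ := hφT a
  choose Au Bu hu using hφU
  set w : SL(2, ZMod q) := weyl with hw
  -- a branch is on `C₀` or a translate of one by `uni x * w`
  have hcases : ∀ β, comp β = C₀ ∨ ∃ (x : ZMod q) (β₀ : Br), comp β₀ = C₀ ∧
      β = uni x • w • β₀ := by
    intro β
    obtain ⟨g, hg⟩ := MulAction.exists_smul_eq SL(2, ZMod q) C₀ (comp β)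
    have hB : ∀ (b : (ZMod q)ˣ) (γ : ZMod q), (tor b * uni γ) • C₀ = C₀ := fun b γ => by rw [mul_smul, hUC, hTC]
    rcases bruhat g with ⟨p, rfl⟩ | ⟨α, b, γ, rfl⟩
    · exact Or.inl (by rw [← hg, bor, hB])
    · refine Or.inr ⟨α, (uni α * w)⁻¹ • β, ?_, by rw [smul_smul, smul_inv_smul]⟩
      rw [hcomp, ← hg, mul_assoc (uni α * weyl), mul_smul (uni α * weyl), hB, inv_smul_smul]
  -- the correction to pass from `w • C₀` to `uni x • w • C₀`
  let K : C → A := fun c =>
    if h : c = C₀ then 0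
    else if h' : ∃ x : ZMod q, uni x • w • C₀ = c then
      Au h'.choose (w • C₀) - Au h'.choose C₀
    else 0
  let A₂ : C → A := fun c => if c = C₀ then A₁ C₀ else A₁ (w • C₀) + (1 - χ a) • K c
  rw [mem_trivialGluing]
  refine ⟨A₂, B₁, fun β => ?_⟩
  have hC₀ : ∀ β, comp β = C₀ → (1 - χ a) • φ β = A₁ C₀ + B₁ (pt β) := by
    intro β hβ
    have h := h₁ β
    beta_reduce at h
    rw [hT a β hβ, hβ] at h
    rw [← h, sub_smul, one_smul]
  rcases hcases β with hβ | ⟨x, β₀, h0, rfl⟩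
  · simp only [Pi.smul_apply, hC₀ β hβ, A₂, hβ, if_true]
  · by_cases hne : comp (uni x • w • β₀) = C₀
    · simp only [Pi.smul_apply, hC₀ _ hne, A₂, hne, if_true]
    have hpteq : ∀ (g : SL(2, ZMod q)) γ, pt (g • γ) = pt γ := fun g γ =>
      (hpt g γ).2.trans (hpt g γ).1
    have hwC : comp (w • β₀) = w • C₀ := by rw [hcomp, h0]
    have hxC : comp (uni x • w • β₀) = uni x • w • C₀ := by rw [hcomp, hwC]
    have hex : ∃ y : ZMod q, uni y • w • C₀ = comp (uni x • w • β₀) := ⟨x, hxC.symm⟩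
    set y := hex.choose
    have hy : uni y • w • C₀ = comp (uni x • w • β₀) := hex.choose_spec
    set β' : Br := (uni y * w)⁻¹ • uni x • w • β₀ with hβ'
    have hβ'C : comp β' = C₀ := by
      rw [hβ', hcomp, ← hy, smul_smul (uni y), inv_smul_smul]
    have hβeq : uni x • w • β₀ = uni y • w • β' := by
      rw [hβ', smul_smul (uni y), smul_inv_smul]
    have hw' : (1 - χ a) • φ (w • β') = A₁ (w • C₀) + B₁ (pt β') := by
      have h := h₁ (w • β')
      beta_reduce at h
      clear_value β'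
      have e : tor a • w • β' = w • β' := by
        rw [smul_smul, hw, ← inv_inv a, ← weyl_mul_tor, mul_smul, hT _ _ hβ'C]
      rw [e, hcomp, hpteq, hβ'C] at h
      rw [← h, sub_smul, one_smul]
    clear_value β'
    have hpty := hu y β'
    beta_reduce at hpty
    rw [hU y β' hβ'C, sub_self, hβ'C] at hpty
    have hmain := hu y (w • β')
    beta_reduce at hmain
    rw [hcomp w, hβ'C, hpteq w] at hmain
    simp only [Pi.smul_apply, A₂, hne, if_false, K, dif_neg hne, dif_pos hex]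
    change _ = _ + (1 - χ a) • (Au y (w • C₀) - Au y C₀) + _
    rw [hβeq, hpteq, hpteq]
    rw [eq_add_of_sub_eq hmain, smul_add, hw', eq_neg_of_add_eq_zero_left hpty.symm]
    module

end Gluing

end TwistInertia

end Fermat.Agent.Carayol
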