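/-
From vectors fixed by the unipotent group with torus character `ξ²` to vectors fixed by the torus:
a quadratic relation `(σ - χ c) (σ - 1) = 0` on the former gives
`(σ - ξ c) (σ - (ξ c)⁻¹) = 0` on the images `lop ξ x` of the latter.
-/
import Fermat.Agent.Carayol.BTwistGroup

set_option autoImplicit false

namespace Fermat.Agent.Carayol

open Matrix Cuspidal TwistInertia
open scoped MatrixGroups

namespace Cuspidal

variable {q : ℕ} [Fact q.Prime] {R : Type*} [CommRing R] {M : Type*} [AddCommGroup M] [Module R M]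
  [DistribMulAction SL(2, ZMod q) M] [SMulCommClass SL(2, ZMod q) R M]
  (ξ : MulChar (ZMod q) R) {c : (ZMod q)ˣ} {σ : M →ₗ[R] M}

/-- The quadratic relation transported through `lop`. -/
theorem kill_lop (hσ : ∀ (g : SL(2, ZMod q)) m, σ (g • m) = twist c g • σ m) {k : R}
    (hz : ∀ z : M, (∀ β : ZMod q, uni β • z = z) →
      (∀ a : (ZMod q)ˣ, tor a • z = ξ ((a * a : (ZMod q)ˣ) : ZMod q) • z) →
      k • (σ (σ z - ξ ((c * c : (ZMod q)ˣ) : ZMod q) • z) -
        (σ z - ξ ((c * c : (ZMod q)ˣ) : ZMod q) • z)) = 0)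
    {x : M} (hx : ∀ a : (ZMod q)ˣ, tor a • x = x) :
    k • (lop ξ (σ (σ x)) - (ξ (c : ZMod q) + ξ⁻¹ (c : ZMod q)) • lop ξ (σ x) + lop ξ x) = 0 := by
  have hfix : ∀ {y : M}, (∀ a : (ZMod q)ˣ, tor a • y = y) →
      ∀ a : (ZMod q)ˣ, tor a • σ y = σ y := by
    intro y hy a
    have h := hσ (tor a) y
    rw [hy, twist_tor] at h
    exact h.symm
  have h1 := map_lop ξ hσ (hfix hx)
  have h2 := map_lop ξ hσ (hfix (hfix hx))
  have hu : ξ (c : ZMod q) * ξ⁻¹ (c : ZMod q) = 1 := by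
    rw [← MulChar.mul_apply, mul_inv_cancel, MulChar.one_apply_coe]
  have hcc : ξ ((c * c : (ZMod q)ˣ) : ZMod q) = ξ (c : ZMod q) * ξ (c : ZMod q) := by
    rw [Units.val_mul, map_mul]
  have h := hz (lop ξ x) (fun β => uni_smul_lop ξ β x) (tor_smul_lop ξ hx)
  rw [hcc, h1, map_sub, map_smul, map_smul, h2, h1] at h
  have h' := congrArg (fun m => (ξ⁻¹ (c : ZMod q) * ξ⁻¹ (c : ZMod q)) • m) h
  simp only [smul_zero] at h'
  rw [← h']
  match_scalars
  · linear_combination -(k * (ξ (c : ZMod q) * ξ⁻¹ (c : ZMod q) + 1)) * hu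
  · linear_combination (k * ξ⁻¹ (c : ZMod q) +
      k * ξ (c : ZMod q) * (ξ (c : ZMod q) * ξ⁻¹ (c : ZMod q) + 1)) * hu
  · linear_combination -(k * (ξ (c : ZMod q) * ξ⁻¹ (c : ZMod q) + 1)) * hu

end Cuspidal

end Fermat.Agent.Carayol
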