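/-
The function field of `X(q; M)`, i.e. level `Γ(q) ∩ Γ₀(M)`, as a field of Laurent series in
`t = exp (2 π i τ / q)` over the algebraic numbers: it is generated by the expansions of
`j (d τ)`, `j (d (τ + b) / q)` and `j (d q τ)` for `d ∣ M`.
-/
import Fermat.Agent.Carayol.ValuationsGauss
import Fermat.Agent.Galois.QbarInstances
import Fermat.Prelude.Def_ModularCurve_ArithmeticGalois
import Fermat.Prelude.Def_ModularCurve_X0ModL
import Mathlib.FieldTheory.IsAlgClosed.Basic
import Mathlib.RingTheory.RootsOfUnity.EnoughRootsOfUnity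
import Mathlib.NumberTheory.ModularForms.CongruenceSubgroups

set_option autoImplicit false

noncomputable section

namespace Fermat.Agent.Carayol

open ModularCurve IntermediateField AlgebraicCurve
open scoped MatrixGroups

/-- The algebraic numbers. -/
abbrev Qb : Type := AlgebraicClosure ℚ

/-- Multiply the `n`-th coefficient by `u ^ n`. -/
def seriesTwist {R : Type*} [CommRing R] (u : Rˣ) : LaurentSeries R →+* LaurentSeries R where
  toFun x :=
    { coeff := fun n => ((u ^ n : Rˣ) : R) * x.coeff n
      isPWO_support' := x.isPWO_support'.mono fun n hn h0 => hn (by simp [h0]) }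
  map_one' := by
    ext n
    rcases eq_or_ne n 0 with rfl | h <;> simp [HahnSeries.coeff_one, *]
  map_mul' x y := by
    ext n
    simp only [HahnSeries.coeff_mul, Finset.mul_sum]
    symm
    refine Finset.sum_subset_zero_on_sdiff ?_ ?_ ?_
    · intro ij hij
      rw [Finset.mem_addAntidiagonal] at hij ⊢
      simp only [HahnSeries.mem_support] at hij ⊢
      exact ⟨fun h => hij.1 (by simp [h]), fun h => hij.2.1 (by simp [h]), hij.2.2⟩
    · intro ij hij
      simp only [Finset.mem_sdiff, Finset.mem_addAntidiagonal, HahnSeries.mem_support, not_and,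
        not_true_eq_false, imp_false] at hij
      exact (hij.2 (fun h => hij.1.1 ((u ^ ij.1).mul_right_eq_zero.mp h))
        (fun h => hij.1.2.1 ((u ^ ij.2).mul_right_eq_zero.mp h)) hij.1.2.2).elim
    · intro ij hij
      rw [Finset.mem_addAntidiagonal] at hij
      rw [← hij.2.2, zpow_add, Units.val_mul]; ring
  map_zero' := by ext n; simp
  map_add' x y := by ext n; simp [mul_add]

@[simp]
theorem seriesTwist_coeff {R : Type*} [CommRing R] (u : Rˣ) (x : LaurentSeries R) (n : ℤ) :
    (seriesTwist u x).coeff n = ((u ^ n : Rˣ) : R) * x.coeff n := rfl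

variable (q : ℕ) [Fact q.Prime]

instance neZero_of_fact_prime : NeZero q := ⟨(Fact.out : q.Prime).ne_zero⟩

theorem exists_zeta : ∃ z : Qb, IsPrimitiveRoot z q :=
  HasEnoughRootsOfUnity.exists_primitiveRoot Qb q

/-- A fixed primitive `q`-th root of unity. -/
def zetaQ : Qbˣ :=
  Units.mk0 (exists_zeta q).choose
    ((exists_zeta q).choose_spec.ne_zero (Fact.out : q.Prime).ne_zero)

theorem isPrimitiveRoot_zetaQ : IsPrimitiveRoot (zetaQ q : Qb) q := (exists_zeta q).choose_spec

/-- The projective line over `ℤ/q`; `some b` stands for `(1 : b)` and `none` for `(0 : 1)`. -/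
abbrev Line : Type := Option (ZMod q)

variable {q}

/-- A representative vector. -/
def lineVec : Line q → Fin 2 → ZMod q
  | some b => ![1, b]
  | none => ![0, 1]

/-- The point through a vector. -/
def vecLine (v : Fin 2 → ZMod q) : Line q := if v 0 = 0 then none else some (v 1 / v 0)

/-- The right action of a matrix on the projective line. -/
def lineMul (P : Line q) (g : SL(2, ℤ)) : Line q :=
  vecLine (Matrix.vecMul (lineVec P) ((g : Matrix (Fin 2) (Fin 2) ℤ).map (Int.cast : ℤ → ZMod q)))

variable (q)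

/-- `gen q d P`: the expansion in `t` of `j (d (τ + b) / q)` for `P = some b`, and of `j (d q τ)`
for `P = none`. -/
def gen (d : ℕ) [NeZero d] : Line q → LaurentSeries Qb
  | some b => seriesTwist (zetaQ q ^ b.val) (qExpand Qb d (jqModC Qb))
  | none => qExpand Qb (d * q * q) (jqModC Qb)

/-- `baseGen q d`: the expansion in `t` of `j (d τ)`. -/
def baseGen (d : ℕ) [NeZero d] : LaurentSeries Qb := qExpand Qb (d * q) (jqModC Qb)

variable (M : ℕ) [NeZero M]

/-- The generators of `X(q; M)`. -/
def genSet : Set (LaurentSeries Qb) :=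
  {x | ∃ (d : ℕ) (_ : NeZero d), d ∣ M ∧ (x = baseGen q d ∨ ∃ P, x = gen q d P)}

/-- The function field of `X(q; M)`. -/
def XField : IntermediateField Qb (LaurentSeries Qb) := IntermediateField.adjoin Qb (genSet q M)

theorem baseGen_mem {d : ℕ} [NeZero d] (hd : d ∣ M) : baseGen q d ∈ XField q M :=
  subset_adjoin Qb _ ⟨d, ‹_›, hd, Or.inl rfl⟩

theorem gen_mem {d : ℕ} [NeZero d] (hd : d ∣ M) (P : Line q) : gen q d P ∈ XField q M :=
  subset_adjoin Qb _ ⟨d, ‹_›, hd, Or.inr ⟨P, rfl⟩⟩

/-- `j (d τ)` as an element of the field. -/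
def baseElt {d : ℕ} [NeZero d] (hd : d ∣ M) : XField q M := ⟨baseGen q d, baseGen_mem q M hd⟩

/-- The conjugates of `j (d q τ)` as elements of the field. -/
def genElt {d : ℕ} [NeZero d] (hd : d ∣ M) (P : Line q) : XField q M :=
  ⟨gen q d P, gen_mem q M hd P⟩

/-- The function `j`. -/
def jElt : XField q M := baseElt q M (one_dvd M)

/-- `g` is the automorphism `f ↦ f ∘ γ⁻¹`. -/
def IsLineAut (γ : SL(2, ℤ)) (g : XField q M ≃ₐ[Qb] XField q M) : Prop :=
  ∀ (d : ℕ) (_ : NeZero d) (hd : d ∣ M),
    g (baseElt q M hd) = baseElt q M hd ∧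
      ∀ P, g (genElt q M hd P) = genElt q M hd (lineMul P γ⁻¹)

end Fermat.Agent.Carayol
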