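/-
The projective line over `ℤ/q` and matrices.
-/
import Fermat.Agent.Carayol.ValuationsDefs
import Mathlib.Tactic.LinearCombination
import Mathlib.Tactic.FieldSimp
import Mathlib.Algebra.Field.ZMod

set_option autoImplicit false

noncomputable section

namespace Fermat.Agent.Carayol

open scoped MatrixGroups
open CongruenceSubgroup

variable {q : ℕ} [Fact q.Prime]

theorem vecLine_smul {c : ZMod q} (hc : c ≠ 0) (v : Fin 2 → ZMod q) :
    vecLine (c • v) = vecLine v := by
  by_cases h : v 0 = 0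
  · simp [vecLine, h]
  · simp [vecLine, h, hc, mul_div_mul_left]

theorem lineVec_ne_zero (P : Line q) : lineVec P ≠ 0 := by
  cases P with
  | none => intro h; simpa [lineVec] using congrFun h 1
  | some b => intro h; simpa [lineVec] using congrFun h 0

theorem vecLine_lineVec (P : Line q) : vecLine (lineVec P) = P := by
  cases P <;> simp [vecLine, lineVec]

theorem exists_smul_lineVec {v : Fin 2 → ZMod q} (hv : v ≠ 0) :
    ∃ c : ZMod q, c ≠ 0 ∧ v = c • lineVec (vecLine v) := by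
  by_cases h : v 0 = 0
  · refine ⟨v 1, fun h1 => hv ?_, ?_⟩
    · ext i; fin_cases i <;> simp [h, h1]
    · ext i; fin_cases i <;> simp [vecLine, lineVec, h]
  · refine ⟨v 0, h, ?_⟩
    ext i; fin_cases i <;> simp [vecLine, lineVec, h, mul_div_cancel₀]

/-- The right action of a matrix modulo `q`. -/
def lineMulQ (P : Line q) (g : SL(2, ZMod q)) : Line q :=
  vecLine (Matrix.vecMul (lineVec P) (g : Matrix (Fin 2) (Fin 2) (ZMod q)))

theorem lineMulQ_one (P : Line q) : lineMulQ P 1 = P := by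
  simp [lineMulQ, vecLine_lineVec]

theorem lineMulQ_mul (P : Line q) (g h : SL(2, ZMod q)) :
    lineMulQ P (g * h) = lineMulQ (lineMulQ P g) h := by
  have hv : Matrix.vecMul (lineVec P) (g : Matrix (Fin 2) (Fin 2) (ZMod q)) ≠ 0 := by
    intro h0
    apply lineVec_ne_zero P
    have h1 := congrArg (fun v => Matrix.vecMul v
      ((g⁻¹ : SL(2, ZMod q)) : Matrix (Fin 2) (Fin 2) (ZMod q))) h0
    simp only [Matrix.vecMul_vecMul, Matrix.zero_vecMul, ← Matrix.SpecialLinearGroup.coe_mul,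
      mul_inv_cancel, Matrix.SpecialLinearGroup.coe_one, Matrix.vecMul_one] at h1
    exact h1
  obtain ⟨c, hc, e⟩ := exists_smul_lineVec hv
  rw [lineMulQ, Matrix.SpecialLinearGroup.coe_mul, ← Matrix.vecMul_vecMul, e,
    Matrix.smul_vecMul, vecLine_smul hc]
  rfl

/-- Reduction of matrices modulo `q`. -/
def redQ (q : ℕ) : SL(2, ℤ) →* SL(2, ZMod q) :=
  Matrix.SpecialLinearGroup.map (Int.castRingHom (ZMod q))

theorem redQ_apply (q : ℕ) (g : SL(2, ℤ)) (i j : Fin 2) :
    redQ q g i j = ((g i j : ℤ) : ZMod q) := rfl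

theorem lineMul_eq (P : Line q) (g : SL(2, ℤ)) : lineMul P g = lineMulQ P (redQ q g) := rfl

theorem lineMul_one (P : Line q) : lineMul P 1 = P := by
  rw [lineMul_eq, map_one, lineMulQ_one]

theorem lineMul_mul (P : Line q) (g h : SL(2, ℤ)) :
    lineMul P (g * h) = lineMul (lineMul P g) h := by
  rw [lineMul_eq, lineMul_eq, lineMul_eq, map_mul, lineMulQ_mul]

theorem lineMul_some (b : ZMod q) (g : SL(2, ℤ)) :
    lineMul (some b) g = if ((g 0 0 : ℤ) : ZMod q) + b * (g 1 0 : ℤ) = 0 then none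
      else some ((((g 0 1 : ℤ) : ZMod q) + b * (g 1 1 : ℤ)) /
        (((g 0 0 : ℤ) : ZMod q) + b * (g 1 0 : ℤ))) := by
  simp [lineMul, vecLine, lineVec, Matrix.vecMul, dotProduct, Fin.sum_univ_two]

theorem lineMul_none (g : SL(2, ℤ)) :
    lineMul (none : Line q) g = if ((g 1 0 : ℤ) : ZMod q) = 0 then none
      else some (((g 1 1 : ℤ) : ZMod q) / ((g 1 0 : ℤ) : ZMod q)) := by
  simp [lineMul, vecLine, lineVec, Matrix.vecMul, dotProduct, Fin.sum_univ_two]

variable {M : ℕ} [NeZero M]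

/-- An upper unipotent. -/
def upperQ (β : ZMod q) : SL(2, ZMod q) := ⟨!![1, β; 0, 1], by simp [Matrix.det_fin_two_of]⟩

/-- A lower unipotent. -/
def lowerQ (β : ZMod q) : SL(2, ZMod q) := ⟨!![1, 0; β, 1], by simp [Matrix.det_fin_two_of]⟩

theorem exists_gamma0_eq (hqM : ¬ q ∣ M) (g : SL(2, ZMod q)) :
    ∃ γ : Gamma0 M, redQ q (γ : SL(2, ℤ)) = g := by
  classical
  -- the image of `Γ₀(M)` contains the transvections
  let H : Subgroup SL(2, ZMod q) := (Gamma0 M).map (redQ q)
  have hu : ∀ β : ZMod q, upperQ β ∈ H := by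
    intro β
    refine ⟨⟨!![1, (β.val : ℤ); 0, 1], by simp [Matrix.det_fin_two_of]⟩, ?_, ?_⟩
    · simp [Gamma0_mem]
    · ext i j; fin_cases i <;> fin_cases j <;> simp [redQ_apply, upperQ, lowerQ]
  have hl : ∀ β : ZMod q, lowerQ β ∈ H := by
    intro β
    have hM : (M : ZMod q) ≠ 0 := by rwa [Ne, ZMod.natCast_eq_zero_iff]
    refine ⟨⟨!![1, 0; (M : ℤ) * ((β / (M : ZMod q)).val : ℤ), 1],
      by simp [Matrix.det_fin_two_of]⟩, ?_, ?_⟩
    · simp [Gamma0_mem]
    · ext i j; fin_cases i <;> fin_cases j <;> simp [redQ_apply, upperQ, lowerQ, mul_div_cancel₀ β hM]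
  suffices g ∈ H by
    obtain ⟨γ, hγ, e⟩ := this
    exact ⟨⟨γ, hγ⟩, e⟩
  have key : ∀ h : SL(2, ZMod q), h 1 0 ≠ 0 → h ∈ H := by
    intro h hc
    have hdet : h 0 0 * h 1 1 - h 0 1 * h 1 0 = 1 := by
      have h2 := h.2
      rwa [Matrix.det_fin_two] at h2
    have e : h = upperQ ((h 0 0 - 1) / h 1 0) * lowerQ (h 1 0) *
        upperQ ((h 1 1 - 1) / h 1 0) := by
      ext i j
      fin_cases i <;> fin_cases j <;>
        simp [upperQ, lowerQ, Matrix.mul_apply, Fin.sum_univ_two, hc]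
      all_goals first
        | (field_simp; ring1)
        | (field_simp; linear_combination -hdet)
        | (field_simp; linear_combination hdet)
        | field_simp
    rw [e]
    exact H.mul_mem (H.mul_mem (hu _) (hl _)) (hu _)
  by_cases hc : g 1 0 = 0
  · have ha : g 0 0 ≠ 0 := by
      intro h0
      have h2 := g.2
      rw [Matrix.det_fin_two, h0, hc] at h2
      simp at h2
    have h1 : g = lowerQ (-1) * (lowerQ 1 * g) := by
      rw [← mul_assoc, eq_comm, mul_eq_right]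
      ext i j; fin_cases i <;> fin_cases j <;> simp [lowerQ, Matrix.mul_apply, Fin.sum_univ_two]
    rw [h1]
    refine H.mul_mem (hl _) (key _ ?_)
    simpa [lowerQ, Matrix.mul_apply, Fin.sum_univ_two, hc] using ha
  · exact key _ hc

theorem lineMul_eq_self_of_scalar (P : Line q) (g : SL(2, ℤ))
    (h01 : ((g 0 1 : ℤ) : ZMod q) = 0) (h10 : ((g 1 0 : ℤ) : ZMod q) = 0)
    (h : ((g 0 0 : ℤ) : ZMod q) = ((g 1 1 : ℤ) : ZMod q)) : lineMul P g = P := by
  have h0 : ((g 0 0 : ℤ) : ZMod q) ≠ 0 := by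
    intro h0
    have h2 := (redQ q g).2
    rw [Matrix.det_fin_two] at h2
    simp [redQ_apply, h01, h10, h0] at h2
  cases P with
  | none => rw [lineMul_none, if_pos h10]
  | some b =>
    rw [lineMul_some, h01, h10, mul_zero, add_zero, if_neg h0, ← h, zero_add,
      mul_div_cancel_right₀ _ h0]

end Fermat.Agent.Carayol
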