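/-
The generators of the function field of `X(q; M)` as holomorphic functions on the upper half plane.
-/
import Fermat.Agent.Carayol.ValuationsLine
import Fermat.Agent.ModFun.JFun
import Mathlib.Analysis.Analytic.Uniqueness
import Mathlib.Analysis.Complex.CauchyIntegral
import Mathlib.Analysis.Convex.Topology
import Mathlib.Tactic.LinearCombination

set_option autoImplicit false

noncomputable section

namespace Fermat.Agent.Carayol

open ModularCurve UpperHalfPlane Filter CongruenceSubgroup ModFun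
open scoped MatrixGroups Topology Manifold

section Moebius

theorem int_linear_ne_zero {c d : ℤ} (h : c ≠ 0 ∨ d ≠ 0) (τ : ℍ) :
    (c : ℂ) * (τ : ℂ) + d ≠ 0 := by
  intro h0
  have him := congrArg Complex.im h0
  simp [τ.im_pos.ne'] at him
  subst him
  rcases h with h | h
  · exact h rfl
  · simp [h] at h0

theorem denom_gamma_ne_zero (g : SL(2, ℤ)) (τ : ℍ) :
    ((g 1 0 : ℤ) : ℂ) * (τ : ℂ) + ((g 1 1 : ℤ) : ℂ) ≠ 0 := by
  refine int_linear_ne_zero ?_ τ
  by_contra h
  push Not at h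
  have h2 := g.2
  rw [Matrix.det_fin_two, h.1, h.2] at h2
  simp at h2

theorem coe_smul_gamma (g : SL(2, ℤ)) (τ : ℍ) : ((g • τ : ℍ) : ℂ) =
    (((g 0 0 : ℤ) : ℂ) * (τ : ℂ) + ((g 0 1 : ℤ) : ℂ)) /
      (((g 1 0 : ℤ) : ℂ) * (τ : ℂ) + ((g 1 1 : ℤ) : ℂ)) := by
  rw [coe_specialLinearGroup_apply]
  simp

/-- Two points related by a linear fractional transformation of determinant one. -/
theorem jfun_eq_of_moebius {z w : ℍ} {a b c d : ℤ} (hdet : a * d - b * c = 1)
    (h : (z : ℂ) * ((c : ℂ) * w + d) = (a : ℂ) * w + b) : jfun z = jfun w := by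
  let g : SL(2, ℤ) := ⟨!![a, b; c, d], by rw [Matrix.det_fin_two_of]; exact hdet⟩
  have : g • w = z := by
    apply UpperHalfPlane.ext
    rw [coe_smul_gamma]
    have hne := denom_gamma_ne_zero g w
    simp only [g] at hne ⊢
    simp at hne ⊢
    rw [div_eq_iff hne, h]
  rw [← this, jfun_smul]

theorem coe_triPoint (a b d : ℕ) [NeZero a] [NeZero d] (τ : ℍ) :
    ((triPoint a b d τ : ℍ) : ℂ) = ((a : ℂ) * (τ : ℂ) + b) / d := rfl

theorem moebius_aux {N D A0 B0 C0 X C1 a b c d : ℂ} (hD : D ≠ 0) (hC0 : C0 ≠ 0) (hC1 : C1 ≠ 0)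
    (h : (A0 * N + B0 * D) * (c * X + d * C1) = (a * X + b * C1) * (C0 * D)) :
    (A0 * (N / D) + B0) / C0 * (c * (X / C1) + d) = a * (X / C1) + b := by
  field_simp
  linear_combination h

end Moebius

variable {q : ℕ} [Fact q.Prime]

/-- The function with expansion `gen q d P`. -/
def genFun (d : ℕ) [NeZero d] : Line q → ℍ → ℂ
  | some b => fun τ => jfun (triPoint d (d * b.val) q τ)
  | none => fun τ => jfun (triPoint (d * q) 0 1 τ)

/-- The function with expansion `baseGen q d`. -/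
def baseFun (d : ℕ) [NeZero d] : ℍ → ℂ := fun τ => jfun (triPoint d 0 1 τ)

variable {M : ℕ}

theorem dvd_lower_left {γ : SL(2, ℤ)} (hγ : γ ∈ Gamma0 M) {d : ℕ} (hd : d ∣ M) :
    (d : ℤ) ∣ γ 1 0 := by
  rw [Gamma0_mem] at hγ
  exact (Int.natCast_dvd_natCast.mpr hd).trans ((ZMod.intCast_zmod_eq_zero_iff_dvd _ _).mp hγ)

theorem baseFun_smul {γ : SL(2, ℤ)} (hγ : γ ∈ Gamma0 M) {d : ℕ} [NeZero d] (hd : d ∣ M) (τ : ℍ) :
    baseFun d (γ • τ) = baseFun d τ := by
  obtain ⟨e, he⟩ := dvd_lower_left hγ hd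
  have hdet := γ.2
  rw [Matrix.det_fin_two] at hdet
  have hD := denom_gamma_ne_zero γ τ
  refine jfun_eq_of_moebius (a := γ 0 0) (b := d * γ 0 1) (c := e) (d := γ 1 1) ?_ ?_
  · linear_combination hdet + γ 0 1 * he
  · rw [coe_triPoint, coe_triPoint, coe_smul_gamma]
    refine moebius_aux hD (by simp) (by simp) ?_
    have hD' : ((γ 1 0 : ℤ) : ℂ) = (d : ℂ) * (e : ℂ) := by exact_mod_cast he
    simp only [hD']
    push_cast
    ring

theorem genFun_smul (hqM : ¬ q ∣ M) {γ : SL(2, ℤ)} (hγ : γ ∈ Gamma0 M) {d : ℕ} [NeZero d]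
    (hd : d ∣ M) (P : Line q) (τ : ℍ) :
    genFun d P (γ • τ) = genFun d (lineMul P γ) τ := by
  obtain ⟨e, he⟩ := dvd_lower_left hγ hd
  have hdet := γ.2
  rw [Matrix.det_fin_two] at hdet
  have hD := denom_gamma_ne_zero γ τ
  have hD' : ((γ 1 0 : ℤ) : ℂ) = (d : ℂ) * (e : ℂ) := by exact_mod_cast he
  have hq0 : (q : ℂ) ≠ 0 := Nat.cast_ne_zero.mpr (NeZero.ne q)
  have hd0 : (d : ℂ) ≠ 0 := Nat.cast_ne_zero.mpr (NeZero.ne d)
  set α := γ 0 0
  set β := γ 0 1
  set c := γ 1 0
  set δ := γ 1 1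
  have hqd : (d : ZMod q) ≠ 0 := by
    rw [Ne, ZMod.natCast_eq_zero_iff]
    exact fun h => hqM (h.trans hd)
  cases P with
  | none =>
    rw [lineMul_none]
    split_ifs with h0
    · obtain ⟨e', he'⟩ : (q : ℤ) ∣ e := by
        rw [← ZMod.intCast_zmod_eq_zero_iff_dvd]
        have h1 : (d : ZMod q) * (e : ZMod q) = 0 := by
          rw [← h0]; simp [show γ 1 0 = (d : ℤ) * e from he]
        exact (mul_eq_zero.mp h1).resolve_left hqd
      subst he'
      refine jfun_eq_of_moebius (a := α) (b := d * q * β) (c := e') (d := δ) ?_ ?_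
      · linear_combination hdet + β * he
      · rw [coe_triPoint, coe_triPoint, coe_smul_gamma]
        refine moebius_aux hD (by simp [hq0]) (by simp [hq0]) ?_
        simp only [show ((γ 1 0 : ℤ) : ℂ) = (d : ℂ) * ((q : ℂ) * (e' : ℂ)) by exact_mod_cast he,
          show (γ 0 0 : ℤ) = α from rfl, show (γ 0 1 : ℤ) = β from rfl, show (γ 1 1 : ℤ) = δ from rfl]
        push_cast
        ring
    · set b' : ZMod q := ((δ : ℤ) : ZMod q) / ((c : ℤ) : ZMod q)
      obtain ⟨m, hm⟩ : (q : ℤ) ∣ δ - b'.val * c := by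
        rw [← ZMod.intCast_zmod_eq_zero_iff_dvd]
        simp [b', c, div_mul_cancel₀ _ h0, δ]
      refine jfun_eq_of_moebius (a := q * α) (b := d * (β - b'.val * α)) (c := e) (d := m) ?_ ?_
      · linear_combination hdet + (β - b'.val * α) * he - α * hm
      · have hm' : (δ : ℂ) = (b'.val : ℂ) * (c : ℂ) + (q : ℂ) * (m : ℂ) := by
          exact_mod_cast (by linear_combination hm : δ = (b'.val : ℤ) * c + q * m)
        rw [coe_triPoint, coe_triPoint, coe_smul_gamma]
        refine moebius_aux hD (by simp [hq0]) (by simp [hq0]) ?_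
        change _ * ((_ : ℂ) * _ + _ * _) = _
        simp only [show (γ 0 0 : ℤ) = α from rfl, show (γ 0 1 : ℤ) = β from rfl,
          show (γ 1 1 : ℤ) = δ from rfl, show (γ 1 0 : ℤ) = c from rfl, hm', hD']
        push_cast
        ring
  | some b =>
    rw [lineMul_some]
    set B : ℤ := (b.val : ℤ)
    have hB : b = (B : ZMod q) := by simp [B]
    split_ifs with h0
    · obtain ⟨m, hm⟩ : (q : ℤ) ∣ α + B * c := by
        rw [← ZMod.intCast_zmod_eq_zero_iff_dvd]
        push_cast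
        rw [← hB]
        exact h0
      refine jfun_eq_of_moebius (a := m) (b := d * (β + B * δ)) (c := e) (d := q * δ) ?_ ?_
      · linear_combination hdet + (β + B * δ) * he - δ * hm
      · have hm' : (α : ℂ) = (q : ℂ) * (m : ℂ) - (b.val : ℂ) * (c : ℂ) := by
          exact_mod_cast (by linear_combination hm : α = q * m - (b.val : ℤ) * c)
        rw [coe_triPoint, coe_triPoint, coe_smul_gamma]
        refine moebius_aux hD (by simp [hq0]) (by simp [hq0]) ?_
        simp only [show (γ 0 0 : ℤ) = α from rfl, show (γ 0 1 : ℤ) = β from rfl,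
          show (γ 1 1 : ℤ) = δ from rfl, show (γ 1 0 : ℤ) = c from rfl, B]
        push_cast
        simp only [hm', hD']
        ring
    · set b' : ZMod q := (((β : ℤ) : ZMod q) + b * (δ : ℤ)) / (((α : ℤ) : ZMod q) + b * (c : ℤ))
      obtain ⟨m, hm⟩ : (q : ℤ) ∣ (β + B * δ) - b'.val * (α + B * c) := by
        rw [← ZMod.intCast_zmod_eq_zero_iff_dvd]
        push_cast
        rw [← hB, ZMod.natCast_zmod_val]
        exact sub_eq_zero.mpr (div_mul_cancel₀ _ h0).symm
      refine jfun_eq_of_moebius (a := α + B * c) (b := d * m) (c := q * e) (d := δ - b'.val * c) ?_ ?_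
      · linear_combination hdet + (β + B * δ - b'.val * (α + B * c)) * he + (d * e) * hm
      · have hm' : (β : ℂ) = (b'.val : ℂ) * ((α : ℂ) + (b.val : ℂ) * (c : ℂ)) -
            (b.val : ℂ) * (δ : ℂ) + (q : ℂ) * (m : ℂ) := by
          exact_mod_cast (by linear_combination hm :
            β = (b'.val : ℤ) * (α + (b.val : ℤ) * c) - (b.val : ℤ) * δ + q * m)
        rw [coe_triPoint, coe_triPoint, coe_smul_gamma]
        refine moebius_aux hD (by simp [hq0]) (by simp [hq0]) ?_
        simp only [show (γ 0 0 : ℤ) = α from rfl, show (γ 0 1 : ℤ) = β from rfl,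
          show (γ 1 1 : ℤ) = δ from rfl, show (γ 1 0 : ℤ) = c from rfl, B]
        push_cast
        simp only [hm', hD']
        ring

theorem mdiff_comp_triPoint {f : ℍ → ℂ} (hf : MDiff f) (a b d : ℕ) [NeZero a] [NeZero d] :
    MDiff fun τ => f (triPoint a b d τ) := by
  rw [UpperHalfPlane.mdifferentiable_iff] at hf ⊢
  have hmap : ∀ z ∈ upperHalfPlaneSet, ((a : ℂ) * z + b) / d ∈ upperHalfPlaneSet := fun z hz =>
    (triPoint a b d ⟨z, hz⟩).im_pos
  refine (hf.comp (Differentiable.differentiableOn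
    (f := fun z : ℂ => ((a : ℂ) * z + b) / d) (by fun_prop)) hmap).congr fun z hz => ?_
  simp only [Function.comp_apply]
  rw [ofComplex_apply_of_im_pos hz, ofComplex_apply_of_im_pos (hmap z hz)]
  rfl

/-- A holomorphic function vanishing near `i∞` vanishes. -/
theorem eq_zero_of_eventually_atImInfty {f : ℍ → ℂ} (hf : MDiff f)
    (h : ∀ᶠ τ in atImInfty, f τ = 0) : f = 0 := by
  obtain ⟨B, hB⟩ := (atImInfty_mem _).mp h
  have hB' : (0 : ℝ) < max B 0 + 1 := by positivity
  set z₀ : ℂ := ⟨0, max B 0 + 1⟩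
  have hz₀ : z₀ ∈ upperHalfPlaneSet := hB'
  have hev : (f ∘ ofComplex) =ᶠ[𝓝 z₀] 0 := by
    have : {z : ℂ | max B 0 < z.im} ∈ 𝓝 z₀ :=
      (isOpen_lt continuous_const Complex.continuous_im).mem_nhds (by
        show max B 0 < max B 0 + 1
        linarith)
    filter_upwards [this] with z hz
    have hz0 : 0 < z.im := lt_of_le_of_lt (le_max_right _ _) hz
    rw [Function.comp_apply, ofComplex_apply_of_im_pos hz0]
    exact hB ⟨z, hz0⟩ ((le_max_left _ _).trans hz.le)
  have key := (UpperHalfPlane.mdifferentiable_iff.mp hf).analyticOnNhd isOpen_upperHalfPlaneSet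
    |>.eqOn_zero_of_preconnected_of_eventuallyEq_zero
      (convex_halfSpace_im_gt 0).isPreconnected hz₀ hev
  funext τ
  simpa [ofComplex_apply] using key τ.im_pos

end Fermat.Agent.Carayol
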