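/-
Existence of the automorphisms `f ↦ f ∘ γ⁻¹` of the function field of `X(q; M)`.
-/
import Fermat.Agent.Carayol.ValuationsAnalytic
import Mathlib.FieldTheory.IntermediateField.Adjoin.Algebra
import Mathlib.FieldTheory.Minpoly.IsConjRoot
import Mathlib.RingTheory.Polynomial.Cyclotomic.Roots
import Mathlib.RingTheory.Ideal.Quotient.Operations
import Mathlib.Algebra.MvPolynomial.Basic

set_option autoImplicit false

noncomputable section

namespace Fermat.Agent.Carayol

open ModularCurve UpperHalfPlane Filter CongruenceSubgroup IntermediateField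
open scoped MatrixGroups Topology Manifold

variable (q : ℕ) [Fact q.Prime]

theorem exists_embedding :
    ∃ ι : Qb →+* ℂ, ι (zetaQ q : Qb) = (ModFun.zetaU q : ℂ) := by
  let ι₀ : Qb →ₐ[ℚ] ℂ := IsAlgClosed.lift
  have hq : q ≠ 0 := NeZero.ne q
  have h0 : IsPrimitiveRoot (ι₀ (zetaQ q : Qb)) q :=
    (isPrimitiveRoot_zetaQ q).map_of_injective ι₀.injective
  have h1 : IsPrimitiveRoot (ModFun.zetaU q : ℂ) q := Complex.isPrimitiveRoot_exp q hq
  obtain ⟨i, hi, e⟩ := h0.eq_pow_of_pow_eq_one h1.pow_eq_one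
  have h2 : IsPrimitiveRoot ((zetaQ q : Qb) ^ i) q := by
    apply IsPrimitiveRoot.of_map_of_injective (f := ι₀) (h := ?_) ι₀.injective
    rw [map_pow, e]
    exact h1
  have hconj : IsConjRoot ℚ ((zetaQ q : Qb) ^ i) (zetaQ q : Qb) := by
    unfold IsConjRoot
    rw [← Polynomial.cyclotomic_eq_minpoly_rat h2 (Nat.pos_of_ne_zero hq),
      ← Polynomial.cyclotomic_eq_minpoly_rat (isPrimitiveRoot_zetaQ q) (Nat.pos_of_ne_zero hq)]
  obtain ⟨σ, hσ⟩ := isConjRoot_iff_exists_algEquiv.mp hconj
  refine ⟨(ι₀.comp σ.toAlgHom).toRingHom, ?_⟩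
  show ι₀ (σ (zetaQ q : Qb)) = _
  rw [hσ, map_pow, e]

variable {q}
variable (M : ℕ) [NeZero M]

/-- Indices of the generators: `none` is `j (d τ)`, `some P` a conjugate of `j (d q τ)`. -/
abbrev GenIdx (q M : ℕ) : Type := {d : ℕ // d ∈ M.divisors} × Option (Line q)

instance neZero_divisor {M : ℕ} (d : {d : ℕ // d ∈ M.divisors}) : NeZero d.1 :=
  ⟨(Nat.pos_of_mem_divisors d.2).ne'⟩

variable {M}

/-- The generating series. -/
def genSeries : GenIdx q M → LaurentSeries Qb
  | (d, none) => baseGen q d.1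
  | (d, some P) => gen q d.1 P

/-- The generating functions. -/
def genFn : GenIdx q M → ℍ → ℂ
  | (d, none) => baseFun d.1
  | (d, some P) => genFun d.1 P

/-- The permutation of the indices. -/
def idxMul (γ : SL(2, ℤ)) : GenIdx q M → GenIdx q M
  | (d, none) => (d, none)
  | (d, some P) => (d, some (lineMul P γ))

theorem idxMul_idxMul (γ γ' : SL(2, ℤ)) (i : GenIdx q M) :
    idxMul γ' (idxMul γ i) = idxMul (γ * γ') i := by
  obtain ⟨d, _ | P⟩ := i
  · rfl
  · simp [idxMul, lineMul_mul]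

theorem idxMul_one (i : GenIdx q M) : idxMul 1 i = i := by
  obtain ⟨d, _ | P⟩ := i
  · rfl
  · simp [idxMul, lineMul_one]

theorem range_genSeries : Set.range (genSeries (q := q) (M := M)) = genSet q M := by
  ext x
  constructor
  · rintro ⟨⟨d, _ | P⟩, rfl⟩
    · exact ⟨d.1, inferInstance, Nat.dvd_of_mem_divisors d.2, Or.inl rfl⟩
    · exact ⟨d.1, inferInstance, Nat.dvd_of_mem_divisors d.2, Or.inr ⟨P, rfl⟩⟩
  · rintro ⟨d, _, hd, rfl | ⟨P, rfl⟩⟩
    · exact ⟨(⟨d, Nat.mem_divisors.mpr ⟨hd, NeZero.ne M⟩⟩, none), rfl⟩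
    · exact ⟨(⟨d, Nat.mem_divisors.mpr ⟨hd, NeZero.ne M⟩⟩, some P), rfl⟩

theorem genFn_smul (hqM : ¬ q ∣ M) {γ : SL(2, ℤ)} (hγ : γ ∈ Gamma0 M) (i : GenIdx q M) (τ : ℍ) :
    genFn i (γ • τ) = genFn (idxMul γ i) τ := by
  obtain ⟨d, _ | P⟩ := i
  · exact baseFun_smul hγ (Nat.dvd_of_mem_divisors d.2) τ
  · exact genFun_smul hqM hγ (Nat.dvd_of_mem_divisors d.2) P τ

omit [NeZero M] in
theorem mdiff_genFn (i : GenIdx q M) : MDiff (genFn i) := by
  obtain ⟨d, _ | _ | b⟩ := i
  · exact mdiff_comp_triPoint ModFun.mdifferentiable_jfun _ _ _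
  · exact mdiff_comp_triPoint ModFun.mdifferentiable_jfun _ _ _
  · exact mdiff_comp_triPoint ModFun.mdifferentiable_jfun _ _ _

theorem hasQExp_genFn {ι : Qb →+* ℂ} (hι : ι (zetaQ q : Qb) = (ModFun.zetaU q : ℂ))
    (i : GenIdx q M) : ModFun.HasQExp q (genFn i) (coeffMap ι (genSeries i)) := by
  have hj : coeffMap ι (jqModC Qb) = jqModC ℂ := coeffMap_jqModC ι
  obtain ⟨d, _ | _ | b⟩ := i
  · have := (ModFun.HasQExp.comp_mul d.1 (h := 1) ModFun.hasQExp_jfun).expand_period q
    rw [one_mul] at this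
    refine this.of_eq ?_
    show _ = coeffMap ι (qExpand Qb (d.1 * q) (jqModC Qb))
    rw [coeffMap_qExpand, hj, qExpand_qExpand]
    exact qExpand_congr (mul_comm _ _) _
  · have := (ModFun.HasQExp.comp_mul (d.1 * q) (h := 1) ModFun.hasQExp_jfun).expand_period q
    rw [one_mul] at this
    refine this.of_eq ?_
    show _ = coeffMap ι (qExpand Qb (d.1 * q * q) (jqModC Qb))
    rw [coeffMap_qExpand, hj, qExpand_qExpand]
    exact qExpand_congr (mul_comm _ _) _
  · refine (ModFun.HasQExp.comp_triPoint d.1 (d.1 * b.val) q ModFun.hasQExp_jfun).of_eq ?_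
    show _ = coeffMap ι (seriesTwist (zetaQ q ^ b.val) (qExpand Qb d.1 (jqModC Qb)))
    ext n
    rw [coeffMap_coeff, seriesTwist_coeff, map_mul]
    by_cases hn : (d.1 : ℤ) ∣ n
    · obtain ⟨m, rfl⟩ := hn
      rw [qExpand_coeff_mul, qExpand_coeff_mul, ModFun.twist_coeff, ← hj, coeffMap_coeff]
      congr 1
      rw [Units.val_zpow_eq_zpow_val, map_zpow₀, Units.val_pow_eq_pow_val, Units.val_pow_eq_pow_val,
        map_pow, hι, pow_mul, ← zpow_natCast _ d.1, zpow_natCast, zpow_mul, zpow_natCast,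
        ← pow_mul, ← pow_mul, mul_comm b.val d.1]
    · rw [qExpand_coeff_of_not_dvd _ _ hn, qExpand_coeff_of_not_dvd _ _ hn, map_zero, mul_zero]

/-- The function attached to a polynomial in the generators. -/
def polyFn (ι : Qb →+* ℂ) (p : MvPolynomial (GenIdx q M) Qb) : ℍ → ℂ := fun τ =>
  MvPolynomial.eval₂ ι (fun i => genFn i τ) p

theorem hasQExp_polyFn {ι : Qb →+* ℂ} (hι : ι (zetaQ q : Qb) = (ModFun.zetaU q : ℂ))
    (p : MvPolynomial (GenIdx q M) Qb) :
    ModFun.HasQExp q (polyFn ι p) (coeffMap ι (MvPolynomial.aeval genSeries p)) := by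
  induction p using MvPolynomial.induction_on with
  | C a =>
    have e : polyFn ι (MvPolynomial.C a : MvPolynomial (GenIdx q M) Qb) = fun _ => ι a :=
      funext fun τ => MvPolynomial.eval₂_C ι _ a
    rw [e]
    refine (ModFun.HasQExp.const (ι a)).of_eq ?_
    rw [MvPolynomial.aeval_C, algebraMap_laurentSeries_eq_single, coeffMap_single]
    rfl
  | add p p' hp hp' =>
    have e : polyFn ι (p + p') = polyFn ι p + polyFn ι p' :=
      funext fun τ => MvPolynomial.eval₂_add ι _
    rw [e, map_add, map_add]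
    exact hp.add hp'
  | mul_X p i hp =>
    have e : polyFn ι (p * MvPolynomial.X i) = polyFn ι p * genFn i := by
      funext τ
      simp [polyFn, MvPolynomial.eval₂_mul]
    rw [e, map_mul, map_mul, MvPolynomial.aeval_X]
    exact hp.mul (hasQExp_genFn hι i)

omit [NeZero M] in
theorem mdiff_polyFn (ι : Qb →+* ℂ) (p : MvPolynomial (GenIdx q M) Qb) : MDiff (polyFn ι p) := by
  induction p using MvPolynomial.induction_on with
  | C a =>
    have e : polyFn ι (MvPolynomial.C a : MvPolynomial (GenIdx q M) Qb) = fun _ => ι a :=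
      funext fun τ => MvPolynomial.eval₂_C ι _ a
    rw [e]
    exact mdifferentiable_const
  | add p p' hp hp' =>
    have e : polyFn ι (p + p') = polyFn ι p + polyFn ι p' :=
      funext fun τ => MvPolynomial.eval₂_add ι _
    rw [e]
    exact hp.add hp'
  | mul_X p i hp =>
    have e : polyFn ι (p * MvPolynomial.X i) = polyFn ι p * genFn i := by
      funext τ
      simp [polyFn, MvPolynomial.eval₂_mul]
    rw [e]
    exact hp.mul (mdiff_genFn i)

/-- A relation between the generators is preserved by the permutation attached to `γ`. -/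
theorem aeval_idxMul_eq_zero (hqM : ¬ q ∣ M) {γ : SL(2, ℤ)} (hγ : γ ∈ Gamma0 M)
    {p : MvPolynomial (GenIdx q M) Qb} (hp : MvPolynomial.aeval genSeries p = 0) :
    MvPolynomial.aeval (genSeries ∘ idxMul γ) p = 0 := by
  obtain ⟨ι, hι⟩ := exists_embedding q
  have h1 := hasQExp_polyFn hι p
  rw [hp, map_zero] at h1
  have h2 : polyFn ι p = 0 :=
    eq_zero_of_eventually_atImInfty (mdiff_polyFn ι p) h1.eventually_eq_zero
  have h3 : polyFn ι (MvPolynomial.rename (idxMul γ) p) = 0 := by
    funext τ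
    have := congrFun h2 (γ • τ)
    simp only [polyFn, Pi.zero_apply] at this ⊢
    rw [MvPolynomial.eval₂_rename, ← this]
    congr 1
    funext i
    exact (genFn_smul hqM hγ i τ).symm
  have h4 := hasQExp_polyFn hι (MvPolynomial.rename (idxMul γ) p)
  rw [h3] at h4
  have h5 := h4.unique ModFun.HasQExp.zero
  rw [← MvPolynomial.aeval_rename]
  ext n
  have h6 := congrArg (fun z : LaurentSeries ℂ => z.coeff n) h5
  simp only [coeffMap_coeff, HahnSeries.coeff_zero] at h6
  simpa using ι.injective (h6.trans (map_zero ι).symm)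

theorem aeval_idxMul_eq_zero_iff (hqM : ¬ q ∣ M) {γ : SL(2, ℤ)} (hγ : γ ∈ Gamma0 M)
    (p : MvPolynomial (GenIdx q M) Qb) :
    MvPolynomial.aeval (genSeries ∘ idxMul γ) p = 0 ↔ MvPolynomial.aeval genSeries p = 0 := by
  refine ⟨fun h => ?_, aeval_idxMul_eq_zero hqM hγ⟩
  rw [← MvPolynomial.aeval_rename] at h
  have := aeval_idxMul_eq_zero hqM (inv_mem hγ) h
  rw [MvPolynomial.aeval_rename] at this
  convert this using 2
  congr 1
  funext i
  simp [Function.comp, idxMul_idxMul, idxMul_one]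

variable (q M) in
/-- The ring generated by the generators. -/
abbrev genRing : Subalgebra Qb (LaurentSeries Qb) :=
  Algebra.adjoin Qb (Set.range (genSeries (q := q) (M := M)))

theorem exists_hom_genRing (hqM : ¬ q ∣ M) {γ : SL(2, ℤ)} (hγ : γ ∈ Gamma0 M) :
    ∃ ψ : genRing q M →ₐ[Qb] LaurentSeries Qb, Function.Injective ψ ∧
      ∀ i, ψ ⟨genSeries i, Algebra.subset_adjoin ⟨i, rfl⟩⟩ = genSeries (idxMul γ i) := by
  let f : MvPolynomial (GenIdx q M) Qb →ₐ[Qb] genRing q M :=
    MvPolynomial.aeval fun i => ⟨genSeries i, Algebra.subset_adjoin ⟨i, rfl⟩⟩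
  have hf : ∀ p, (f p : LaurentSeries Qb) = MvPolynomial.aeval genSeries p := fun p => by
    have : (genRing q M).val.comp f = MvPolynomial.aeval genSeries :=
      MvPolynomial.algHom_ext fun i => by simp [f]
    exact congrArg (fun g : MvPolynomial (GenIdx q M) Qb →ₐ[Qb] LaurentSeries Qb => g p) this
  have hsurj : Function.Surjective f := by
    rintro ⟨x, hx⟩
    rw [genRing, Algebra.adjoin_range_eq_range_aeval] at hx
    obtain ⟨p, rfl⟩ := hx
    exact ⟨p, Subtype.ext (hf p)⟩
  let g : MvPolynomial (GenIdx q M) Qb →ₐ[Qb] LaurentSeries Qb :=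
    MvPolynomial.aeval (genSeries ∘ idxMul γ)
  have hker : ∀ p, f p = 0 ↔ g p = 0 := fun p => by
    rw [← Subtype.coe_inj, hf, aeval_idxMul_eq_zero_iff hqM hγ]
    rfl
  let sec := Function.surjInv hsurj
  have key : ∀ p, g (sec (f p)) = g p := fun p => by
    rw [← sub_eq_zero, ← map_sub, ← hker, map_sub, Function.surjInv_eq hsurj, sub_self]
  let ψ : genRing q M →ₐ[Qb] LaurentSeries Qb :=
    { toFun := fun x => g (sec x)
      map_one' := by rw [← map_one f, key, map_one]
      map_zero' := by rw [← map_zero f, key, map_zero]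
      map_mul' := fun x y => by
        obtain ⟨a, rfl⟩ := hsurj x
        obtain ⟨b, rfl⟩ := hsurj y
        rw [← map_mul f, key, key, key, map_mul]
      map_add' := fun x y => by
        obtain ⟨a, rfl⟩ := hsurj x
        obtain ⟨b, rfl⟩ := hsurj y
        rw [← map_add f, key, key, key, map_add]
      commutes' := fun a => by rw [← f.commutes a, key, g.commutes] }
  refine ⟨ψ, fun x y h => ?_, fun i => ?_⟩
  · obtain ⟨a, rfl⟩ := hsurj x
    obtain ⟨b, rfl⟩ := hsurj y
    change g (sec (f a)) = g (sec (f b)) at h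
    rw [key, key, ← sub_eq_zero, ← map_sub, ← hker, map_sub, sub_eq_zero] at h
    exact h
  · have : f (MvPolynomial.X i) = ⟨genSeries i, Algebra.subset_adjoin ⟨i, rfl⟩⟩ :=
      MvPolynomial.aeval_X _ _
    rw [← this]
    show g (sec (f _)) = _
    rw [key]
    exact MvPolynomial.aeval_X _ _

variable (q M) in
theorem adjoin_range_genSeries :
    IntermediateField.adjoin Qb (Set.range (genSeries (q := q) (M := M))) = XField q M := by
  rw [range_genSeries]; rfl

theorem genSeries_mem (i : GenIdx q M) : genSeries i ∈ XField q M :=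
  IntermediateField.subset_adjoin Qb _ (range_genSeries (q := q) (M := M) ▸ ⟨i, rfl⟩)

/-- A generator as an element of the field. -/
def genSeriesElt (i : GenIdx q M) : XField q M := ⟨genSeries i, genSeries_mem i⟩

/-- Automorphisms agreeing on the generators agree. -/
theorem algHom_ext_genSeries {S : Type*} [Semiring S] [Algebra Qb S]
    {g g' : XField q M →ₐ[Qb] S} (h : ∀ i, g (genSeriesElt i) = g' (genSeriesElt i)) : g = g' := by
  refine IntermediateField.algHom_ext_of_eq_adjoin _ (adjoin_range_genSeries q M).symm ?_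
  rintro x ⟨i, rfl⟩
  exact h i

section Extend

open IntermediateField.algebraAdjoinAdjoin

/-- An injective homomorphism on the ring generated by a set extends to the field. -/
theorem exists_algHom_adjoin {K E L : Type*} [Field K] [Field E] [Field L] [Algebra K E]
    [Algebra K L] (S : Set E) (ψ : Algebra.adjoin K S →ₐ[K] L) (hψ : Function.Injective ψ) :
    ∃ Ψ : IntermediateField.adjoin K S →ₐ[K] L, ∀ x : Algebra.adjoin K S,
      Ψ ⟨x, IntermediateField.algebra_adjoin_le_adjoin K S x.2⟩ = ψ x :=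
  ⟨IsFractionRing.liftAlgHom hψ, fun x => IsFractionRing.lift_algebraMap hψ x⟩

end Extend

theorem exists_algEquiv_idxMul (hqM : ¬ q ∣ M) {γ : SL(2, ℤ)} (hγ : γ ∈ Gamma0 M) :
    ∃ g : XField q M ≃ₐ[Qb] XField q M,
      ∀ i, g (genSeriesElt i) = genSeriesElt (idxMul γ i) := by
  have key : ∀ {δ : SL(2, ℤ)}, δ ∈ Gamma0 M → ∃ g : XField q M →ₐ[Qb] XField q M,
      ∀ i, g (genSeriesElt i) = genSeriesElt (idxMul δ i) := by
    intro δ hδ
    obtain ⟨ψ, hψ, hψi⟩ := exists_hom_genRing hqM hδ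
    obtain ⟨Ψ, hΨ⟩ := exists_algHom_adjoin (Set.range (genSeries (q := q) (M := M))) ψ hψ
    let Ψ' : XField q M →ₐ[Qb] LaurentSeries Qb :=
      Ψ.comp (IntermediateField.equivOfEq (adjoin_range_genSeries q M).symm).toAlgHom
    have hgen : ∀ i, Ψ' (genSeriesElt i) = genSeries (idxMul δ i) := fun i => by
      rw [← hψi i]
      exact hΨ ⟨genSeries i, Algebra.subset_adjoin ⟨i, rfl⟩⟩
    have hrange : ∀ x, Ψ' x ∈ XField q M := by
      rintro ⟨x, hx⟩
      have h1 : (⟨x, hx⟩ : XField q M) ∈ IntermediateField.adjoin Qb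
          (Set.range (genSeriesElt (q := q) (M := M))) := by
        have : IntermediateField.adjoin Qb (Set.range (genSeriesElt (q := q) (M := M))) = ⊤ := by
          apply IntermediateField.map_injective (XField q M).val
          rw [IntermediateField.adjoin_map, ← AlgHom.fieldRange_eq_map, fieldRange_val,
            ← Set.range_comp]
          exact adjoin_range_genSeries q M
        rw [this]; trivial
      have h2 : IntermediateField.adjoin Qb (Set.range (genSeriesElt (q := q) (M := M))) ≤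
          (XField q M).comap Ψ' := by
        rw [IntermediateField.adjoin_le_iff]
        rintro _ ⟨i, rfl⟩
        show Ψ' _ ∈ XField q M
        rw [hgen]
        exact genSeries_mem _
      exact h2 h1
    exact ⟨AlgHom.codRestrict Ψ' (XField q M).toSubalgebra hrange, fun i => Subtype.ext (hgen i)⟩
  obtain ⟨g, hg⟩ := key hγ
  obtain ⟨g', hg'⟩ := key (inv_mem hγ)
  refine ⟨AlgEquiv.ofAlgHom g g' (algHom_ext_genSeries fun i => ?_)
    (algHom_ext_genSeries fun i => ?_), hg⟩
  · simp [hg', hg, idxMul_idxMul, idxMul_one]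
  · simp [hg', hg, idxMul_idxMul, idxMul_one]

theorem genSeriesElt_none (d : {d : ℕ // d ∈ M.divisors}) :
    genSeriesElt (q := q) (M := M) (d, none) = baseElt q M (Nat.dvd_of_mem_divisors d.2) := rfl

theorem genSeriesElt_some (d : {d : ℕ // d ∈ M.divisors}) (P : Line q) :
    genSeriesElt (d, some P) = genElt q M (Nat.dvd_of_mem_divisors d.2) P := rfl

theorem exists_isLineAut' (hqM : ¬ q ∣ M) {γ : SL(2, ℤ)} (hγ : γ ∈ Gamma0 M) :
    ∃ g : XField q M ≃ₐ[Qb] XField q M, IsLineAut q M γ g := by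
  obtain ⟨g, hg⟩ := exists_algEquiv_idxMul hqM (inv_mem hγ)
  refine ⟨g, fun d hne hd => ?_⟩
  have hd' : d ∈ M.divisors := Nat.mem_divisors.mpr ⟨hd, NeZero.ne M⟩
  exact ⟨hg (⟨d, hd'⟩, none), fun P => hg (⟨d, hd'⟩, some P)⟩

theorem isLineAut_apply {γ : SL(2, ℤ)} {g : XField q M ≃ₐ[Qb] XField q M}
    (h : IsLineAut q M γ g) (i : GenIdx q M) :
    g (genSeriesElt i) = genSeriesElt (idxMul γ⁻¹ i) := by
  obtain ⟨d, _ | P⟩ := i
  · exact (h d.1 inferInstance (Nat.dvd_of_mem_divisors d.2)).1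
  · exact (h d.1 inferInstance (Nat.dvd_of_mem_divisors d.2)).2 P

theorem algEquiv_ext_genSeries {g g' : XField q M ≃ₐ[Qb] XField q M}
    (h : ∀ i, g (genSeriesElt i) = g' (genSeriesElt i)) : g = g' :=
  AlgEquiv.coe_algHom_injective (algHom_ext_genSeries h)

end Fermat.Agent.Carayol
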