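/-
The action of `Γ₀(M)` on the function field of `X(q; M)`.
-/
import Fermat.Agent.Carayol.ValuationsExist
import Fermat.Agent.Curve.BasicFunctionField
import Fermat.Agent.ModFun.Field
import Fermat.Agent.Gamma0.Cusps
import Mathlib.FieldTheory.Galois.Basic
import Mathlib.FieldTheory.Relrank

set_option autoImplicit false

noncomputable section

namespace Fermat.Agent.Carayol

open ModularCurve IntermediateField AlgebraicCurve CongruenceSubgroup
open scoped MatrixGroups

variable {q : ℕ} [Fact q.Prime] {M : ℕ} [NeZero M]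

theorem seriesTwist_one {R : Type*} [CommRing R] (x : LaurentSeries R) :
    seriesTwist (1 : Rˣ) x = x := by
  ext n; simp

theorem map_ratCast_algebraMap (r : ℚ) :
    coeffEmb Qb (algebraMap ℚ (LaurentSeries ℚ) r) =
      algebraMap Qb (LaurentSeries Qb) (algebraMap ℚ Qb r) := by
  rw [algebraMap_apply_eq_single, algebraMap_laurentSeries_eq_single, coeffEmb, coeffMap_single]

theorem a_ne_zero_of_map_zetaQ (σ : Qb ≃ₐ[ℚ] Qb) {a : ℕ}
    (hσ : σ (zetaQ q : Qb) = (zetaQ q : Qb) ^ a) : (a : ZMod q) ≠ 0 := by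
  intro h
  obtain ⟨c, rfl⟩ := (ZMod.natCast_eq_zero_iff _ _).mp h
  rw [pow_mul, (isPrimitiveRoot_zetaQ q).pow_eq_one, one_pow] at hσ
  exact (isPrimitiveRoot_zetaQ q).ne_one (Fact.out : q.Prime).one_lt
    (σ.injective (hσ.trans (map_one σ).symm))

theorem lineMul_inv_twist (a : ℕ) (ha : (a : ZMod q) ≠ 0) (γ γ' : SL(2, ℤ))
    (h00 : ((γ' 0 0 : ℤ) : ZMod q) = (γ 0 0 : ℤ))
    (h01 : ((γ' 0 1 : ℤ) : ZMod q) = a * (γ 0 1 : ℤ))
    (h10 : (a : ZMod q) * (γ' 1 0 : ℤ) = (γ 1 0 : ℤ))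
    (h11 : ((γ' 1 1 : ℤ) : ZMod q) = (γ 1 1 : ℤ)) (P : Line q) :
    (lineMul P γ⁻¹).map (fun b => (a : ZMod q) * b) =
      lineMul (P.map fun b => (a : ZMod q) * b) γ'⁻¹ := by
  have e : ∀ g : SL(2, ℤ), (g⁻¹ 0 0 = g 1 1 ∧ g⁻¹ 0 1 = -g 0 1) ∧
      (g⁻¹ 1 0 = -g 1 0 ∧ g⁻¹ 1 1 = g 0 0) := fun g => by
    simp [Matrix.SpecialLinearGroup.coe_inv, Matrix.adjugate_fin_two]
  obtain ⟨⟨a1, a2⟩, a3, a4⟩ := e γ
  obtain ⟨⟨b1, b2⟩, b3, b4⟩ := e γ'
  obtain _ | b := P
  · rw [Option.map_none, lineMul_none, lineMul_none, a3, a4, b3, b4]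
    push_cast
    rw [← h10, h00]
    by_cases h : ((γ' 1 0 : ℤ) : ZMod q) = 0
    · simp [h]
    · rw [if_neg (by simp [ha, h]), if_neg (by simp [h]), Option.map_some]
      congr 1
      field_simp
  · rw [Option.map_some, lineMul_some, lineMul_some, a1, a2, a3, a4, b1, b2, b3, b4]
    push_cast
    rw [← h10, h00, h01, h11]
    have : (a : ZMod q) * b * -((γ' 1 0 : ℤ) : ZMod q) =
        b * -((a : ZMod q) * ((γ' 1 0 : ℤ) : ZMod q)) := by ring
    rw [this]
    split_ifs with h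
    · rfl
    · rw [Option.map_some]
      congr 1
      rw [← mul_div_assoc]
      congr 1
      ring

theorem exists_isLineAut (hqM : ¬ q ∣ M) {γ : SL(2, ℤ)} (hγ : γ ∈ Gamma0 M) :
    ∃ g : XField q M ≃ₐ[Qb] XField q M, IsLineAut q M γ g :=
  exists_isLineAut' hqM hγ

theorem IsLineAut.unique {γ : SL(2, ℤ)} {g g' : XField q M ≃ₐ[Qb] XField q M}
    (h : IsLineAut q M γ g) (h' : IsLineAut q M γ g') : g = g' :=
  algEquiv_ext_genSeries fun i => by rw [isLineAut_apply h, isLineAut_apply h']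

/-- The automorphism `f ↦ f ∘ γ⁻¹`. -/
def lineAut (hqM : ¬ q ∣ M) (γ : Gamma0 M) : XField q M ≃ₐ[Qb] XField q M :=
  (exists_isLineAut hqM γ.2).choose

theorem isLineAut_lineAut (hqM : ¬ q ∣ M) (γ : Gamma0 M) :
    IsLineAut q M γ (lineAut hqM γ) :=
  (exists_isLineAut hqM γ.2).choose_spec

/-- The action of `Γ₀(M)`. -/
def sigma (hqM : ¬ q ∣ M) : Gamma0 M →* (XField q M ≃ₐ[Qb] XField q M) where
  toFun := lineAut hqM
  map_one' := algEquiv_ext_genSeries fun i => by
    rw [isLineAut_apply (isLineAut_lineAut hqM 1), AlgEquiv.one_apply, OneMemClass.coe_one, inv_one,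
      idxMul_one]
  map_mul' γ δ := algEquiv_ext_genSeries fun i => by
    rw [AlgEquiv.mul_apply, isLineAut_apply (isLineAut_lineAut hqM (γ * δ)),
      isLineAut_apply (isLineAut_lineAut hqM δ), isLineAut_apply (isLineAut_lineAut hqM γ),
      Subgroup.coe_mul, _root_.mul_inv_rev, idxMul_idxMul]

theorem sigma_genSeriesElt (hqM : ¬ q ∣ M) (γ : Gamma0 M) (i : GenIdx q M) :
    sigma hqM γ (genSeriesElt i) = genSeriesElt (idxMul ((γ : SL(2, ℤ))⁻¹) i) :=
  isLineAut_apply (isLineAut_lineAut hqM γ) i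

@[simp]
theorem sigma_baseElt (hqM : ¬ q ∣ M) (γ : Gamma0 M) {d : ℕ} [NeZero d] (hd : d ∣ M) :
    sigma hqM γ (baseElt q M hd) = baseElt q M hd :=
  ((isLineAut_lineAut hqM γ) d ‹_› hd).1

theorem sigma_genElt (hqM : ¬ q ∣ M) (γ : Gamma0 M) {d : ℕ} [NeZero d] (hd : d ∣ M) (P : Line q) :
    sigma hqM γ (genElt q M hd P) = genElt q M hd (lineMul P (γ : SL(2, ℤ))⁻¹) :=
  ((isLineAut_lineAut hqM γ) d ‹_› hd).2 P

/-- The automorphism group: the image of `Γ₀(M)`. -/
def autGroup (hqM : ¬ q ∣ M) : Subgroup (XField q M ≃ₐ[Qb] XField q M) := (sigma hqM).range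

/-- `Γ(q) ∩ Γ₀(M)` acts trivially. -/
theorem sigma_eq_one_of_scalar (hqM : ¬ q ∣ M) (γ : Gamma0 M)
    (h01 : (((γ : SL(2, ℤ)) 0 1 : ℤ) : ZMod q) = 0)
    (h10 : (((γ : SL(2, ℤ)) 1 0 : ℤ) : ZMod q) = 0)
    (h : (((γ : SL(2, ℤ)) 0 0 : ℤ) : ZMod q) = (((γ : SL(2, ℤ)) 1 1 : ℤ) : ZMod q)) :
    sigma hqM γ = 1 := by
  have hP : ∀ P : Line q, lineMul P (γ : SL(2, ℤ))⁻¹ = P := fun P => by
    conv_lhs => rw [← lineMul_eq_self_of_scalar P (γ : SL(2, ℤ)) h01 h10 h]
    rw [← lineMul_mul, mul_inv_cancel, lineMul_one]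
  refine algEquiv_ext_genSeries fun i => ?_
  rw [sigma_genSeriesElt, AlgEquiv.one_apply]
  obtain ⟨d, _ | P⟩ := i
  · rfl
  · simp [idxMul, hP]

/-- Automorphisms only depend on the matrix modulo `q`. -/
theorem sigma_eq_of_congr (hqM : ¬ q ∣ M) (γ γ' : Gamma0 M)
    (h : ∀ i j, (((γ : SL(2, ℤ)) i j : ℤ) : ZMod q) = (((γ' : SL(2, ℤ)) i j : ℤ) : ZMod q)) :
    sigma hqM γ = sigma hqM γ' := by
  have hP : ∀ P : Line q, lineMul P (γ : SL(2, ℤ))⁻¹ = lineMul P (γ' : SL(2, ℤ))⁻¹ := fun P => by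
    have e : redQ q (γ : SL(2, ℤ)) = redQ q (γ' : SL(2, ℤ)) :=
      Matrix.SpecialLinearGroup.ext _ _ fun i j => h i j
    rw [lineMul_eq, lineMul_eq, map_inv, map_inv, e]
  refine algEquiv_ext_genSeries fun i => ?_
  rw [sigma_genSeriesElt, sigma_genSeriesElt]
  obtain ⟨d, _ | P⟩ := i
  · rfl
  · simp [idxMul, hP]

/-- Every matrix modulo `q` of determinant one comes from `Γ₀(M)`. -/
theorem exists_gamma0_lift (hqM : ¬ q ∣ M) (g : Matrix.SpecialLinearGroup (Fin 2) (ZMod q)) :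
    ∃ γ : Gamma0 M, ∀ i j, (((γ : SL(2, ℤ)) i j : ℤ) : ZMod q) = g i j := by
  obtain ⟨γ, hγ⟩ := exists_gamma0_eq hqM g
  exact ⟨γ, fun i j => by rw [← hγ, redQ_apply]⟩

/-- The action through `SL₂` modulo `q`. -/
def sigmaQ (hqM : ¬ q ∣ M) : SL(2, ZMod q) →* (XField q M ≃ₐ[Qb] XField q M) where
  toFun g := sigma hqM (exists_gamma0_lift hqM g).choose
  map_one' := by
    rw [← map_one (sigma (q := q) hqM)]
    refine sigma_eq_of_congr hqM _ _ fun i j => ?_
    rw [(exists_gamma0_lift hqM (1 : SL(2, ZMod q))).choose_spec i j]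
    fin_cases i <;> fin_cases j <;> simp
  map_mul' g h := by
    rw [← map_mul (sigma (q := q) hqM)]
    refine sigma_eq_of_congr hqM _ _ fun i j => ?_
    rw [(exists_gamma0_lift hqM (g * h)).choose_spec i j]
    rw [Matrix.SpecialLinearGroup.coe_mul, Matrix.mul_apply, Fin.sum_univ_two, Subgroup.coe_mul,
      Matrix.SpecialLinearGroup.coe_mul, Matrix.mul_apply, Fin.sum_univ_two, Int.cast_add,
      Int.cast_mul, Int.cast_mul, (exists_gamma0_lift hqM g).choose_spec,
      (exists_gamma0_lift hqM g).choose_spec, (exists_gamma0_lift hqM h).choose_spec,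
      (exists_gamma0_lift hqM h).choose_spec]

theorem sigma_eq_sigmaQ (hqM : ¬ q ∣ M) (γ : Gamma0 M) :
    sigma hqM γ = sigmaQ hqM (redQ q (γ : SL(2, ℤ))) := by
  refine sigma_eq_of_congr hqM _ _ fun i j => ?_
  rw [(exists_gamma0_lift hqM (redQ q (γ : SL(2, ℤ)))).choose_spec i j, redQ_apply]

theorem sigmaQ_genElt (hqM : ¬ q ∣ M) (g : SL(2, ZMod q)) {d : ℕ} [NeZero d] (hd : d ∣ M)
    (P : Line q) : sigmaQ hqM g (genElt q M hd P) = genElt q M hd (lineMulQ P g⁻¹) := by
  obtain ⟨γ, rfl⟩ := exists_gamma0_eq hqM g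
  rw [← sigma_eq_sigmaQ, sigma_genElt, lineMul_eq, map_inv]

theorem sigmaQ_baseElt (hqM : ¬ q ∣ M) (g : SL(2, ZMod q)) {d : ℕ} [NeZero d] (hd : d ∣ M) :
    sigmaQ hqM g (baseElt q M hd) = baseElt q M hd := by
  obtain ⟨γ, rfl⟩ := exists_gamma0_eq hqM g
  rw [← sigma_eq_sigmaQ, sigma_baseElt]

theorem range_sigmaQ (hqM : ¬ q ∣ M) :
    (sigmaQ (M := M) hqM).range = (sigma (M := M) hqM).range := by
  refine le_antisymm ?_ ?_
  · rintro _ ⟨g, rfl⟩
    obtain ⟨γ, rfl⟩ := exists_gamma0_eq hqM g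
    exact ⟨γ, sigma_eq_sigmaQ hqM γ⟩
  · rintro _ ⟨γ, rfl⟩
    exact ⟨_, (sigma_eq_sigmaQ hqM γ).symm⟩

variable (q M) in
/-- The function field of `X₀(M)` inside that of `X(q; M)`. -/
def baseField : IntermediateField Qb (XField q M) :=
  IntermediateField.adjoin Qb {x | ∃ (d : ℕ) (_ : NeZero d) (hd : d ∣ M), x = baseElt q M hd}

theorem autGroup_finite (hqM : ¬ q ∣ M) : Finite (autGroup (M := M) hqM) := by
  rw [autGroup, ← range_sigmaQ]
  have : Finite SL(2, ZMod q) := Subtype.finite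
  exact Finite.of_surjective _ (MonoidHom.rangeRestrict_surjective _)

theorem exists_hasQExp_jNfun_smul {D : ℕ} [NeZero D] {N : ℕ} [NeZero N] (hD : D ∣ N)
    (δ : SL(2, ℤ)) : ∃ x, ModFun.HasQExp N (fun τ => ModFun.jNfun D (δ • τ)) x :=
  (ModFun.isModularFun_jNfun hD).cusps δ

theorem jfun_triPoint_eq_jNfun (D : ℕ) [NeZero D] (τ : UpperHalfPlane) :
    ModFun.jfun (ModFun.triPoint D 0 1 τ) = ModFun.jNfun D τ := by
  rw [ModFun.jNfun, ModFun.heckeDiagMatrix_smul_eq_triPoint]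

/-- Every generator is meromorphic at every cusp. -/
theorem exists_hasQExp_genFn_smul (hqM : ¬ q ∣ M) (i : GenIdx q M) (γ : SL(2, ℤ)) :
    ∃ x, ModFun.HasQExp (q * M) (fun τ => genFn i (γ • τ)) x := by
  obtain ⟨d, hdiv⟩ := i
  have hd : d.1 ∣ M := Nat.dvd_of_mem_divisors d.2
  have hD : d.1 * q ∣ q * M := by
    rw [mul_comm]
    exact Nat.mul_dvd_mul_left q hd
  obtain _ | _ | b := hdiv
  · obtain ⟨x, hx⟩ := exists_hasQExp_jNfun_smul (hd.trans (Dvd.intro_left q rfl)) γ
    exact ⟨x, hx.congr (.of_forall fun τ => (jfun_triPoint_eq_jNfun d.1 _).symm)⟩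
  · obtain ⟨x, hx⟩ := exists_hasQExp_jNfun_smul hD γ
    exact ⟨x, hx.congr (.of_forall fun τ => (jfun_triPoint_eq_jNfun (d.1 * q) _).symm)⟩
  · obtain ⟨δ, hδ⟩ := exists_gamma0_eq hqM
      (⟨!![0, -1; 1, b], by simp [Matrix.det_fin_two_of]⟩ : SL(2, ZMod q))
    have h10 : (((δ : SL(2, ℤ)) 1 0 : ℤ) : ZMod q) = 1 := by
      rw [← redQ_apply, hδ]; simp
    have h11 : (((δ : SL(2, ℤ)) 1 1 : ℤ) : ZMod q) = b := by
      rw [← redQ_apply, hδ]; simp
    have hl : lineMul (none : Line q) (δ : SL(2, ℤ)) = some b := by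
      rw [lineMul_none, h10, h11, if_neg one_ne_zero, div_one]
    obtain ⟨x, hx⟩ := exists_hasQExp_jNfun_smul hD ((δ : SL(2, ℤ)) * γ)
    refine ⟨x, hx.congr (.of_forall fun τ => ?_)⟩
    show ModFun.jNfun (d.1 * q) (((δ : SL(2, ℤ)) * γ) • τ) = _
    rw [← jfun_triPoint_eq_jNfun, mul_smul]
    show genFun d.1 none ((δ : SL(2, ℤ)) • γ • τ) = genFun d.1 (some b) (γ • τ)
    rw [genFun_smul hqM δ.2 hd, hl]

theorem exists_hasQExp_polyFn_smul (hqM : ¬ q ∣ M) (ι : Qb →+* ℂ)
    (p : MvPolynomial (GenIdx q M) Qb) (γ : SL(2, ℤ)) :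
    ∃ x, ModFun.HasQExp (q * M) (fun τ => polyFn ι p (γ • τ)) x := by
  induction p using MvPolynomial.induction_on with
  | C a =>
    refine ⟨_, (ModFun.HasQExp.const (ι a)).congr (.of_forall fun τ => ?_)⟩
    simp [polyFn]
  | add p p' hp hp' =>
    obtain ⟨x, hx⟩ := hp
    obtain ⟨y, hy⟩ := hp'
    refine ⟨x + y, (hx.add hy).congr (.of_forall fun τ => ?_)⟩
    simp [polyFn]
  | mul_X p i hp =>
    obtain ⟨x, hx⟩ := hp
    obtain ⟨y, hy⟩ := exists_hasQExp_genFn_smul hqM i γ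
    refine ⟨x * y, (hx.mul hy).congr (.of_forall fun τ => ?_)⟩
    simp [polyFn]

/-- A polynomial in the generators fixed by the permutations gives an invariant function. -/
theorem polyFn_smul (hqM : ¬ q ∣ M) {ι : Qb →+* ℂ}
    (hι : ι (zetaQ q : Qb) = (ModFun.zetaU q : ℂ)) {p : MvPolynomial (GenIdx q M) Qb}
    (h : ∀ γ ∈ Gamma0 M, MvPolynomial.aeval (genSeries ∘ idxMul γ) p =
      MvPolynomial.aeval genSeries p)
    {γ : SL(2, ℤ)} (hγ : γ ∈ Gamma0 M) (τ : UpperHalfPlane) :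
    polyFn ι p (γ • τ) = polyFn ι p τ := by
  have h1 := hasQExp_polyFn hι (MvPolynomial.rename (idxMul γ) p - p)
  rw [map_sub, MvPolynomial.aeval_rename, h γ hγ, sub_self, map_zero] at h1
  have h2 := congrFun
    (eq_zero_of_eventually_atImInfty (mdiff_polyFn ι _) h1.eventually_eq_zero) τ
  simp only [polyFn, MvPolynomial.eval₂_sub, Pi.zero_apply, sub_eq_zero,
    MvPolynomial.eval₂_rename] at h2
  rw [polyFn, polyFn, ← h2]
  congr 1
  funext i
  exact genFn_smul hqM hγ i τ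

theorem gamma_T_pow_conj_mem (γ : SL(2, ℤ)) :
    γ * ModularGroup.T ^ (M : ℤ) * γ⁻¹ ∈ Gamma0 M := by
  rw [Gamma0_mem, Matrix.SpecialLinearGroup.coe_mul, Matrix.SpecialLinearGroup.coe_mul,
    Matrix.SpecialLinearGroup.coe_inv, ModularGroup.coe_T_zpow, Matrix.adjugate_fin_two]
  simp [Matrix.mul_apply, Fin.sum_univ_two]
  ring

theorem isModularFun_polyFn (hqM : ¬ q ∣ M) {ι : Qb →+* ℂ} {p : MvPolynomial (GenIdx q M) Qb}
    (h : ∀ γ ∈ Gamma0 M, ∀ τ, polyFn ι p (γ • τ) = polyFn ι p τ) :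
    ModFun.IsModularFun M (polyFn ι p) where
  mero := ModFun.meroH_of_mdifferentiable (mdiff_polyFn ι p)
  smul_eq := h
  cusps γ := by
    obtain ⟨x, hx⟩ := exists_hasQExp_polyFn_smul hqM ι p γ
    have hx' : ModFun.HasQExp (M * q) (fun τ => polyFn ι p (γ • τ)) x := by rwa [mul_comm M q]
    obtain ⟨y, -, hy⟩ := hx'.exists_of_periodic q (.of_forall fun τ => by
      have e := UpperHalfPlane.modular_T_zpow_smul τ (M : ℤ)
      rw [Int.cast_natCast] at e
      show polyFn ι p (γ • ((M : ℝ) +ᵥ τ)) = polyFn ι p (γ • τ)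
      rw [← e, ← h _ (gamma_T_pow_conj_mem γ) (γ • τ), mul_smul, mul_smul, inv_smul_smul])
    exact ⟨y, hy⟩

theorem map_baseField :
    (baseField q M).map (XField q M).val =
      (modularFunctionFieldC Qb M).map (qExpandAlgHomC Qb q) := by
  rw [baseField, modularFunctionFieldC, IntermediateField.adjoin_map,
    IntermediateField.adjoin_map]
  refine le_antisymm (IntermediateField.adjoin_le_iff.mpr ?_)
    (IntermediateField.adjoin_le_iff.mpr ?_)
  · rintro _ ⟨_, ⟨d, hne, hd, rfl⟩, rfl⟩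
    haveI := hne
    rw [← IntermediateField.adjoin_map]
    refine ⟨qExpand Qb d (jqModC Qb), ModFun.qExpand_jqModC_mem M Qb hd, ?_⟩
    show qExpand Qb q (qExpand Qb d (jqModC Qb)) = qExpand Qb (d * q) (jqModC Qb)
    rw [qExpand_qExpand]
    exact qExpand_congr (mul_comm _ _) _
  · rintro _ ⟨x, rfl | rfl, rfl⟩
    · refine IntermediateField.subset_adjoin Qb _
        ⟨baseElt q M (one_dvd M), ⟨1, inferInstance, one_dvd M, rfl⟩, ?_⟩
      show qExpand Qb (1 * q) (jqModC Qb) = qExpand Qb q (jqModC Qb)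
      exact qExpand_congr (one_mul _) _
    · refine IntermediateField.subset_adjoin Qb _
        ⟨baseElt q M dvd_rfl, ⟨M, inferInstance, dvd_rfl, rfl⟩, ?_⟩
      show qExpand Qb (M * q) (jqModC Qb) = qExpand Qb q (qExpand Qb M (jqModC Qb))
      rw [qExpand_qExpand]
      exact qExpand_congr (mul_comm _ _) _

theorem map_adjoin_jElt :
    (IntermediateField.adjoin Qb {jElt q M}).map (XField q M).val =
      (IntermediateField.adjoin Qb {jqModC Qb}).map (qExpandAlgHomC Qb q) := by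
  rw [IntermediateField.adjoin_map, IntermediateField.adjoin_map, Set.image_singleton,
    Set.image_singleton]
  congr 2
  show qExpand Qb (1 * q) (jqModC Qb) = qExpand Qb q (jqModC Qb)
  exact qExpand_congr (one_mul _) _

/-- A series given by an invariant polynomial in the generators comes from `X₀(M)`. -/
theorem aeval_genSeries_mem (hqM : ¬ q ∣ M) {p : MvPolynomial (GenIdx q M) Qb}
    (h : ∀ γ ∈ Gamma0 M, MvPolynomial.aeval (genSeries ∘ idxMul γ) p =
      MvPolynomial.aeval genSeries p) :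
    MvPolynomial.aeval genSeries p ∈
      (modularFunctionFieldC Qb M).map (qExpandAlgHomC Qb q) := by
  obtain ⟨ι, hι⟩ := exists_embedding q
  set y := MvPolynomial.aeval genSeries p with hy
  have hf : ModFun.IsModularFun M (polyFn ι p) :=
    isModularFun_polyFn hqM fun γ hγ τ => polyFn_smul hqM hι h hγ τ
  have h1 : ModFun.HasQExp (1 * q) (polyFn ι p) (coeffMap ι y) := by
    rw [one_mul]; exact hasQExp_polyFn hι p
  obtain ⟨x0, hx0, hx1⟩ := h1.exists_of_periodic q (.of_forall fun τ => by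
    rw [Nat.cast_one, ← UpperHalfPlane.modular_T_smul]
    exact hf.smul_eq _ (by simp [Gamma0_mem, ModularGroup.T]) τ)
  have hmem := ModFun.mem_modularFunctionFieldC_of_hasQExp hf hx1
  have hcoeff : ∀ m : ℤ, ι (y.coeff (q * m)) = x0.coeff m := fun m => by
    have := congrArg (fun z : LaurentSeries ℂ => z.coeff ((q : ℤ) * m)) hx0
    simpa using this
  let y0 : LaurentSeries Qb :=
    { coeff := fun m => y.coeff (q * m)
      isPWO_support' := x0.isPWO_support'.mono fun m hm h0 => hm (by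
        have := hcoeff m
        rw [h0] at this
        exact ι.injective (this.trans (map_zero ι).symm)) }
  have hy0 : coeffMap ι y0 = x0 := by
    ext m
    rw [coeffMap_coeff]
    exact hcoeff m
  refine ⟨y0, ?_, ?_⟩
  · letI : Algebra Qb ℂ := ι.toAlgebra
    refine ModFun.mem_adjoin_of_coeffMap_mem (k := Qb) (L := ℂ) _ ?_
    have e : coeffMap (algebraMap Qb ℂ) '' {jqModC Qb, jqNModC Qb M} =
        {jqModC ℂ, jqNModC ℂ M} := by
      rw [Set.image_insert_eq, Set.image_singleton, coeffMap_jqModC, coeffMap_jqNModC]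
    rw [e, show algebraMap Qb ℂ = ι from rfl, hy0]
    exact hmem
  · show qExpand Qb q y0 = y
    ext k
    by_cases hk : (q : ℤ) ∣ k
    · obtain ⟨m, rfl⟩ := hk
      rw [qExpand_coeff_mul]
    · rw [qExpand_coeff_of_not_dvd q _ hk]
      refine (ι.injective ?_).symm
      have := congrArg (fun z : LaurentSeries ℂ => z.coeff k) hx0
      simp only [coeffMap_coeff, qExpand_coeff_of_not_dvd q _ hk] at this
      rw [this, map_zero]

/-- A fixed polynomial expression in the generators lies in the base field. -/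
theorem mem_baseField_of_fixed (hqM : ¬ q ∣ M) {z : XField q M}
    (hz : z ∈ Algebra.adjoin Qb (Set.range (genSeriesElt (q := q) (M := M))))
    (hfix : ∀ γ : Gamma0 M, sigma hqM γ z = z) : z ∈ baseField q M := by
  rw [Algebra.adjoin_range_eq_range_aeval] at hz
  obtain ⟨p, hp⟩ := hz
  replace hp : MvPolynomial.aeval genSeriesElt p = z := hp
  subst hp
  have hval : ∀ f : GenIdx q M → GenIdx q M,
      ((MvPolynomial.aeval (genSeriesElt ∘ f) p : XField q M) : LaurentSeries Qb) =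
        MvPolynomial.aeval (genSeries ∘ f) p := fun f => by
    change (XField q M).val _ = _
    rw [← AlgHom.comp_apply, MvPolynomial.comp_aeval]
    rfl
  have h : ∀ γ ∈ Gamma0 M, MvPolynomial.aeval (genSeries ∘ idxMul γ) p =
      MvPolynomial.aeval genSeries p := by
    intro γ hγ
    have e := hfix ⟨γ⁻¹, inv_mem hγ⟩
    change (sigma hqM _).toAlgHom (MvPolynomial.aeval genSeriesElt p) = _ at e
    rw [← AlgHom.comp_apply, MvPolynomial.comp_aeval] at e
    have e' : (fun i => (sigma hqM ⟨γ⁻¹, inv_mem hγ⟩).toAlgHom (genSeriesElt i)) =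
        genSeriesElt ∘ idxMul γ := funext fun i => by
      show sigma hqM _ (genSeriesElt i) = _
      rw [sigma_genSeriesElt]
      simp
    rw [e'] at e
    have := congrArg (fun w : XField q M => (w : LaurentSeries Qb)) e
    simpa [hval, hval id] using this.trans (hval id)
  have hm := aeval_genSeries_mem hqM h
  rw [← map_baseField] at hm
  obtain ⟨w, hw, e⟩ := hm
  have : w = MvPolynomial.aeval genSeriesElt p := Subtype.ext (e.trans (hval id).symm)
  exact this ▸ hw

theorem fixedField_autGroup (hqM : ¬ q ∣ M) :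
    IntermediateField.fixedField (autGroup (M := M) hqM) = baseField q M := by
  classical
  refine le_antisymm (fun x hx => ?_) ?_
  · haveI := autGroup_finite (M := M) hqM
    haveI := Fintype.ofFinite (autGroup (M := M) hqM)
    set R := Algebra.adjoin Qb (Set.range (genSeriesElt (q := q) (M := M))) with hR
    have hmap : R.map (XField q M).val = genRing q M := by
      rw [hR, AlgHom.map_adjoin, ← Set.range_comp]; rfl
    obtain ⟨r, hr, s, hs, hxrs⟩ := IntermediateField.mem_adjoin_iff_div.mp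
      (show (x : LaurentSeries Qb) ∈
          IntermediateField.adjoin Qb (Set.range (genSeries (q := q) (M := M))) by
        rw [adjoin_range_genSeries]; exact x.2)
    change r ∈ genRing q M at hr
    change s ∈ genRing q M at hs
    rw [← hmap] at hr hs
    obtain ⟨r', hr', rfl⟩ := hr
    obtain ⟨s', hs', rfl⟩ := hs
    have hx' : x = r' / s' := Subtype.ext hxrs
    by_cases h0 : s' = 0
    · rw [hx', h0, div_zero]; exact zero_mem _
    have hinv : ∀ g : autGroup (M := M) hqM, ∀ z ∈ R,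
        (g : XField q M ≃ₐ[Qb] XField q M) z ∈ R := by
      rintro ⟨_, γ, rfl⟩ z hz
      have : R.map (sigma hqM γ).toAlgHom ≤ R := by
        rw [hR, AlgHom.map_adjoin]
        refine Algebra.adjoin_mono ?_
        rintro _ ⟨_, ⟨i, rfl⟩, rfl⟩
        exact ⟨_, (sigma_genSeriesElt hqM γ i).symm⟩
      exact this ⟨z, hz, rfl⟩
    let g₀ : autGroup (M := M) hqM → XField q M := fun g =>
      (g : XField q M ≃ₐ[Qb] XField q M) s'
    have hfix : ∀ γ : Gamma0 M, sigma hqM γ (∏ g, g₀ g) = ∏ g, g₀ g := by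
      intro γ
      rw [map_prod]
      exact Fintype.prod_equiv (Equiv.mulLeft ⟨sigma hqM γ, γ, rfl⟩) _ _ fun g => rfl
    have hNmem : ∏ g, g₀ g ∈ R := prod_mem fun g _ => hinv g s' hs'
    have hN0 : ∏ g, g₀ g ≠ 0 := Finset.prod_ne_zero_iff.mpr fun g _ => by
      simpa [g₀] using h0
    have hxN : x * ∏ g, g₀ g = r' * ∏ g ∈ Finset.univ.erase 1, g₀ g := by
      rw [← Finset.mul_prod_erase _ g₀ (Finset.mem_univ 1), hx', ← mul_assoc]
      congr 1
      exact div_mul_cancel₀ r' h0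
    have h1 : x * ∏ g, g₀ g ∈ baseField q M := by
      refine mem_baseField_of_fixed hqM ?_ fun γ => ?_
      · rw [hxN]
        exact mul_mem hr' (prod_mem fun g _ => hinv g s' hs')
      · rw [map_mul, hfix]
        congr 1
        exact hx ⟨sigma hqM γ, γ, rfl⟩
    have h2 := mem_baseField_of_fixed hqM hNmem hfix
    rw [← mul_div_cancel_right₀ x hN0]
    exact div_mem h1 h2
  · rw [baseField, IntermediateField.adjoin_le_iff]
    rintro _ ⟨d, hne, hd, rfl⟩ ⟨_, γ, rfl⟩
    exact sigma_baseElt hqM γ hd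

theorem transcendental_jElt : Transcendental Qb (jElt q M) := by
  rintro ⟨P, hP, e⟩
  refine ModFun.transcendental_jqModC Qb ⟨P, hP, ?_⟩
  apply qExpand_injective q
  have h : ((jElt q M : XField q M) : LaurentSeries Qb) = qExpandAlgHomC Qb q (jqModC Qb) :=
    qExpand_congr (one_mul _) _
  have e' := congrArg (XField q M).val e
  rw [← Polynomial.aeval_algHom_apply, map_zero] at e'
  change Polynomial.aeval ((jElt q M : XField q M) : LaurentSeries Qb) P = 0 at e'
  rw [h, Polynomial.aeval_algHom_apply] at e'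
  rw [map_zero]
  exact e'

theorem adjoin_jElt_le_baseField :
    IntermediateField.adjoin Qb {jElt q M} ≤ baseField q M := by
  rw [IntermediateField.adjoin_le_iff, Set.singleton_subset_iff]
  exact IntermediateField.subset_adjoin Qb _ ⟨1, inferInstance, one_dvd M, rfl⟩

theorem relfinrank_baseField :
    IntermediateField.relfinrank (IntermediateField.adjoin Qb {jElt q M}) (baseField q M) =
      dedekindPsi M := by
  rw [← IntermediateField.relfinrank_map_map _ _ (XField q M).val, map_baseField, map_adjoin_jElt,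
    IntermediateField.relfinrank_map_map, ModFun.relfinrank_modularFunctionFieldC]

theorem finrank_baseField :
    Module.finrank (IntermediateField.adjoin Qb {jElt q M}) (XField q M) =
      dedekindPsi M * Module.finrank (baseField q M) (XField q M) := by
  rw [← relfinrank_baseField (q := q) (M := M),
    IntermediateField.relfinrank_mul_finrank_top adjoin_jElt_le_baseField]

theorem finrank_baseField_xField (hqM : ¬ q ∣ M) :
    Module.finrank (baseField q M) (XField q M) = Nat.card (autGroup (M := M) hqM) := by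
  haveI := autGroup_finite (M := M) hqM
  haveI := Fintype.ofFinite (autGroup (M := M) hqM)
  rw [← fixedField_autGroup hqM, Nat.card_eq_fintype_card]
  exact FixedPoints.finrank_eq_card (autGroup (M := M) hqM) (XField q M)

theorem finrank_xField (hqM : ¬ q ∣ M) :
    Module.finrank (IntermediateField.adjoin Qb {jElt q M}) (XField q M) =
      Nat.card (autGroup (M := M) hqM) * dedekindPsi M := by
  rw [finrank_baseField, finrank_baseField_xField hqM, mul_comm]

theorem isFunctionFieldOne_xField (hqM : ¬ q ∣ M) :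
    Curve.IsFunctionFieldOne Qb (XField q M) := by
  haveI := autGroup_finite (M := M) hqM
  haveI : Module.Finite (IntermediateField.adjoin Qb {jElt q M}) (XField q M) :=
    Module.finite_of_finrank_pos (by
      rw [finrank_xField hqM]
      exact Nat.mul_pos Nat.card_pos (Gamma0.dedekindPsi_pos M))
  exact Curve.IsFunctionFieldOne.of_finite transcendental_jElt

/-- `X₀(q² M)` (in the variable `τ / q`) inside `X(q; M)`. -/
theorem modularFunctionFieldBar_le_xField : modularFunctionFieldBar (q * q * M) ≤ XField q M := by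
  have h : ∀ x ∈ modularFunctionFieldFull (q * q * M), coeffEmb Qb x ∈ XField q M := by
    intro x hx
    rw [modularFunctionFieldFull] at hx
    induction hx using IntermediateField.adjoin_induction with
    | algebraMap r =>
      rw [map_ratCast_algebraMap]
      exact IntermediateField.algebraMap_mem _ _
    | add x y _ _ hx hy => rw [map_add]; exact add_mem hx hy
    | inv x _ hx => rw [map_inv₀]; exact inv_mem hx
    | mul x y _ _ hx hy => rw [map_mul]; exact mul_mem hx hy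
    | mem x hx =>
    obtain ⟨d, hne, hd, rfl⟩ := hx
    haveI := hne
    have e : coeffEmb Qb (qExpand ℚ d jq) = qExpand Qb d (jqModC Qb) := by
      rw [coeffEmb, coeffMap_qExpand, ← jqModC_rat, coeffMap_jqModC]
    rw [e]
    obtain ⟨a, b, ha, hb, rfl⟩ := exists_dvd_and_dvd_of_dvd_mul hd
    haveI : NeZero b := ⟨right_ne_zero_of_mul (NeZero.ne (a * b))⟩
    obtain ⟨i, hi, rfl⟩ := (Nat.dvd_prime_pow (Fact.out : q.Prime)).mp (show a ∣ q ^ 2 by rwa [sq])
    interval_cases i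
    · rw [qExpand_congr (show q ^ 0 * b = b by simp)]
      have := gen_mem q M hb (some (0 : ZMod q))
      rwa [gen, ZMod.val_zero, pow_zero, seriesTwist_one] at this
    · haveI : NeZero (b * q) := ⟨mul_ne_zero (NeZero.ne b) (NeZero.ne q)⟩
      rw [qExpand_congr (show q ^ 1 * b = b * q by ring)]
      exact baseGen_mem q M hb
    · haveI : NeZero (b * q * q) :=
        ⟨mul_ne_zero (mul_ne_zero (NeZero.ne b) (NeZero.ne q)) (NeZero.ne q)⟩
      rw [qExpand_congr (show q ^ 2 * b = b * q * q by ring)]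
      exact gen_mem q M hb none
  refine IntermediateField.adjoin_le_iff.mpr ?_
  rintro _ ⟨x, hx, rfl⟩
  exact h x hx

theorem exists_map_zetaQ (σ : Qb ≃ₐ[ℚ] Qb) :
    ∃ a : ℕ, σ (zetaQ q : Qb) = (zetaQ q : Qb) ^ a := by
  obtain ⟨a, -, ha⟩ := (isPrimitiveRoot_zetaQ q).eq_pow_of_pow_eq_one
    (ξ := σ (zetaQ q : Qb)) (by rw [← map_pow, (isPrimitiveRoot_zetaQ q).pow_eq_one, map_one])
  exact ⟨a, ha.symm⟩

theorem coeffMap_baseGen (σ : Qb ≃ₐ[ℚ] Qb) (d : ℕ) [NeZero d] :
    coeffMap (σ : Qb →+* Qb) (baseGen q d) = baseGen q d := by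
  rw [baseGen, coeffMap_qExpand, coeffMap_jqModC]

theorem coeffMap_gen (σ : Qb ≃ₐ[ℚ] Qb) {a : ℕ} (hσ : σ (zetaQ q : Qb) = (zetaQ q : Qb) ^ a)
    (d : ℕ) [NeZero d] (P : Line q) :
    coeffMap (σ : Qb →+* Qb) (gen q d P) =
      gen q d (P.map fun b => (a : ZMod q) * b) := by
  obtain _ | b := P
  · show coeffMap _ (qExpand Qb _ _) = qExpand Qb _ _
    rw [coeffMap_qExpand, coeffMap_jqModC]
  · show coeffMap _ (seriesTwist _ _) = seriesTwist _ _
    have hj : coeffMap (σ : Qb →+* Qb) (qExpand Qb d (jqModC Qb)) = qExpand Qb d (jqModC Qb) := by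
      rw [coeffMap_qExpand, coeffMap_jqModC]
    ext n
    rw [coeffMap_coeff, seriesTwist_coeff, seriesTwist_coeff, map_mul, ← coeffMap_coeff, hj]
    congr 1
    rw [Units.val_zpow_eq_zpow_val, Units.val_zpow_eq_zpow_val, map_zpow₀,
      Units.val_pow_eq_pow_val, Units.val_pow_eq_pow_val, map_pow]
    congr 1
    show σ (zetaQ q : Qb) ^ b.val = _
    rw [hσ, ← pow_mul]
    refine pow_eq_pow_of_modEq ?_ (isPrimitiveRoot_zetaQ q).pow_eq_one
    rw [← ZMod.natCast_eq_natCast_iff]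
    simp

theorem coeffMap_mem_xField (σ : Qb ≃ₐ[ℚ] Qb) {x : LaurentSeries Qb} (hx : x ∈ XField q M) :
    coeffMap (σ : Qb →+* Qb) x ∈ XField q M := by
  induction hx using IntermediateField.adjoin_induction with
  | mem x hx =>
    obtain ⟨a, ha⟩ := exists_map_zetaQ (q := q) σ
    obtain ⟨d, hne, hd, rfl | ⟨P, rfl⟩⟩ := hx
    · rw [coeffMap_baseGen]; exact baseGen_mem q M hd
    · rw [coeffMap_gen σ ha]; exact gen_mem q M hd _
  | algebraMap c => rw [coeffMap_algebraMap]; exact IntermediateField.algebraMap_mem _ _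
  | add x y _ _ hx hy => rw [map_add]; exact add_mem hx hy
  | inv x _ hx => rw [map_inv₀]; exact inv_mem hx
  | mul x y _ _ hx hy => rw [map_mul]; exact mul_mem hx hy

variable (q M) in
/-- The coefficientwise Galois action. -/
def galAct : (Qb ≃ₐ[ℚ] Qb) →* SemilinearAut Qb (XField q M) where
  toFun σ := ⟨(
    { toFun := fun x => ⟨coeffMap (σ : Qb →+* Qb) (x : LaurentSeries Qb),
        coeffMap_mem_xField σ x.2⟩
      invFun := fun x => ⟨coeffMap (σ.symm : Qb →+* Qb) (x : LaurentSeries Qb),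
        coeffMap_mem_xField σ.symm x.2⟩
      left_inv := fun x => Subtype.ext (by ext n; simp)
      right_inv := fun x => Subtype.ext (by ext n; simp)
      map_mul' := fun x y => Subtype.ext (map_mul (coeffMap (σ : Qb →+* Qb)) _ _)
      map_add' := fun x y => Subtype.ext (map_add (coeffMap (σ : Qb →+* Qb)) _ _) },
    σ.toRingEquiv), fun a => Subtype.ext (coeffMap_algebraMap (σ : Qb →+* Qb) a)⟩
  map_one' := Subtype.ext (Prod.ext (RingEquiv.ext fun x => Subtype.ext (by ext n; rfl)) rfl)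
  map_mul' σ τ :=
    Subtype.ext (Prod.ext (RingEquiv.ext fun x => Subtype.ext (by ext n; rfl)) rfl)

/-- The automorphism of the field underlying the Galois action. -/
def galRingAut (σ : Qb ≃ₐ[ℚ] Qb) : XField q M ≃+* XField q M :=
  SemilinearAut.toRingAut (galAct q M σ)

theorem coe_galRingAut (σ : Qb ≃ₐ[ℚ] Qb) (x : XField q M) :
    ((galRingAut σ x : XField q M) : LaurentSeries Qb) =
      coeffMap (σ : Qb →+* Qb) (x : LaurentSeries Qb) := rfl

theorem galRingAut_genElt (σ : Qb ≃ₐ[ℚ] Qb) {a : ℕ}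
    (hσ : σ (zetaQ q : Qb) = (zetaQ q : Qb) ^ a) {d : ℕ} [NeZero d] (hd : d ∣ M) (b : ZMod q) :
    galRingAut σ (genElt q M hd (some b)) = genElt q M hd (some ((a : ZMod q) * b)) :=
  Subtype.ext (coeffMap_gen σ hσ d (some b))

theorem galRingAut_algebraMap (σ : Qb ≃ₐ[ℚ] Qb) (c : Qb) :
    galRingAut σ (algebraMap Qb (XField q M) c) = algebraMap Qb (XField q M) (σ c) :=
  Subtype.ext (coeffMap_algebraMap (σ : Qb →+* Qb) c)

/-- Galois conjugation of the action: conjugation by `diag (1, a)` modulo `q`. -/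
theorem galRingAut_sigma (hqM : ¬ q ∣ M) (σ : Qb ≃ₐ[ℚ] Qb) {a : ℕ}
    (hσ : σ (zetaQ q : Qb) = (zetaQ q : Qb) ^ a) (γ γ' : Gamma0 M)
    (h00 : (((γ' : SL(2, ℤ)) 0 0 : ℤ) : ZMod q) = ((γ : SL(2, ℤ)) 0 0 : ℤ))
    (h01 : (((γ' : SL(2, ℤ)) 0 1 : ℤ) : ZMod q) = a * ((γ : SL(2, ℤ)) 0 1 : ℤ))
    (h10 : (a : ZMod q) * ((γ' : SL(2, ℤ)) 1 0 : ℤ) = ((γ : SL(2, ℤ)) 1 0 : ℤ))
    (h11 : (((γ' : SL(2, ℤ)) 1 1 : ℤ) : ZMod q) = ((γ : SL(2, ℤ)) 1 1 : ℤ))
    (x : XField q M) :
    galRingAut σ (sigma hqM γ x) = sigma hqM γ' (galRingAut σ x) := by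
  obtain ⟨x, hx⟩ := x
  have hline : ∀ P : Line q, (lineMul P (γ : SL(2, ℤ))⁻¹).map (fun b => (a : ZMod q) * b) =
      lineMul (P.map fun b => (a : ZMod q) * b) (γ' : SL(2, ℤ))⁻¹ := fun P =>
    lineMul_inv_twist a (a_ne_zero_of_map_zetaQ σ hσ) _ _ h00 h01 h10 h11 P
  induction hx using IntermediateField.adjoin_induction with
  | mem x hx =>
    obtain ⟨d, hne, hd, rfl | ⟨P, rfl⟩⟩ := hx
    · have e : galRingAut σ (baseElt q M hd) = baseElt q M hd :=
        Subtype.ext (coeffMap_baseGen σ d)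
      show galRingAut σ (sigma hqM γ (baseElt q M hd)) = sigma hqM γ' (galRingAut σ (baseElt q M hd))
      rw [sigma_baseElt, e, sigma_baseElt]
    · have e : ∀ P, galRingAut σ (genElt q M hd P) =
          genElt q M hd (P.map fun b => (a : ZMod q) * b) := fun P =>
        Subtype.ext (coeffMap_gen σ hσ d P)
      show galRingAut σ (sigma hqM γ (genElt q M hd P)) = sigma hqM γ' (galRingAut σ (genElt q M hd P))
      rw [sigma_genElt, e, e, sigma_genElt, hline]
  | algebraMap c =>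
    show galRingAut σ (sigma hqM γ (algebraMap Qb (XField q M) c)) =
      sigma hqM γ' (galRingAut σ (algebraMap Qb (XField q M) c))
    rw [AlgEquiv.commutes, galRingAut_algebraMap, AlgEquiv.commutes]
  | add x y hx hy h h' =>
    show galRingAut σ (sigma hqM γ (⟨x, hx⟩ + ⟨y, hy⟩)) = sigma hqM γ' (galRingAut σ (⟨x, hx⟩ + ⟨y, hy⟩))
    rw [map_add, map_add, map_add, map_add, h, h']
  | inv x hx h =>
    show galRingAut σ (sigma hqM γ (⟨x, hx⟩⁻¹)) = sigma hqM γ' (galRingAut σ (⟨x, hx⟩⁻¹))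
    rw [map_inv₀, map_inv₀, map_inv₀, map_inv₀, h]
  | mul x y hx hy h h' =>
    show galRingAut σ (sigma hqM γ (⟨x, hx⟩ * ⟨y, hy⟩)) = sigma hqM γ' (galRingAut σ (⟨x, hx⟩ * ⟨y, hy⟩))
    rw [map_mul, map_mul, map_mul, map_mul, h, h']

end Fermat.Agent.Carayol
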