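/-
The action of `SL₂(ℤ/q)` on the function field of `X(q; M)`, the subfield of level `q² M` and the
two subfields of level `q M` inside it, and the behaviour under Galois conjugation.
-/
import Fermat.Agent.Carayol.CuspidalGluing
import Fermat.Agent.Carayol.ValuationsAction
import Fermat.Agent.Curve.BasicModular
import Mathlib.FieldTheory.Galois.Basic

set_option autoImplicit false
set_option linter.style.haveILetI false
set_option linter.unusedSectionVars false

noncomputable section

open scoped MatrixGroups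

namespace Fermat.Agent.Carayol

namespace Cuspidal

open ModularCurve IntermediateField AlgebraicCurve CongruenceSubgroup
open Matrix.SpecialLinearGroup (map)

attribute [-simp] ZMod.inv_coe_unit

section Correspondence

/-- Galois correspondence for a finite group of automorphisms of a field, over its fixed field. -/
theorem mem_of_forall_fixed {K E : Type*} [Field K] [Field E] [Algebra K E]
    (G : Subgroup (E ≃ₐ[K] E)) [Finite G] (S : IntermediateField K E)
    (hS : IntermediateField.fixedField G ≤ S) {x : E}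
    (hx : ∀ g ∈ G, (∀ s ∈ S, g s = s) → g x = x) : x ∈ S := by
  let S' : IntermediateField (FixedPoints.subfield G E) E :=
    S.toSubfield.toIntermediateField fun b => hS b.2
  haveI : IsGalois (FixedPoints.subfield G E) E := inferInstance
  haveI : FiniteDimensional (FixedPoints.subfield G E) E := inferInstance
  suffices h : x ∈ IntermediateField.fixedField S'.fixingSubgroup by
    rw [IsGalois.fixedField_fixingSubgroup] at h
    exact h
  rw [IntermediateField.mem_fixedField_iff]
  intro f hf
  obtain ⟨g, rfl⟩ := (FixedPoints.toAlgAut_bijective G E).surjective f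
  rw [IntermediateField.mem_fixingSubgroup_iff] at hf
  exact hx g.1 g.2 hf

/-- An algebra map out of a field of level `N` is determined on the generators. -/
theorem algHom_mem_of_generators (N : ℕ) [NeZero N] {E : Type*} [Field E]
    [Algebra Qb E] (φ : modularFunctionFieldBar N →ₐ[Qb] E) (S : IntermediateField Qb E)
    (h : ∀ (d : ℕ) [NeZero d], d ∣ N → ∀ z : modularFunctionFieldBar N,
      (z : LaurentSeries Qb) = qExpand Qb d (jqModC Qb) → φ z ∈ S)
    (z : modularFunctionFieldBar N) : φ z ∈ S := by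
  suffices hle : modularFunctionFieldBar N ≤
      (S.comap φ).map (modularFunctionFieldBar N).val by
    obtain ⟨y, hy, hyz⟩ := hle z.2
    obtain rfl : y = z := Subtype.ext hyz
    exact hy
  conv_lhs => rw [modularFunctionFieldBar, Curve.laurentBaseChange_full_eq_fullC,
    modularFunctionFieldFullC]
  refine adjoin_le_iff.mpr ?_
  rintro _ ⟨d, hd, hdN, rfl⟩
  haveI := hd
  have hmem : qExpand Qb d (jqModC Qb) ∈ modularFunctionFieldBar N := by
    rw [modularFunctionFieldBar, Curve.laurentBaseChange_full_eq_fullC]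
    exact jqModCd_mem_full Qb N hdN
  exact ⟨⟨_, hmem⟩, h d hdN _ rfl, rfl⟩

end Correspondence

variable {q : ℕ} [Fact q.Prime] {M : ℕ} [NeZero M]

/-- Reduction modulo `q`. -/
def red : SL(2, ℤ) →* SL(2, ZMod q) :=
  map (Int.castRingHom (ZMod q))

theorem red_apply (γ : SL(2, ℤ)) (i j : Fin 2) :
    red (q := q) γ i j = ((γ i j : ℤ) : ZMod q) := rfl

theorem exists_red_eq (hqM : ¬ q ∣ M) (g : SL(2, ZMod q)) :
    ∃ γ : Gamma0 M, red (γ : SL(2, ℤ)) = g := by
  obtain ⟨γ, hγ⟩ := exists_gamma0_lift hqM g
  exact ⟨γ, Matrix.SpecialLinearGroup.ext _ _ hγ⟩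

theorem sigma_eq_of_red (hqM : ¬ q ∣ M) {γ γ' : Gamma0 M}
    (h : red (q := q) (γ : SL(2, ℤ)) = red (γ' : SL(2, ℤ))) : sigma hqM γ = sigma hqM γ' :=
  sigma_eq_of_congr hqM γ γ' fun i j => by rw [← red_apply, ← red_apply, h]

/-- A chosen preimage in `Γ₀(M)`. -/
def lift (hqM : ¬ q ∣ M) (g : SL(2, ZMod q)) : Gamma0 M := (exists_red_eq hqM g).choose

theorem red_lift (hqM : ¬ q ∣ M) (g : SL(2, ZMod q)) : red (lift hqM g : SL(2, ℤ)) = g :=
  (exists_red_eq hqM g).choose_spec

/-- The action of `SL₂(ℤ/q)` on `X(q; M)`. -/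
def autHom (hqM : ¬ q ∣ M) : SL(2, ZMod q) →* (XField q M ≃ₐ[Qb] XField q M) where
  toFun g := sigma hqM (lift hqM g)
  map_one' := by
    rw [← map_one (sigma (q := q) (M := M) hqM)]
    exact sigma_eq_of_red hqM (by rw [red_lift, OneMemClass.coe_one, map_one])
  map_mul' g h := by
    rw [← map_mul]
    exact sigma_eq_of_red hqM (by rw [red_lift, Subgroup.coe_mul, map_mul, red_lift, red_lift])

theorem autHom_red (hqM : ¬ q ∣ M) (γ : Gamma0 M) :
    autHom hqM (red (γ : SL(2, ℤ))) = sigma hqM γ :=
  sigma_eq_of_red hqM (red_lift hqM _)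

theorem autHom_mem (hqM : ¬ q ∣ M) (g : SL(2, ZMod q)) : autHom hqM g ∈ autGroup (M := M) hqM :=
  ⟨lift hqM g, rfl⟩

theorem exists_autHom_eq (hqM : ¬ q ∣ M) {f : XField q M ≃ₐ[Qb] XField q M}
    (hf : f ∈ autGroup (M := M) hqM) : ∃ g, autHom hqM g = f := by
  obtain ⟨γ, rfl⟩ := hf
  exact ⟨_, autHom_red hqM γ⟩

/-- The right action on the projective line. -/
def lineSmul (g : SL(2, ZMod q)) (P : Line q) : Line q :=
  vecLine (Matrix.vecMul (lineVec P) (g : Matrix (Fin 2) (Fin 2) (ZMod q)))

theorem autHom_baseElt (hqM : ¬ q ∣ M) (g : SL(2, ZMod q)) {d : ℕ} [NeZero d] (hd : d ∣ M) :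
    autHom hqM g (baseElt q M hd) = baseElt q M hd :=
  sigma_baseElt hqM _ hd

theorem autHom_genElt (hqM : ¬ q ∣ M) (g : SL(2, ZMod q)) {d : ℕ} [NeZero d] (hd : d ∣ M)
    (P : Line q) :
    autHom hqM g (genElt q M hd P) = genElt q M hd (lineSmul g⁻¹ P) := by
  show sigma hqM (lift hqM g) _ = _
  rw [sigma_genElt]
  congr 1
  show vecLine _ = vecLine _
  congr 2
  have := congrArg (fun h : SL(2, ZMod q) => (h : Matrix (Fin 2) (Fin 2) (ZMod q)))
    (congrArg (·⁻¹) (red_lift hqM g))
  rw [← this, ← map_inv]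
  rfl

theorem lineSmul_inv_none {g : SL(2, ZMod q)} :
    lineSmul g⁻¹ none = (none : Line q) ↔ g 1 0 = 0 := by
  simp [lineSmul, lineVec, vecLine, Matrix.vecMul, dotProduct, Fin.sum_univ_two,
    Matrix.SpecialLinearGroup.coe_inv, Matrix.adjugate_fin_two]

theorem lineSmul_inv_zero {g : SL(2, ZMod q)} :
    lineSmul g⁻¹ (some 0) = (some 0 : Line q) ↔ g 0 1 = 0 := by
  have hdet : g 0 0 * g 1 1 - g 0 1 * g 1 0 = 1 := by
    have h := g.2
    rwa [Matrix.det_fin_two] at h
  rcases eq_or_ne (g 1 1) 0 with h | h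
  · have : g 0 1 ≠ 0 := fun h' => by simp [h, h'] at hdet
    simp [lineSmul, lineVec, vecLine, Matrix.vecMul, dotProduct, Fin.sum_univ_two,
      Matrix.SpecialLinearGroup.coe_inv, Matrix.adjugate_fin_two, h, this]
  · simp [lineSmul, lineVec, vecLine, Matrix.vecMul, dotProduct, Fin.sum_univ_two,
      Matrix.SpecialLinearGroup.coe_inv, Matrix.adjugate_fin_two, h]

theorem gen_some_zero (d : ℕ) [NeZero d] : gen q d (some 0) = qExpand Qb d (jqModC Qb) := by
  ext n
  simp [gen]

theorem gen_some_injective : Function.Injective fun b : ZMod q => gen q 1 (some b) := by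
  intro b b' h
  have h1 := congrArg (fun x : LaurentSeries Qb => x.coeff (-1)) h
  simp only [gen, seriesTwist_coeff, qExpand_one_apply, coeff_jqModC_neg_one, mul_one,
    zpow_neg_one, Units.val_inv_eq_inv_val, Units.val_pow_eq_pow_val, inv_inj] at h1
  exact ZMod.val_injective q ((isPrimitiveRoot_zetaQ q).pow_inj b.val_lt b'.val_lt h1)

theorem gen_none_ne (b : ZMod q) : gen q 1 none ≠ gen q 1 (some b) := by
  intro h
  have hq := (Fact.out : q.Prime).two_le
  have h1 := congrArg (fun x : LaurentSeries Qb => x.coeff (-1)) h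
  have hnd : ¬ ((1 * q * q : ℕ) : ℤ) ∣ (-1 : ℤ) := by
    intro hdvd
    have h2 := Int.natCast_dvd_natCast.mp (Int.dvd_neg.mp hdvd)
    have h3 := Nat.le_of_dvd one_pos h2
    nlinarith
  simp only [gen, seriesTwist_coeff, qExpand_one_apply, coeff_jqModC_neg_one, mul_one,
    qExpand_coeff_of_not_dvd _ _ hnd, zpow_neg_one] at h1
  exact Units.ne_zero _ h1.symm

theorem genElt_one_injective : Function.Injective (genElt q M (one_dvd M)) := by
  intro P Q h
  have h' : gen q 1 P = gen q 1 Q := congrArg Subtype.val h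
  rcases P with _ | b <;> rcases Q with _ | b'
  · rfl
  · exact absurd h' (gen_none_ne b')
  · exact absurd h'.symm (gen_none_ne b)
  · exact congrArg some (gen_some_injective h')

variable (q M) in
/-- The subfield generated by the functions attached to a point of the projective line. -/
def pointField (P : Line q) : IntermediateField Qb (XField q M) :=
  IntermediateField.adjoin Qb
    {x | ∃ (d : ℕ) (_ : NeZero d) (hd : d ∣ M), x = baseElt q M hd ∨ x = genElt q M hd P}

theorem baseElt_mem_pointField (P : Line q) {d : ℕ} [NeZero d] (hd : d ∣ M) :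
    baseElt q M hd ∈ pointField q M P :=
  subset_adjoin Qb _ ⟨d, ‹_›, hd, Or.inl rfl⟩

theorem genElt_mem_pointField (P : Line q) {d : ℕ} [NeZero d] (hd : d ∣ M) :
    genElt q M hd P ∈ pointField q M P :=
  subset_adjoin Qb _ ⟨d, ‹_›, hd, Or.inr rfl⟩

/-- The field attached to a point is the fixed field of its stabiliser. -/
theorem mem_pointField_iff (hqM : ¬ q ∣ M) (P : Line q) {y : XField q M} :
    y ∈ pointField q M P ↔
      ∀ g : SL(2, ZMod q), lineSmul g⁻¹ P = P → autHom hqM g y = y := by
  constructor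
  · intro hy g hg
    refine IntermediateField.adjoin_induction Qb (p := fun y _ => autHom hqM g y = y)
      ?_ (fun c => AlgEquiv.commutes _ c) ?_ ?_ ?_ hy
    · rintro _ ⟨d, hd, hdM, rfl | rfl⟩
      · exact autHom_baseElt hqM g hdM
      · rw [autHom_genElt, hg]
    · intro x y _ _ hx hy; rw [map_add, hx, hy]
    · intro x _ hx; rw [map_inv₀, hx]
    · intro x y _ _ hx hy; rw [map_mul, hx, hy]
  · intro h
    haveI := autGroup_finite (M := M) hqM
    refine mem_of_forall_fixed (autGroup (M := M) hqM) (pointField q M P) ?_ ?_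
    · rw [fixedField_autGroup]
      refine IntermediateField.adjoin_le_iff.mpr ?_
      rintro _ ⟨d, hd, hdM, rfl⟩
      exact baseElt_mem_pointField P hdM
    · intro f hf hfix
      obtain ⟨g, rfl⟩ := exists_autHom_eq hqM hf
      refine h g (genElt_one_injective (M := M) ?_)
      have := hfix _ (genElt_mem_pointField P (one_dvd M))
      rwa [autHom_genElt] at this

theorem mem_pointField_none_iff (hqM : ¬ q ∣ M) {y : XField q M} :
    y ∈ pointField q M none ↔ ∀ g ∈ borel q, autHom hqM g y = y := by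
  rw [mem_pointField_iff hqM]
  exact forall_congr' fun g => by rw [lineSmul_inv_none, mem_borel]

theorem mem_pointField_zero_iff (hqM : ¬ q ∣ M) {y : XField q M} :
    y ∈ pointField q M (some 0) ↔ ∀ g : SL(2, ZMod q), g 0 1 = 0 → autHom hqM g y = y := by
  rw [mem_pointField_iff hqM]
  exact forall_congr' fun g => by rw [lineSmul_inv_zero]

/-! ### The subfields of level `q² M` and `q M` -/

variable (q M) in
/-- The inclusion of level `(q M) q`. -/
def levelIncl : modularFunctionFieldBar (q * M * q) →ₐ[Qb] XField q M :=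
  IntermediateField.inclusion ((show q * M * q = q * q * M by ring) ▸
    modularFunctionFieldBar_le_xField)

@[simp]
theorem coe_levelIncl (x : modularFunctionFieldBar (q * M * q)) :
    (levelIncl q M x : LaurentSeries Qb) = (x : LaurentSeries Qb) :=
  IntermediateField.coe_inclusion _ x

theorem dvd_or_exists_eq_mul {d : ℕ} (hd : d ∣ q * M) :
    d ∣ M ∨ ∃ e, e ∣ M ∧ d = q * e := by
  by_cases hqd : q ∣ d
  · obtain ⟨e, rfl⟩ := hqd
    exact Or.inr ⟨e, Nat.dvd_of_mul_dvd_mul_left (Fact.out : q.Prime).pos hd, rfl⟩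
  · exact Or.inl <| Nat.Coprime.dvd_of_dvd_mul_left
      (((Fact.out : q.Prime).coprime_iff_not_dvd.mpr hqd).symm) hd

theorem fieldRange_levelIncl_comp_beta :
    ((levelIncl q M).comp (heckeBetaBar Qb (q * M) q)).fieldRange = pointField q M none := by
  set φ := (levelIncl q M).comp (heckeBetaBar Qb (q * M) q) with hφ
  have hcoe : ∀ x, (φ x : LaurentSeries Qb) = qExpand Qb q (x : LaurentSeries Qb) := fun x => by
    simp [hφ]
  refine le_antisymm ?_ ?_
  · rintro _ ⟨z, rfl⟩
    refine algHom_mem_of_generators (q * M) φ _ (fun d _ hd z hz => ?_) z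
    rcases dvd_or_exists_eq_mul hd with hdM | ⟨e, he, rfl⟩
    · have : φ z = baseElt q M hdM := Subtype.ext (by
        rw [hcoe, hz, qExpand_qExpand]
        exact qExpand_congr (mul_comm _ _) _)
      rw [this]
      exact baseElt_mem_pointField none hdM
    · haveI : NeZero e := ⟨fun h0 => NeZero.ne (q * e) (by rw [h0, mul_zero])⟩
      have : φ z = genElt q M he none := Subtype.ext (by
        rw [hcoe, hz, qExpand_qExpand]
        exact qExpand_congr (by ring) _)
      rw [this]
      exact genElt_mem_pointField none he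
  · refine IntermediateField.adjoin_le_iff.mpr ?_
    rintro _ ⟨d, hd, hdM, rfl | rfl⟩
    · have hmem : qExpand Qb d (jqModC Qb) ∈ modularFunctionFieldBar (q * M) := by
        rw [modularFunctionFieldBar, Curve.laurentBaseChange_full_eq_fullC]
        exact jqModCd_mem_full Qb _ (hdM.trans (dvd_mul_left M q))
      refine ⟨⟨_, hmem⟩, Subtype.ext ?_⟩
      show (φ ⟨_, hmem⟩ : LaurentSeries Qb) = _
      rw [hcoe, qExpand_qExpand]
      exact qExpand_congr (mul_comm _ _) _
    · have hmem : qExpand Qb (q * d) (jqModC Qb) ∈ modularFunctionFieldBar (q * M) := by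
        rw [modularFunctionFieldBar, Curve.laurentBaseChange_full_eq_fullC]
        exact jqModCd_mem_full Qb _ (Nat.mul_dvd_mul_left q hdM)
      refine ⟨⟨_, hmem⟩, Subtype.ext ?_⟩
      show (φ ⟨_, hmem⟩ : LaurentSeries Qb) = _
      rw [hcoe, qExpand_qExpand]
      exact qExpand_congr (by ring) _

theorem fieldRange_levelIncl_comp_alpha :
    ((levelIncl q M).comp (heckeAlphaBar Qb (q * M) q)).fieldRange = pointField q M (some 0) := by
  set φ := (levelIncl q M).comp (heckeAlphaBar Qb (q * M) q) with hφ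
  have hcoe : ∀ x, (φ x : LaurentSeries Qb) = (x : LaurentSeries Qb) := fun x => by simp [hφ]
  refine le_antisymm ?_ ?_
  · rintro _ ⟨z, rfl⟩
    refine algHom_mem_of_generators (q * M) φ _ (fun d _ hd z hz => ?_) z
    rcases dvd_or_exists_eq_mul hd with hdM | ⟨e, he, rfl⟩
    · have : φ z = genElt q M hdM (some 0) := Subtype.ext (by
        rw [hcoe, hz]
        exact (gen_some_zero d).symm)
      rw [this]
      exact genElt_mem_pointField _ hdM
    · haveI : NeZero e := ⟨fun h0 => NeZero.ne (q * e) (by rw [h0, mul_zero])⟩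
      have : φ z = baseElt q M he := Subtype.ext (by
        rw [hcoe, hz]
        exact qExpand_congr (mul_comm _ _) _)
      rw [this]
      exact baseElt_mem_pointField _ he
  · refine IntermediateField.adjoin_le_iff.mpr ?_
    rintro _ ⟨d, hd, hdM, rfl | rfl⟩
    · have hmem : qExpand Qb (q * d) (jqModC Qb) ∈ modularFunctionFieldBar (q * M) := by
        rw [modularFunctionFieldBar, Curve.laurentBaseChange_full_eq_fullC]
        exact jqModCd_mem_full Qb _ (Nat.mul_dvd_mul_left q hdM)
      refine ⟨⟨_, hmem⟩, Subtype.ext ?_⟩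
      show (φ ⟨_, hmem⟩ : LaurentSeries Qb) = _
      rw [hcoe]
      exact qExpand_congr (mul_comm _ _) _
    · have hmem : qExpand Qb d (jqModC Qb) ∈ modularFunctionFieldBar (q * M) := by
        rw [modularFunctionFieldBar, Curve.laurentBaseChange_full_eq_fullC]
        exact jqModCd_mem_full Qb _ (hdM.trans (dvd_mul_left M q))
      refine ⟨⟨_, hmem⟩, Subtype.ext ?_⟩
      show (φ ⟨_, hmem⟩ : LaurentSeries Qb) = _
      rw [hcoe]
      exact (gen_some_zero d).symm

/-- The torus fixes level `q² M`. -/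
theorem autHom_tor_levelIncl (hqM : ¬ q ∣ M) (a : (ZMod q)ˣ)
    (x : modularFunctionFieldBar (q * M * q)) :
    autHom hqM (tor a) (levelIncl q M x) = levelIncl q M x := by
  have h0 : tor a (0 : Fin 2) 1 = 0 := by simp
  have hn : tor a (1 : Fin 2) 0 = 0 := by simp
  let S : IntermediateField Qb (XField q M) :=
    IntermediateField.fixedField (Subgroup.zpowers (autHom hqM (tor a)))
  suffices h : levelIncl q M x ∈ S from
    (IntermediateField.mem_fixedField_iff _ _).mp h _ (Subgroup.mem_zpowers _)
  have hS : ∀ y, autHom hqM (tor a) y = y → y ∈ S := fun y hy => by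
    rw [IntermediateField.mem_fixedField_iff]
    intro f hf
    exact (Subgroup.zpowers_le (H := MulAction.stabilizer (XField q M ≃ₐ[Qb] XField q M) y)).mpr
      hy hf
  refine algHom_mem_of_generators (q * M * q) (levelIncl q M) S (fun d _ hd z hz => hS _ ?_) x
  rw [mul_comm (q * M) q] at hd
  by_cases hqd : q ∣ d
  · obtain ⟨e, rfl⟩ := hqd
    have he := Nat.dvd_of_mul_dvd_mul_left (Fact.out : q.Prime).pos hd
    haveI : NeZero e := ⟨fun h0 => NeZero.ne (q * e) (by rw [h0, mul_zero])⟩
    have : levelIncl q M z ∈ pointField q M none := by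
      rw [← fieldRange_levelIncl_comp_beta]
      have hmem : qExpand Qb e (jqModC Qb) ∈ modularFunctionFieldBar (q * M) := by
        rw [modularFunctionFieldBar, Curve.laurentBaseChange_full_eq_fullC]
        exact jqModCd_mem_full Qb _ he
      exact ⟨⟨_, hmem⟩, Subtype.ext (by simp [hz, qExpand_qExpand])⟩
    exact (mem_pointField_none_iff hqM).mp this _ hn
  · have hdM : d ∣ q * M := Nat.Coprime.dvd_of_dvd_mul_left
      (((Fact.out : q.Prime).coprime_iff_not_dvd.mpr hqd).symm) hd
    have : levelIncl q M z ∈ pointField q M (some 0) := by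
      rw [← fieldRange_levelIncl_comp_alpha]
      have hmem : qExpand Qb d (jqModC Qb) ∈ modularFunctionFieldBar (q * M) := by
        rw [modularFunctionFieldBar, Curve.laurentBaseChange_full_eq_fullC]
        exact jqModCd_mem_full Qb _ hdM
      exact ⟨⟨_, hmem⟩, Subtype.ext (by simp [hz])⟩
    exact (mem_pointField_zero_iff hqM).mp this _ h0

/-! ### Galois conjugation -/

/-- Galois conjugation turns the action of `g` into that of `twist a g`. -/
theorem galRingAut_autHom (hqM : ¬ q ∣ M) (σ : Qb ≃ₐ[ℚ] Qb) (a : (ZMod q)ˣ)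
    (hσ : σ (zetaQ q : Qb) = (zetaQ q : Qb) ^ (a : ZMod q).val) (g : SL(2, ZMod q))
    (x : XField q M) :
    galRingAut σ (autHom hqM g x) = autHom hqM (twist a g) (galRingAut σ x) := by
  obtain ⟨γ, rfl⟩ := exists_red_eq hqM g
  obtain ⟨γ', hγ'⟩ := exists_red_eq hqM (twist a (red (q := q) (γ : SL(2, ℤ))))
  have he : ∀ i j, (((γ' : SL(2, ℤ)) i j : ℤ) : ZMod q) =
      twist a (red (q := q) (γ : SL(2, ℤ))) i j := fun i j => by rw [← red_apply, hγ']
  rw [← hγ', autHom_red, autHom_red]
  refine galRingAut_sigma hqM σ hσ γ γ' ?_ ?_ ?_ ?_ x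
  · rw [he]; simp [red_apply]
  · rw [he]; simp [red_apply]
  · rw [he]
    simp [red_apply]
  · rw [he]; simp [red_apply]

end Cuspidal

end Fermat.Agent.Carayol

end
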