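/-
The inertia group at `q` acts on the `q`-th roots of unity through the whole of `(ℤ/q)ˣ`.
-/
import Fermat.Agent.CFT.CrossLemmas

set_option autoImplicit false

noncomputable section

open scoped Pointwise


namespace Fermat.Agent.Carayol

namespace Cuspidal

local notation "Qb" => AlgebraicClosure ℚ
local notation "GQ" => (AlgebraicClosure ℚ ≃ₐ[ℚ] AlgebraicClosure ℚ)

/-- The cyclotomic character mod `n` with values in units. -/
def chiUnits (n : ℕ) [NeZero n] : GQ →* (ZMod n)ˣ :=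
  (Datum.chiMod n).toHomUnits

@[simp]
theorem coe_chiUnits (n : ℕ) [NeZero n] (σ : GQ) :
    (chiUnits n σ : ZMod n) = Datum.chiMod n σ := rfl

/-- Every residue class prime to `q` is the cyclotomic character of an element of inertia at a
place over `q`. -/
theorem exists_inertia_chi {q : ℕ} [hq : Fact q.Prime] {A : ValuationSubring Qb}
    (hA : A.LiesOverPrime q) (c : (ZMod q)ˣ) :
    ∃ σ ∈ A.inertiaSubgroupIn ℚ, chiUnits q σ = c := by
  have : NeZero q := ⟨hq.out.ne_zero⟩
  set I : Subgroup (ZMod q)ˣ := (A.inertiaSubgroupIn ℚ).map (chiUnits q) with hI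
  let f : GQ →* (ZMod q)ˣ ⧸ I := (QuotientGroup.mk' I).comp (chiUnits q)
  have hf : ∀ σ, f σ = 1 ↔ chiUnits q σ ∈ I := fun σ => QuotientGroup.eq_one_iff _
  have hopen : IsOpen (f.ker : Set GQ) := by
    obtain ⟨L, hLfin, hL⟩ := Datum.exists_level_chiMod q
    refine Subgroup.isOpen_mono (fun σ hσ => MonoidHom.mem_ker.2 ((hf σ).2 ?_))
      L.fixingSubgroup_isOpen
    rw [show chiUnits q σ = 1 from
      Units.ext (hL σ ((IntermediateField.mem_fixingSubgroup_iff L σ).1 hσ))]
    exact one_mem _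
  have hall := Reducible.eq_one_of_unramified f hopen fun ℓ hℓ B hB σ hσ => by
    refine (hf σ).2 ?_
    by_cases hℓq : ℓ = q
    · subst hℓq
      obtain ⟨g, hg⟩ := Galois.exists_smul_eq_of_liesOverPrime hℓ hB hA
      have h' : g * σ * g⁻¹ ∈ A.inertiaSubgroupIn ℚ := hg ▸ CFT.smul_mem_inertiaSubgroupIn hσ g
      have h'' := Subgroup.mem_map_of_mem (chiUnits ℓ) h'
      rwa [map_mul, map_mul, map_inv, mul_comm (chiUnits ℓ g), mul_inv_cancel_right, ← hI] at h''
    · rw [show chiUnits q σ = 1 from Units.ext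
        (Datum.chiMod_inertia q hB hσ ((Nat.coprime_primes hℓ hq.out).2 hℓq))]
      exact one_mem _
  obtain ⟨ℓ, hℓq, hℓ, hℓc⟩ :=
    Nat.forall_exists_prime_gt_and_eq_mod (q := q) (a := (c : ZMod q)) c.isUnit q
  obtain ⟨B, τ, hB, hτ⟩ := Galois.exists_valuationSubring_isFrobeniusAt hℓ
  have hτc : chiUnits q τ = c := Units.ext <| by
    rw [coe_chiUnits, Datum.chiMod_frobenius q hB hτ
      ((Nat.coprime_primes hℓ hq.out).2 (by omega)), hℓc]
  exact Subgroup.mem_map.mp (hτc ▸ (hf τ).1 (hall τ))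

/-- A `q`-th root of unity is raised to the power `c` by some element of inertia. -/
theorem exists_inertia_apply_root {q : ℕ} [hq : Fact q.Prime] {A : ValuationSubring Qb}
    (hA : A.LiesOverPrime q) (c : (ZMod q)ˣ) :
    ∃ σ ∈ A.inertiaSubgroupIn ℚ, ∀ μ : Qb, μ ^ q = 1 → σ μ = μ ^ (c : ZMod q).val := by
  have : NeZero q := ⟨hq.out.ne_zero⟩
  obtain ⟨σ, hσ, rfl⟩ := exists_inertia_chi hA c
  exact ⟨σ, hσ, fun μ hμ => by rw [coe_chiUnits]; exact Datum.chiMod_spec q σ hμ⟩

end Cuspidal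

end Fermat.Agent.Carayol

end
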