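/-
Pushforward of divisor classes along maps of function fields, and the two degeneracy pushforwards
between modular Jacobians, with their Galois equivariance.
-/
import Fermat.Agent.Curve.BasicModular
import Fermat.Agent.HeckeJ.Semilinear

set_option autoImplicit false
set_option linter.style.haveILetI false

noncomputable section

namespace Fermat.Agent.Carayol

namespace Cuspidal

open AlgebraicCurve ModularCurve

section Along

variable {K F F' : Type*} [Field K] [Field F] [Field F'] [Algebra K F] [Algebra K F']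
  [Curve.IsFunctionFieldOne K F] [Curve.IsFunctionFieldOne K F'] (φ : F →ₐ[K] F')

/-- Pushforward on degree zero divisors. -/
def degZeroPush : Divisor.degZero (K := K) (F := F') →+ Divisor.degZero (K := K) (F := F) :=
  ((Divisor.pushforwardAlong φ (Curve.isIntegral_toRingHom φ)).domRestrict
    (Divisor.degZero (K := K) (F := F'))).codRestrict _
    fun D => Divisor.pushforwardAlong_mem_degZero φ (Curve.isIntegral_toRingHom φ) D.2

@[simp]
theorem coe_degZeroPush (D : Divisor.degZero (K := K) (F := F')) :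
    (degZeroPush φ D : Divisor K F) =
      Divisor.pushforwardAlong φ (Curve.isIntegral_toRingHom φ) (D : Divisor K F') :=
  rfl

/-- Pushforward on divisor classes. -/
def picPush : Pic0 K F' →+ Pic0 K F :=
  QuotientAddGroup.map _ _ (degZeroPush φ) (by
    rintro ⟨D, hD0⟩ hD
    simp only [AddSubgroup.mem_addSubgroupOf] at hD ⊢
    exact Divisor.isPrincipal_pushforwardAlong φ (Curve.isIntegral_toRingHom φ) (Curve.finiteAlong φ)
      (Curve.normFormulaAlong φ _) hD)

theorem picPush_mk (D : Divisor.degZero (K := K) (F := F')) :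
    picPush φ (Pic0.mk D) = Pic0.mk (degZeroPush φ D) :=
  rfl

theorem picPush_smul {g : SemilinearAut K F} {g' : SemilinearAut K F'}
    (h : SemilinearAut.IntertwinesAlong φ.toRingHom g g') (x : Pic0 K F') :
    picPush φ (g' • x) = g • picPush φ x := by
  obtain ⟨D, rfl⟩ := Pic0.mk_surjective x
  rw [SemilinearAut.pic0_smul_mk, picPush_mk, picPush_mk, SemilinearAut.pic0_smul_mk]
  exact congrArg Pic0.mk (Subtype.ext (HeckeJ.pushforwardAlong_smul (Curve.isIntegral_toRingHom φ) h _))

end Along

variable (N ℓ : ℕ) [NeZero N] [NeZero ℓ]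

local notation "ℚbar" => AlgebraicClosure ℚ

/-- Pushforward along `f(τ) ↦ f(τ)`. -/
def pushAlpha : JZero (N * ℓ) →+ JZero N :=
  picPush (heckeAlphaBar ℚbar N ℓ)

/-- Pushforward along `f(τ) ↦ f(ℓ τ)`. -/
def pushBeta : JZero (N * ℓ) →+ JZero N :=
  picPush (heckeBetaBar ℚbar N ℓ)

theorem pushAlpha_galois_smul (σ : ℚbar ≃ₐ[ℚ] ℚbar) (x : JZero (N * ℓ)) :
    pushAlpha N ℓ (σ • x) = σ • pushAlpha N ℓ x := by
  rw [galois_smul_pic0_def, galois_smul_pic0_def]
  refine picPush_smul _ (fun f => Subtype.ext ?_) x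
  simp [coe_heckeAlphaBar, SemilinearAut.smul_def]

theorem pushBeta_galois_smul (σ : ℚbar ≃ₐ[ℚ] ℚbar) (x : JZero (N * ℓ)) :
    pushBeta N ℓ (σ • x) = σ • pushBeta N ℓ x := by
  rw [galois_smul_pic0_def, galois_smul_pic0_def]
  refine picPush_smul _ (fun f => Subtype.ext ?_) x
  show coeffMap (σ : ℚbar →+* ℚbar) (qExpand ℚbar ℓ (f : LaurentSeries ℚbar)) =
    qExpand ℚbar ℓ (coeffMap (σ : ℚbar →+* ℚbar) (f : LaurentSeries ℚbar))
  exact ModularCurve.coeffMap_qExpand _ _ _

end Cuspidal

end Fermat.Agent.Carayol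

end
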