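/-
Norms of group actions on divisor classes: for a finite group `H` acting on a function field `F'`
with fixed field the image of `F`, the sum of the translates of a divisor is a multiple of the
pullback of its pushforward to `F`.
-/
import Fermat.Agent.Carayol.CuspidalPic
import Fermat.Agent.Curve.BasicPlace
import Mathlib.FieldTheory.Galois.Basic
import Mathlib.GroupTheory.GroupAction.Quotient

set_option autoImplicit false
set_option linter.style.haveILetI false
set_option linter.unusedSectionVars false

noncomputable section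

open scoped Pointwise

namespace Fermat.Agent.Carayol

namespace Cuspidal

open AlgebraicCurve

section Pull

variable {K F F' : Type*} [Field K] [Field F] [Field F'] [Algebra K F] [Algebra K F']
  [Curve.IsFunctionFieldOne K F] [Curve.IsFunctionFieldOne K F'] (φ : F →ₐ[K] F')

/-- Pullback on degree zero divisors. -/
def degZeroPull : Divisor.degZero (K := K) (F := F) →+ Divisor.degZero (K := K) (F := F') :=
  ((Divisor.pullbackAlong φ (Curve.isIntegral_toRingHom φ)).domRestrict
    (Divisor.degZero (K := K) (F := F))).codRestrict _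
    fun D => Divisor.pullbackAlong_mem_degZero φ (Curve.isIntegral_toRingHom φ)
      (Curve.fundamentalIdentityAlong φ _ (Curve.finiteAlong φ)) D.2

@[simp]
theorem coe_degZeroPull (D : Divisor.degZero (K := K) (F := F)) :
    (degZeroPull φ D : Divisor K F') =
      Divisor.pullbackAlong φ (Curve.isIntegral_toRingHom φ) (D : Divisor K F) :=
  rfl

/-- Pullback on divisor classes. -/
def picPull : Pic0 K F →+ Pic0 K F' :=
  QuotientAddGroup.map _ _ (degZeroPull φ) (by
    rintro ⟨D, hD0⟩ hD
    simp only [AddSubgroup.mem_addSubgroupOf] at hD ⊢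
    exact Divisor.isPrincipal_pullbackAlong φ (Curve.isIntegral_toRingHom φ) hD)

theorem picPull_mk (D : Divisor.degZero (K := K) (F := F)) :
    picPull φ (Pic0.mk D) = Pic0.mk (degZeroPull φ D) :=
  rfl

theorem picPull_smul {g : SemilinearAut K F} {g' : SemilinearAut K F'}
    (h : SemilinearAut.IntertwinesAlong φ.toRingHom g g') (x : Pic0 K F) :
    picPull φ (g • x) = g' • picPull φ x := by
  obtain ⟨D, rfl⟩ := Pic0.mk_surjective x
  rw [SemilinearAut.pic0_smul_mk, picPull_mk, picPull_mk, SemilinearAut.pic0_smul_mk]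
  exact congrArg Pic0.mk
    (Subtype.ext (HeckeJ.pullbackAlong_smul (Curve.isIntegral_toRingHom φ) h _))

end Pull

section InertiaDeg

variable {K F F' : Type*} [Field K] [Field F] [Field F'] [Algebra K F] [Algebra K F']
  [IsAlgClosed K] [PerfectField K] [Curve.IsFunctionFieldOne K F] [Curve.IsFunctionFieldOne K F']

theorem inertiaDegAlong_eq_one (φ : F →ₐ[K] F') (hφ : φ.toRingHom.IsIntegral) (w : Place K F') :
    w.inertiaDegAlong φ hφ = 1 := by
  letI := algebraAlong φ
  haveI := isScalarTower_along φ
  haveI := isIntegral_along φ hφ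
  show w.inertiaDeg F = 1
  have h := w.deg_restrict_mul_inertiaDeg (F := F)
  rwa [IsCurveOver.deg_eq_one_of_isAlgClosed w, IsCurveOver.deg_eq_one_of_isAlgClosed, one_mul]
    at h

theorem pushforwardAlong_single' (φ : F →ₐ[K] F') (hφ : φ.toRingHom.IsIntegral)
    (w : Place K F') (n : ℤ) :
    Divisor.pushforwardAlong φ hφ (Finsupp.single w n) =
      Finsupp.single (w.restrictAlong φ hφ) n := by
  rw [Divisor.pushforwardAlong_single, inertiaDegAlong_eq_one, Nat.cast_one, mul_one]

theorem sum_ramificationIndexAlong (φ : F →ₐ[K] F') (hφ : φ.toRingHom.IsIntegral)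
    (v : Place K F) :
    ∑ W ∈ Place.fiberAlong φ hφ v, (W.ramificationIndexAlong φ : ℤ) = finrankAlong K φ := by
  have h := Divisor.degree_pullbackAlong φ hφ
    (Curve.fundamentalIdentityAlong φ hφ (Curve.finiteAlong φ)) (Finsupp.single v 1)
  simpa [Divisor.pullbackAlong_single, Divisor.degree_single,
    IsCurveOver.deg_eq_one_of_isAlgClosed] using h

variable {E : Type*} [Field E] [Algebra K E] [Curve.IsFunctionFieldOne K E]

/-- Pushing a pullback further down is multiplication by the degree. -/
theorem picPush_comp_picPull (β : E →ₐ[K] F) (ψ : F →ₐ[K] F') (x : Pic0 K F) :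
    picPush (ψ.comp β) (picPull ψ x) = finrankAlong K ψ • picPush β x := by
  obtain ⟨D, rfl⟩ := Pic0.mk_surjective x
  rw [picPull_mk, picPush_mk, picPush_mk]
  show _ = finrankAlong K ψ • QuotientAddGroup.mk' _ (degZeroPush β D)
  rw [← map_nsmul]
  refine congrArg Pic0.mk (Subtype.ext ?_)
  rw [coe_degZeroPush, coe_degZeroPull, AddSubgroup.coe_nsmul, coe_degZeroPush]
  generalize (D : Divisor K F) = D'
  induction D' using Finsupp.induction with
  | zero => simp
  | single_add v n D' _ _ ih =>
    rw [map_add, map_add, map_add, smul_add, ih]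
    congr 1
    rw [Divisor.pullbackAlong_single, map_sum, pushforwardAlong_single' β]
    have hres : ∀ W ∈ Place.fiberAlong ψ (Curve.isIntegral_toRingHom ψ) v,
        Divisor.pushforwardAlong (ψ.comp β) (Curve.isIntegral_toRingHom (ψ.comp β))
            (Finsupp.single W (n * (W.ramificationIndexAlong ψ : ℤ))) =
          Finsupp.single (v.restrictAlong β (Curve.isIntegral_toRingHom β))
            (n * (W.ramificationIndexAlong ψ : ℤ)) := by
      intro W hW
      rw [pushforwardAlong_single']
      congr 1
      rw [← Place.mem_fiberAlong.mp hW]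
      rfl
    rw [Finset.sum_congr rfl hres, ← Finsupp.single_finsetSum, ← Finset.mul_sum,
      sum_ramificationIndexAlong, Finsupp.smul_single, nsmul_eq_mul, mul_comm]

end InertiaDeg

section Norm

variable {K F F' : Type*} [Field K] [Field F] [Field F'] [Algebra K F] [Algebra K F']
  [IsAlgClosed K] [PerfectField K] [Curve.IsFunctionFieldOne K F] [Curve.IsFunctionFieldOne K F']
  (φ : F →ₐ[K] F') {H : Type*} [Group H] [Fintype H] (ρ : H →* (F' ≃ₐ[K] F'))

variable (hfix : ∀ y : F', (∀ h, ρ h y = y) ↔ y ∈ Set.range φ)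

include hfix

/-- The degree is the order of the image of `H`. -/
theorem finrankAlong_eq_natCard_range : finrankAlong K φ = Nat.card ρ.range := by
  letI := algebraAlong φ
  haveI := isScalarTower_along φ
  haveI : FiniteDimensional F F' := Curve.finiteAlong φ
  let ρ' : H →* (F' ≃ₐ[F] F') :=
    { toFun := fun h => AlgEquiv.ofRingEquiv (f := (ρ h : F' ≃+* F'))
        fun x => (hfix (φ x)).mpr ⟨x, rfl⟩ h
      map_one' := AlgEquiv.ext fun y => by simp
      map_mul' := fun a b => AlgEquiv.ext fun y => by simp }
  have hbot : IntermediateField.fixedField ρ'.range = ⊥ := by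
    refine eq_bot_iff.mpr fun y hy => ?_
    rw [IntermediateField.mem_fixedField_iff] at hy
    obtain ⟨x, rfl⟩ := (hfix y).mp fun h => hy _ ⟨h, rfl⟩
    exact IntermediateField.algebraMap_mem _ x
  have h := IntermediateField.finrank_fixedField_eq_card ρ'.range
  rw [hbot, IntermediateField.finrank_bot'] at h
  show Module.finrank F F' = _
  rw [h]
  refine Nat.card_congr (Equiv.ofBijective
    (fun g => ⟨g.1.restrictScalars K, ?_⟩) ⟨?_, ?_⟩)
  · obtain ⟨h, hh⟩ := g.2
    exact ⟨h, by rw [← hh]; exact AlgEquiv.ext fun y => rfl⟩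
  · intro a b hab
    exact Subtype.ext (AlgEquiv.ext fun y =>
      DFunLike.congr_fun (congrArg Subtype.val hab) y)
  · rintro ⟨_, h, rfl⟩
    exact ⟨⟨ρ' h, h, rfl⟩, Subtype.ext (AlgEquiv.ext fun y => rfl)⟩

/-- The translates of a place are exactly the places with the same restriction. -/
theorem exists_smul_eq_of_restrict_eq (hφ : φ.toRingHom.IsIntegral) {w w' : Place K F'}
    (h : w'.restrictAlong φ hφ = w.restrictAlong φ hφ) :
    ∃ g : H, SemilinearAut.ofAlgAut (ρ g) • w = w' := by
  classical
  by_contra hne
  simp only [not_exists] at hne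
  let act : Place K F' → H → Place K F' := fun u g => SemilinearAut.ofAlgAut (ρ g) • u
  let s : Finset (Place K F') := Finset.univ.image (act w') ∪ Finset.univ.image (act w)
  obtain ⟨f, hf⟩ := Curve.exists_approx s
    (fun u => if u ∈ Finset.univ.image (act w') then 0 else 1) 1
  have hdisj : ∀ g, act w g ∉ Finset.univ.image (act w') := by
    intro g hg
    obtain ⟨g', -, hg'⟩ := Finset.mem_image.mp hg
    refine hne (g'⁻¹ * g) ?_
    simp only [act] at hg'
    rw [map_mul, map_mul, mul_smul, ← hg', map_inv, map_inv, inv_smul_smul]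
  -- `f` is a unit at every translate of `w`
  have hfact : ∀ g, f ≠ 0 ∧ (act w g).ord f = 0 := by
    intro g
    have h1 := hf (act w g)
      (Finset.mem_union_right _ (Finset.mem_image_of_mem _ (Finset.mem_univ g)))
    rw [if_neg (hdisj g)] at h1
    rcases eq_or_ne (f - 1) 0 with h0 | h0
    · rw [sub_eq_zero.mp h0]
      exact ⟨one_ne_zero, (act w g).ord_one⟩
    · have h2 : 1 ≤ (act w g).ord (f - 1) := h1.resolve_left h0
      have hf0 : f ≠ 0 := by
        rintro rfl
        rw [zero_sub, Curve.ord_neg, Place.ord_one] at h2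
        omega
      refine ⟨hf0, ?_⟩
      have := Curve.ord_add_eq_left (v := act w g) (one_ne_zero (α := F')) (g := f - 1)
        (fun _ => by rw [Place.ord_one]; omega)
      rwa [add_sub_cancel, Place.ord_one] at this
  have hf0 : f ≠ 0 := (hfact 1).1
  -- `f` has a zero at every translate of `w'`
  have hf' : ∀ g, 1 ≤ (act w' g).ord f := by
    intro g
    have hmem := Finset.mem_image_of_mem (act w') (Finset.mem_univ g)
    have h1 := hf (act w' g) (Finset.mem_union_left _ hmem)
    rw [if_pos hmem, sub_zero] at h1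
    exact h1.resolve_left hf0
  have hNfix : ∀ g', ρ g' (∏ g, ρ g f) = ∏ g, ρ g f := fun g' => by
    rw [map_prod]
    exact Fintype.prod_equiv (Equiv.mulLeft g') _ _ fun g => by simp
  obtain ⟨y, hy⟩ := (hfix _).mp hNfix
  have hN0 : ∀ g, ρ g f ≠ 0 := fun g => by simpa using hf0
  have hord : ∀ u g, u.ord (ρ g f) = (act u g⁻¹).ord f := by
    intro u g
    rw [← SemilinearAut.ord_smul (SemilinearAut.ofAlgAut (ρ g)) (act u g⁻¹) f]
    simp [act, map_inv]
  -- order zero at `w`
  have hwN : w.ord (φ y) = 0 := by
    rw [hy, Curve.ord_prod w Finset.univ fun g _ => hN0 g]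
    exact Finset.sum_eq_zero fun g _ => by rw [hord, (hfact _).2]
  -- positive order at `w'`
  have hw'N : 0 < w'.ord (φ y) := by
    rw [hy, Curve.ord_prod w' Finset.univ fun g _ => hN0 g]
    exact Finset.sum_pos (fun g _ => by rw [hord]; have := hf' g⁻¹; omega) Finset.univ_nonempty
  rw [Place.ord_restrictAlong φ hφ] at hwN hw'N
  rw [h] at hw'N
  rcases mul_eq_zero.mp hwN with he | hv
  · letI := algebraAlong φ
    haveI := isScalarTower_along φ
    haveI := isIntegral_along φ hφ
    have := w.ramificationIndex_pos (F := F)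
    exact this.ne' (by exact_mod_cast he)
  · rw [hv, mul_zero] at hw'N
    exact lt_irrefl _ hw'N

open Classical in
/-- The number of elements moving `w` to a place with the same restriction is the ramification
index times the order of the kernel. -/
theorem card_filter_smul_eq (hφ : φ.toRingHom.IsIntegral) {w w' : Place K F'}
    (h : w'.restrictAlong φ hφ = w.restrictAlong φ hφ) :
    (Finset.univ.filter fun g => SemilinearAut.ofAlgAut (ρ g) • w = w').card =
      Nat.card ρ.ker * w'.ramificationIndexAlong φ := by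
  letI : MulAction H (Place K F') :=
    MulAction.compHom _ ((SemilinearAut.ofAlgAut : (F' ≃ₐ[K] F') →* SemilinearAut K F').comp ρ)
  have hsmul : ∀ (g : H) (u : Place K F'), g • u = SemilinearAut.ofAlgAut (ρ g) • u :=
    fun _ _ => rfl
  have hinter : ∀ g : H, SemilinearAut.IntertwinesAlong φ.toRingHom
      (1 : SemilinearAut K F) (SemilinearAut.ofAlgAut (ρ g)) := fun g x => by
    rw [one_smul, SemilinearAut.ofAlgAut_smul]
    exact (hfix (φ x)).mpr ⟨x, rfl⟩ g
  have he : ∀ g : H, Place.ramificationIndexAlong φ (g • w) =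
      Place.ramificationIndexAlong φ w := fun g =>
    HeckeJ.ramificationIndexAlong_smul (hinter g) w
  have hres : ∀ g : H, (g • w).restrictAlong φ hφ = w.restrictAlong φ hφ := fun g => by
    rw [hsmul, HeckeJ.restrictAlong_smul hφ (hinter g), one_smul]
  -- the fibre is the orbit
  have hfib : (↑(Place.fiberAlong φ hφ (w.restrictAlong φ hφ)) : Set (Place K F')) =
      MulAction.orbit H w := by
    ext u
    rw [Finset.mem_coe, Place.mem_fiberAlong]
    constructor
    · intro hu
      obtain ⟨g, hg⟩ := exists_smul_eq_of_restrict_eq φ ρ hfix hφ hu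
      exact ⟨g, hg⟩
    · rintro ⟨g, rfl⟩
      exact hres g
  have hdeg := sum_ramificationIndexAlong φ hφ (w.restrictAlong φ hφ)
  rw [Finset.sum_congr rfl (fun u hu => by
      obtain ⟨g, rfl⟩ : u ∈ MulAction.orbit H w := hfib ▸ hu
      rw [he g] :
    ∀ u ∈ Place.fiberAlong φ hφ (w.restrictAlong φ hφ),
      ((u.ramificationIndexAlong φ : ℕ) : ℤ) = (w.ramificationIndexAlong φ : ℤ)),
    Finset.sum_const, nsmul_eq_mul, finrankAlong_eq_natCard_range φ ρ hfix] at hdeg
  have hdeg' : (Place.fiberAlong φ hφ (w.restrictAlong φ hφ)).card * w.ramificationIndexAlong φ =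
      Nat.card ρ.range := by exact_mod_cast hdeg
  have horb : (Place.fiberAlong φ hφ (w.restrictAlong φ hφ)).card =
      Nat.card (MulAction.orbit H w) := by
    rw [← hfib, Nat.card_coe_set_eq, Set.ncard_coe_finset]
  have hG : Nat.card (MulAction.orbit H w) * Nat.card (MulAction.stabilizer H w) = Nat.card H := by
    rw [← Nat.card_prod]
    exact Nat.card_congr (MulAction.orbitProdStabilizerEquivGroup H w)
  have hker : Nat.card ρ.ker * Nat.card ρ.range = Nat.card H := by
    rw [← Subgroup.card_mul_index ρ.ker, Subgroup.index_ker]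
  have hpos : 0 < Nat.card (MulAction.orbit H w) := by
    haveI : Finite (MulAction.orbit H w) := Finite.Set.finite_range fun g : H => g • w
    haveI : Nonempty (MulAction.orbit H w) := ⟨⟨w, MulAction.mem_orbit_self w⟩⟩
    exact Nat.card_pos
  have hst : Nat.card (MulAction.stabilizer H w) = Nat.card ρ.ker * w.ramificationIndexAlong φ := by
    refine Nat.eq_of_mul_eq_mul_left hpos ?_
    rw [hG, ← hker, ← hdeg', horb]
    ring
  obtain ⟨g₀, hg₀⟩ := exists_smul_eq_of_restrict_eq φ ρ hfix hφ h
  have hw' : w'.ramificationIndexAlong φ = w.ramificationIndexAlong φ := by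
    rw [← hg₀]
    exact he g₀
  rw [hw', ← hst, Nat.card_eq_fintype_card]
  refine Finset.card_bij' (fun g _ => (⟨g₀⁻¹ * g, ?_⟩ : MulAction.stabilizer H w))
    (fun g _ => g₀ * g.1) ?_ ?_ ?_ ?_
  · rename_i hg
    rw [MulAction.mem_stabilizer_iff, mul_smul, hsmul g, (Finset.mem_filter.mp hg).2, ← hg₀,
      ← hsmul, inv_smul_smul]
  · intro g hg
    exact Finset.mem_univ _
  · intro g hg
    refine Finset.mem_filter.mpr ⟨Finset.mem_univ _, ?_⟩
    rw [← hsmul, mul_smul, g.2, hsmul, hg₀]
  · intro g hg
    simp
  · intro g hg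
    simp

/-- The norm identity on divisors. -/
theorem sum_smul_divisor (hφ : φ.toRingHom.IsIntegral) (D : Divisor K F') :
    ∑ g, SemilinearAut.ofAlgAut (ρ g) • D =
      Nat.card ρ.ker • Divisor.pullbackAlong φ hφ (Divisor.pushforwardAlong φ hφ D) := by
  classical
  induction D using Finsupp.induction with
  | zero => simp
  | single_add w n D _ _ ih =>
    simp only [smul_add, Finset.sum_add_distrib, map_add, ih]
    congr 1
    refine Finsupp.ext fun u => ?_
    rw [pushforwardAlong_single', Finsupp.smul_apply, Divisor.pullbackAlong_apply,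
      Finset.sum_apply']
    simp only [SemilinearAut.smul_single, Finsupp.single_apply]
    rw [← Finset.sum_filter, Finset.sum_const]
    by_cases hu : u.restrictAlong φ hφ = w.restrictAlong φ hφ
    · rw [if_pos hu.symm, card_filter_smul_eq φ ρ hfix hφ hu]
      simp only [nsmul_eq_mul, Nat.cast_mul]
      ring
    · rw [if_neg (Ne.symm hu), mul_zero, smul_zero]
      rw [Finset.filter_false_of_mem, Finset.card_empty, zero_smul]
      intro g _ hg
      refine hu ?_
      rw [← hg]
      have hinter : SemilinearAut.IntertwinesAlong φ.toRingHom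
          (1 : SemilinearAut K F) (SemilinearAut.ofAlgAut (ρ g)) := fun x => by
        rw [one_smul, SemilinearAut.ofAlgAut_smul]
        exact (hfix (φ x)).mpr ⟨x, rfl⟩ g
      rw [HeckeJ.restrictAlong_smul hφ hinter, one_smul]

/-- The norm identity on divisor classes. -/
theorem sum_smul_pic (x : Pic0 K F') :
    ∑ g, SemilinearAut.ofAlgAut (ρ g) • x = Nat.card ρ.ker • picPull φ (picPush φ x) := by
  obtain ⟨D, rfl⟩ := Pic0.mk_surjective x
  simp only [SemilinearAut.pic0_smul_mk, picPush_mk, picPull_mk]
  show ∑ g, QuotientAddGroup.mk' _ _ = Nat.card ρ.ker • QuotientAddGroup.mk' _ _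
  rw [← map_sum, ← map_nsmul]
  refine congrArg _ (Subtype.ext ?_)
  rw [AddSubgroup.val_finsetSum, AddSubgroup.coe_nsmul]
  exact sum_smul_divisor φ ρ hfix (Curve.isIntegral_toRingHom φ) D

end Norm

end Cuspidal

end Fermat.Agent.Carayol

end
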