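/-
A good eigensystem is determined by its values outside any finite set of primes.

For a good prime `p`, an auxiliary prime `l ≠ p` and every `n`, Frobenius' density theorem gives a
prime `r` and an exponent `j` such that `Frob_p` is the `j`-th power of `Frob_r` on `J₀(N)[l ^ n]`
and on the `l ^ n`-th roots of unity; the Eichler–Shimura relations then give
`T_p = V_j(T_r)` on `J₀(N)[l ^ n]`, with the same Lucas polynomial `V_j` for every level.
-/
import Fermat.Agent.GaloisAdic.Inputs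
import Fermat.Agent.Galois.Frobenius
import Fermat.Agent.Density.Main
import Fermat.Agent.Eigen.EigenHom
import Mathlib.GroupTheory.FiniteAbelian.Basic

set_option autoImplicit false
set_option linter.style.haveILetI false

noncomputable section

open scoped Matrix

namespace Fermat.Agent.Carayol

namespace Cuspidal

open ModularCurve GaloisAdic

local notation "ℚbar" => AlgebraicClosure ℚ
local notation "Γℚ" => AlgebraicClosure ℚ ≃ₐ[ℚ] AlgebraicClosure ℚ

/-- Lucas' sequence: `lucas t d j = x ^ j + y ^ j` when `x + y = t` and `x * y = d`. -/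
def lucas {R : Type*} [CommRing R] (t d : R) : ℕ → R
  | 0 => 2
  | 1 => t
  | (j + 2) => t * lucas t d (j + 1) - d * lucas t d j

theorem lucas_eq {R : Type*} [CommRing R] (x y : R) :
    ∀ j, lucas (x + y) (x * y) j = x ^ j + y ^ j
  | 0 => by simp [lucas, one_add_one_eq_two]
  | 1 => by simp [lucas]
  | (j + 2) => by
      rw [lucas, lucas_eq x y (j + 1), lucas_eq x y j]
      ring

theorem map_lucas {R R' : Type*} [CommRing R] [CommRing R'] (f : R →+* R') (t d : R) :
    ∀ j, f (lucas t d j) = lucas (f t) (f d) j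
  | 0 => by simp [lucas, map_ofNat]
  | 1 => by simp [lucas]
  | (j + 2) => by
      rw [lucas, lucas, map_sub, map_mul, map_mul, map_lucas f t d (j + 1), map_lucas f t d j]

/-- A power of an element killing `X² - t X + d` kills `X² - V_j X + d ^ j`. -/
theorem quad_pow {R : Type*} [CommRing R] (x t d : R) (h : x * x - t * x + d = 0) (j : ℕ) :
    x ^ j * x ^ j - lucas t d j * x ^ j + d ^ j = 0 := by
  have hd : x * (t - x) = d := by linear_combination -h
  have hl : lucas t d j = x ^ j + (t - x) ^ j := by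
    rw [← lucas_eq x (t - x) j, hd, add_sub_cancel]
  rw [hl, ← hd, mul_pow]
  ring

/-- The same for operators. -/
theorem quad_pow_end {V : Type*} [AddCommGroup V] (τ t : Module.End ℤ V) (r : ℤ)
    (hcomm : τ * t = t * τ) (h : τ * τ - t * τ + (r : Module.End ℤ V) = 0) (j : ℕ) :
    ∃ t' : Algebra.adjoin ℤ ({t} : Set (Module.End ℤ V)),
      (∀ (R : Type) [CommRing R] (f : Algebra.adjoin ℤ ({t} : Set (Module.End ℤ V)) →+* R),
        f t' = lucas (f ⟨t, Algebra.self_mem_adjoin_singleton ℤ t⟩) (r : R) j) ∧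
      τ ^ j * τ ^ j - (t' : Module.End ℤ V) * τ ^ j + (r : Module.End ℤ V) ^ j = 0 := by
  let A := Algebra.adjoin ℤ ({τ, t} : Set (Module.End ℤ V))
  haveI : IsMulCommutative A := Algebra.isMulCommutative_adjoin ℤ (by
    rintro a (rfl | rfl) b (rfl | rfl)
    exacts [rfl, hcomm, hcomm.symm, rfl])
  letI : CommRing A := open scoped IsMulCommutative in inferInstance
  haveI : IsMulCommutative (Algebra.adjoin ℤ ({t} : Set (Module.End ℤ V))) :=
    Algebra.isMulCommutative_adjoin ℤ (by rintro a rfl b rfl; rfl)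
  letI : CommRing (Algebra.adjoin ℤ ({t} : Set (Module.End ℤ V))) :=
    open scoped IsMulCommutative in inferInstance
  set t₁ : Algebra.adjoin ℤ ({t} : Set (Module.End ℤ V)) :=
    ⟨t, Algebra.self_mem_adjoin_singleton ℤ t⟩ with ht₁
  refine ⟨lucas t₁ (r : _) j, fun R _ f => by rw [map_lucas, map_intCast], ?_⟩
  let x : A := ⟨τ, Algebra.subset_adjoin (Set.mem_insert _ _)⟩
  let y : A := ⟨t, Algebra.subset_adjoin (Set.mem_insert_of_mem _ rfl)⟩
  have h' := congrArg Subtype.val (quad_pow x y (r : A) (Subtype.ext (by simpa [x, y] using h)) j)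
  let ι : Algebra.adjoin ℤ ({t} : Set (Module.End ℤ V)) →+* A :=
    (Subalgebra.inclusion (Algebra.adjoin_mono
      (Set.subset_insert τ ({t} : Set (Module.End ℤ V))))).toRingHom
  have hl : ((lucas y (r : A) j : A) : Module.End ℤ V) =
      ((lucas t₁ (r : _) j : Algebra.adjoin ℤ ({t} : Set (Module.End ℤ V))) : Module.End ℤ V) := by
    rw [show y = ι t₁ from rfl, ← map_intCast ι r, ← map_lucas]
    rfl
  simpa [x, hl] using h'

/-- `z` in `H + m Λ` for all prime powers `m` forces a multiple of `z` into `H`. -/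
theorem exists_zsmul_mem {Λ : Type*} [AddCommGroup Λ] [Module.Finite ℤ Λ] (l : ℕ)
    (hl : l.Prime) (H : AddSubgroup Λ) (z : Λ)
    (h : ∀ n : ℕ, ∃ a ∈ H, ∃ b : Λ, z = a + ((l ^ n : ℕ) : ℤ) • b) :
    ∃ m : ℤ, m ≠ 0 ∧ m • z ∈ H := by
  let H' : Submodule ℤ Λ := AddSubgroup.toIntSubmodule H
  haveI : Module.Finite ℤ (Λ ⧸ H') := Module.Finite.quotient ℤ _
  set Q := Λ ⧸ H'
  set zb : Q := Submodule.Quotient.mk z with hzb
  set T := Submodule.torsion ℤ Q
  haveI : Module.Finite ℤ (Q ⧸ T) := Module.Finite.quotient ℤ _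
  haveI : Module.Free ℤ (Q ⧸ T) := Module.free_of_finite_type_torsion_free'
  have hzero : (Submodule.Quotient.mk zb : Q ⧸ T) = 0 := by
    let b := Module.Free.chooseBasis ℤ (Q ⧸ T)
    refine (LinearEquiv.map_eq_zero_iff b.repr).mp (Finsupp.ext fun i => ?_)
    by_contra hne
    obtain ⟨n, hn⟩ : ∃ n : ℕ, (b.repr (Submodule.Quotient.mk zb) i).natAbs < l ^ n :=
      ⟨_, Nat.lt_pow_self hl.one_lt⟩
    obtain ⟨a, ha, c, hc⟩ := h n
    have hz : (Submodule.Quotient.mk zb : Q ⧸ T) =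
        ((l ^ n : ℕ) : ℤ) • Submodule.Quotient.mk (Submodule.Quotient.mk c) := by
      rw [hzb, hc, Submodule.Quotient.mk_add, (Submodule.Quotient.mk_eq_zero H').mpr ha, zero_add,
        Submodule.Quotient.mk_smul, Submodule.Quotient.mk_smul]
    have hdvd : ((l ^ n : ℕ) : ℤ) ∣ b.repr (Submodule.Quotient.mk zb) i := by
      rw [hz, map_smul, Finsupp.smul_apply, smul_eq_mul]
      exact dvd_mul_right _ _
    exact hne (Int.eq_zero_of_dvd_of_natAbs_lt_natAbs hdvd (by simpa using hn))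
  obtain ⟨m, hm⟩ := Submodule.mem_torsion_iff _ |>.mp ((Submodule.Quotient.mk_eq_zero T).mp hzero)
  exact ⟨m, nonZeroDivisors.coe_ne_zero m, (Submodule.Quotient.mk_eq_zero H').mp hm⟩

variable {N : ℕ} [NeZero N] {l : ℕ} [Fact l.Prime]

/-- A finite extension fixing every `l ^ n`-torsion point and every `l ^ n`-th root of unity. -/
theorem exists_splitting_field (F : TorsionFrame N l) (hF : TorsionFacts N l) (n : ℕ) :
    ∃ L : IntermediateField ℚ ℚbar, FiniteDimensional ℚ L ∧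
      (∀ t : ℚbar, t ^ l ^ n = 1 → t ∈ L) ∧
      ∀ σ : Γℚ, (∀ y ∈ L, σ y = y) → ∀ x : JZero N, l ^ n • x = 0 → σ • x = x := by
  classical
  haveI : NeZero (l ^ n) := ⟨pow_ne_zero _ (Fact.out : l.Prime).ne_zero⟩
  choose K hK hKσ using fun v : Fin F.H.r → ZMod (l ^ n) => hF.smooth (F.e n v)
  haveI := fun v => hK v
  obtain ⟨ζ, hζ⟩ := HasEnoughRootsOfUnity.exists_primitiveRoot ℚbar (l ^ n)
  haveI : FiniteDimensional ℚ (IntermediateField.adjoin ℚ ({ζ} : Set ℚbar)) :=
    IntermediateField.adjoin.finiteDimensional (Algebra.IsIntegral.isIntegral ζ)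
  refine ⟨(⨆ v, K v) ⊔ IntermediateField.adjoin ℚ ({ζ} : Set ℚbar), inferInstance, ?_, ?_⟩
  · intro t ht
    obtain ⟨i, -, rfl⟩ := hζ.eq_pow_of_pow_eq_one ht
    exact pow_mem (le_sup_right (α := IntermediateField ℚ ℚbar)
      (IntermediateField.mem_adjoin_simple_self ℚ ζ)) i
  · intro σ hσ x hx
    obtain ⟨v, rfl⟩ := ((F.isTorsionIso n).mem_range_iff x).mpr hx
    exact hKσ v σ fun y hy => hσ y (le_sup_left (α := IntermediateField ℚ ℚbar)
      (le_iSup K v hy))

/-- The matrices of two generators agree modulo `l ^ n` when the operators do. -/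
theorem genMod_eq_of_forall (F : TorsionFrame N l) (n : ℕ)
    (u : CuspForm.heckeAlgebra N 2 (∅ : Set ℕ)) (p : Nat.Primes)
    (h : ∀ v, heckeOperatorBar N p (F.e n v) =
      F.e n ((F.H.mat u).map (Int.castRingHom (ZMod (l ^ n))) *ᵥ v)) :
    F.H.genMod (l ^ n) p = (F.H.mat u).map (Int.castRingHom (ZMod (l ^ n))) :=
  matrix_eq_of_forall_mulVec fun v =>
    (F.isTorsionIso n).injective (((F.isTorsionIso n).hecke p v).symm.trans (h v))

/-- `T_p ≡ V_j(T_r)` modulo `l ^ n`, as soon as `Frob_p` is the `j`-th power of a Frobenius at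
`r` on a splitting field. -/
theorem genMod_eq_lucas (F : TorsionFrame N l) (hF : TorsionFacts N l) {p : Nat.Primes}
    (hpN : ¬ (p : ℕ) ∣ N) (hpl : (p : ℕ) ≠ l) {r : Nat.Primes} (hrN : ¬ (r : ℕ) ∣ N)
    (hrl : (r : ℕ) ≠ l) (n j : ℕ) (L : IntermediateField ℚ ℚbar)
    (hμ : ∀ t : ℚbar, t ^ l ^ n = 1 → t ∈ L)
    (hL : ∀ σ : Γℚ, (∀ y ∈ L, σ y = y) → ∀ x : JZero N, l ^ n • x = 0 → σ • x = x)
    {A A' : ValuationSubring ℚbar} (hA : A.LiesOverPrime p) (hA' : A'.LiesOverPrime r)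
    {σ τ : Γℚ} (hσ : A.IsFrobeniusAt σ p) (hτ : A'.IsFrobeniusAt τ r)
    (hστ : ∀ y ∈ L, σ y = (τ ^ j) y) :
    F.H.genMod (l ^ n) p =
      (F.H.mat (lucas (heckeGenAt N r) ((r : ℕ) : CuspForm.heckeAlgebra N 2 (∅ : Set ℕ)) j)).map
        (Int.castRingHom (ZMod (l ^ n))) := by
  haveI : NeZero (l ^ n) := ⟨pow_ne_zero _ (Fact.out : l.Prime).ne_zero⟩
  -- cyclotomic congruence
  have hrp : ((r : ℕ) : ZMod (l ^ n)) ^ j = ((p : ℕ) : ZMod (l ^ n)) := by
    have hcσ := congrArg (PadicInt.toZModPow n) (padicCyclo_frobenius l p.2 hpl hA hσ)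
    have hcτ := congrArg (PadicInt.toZModPow n) (padicCyclo_frobenius l r.2 hrl hA' hτ)
    rw [map_natCast] at hcσ hcτ
    have heq : PadicInt.toZModPow n (padicCyclo l (τ ^ j)) =
        PadicInt.toZModPow n (padicCyclo l σ) := by
      rw [toZModPow_padicCyclo_eq l σ (m := (PadicInt.toZModPow n (padicCyclo l (τ ^ j))).val)
        fun t ht => by rw [hστ t (hμ t ht), apply_rootOfUnity l (τ ^ j) ht],
        ZMod.natCast_zmod_val]
    rw [map_pow, map_pow, hcτ, hcσ] at heq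
    exact heq
  -- operators on `J[l ^ n]` in coordinates
  let V := Fin F.H.r → ZMod (l ^ n)
  let g : Γℚ → Module.End ℤ V := fun s => (F.galHom s n).toIntLinearMap
  let m : CuspForm.heckeAlgebra N 2 (∅ : Set ℕ) →+* Module.End ℤ V :=
    { toFun := fun u => ((F.H.mat u).map (Int.castRingHom (ZMod (l ^ n)))).mulVecLin.restrictScalars ℤ
      map_one' := by
        refine LinearMap.ext fun v => ?_
        simp [Matrix.map_one]
      map_mul' := fun a b => by
        refine LinearMap.ext fun v => ?_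
        show (F.H.mat (a * b)).map (Int.castRingHom (ZMod (l ^ n))) *ᵥ v =
          (F.H.mat a).map (Int.castRingHom (ZMod (l ^ n))) *ᵥ
            ((F.H.mat b).map (Int.castRingHom (ZMod (l ^ n))) *ᵥ v)
        rw [map_mul, Matrix.map_mul, Matrix.mulVec_mulVec]
      map_zero' := by
        refine LinearMap.ext fun v => ?_
        simp
      map_add' := fun a b => by
        refine LinearMap.ext fun v => ?_
        simp [Matrix.map_add, Matrix.add_mulVec] }
  have hm : ∀ (u : CuspForm.heckeAlgebra N 2 (∅ : Set ℕ)) (v : V),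
      m u v = (F.H.mat u).map (Int.castRingHom (ZMod (l ^ n))) *ᵥ v := fun u v => rfl
  have hinj := (F.isTorsionIso n).injective
  have hg : ∀ s v, F.e n (g s v) = s • F.e n v := fun s v => F.e_galHom s n v
  have hgen : ∀ (s : Nat.Primes) v, F.e n (m (heckeGenAt N s) v) = heckeOperatorBar N s (F.e n v) :=
    fun s v => ((F.isTorsionIso n).hecke s v).symm
  have htor : ∀ v, l ^ n • F.e n v = 0 := fun v =>
    ((F.isTorsionIso n).mem_range_iff _).mp ⟨v, rfl⟩
  have hquad : ∀ (s : Nat.Primes), ¬ (s : ℕ) ∣ N → (s : ℕ) ≠ l →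
      ∀ (B : ValuationSubring ℚbar), B.LiesOverPrime s → ∀ ψ : Γℚ, B.IsFrobeniusAt ψ s →
        g ψ * g ψ - m (heckeGenAt N s) * g ψ + (((s : ℕ) : ℤ) : Module.End ℤ V) = 0 := by
    intro s hsN hsl B hB ψ hψ
    refine LinearMap.ext fun v => hinj ?_
    have h := hF.frobenius s hsN hsl B hB ψ hψ n (F.e n v) (htor v)
    simp only [LinearMap.add_apply, LinearMap.sub_apply, Module.End.mul_apply, map_add, map_sub,
      hg, hgen, LinearMap.zero_apply, map_zero]
    rw [Int.cast_natCast, ← nsmul_one, LinearMap.smul_apply, Module.End.one_apply, map_nsmul]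
    exact h
  have hcomm : g τ * m (heckeGenAt N r) = m (heckeGenAt N r) * g τ :=
    LinearMap.ext fun v => hinj (by
      simp only [Module.End.mul_apply, hg, hgen, hF.hecke_comm])
  obtain ⟨t', ht', hq⟩ := quad_pow_end (g τ) (m (heckeGenAt N r)) ((r : ℕ) : ℤ) hcomm
    (hquad r hrN hrl A' hA' τ hτ) j
  -- `τ ^ j` acts as `σ`
  have hgpow : ∀ k : ℕ, g τ ^ k = g (τ ^ k) := by
    intro k
    induction k with
    | zero =>
      refine LinearMap.ext fun v => hinj ?_
      simp [hg]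
    | succ k ih =>
      refine LinearMap.ext fun v => hinj ?_
      rw [pow_succ, pow_succ, ih, Module.End.mul_apply, hg, hg, hg, mul_smul]
  have hgσ : g τ ^ j = g σ := by
    refine LinearMap.ext fun v => hinj ?_
    rw [hgpow, hg, hg]
    have h := hL ((τ ^ j)⁻¹ * σ) (fun y hy => by
      rw [AlgEquiv.mul_apply, hστ y hy, ← AlgEquiv.mul_apply, inv_mul_cancel, AlgEquiv.one_apply])
      (F.e n v) (htor v)
    rw [mul_smul, inv_smul_eq_iff] at h
    exact h.symm
  rw [hgσ] at hq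
  -- the value of `t'`
  have ht'' : (t' : Module.End ℤ V) =
      m (lucas (heckeGenAt N r) ((r : ℕ) : CuspForm.heckeAlgebra N 2 (∅ : Set ℕ)) j) := by
    let B : Subalgebra ℤ (Module.End ℤ V) := m.toIntAlgHom.range
    haveI : IsMulCommutative B := ⟨⟨by
      rintro ⟨_, a, rfl⟩ ⟨_, b, rfl⟩
      exact Subtype.ext (by
        simp only [Subalgebra.coe_mul]
        rw [← map_mul, ← map_mul, mul_comm])⟩⟩
    letI : CommRing B := open scoped IsMulCommutative in inferInstance
    let f : Algebra.adjoin ℤ ({m (heckeGenAt N r)} : Set (Module.End ℤ V)) →+* B :=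
      (Subalgebra.inclusion (Algebra.adjoin_le (by
        rintro x rfl
        exact ⟨_, rfl⟩))).toRingHom
    have h1 := congrArg Subtype.val (ht' B f)
    let m' : CuspForm.heckeAlgebra N 2 (∅ : Set ℕ) →+* B := m.toIntAlgHom.rangeRestrict.toRingHom
    have h2 : lucas (f ⟨m (heckeGenAt N r), Algebra.self_mem_adjoin_singleton ℤ _⟩)
        (((r : ℕ) : ℤ) : B) j =
        m' (lucas (heckeGenAt N r) ((r : ℕ) : CuspForm.heckeAlgebra N 2 (∅ : Set ℕ)) j) := by
      rw [map_lucas, map_natCast, Int.cast_natCast]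
      rfl
    rw [h2] at h1
    exact h1
  rw [ht''] at hq
  have hσq := hquad p hpN hpl A hA σ hσ
  refine genMod_eq_of_forall F n _ p fun v => ?_
  rw [← hgen, ← hm]
  refine congrArg (F.e n) ?_
  obtain ⟨w, rfl⟩ : ∃ w, g σ w = v := by
    obtain ⟨w, hw⟩ := ((F.isTorsionIso n).mem_range_iff (σ⁻¹ • F.e n v)).mpr
      (by rw [← gal_nsmul, htor]; exact (DistribSMul.toAddMonoidHom (JZero N) σ⁻¹).map_zero)
    exact ⟨w, hinj (by rw [hg, hw, smul_inv_smul])⟩
  have e1 := LinearMap.congr_fun hσq w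
  have e2 := LinearMap.congr_fun hq w
  simp only [LinearMap.add_apply, LinearMap.sub_apply, Module.End.mul_apply,
    LinearMap.zero_apply] at e1 e2
  have hc : (((p : ℕ) : ℤ) : Module.End ℤ V) w =
      ((((r : ℕ) : ℤ) : Module.End ℤ V) ^ j) w := by
    rw [← Int.cast_pow, ← zsmul_one, ← zsmul_one, LinearMap.smul_apply, LinearMap.smul_apply,
      Module.End.one_apply, ← Int.cast_smul_eq_zsmul (ZMod (l ^ n)),
      ← Int.cast_smul_eq_zsmul (ZMod (l ^ n))]
    congr 1
    push_cast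
    rw [hrp]
  rw [hc, ← e2, sub_add_eq_add_sub, sub_add_eq_add_sub, sub_right_inj] at e1
  exact e1

/-- Two normalised eigenforms whose coefficients agree at almost all primes agree at every prime
not dividing either level. -/
theorem qCoeff_eq_of_almost_all {N' : ℕ} [NeZero N']
    {f : CuspForm (CongruenceSubgroup.Gamma0 N) 2} (hf : f.IsNormalizedEigenform)
    {f' : CuspForm (CongruenceSubgroup.Gamma0 N') 2} (hf' : f'.IsNormalizedEigenform)
    (S : Finset ℕ)
    (h : ∀ r : ℕ, r.Prime → ¬ r ∣ N → ¬ r ∣ N' → r ∉ S →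
      ModularFormClass.qCoeff f r = ModularFormClass.qCoeff f' r)
    {p : ℕ} (hp : p.Prime) (hpN : ¬ p ∣ N) (hpN' : ¬ p ∣ N') :
    ModularFormClass.qCoeff f p = ModularFormClass.qCoeff f' p := by
  classical
  obtain ⟨l, hl, hlp⟩ : ∃ l : ℕ, l.Prime ∧ p ≠ l := by
    rcases eq_or_ne p 2 with rfl | h2
    · exact ⟨3, Nat.prime_three, by norm_num⟩
    · exact ⟨2, Nat.prime_two, h2⟩
  haveI : Fact l.Prime := ⟨hl⟩
  obtain ⟨F⟩ := nonempty_torsionFrame N l
  obtain ⟨F'⟩ := nonempty_torsionFrame N' l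
  have hF := torsionFacts N l
  have hF' := torsionFacts N' l
  let Good : Set Nat.Primes := {r | ¬ (r : ℕ) ∣ N ∧ ¬ (r : ℕ) ∣ N' ∧ (r : ℕ) ∉ S}
  let e : MvPolynomial Good ℤ →ₐ[ℤ] CuspForm.heckeAlgebra N 2 (∅ : Set ℕ) :=
    MvPolynomial.aeval fun r => heckeGenAt N r.1
  let e' : MvPolynomial Good ℤ →ₐ[ℤ] CuspForm.heckeAlgebra N' 2 (∅ : Set ℕ) :=
    MvPolynomial.aeval fun r => heckeGenAt N' r.1
  let Λ := Matrix (Fin F.H.r) (Fin F.H.r) ℤ × Matrix (Fin F'.H.r) (Fin F'.H.r) ℤ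
  let ev : MvPolynomial Good ℤ →+* Λ :=
    (F.H.mat.comp e.toRingHom).prod (F'.H.mat.comp e'.toRingHom)
  let z : Λ := (F.H.mat (heckeGenAt N ⟨p, hp⟩), F'.H.mat (heckeGenAt N' ⟨p, hp⟩))
  -- congruences
  have hcong : ∀ n : ℕ, ∃ a ∈ ev.range.toAddSubgroup, ∃ b : Λ,
      z = a + ((l ^ n : ℕ) : ℤ) • b := by
    intro n
    obtain ⟨L, hLf, hμ, hL⟩ := exists_splitting_field F hF n
    obtain ⟨L', hL'f, -, hL'⟩ := exists_splitting_field F' hF' n
    obtain ⟨A, hA⟩ := Galois.exists_liesOverPrime hp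
    obtain ⟨σ, hσ⟩ := Galois.exists_isFrobeniusAt hp hA
    obtain ⟨r, hr, hrS, A', hA', τ, hτ, ⟨j, hj⟩, -⟩ :=
      Density.exists_frobenius_pow σ (L ⊔ L') (S ∪ {l} ∪ N.primeFactors ∪ N'.primeFactors)
    simp only [Finset.mem_union, Finset.mem_singleton, Nat.mem_primeFactors, not_or, not_and,
      ne_eq] at hrS
    have hrN : ¬ r ∣ N := fun hd => hrS.1.2 hr hd (NeZero.ne N)
    have hrN' : ¬ r ∣ N' := fun hd => hrS.2 hr hd (NeZero.ne N')
    have h1 := genMod_eq_lucas F hF (p := ⟨p, hp⟩) hpN hlp (r := ⟨r, hr⟩) hrN hrS.1.1.2 n j L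
      hμ hL hA hA' hσ hτ fun y hy => hj y (le_sup_left (α := IntermediateField ℚ ℚbar) hy)
    have h2 := genMod_eq_lucas F' hF' (p := ⟨p, hp⟩) hpN' hlp (r := ⟨r, hr⟩) hrN' hrS.1.1.2 n j
      (L ⊔ L') (fun t ht => le_sup_left (α := IntermediateField ℚ ℚbar) (hμ t ht))
      (fun ψ hψ => hL' ψ fun y hy => hψ y (le_sup_right (α := IntermediateField ℚ ℚbar) hy))
      hA hA' hσ hτ hj
    let P : MvPolynomial Good ℤ :=
      lucas (MvPolynomial.X ⟨⟨r, hr⟩, hrN, hrN', hrS.1.1.1⟩) (r : MvPolynomial Good ℤ) j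
    have hP : e P = lucas (heckeGenAt N ⟨r, hr⟩) (r : _) j ∧
        e' P = lucas (heckeGenAt N' ⟨r, hr⟩) (r : _) j := by
      constructor
      · show e.toRingHom P = _
        rw [map_lucas, map_natCast]
        simp [e]
      · show e'.toRingHom P = _
        rw [map_lucas, map_natCast]
        simp [e']
    have key : ∀ (k : ℕ) (X Y : Matrix (Fin k) (Fin k) ℤ),
        X.map (Int.castRingHom (ZMod (l ^ n))) = Y.map (Int.castRingHom (ZMod (l ^ n))) →
        ∃ B : Matrix (Fin k) (Fin k) ℤ, X = Y + ((l ^ n : ℕ) : ℤ) • B := by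
      intro k X Y hXY
      have hd : ∀ i i', ∃ c : ℤ, X i i' = Y i i' + ((l ^ n : ℕ) : ℤ) * c := fun i i' => by
        have hi := congrFun (congrFun hXY i) i'
        simp only [Matrix.map_apply, eq_intCast] at hi
        obtain ⟨c, hc⟩ := (ZMod.intCast_eq_intCast_iff_dvd_sub _ _ _).mp hi.symm
        exact ⟨c, by rw [← hc]; ring⟩
      choose B hB using hd
      exact ⟨Matrix.of B, Matrix.ext fun i i' => by
        simp only [hB i i', Matrix.add_apply, Matrix.smul_apply, Matrix.of_apply, smul_eq_mul]⟩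
    obtain ⟨B₁, hB₁⟩ := key _ _ _ h1
    obtain ⟨B₂, hB₂⟩ := key _ _ _ h2
    refine ⟨ev P, ⟨P, rfl⟩, (B₁, B₂), Prod.ext ?_ ?_⟩
    · show _ = F.H.mat (e P) + ((l ^ n : ℕ) : ℤ) • B₁
      rw [hP.1]
      exact hB₁
    · show _ = F'.H.mat (e' P) + ((l ^ n : ℕ) : ℤ) • B₂
      rw [hP.2]
      exact hB₂
  obtain ⟨m, hm, hmz⟩ := exists_zsmul_mem l hl ev.range.toAddSubgroup z hcong
  obtain ⟨Q, hQ⟩ := hmz
  have h1 : e Q = m • heckeGenAt N ⟨p, hp⟩ := F.H.injective (by
    rw [map_zsmul]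
    exact congrArg Prod.fst hQ)
  have h2 : e' Q = m • heckeGenAt N' ⟨p, hp⟩ := F'.H.injective (by
    rw [map_zsmul]
    exact congrArg Prod.snd hQ)
  have hval : ∀ {K : ℕ} [NeZero K] {u : CuspForm (CongruenceSubgroup.Gamma0 K) 2}
      (hu : u.IsNormalizedEigenform) {q : ℕ} (hq : q.Prime), ¬ q ∣ K →
      Eigen.eigenChar u hu ∅ (heckeGenAt K ⟨q, hq⟩) = ModularFormClass.qCoeff u q := by
    intro K _ u hu q hq hqK
    simp [heckeGenAt, hqK, Eigen.eigenChar_T]
  have hcomp : (Eigen.eigenChar f hf ∅).toIntAlgHom.comp e =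
      (Eigen.eigenChar f' hf' ∅).toIntAlgHom.comp e' := by
    refine MvPolynomial.algHom_ext fun r => ?_
    simp only [AlgHom.comp_apply, e, e', MvPolynomial.aeval_X, RingHom.toIntAlgHom_apply]
    exact (hval hf r.1.2 r.2.1).trans
      ((h _ r.1.2 r.2.1 r.2.2.1 r.2.2.2).trans (hval hf' r.1.2 r.2.2.1).symm)
  have h3 := DFunLike.congr_fun hcomp Q
  simp only [AlgHom.comp_apply, RingHom.toIntAlgHom_apply, h1, h2, map_zsmul, hval hf hp hpN,
    hval hf' hp hpN', zsmul_eq_mul, map_mul, map_intCast] at h3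
  exact mul_left_cancel₀ (Int.cast_ne_zero.mpr hm) h3

end Cuspidal

end Fermat.Agent.Carayol

end
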