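/-
A Galois-equivariant map from `J₀(M)` to `J₀(N)` kills the part of the Tate module belonging to a
good eigensystem which does not occur at level `N`.

By the Eichler–Shimura relations at both levels, such a map commutes with `T_r` on `p`-power
torsion for every good prime `r ≠ p`; no other property of the map is used.
-/
import Fermat.Agent.Carayol.CuspidalMultOne
import Fermat.Agent.Carayol.CuspidalPic
import Fermat.Prelude.Def_CuspForm_Newforms
import Fermat.Agent.Integral.Eigenform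
import Mathlib.FieldTheory.Minpoly.IsIntegrallyClosed

set_option autoImplicit false
set_option linter.style.haveILetI false

noncomputable section

open scoped Matrix

namespace Fermat.Agent.Carayol

namespace Cuspidal

open ModularCurve GaloisAdic

local notation "ℚbar" => AlgebraicClosure ℚ
local notation "Γℚ" => AlgebraicClosure ℚ ≃ₐ[ℚ] AlgebraicClosure ℚ

variable {N M : ℕ} [NeZero N] [NeZero M] {p : ℕ} [Fact p.Prime]

/-- An equivariant map commutes with the good Hecke operators on `p`-power torsion. -/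
theorem hecke_comm_of_equivariant (hM : TorsionFacts M p) (hN : TorsionFacts N p)
    (π : JZero M →+ JZero N) (hπ : ∀ (σ : Γℚ) x, π (σ • x) = σ • π x) (r : Nat.Primes)
    (hrM : ¬ (r : ℕ) ∣ M) (hrN : ¬ (r : ℕ) ∣ N) (hrp : (r : ℕ) ≠ p) {n : ℕ} {x : JZero M}
    (hx : p ^ n • x = 0) :
    π (heckeOperatorBar M r x) = heckeOperatorBar N r (π x) := by
  obtain ⟨A, hA⟩ := Galois.exists_liesOverPrime r.2
  obtain ⟨τ, hτ⟩ := Galois.exists_isFrobeniusAt r.2 hA
  set y := τ⁻¹ • x with hy_def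
  have hy : p ^ n • y = 0 := by
    rw [hy_def, ← gal_nsmul, hx]
    exact (DistribSMul.toAddMonoidHom (JZero M) τ⁻¹).map_zero
  have hπy : p ^ n • π y = 0 := by rw [← map_nsmul, hy, map_zero]
  have h1 := congrArg π (hM.frobenius r hrM hrp A hA τ hτ n y hy)
  have h2 := hN.frobenius r hrN hrp A hA τ hτ n (π y) hπy
  rw [map_add, map_sub, map_zero, hπ, hπ, map_nsmul] at h1
  rw [← h1] at h2
  have hxy : τ • y = x := smul_inv_smul τ x
  rw [hxy, ← hπ, hxy] at h2
  exact (sub_right_inj.mp (add_right_cancel h2)).symm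

/-- Integer matrices act through `toZModPow`. -/
theorem map_mulVec_toZModPow {ι : Type*} [Fintype ι] (X : Matrix ι ι ℤ) (v : ι → ℤ_[p]) (n : ℕ) :
    (fun i => PadicInt.toZModPow n ((X.map (Int.cast : ℤ → ℤ_[p]) *ᵥ v) i)) =
      X.map (Int.castRingHom (ZMod (p ^ n))) *ᵥ fun i => PadicInt.toZModPow n (v i) := by
  funext i
  rw [RingHom.map_mulVec]
  congr 1
  ext a b
  simp

variable (F : TorsionFrame M p) (F' : TorsionFrame N p) (π : JZero M →+ JZero N)

/-- The image of a vector of the Tate module. -/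
theorem exists_tate_image (v : Fin F.H.r → ℤ_[p]) :
    ∃ w : Fin F'.H.r → ℤ_[p], ∀ n,
      π (F.e n fun i => PadicInt.toZModPow n (v i)) =
        F'.e n fun i => PadicInt.toZModPow n (w i) := by
  have hex : ∀ n, ∃ w, F'.e n w = π (F.e n fun i => PadicInt.toZModPow n (v i)) := fun n => by
    refine ((F'.isTorsionIso n).mem_range_iff _).mpr ?_
    rw [← map_nsmul, ((F.isTorsionIso n).mem_range_iff _).mp ⟨_, rfl⟩, map_zero]
  choose w hw using hex
  have hsucc : ∀ n, (fun i => ZMod.castHom (pow_dvd_pow p n.le_succ) (ZMod (p ^ n)) (w (n + 1) i))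
      = w n := by
    intro n
    refine (F'.isTorsionIso n).injective ?_
    rw [← F'.compat, hw, hw, ← map_nsmul, F.compat]
    refine congrArg (fun u => π (F.e n u)) (funext fun i => ?_)
    exact DFunLike.congr_fun (PadicInt.zmod_cast_comp_toZModPow n (n + 1) n.le_succ) (v i)
  have hcompat : ∀ m n (h : m ≤ n),
      (fun i => ZMod.castHom (pow_dvd_pow p h) (ZMod (p ^ m)) (w n i)) = w m := by
    intro m n h
    induction n, h using Nat.le_induction with
    | base => funext i; simp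
    | succ n hn ih =>
      rw [← ih, ← hsucc n]
      funext i
      exact (DFunLike.congr_fun (RingHom.ext_zmod
        ((ZMod.castHom (pow_dvd_pow p hn) (ZMod (p ^ m))).comp
          (ZMod.castHom (pow_dvd_pow p n.le_succ) (ZMod (p ^ n)))) _) _).symm
  choose w' hw' using fun i => exists_padicInt_of_compatible (fun n => w n i)
    fun m n h => congrFun (hcompat m n h) i
  exact ⟨w', fun n => by rw [← hw n, funext fun i => hw' i n]⟩

/-- A Galois-equivariant map to `J₀(N)` kills the Tate vectors which are annihilated by the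
kernel of the eigencharacter of `g`, when the good eigensystem of `g` does not occur at level
`N`. -/
theorem map_tate_eq_zero (hNM : N ∣ M)
    (hM : TorsionFacts M p) (hN : TorsionFacts N p)
    {g : CuspForm (CongruenceSubgroup.Gamma0 M) 2} (hg : g.IsNormalizedEigenform)
    (hnew : ¬ CuspForm.GoodEigensystemOccursAt g N) (S : Finset ℕ)
    (hπ : ∀ (σ : Γℚ) x, π (σ • x) = σ • π x) (v : Fin F.H.r → ℤ_[p])
    (hv : ∀ t : CuspForm.heckeAlgebra M 2 (↑S : Set ℕ), Eigen.eigenChar g hg (↑S : Set ℕ) t = 0 →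
      (F.H.mat (Subalgebra.inclusion (CuspForm.heckeAlgebra_mono (Set.empty_subset _)) t)).map
        (Int.cast : ℤ → ℤ_[p]) *ᵥ v = 0)
    (n : ℕ) : π (F.e n fun i => PadicInt.toZModPow n (v i)) = 0 := by
  classical
  obtain ⟨F'⟩ := nonempty_torsionFrame N p
  obtain ⟨w, hw⟩ := exists_tate_image F F' π v
  suffices h0 : w = 0 by
    rw [hw n, h0]
    simp only [Pi.zero_apply, map_zero]
    exact (F'.e n).map_zero
  by_contra hw0
  let Good : Set Nat.Primes := {r | ¬ (r : ℕ) ∣ M ∧ (r : ℕ) ∉ S ∧ (r : ℕ) ≠ p}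
  let e : MvPolynomial Good ℤ →ₐ[ℤ] CuspForm.heckeAlgebra M 2 (∅ : Set ℕ) :=
    MvPolynomial.aeval fun r => heckeGenAt M r.1
  let e' : MvPolynomial Good ℤ →ₐ[ℤ] CuspForm.heckeAlgebra N 2 (∅ : Set ℕ) :=
    MvPolynomial.aeval fun r => heckeGenAt N r.1
  let ψ : MvPolynomial Good ℤ →ₐ[ℤ] ℂ := (Eigen.eigenChar g hg ∅).toIntAlgHom.comp e
  -- intertwining of the two actions
  have hrel : ∀ (n : ℕ) (P : MvPolynomial Good ℤ) (a : Fin F.H.r → ZMod (p ^ n))
      (b : Fin F'.H.r → ZMod (p ^ n)), π (F.e n a) = F'.e n b →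
      π (F.e n ((F.H.mat (e P)).map (Int.castRingHom (ZMod (p ^ n))) *ᵥ a)) =
        F'.e n ((F'.H.mat (e' P)).map (Int.castRingHom (ZMod (p ^ n))) *ᵥ b) := by
    intro n P
    induction P using MvPolynomial.induction_on with
    | C c =>
      intro a b hab
      have hc : ∀ {k : ℕ} (u : Fin k → ZMod (p ^ n)),
          ((c : Matrix (Fin k) (Fin k) ℤ)).map (Int.castRingHom (ZMod (p ^ n))) *ᵥ u = c • u := by
        intro k u
        have : ((c : Matrix (Fin k) (Fin k) ℤ)).map (Int.castRingHom (ZMod (p ^ n))) =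
            (c : Matrix (Fin k) (Fin k) (ZMod (p ^ n))) :=
          map_intCast (Int.castRingHom (ZMod (p ^ n))).mapMatrix c
        rw [this, ← zsmul_one, Matrix.smul_mulVec, Matrix.one_mulVec]
      simp only [MvPolynomial.aeval_C, e, e', eq_intCast, map_intCast, hc, map_zsmul, hab]
    | add P Q hP hQ =>
      intro a b hab
      simp only [map_add, Matrix.map_add _ (map_add (Int.castRingHom (ZMod (p ^ n)))),
        Matrix.add_mulVec, hP a b hab, hQ a b hab]
    | mul_X P r hP =>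
      intro a b hab
      rw [map_mul, map_mul, map_mul, map_mul, Matrix.map_mul, Matrix.map_mul,
        ← Matrix.mulVec_mulVec, ← Matrix.mulVec_mulVec]
      refine hP _ _ ?_
      have hr : e (MvPolynomial.X r) = heckeGenAt M r.1 ∧
          e' (MvPolynomial.X r) = heckeGenAt N r.1 := ⟨by simp [e], by simp [e']⟩
      rw [hr.1, hr.2]
      show π (F.e n (F.H.genMod (p ^ n) r.1 *ᵥ a)) = F'.e n (F'.H.genMod (p ^ n) r.1 *ᵥ b)
      rw [← (F.isTorsionIso n).hecke, ← (F'.isTorsionIso n).hecke, ← hab]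
      exact hecke_comm_of_equivariant hM hN π hπ r.1 r.2.1 (fun h => r.2.1 (h.trans hNM))
        r.2.2.2 (((F.isTorsionIso n).mem_range_iff _).mp ⟨a, rfl⟩)
  -- the kernel of `ψ` annihilates `w`
  let eS : MvPolynomial Good ℤ →ₐ[ℤ] CuspForm.heckeAlgebra M 2 (↑S : Set ℕ) :=
    MvPolynomial.aeval fun r =>
      CuspForm.heckeAlgebra.T r.1.2 r.2.1 (fun h => r.2.2.1 (Finset.mem_coe.mp h))
  have heS : ∀ P, Subalgebra.inclusion (CuspForm.heckeAlgebra_mono (Set.empty_subset _)) (eS P) =
      e P := by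
    intro P
    refine DFunLike.congr_fun (f := (Subalgebra.inclusion
      (CuspForm.heckeAlgebra_mono (Set.empty_subset (↑S : Set ℕ)))).comp eS) (g := e) ?_ P
    refine MvPolynomial.algHom_ext fun r => ?_
    simp only [AlgHom.comp_apply, eS, e, MvPolynomial.aeval_X, heckeGenAt, dif_neg r.2.1]
    rfl
  have hker : ∀ P, ψ P = 0 → (F'.H.mat (e' P)).map (Int.cast : ℤ → ℤ_[p]) *ᵥ w = 0 := by
    intro P hP
    have hv0 := hv (eS P) (by
      rw [← hP]
      show _ = Eigen.eigenChar g hg ∅ (e P)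
      rw [← heS P]
      rfl)
    rw [heS] at hv0
    funext i
    refine PadicInt.ext_of_toZModPow.1 fun m => ?_
    rw [Pi.zero_apply, map_zero]
    have h := hrel m P _ _ (hw m)
    rw [← map_mulVec_toZModPow, ← map_mulVec_toZModPow, hv0] at h
    simp only [Pi.zero_apply, map_zero] at h
    have hz : F.e m (fun _ => 0) = 0 := (F.e m).map_zero
    rw [hz, map_zero] at h
    exact congrFun ((F'.isTorsionIso m).injective (h.symm.trans (F'.e m).map_zero.symm)) i
  -- the kernel of `e'` is killed by `ψ`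
  have hinj : ∀ P, e' P = 0 → ψ P = 0 := by
    intro P hP
    by_contra ha
    have hint : IsIntegral ℤ (ψ P) := Integral.isIntegral_eigenChar hg (e P)
    let f := minpoly ℤ (ψ P)
    have hc : f.coeff 0 ≠ 0 := by
      have hQ := minpoly.coeff_zero_ne_zero (A := ℚ) hint.tower_top ha
      rw [minpoly.isIntegrallyClosed_eq_field_fractions' ℚ hint, Polynomial.coeff_map] at hQ
      exact fun h => hQ (by rw [h, map_zero])
    have hψQ : ψ (Polynomial.aeval P f) = 0 := by
      rw [← Polynomial.aeval_algHom_apply]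
      exact minpoly.aeval ℤ (ψ P)
    have h := hker _ hψQ
    have he'Q : e' (Polynomial.aeval P f) = (f.coeff 0 : _) := by
      rw [← Polynomial.aeval_algHom_apply, hP, ← Polynomial.coeff_zero_eq_aeval_zero', eq_intCast]
    rw [he'Q, map_intCast] at h
    refine hw0 (funext fun i => ?_)
    have h2 : ((f.coeff 0 : ℤ) : ℤ_[p]) * w i = 0 := by
      have hmap : ((f.coeff 0 : ℤ) : Matrix (Fin F'.H.r) (Fin F'.H.r) ℤ).map
          (Int.cast : ℤ → ℤ_[p]) = ((f.coeff 0 : ℤ) : Matrix (Fin F'.H.r) (Fin F'.H.r) ℤ_[p]) :=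
        map_intCast (Int.castRingHom ℤ_[p]).mapMatrix _
      rw [hmap, ← zsmul_one, Matrix.smul_mulVec, Matrix.one_mulVec] at h
      simpa [zsmul_eq_mul] using congrFun h i
    exact (mul_eq_zero.mp h2).resolve_left (Int.cast_ne_zero.mpr hc)
  -- a character of the Hecke algebra of level `N`
  let S' : Set ℕ := {r | ∀ hr : r.Prime, (⟨r, hr⟩ : Nat.Primes) ∉ Good}
  have hmemS' : ∀ r : Good, (r.1 : ℕ) ∉ S' := fun r h => h r.1.2 r.2
  let eN : MvPolynomial Good ℤ →ₐ[ℤ] CuspForm.heckeAlgebra N 2 S' :=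
    MvPolynomial.aeval fun r =>
      CuspForm.heckeAlgebra.T r.1.2 (fun h => r.2.1 (h.trans hNM)) (hmemS' r)
  have heN : ∀ P, Subalgebra.inclusion (CuspForm.heckeAlgebra_mono (Set.empty_subset S')) (eN P) =
      e' P := by
    intro P
    refine DFunLike.congr_fun (f := (Subalgebra.inclusion
      (CuspForm.heckeAlgebra_mono (Set.empty_subset S'))).comp eN) (g := e') ?_ P
    refine MvPolynomial.algHom_ext fun r => ?_
    simp only [AlgHom.comp_apply, eN, e', MvPolynomial.aeval_X, heckeGenAt,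
      dif_neg (show ¬ (r.1 : ℕ) ∣ N from fun h => r.2.1 (h.trans hNM))]
    rfl
  have hsurj : Function.Surjective eN := by
    rintro ⟨t, ht⟩
    suffices h : ∃ P, ((eN P : CuspForm.heckeAlgebra N 2 S') :
        Module.End ℂ (CuspForm (CongruenceSubgroup.Gamma0 N) 2)) = t by
      obtain ⟨P, hP⟩ := h
      exact ⟨P, Subtype.ext hP⟩
    induction ht using Algebra.adjoin_induction with
    | mem x hx =>
      rcases hx with ⟨r, hr, hrN, hrS, rfl⟩ | ⟨r, hrN, hr, hrS, rfl⟩
      · have hgood : (⟨r, hr⟩ : Nat.Primes) ∈ Good := by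
          by_contra h
          exact hrS fun _ => h
        exact ⟨MvPolynomial.X ⟨⟨r, hr⟩, hgood⟩, by
          simp only [eN, MvPolynomial.aeval_X]
          rfl⟩
      · exact absurd (fun hr' hgood => hgood.1 (hrN.trans hNM)) hrS
    | algebraMap c => exact ⟨MvPolynomial.C c, by simp [eN]⟩
    | add x y _ _ hx hy =>
      obtain ⟨P, hP⟩ := hx
      obtain ⟨Q, hQ⟩ := hy
      exact ⟨P + Q, by rw [map_add, Subalgebra.coe_add, hP, hQ]⟩
    | mul x y _ _ hx hy =>
      obtain ⟨P, hP⟩ := hx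
      obtain ⟨Q, hQ⟩ := hy
      exact ⟨P * Q, by rw [map_mul, Subalgebra.coe_mul, hP, hQ]⟩
  let χ : CuspForm.heckeAlgebra N 2 S' →+* ℂ :=
    (eN.toRingHom.liftOfSurjective hsurj)
      ⟨ψ.toRingHom, fun P (hP : eN P = 0) => hinj P (by rw [← heN, hP, map_zero])⟩
  obtain ⟨h, hh, hχ⟩ := Integral.exists_eigenform_of_ringHom χ
  refine hnew ⟨h, hh, fun r hr hrM => ?_⟩
  refine qCoeff_eq_of_almost_all hh hg (S ∪ {p}) (fun s hs hsN hsM hsS => ?_) hr
    (fun hd => hrM (hd.trans hNM)) hrM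
  simp only [Finset.mem_union, Finset.mem_singleton, not_or] at hsS
  have hgood : (⟨s, hs⟩ : Nat.Primes) ∈ Good := ⟨hsM, hsS.1, hsS.2⟩
  have hχs : χ (eN (MvPolynomial.X ⟨⟨s, hs⟩, hgood⟩)) = ψ (MvPolynomial.X ⟨⟨s, hs⟩, hgood⟩) :=
    RingHom.liftOfRightInverse_comp_apply _ _ _ _ _
  rw [← hχ] at hχs
  simp only [eN, ψ, e, AlgHom.comp_apply, MvPolynomial.aeval_X, heckeGenAt, dif_neg hsM,
    RingHom.toIntAlgHom_apply, Eigen.eigenChar_T] at hχs
  exact hχs

/-- For a newform `g` of level `N * ℓ`, both degeneracy pushforwards to level `N` kill the Tate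
vectors annihilated by the kernel of its eigencharacter. -/
theorem pushforward_tate_eq_zero {ℓ : ℕ} [NeZero ℓ] (hℓ : 1 < ℓ)
    {g : CuspForm (CongruenceSubgroup.Gamma0 (N * ℓ)) 2} (hg : g.IsNewform) (S : Finset ℕ)
    (F : TorsionFrame (N * ℓ) p) (v : Fin F.H.r → ℤ_[p])
    (hv : ∀ t : CuspForm.heckeAlgebra (N * ℓ) 2 (↑S : Set ℕ),
      Eigen.eigenChar g hg.1 (↑S : Set ℕ) t = 0 →
        (F.H.mat (Subalgebra.inclusion (CuspForm.heckeAlgebra_mono (Set.empty_subset _)) t)).map
          (Int.cast : ℤ → ℤ_[p]) *ᵥ v = 0)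
    (n : ℕ) :
    pushAlpha N ℓ (F.e n fun i => PadicInt.toZModPow n (v i)) = 0 ∧
      pushBeta N ℓ (F.e n fun i => PadicInt.toZModPow n (v i)) = 0 := by
  have hne : N ≠ N * ℓ := by
    have := NeZero.pos N
    nlinarith
  have hnew := hg.2 N (dvd_mul_right N ℓ) hne
  exact ⟨map_tate_eq_zero F (pushAlpha N ℓ) (dvd_mul_right N ℓ) (torsionFacts _ p)
      (torsionFacts _ p) hg.1 hnew S (pushAlpha_galois_smul N ℓ) v hv n,
    map_tate_eq_zero F (pushBeta N ℓ) (dvd_mul_right N ℓ) (torsionFacts _ p)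
      (torsionFacts _ p) hg.1 hnew S (pushBeta_galois_smul N ℓ) v hv n⟩

end Cuspidal

end Fermat.Agent.Carayol

end
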