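/-
The cuspidal vectors at level `Γ(q) ∩ Γ₀(M)`: a class of level `q² M` killed by the two
pushforwards to level `q M` pulls back to a class fixed by the torus whose sums over the two Borel
subgroups containing the torus vanish.
-/
import Fermat.Agent.Carayol.CuspidalAction
import Fermat.Agent.Carayol.CuspidalInertia
import Fermat.Agent.Carayol.CuspidalNorm
import Fermat.Agent.Carayol.CuspidalPush

set_option autoImplicit false
set_option linter.style.haveILetI false
set_option linter.unusedSectionVars false

noncomputable section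

open scoped MatrixGroups

namespace Fermat.Agent.Carayol

namespace Cuspidal

open ModularCurve AlgebraicCurve

attribute [-simp] ZMod.inv_coe_unit

variable {q : ℕ} [Fact q.Prime] {M : ℕ} [NeZero M]

theorem bor_injective : Function.Injective (bor : (ZMod q)ˣ × ZMod q → SL(2, ZMod q)) := by
  rintro ⟨a, β⟩ ⟨a', β'⟩ h
  have h1 : (a : ZMod q) = a' := by
    simpa [bor, Matrix.mul_apply, Fin.sum_univ_two] using
      congrArg (fun g : SL(2, ZMod q) => g 0 0) h
  obtain rfl : a = a' := Units.ext h1
  have h2 := congrArg (fun g : SL(2, ZMod q) => g 0 1) h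
  simp [bor, Matrix.mul_apply, Fin.sum_univ_two] at h2
  rw [h2]

theorem exists_bor_eq {g : SL(2, ZMod q)} (hg : g ∈ borel q) : ∃ p, bor p = g := by
  rcases bruhat g with ⟨p, rfl⟩ | ⟨α, a, β, rfl⟩
  · exact ⟨p, rfl⟩
  · rw [mem_borel] at hg
    simp [Matrix.mul_apply, Fin.sum_univ_two] at hg

variable (q) in
/-- The parametrisation of the Borel subgroup. -/
def borelEquiv : (ZMod q)ˣ × ZMod q ≃ borel q :=
  Equiv.ofBijective (fun p => ⟨bor p, bor_mem p⟩)
    ⟨fun _ _ h => bor_injective (congrArg Subtype.val h),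
      fun g => (exists_bor_eq g.2).imp fun _ hp => Subtype.ext hp⟩

@[simp]
theorem coe_borelEquiv (p : (ZMod q)ˣ × ZMod q) : (borelEquiv q p : SL(2, ZMod q)) = bor p := rfl

/-- The action of `SL₂(ℤ/q)` on the degree zero classes of `X(q; M)`. -/
@[reducible]
def picAction (hqM : ¬ q ∣ M) : DistribMulAction SL(2, ZMod q) (Pic0 Qb (XField q M)) :=
  DistribMulAction.compHom _ (SemilinearAut.ofAlgAut.comp (autHom hqM))

theorem picAction_smul (hqM : ¬ q ∣ M) (g : SL(2, ZMod q)) (x : Pic0 Qb (XField q M)) :
    letI := picAction hqM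
    g • x = SemilinearAut.ofAlgAut (autHom hqM g) • x := rfl

/-- Pullback from level `q² M` to `X(q; M)`. -/
def pullLevel (hqM : ¬ q ∣ M) : JZero (q * M * q) →+ Pic0 Qb (XField q M) :=
  haveI := isFunctionFieldOne_xField hqM
  picPull (levelIncl q M)

/-- Pullback commutes with Galois. -/
theorem pullLevel_galois_smul (hqM : ¬ q ∣ M) (σ : Qb ≃ₐ[ℚ] Qb) (y : JZero (q * M * q)) :
    pullLevel hqM (σ • y) = galAct q M σ • pullLevel hqM y := by
  haveI := isFunctionFieldOne_xField hqM
  rw [galois_smul_pic0_def]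
  refine picPull_smul _ (fun f => Subtype.ext ?_) y
  show coeffMap (σ : Qb →+* Qb) (levelIncl q M f : LaurentSeries Qb) =
    (levelIncl q M (arithmeticGalois _ σ • f) : LaurentSeries Qb)
  rw [coe_levelIncl, coe_levelIncl]
  rfl

/-- The torus fixes the classes pulled back from level `q² M`. -/
theorem tor_smul_pullLevel (hqM : ¬ q ∣ M) (a : (ZMod q)ˣ) (y : JZero (q * M * q)) :
    letI := picAction hqM
    tor a • pullLevel hqM y = pullLevel hqM y := by
  haveI := isFunctionFieldOne_xField hqM
  show SemilinearAut.ofAlgAut (autHom hqM (tor a)) • picPull (levelIncl q M) y = _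
  rw [← picPull_smul (levelIncl q M) (g := 1) (fun f => ?_) y, one_smul]
  · rfl
  · rw [one_smul, SemilinearAut.ofAlgAut_smul]
    exact autHom_tor_levelIncl hqM a f

/-- Galois conjugation of the action on classes. -/
theorem galAct_smul_smul (hqM : ¬ q ∣ M) (σ : Qb ≃ₐ[ℚ] Qb) (a : (ZMod q)ˣ)
    (hσ : σ (zetaQ q : Qb) = (zetaQ q : Qb) ^ (a : ZMod q).val) (g : SL(2, ZMod q))
    (x : Pic0 Qb (XField q M)) :
    letI := picAction hqM
    galAct q M σ • g • x = twist a g • galAct q M σ • x := by
  letI := picAction hqM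
  have h : galAct q M σ * SemilinearAut.ofAlgAut (autHom hqM g) =
      SemilinearAut.ofAlgAut (autHom hqM (twist a g)) * galAct q M σ := by
    refine Subtype.ext (Prod.ext (RingEquiv.ext fun f => ?_) ?_)
    · exact galRingAut_autHom hqM σ a hσ g f
    · exact (mul_one _).trans (one_mul _).symm
  show galAct q M σ • SemilinearAut.ofAlgAut (autHom hqM g) • x =
    SemilinearAut.ofAlgAut (autHom hqM (twist a g)) • galAct q M σ • x
  rw [← mul_smul, ← mul_smul, h]

/-- The automorphisms of `X(q; M)` over level `q M` (the map `τ ↦ q τ`) are the Borel subgroup. -/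
theorem borel_fixed_iff (hqM : ¬ q ∣ M) (y : XField q M) :
    (∀ h : borel q, ((autHom hqM).comp (borel q).subtype) h y = y) ↔
      y ∈ Set.range ((levelIncl q M).comp (heckeBetaBar Qb (q * M) q)) := by
  rw [← AlgHom.coe_fieldRange, SetLike.mem_coe, fieldRange_levelIncl_comp_beta,
    mem_pointField_none_iff hqM]
  exact ⟨fun h g hg => h ⟨g, hg⟩, fun h g => h g.1 g.2⟩

/-- The automorphisms of `X(q; M)` over level `q M` (the inclusion) are the opposite Borel
subgroup. -/
theorem opposite_fixed_iff (hqM : ¬ q ∣ M) (y : XField q M) :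
    (∀ h : borel q, (((autHom hqM).comp (MulAut.conj (weyl : SL(2, ZMod q))⁻¹).toMonoidHom).comp
        (borel q).subtype) h y = y) ↔
      y ∈ Set.range ((levelIncl q M).comp (heckeAlphaBar Qb (q * M) q)) := by
  rw [← AlgHom.coe_fieldRange, SetLike.mem_coe, fieldRange_levelIncl_comp_alpha,
    mem_pointField_zero_iff hqM]
  have hw : ∀ g : SL(2, ZMod q), (weyl⁻¹ * g * weyl : SL(2, ZMod q)) 0 1 = -g 1 0 := fun g => by
    simp [Matrix.mul_apply, Matrix.vecMul, dotProduct, Fin.sum_univ_two,
      Matrix.SpecialLinearGroup.coe_inv, Matrix.adjugate_fin_two]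
  constructor
  · intro h g hg
    have hmem : weyl * g * (weyl : SL(2, ZMod q))⁻¹ ∈ borel q := by
      rw [mem_borel, ← neg_eq_zero, ← hw]
      simpa [mul_assoc] using hg
    simpa [mul_assoc] using h ⟨_, hmem⟩
  · intro h g
    refine h _ ?_
    simpa [hw] using mem_borel.mp g.2

/-- The sum of the translates under the automorphisms over an intermediate field of a pulled
back class vanishes when the class dies in that field. -/
theorem sum_translates_eq_zero {K E F F' : Type*} [Field K] [Field E] [Field F] [Field F']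
    [Algebra K E] [Algebra K F] [Algebra K F'] [IsAlgClosed K] [PerfectField K]
    [Curve.IsFunctionFieldOne K E] [Curve.IsFunctionFieldOne K F] [Curve.IsFunctionFieldOne K F']
    (β : E →ₐ[K] F) (ψ : F →ₐ[K] F') {H : Type*} [Group H] [Fintype H]
    (ρ : H →* (F' ≃ₐ[K] F')) (hfix : ∀ z : F', (∀ h, ρ h z = z) ↔ z ∈ Set.range (ψ.comp β))
    {y : Pic0 K F} (hy : picPush β y = 0) :
    ∑ h, SemilinearAut.ofAlgAut (ρ h) • picPull ψ y = 0 := by
  rw [sum_smul_pic _ _ hfix, picPush_comp_picPull, hy, smul_zero, map_zero, smul_zero]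

/-- A class killed by the pushforward along `τ ↦ q τ` has vanishing sum over the Borel
subgroup. -/
theorem borelSum_pullLevel_eq_zero (hqM : ¬ q ∣ M) {y : JZero (q * M * q)}
    (hy : pushBeta (q * M) q y = 0) :
    letI := picAction hqM
    borelSum (q := q) (pullLevel hqM y) = 0 := by
  letI := picAction hqM
  haveI := isFunctionFieldOne_xField hqM
  letI : Fintype (borel q) := Fintype.ofFinite _
  rw [borelSum]
  exact Eq.trans (Fintype.sum_equiv (borelEquiv q) _ (fun h => SemilinearAut.ofAlgAut
      (((autHom hqM).comp (borel q).subtype) h) • picPull (levelIncl q M) y)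
      fun p => rfl)
    (sum_translates_eq_zero _ _ _ (borel_fixed_iff hqM) hy)

/-- A class killed by the pushforward along the inclusion has vanishing sum over the opposite
Borel subgroup. -/
theorem borelSum_weyl_pullLevel_eq_zero (hqM : ¬ q ∣ M) {y : JZero (q * M * q)}
    (hy : pushAlpha (q * M) q y = 0) :
    letI := picAction hqM
    borelSum (q := q) ((weyl : SL(2, ZMod q)) • pullLevel hqM y) = 0 := by
  letI := picAction hqM
  haveI := isFunctionFieldOne_xField hqM
  letI : Fintype (borel q) := Fintype.ofFinite _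
  rw [borelSum]
  have key : ∀ p, bor p • (weyl : SL(2, ZMod q)) • pullLevel hqM y =
      (weyl : SL(2, ZMod q)) • (weyl⁻¹ * bor p * weyl : SL(2, ZMod q)) • pullLevel hqM y :=
    fun p => by
      simp only [smul_smul]
      congr 1
      group
  rw [Finset.sum_congr rfl fun p _ => key p, ← Finset.smul_sum]
  refine (congrArg _ ?_).trans (smul_zero _)
  exact Eq.trans (Fintype.sum_equiv (borelEquiv q) _ (fun h => SemilinearAut.ofAlgAut
      ((((autHom hqM).comp (MulAut.conj (weyl : SL(2, ZMod q))⁻¹).toMonoidHom).comp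
        (borel q).subtype) h) • picPull (levelIncl q M) y)
      fun p => by simp [picAction_smul, pullLevel])
    (sum_translates_eq_zero _ _ _ (opposite_fixed_iff hqM) hy)

open GaloisAdic in
/-- For a newform of level `q² M`, the pullbacks to `X(q; M)` of the Tate vectors killed by the
kernel of its eigencharacter have vanishing sums over both Borel subgroups. -/
theorem borelSum_tate_pullLevel_eq_zero (hqM : ¬ q ∣ M) {p : ℕ} [Fact p.Prime]
    {g : CuspForm (CongruenceSubgroup.Gamma0 (q * M * q)) 2} (hg : g.IsNewform) (S : Finset ℕ)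
    (F : TorsionFrame (q * M * q) p) (v : Fin F.H.r → ℤ_[p])
    (hv : ∀ t : CuspForm.heckeAlgebra (q * M * q) 2 (↑S : Set ℕ),
      Eigen.eigenChar g hg.1 (↑S : Set ℕ) t = 0 →
        Matrix.mulVec ((F.H.mat (Subalgebra.inclusion
          (CuspForm.heckeAlgebra_mono (Set.empty_subset _)) t)).map (Int.cast : ℤ → ℤ_[p])) v = 0)
    (n : ℕ) :
    letI := picAction hqM
    borelSum (q := q) (pullLevel hqM (F.e n fun i => PadicInt.toZModPow n (v i))) = 0 ∧
      borelSum (q := q) ((weyl : SL(2, ZMod q)) •
        pullLevel hqM (F.e n fun i => PadicInt.toZModPow n (v i))) = 0 := by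
  obtain ⟨hα, hβ⟩ := pushforward_tate_eq_zero (N := q * M) (Fact.out : q.Prime).one_lt hg S F v hv n
  exact ⟨borelSum_pullLevel_eq_zero hqM hβ, borelSum_weyl_pullLevel_eq_zero hqM hα⟩

theorem picPush_id {K F : Type*} [Field K] [Field F] [Algebra K F] [IsAlgClosed K]
    [PerfectField K] [Curve.IsFunctionFieldOne K F] (x : Pic0 K F) :
    picPush (AlgHom.id K F) x = x := by
  obtain ⟨D, rfl⟩ := Pic0.mk_surjective x
  rw [picPush_mk]
  refine congrArg Pic0.mk (Subtype.ext ?_)
  rw [coe_degZeroPush]
  generalize (D : Divisor K F) = D'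
  induction D' using Finsupp.induction with
  | zero => simp
  | single_add v n D' _ _ ih =>
    rw [map_add, ih, pushforwardAlong_single']
    congr 2

theorem finrankAlong_pos {K F F' : Type*} [Field K] [Field F] [Field F'] [Algebra K F]
    [Algebra K F'] [Curve.IsFunctionFieldOne K F] [Curve.IsFunctionFieldOne K F']
    (φ : F →ₐ[K] F') : 0 < finrankAlong K φ := by
  letI := algebraAlong φ
  haveI := isScalarTower_along φ
  haveI : Module.Finite F F' := Curve.finiteAlong φ
  exact Module.finrank_pos

/-- Pullback to `X(q; M)` is injective up to a positive integer. -/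
theorem exists_nsmul_eq_zero_of_pullLevel_eq_zero (hqM : ¬ q ∣ M) :
    ∃ e : ℕ, 0 < e ∧ ∀ y : JZero (q * M * q), pullLevel hqM y = 0 → e • y = 0 := by
  haveI := isFunctionFieldOne_xField hqM
  refine ⟨finrankAlong Qb (levelIncl q M), ?_, fun y hy => ?_⟩
  · exact finrankAlong_pos (levelIncl q M)
  · have h := picPush_comp_picPull (AlgHom.id Qb _) (levelIncl q M) y
    rw [picPush_id, show picPull (levelIncl q M) y = 0 from hy, map_zero] at h
    exact h.symm

/-- Elements of inertia at a place over `q` realise every twist. -/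
theorem exists_inertia_twist {A : ValuationSubring Qb} (hA : A.LiesOverPrime q) (c : (ZMod q)ˣ) :
    ∃ σ ∈ A.inertiaSubgroupIn ℚ, σ (zetaQ q : Qb) = (zetaQ q : Qb) ^ (c : ZMod q).val := by
  obtain ⟨σ, hσ, h⟩ := exists_inertia_apply_root hA c
  exact ⟨σ, hσ, h _ (isPrimitiveRoot_zetaQ q).pow_eq_one⟩

end Cuspidal

end Fermat.Agent.Carayol

end
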