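/-
Evaluation on the upper half plane of the function field of `X(q; M)` along the fixed embedding
`ℚ̄ → ℂ`, and its behaviour under `SL₂(ℤ/q)`.
-/
import Fermat.Agent.Carayol.CuspidalAction
import Fermat.Agent.Torsion.Char

set_option autoImplicit false
set_option linter.unusedSectionVars false

noncomputable section

namespace Fermat.Agent.Carayol

namespace Cuspidal

open ModularCurve IntermediateField AlgebraicCurve CongruenceSubgroup UpperHalfPlane Filter
open scoped MatrixGroups Topology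
open ModFun (HasQExp MeroH EqPunct)
open Fermat.Agent.Torsion (qbarToC)

attribute [-simp] ZMod.inv_coe_unit

variable {q : ℕ} [Fact q.Prime] {M : ℕ} [NeZero M]

/-- Meromorphic functions with the same expansion at `i∞` agree. -/
theorem eqPunct_of_hasQExp' {h : ℕ} [NeZero h] {f g : ℍ → ℂ} {x : LaurentSeries ℂ}
    (hf : MeroH f) (hg : MeroH g) (hx : HasQExp h f x) (hy : HasQExp h g x) : EqPunct f g := by
  have hd : MeroH (f - g) := MeromorphicOn.sub hf hg
  have h0 : HasQExp h (f - g) 0 := by simpa using hx.sub hy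
  obtain ⟨A, hA⟩ := (atImInfty_mem _).1 h0.eventually_eq_zero
  let τ₀ : ℍ := ⟨((max A 0 + 1 : ℝ) : ℂ) * Complex.I, by simp; positivity⟩
  have htop : ModFun.ordH (f - g) τ₀ = ⊤ := by
    refine meromorphicOrderAt_eq_top_iff.2 ?_
    have hopen : {z : ℂ | max A 0 < z.im} ∈ 𝓝 (τ₀ : ℂ) :=
      (isOpen_lt continuous_const Complex.continuous_im).mem_nhds (by
        show max A 0 < _
        simp [τ₀])
    filter_upwards [mem_nhdsWithin_of_mem_nhds hopen] with z hz
    have hz' : max A 0 < z.im := hz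
    rw [Function.comp_apply, ofComplex_apply_of_im_pos (lt_of_le_of_lt (le_max_right A 0) hz')]
    exact hA ⟨z, _⟩ (le_trans (le_max_left A 0) hz'.le)
  intro τ
  filter_upwards [(ModFun.ordH_eq_top_iff hd).1 htop τ] with z hz
  exact sub_eq_zero.1 (by simpa using hz)

/-- `F` is the function on the upper half plane with the expansion of `x`. -/
def IsEval (x : XField q M) (F : ℍ → ℂ) : Prop :=
  MeroH F ∧ HasQExp q F (coeffMap qbarToC (x : LaurentSeries Qb))

theorem IsEval.eqPunct {x : XField q M} {F G : ℍ → ℂ} (h : IsEval x F) (h' : IsEval x G) :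
    EqPunct F G :=
  eqPunct_of_hasQExp' h.1 h'.1 h.2 h'.2

theorem IsEval.add {x y : XField q M} {F G : ℍ → ℂ} (h : IsEval x F) (h' : IsEval y G) :
    IsEval (x + y) (F + G) :=
  ⟨MeromorphicOn.add h.1 h'.1, by
    rw [IntermediateField.coe_add, map_add]; exact h.2.add h'.2⟩

theorem IsEval.mul {x y : XField q M} {F G : ℍ → ℂ} (h : IsEval x F) (h' : IsEval y G) :
    IsEval (x * y) (F * G) :=
  ⟨MeromorphicOn.mul h.1 h'.1, by
    rw [IntermediateField.coe_mul, map_mul]; exact h.2.mul h'.2⟩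

theorem IsEval.inv {x : XField q M} {F : ℍ → ℂ} (h : IsEval x F) : IsEval x⁻¹ F⁻¹ :=
  ⟨MeromorphicOn.inv h.1, by
    rw [IntermediateField.coe_inv, map_inv₀]; exact h.2.inv⟩

theorem isEval_algebraMap (c : Qb) :
    IsEval (algebraMap Qb (XField q M) c) fun _ => qbarToC c := by
  refine ⟨fun z _ => MeromorphicAt.const _ z, (HasQExp.const (qbarToC c)).of_eq ?_⟩
  rw [IntermediateField.coe_algebraMap_apply, algebraMap_laurentSeries_eq_single, coeffMap_single]
  rfl

theorem IsEval.one : IsEval (1 : XField q M) 1 := by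
  have h := isEval_algebraMap (q := q) (M := M) 1
  rw [map_one, map_one] at h
  exact h

theorem IsEval.pow {x : XField q M} {F : ℍ → ℂ} (h : IsEval x F) (n : ℕ) :
    IsEval (x ^ n) (F ^ n) := by
  induction n with
  | zero => simpa using IsEval.one
  | succ n ih =>
    rw [pow_succ, pow_succ]
    exact ih.mul h

/-- The index of the chosen embedding on the `q`-th roots of unity. -/
theorem exists_unit_qbarToC :
    ∃ u : (ZMod q)ˣ, qbarToC (zetaQ q : Qb) = (ModFun.zetaU q : ℂ) ^ (u : ZMod q).val := by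
  have h1 : IsPrimitiveRoot (qbarToC (zetaQ q : Qb)) q :=
    (isPrimitiveRoot_zetaQ q).map_of_injective qbarToC.injective
  obtain ⟨i, hi, e⟩ := (ModFun.isPrimitiveRoot_zetaU q).eq_pow_of_pow_eq_one h1.pow_eq_one
  have hne : (i : ZMod q) ≠ 0 := fun h0 => by
    have hd := (ZMod.natCast_eq_zero_iff _ _).1 h0
    obtain rfl := Nat.eq_zero_of_dvd_of_lt hd hi
    exact h1.ne_one (Fact.out : q.Prime).one_lt (by rw [← e, pow_zero])
  refine ⟨Units.mk0 _ hne, ?_⟩
  rw [Units.val_mk0, ZMod.val_natCast, Nat.mod_eq_of_lt hi, e]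

variable (q) in
/-- The index of the chosen embedding on the `q`-th roots of unity. -/
def embUnit : (ZMod q)ˣ := exists_unit_qbarToC.choose

theorem qbarToC_zetaQ :
    qbarToC (zetaQ q : Qb) = (ModFun.zetaU q : ℂ) ^ (embUnit q : ZMod q).val :=
  (exists_unit_qbarToC (q := q)).choose_spec

/-- The permutation of the projective line by `diag (1, u)`. -/
def lineScale (u : (ZMod q)ˣ) : Line q → Line q
  | some b => some ((u : ZMod q) * b)
  | none => none

theorem vecLine_smul {c : ZMod q} (hc : c ≠ 0) (v : Fin 2 → ZMod q) :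
    vecLine (c • v) = vecLine v := by
  unfold vecLine
  by_cases h : v 0 = 0
  · simp [h]
  · simp [h, hc, mul_div_mul_left]

theorem lineScale_lineSmul (u : (ZMod q)ˣ) (g : SL(2, ZMod q)) (P : Line q) :
    lineScale u (lineSmul g P) = lineSmul (twist u g) (lineScale u P) := by
  obtain ⟨c, hc, hv⟩ : ∃ c : ZMod q, c ≠ 0 ∧
      lineVec (lineScale u P) = c • ![lineVec P 0, (u : ZMod q) * lineVec P 1] := by
    cases P with
    | none => exact ⟨(u : ZMod q)⁻¹, inv_ne_zero u.ne_zero, by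
        ext i; fin_cases i <;> simp [lineScale, lineVec]⟩
    | some b => exact ⟨1, one_ne_zero, by ext i; fin_cases i <;> simp [lineScale, lineVec]⟩
  have hu : (u : ZMod q) * (u : ZMod q)⁻¹ = 1 := mul_inv_cancel₀ u.ne_zero
  have h2 : Matrix.vecMul (lineVec (lineScale u P))
      (twist u g : Matrix (Fin 2) (Fin 2) (ZMod q)) =
      c • ![Matrix.vecMul (lineVec P) (g : Matrix (Fin 2) (Fin 2) (ZMod q)) 0,
        (u : ZMod q) * Matrix.vecMul (lineVec P) (g : Matrix (Fin 2) (Fin 2) (ZMod q)) 1] := by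
    rw [hv, Matrix.smul_vecMul]
    congr 1
    ext i
    fin_cases i <;> simp [Matrix.vecMul, dotProduct, Fin.sum_univ_two]
    · linear_combination lineVec P 1 * g 1 0 * hu
    · ring
  rw [lineSmul, lineSmul, h2, vecLine_smul hc]
  unfold vecLine
  by_cases h : Matrix.vecMul (lineVec P) (g : Matrix (Fin 2) (Fin 2) (ZMod q)) 0 = 0
  · simp [h, lineScale]
  · simp [h, lineScale, mul_div_assoc]

theorem coeffMap_gen (d : ℕ) [NeZero d] (P : Line q) {ι : Qb →+* ℂ}
    (hι : ι (zetaQ q : Qb) = (ModFun.zetaU q : ℂ)) :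
    coeffMap qbarToC (gen q d P) = coeffMap ι (gen q d (lineScale (embUnit q) P)) := by
  have hj : ∀ φ : Qb →+* ℂ, coeffMap φ (qExpand Qb d (jqModC Qb)) = qExpand ℂ d (jqModC ℂ) :=
    fun φ => ModFun.coeffMap_qExpand_jqModC φ d
  cases P with
  | none =>
    show coeffMap qbarToC (qExpand Qb (d * q * q) (jqModC Qb)) =
      coeffMap ι (qExpand Qb (d * q * q) (jqModC Qb))
    rw [ModFun.coeffMap_qExpand_jqModC, ModFun.coeffMap_qExpand_jqModC]
  | some b =>
    show coeffMap qbarToC (seriesTwist (zetaQ q ^ b.val) (qExpand Qb d (jqModC Qb))) =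
      coeffMap ι (seriesTwist (zetaQ q ^ ((embUnit q : ZMod q) * b).val)
        (qExpand Qb d (jqModC Qb)))
    ext n
    have hk := fun φ : Qb →+* ℂ => congrArg (fun z : LaurentSeries ℂ => z.coeff n) (hj φ)
    simp only [coeffMap_coeff] at hk
    rw [coeffMap_coeff, coeffMap_coeff, seriesTwist_coeff, seriesTwist_coeff, map_mul, map_mul,
      hk, hk, Units.val_zpow_eq_zpow_val, Units.val_zpow_eq_zpow_val, map_zpow₀, map_zpow₀,
      Units.val_pow_eq_pow_val, Units.val_pow_eq_pow_val, map_pow, map_pow, qbarToC_zetaQ, hι,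
      ← pow_mul]
    congr 2
    rw [ZMod.val_mul]
    exact pow_eq_pow_mod _ (ModFun.isPrimitiveRoot_zetaU q).pow_eq_one

theorem isEval_genElt {d : ℕ} [NeZero d] (hd : d ∣ M) (P : Line q) :
    IsEval (genElt q M hd P) (genFun d (lineScale (embUnit q) P)) := by
  obtain ⟨ι, hι⟩ := exists_embedding q
  let d' : {d : ℕ // d ∈ M.divisors} := ⟨d, Nat.mem_divisors.2 ⟨hd, NeZero.ne M⟩⟩
  let i : GenIdx q M := (d', some (lineScale (embUnit q) P))
  exact ⟨ModFun.meroH_of_mdifferentiable (mdiff_genFn i),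
    (hasQExp_genFn hι i).of_eq (coeffMap_gen d P hι).symm⟩

theorem isEval_baseElt {d : ℕ} [NeZero d] (hd : d ∣ M) :
    IsEval (baseElt q M hd) (baseFun d) := by
  obtain ⟨ι, hι⟩ := exists_embedding q
  let d' : {d : ℕ // d ∈ M.divisors} := ⟨d, Nat.mem_divisors.2 ⟨hd, NeZero.ne M⟩⟩
  let i : GenIdx q M := (d', none)
  refine ⟨ModFun.meroH_of_mdifferentiable (mdiff_genFn i), (hasQExp_genFn hι i).of_eq ?_⟩
  show coeffMap ι (qExpand Qb (d * q) (jqModC Qb)) = coeffMap qbarToC (qExpand Qb (d * q) (jqModC Qb))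
  rw [ModFun.coeffMap_qExpand_jqModC, ModFun.coeffMap_qExpand_jqModC]

theorem isEval_map_add (φ : XField q M ≃ₐ[Qb] XField q M) {x y : XField q M} {F G : ℍ → ℂ}
    (h : IsEval (φ x) F) (h' : IsEval (φ y) G) : IsEval (φ (x + y)) (F + G) := by
  rw [map_add]; exact h.add h'

theorem isEval_map_mul (φ : XField q M ≃ₐ[Qb] XField q M) {x y : XField q M} {F G : ℍ → ℂ}
    (h : IsEval (φ x) F) (h' : IsEval (φ y) G) : IsEval (φ (x * y)) (F * G) := by
  rw [map_mul]; exact h.mul h'

theorem isEval_map_inv (φ : XField q M ≃ₐ[Qb] XField q M) {x : XField q M} {F : ℍ → ℂ}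
    (h : IsEval (φ x) F) : IsEval (φ x⁻¹) F⁻¹ := by
  rw [map_inv₀]; exact h.inv

/-- Every element has an evaluation, and the action of `g` on it is composition with `γ⁻¹`,
where `γ ∈ Γ₀(M)` reduces to the twist of `g`. -/
theorem exists_isEval (hqM : ¬ q ∣ M) (x : XField q M) :
    ∃ F, IsEval x F ∧ ∀ (g : SL(2, ZMod q)) (γ : Gamma0 M),
      red (q := q) (γ : SL(2, ℤ)) = twist (embUnit q) g →
        IsEval (autHom hqM g x) fun τ => F ((γ : SL(2, ℤ))⁻¹ • τ) := by
  obtain ⟨x, hx⟩ := x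
  induction hx using IntermediateField.adjoin_induction with
  | mem y hy =>
    obtain ⟨d, hne, hd, rfl | ⟨P, rfl⟩⟩ := hy
    · refine ⟨baseFun d, isEval_baseElt hd, fun g γ _ => ?_⟩
      show IsEval (autHom hqM g (baseElt q M hd)) _
      rw [autHom_baseElt]
      refine ⟨(isEval_baseElt (q := q) hd).1.comp_smul _,
        (isEval_baseElt hd).2.congr (.of_forall fun τ => ?_)⟩
      exact (baseFun_smul (inv_mem γ.2) hd τ).symm
    · refine ⟨genFun d (lineScale (embUnit q) P), isEval_genElt hd P, fun g γ hγ => ?_⟩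
      show IsEval (autHom hqM g (genElt q M hd P)) _
      rw [autHom_genElt]
      refine ⟨(isEval_genElt hd P).1.comp_smul _,
        (isEval_genElt hd (lineSmul g⁻¹ P)).2.congr (.of_forall fun τ => ?_)⟩
      show genFun d (lineScale (embUnit q) (lineSmul g⁻¹ P)) τ =
        genFun d (lineScale (embUnit q) P) ((γ : SL(2, ℤ))⁻¹ • τ)
      rw [genFun_smul hqM (inv_mem γ.2) hd, lineScale_lineSmul, map_inv, ← hγ, ← map_inv]
      rfl
  | algebraMap c =>
    refine ⟨fun _ => qbarToC c, isEval_algebraMap c, fun g γ _ => ?_⟩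
    show IsEval (autHom hqM g (algebraMap Qb (XField q M) c)) _
    rw [AlgEquiv.commutes]
    exact isEval_algebraMap c
  | add a b ha hb iha ihb =>
    have ha' : a ∈ XField q M := ha
    have hb' : b ∈ XField q M := hb
    obtain ⟨F, hF, hF'⟩ := iha
    obtain ⟨G, hG, hG'⟩ := ihb
    have e : (⟨a + b, add_mem ha' hb'⟩ : XField q M) = (⟨a, ha'⟩ : XField q M) + ⟨b, hb'⟩ :=
      Subtype.ext (IntermediateField.coe_add _ (⟨a, ha'⟩ : XField q M) ⟨b, hb'⟩).symm
    refine ⟨F + G, ?_, fun g γ hγ => ?_⟩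
    · rw [e]; exact hF.add hG
    · rw [e]; exact isEval_map_add (autHom hqM g) (hF' g γ hγ) (hG' g γ hγ)
  | inv a ha iha =>
    have ha' : a ∈ XField q M := ha
    obtain ⟨F, hF, hF'⟩ := iha
    have e : (⟨a⁻¹, inv_mem ha'⟩ : XField q M) = (⟨a, ha'⟩ : XField q M)⁻¹ :=
      Subtype.ext (IntermediateField.coe_inv _ (⟨a, ha'⟩ : XField q M)).symm
    refine ⟨F⁻¹, ?_, fun g γ hγ => ?_⟩
    · rw [e]; exact hF.inv
    · rw [e]; exact isEval_map_inv (autHom hqM g) (hF' g γ hγ)
  | mul a b ha hb iha ihb =>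
    have ha' : a ∈ XField q M := ha
    have hb' : b ∈ XField q M := hb
    obtain ⟨F, hF, hF'⟩ := iha
    obtain ⟨G, hG, hG'⟩ := ihb
    have e : (⟨a * b, mul_mem ha' hb'⟩ : XField q M) = (⟨a, ha'⟩ : XField q M) * ⟨b, hb'⟩ :=
      Subtype.ext (IntermediateField.coe_mul _ (⟨a, ha'⟩ : XField q M) ⟨b, hb'⟩).symm
    refine ⟨F * G, ?_, fun g γ hγ => ?_⟩
    · rw [e]; exact hF.mul hG
    · rw [e]; exact isEval_map_mul (autHom hqM g) (hF' g γ hγ) (hG' g γ hγ)

/-- The action of `g` on evaluations. -/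
theorem IsEval.autHom_smul (hqM : ¬ q ∣ M) {x : XField q M} {F : ℍ → ℂ} (h : IsEval x F)
    {g : SL(2, ZMod q)} {γ : Gamma0 M} (hγ : red (q := q) (γ : SL(2, ℤ)) = twist (embUnit q) g)
    {F' : ℍ → ℂ} (h' : IsEval (autHom hqM g x) F') :
    EqPunct F' fun τ => F ((γ : SL(2, ℤ))⁻¹ • τ) := by
  obtain ⟨G, hG, hG'⟩ := exists_isEval hqM x
  exact (h'.eqPunct (hG' g γ hγ)).trans ((hG.eqPunct h).comp_smul _)

/-- Evaluations are invariant under `Γ(q) ∩ Γ₀(M)`. -/
theorem IsEval.invariant (hqM : ¬ q ∣ M) {x : XField q M} {F : ℍ → ℂ} (h : IsEval x F)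
    {δ : SL(2, ℤ)} (hδ : δ ∈ Gamma q) (hδM : δ ∈ Gamma0 M) :
    EqPunct F fun τ => F (δ • τ) := by
  have hr : red (q := q) ((⟨δ, hδM⟩⁻¹ : Gamma0 M) : SL(2, ℤ)) = twist (embUnit q) 1 := by
    rw [map_one, Subgroup.coe_inv, map_inv, inv_eq_one]
    exact hδ
  have h1 := h.autHom_smul hqM (F' := F) hr (by rw [map_one, AlgEquiv.one_apply]; exact h)
  simpa using h1

/-- An evaluation of a nonzero element vanishes nowhere identically. -/
theorem IsEval.ordH_ne_top {x : XField q M} {F : ℍ → ℂ} (h : IsEval x F) (hx : x ≠ 0) (τ : ℍ) :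
    ModFun.ordH F τ ≠ ⊤ := by
  intro htop
  have h0 := (ModFun.ordH_eq_top_iff h.1).1 htop
  have h1 : HasQExp q F 0 := by
    refine HasQExp.zero.congr ?_
    obtain ⟨A, hA⟩ := (atImInfty_mem _).1 (h.2.eventually_analyticAt)
    refine (atImInfty_mem _).2 ⟨A, fun σ hσ => ?_⟩
    have h2 := h0 σ
    have h3 := (hA σ hσ).continuousAt
    have h4 : (F ∘ ofComplex) (σ : ℂ) = 0 :=
      tendsto_nhds_unique (h3.tendsto.mono_left nhdsWithin_le_nhds)
        (tendsto_const_nhds.congr' (h2.mono fun z hz => by simpa using hz.symm))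
    simpa [ofComplex_apply] using h4.symm
  have h5 := h.2.unique h1
  refine hx (Subtype.ext (HahnSeries.ext (funext fun n => qbarToC.injective ?_)))
  have h6 := congrArg (fun z : LaurentSeries ℂ => z.coeff n) h5
  simpa using h6

end Cuspidal

end Fermat.Agent.Carayol

end
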