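/-
Characters of torsion classes under pullback to `X(q; M)` and translation by `SL₂(ℤ/q)`: a
relation between translates of pulled back classes is a relation between the conjugated characters
on `Γ(q) ∩ Γ₀(M)`.
-/
import Fermat.Agent.Carayol.LCharEval
import Fermat.Agent.Carayol.CuspidalVanish
import Fermat.Agent.Torsion.CharProps

set_option autoImplicit false
set_option linter.unusedSectionVars false

noncomputable section

namespace Fermat.Agent.Carayol

namespace Cuspidal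

open ModularCurve AlgebraicCurve CongruenceSubgroup UpperHalfPlane Filter
open scoped MatrixGroups Topology
open Fermat.Agent.Torsion (qbarToC evBar IsTorsionChar charUnits)
open Fermat.Agent.Multiplier (H act)

variable (q : ℕ) [Fact q.Prime] (M : ℕ) [NeZero M]

/-- `Γ(q) ∩ Γ₀(M)`. -/
def deltaGrp : Subgroup SL(2, ℤ) := Gamma q ⊓ Gamma0 M

/-- Conjugation by `diag (q, 1)`: `(a b; c d) ↦ (a b/q; cq d)`. -/
def downSL (δ : deltaGrp q M) : SL(2, ℤ) :=
  ⟨!![(δ : SL(2, ℤ)) 0 0, (δ : SL(2, ℤ)) 0 1 / q;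
      (δ : SL(2, ℤ)) 1 0 * q, (δ : SL(2, ℤ)) 1 1], by
    have h := (δ : SL(2, ℤ)).2
    rw [Matrix.det_fin_two] at h
    obtain ⟨k, hk⟩ := (ZMod.intCast_zmod_eq_zero_iff_dvd _ _).mp (Gamma_mem.mp δ.2.1).2.1
    rw [hk] at h ⊢
    rw [Int.mul_ediv_cancel_left _ (by exact_mod_cast (NeZero.ne q)), Matrix.det_fin_two_of]
    linear_combination h⟩

variable {q M}

theorem downSL_mem (hqM : ¬ q ∣ M) (δ : deltaGrp q M) :
    downSL q M δ ∈ Gamma0 (q * M * q) := by
  rw [Gamma0_mem, ZMod.intCast_zmod_eq_zero_iff_dvd]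
  show ((q * M * q : ℕ) : ℤ) ∣ (δ : SL(2, ℤ)) 1 0 * q
  push_cast
  refine mul_dvd_mul_right (IsCoprime.mul_dvd ?_
    ((ZMod.intCast_zmod_eq_zero_iff_dvd _ _).mp (Gamma_mem.mp δ.2.1).2.2.1)
    ((ZMod.intCast_zmod_eq_zero_iff_dvd _ _).mp (Gamma0_mem.mp δ.2.2))) _
  exact Nat.isCoprime_iff_coprime.mpr ((Fact.out : q.Prime).coprime_iff_not_dvd.2 hqM)

theorem act_downSL (δ : deltaGrp q M) (z : ℂ) :
    act (downSL q M δ) (z / q) = act (δ : SL(2, ℤ)) z / q := by
  obtain ⟨k, hk⟩ := (ZMod.intCast_zmod_eq_zero_iff_dvd _ _).mp (Gamma_mem.mp δ.2.1).2.1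
  have hq : (q : ℂ) ≠ 0 := Nat.cast_ne_zero.2 (NeZero.ne q)
  have h01 : downSL q M δ 0 1 = k := by
    show (δ : SL(2, ℤ)) 0 1 / q = k
    rw [hk, Int.mul_ediv_cancel_left _ (by exact_mod_cast (NeZero.ne q))]
  show ((downSL q M δ 0 0 : ℂ) * (z / q) + (downSL q M δ 0 1 : ℂ)) /
    ((downSL q M δ 1 0 : ℂ) * (z / q) + (downSL q M δ 1 1 : ℂ)) = _
  rw [h01, show downSL q M δ 0 0 = (δ : SL(2, ℤ)) 0 0 from rfl,
    show downSL q M δ 1 0 = (δ : SL(2, ℤ)) 1 0 * q from rfl,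
    show downSL q M δ 1 1 = (δ : SL(2, ℤ)) 1 1 from rfl, act, hk]
  push_cast
  field_simp

theorem downSL_mul (δ ε : deltaGrp q M) :
    downSL q M (δ * ε) = downSL q M δ * downSL q M ε := by
  obtain ⟨k, hk⟩ := (ZMod.intCast_zmod_eq_zero_iff_dvd _ _).mp (Gamma_mem.mp δ.2.1).2.1
  obtain ⟨l, hl⟩ := (ZMod.intCast_zmod_eq_zero_iff_dvd _ _).mp (Gamma_mem.mp ε.2.1).2.1
  have hq : (q : ℤ) ≠ 0 := by exact_mod_cast (NeZero.ne q)
  have hk' : (δ : SL(2, ℤ)) 0 1 / q = k := by rw [hk, Int.mul_ediv_cancel_left _ hq]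
  have hl' : (ε : SL(2, ℤ)) 0 1 / q = l := by rw [hl, Int.mul_ediv_cancel_left _ hq]
  ext i j
  rw [Matrix.SpecialLinearGroup.coe_mul, Matrix.mul_apply, Fin.sum_univ_two]
  fin_cases i <;> fin_cases j <;>
    simp [downSL, Matrix.mul_apply, Fin.sum_univ_two, hk', hl']
  · rw [hk]; ring
  · rw [hk, hl, show (δ : SL(2, ℤ)) 0 0 * (q * l) + (q : ℤ) * k * (ε : SL(2, ℤ)) 1 1
      = q * ((δ : SL(2, ℤ)) 0 0 * l + k * (ε : SL(2, ℤ)) 1 1) by ring,
      Int.mul_ediv_cancel_left _ hq]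
  · ring
  · rw [hl]; ring

variable (q M) in
/-- `δ ↦ diag (q,1)⁻¹ δ diag (q,1)` into level `q² M`. -/
def down (hqM : ¬ q ∣ M) : deltaGrp q M →* Gamma0 (q * M * q) :=
  MonoidHom.mk' (fun δ => ⟨downSL q M δ, downSL_mem hqM δ⟩) fun δ ε =>
    Subtype.ext (downSL_mul δ ε)

/-- Conjugation of `Γ(q) ∩ Γ₀(M)` by an element of `Γ₀(M)`. -/
def conjDelta (γ : Gamma0 M) : deltaGrp q M →* deltaGrp q M :=
  MonoidHom.mk' (fun δ => ⟨(γ : SL(2, ℤ))⁻¹ * δ * γ,
    by simpa using (Gamma_normal q).conj_mem _ δ.2.1 ((γ : SL(2, ℤ))⁻¹),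
    (Gamma0 M).mul_mem ((Gamma0 M).mul_mem ((Gamma0 M).inv_mem γ.2) δ.2.2) γ.2⟩) fun δ ε => Subtype.ext (by
      simp [mul_assoc])

/-- `ψ` is the character on `Γ(q) ∩ Γ₀(M)` of the `n`-torsion class `y` of `X(q; M)`. -/
def IsXChar (n : ℕ) [NeZero n] (y : Pic0 Qb (XField q M))
    (ψ : Additive (deltaGrp q M) →+ ZMod n) : Prop :=
  ∃ (D : Divisor.degZero (K := Qb) (F := XField q M)) (f : XField q M) (F : ℍ → ℂ) (G : ℂ → ℂ),
    Pic0.mk D = y ∧ f ≠ 0 ∧
      (∀ v, (n : ℤ) * (D : Divisor Qb (XField q M)) v = v.ord f) ∧ IsEval f F ∧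
      MeromorphicOn G H ∧ (∀ z ∈ H, G ^ n =ᶠ[𝓝[≠] z] F ∘ ofComplex) ∧
      ∀ δ : deltaGrp q M, ∀ z ∈ H, G ∘ act (δ : SL(2, ℤ)) =ᶠ[𝓝[≠] z]
        fun w => ZMod.stdAddChar (ψ (Additive.ofMul δ)) * G w

variable {n : ℕ} [NeZero n]

theorem tendsto_div_nhdsNE (z : ℂ) :
    Tendsto (fun w : ℂ => w / q) (𝓝[≠] z) (𝓝[≠] (z / q)) :=
  tendsto_nhdsWithin_of_tendsto_nhds_of_eventually_within _
    ((continuous_id.div_const _).continuousAt.tendsto.mono_left nhdsWithin_le_nhds)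
    (eventually_nhdsWithin_of_forall fun w hw h => hw (by
      have hq : (q : ℂ) ≠ 0 := Nat.cast_ne_zero.2 (NeZero.ne q)
      exact (div_left_inj' hq).1 h))

theorem div_mem_H {z : ℂ} (hz : z ∈ H) : z / q ∈ H := by
  show 0 < (z / (q : ℂ)).im
  rw [Complex.div_natCast_im]
  exact div_pos hz (Nat.cast_pos.2 (NeZero.pos q))

theorem qExpand_one_eq (x : LaurentSeries ℂ) : qExpand ℂ 1 x = x := by
  ext m
  simpa using qExpand_coeff_mul (R := ℂ) 1 x m

/-- The function of a pulled back element. -/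
theorem isEval_levelIncl (f : modularFunctionFieldBar (q * M * q)) :
    IsEval (levelIncl q M f)
      fun τ => ModFun.toFun (ModFun.barToC (q * M * q) qbarToC f) (ModFun.triPoint 1 0 q τ) := by
  set g := ModFun.barToC (q * M * q) qbarToC f with hg
  refine ⟨fun z hz => ?_, ((ModFun.hasQExp_toFun g).comp_triPoint 1 0 q).of_eq ?_⟩
  · have h1 : MeromorphicAt (ModFun.toFun g ∘ ofComplex) (z / q) :=
      (ModFun.isModularFun_toFun g).mero _ (div_mem_H hz)
    refine (h1.comp_analyticAt (g := fun w : ℂ => w / q) (by fun_prop)).congr ?_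
    filter_upwards [nhdsWithin_le_nhds (Multiplier.isOpen_H.mem_nhds hz)] with w hw
    have hw' : 0 < w.im := hw
    simp only [Function.comp_apply]
    congr 1
    refine UpperHalfPlane.ext ?_
    rw [ofComplex_apply_of_im_pos (div_mem_H hw), ofComplex_apply_of_im_pos hw',
      ModFun.coe_triPoint]
    simp
  · rw [qExpand_one_eq, pow_zero, hg, coe_levelIncl]
    ext m
    simp [ModFun.barToC, ModFun.twist_coeff]

/-- The character of a pulled back class. -/
theorem isXChar_pullLevel (hqM : ¬ q ∣ M) {x : JZero (q * M * q)}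
    {φ : Additive (Gamma0 (q * M * q)) →+ ZMod n} (h : IsTorsionChar n x φ) :
    IsXChar n (pullLevel hqM x) (φ.comp (MonoidHom.toAdditive (down q M hqM))) := by
  haveI := isFunctionFieldOne_xField (q := q) hqM
  obtain ⟨D, f, g, rfl, hf, hD, hg, he⟩ := h
  refine ⟨degZeroPull (levelIncl q M) D, levelIncl q M f,
    fun τ => ModFun.toFun (ModFun.barToC (q * M * q) qbarToC f) (ModFun.triPoint 1 0 q τ),
    fun w => g (w / q), (picPull_mk (levelIncl q M) D).symm, (map_ne_zero _).2 hf, fun v => ?_,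
    isEval_levelIncl f, fun z hz => ?_, fun z hz => ?_, fun δ z hz => ?_⟩
  · rw [coe_degZeroPull, Divisor.pullbackAlong_apply,
      Place.ord_restrictAlong (levelIncl q M) (Curve.isIntegral_toRingHom _), ← hD]
    ring
  · exact ((hg.meromorphicNFOn (div_mem_H hz)).meromorphicAt).comp_analyticAt
      (g := fun w : ℂ => w / q) (by fun_prop)
  · filter_upwards [(tendsto_div_nhdsNE (q := q) z).eventually (hg.pow_eq _ (div_mem_H (q := q) hz)),
      nhdsWithin_le_nhds (Multiplier.isOpen_H.mem_nhds hz)] with w h1 hw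
    have hw' : 0 < w.im := hw
    simp only [Pi.pow_apply] at h1 ⊢
    rw [h1, evBar, Function.comp_apply, Function.comp_apply]
    congr 1
    refine UpperHalfPlane.ext ?_
    rw [ofComplex_apply_of_im_pos (div_mem_H hw), ofComplex_apply_of_im_pos hw',
      ModFun.coe_triPoint]
    simp
  · filter_upwards [nhdsWithin_le_nhds (Multiplier.isOpen_H.mem_nhds hz)] with w hw
    show g (act (δ : SL(2, ℤ)) w / q) = _
    rw [← act_downSL δ]
    exact he (down q M hqM δ) _ (div_mem_H hw)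

theorem comp_smul_eventuallyEq (F : ℍ → ℂ) (γ : SL(2, ℤ)) {z : ℂ} (hz : z ∈ H) :
    (fun τ => F (γ • τ)) ∘ ofComplex =ᶠ[𝓝[≠] z] (F ∘ ofComplex) ∘ act γ := by
  filter_upwards [nhdsWithin_le_nhds (Multiplier.isOpen_H.mem_nhds hz)] with w hw
  have hw' : 0 < w.im := hw
  simp only [Function.comp_apply]
  congr 1
  rw [ofComplex_apply_of_im_pos hw', ofComplex_apply_of_im_pos (Multiplier.act_mem hw)]
  exact UpperHalfPlane.ext (Multiplier.coe_smul_eq_act γ ⟨w, hw'⟩)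

/-- The character of a translated class. -/
theorem IsXChar.translate (hqM : ¬ q ∣ M) {y : Pic0 Qb (XField q M)}
    {ψ : Additive (deltaGrp q M) →+ ZMod n} (h : IsXChar n y ψ) {g : SL(2, ZMod q)} {γ : Gamma0 M}
    (hγ : red (q := q) (γ : SL(2, ℤ)) = twist (embUnit q) g) :
    IsXChar n (SemilinearAut.ofAlgAut (autHom hqM g) • y)
      (ψ.comp (MonoidHom.toAdditive (conjDelta γ))) := by
  obtain ⟨D, f, F, G, rfl, hf, hD, hF, hG, hpow, he⟩ := h
  obtain ⟨F', hF'⟩ := (exists_isEval hqM (autHom hqM g f)).imp fun _ hE => hE.1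
  have hEq := hF.autHom_smul hqM hγ hF'
  refine ⟨SemilinearAut.degZeroSMulHom (SemilinearAut.ofAlgAut (autHom hqM g)) D,
    autHom hqM g f, F', G ∘ act (γ : SL(2, ℤ))⁻¹, (SemilinearAut.pic0_smul_mk _ _).symm,
    (map_ne_zero _).2 hf, fun v => ?_, hF', fun z hz => ?_, fun z hz => ?_, fun δ z hz => ?_⟩
  · rw [SemilinearAut.coe_degZeroSMulHom, SemilinearAut.divisor_smul_apply, hD]
    have h1 := SemilinearAut.ord_smul (SemilinearAut.ofAlgAut (autHom hqM g))
      ((SemilinearAut.ofAlgAut (autHom hqM g))⁻¹ • v) f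
    rw [smul_inv_smul, SemilinearAut.ofAlgAut_smul] at h1
    exact h1.symm
  · exact (hG _ (Multiplier.act_mem hz)).comp_analyticAt (Multiplier.analyticAt_act _ hz)
  · have h1 := hEq ⟨z, hz⟩
    filter_upwards [(Multiplier.tendsto_act_nhdsNE _ hz).eventually (hpow _ (Multiplier.act_mem hz)),
      h1, comp_smul_eventuallyEq F (γ : SL(2, ℤ))⁻¹ hz] with w e1 e2 e3
    simp only [Pi.pow_apply, Function.comp_apply] at e1 e2 e3 ⊢
    rw [e1, e2, e3]
  · have h1 := he (conjDelta γ δ) _ (Multiplier.act_mem (γ := (γ : SL(2, ℤ))⁻¹) hz)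
    filter_upwards [(Multiplier.tendsto_act_nhdsNE _ hz).eventually h1,
      nhdsWithin_le_nhds (Multiplier.isOpen_H.mem_nhds hz)] with w e hw
    simp only [Function.comp_apply] at e ⊢
    rw [show act ((conjDelta γ δ : deltaGrp q M) : SL(2, ℤ)) (act (γ : SL(2, ℤ))⁻¹ w)
        = act (γ : SL(2, ℤ))⁻¹ (act (δ : SL(2, ℤ)) w) by
      rw [← Multiplier.act_mul _ _ hw, ← Multiplier.act_mul _ _ hw]
      simp [conjDelta, mul_assoc]] at e
    exact e

theorem IsXChar.add {y y' : Pic0 Qb (XField q M)} {ψ ψ' : Additive (deltaGrp q M) →+ ZMod n}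
    (h : IsXChar n y ψ) (h' : IsXChar n y' ψ') : IsXChar n (y + y') (ψ + ψ') := by
  obtain ⟨D, f, F, G, rfl, hf, hD, hF, hG, hpow, he⟩ := h
  obtain ⟨D', f', F', G', rfl, hf', hD', hF', hG', hpow', he'⟩ := h'
  refine ⟨D + D', f * f', F * F', G * G', rfl, mul_ne_zero hf hf', fun v => ?_, hF.mul hF',
    hG.mul hG', fun z hz => ?_, fun δ z hz => ?_⟩
  · rw [AddSubgroup.coe_add, Finsupp.add_apply, mul_add, hD, hD', v.ord_mul hf hf']
  · filter_upwards [hpow z hz, hpow' z hz] with w e e'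
    simp only [Pi.pow_apply, Pi.mul_apply, Function.comp_apply] at e e' ⊢
    rw [mul_pow, e, e']
  · filter_upwards [he δ z hz, he' δ z hz] with w e e'
    simp only [Function.comp_apply, Pi.mul_apply] at e e' ⊢
    rw [e, e', AddMonoidHom.add_apply, AddChar.map_add_eq_mul]
    ring

theorem isXChar_zero : IsXChar n (0 : Pic0 Qb (XField q M)) 0 := by
  refine ⟨0, 1, 1, 1, rfl, one_ne_zero, fun v => by simp, IsEval.one,
    fun z _ => MeromorphicAt.const 1 z, fun z _ => ?_, fun δ z _ => ?_⟩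
  · exact Eventually.of_forall fun w => by simp
  · exact Eventually.of_forall fun w => by simp

theorem IsXChar.nsmul {y : Pic0 Qb (XField q M)} {ψ : Additive (deltaGrp q M) →+ ZMod n}
    (h : IsXChar n y ψ) (a : ℕ) : IsXChar n (a • y) (a • ψ) := by
  induction a with
  | zero => simpa using isXChar_zero
  | succ a ih => simpa [succ_nsmul] using ih.add h

theorem isXChar_sum {ι : Type*} (s : Finset ι) {y : ι → Pic0 Qb (XField q M)}
    {ψ : ι → Additive (deltaGrp q M) →+ ZMod n} (h : ∀ i ∈ s, IsXChar n (y i) (ψ i)) :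
    IsXChar n (∑ i ∈ s, y i) (∑ i ∈ s, ψ i) := by
  classical
  induction s using Finset.induction_on with
  | empty => simpa using isXChar_zero
  | insert a s ha ih =>
    rw [Finset.sum_insert ha, Finset.sum_insert ha]
    exact (h a (Finset.mem_insert_self a s)).add (ih fun i hi => h i (Finset.mem_insert_of_mem hi))

/-- A principal class has trivial character. -/
theorem IsXChar.eq_zero (hqM : ¬ q ∣ M) {ψ : Additive (deltaGrp q M) →+ ZMod n}
    (h : IsXChar n (0 : Pic0 Qb (XField q M)) ψ) : ψ = 0 := by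
  haveI := isFunctionFieldOne_xField (q := q) hqM
  obtain ⟨D, f, F, G, hDy, hf, hD, hF, hG, hpow, he⟩ := h
  obtain ⟨u, hu, huD⟩ := AddSubgroup.mem_addSubgroupOf.1 ((QuotientAddGroup.eq_zero_iff D).1 hDy)
  obtain ⟨c, hc⟩ := Curve.Connected.exists_eq_algebraMap (K := Qb) (f := f / u ^ n) fun v => by
    refine v.adicValuation_le_one_iff.2 (Or.inr (le_of_eq ?_))
    rw [div_eq_mul_inv, v.ord_mul hf (inv_ne_zero (pow_ne_zero _ hu)), v.ord_inv, ← zpow_natCast u n, v.ord_zpow,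
      ← hD, huD]
    ring
  have hfc : f = algebraMap Qb (XField q M) c * u ^ n := by
    rw [← hc, div_mul_cancel₀ _ (pow_ne_zero _ hu)]
  obtain ⟨U, hU, -⟩ := exists_isEval hqM u
  have hFU : ModFun.EqPunct F ((fun _ => qbarToC c) * U ^ n) := by
    refine hF.eqPunct ?_
    rw [hfc]
    exact (isEval_algebraMap c).mul (hU.pow n)
  obtain ⟨c', hc'⟩ := IsAlgClosed.exists_pow_nat_eq (qbarToC c) (NeZero.pos n)
  have hUm : MeromorphicOn (fun w => c' * (U ∘ ofComplex) w) H := fun z hz =>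
    (MeromorphicAt.const c' z).mul (hU.1 z hz)
  have hUpow : ∀ z ∈ H, (fun w => c' * (U ∘ ofComplex) w) ^ n =ᶠ[𝓝[≠] z] F ∘ ofComplex :=
    fun z hz => by
      filter_upwards [hFU ⟨z, hz⟩] with w e
      simp only [Function.comp_apply, Pi.pow_apply, Pi.mul_apply] at e ⊢
      rw [e, mul_pow, hc']
  have hne : ∀ z ∈ H, meromorphicOrderAt (F ∘ ofComplex) z ≠ ⊤ := fun z hz =>
    hF.ordH_ne_top hf ⟨z, hz⟩
  obtain ⟨hr₁, heq₁⟩ := Torsion.isRoot_toMeromorphicNFOn (NeZero.pos n) hG hpow hne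
  obtain ⟨hr₂, heq₂⟩ := Torsion.isRoot_toMeromorphicNFOn (NeZero.pos n) hUm hUpow hne
  obtain ⟨ζ, -, hζ⟩ := hr₂.unique (NeZero.pos n) hr₁
  have hGU : ∀ z ∈ H, G =ᶠ[𝓝[≠] z] fun w => ζ * (c' * (U ∘ ofComplex) w) := fun z hz => by
    filter_upwards [heq₁ z hz, heq₂ z hz,
      nhdsWithin_le_nhds (Multiplier.isOpen_H.mem_nhds hz)] with w e1 e2 hw
    rw [← e1, hζ w hw, e2]
  refine AddMonoidHom.ext fun a => ZMod.injective_stdAddChar ?_
  obtain ⟨δ, rfl⟩ := Additive.ofMul.surjective a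
  rw [AddMonoidHom.zero_apply, AddChar.map_zero_eq_one]
  have hinv := hU.invariant hqM δ.2.1 δ.2.2 ⟨Complex.I, Multiplier.I_mem_H⟩
  obtain ⟨w, hw1, hw2, hw3, hw4, hw5, hw0⟩ :=
    ((((Multiplier.tendsto_act_nhdsNE (δ : SL(2, ℤ)) Multiplier.I_mem_H).eventually
        (hGU _ (Multiplier.act_mem Multiplier.I_mem_H))).and
      ((he δ _ Multiplier.I_mem_H).and ((hGU _ Multiplier.I_mem_H).and (hinv.and
        ((comp_smul_eventuallyEq U (δ : SL(2, ℤ)) Multiplier.I_mem_H).and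
        ((hr₁.eventually_good Multiplier.I_mem_H).and (heq₁ _ Multiplier.I_mem_H))))))).exists)
  simp only [Function.comp_apply] at hw1 hw2 hw3 hw4 hw5
  have hG0 : G w ≠ 0 := by rw [← hw0.2]; exact hw0.1.2.1
  refine mul_right_cancel₀ hG0 ?_
  rw [one_mul, ← hw2, hw1, hw3, hw4, hw5]

/-- **Relations between translates give relations between characters.** If a combination of
`SL₂(ℤ/q)`-translates of pulled back `n`-torsion classes vanishes on `X(q; M)`, the same
combination of conjugated characters vanishes on `Γ(q) ∩ Γ₀(M)`. -/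
theorem sum_char_eq_zero_of_sum_pullLevel_eq_zero (hqM : ¬ q ∣ M) {ι : Type*} (s : Finset ι)
    (a : ι → ℕ) (g : ι → SL(2, ZMod q)) (γ : ι → Gamma0 M)
    (hγ : ∀ i ∈ s, red (q := q) (γ i : SL(2, ℤ)) = twist (embUnit q) (g i))
    {x : ι → JZero (q * M * q)} {φ : ι → Additive (Gamma0 (q * M * q)) →+ ZMod n}
    (hφ : ∀ i ∈ s, IsTorsionChar n (x i) (φ i))
    (hsum : ∑ i ∈ s, a i • SemilinearAut.ofAlgAut (autHom hqM (g i)) • pullLevel hqM (x i) = 0)
    (δ : deltaGrp q M) :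
    ∑ i ∈ s, a i • φ i (Additive.ofMul (down q M hqM (conjDelta (γ i) δ))) = 0 := by
  have h := isXChar_sum s fun i hi =>
    (((isXChar_pullLevel hqM (hφ i hi)).translate hqM (hγ i hi))).nsmul (a i)
  rw [hsum] at h
  have h0 := DFunLike.congr_fun (h.eq_zero hqM) (Additive.ofMul δ)
  simpa using h0

end Cuspidal

end Fermat.Agent.Carayol

end
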