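/-
The field of functions on `X(q; M)` fixed by the upper unipotent group, the automorphisms induced on
it by the torus and by Galois, and the descent of classes fixed by the unipotent group up to `q`.
-/
import Fermat.Agent.Carayol.CuspidalVanish
import Fermat.Agent.Curve.BasicExtension
import Mathlib.FieldTheory.Fixed

set_option autoImplicit false
set_option linter.style.haveILetI false

noncomputable section

open scoped MatrixGroups

namespace Fermat.Agent.Carayol.LTwoComp

open AlgebraicCurve ModularCurve Cuspidal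

variable {q : ℕ} [Fact q.Prime] {M : ℕ} [NeZero M] (hqM : ¬ q ∣ M)

theorem uni_add' (α β : ZMod q) : (uni (α + β) : SL(2, ZMod q)) = uni α * uni β := by
  ext i j
  fin_cases i <;> fin_cases j <;> simp [Matrix.mul_apply, Fin.sum_univ_two, add_comm]

/-- The unipotent group acting on `X(q; M)`. -/
def unipHom : Multiplicative (ZMod q) →* (XField q M ≃ₐ[Qb] XField q M) where
  toFun x := autHom hqM (uni x.toAdd)
  map_one' := by rw [toAdd_one, uni_zero, map_one]
  map_mul' x y := by rw [toAdd_mul, uni_add', map_mul]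

/-- The functions fixed by the unipotent group. -/
def unipFix : IntermediateField Qb (XField q M) :=
  IntermediateField.fixedField (unipHom hqM).range

theorem mem_unipFix {f : XField q M} :
    f ∈ unipFix hqM ↔ ∀ β : ZMod q, autHom hqM (uni β) f = f := by
  rw [unipFix, IntermediateField.mem_fixedField_iff]
  exact ⟨fun h β => h _ ⟨Multiplicative.ofAdd β, rfl⟩, fun h g hg => by
    obtain ⟨x, rfl⟩ := hg
    exact h x.toAdd⟩

theorem finite_unipFix : Module.Finite (unipFix hqM) (XField q M) := by
  haveI : Finite (unipHom hqM).range := Set.finite_range (unipHom hqM) |>.to_subtype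
  exact inferInstanceAs (Module.Finite (FixedPoints.subfield (unipHom hqM).range (XField q M)) _)

theorem isFunctionFieldOne_unipFix : Curve.IsFunctionFieldOne Qb (unipFix hqM) := by
  haveI := isFunctionFieldOne_xField (q := q) hqM
  haveI := finite_unipFix hqM
  exact Curve.IsFunctionFieldOne.of_finite_subextension (K := Qb) (F := unipFix hqM)
    (F' := XField q M)

/-- An automorphism respecting the fixed field, restricted to it. -/
def unipRes (g : SemilinearAut Qb (XField q M))
    (hg : ∀ f, f ∈ unipFix hqM ↔ g • f ∈ unipFix hqM) : SemilinearAut Qb (unipFix hqM) :=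
  ⟨({ toFun := fun f => ⟨g • (f : XField q M), (hg f).1 f.2⟩
      invFun := fun f => ⟨g⁻¹ • (f : XField q M), (hg _).2 (by rw [smul_inv_smul]; exact f.2)⟩
      left_inv := fun f => Subtype.ext (inv_smul_smul g (f : XField q M))
      right_inv := fun f => Subtype.ext (smul_inv_smul g (f : XField q M))
      map_mul' := fun f f' => Subtype.ext (smul_mul' g (f : XField q M) f')
      map_add' := fun f f' => Subtype.ext (smul_add g (f : XField q M) f') },
    SemilinearAut.baseAut g),
    fun a => Subtype.ext (SemilinearAut.smul_algebraMap g a)⟩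

theorem coe_unipRes_smul (g : SemilinearAut Qb (XField q M))
    (hg : ∀ f, f ∈ unipFix hqM ↔ g • f ∈ unipFix hqM) (f : unipFix hqM) :
    ((unipRes hqM g hg • f : unipFix hqM) : XField q M) = g • (f : XField q M) := rfl

theorem tor_smul_mem_iff (a : (ZMod q)ˣ) (f : XField q M) :
    f ∈ unipFix hqM ↔ SemilinearAut.ofAlgAut (autHom hqM (tor a)) • f ∈ unipFix hqM := by
  have hc : ∀ β : ZMod q,
      autHom hqM (uni ((a : ZMod q) * a * β)) (autHom hqM (tor a) f) =
        autHom hqM (tor a) (autHom hqM (uni β) f) := fun β => by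
    rw [← AlgEquiv.mul_apply, ← map_mul, ← tor_mul_uni, map_mul, AlgEquiv.mul_apply]
  simp only [SemilinearAut.ofAlgAut_smul, mem_unipFix]
  refine ⟨fun h β => ?_, fun h β => (autHom hqM (tor a)).injective ?_⟩
  · have h' := hc (((a : ZMod q) * a)⁻¹ * β)
    rwa [mul_inv_cancel_left₀ (mul_ne_zero a.ne_zero a.ne_zero), h] at h'
  · rw [← hc, h]

theorem galAct_smul_mem_iff (σ : Qb ≃ₐ[ℚ] Qb) (c : (ZMod q)ˣ)
    (hc : σ (zetaQ q : Qb) = (zetaQ q : Qb) ^ (c : ZMod q).val) (f : XField q M) :
    f ∈ unipFix hqM ↔ galAct q M σ • f ∈ unipFix hqM := by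
  have e : ∀ β : ZMod q, galAct q M σ • autHom hqM (uni β) f =
      autHom hqM (uni ((c : ZMod q) * β)) (galAct q M σ • f) := fun β => by
    rw [← twist_uni]
    exact galRingAut_autHom hqM σ c hc (uni β) f
  simp only [mem_unipFix]
  refine ⟨fun h β => ?_, fun h β => ?_⟩
  · have h' := e ((c : ZMod q)⁻¹ * β)
    rw [h, mul_inv_cancel_left₀ c.ne_zero] at h'
    exact h'.symm
  · rw [← smul_left_cancel_iff (galAct q M σ), e, h]

/-- The torus on the fixed field. -/
def unipTor (a : (ZMod q)ˣ) : SemilinearAut Qb (unipFix hqM) :=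
  unipRes hqM _ (tor_smul_mem_iff hqM a)

/-- Galois on the fixed field. -/
def unipGal (σ : Qb ≃ₐ[ℚ] Qb) (c : (ZMod q)ˣ)
    (hc : σ (zetaQ q : Qb) = (zetaQ q : Qb) ^ (c : ZMod q).val) : SemilinearAut Qb (unipFix hqM) :=
  unipRes hqM _ (galAct_smul_mem_iff hqM σ c hc)

set_option synthInstance.maxHeartbeats 80000 in
theorem nsmul_eq_picPull_picPush [Curve.IsFunctionFieldOne Qb (unipFix hqM)]
    [Curve.IsFunctionFieldOne Qb (XField q M)] {y : Pic0 Qb (XField q M)}
    (hU : letI := picAction (q := q) hqM; ∀ β : ZMod q, uni β • y = y) :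
    ∃ k : ℕ, q • y = k • picPull (unipFix hqM).val (picPush (unipFix hqM).val y) := by
  refine ⟨Nat.card (unipHom hqM).ker, ?_⟩
  have h := sum_smul_pic (unipFix hqM).val (unipHom hqM) (fun f =>
    ⟨fun h => ⟨⟨f, (mem_unipFix hqM).2 fun β => h (Multiplicative.ofAdd β)⟩, rfl⟩,
      by rintro ⟨g, rfl⟩ x; exact (mem_unipFix hqM).1 g.2 x.toAdd⟩) y
  rw [← h, Finset.sum_congr rfl fun x _ => hU x.toAdd, Finset.sum_const, Finset.card_univ,
    Fintype.card_multiplicative, ZMod.card]

theorem nsmul_rel {G : Type*} [AddCommGroup G] (f g h : G →+ G) {m k : ℕ} {y P : G}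
    (hk : m • y = k • P) (H : h (g (f (f P - P)) - (f P - P)) = g (f (f P - P)) - (f P - P)) :
    m • h (g (f (f y - y)) - (f y - y)) = m • (g (f (f y - y)) - (f y - y)) := by
  have e : ∀ (j : ℕ) (z : G), j • (g (f (f z - z)) - (f z - z))
      = g (f (f (j • z) - j • z)) - (f (j • z) - j • z) := fun j z => by
    simp only [nsmul_sub, map_nsmul, map_sub]
  rw [← map_nsmul, e, hk, ← e, map_nsmul, H]

/-- The relation descends along an intertwining extension. -/
theorem nsmul_rel_descend {K F F' : Type*} [Field K] [Field F] [Field F'] [Algebra K F]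
    [Algebra K F'] [IsAlgClosed K] [PerfectField K] [Curve.IsFunctionFieldOne K F]
    [Curve.IsFunctionFieldOne K F'] (φ : F →ₐ[K] F') {S T U : SemilinearAut K F}
    {S' T' U' : SemilinearAut K F'} (hS : SemilinearAut.IntertwinesAlong φ.toRingHom S S')
    (hT : SemilinearAut.IntertwinesAlong φ.toRingHom T T')
    (hU : SemilinearAut.IntertwinesAlong φ.toRingHom U U') {m k : ℕ} {y : Pic0 K F'}
    (hk : m • y = k • picPull φ (picPush φ y))
    (H : U • (T • S • (S • picPush φ y - picPush φ y) - (S • picPush φ y - picPush φ y)) =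
      T • S • (S • picPush φ y - picPush φ y) - (S • picPush φ y - picPush φ y)) :
    m • U' • (T' • S' • (S' • y - y) - (S' • y - y)) =
      m • (T' • S' • (S' • y - y) - (S' • y - y)) := by
  have h := congrArg (picPull φ) H
  simp only [picPull_smul φ hU, picPull_smul φ hT, picPull_smul φ hS, map_sub] at h
  exact nsmul_rel (DistribSMul.toAddMonoidHom _ S') (DistribSMul.toAddMonoidHom _ T')
    (DistribSMul.toAddMonoidHom _ U') hk h

set_option maxHeartbeats 800000 in
set_option synthInstance.maxHeartbeats 80000 in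
/-- The relation descends to the fixed field. -/
theorem nsmul_tor_smul_eq_of_unipFix [Curve.IsFunctionFieldOne Qb (unipFix hqM)] {σ : Qb ≃ₐ[ℚ] Qb}
    (c : (ZMod q)ˣ) (hc : σ (zetaQ q : Qb) = (zetaQ q : Qb) ^ (c : ZMod q).val) {n : ℕ}
    (a : (ZMod q)ˣ)
    (H : ∀ w : Pic0 Qb (unipFix hqM), n • w = 0 →
      unipTor hqM a • (unipTor hqM c⁻¹ • unipGal hqM σ c hc • (unipGal hqM σ c hc • w - w) -
        (unipGal hqM σ c hc • w - w)) =
      unipTor hqM c⁻¹ • unipGal hqM σ c hc • (unipGal hqM σ c hc • w - w) -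
        (unipGal hqM σ c hc • w - w))
    (y : Pic0 Qb (XField q M)) (hy : n • y = 0)
    (hU : letI := picAction (q := q) hqM; ∀ β : ZMod q, uni β • y = y) :
    letI := picAction (q := q) hqM
    q • tor a • (tor c⁻¹ • galAct q M σ • (galAct q M σ • y - y) - (galAct q M σ • y - y)) =
      q • (tor c⁻¹ • galAct q M σ • (galAct q M σ • y - y) - (galAct q M σ • y - y)) := by
  letI := picAction (q := q) (M := M) hqM
  haveI := isFunctionFieldOne_xField (q := q) hqM
  obtain ⟨k, hk⟩ := nsmul_eq_picPull_picPush hqM hU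
  exact nsmul_rel_descend (unipFix hqM).val (fun _ => rfl) (fun _ => rfl) (fun _ => rfl) hk
    (H _ (by rw [← map_nsmul, hy, map_zero]))

end Fermat.Agent.Carayol.LTwoComp
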