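/-
The Gauss ring under substitutions of the variable and automorphisms of the coefficients, and
primitive multiples.
-/
import Fermat.Agent.Carayol.ValuationsAction
import Fermat.Prelude.Def_FLTPrelim_Ramification

set_option autoImplicit false
set_option linter.style.haveILetI false

noncomputable section

namespace Fermat.Agent.Carayol

open ModularCurve IsLocalRing

section Gauss

variable {K : Type*} [Field K] {A : ValuationSubring K} {k : Type*} [Field k] {π : A →+* k}

theorem exists_smul_red_ne_zero [IsLocalHom π] {f : LaurentSeries K} (hf : f ∈ finFrac K)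
    (hf0 : f ≠ 0) :
    ∃ (c : K) (h : algebraMap K (LaurentSeries K) c * f ∈ gaussSubring A π),
      gaussRed A π ⟨_, h⟩ ≠ 0 := by
  obtain ⟨a, ha, b, hb, hb0, e⟩ := exists_eq_div_of_mem_finFrac hf
  have ha0 : a ≠ 0 := e ▸ mul_ne_zero hf0 hb0
  obtain ⟨c, hc, y, hy, hy0⟩ := exists_primitive A π ha ha0
  obtain ⟨d, hd, z, hz, hz0⟩ := exists_primitive A π hb hb0
  have key : algebraMap K (LaurentSeries K) (c / d) * f * coeffMap A.subtype z =
      coeffMap A.subtype y := by
    rw [hy, hz, algebraMap_laurentSeries_eq_single, mul_mul_mul_comm,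
      HahnSeries.single_mul_single, add_zero, div_mul_cancel₀ c hd, e]
  have hmem : algebraMap K (LaurentSeries K) (c / d) * f ∈ gaussSubring A π :=
    show IsGaussIntegral A π _ from ⟨y, z, hz0, key⟩
  have e2 := gaussRedFun_eq (⟨_, hmem⟩ : gaussSubring A π) hz0 key
  refine ⟨c / d, hmem, ?_⟩
  change gaussRedFun A π ⟨_, hmem⟩ ≠ 0
  rw [e2]
  exact div_ne_zero hy0 hz0

theorem isUnit_of_gaussRed_ne_zero {R : Subfield (LaurentSeries K)} {f : gaussSubring A π}
    (hfR : (f : LaurentSeries K) ∈ R) (hf : gaussRed A π f ≠ 0) :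
    ∃ g : gaussSubring A π, (g : LaurentSeries K) ∈ R ∧ f * g = 1 := by
  refine ⟨⟨_, inv_mem_gaussSubring_of_red_ne_zero hf⟩, R.inv_mem hfR, Subtype.ext ?_⟩
  exact mul_inv_cancel₀ fun h => hf (by
    rw [show f = 0 from Subtype.ext h, map_zero])

theorem gaussRed_algebraMap (a : A) :
    ∃ h : algebraMap K (LaurentSeries K) a ∈ gaussSubring A π,
      gaussRed A π ⟨_, h⟩ = algebraMap k (LaurentSeries k) (π a) := by
  have key : algebraMap K (LaurentSeries K) (a : K) =
      coeffMap A.subtype (HahnSeries.single (0 : ℤ) a) := by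
    rw [coeffMap_single, algebraMap_laurentSeries_eq_single]; rfl
  refine ⟨key ▸ coeffMap_mem_gaussSubring _, ?_⟩
  rw [show (⟨_, key ▸ coeffMap_mem_gaussSubring _⟩ : gaussSubring A π) =
    ⟨_, coeffMap_mem_gaussSubring (HahnSeries.single (0 : ℤ) a)⟩ from Subtype.ext key,
    gaussRed_coeffMap, coeffMap_single, algebraMap_laurentSeries_eq_single]

theorem coeffMap_seriesTwist {R S : Type*} [CommRing R] [CommRing S] (f : R →+* S) (u : Rˣ)
    (x : LaurentSeries R) :
    coeffMap f (seriesTwist u x) = seriesTwist (Units.map f.toMonoidHom u) (coeffMap f x) := by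
  ext n
  rw [coeffMap_coeff, seriesTwist_coeff, seriesTwist_coeff, map_mul, coeffMap_coeff, ← map_zpow,
    Units.coe_map]
  rfl

theorem seriesTwist_seriesTwist {R : Type*} [CommRing R] (u v : Rˣ) (x : LaurentSeries R) :
    seriesTwist u (seriesTwist v x) = seriesTwist (u * v) x := by
  ext n
  simp only [seriesTwist_coeff, mul_zpow, Units.val_mul, mul_assoc]

/-- Twisting by a unit congruent to one preserves the Gauss ring and the reduction. -/
theorem gaussRed_seriesTwist {u : Kˣ} {v : Aˣ} (huv : ((v : A) : K) = u) (hv : π v = 1)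
    {f : LaurentSeries K} (hf : f ∈ gaussSubring A π) :
    ∃ h : seriesTwist u f ∈ gaussSubring A π, gaussRed A π ⟨_, h⟩ = gaussRed A π ⟨f, hf⟩ := by
  obtain ⟨y₁, y₂, h2, e⟩ := hf
  have hmap : Units.map A.subtype.toMonoidHom v = u := Units.ext huv
  have hone : Units.map π.toMonoidHom v = 1 := Units.ext hv
  have hr : ∀ y : LaurentSeries A, coeffMap π (seriesTwist v y) = coeffMap π y := fun y => by
    rw [coeffMap_seriesTwist, hone, seriesTwist_one]
  have e' : seriesTwist u f * coeffMap A.subtype (seriesTwist v y₂) =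
      coeffMap A.subtype (seriesTwist v y₁) := by
    rw [coeffMap_seriesTwist, coeffMap_seriesTwist, hmap, ← map_mul, e]
  have h2' : coeffMap π (seriesTwist v y₂) ≠ 0 := by rwa [hr]
  have hmem : seriesTwist u f ∈ gaussSubring A π :=
    show IsGaussIntegral A π _ from ⟨_, _, h2', e'⟩
  have hf : f ∈ gaussSubring A π := show IsGaussIntegral A π _ from ⟨y₁, y₂, h2, e⟩
  have e1 := gaussRedFun_eq (⟨_, hmem⟩ : gaussSubring A π) h2' e'
  have e2 := gaussRedFun_eq (⟨_, hf⟩ : gaussSubring A π) h2 e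
  rw [hr, hr] at e1
  refine ⟨hmem, ?_⟩
  exact e1.trans e2.symm

/-- An automorphism of the coefficients which is trivial on residues preserves the Gauss ring and
the reduction. -/
theorem gaussRed_coeffMap_aut {σ : K →+* K} {τ : A →+* A} (hστ : ∀ a : A, σ a = (τ a : K))
    (hτ : ∀ a, π (τ a) = π a) {f : LaurentSeries K} (hf : f ∈ gaussSubring A π) :
    ∃ h : coeffMap σ f ∈ gaussSubring A π, gaussRed A π ⟨_, h⟩ = gaussRed A π ⟨f, hf⟩ := by
  obtain ⟨y₁, y₂, h2, e⟩ := hf
  have hs : ∀ y : LaurentSeries A,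
      coeffMap σ (coeffMap A.subtype y) = coeffMap A.subtype (coeffMap τ y) := fun y => by
    ext n
    exact hστ (y.coeff n)
  have hr : ∀ y : LaurentSeries A, coeffMap π (coeffMap τ y) = coeffMap π y := fun y => by
    ext n
    exact hτ (y.coeff n)
  have e' : coeffMap σ f * coeffMap A.subtype (coeffMap τ y₂) =
      coeffMap A.subtype (coeffMap τ y₁) := by
    rw [← hs, ← hs, ← map_mul, e]
  have h2' : coeffMap π (coeffMap τ y₂) ≠ 0 := by rwa [hr]
  have hmem : coeffMap σ f ∈ gaussSubring A π :=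
    show IsGaussIntegral A π _ from ⟨_, _, h2', e'⟩
  have hf : f ∈ gaussSubring A π := show IsGaussIntegral A π _ from ⟨y₁, y₂, h2, e⟩
  have e1 := gaussRedFun_eq (⟨_, hmem⟩ : gaussSubring A π) h2' e'
  have e2 := gaussRedFun_eq (⟨_, hf⟩ : gaussSubring A π) h2 e
  rw [hr, hr] at e1
  refine ⟨hmem, ?_⟩
  exact e1.trans e2.symm

end Gauss

section Field

open IntermediateField CongruenceSubgroup
open scoped MatrixGroups

variable {q : ℕ} [Fact q.Prime] {M : ℕ} [NeZero M]

theorem zetaQ_pow : zetaQ q ^ q = 1 :=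
  Units.ext (by simpa using (isPrimitiveRoot_zetaQ q).pow_eq_one)

theorem zetaQ_pow_val_add (c b : ZMod q) :
    zetaQ q ^ c.val * zetaQ q ^ b.val = zetaQ q ^ (c + b).val := by
  rw [← pow_add, ZMod.val_add]
  exact pow_eq_pow_mod _ zetaQ_pow

theorem isFinCoeff_qExpand_jqModC (d : ℕ) [NeZero d] :
    IsFinCoeff (qExpand Qb d (jqModC Qb)) := by
  refine ⟨Submodule.span ℤ {1}, Submodule.fg_span_singleton 1, fun n => ?_⟩
  by_cases h : (d : ℤ) ∣ n
  · obtain ⟨m, rfl⟩ := h
    rw [qExpand_coeff_mul, coeff_jqModC_eq_intCast, ← zsmul_one]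
    exact Submodule.smul_mem _ _ (Submodule.subset_span rfl)
  · rw [qExpand_coeff_of_not_dvd d _ h]
    exact Submodule.zero_mem _

theorem isFinCoeff_seriesTwist {u : Qbˣ} {m : ℕ} (hm : 0 < m) (hu : u ^ m = 1)
    {x : LaurentSeries Qb} (hx : IsFinCoeff x) : IsFinCoeff (seriesTwist u x) := by
  classical
  obtain ⟨S, hS, hx⟩ := hx
  refine ⟨Submodule.span ℤ
    (((Finset.range m).image fun i => ((u ^ i : Qbˣ) : Qb) : Finset Qb) : Set Qb) * S,
    (Submodule.fg_span (Finset.finite_toSet _)).mul hS, fun n => ?_⟩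
  rw [seriesTwist_coeff]
  refine Submodule.mul_mem_mul (Submodule.subset_span ?_) (hx n)
  rw [Finset.mem_coe, Finset.mem_image]
  refine ⟨(n % (m : ℤ)).toNat, Finset.mem_range.2 ?_, ?_⟩
  · have h1 := Int.emod_nonneg n (show (m : ℤ) ≠ 0 by omega)
    have h2 := Int.emod_lt_of_pos n (show (0 : ℤ) < m by omega)
    omega
  · congr 1
    rw [← zpow_natCast, Int.toNat_of_nonneg (Int.emod_nonneg n (show (m : ℤ) ≠ 0 by omega))]
    conv_rhs => rw [← Int.emod_add_mul_ediv n m, zpow_add, zpow_mul, zpow_natCast, hu,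
      one_zpow, mul_one]

omit [NeZero M] in
theorem genSet_subset_finCoeff : genSet q M ⊆ (finCoeff Qb : Set (LaurentSeries Qb)) := by
  rintro x ⟨d, hne, hd, rfl | ⟨P, rfl⟩⟩
  · exact isFinCoeff_qExpand_jqModC _
  · rcases P with _ | b
    · exact isFinCoeff_qExpand_jqModC _
    · refine isFinCoeff_seriesTwist (m := q) (NeZero.pos q) ?_ (isFinCoeff_qExpand_jqModC _)
      rw [← pow_mul, mul_comm, pow_mul, zetaQ_pow, one_pow]

theorem xField_le_finFrac' : XField q M ≤ finFrac Qb :=
  IntermediateField.adjoin.mono _ _ _ genSet_subset_finCoeff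

theorem zetaQ_residue_one {A : ValuationSubring Qb} (hA : A.LiesOverPrime q) :
    ∃ v : Aˣ, ((v : A) : Qb) = zetaQ q ∧ residue A v = 1 := by
  have hmem : ∀ u : Qbˣ, u ^ q = 1 → (u : Qb) ∈ A := fun u hu => by
    rcases A.mem_or_inv_mem (u : Qb) with h | h
    · exact h
    · have h' := pow_mem h (q - 1)
      have : ((u : Qb)⁻¹) ^ (q - 1) = (u : Qb) := by
        rw [inv_pow]
        refine inv_eq_of_mul_eq_one_right ?_
        rw [← pow_succ, Nat.sub_add_cancel (Fact.out : q.Prime).one_le,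
          ← Units.val_pow_eq_pow_val, hu, Units.val_one]
      rwa [this] at h'
  let v : Aˣ :=
    { val := ⟨zetaQ q, hmem _ zetaQ_pow⟩
      inv := ⟨((zetaQ q)⁻¹ : Qbˣ), hmem _ (by rw [inv_pow, zetaQ_pow, inv_one])⟩
      val_inv := Subtype.ext (zetaQ q).mul_inv
      inv_val := Subtype.ext (zetaQ q).inv_mul }
  refine ⟨v, rfl, ?_⟩
  haveI : CharP (ResidueField A) q := by
    refine CharP.charP_iff_prime_eq_zero (Fact.out : q.Prime) |>.2 ?_
    have hq : (q : A) ∈ maximalIdeal A := by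
      rw [← ValuationSubring.coe_mem_nonunits_iff]
      exact_mod_cast hA
    rw [← map_natCast (residue A), residue_eq_zero_iff]
    exact hq
  have h1 : residue A (v : A) ^ q = 1 := by
    rw [← map_pow, ← map_one (residue A)]
    congr 1
    exact Subtype.ext (isPrimitiveRoot_zetaQ q).pow_eq_one
  exact frobenius_inj (ResidueField A) q (by rw [frobenius_def, frobenius_def, h1, one_pow])

/-- An upper unipotent is the substitution `t ↦ ζ t`. -/
theorem coe_sigma_unipotent (hqM : ¬ q ∣ M) (u : Gamma0 M)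
    (h00 : (((u : SL(2, ℤ)) 0 0 : ℤ) : ZMod q) = 1)
    (h10 : (((u : SL(2, ℤ)) 1 0 : ℤ) : ZMod q) = 0) :
    ∃ c : ZMod q, ∀ x : XField q M, ((sigma hqM u x : XField q M) : LaurentSeries Qb) =
      seriesTwist (zetaQ q ^ c.val) (x : LaurentSeries Qb) := by
  have h11 : (((u : SL(2, ℤ)) 1 1 : ℤ) : ZMod q) = 1 := by
    have hd := congrArg (fun z : ℤ => (z : ZMod q)) (u : SL(2, ℤ)).det_coe
    simp only [Matrix.det_fin_two, Int.cast_sub, Int.cast_mul, Int.cast_one, h00, h10, one_mul,
      mul_zero, sub_zero] at hd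
    exact hd
  set c : ZMod q := -(((u : SL(2, ℤ)) 0 1 : ℤ) : ZMod q) with hc
  have hinv : ∀ i j, ((((u : SL(2, ℤ))⁻¹ : SL(2, ℤ)) i j : ℤ) : ZMod q) =
      (!![1, c; 0, 1] : Matrix (Fin 2) (Fin 2) (ZMod q)) i j := by
    intro i j
    rw [Matrix.SpecialLinearGroup.SL2_inv_expl]
    fin_cases i <;> fin_cases j <;> simp [hc, h00, h10, h11]
  have hsome : ∀ b : ZMod q, lineMul (some b : Line q) (u : SL(2, ℤ))⁻¹ = some (c + b) := fun b => by
    unfold lineMul
    rw [show ((((u : SL(2, ℤ))⁻¹ : SL(2, ℤ)) : Matrix (Fin 2) (Fin 2) ℤ).map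
        (Int.cast : ℤ → ZMod q)) = !![1, c; 0, 1] from Matrix.ext hinv]
    simp [vecLine, lineVec, Matrix.vecMul, dotProduct, Fin.sum_univ_two, add_comm]
  have hnone : lineMul (none : Line q) (u : SL(2, ℤ))⁻¹ = none := by
    unfold lineMul
    rw [show ((((u : SL(2, ℤ))⁻¹ : SL(2, ℤ)) : Matrix (Fin 2) (Fin 2) ℤ).map
        (Int.cast : ℤ → ZMod q)) = !![1, c; 0, 1] from Matrix.ext hinv]
    simp [vecLine, lineVec, Matrix.vecMul, dotProduct, Fin.sum_univ_two, add_comm]
  have hfix : ∀ d : ℕ, ∀ [NeZero d], q ∣ d →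
      seriesTwist (zetaQ q ^ c.val) (qExpand Qb d (jqModC Qb)) = qExpand Qb d (jqModC Qb) := by
    intro d _ hd
    ext n
    rw [seriesTwist_coeff]
    by_cases hn : (d : ℤ) ∣ n
    · obtain ⟨k, hk⟩ := (Int.natCast_dvd_natCast.2 hd).trans hn
      rw [hk, zpow_mul, zpow_natCast, ← pow_mul, mul_comm c.val, pow_mul, zetaQ_pow, one_pow,
        one_zpow, Units.val_one, one_mul]
    · rw [qExpand_coeff_of_not_dvd d _ hn, mul_zero]
  refine ⟨c, fun x => ?_⟩
  let T : LaurentSeries Qb →+* LaurentSeries Qb := seriesTwist (zetaQ q ^ c.val)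
  obtain ⟨x, hx⟩ := x
  induction hx using IntermediateField.adjoin_induction with
  | mem x hx =>
    obtain ⟨d, hne, hd, rfl | ⟨P, rfl⟩⟩ := hx
    · show ((sigma hqM u (baseElt q M hd) : XField q M) : LaurentSeries Qb) = T (baseGen q d)
      rw [sigma_baseElt]
      exact (hfix _ (dvd_mul_left q d)).symm
    · show ((sigma hqM u (genElt q M hd P) : XField q M) : LaurentSeries Qb) = T (gen q d P)
      rw [sigma_genElt]
      rcases P with _ | b
      · rw [hnone]
        exact (hfix _ (dvd_mul_left q _)).symm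
      · rw [hsome]
        show gen q d (some (c + b)) = T (gen q d (some b))
        simp only [T, gen]
        rw [seriesTwist_seriesTwist, zetaQ_pow_val_add]
  | algebraMap a =>
    show ((sigma hqM u (algebraMap Qb (XField q M) a) : XField q M) : LaurentSeries Qb) = _
    rw [AlgEquiv.commutes]
    show algebraMap Qb (LaurentSeries Qb) a = T (algebraMap Qb (LaurentSeries Qb) a)
    rw [algebraMap_laurentSeries_eq_single]
    ext n
    rw [seriesTwist_coeff]
    rcases eq_or_ne n 0 with rfl | h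
    · simp
    · simp [HahnSeries.coeff_single_of_ne h]
  | add x y hx hy h h' =>
    show ((sigma hqM u (⟨x, hx⟩ + ⟨y, hy⟩) : XField q M) : LaurentSeries Qb) = T (x + y)
    rw [map_add, map_add]; exact congrArg₂ (· + ·) h h'
  | inv x hx h =>
    show ((sigma hqM u (⟨x, hx⟩⁻¹) : XField q M) : LaurentSeries Qb) = T x⁻¹
    rw [map_inv₀, map_inv₀]; exact congrArg (·⁻¹) h
  | mul x y hx hy h h' =>
    show ((sigma hqM u (⟨x, hx⟩ * ⟨y, hy⟩) : XField q M) : LaurentSeries Qb) = T (x * y)
    rw [map_mul, map_mul]; exact congrArg₂ (· * ·) h h'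

end Field

end Fermat.Agent.Carayol
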