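/-
The components of the special fibre of `X(q; M)` at a place above `q`: the translates of the
Gauss valuation of the expansion at infinity.
-/
import Fermat.Agent.Carayol.ValuationsSeries
import Fermat.Agent.Curve.BasicModular
import Fermat.Prelude.Def_FLTPrelim_Ramification

set_option autoImplicit false
set_option linter.style.haveILetI false

noncomputable section

namespace Fermat.Agent.Carayol

open ModularCurve IntermediateField AlgebraicCurve CongruenceSubgroup IsLocalRing
open scoped MatrixGroups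

variable {q : ℕ} [Fact q.Prime] {M : ℕ} [NeZero M] (A : ValuationSubring Qb)

theorem xField_le_finFrac : XField q M ≤ finFrac Qb := xField_le_finFrac'

variable (q M) in
/-- The component at infinity: the Gauss valuation of expansions. -/
def infVal : ValuationSubring (XField q M) where
  toSubring := (gaussSubring A (residue A)).comap (XField q M).val.toRingHom
  mem_or_inv_mem' x := mem_or_inv_mem_gaussSubring (xField_le_finFrac x.2)

theorem mem_infVal_iff {x : XField q M} :
    x ∈ infVal q M A ↔ (x : LaurentSeries Qb) ∈ gaussSubring A (residue A) := Iff.rfl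

theorem algebraMap_mem_infVal_iff {a : Qb} :
    algebraMap Qb (XField q M) a ∈ infVal q M A ↔ a ∈ A :=
  algebraMap_mem_gaussSubring_iff

variable (q M) in
/-- The reduction at infinity, with values in Laurent series. -/
def infRed : infVal q M A →+* LaurentSeries (ResidueField A) :=
  (gaussRed A (residue A)).comp
    (((XField q M).val.toRingHom.comp (infVal q M A).subtype).codRestrict _ fun x => x.2)

theorem infRed_eq (x : infVal q M A) {y₁ y₂ : LaurentSeries A}
    (h : coeffMap (residue A) y₂ ≠ 0)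
    (e : ((x : XField q M) : LaurentSeries Qb) * coeffMap A.subtype y₂ = coeffMap A.subtype y₁) :
    infRed q M A x = coeffMap (residue A) y₁ / coeffMap (residue A) y₂ :=
  gaussRedFun_eq _ h e

variable (q M) in
/-- The residual function field, common to all components. -/
def resField : IntermediateField (ResidueField A) (LaurentSeries (ResidueField A)) :=
  IntermediateField.adjoin (ResidueField A) (Set.range (infRed q M A))

/-- Shortcut instance. -/
instance algebraResField : Algebra (ResidueField A) (resField q M A) :=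
  (resField q M A).toSubalgebra.algebra

theorem infRed_mem_resField (x : infVal q M A) : infRed q M A x ∈ resField q M A :=
  subset_adjoin _ _ ⟨x, rfl⟩

theorem exists_mul_eq_one_of_infRed_ne_zero {x : infVal q M A} (h : infRed q M A x ≠ 0) :
    ∃ y, x * y = 1 := by
  obtain ⟨g, hgR, hg⟩ := isUnit_of_gaussRed_ne_zero (R := (XField q M).toSubfield)
    (f := (⟨_, x.2⟩ : gaussSubring A (residue A))) (x : XField q M).2 h
  exact ⟨⟨⟨(g : LaurentSeries Qb), hgR⟩, g.2⟩, Subtype.ext (Subtype.ext (congrArg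
    (fun z : gaussSubring A (residue A) => (z : LaurentSeries Qb)) hg))⟩

theorem exists_infRed_eq (z : resField q M A) : ∃ x, infRed q M A x = z := by
  obtain ⟨z, hz⟩ := z
  show ∃ x, infRed q M A x = z
  induction hz using IntermediateField.adjoin_induction with
  | mem z hz => exact hz
  | algebraMap c =>
    obtain ⟨a, rfl⟩ := IsLocalRing.residue_surjective c
    obtain ⟨h, he⟩ := gaussRed_algebraMap (π := residue A) a
    exact ⟨⟨algebraMap Qb (XField q M) a, h⟩, he⟩
  | add x y _ _ hx hy =>
    obtain ⟨a, rfl⟩ := hx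
    obtain ⟨b, rfl⟩ := hy
    exact ⟨a + b, map_add _ a b⟩
  | inv x _ hx =>
    obtain ⟨a, rfl⟩ := hx
    rcases eq_or_ne (infRed q M A a) 0 with h | h
    · exact ⟨0, by rw [h, inv_zero, map_zero]⟩
    · obtain ⟨b, hb⟩ := exists_mul_eq_one_of_infRed_ne_zero A h
      exact ⟨b, eq_inv_of_mul_eq_one_right (by rw [← map_mul, hb, map_one])⟩
  | mul x y _ _ hx hy =>
    obtain ⟨a, rfl⟩ := hx
    obtain ⟨b, rfl⟩ := hy
    exact ⟨a * b, map_mul _ a b⟩

/-- The component attached to an automorphism: the Gauss valuation of `g f`. -/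
def compVal (g : XField q M ≃ₐ[Qb] XField q M) : ValuationSubring (XField q M) :=
  (infVal q M A).comap (g : XField q M →+* XField q M)

theorem mem_compVal_iff {g : XField q M ≃ₐ[Qb] XField q M} {x : XField q M} :
    x ∈ compVal A g ↔ g x ∈ infVal q M A := Iff.rfl

theorem algebraMap_mem_compVal_iff (g : XField q M ≃ₐ[Qb] XField q M) {a : Qb} :
    algebraMap Qb (XField q M) a ∈ compVal A g ↔ a ∈ A := by
  rw [mem_compVal_iff, g.commutes, algebraMap_mem_infVal_iff]

/-- The reduction on a component. -/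
def compRed (g : XField q M ≃ₐ[Qb] XField q M) : compVal A g →+* resField q M A :=
  ((infRed q M A).comp
    (((g : XField q M →+* XField q M).comp (compVal A g).subtype).codRestrict _ fun x => x.2)
    ).codRestrict _ fun _ => infRed_mem_resField A _

theorem coe_compRed (g : XField q M ≃ₐ[Qb] XField q M) (x : XField q M) (h : x ∈ compVal A g)
    (h' : g x ∈ infVal q M A) :
    (compRed A g ⟨x, h⟩ : LaurentSeries (ResidueField A)) = infRed q M A ⟨g x, h'⟩ :=
  rfl

theorem infRed_congr {x y : XField q M} (e : x = y) (hx : x ∈ infVal q M A)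
    (hy : y ∈ infVal q M A) : infRed q M A ⟨x, hx⟩ = infRed q M A ⟨y, hy⟩ := by
  subst e; rfl

theorem compRed_surjective (g : XField q M ≃ₐ[Qb] XField q M) :
    Function.Surjective (compRed A g) := by
  intro z
  obtain ⟨x, hx⟩ := exists_infRed_eq A z
  have h : g.symm (x : XField q M) ∈ compVal A g := by
    rw [mem_compVal_iff, AlgEquiv.apply_symm_apply]
    exact x.2
  refine ⟨⟨_, h⟩, Subtype.ext ?_⟩
  show infRed q M A ⟨g (g.symm (x : XField q M)), _⟩ = _
  rw [← hx]
  exact congrArg _ (Subtype.ext (g.apply_symm_apply _))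

theorem ker_compRed (g : XField q M ≃ₐ[Qb] XField q M) :
    RingHom.ker (compRed A g) = IsLocalRing.maximalIdeal (compVal A g) := by
  ext x
  rw [RingHom.mem_ker, IsLocalRing.mem_maximalIdeal, mem_nonunits_iff]
  refine ⟨fun h hu => ?_, fun h => ?_⟩
  · have := hu.map (compRed A g)
    rw [h] at this
    exact not_isUnit_zero this
  · by_contra hne
    have hx : infRed q M A ⟨g (x : XField q M), x.2⟩ ≠ 0 := fun h0 => hne (Subtype.ext h0)
    obtain ⟨y, hy⟩ := exists_mul_eq_one_of_infRed_ne_zero A hx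
    have hy' : g.symm (y : XField q M) ∈ compVal A g := by
      rw [mem_compVal_iff, AlgEquiv.apply_symm_apply]
      exact y.2
    refine h ⟨⟨x, ⟨_, hy'⟩, ?_, ?_⟩, rfl⟩ <;>
    · apply Subtype.ext
      apply g.injective
      simp only [MulMemClass.coe_mul, OneMemClass.coe_one, map_mul, map_one,
        AlgEquiv.apply_symm_apply]
      first
        | exact congrArg Subtype.val hy
        | exact (mul_comm _ _).trans (congrArg Subtype.val hy)

theorem compRed_algebraMap (g : XField q M ≃ₐ[Qb] XField q M) (a : A) :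
    compRed A g ⟨algebraMap Qb (XField q M) a, (algebraMap_mem_compVal_iff A g).2 a.2⟩ =
      algebraMap (ResidueField A) (resField q M A) (residue A a) := by
  obtain ⟨h, he⟩ := gaussRed_algebraMap (π := residue A) a
  refine Subtype.ext (Eq.trans ?_ (he.trans (IntermediateField.coe_algebraMap_apply _ _).symm))
  show gaussRed A (residue A) ⟨_, _⟩ = gaussRed A (residue A) ⟨_, _⟩
  congr 1
  exact Subtype.ext (congrArg (fun z : XField q M => (z : LaurentSeries Qb)) (g.commutes (a : Qb)))

theorem exists_scale (g : XField q M ≃ₐ[Qb] XField q M) {f : XField q M} (hf : f ≠ 0) :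
    ∃ c : Qb, ∃ h : algebraMap Qb (XField q M) c * f ∈ compVal A g, compRed A g ⟨_, h⟩ ≠ 0 := by
  have hg : ((g f : XField q M) : LaurentSeries Qb) ≠ 0 := fun h => hf
    ((map_eq_zero_iff g g.injective).1 (Subtype.ext h))
  obtain ⟨c, h, hne⟩ :=
    exists_smul_red_ne_zero (A := A) (π := residue A) (xField_le_finFrac (g f).2) hg
  have e : ((g (algebraMap Qb (XField q M) c * f) : XField q M) : LaurentSeries Qb) =
      algebraMap Qb (LaurentSeries Qb) c * (g f : LaurentSeries Qb) := by
    rw [map_mul, g.commutes]; rfl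
  have hmem : algebraMap Qb (XField q M) c * f ∈ compVal A g := by
    rw [mem_compVal_iff, mem_infVal_iff, e]
    exact h
  refine ⟨c, hmem, fun h0 => hne ?_⟩
  refine Eq.trans ?_ (congrArg (fun z : resField q M A => (z : LaurentSeries (ResidueField A))) h0)
  show _ = gaussRed A (residue A) ⟨_, _⟩
  congr 1
  exact Subtype.ext e.symm

variable (hqM : ¬ q ∣ M) (hA : A.LiesOverPrime q)

theorem exists_infRed_jElt :
    ∃ h : jElt q M ∈ infVal q M A, infRed q M A ⟨_, h⟩ =
      qExpand (ResidueField A) q (jqModC (ResidueField A)) := by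
  have e : ∀ (R : Type) [CommRing R] (f : A →+* R),
      coeffMap f (qExpand A (1 * q) (jqModC A)) = qExpand R q (jqModC R) := fun R _ f => by
    rw [coeffMap_qExpand, coeffMap_jqModC, qExpand_congr (one_mul q)]
  have key : ((jElt q M : XField q M) : LaurentSeries Qb) =
      coeffMap A.subtype (qExpand A (1 * q) (jqModC A)) := by
    rw [e]
    exact qExpand_congr (one_mul q) _
  have h : jElt q M ∈ infVal q M A := by
    rw [mem_infVal_iff, key]
    exact coeffMap_mem_gaussSubring _
  refine ⟨h, ?_⟩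
  rw [← e (ResidueField A) (residue A), ← gaussRed_coeffMap (π := residue A)]
  show gaussRed A (residue A) ⟨_, _⟩ = _
  congr 1
  exact Subtype.ext key

include hqM hA in
theorem jRed_mem : qExpand (ResidueField A) q (jqModC (ResidueField A)) ∈ resField q M A := by
  obtain ⟨h, he⟩ := exists_infRed_jElt (q := q) (M := M) A
  rw [← he]
  exact infRed_mem_resField A _

/-- `j` is integral with the same reduction on every component. -/
theorem exists_compRed_jElt (γ : Gamma0 M) :
    ∃ h : jElt q M ∈ compVal A (sigma hqM γ),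
      (compRed A (sigma hqM γ) ⟨_, h⟩ : LaurentSeries (ResidueField A)) =
        qExpand (ResidueField A) q (jqModC (ResidueField A)) := by
  obtain ⟨h, he⟩ := exists_infRed_jElt (q := q) (M := M) A
  have e : sigma hqM γ (jElt q M) = jElt q M := sigma_baseElt hqM γ (one_dvd M)
  have hmem : jElt q M ∈ compVal A (sigma hqM γ) := by rwa [mem_compVal_iff, e]
  refine ⟨hmem, Eq.trans ?_ he⟩
  show infRed q M A ⟨_, _⟩ = _
  congr 1
  exact Subtype.ext e

/-- The reduction of `j` in the residual field. -/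
def jRed : resField q M A :=
  ⟨qExpand (ResidueField A) q (jqModC (ResidueField A)), jRed_mem A hqM hA⟩

theorem transcendental_jRed : Transcendental (ResidueField A) (jRed A hqM hA) := by
  intro h
  have h' := h.algHom (resField q M A).val
  exact ModFun.transcendental_jqModC (ResidueField A)
    (isAlgebraic_algHom_iff (qExpandAlgHomC (ResidueField A) q) (qExpand_injective q) |>.1 h')

/-- The set of components. -/
def compSet : Set (ValuationSubring (XField q M)) :=
  Set.range fun γ : Gamma0 M => compVal A (sigma hqM γ)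

theorem finite_compSet : (compSet A hqM).Finite := by
  haveI := autGroup_finite (M := M) hqM
  exact (Set.toFinite (autGroup (M := M) hqM : Set (XField q M ≃ₐ[Qb] XField q M))).image
    (fun g => compVal A g) |>.subset (by rintro _ ⟨γ, rfl⟩; exact ⟨_, ⟨γ, rfl⟩, rfl⟩)

include hA in
/-- Upper unipotents fix the component at infinity and act trivially on its residual field. -/
theorem sigma_unipotent (u : Gamma0 M) (h00 : (((u : SL(2, ℤ)) 0 0 : ℤ) : ZMod q) = 1)
    (h10 : (((u : SL(2, ℤ)) 1 0 : ℤ) : ZMod q) = 0) :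
    compVal A (sigma hqM u) = infVal q M A ∧
      ∀ (x : XField q M) (h : x ∈ compVal A (sigma hqM u)) (h' : x ∈ infVal q M A),
        (compRed A (sigma hqM u) ⟨x, h⟩ : LaurentSeries (ResidueField A)) =
          infRed q M A ⟨x, h'⟩ := by
  obtain ⟨c, hc⟩ := coe_sigma_unipotent hqM u h00 h10
  obtain ⟨v, hv, hv1⟩ := zetaQ_residue_one hA
  have huv : (((v ^ c.val : Aˣ) : A) : Qb) = ((zetaQ q ^ c.val : Qbˣ) : Qb) := by simp [hv]
  have hπ : residue A ((v ^ c.val : Aˣ) : A) = 1 := by simp [hv1]
  have huv' : ((((v ^ c.val)⁻¹ : Aˣ) : A) : Qb) = (((zetaQ q ^ c.val)⁻¹ : Qbˣ) : Qb) := by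
    refine Units.eq_inv_of_mul_eq_one_left ?_
    rw [← huv, ← MulMemClass.coe_mul, Units.mul_inv, OneMemClass.coe_one]
  have hπ' : residue A (((v ^ c.val)⁻¹ : Aˣ) : A) = 1 := by
    have := congrArg (residue A) (Units.inv_mul (v ^ c.val))
    rwa [map_mul, hπ, mul_one, map_one] at this
  refine ⟨?_, fun x h h' => ?_⟩
  · ext x
    rw [mem_compVal_iff, mem_infVal_iff, mem_infVal_iff, hc]
    refine ⟨fun h => ?_, fun h => (gaussRed_seriesTwist huv hπ h).choose⟩
    have h' := (gaussRed_seriesTwist huv' hπ' h).choose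
    rwa [seriesTwist_seriesTwist, inv_mul_cancel, seriesTwist_one] at h'
  · obtain ⟨h1, he⟩ := gaussRed_seriesTwist huv hπ h'
    refine Eq.trans ?_ he
    show gaussRed A (residue A) ⟨_, _⟩ = _
    congr 1
    exact Subtype.ext (hc x)

include hA in
/-- The conjugate `γ⁻¹ u γ` of an upper unipotent fixes the component of `γ` and acts trivially
on its residual field. -/
theorem compRed_sigma_conj (γ u : Gamma0 M) (h00 : (((u : SL(2, ℤ)) 0 0 : ℤ) : ZMod q) = 1)
    (h10 : (((u : SL(2, ℤ)) 1 0 : ℤ) : ZMod q) = 0) (x : XField q M) :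
    (sigma hqM (γ⁻¹ * u * γ) x ∈ compVal A (sigma hqM γ) ↔ x ∈ compVal A (sigma hqM γ)) ∧
      ∀ (h : sigma hqM (γ⁻¹ * u * γ) x ∈ compVal A (sigma hqM γ))
        (h' : x ∈ compVal A (sigma hqM γ)),
        compRed A (sigma hqM γ) ⟨_, h⟩ = compRed A (sigma hqM γ) ⟨x, h'⟩ := by
  obtain ⟨hval, hred⟩ := sigma_unipotent A hqM hA u h00 h10
  have e : sigma hqM γ (sigma hqM (γ⁻¹ * u * γ) x) = sigma hqM u (sigma hqM γ x) := by
    rw [← AlgEquiv.mul_apply, ← map_mul, ← AlgEquiv.mul_apply, ← map_mul, mul_assoc γ⁻¹,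
      mul_inv_cancel_left]
  generalize hy : sigma hqM γ x = y at e
  generalize hz : sigma hqM (γ⁻¹ * u * γ) x = z at e ⊢
  have hiff : z ∈ compVal A (sigma hqM γ) ↔ x ∈ compVal A (sigma hqM γ) := by
    rw [mem_compVal_iff, mem_compVal_iff, e, hy, ← mem_compVal_iff, hval]
  refine ⟨hiff, fun h h' => ?_⟩
  have h1 := (mem_compVal_iff A).1 h
  have h3 := (mem_compVal_iff A).1 h'
  have h4 : y ∈ infVal q M A := hy ▸ h3
  have h5 : y ∈ compVal A (sigma hqM u) := by rw [hval]; exact h4
  have h6 := (mem_compVal_iff A).1 h5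
  apply SetLike.coe_eq_coe.1
  rw [coe_compRed A _ z h h1, coe_compRed A _ x h' h3, infRed_congr A e h1 h6,
    infRed_congr A hy h3 h4, ← coe_compRed A _ y h5 h6]
  exact hred y h5 h4

omit [Fact q.Prime] in
/-- Inertia fixes the component at infinity and acts trivially on its residual field. -/
theorem infRed_galRingAut [Fact q.Prime] {σ : Qb ≃ₐ[ℚ] Qb} (hσ : σ ∈ A.inertiaSubgroupIn ℚ)
    (x : XField q M) :
    (galRingAut σ x ∈ infVal q M A ↔ x ∈ infVal q M A) ∧
      ∀ (h : galRingAut σ x ∈ infVal q M A) (h' : x ∈ infVal q M A),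
        infRed q M A ⟨_, h⟩ = infRed q M A ⟨x, h'⟩ := by
  have hdec : σ ∈ A.decompositionSubgroup ℚ ∧ ∀ a ∈ A, σ a - a ∈ A.nonunits := by
    obtain ⟨⟨g, hg⟩, hker, rfl⟩ := hσ
    refine ⟨hg, fun a ha => ?_⟩
    have h := RingEquiv.congr_fun (MonoidHom.mem_ker.1 hker) (IsLocalRing.residue A ⟨a, ha⟩)
    change (⟨g, hg⟩ : A.decompositionSubgroup ℚ) • IsLocalRing.residue A ⟨a, ha⟩ =
      IsLocalRing.residue A ⟨a, ha⟩ at h
    rw [← IsLocalRing.ResidueField.residue_smul, ← sub_eq_zero, ← map_sub,
      IsLocalRing.residue_eq_zero_iff] at h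
    exact ValuationSubring.coe_mem_nonunits_iff.2 h
  have key : ∀ τ : Qb ≃ₐ[ℚ] Qb, τ ∈ A.decompositionSubgroup ℚ →
      (∀ a ∈ A, τ a - a ∈ A.nonunits) → ∀ {f : LaurentSeries Qb} (hf : f ∈ gaussSubring A (residue A)),
      ∃ h : coeffMap (τ : Qb →+* Qb) f ∈ gaussSubring A (residue A),
        gaussRed A (residue A) ⟨_, h⟩ = gaussRed A (residue A) ⟨f, hf⟩ := by
    intro τ hτ hres f hf
    refine gaussRed_coeffMap_aut
      (τ := MulSemiringAction.toRingHom (A.decompositionSubgroup ℚ) A ⟨τ, hτ⟩)
      (fun a => rfl) (fun a => ?_) hf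
    rw [← sub_eq_zero, ← map_sub, IsLocalRing.residue_eq_zero_iff,
      ← ValuationSubring.coe_mem_nonunits_iff]
    exact hres (a : Qb) a.2
  refine ⟨⟨fun h => ?_, fun h => (key σ hdec.1 hdec.2 h).choose⟩, fun h h' => ?_⟩
  · have hτ : σ⁻¹ ∈ A.decompositionSubgroup ℚ := inv_mem hdec.1
    have hres : ∀ a ∈ A, σ⁻¹ a - a ∈ A.nonunits := fun a ha => by
      have hb : σ⁻¹ a ∈ A :=
        (MulSemiringAction.toRingHom (A.decompositionSubgroup ℚ) A ⟨σ⁻¹, hτ⟩ ⟨a, ha⟩).2
      have h1 := hdec.2 _ hb
      rw [show σ (σ⁻¹ a) = a from σ.apply_symm_apply a] at h1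
      rw [ValuationSubring.mem_nonunits_iff] at h1 ⊢
      rwa [Valuation.map_sub_swap]
    have h2 : coeffMap ((σ⁻¹ : Qb ≃ₐ[ℚ] Qb) : Qb →+* Qb)
        (coeffMap (σ : Qb →+* Qb) (x : LaurentSeries Qb)) ∈ gaussSubring A (residue A) :=
      (key σ⁻¹ hτ hres h).choose
    rw [coeffMap_coeffMap,
      coeffMap_congr (g := RingHom.id Qb) (RingHom.ext fun a => σ.symm_apply_apply a),
      coeffMap_id] at h2
    exact h2
  · exact (key σ hdec.1 hdec.2 h').choose_spec

end Fermat.Agent.Carayol
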