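/-
Several pairwise incomparable valuation rings of a function field, all restricting to the Gauss
valuation of `K(x)`: residual bases lift to a linearly independent family.
-/
import Mathlib.RingTheory.Valuation.ValuationSubring
import Mathlib.FieldTheory.IntermediateField.Adjoin.Basic
import Mathlib.RingTheory.Algebraic.Basic
import Mathlib.LinearAlgebra.Dimension.Finrank
import Mathlib.LinearAlgebra.Dimension.Finite
import Mathlib.GroupTheory.OrderOfElement
import Mathlib.Algebra.CharP.Lemmas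
import Mathlib.Data.Nat.Prime.Infinite
import Mathlib.Algebra.Ring.GeomSum
import Mathlib.RingTheory.Polynomial.Subring

set_option autoImplicit false

noncomputable section

namespace Fermat.Agent.Carayol

open Polynomial IntermediateField

section Kaplansky

variable {F : Type*} [Field F] {k : Type*} [Field k] {V : ValuationSubring F} {φ : V →+* k}

/-- The truncated geometric series. -/
def geomPoly (m : ℕ) (f : F) : F := ∑ l ∈ Finset.range m, f ^ l

theorem inv_geomPoly_of_not_mem (hker : RingHom.ker φ = IsLocalRing.maximalIdeal V) {m : ℕ}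
    (hm : 2 ≤ m) {f : F} (hf : f ∉ V) :
    ∃ h : (geomPoly m f)⁻¹ ∈ V, φ ⟨_, h⟩ = 0 ∧ f * (geomPoly m f)⁻¹ ∈ V := by
  classical
  have hf0 : f ≠ 0 := fun h => hf (h ▸ V.zero_mem)
  have hg : f⁻¹ ∈ V := (V.mem_or_inv_mem f).resolve_left hf
  set g : V := ⟨f⁻¹, hg⟩ with hgdef
  have hg0 : φ g = 0 := by
    rw [← RingHom.mem_ker, hker, IsLocalRing.mem_maximalIdeal, mem_nonunits_iff]
    rintro ⟨u, hu⟩
    have h1 : f⁻¹ * ((u⁻¹ : Vˣ) : V) = (1 : F) := by
      have := congrArg (fun z : V => (z : F)) u.mul_inv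
      simpa [hu, hgdef] using this
    apply hf
    have h2 : f = ((u⁻¹ : Vˣ) : V) :=
      mul_left_cancel₀ (inv_ne_zero hf0) (by rw [inv_mul_cancel₀ hf0, h1])
    rw [h2]
    exact SetLike.coe_mem _
  set S : V := ∑ l ∈ Finset.range m, g ^ l
  have hS : φ S = 1 := by
    simp only [S, map_sum, map_pow, hg0]
    rw [Finset.sum_eq_single 0 (fun b _ hb => zero_pow hb)
      (fun h => (h (Finset.mem_range.mpr (by omega))).elim), pow_zero]
  have hSu : IsUnit S := by
    by_contra hu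
    have : S ∈ RingHom.ker φ := by
      rw [hker, IsLocalRing.mem_maximalIdeal]; exact hu
    rw [RingHom.mem_ker, hS] at this
    exact one_ne_zero this
  obtain ⟨u, hu⟩ := hSu
  have hP : geomPoly m f = f ^ (m - 1) * (S : F) := by
    simp only [geomPoly, S, AddSubmonoidClass.coe_finsetSum, SubmonoidClass.coe_pow,
      Finset.mul_sum, hgdef]
    rw [← Finset.sum_range_reflect (fun l => f ^ l) m]
    refine Finset.sum_congr rfl fun l hl => ?_
    rw [Finset.mem_range] at hl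
    rw [inv_pow, ← pow_sub₀ f hf0 (by omega : l ≤ m - 1)]
  have hinv : (geomPoly m f)⁻¹ = ((g ^ (m - 1) * ((u⁻¹ : Vˣ) : V) : V) : F) := by
    refine inv_eq_of_mul_eq_one_right ?_
    rw [hP, ← hu]
    push_cast [hgdef]
    have h1 : ((u : V) : F) * (((u⁻¹ : Vˣ) : V) : F) = 1 := by
      exact_mod_cast congrArg (fun z : V => (z : F)) u.mul_inv
    rw [mul_mul_mul_comm, h1, mul_one, ← mul_pow, mul_inv_cancel₀ hf0, one_pow]
  refine ⟨hinv ▸ SetLike.coe_mem _, ?_, ?_⟩
  · rw [show (⟨(geomPoly m f)⁻¹, _⟩ : V) = g ^ (m - 1) * ((u⁻¹ : Vˣ) : V) from Subtype.ext hinv,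
      map_mul, map_pow, hg0, zero_pow (by omega), zero_mul]
  · have : f * (geomPoly m f)⁻¹ = ((g ^ (m - 2) * ((u⁻¹ : Vˣ) : V) : V) : F) := by
      rw [hinv, show m - 1 = (m - 2) + 1 by omega, pow_succ]
      push_cast [hgdef]
      field_simp
    rw [this]
    exact SetLike.coe_mem _

theorem inv_geomPoly_of_mem (hker : RingHom.ker φ = IsLocalRing.maximalIdeal V) {m : ℕ} {f : F}
    (hf : f ∈ V) (hgood : ∑ l ∈ Finset.range m, φ ⟨f, hf⟩ ^ l ≠ 0) :
    ∃ h : (geomPoly m f)⁻¹ ∈ V, φ ⟨_, h⟩ ≠ 0 := by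
  set S : V := ∑ l ∈ Finset.range m, (⟨f, hf⟩ : V) ^ l
  have hSu : IsUnit S := by
    by_contra hu
    have : S ∈ RingHom.ker φ := by rw [hker, IsLocalRing.mem_maximalIdeal]; exact hu
    rw [RingHom.mem_ker] at this
    exact hgood (by simpa only [S, map_sum, map_pow] using this)
  obtain ⟨u, hu⟩ := hSu
  have hinv : (geomPoly m f)⁻¹ = (((u⁻¹ : Vˣ) : V) : F) := by
    refine inv_eq_of_mul_eq_one_right ?_
    have h1 := congrArg (fun z : V => (z : F)) u.mul_inv
    rw [hu] at h1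
    simpa [geomPoly, S] using h1
  refine ⟨hinv ▸ SetLike.coe_mem _, ?_⟩
  rw [show (⟨(geomPoly m f)⁻¹, _⟩ : V) = ((u⁻¹ : Vˣ) : V) from Subtype.ext hinv]
  exact (RingHom.isUnit_map φ (Units.isUnit _)).ne_zero

theorem exists_good_prime (Ξ : Finset k) :
    ∃ m : ℕ, 2 ≤ m ∧ ∀ ξ ∈ Ξ, ∑ l ∈ Finset.range m, ξ ^ l ≠ 0 := by
  obtain ⟨m, hm, hp⟩ := Nat.exists_infinite_primes (max (ringChar k) (Ξ.sup orderOf) + 2)
  refine ⟨m, by omega, fun ξ hξ h => ?_⟩
  have hbig : orderOf ξ < m := by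
    have := Finset.le_sup (f := orderOf) hξ
    omega
  rcases eq_or_ne ξ 1 with rfl | h1
  · simp only [one_pow, Finset.sum_const, Finset.card_range, nsmul_eq_mul, mul_one] at h
    haveI := ringChar.charP k
    have hdvd := (CharP.cast_eq_zero_iff k (ringChar k) m).mp h
    rcases hp.eq_one_or_self_of_dvd _ hdvd with h2 | h2
    · exact (CharP.ringChar_ne_one (R := k)) h2
    · omega
  · have h2 : ξ ^ m = 1 := by
      have := geom_sum_mul ξ m
      rw [h, zero_mul] at this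
      exact sub_eq_zero.mp this.symm
    rcases hp.eq_one_or_self_of_dvd _ (orderOf_dvd_of_pow_eq_one h2) with h3 | h3
    · exact h1 (orderOf_eq_one_iff.mp h3)
    · omega

end Kaplansky

section Lift

variable {K : Type*} [Field K] {A : ValuationSubring K} {k : Type*} [Field k] (π : A →+* k)
variable {F : Type*} [Field F] [Algebra K F]
variable {R : Type*} [Field R] [Algebra k R]
variable {ι : Type*} [Fintype ι] (V : ι → ValuationSubring F) (φ : ∀ i, V i →+* R)

/-- For every finite set of functions, a single multiplier makes each integral at every place. -/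
theorem exists_multiplier (hker : ∀ i, RingHom.ker (φ i) = IsLocalRing.maximalIdeal (V i))
    (s : Finset F) :
    ∃ y : F → F, ∀ f ∈ s, ∀ i, ∃ h : y f ∈ V i,
      (f ∈ V i → φ i ⟨_, h⟩ ≠ 0) ∧ (f ∉ V i → φ i ⟨_, h⟩ = 0) ∧ f * y f ∈ V i := by
  classical
  obtain ⟨m, hm, hgood⟩ := exists_good_prime
    ((Finset.univ ×ˢ s).image fun p : ι × F => if h : p.2 ∈ V p.1 then φ p.1 ⟨p.2, h⟩ else 0)
  refine ⟨fun f => (geomPoly m f)⁻¹, fun f hf i => ?_⟩
  by_cases hfi : f ∈ V i
  · obtain ⟨h, hne⟩ := inv_geomPoly_of_mem (hker i) hfi (hgood _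
      (Finset.mem_image.mpr ⟨(i, f), Finset.mem_product.mpr ⟨Finset.mem_univ _, hf⟩, dif_pos hfi⟩))
    exact ⟨h, fun _ => hne, fun h' => absurd hfi h', (V i).mul_mem _ _ hfi h⟩
  · obtain ⟨h, h0, h1⟩ := inv_geomPoly_of_not_mem (hker i) hm hfi
    exact ⟨h, fun h' => absurd h' hfi, fun _ => h0, h1⟩

/-- An element that is a unit at `i` and in the maximal ideal at every other place. -/
theorem exists_separator (hker : ∀ i, RingHom.ker (φ i) = IsLocalRing.maximalIdeal (V i))
    (hinc : ∀ i j, i ≠ j → ∃ f, f ∈ V i ∧ f ∉ V j) (i : ι) :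
    ∃ e : F, ∀ j, ∃ h : e ∈ V j, (j = i → φ j ⟨e, h⟩ ≠ 0) ∧ (j ≠ i → φ j ⟨e, h⟩ = 0) := by
  classical
  choose x hx using fun j : {j : ι // i ≠ j} => hinc i j.1 j.2
  obtain ⟨y, hy⟩ := exists_multiplier V φ hker (Finset.univ.image x)
  have hxs : ∀ j, x j ∈ Finset.univ.image x := fun j => Finset.mem_image_of_mem _ (Finset.mem_univ j)
  refine ⟨∏ j : {j : ι // i ≠ j}, y (x j), fun l => ?_⟩
  have hmem : ∀ j : {j : ι // i ≠ j}, y (x j) ∈ V l := fun j => (hy _ (hxs j) l).1
  refine ⟨Subring.prod_mem (V l).toSubring fun j _ => hmem j, ?_, ?_⟩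
  · rintro rfl
    rw [show (⟨∏ j, y (x j), _⟩ : V l) = ∏ j, (⟨y (x j), hmem j⟩ : V l) from
      Subtype.ext (by rw [SubmonoidClass.coe_finsetProd]), map_prod]
    exact Finset.prod_ne_zero_iff.mpr fun j _ => (hy _ (hxs j) l).2.1 (hx j).1
  · intro hl
    rw [show (⟨∏ j, y (x j), _⟩ : V l) = ∏ j, (⟨y (x j), hmem j⟩ : V l) from
      Subtype.ext (by rw [SubmonoidClass.coe_finsetProd]), map_prod]
    exact Finset.prod_eq_zero (Finset.mem_univ ⟨l, Ne.symm hl⟩)
      ((hy _ (hxs _) l).2.2.1 (hx ⟨l, Ne.symm hl⟩).2)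

variable (hV : ∀ (i : ι) (a : A), algebraMap K F a ∈ V i)
variable (hφ : ∀ (i : ι) (a : A), φ i ⟨_, hV i a⟩ = algebraMap k R (π a))

include hφ in
theorem map_aeval_eq (i : ι) {x : F} (hx : x ∈ V i) (p : A[X]) :
    ∃ h : Polynomial.aeval x (p.map A.subtype) ∈ V i,
      φ i ⟨_, h⟩ = Polynomial.aeval (φ i ⟨x, hx⟩) (p.map π) := by
  let c : A →+* V i := ((algebraMap K F).comp A.subtype).codRestrict _ (hV i)
  have e : Polynomial.aeval x (p.map A.subtype) = ((p.eval₂ c ⟨x, hx⟩ : V i) : F) := by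
    rw [Polynomial.aeval_def, Polynomial.eval₂_map]
    exact (Polynomial.hom_eval₂ p c (V i).subtype ⟨x, hx⟩).symm
  refine ⟨e ▸ SetLike.coe_mem _, ?_⟩
  rw [show (⟨Polynomial.aeval x (p.map A.subtype), _⟩ : V i) = p.eval₂ c ⟨x, hx⟩ from
    Subtype.ext e, Polynomial.hom_eval₂, Polynomial.aeval_def, Polynomial.eval₂_map]
  congr 1
  exact RingHom.ext fun a => hφ i a

include hφ in
/-- Residual independence implies independence. -/
theorem linearIndependent_adjoin_of_residual {x : F} (hx : ∀ i, x ∈ V i)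
    (hxt : ∀ i, Transcendental k (φ i ⟨x, hx i⟩)) {σ : ι → Type*} [∀ i, Fintype (σ i)]
    (u : (Σ i, σ i) → F) (hu : ∀ s i, u s ∈ V i)
    (hdiag : ∀ i, LinearIndependent k⟮φ i ⟨x, hx i⟩⟯ fun l : σ i => φ i ⟨u ⟨i, l⟩, hu _ i⟩)
    (hoff : ∀ (i j : ι) (l : σ j), j ≠ i → φ i ⟨u ⟨j, l⟩, hu _ i⟩ = 0) :
    LinearIndependent K⟮x⟯ u := by
  classical
  rw [Fintype.linearIndependent_iff]
  intro g hg
  have hrs : ∀ s, ∃ r t : K[X], (g s : F) = Polynomial.aeval x r / Polynomial.aeval x t ∧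
      Polynomial.aeval x t ≠ 0 := by
    intro s
    obtain ⟨r, t, h⟩ := mem_adjoin_simple_iff (F := K) _ |>.mp (g s).2
    rcases eq_or_ne (Polynomial.aeval x t) 0 with h0 | h0
    · exact ⟨0, 1, by rw [h, h0]; simp, by simp⟩
    · exact ⟨r, t, h, h0⟩
  choose r t hg' ht using hrs
  set p : (Σ i, σ i) → K[X] := fun s => r s * ∏ s' ∈ Finset.univ.erase s, t s' with hp
  have hp0 : ∑ s, Polynomial.aeval x (p s) * u s = 0 := by
    have hT : ∀ s, Polynomial.aeval x (p s) = (g s : F) * Polynomial.aeval x (∏ s', t s') := by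
      intro s
      rw [hp, ← Finset.mul_prod_erase _ t (Finset.mem_univ s), map_mul, map_mul, hg', ← mul_assoc,
        div_mul_cancel₀ _ (ht s)]
    have h1 : ∑ s, (g s : F) * u s = 0 := hg
    rw [Finset.sum_congr rfl fun s _ => by rw [hT, mul_right_comm], ← Finset.sum_mul, h1, zero_mul]
  suffices hall : ∀ s, p s = 0 by
    intro s
    have := hall s
    simp only [hp, mul_eq_zero, Finset.prod_eq_zero_iff] at this
    rcases this with h | ⟨s', _, h⟩
    · exact Subtype.ext (by rw [hg', h]; simp)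
    · exact absurd (by rw [h]; simp) (ht s')
  by_contra hne
  push Not at hne
  obtain ⟨s₀, hs₀⟩ := hne
  -- the coefficient of largest valuation
  obtain ⟨⟨s₁, n₁⟩, h₁, hmax⟩ := (Finset.univ.sigma fun s => (p s).support).exists_max_image
    (fun z : Σ _ : (Σ i, σ i), ℕ => A.valuation ((p z.1).coeff z.2))
    ⟨⟨s₀, (p s₀).natDegree⟩, by simp [hs₀]⟩
  simp only [Finset.mem_sigma, Finset.mem_univ, true_and, Polynomial.mem_support_iff] at h₁ hmax
  set c := (p s₁).coeff n₁
  have hmem : ∀ s n, c⁻¹ * (p s).coeff n ∈ A := by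
    intro s n
    rw [← A.valuation_le_one_iff, map_mul, map_inv₀,
      inv_mul_le_one₀ (zero_lt_iff.mpr ((_root_.map_ne_zero _).mpr h₁))]
    rcases eq_or_ne ((p s).coeff n) 0 with h | h
    · simp [h]
    · exact hmax ⟨s, n⟩ h
  have hlift : ∀ s, ∃ P : A[X], P.map A.subtype = Polynomial.C c⁻¹ * p s := fun s => by
    refine (Polynomial.mem_lifts _).mp ?_
    rw [Polynomial.lifts_iff_coeff_lifts]
    intro n
    rw [Polynomial.coeff_C_mul]
    exact ⟨⟨_, hmem s n⟩, rfl⟩
  choose P hP using hlift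
  have key : ∀ s, (P s).map π = 0 := by
    rintro ⟨i, l⟩
    have hz : ∀ s, ∃ h : Polynomial.aeval x ((P s).map A.subtype) ∈ V i,
        φ i ⟨_, h⟩ = Polynomial.aeval (φ i ⟨x, hx i⟩) ((P s).map π) := fun s =>
      map_aeval_eq π V φ hV hφ i (hx i) (P s)
    choose hm hv using hz
    have e : ∑ s, φ i ⟨_, hm s⟩ * φ i ⟨u s, hu s i⟩ = 0 := by
      simp only [← map_mul]
      rw [← map_sum, ← map_zero (φ i)]
      congr 1
      apply Subtype.ext
      simp only [AddSubmonoidClass.coe_finsetSum, MulMemClass.coe_mul, ZeroMemClass.coe_zero, hP,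
        map_mul, Polynomial.aeval_C, mul_assoc, ← Finset.mul_sum, hp0, mul_zero]
    rw [Fintype.sum_sigma, Finset.sum_eq_single i
      (fun j _ hj => Finset.sum_eq_zero fun l _ => by rw [hoff i j l hj, mul_zero])
      (fun h => (h (Finset.mem_univ i)).elim)] at e
    have := Fintype.linearIndependent_iff.mp (hdiag i)
      (fun l => ⟨Polynomial.aeval (φ i ⟨x, hx i⟩) ((P ⟨i, l⟩).map π),
        algebra_adjoin_le_adjoin _ _ (Polynomial.aeval_mem_adjoin_singleton _ _)⟩) (by simpa [hv, IntermediateField.smul_def] using e) l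
    have h2 : Polynomial.aeval (φ i ⟨x, hx i⟩) ((P ⟨i, l⟩).map π) = 0 :=
      congrArg Subtype.val this
    by_contra h3
    exact hxt i ⟨_, h3, h2⟩
  have h4 : ((P s₁).coeff n₁ : A) = 1 := by
    apply Subtype.ext
    have := congrArg (fun z : K[X] => z.coeff n₁) (hP s₁)
    simpa [c, inv_mul_cancel₀ h₁] using this
  have := congrArg (fun z : k[X] => z.coeff n₁) (key s₁)
  rw [Polynomial.coeff_map, h4] at this
  simp at this

include hφ in
/-- The sum of the residual degrees is at most the degree. -/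
theorem sum_card_le_finrank (hker : ∀ i, RingHom.ker (φ i) = IsLocalRing.maximalIdeal (V i))
    (hinc : ∀ i j, i ≠ j → ∃ f, f ∈ V i ∧ f ∉ V j) {x : F} (hx : ∀ i, x ∈ V i)
    (hxt : ∀ i, Transcendental k (φ i ⟨x, hx i⟩)) [Module.Finite K⟮x⟯ F]
    {σ : ι → Type*} [∀ i, Fintype (σ i)] (w : ∀ i, σ i → V i)
    (hw : ∀ i, LinearIndependent k⟮φ i ⟨x, hx i⟩⟯ fun l => φ i (w i l)) :
    ∑ i, Fintype.card (σ i) ≤ Module.finrank K⟮x⟯ F := by
  classical
  choose e he using exists_separator V φ hker hinc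
  have hmul : ∀ i, ∃ z : F, ∀ j, ∃ h : z ∈ V j,
      (j = i → φ j ⟨z, h⟩ ≠ 0) ∧ ∀ l, (w i l : F) * z ∈ V j := by
    intro i
    obtain ⟨y, hy⟩ := exists_multiplier V φ hker (Finset.univ.image fun l => (w i l : F))
    have hs : ∀ l, (w i l : F) ∈ Finset.univ.image fun l => (w i l : F) := fun l =>
      Finset.mem_image_of_mem _ (Finset.mem_univ l)
    refine ⟨∏ l, y (w i l), fun j => ?_⟩
    have hmem : ∀ l, y (w i l) ∈ V j := fun l => (hy _ (hs l) j).1
    refine ⟨Subring.prod_mem (V j).toSubring fun l _ => hmem l, ?_, ?_⟩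
    · rintro rfl
      rw [show (⟨∏ l, y (w j l), _⟩ : V j) = ∏ l, (⟨y (w j l), hmem l⟩ : V j) from
        Subtype.ext (by rw [SubmonoidClass.coe_finsetProd]), map_prod]
      exact Finset.prod_ne_zero_iff.mpr fun l _ => (hy _ (hs l) j).2.1 (w j l).2
    · intro l
      rw [← Finset.mul_prod_erase _ _ (Finset.mem_univ l), ← mul_assoc]
      exact (V j).mul_mem _ _ (hy _ (hs l) j).2.2.2 (Subring.prod_mem (V j).toSubring fun a _ => hmem a)
  choose z hz using hmul
  let u : (Σ i, σ i) → F := fun s => e s.1 * ((w s.1 s.2 : F) * z s.1)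
  have hu : ∀ s i, u s ∈ V i := fun s i =>
    (V i).mul_mem _ _ (he s.1 i).1 ((hz s.1 i).2.2 s.2)
  have key : LinearIndependent K⟮x⟯ u := by
    refine linearIndependent_adjoin_of_residual π V φ hV hφ hx hxt u hu (fun i => ?_) ?_
    · have hne : φ i ⟨e i, (he i i).1⟩ * φ i ⟨z i, (hz i i).1⟩ ≠ 0 :=
        mul_ne_zero ((he i i).2.1 rfl) ((hz i i).2.1 rfl)
      have heq : ∀ l : σ i, φ i ⟨u ⟨i, l⟩, hu _ i⟩ =
          φ i ⟨e i, (he i i).1⟩ * φ i ⟨z i, (hz i i).1⟩ * φ i (w i l) := by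
        intro l
        rw [← map_mul, ← map_mul]
        congr 1
        apply Subtype.ext
        show e i * ((w i l : F) * z i) = e i * z i * (w i l : F)
        ring
      simp only [heq]
      exact (hw i).map' (LinearMap.mulLeft k⟮φ i ⟨x, hx i⟩⟯
        (φ i ⟨e i, (he i i).1⟩ * φ i ⟨z i, (hz i i).1⟩))
        (LinearMap.ker_eq_bot.mpr (mul_right_injective₀ hne))
    · intro i j l hj
      have h1 : (⟨u ⟨j, l⟩, hu _ i⟩ : V i) =
          ⟨e j, (he j i).1⟩ * ⟨(w j l : F) * z j, (hz j i).2.2 l⟩ := rfl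
      rw [h1, map_mul, (he j i).2.2 (Ne.symm hj), zero_mul]
  simpa using key.fintype_card_le_finrank

end Lift

end Fermat.Agent.Carayol

namespace Fermat.Agent.Carayol

open Polynomial IntermediateField

/-- Independence over `k(x)` follows from independence over `k[x]`. -/
theorem linearIndependent_adjoin_simple_of_poly {k E : Type*} [Field k] [Field E] [Algebra k E]
    (x : E) {L : Type*} [AddCommGroup L] [Module k⟮x⟯ L] {ι : Type*} [Fintype ι] (v : ι → L)
    (h : ∀ P : ι → k[X],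
      ∑ i, (⟨aeval x (P i),
        algebra_adjoin_le_adjoin _ _ (aeval_mem_adjoin_singleton _ _)⟩ : k⟮x⟯) • v i = 0 → P = 0) :
    LinearIndependent k⟮x⟯ v := by
  classical
  rw [Fintype.linearIndependent_iff]
  intro g hg
  have hrs : ∀ i, ∃ r t : k[X], (g i : E) = aeval x r / aeval x t ∧ aeval x t ≠ 0 := by
    intro i
    obtain ⟨r, t, h⟩ := mem_adjoin_simple_iff (F := k) _ |>.mp (g i).2
    rcases eq_or_ne (aeval x t) 0 with h0 | h0
    · exact ⟨0, 1, by rw [h, h0]; simp, by simp⟩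
    · exact ⟨r, t, h, h0⟩
  choose r t hg' ht using hrs
  set T : k⟮x⟯ := ⟨aeval x (∏ i, t i),
    algebra_adjoin_le_adjoin _ _ (aeval_mem_adjoin_singleton _ _)⟩
  set p : ι → k[X] := fun i => r i * ∏ i' ∈ Finset.univ.erase i, t i'
  have hp : ∀ i, (⟨aeval x (p i),
      algebra_adjoin_le_adjoin _ _ (aeval_mem_adjoin_singleton _ _)⟩ : k⟮x⟯) = T * g i := by
    intro i
    apply Subtype.ext
    show aeval x (p i) = aeval x (∏ i, t i) * (g i : E)
    rw [hg', ← Finset.mul_prod_erase _ t (Finset.mem_univ i), map_mul, map_mul,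
      mul_comm (aeval x (t i)), mul_assoc, mul_div_cancel₀ _ (ht i), mul_comm]
  have hall := h p (by simp only [hp, ← smul_smul, ← Finset.smul_sum, hg, smul_zero])
  intro i
  have := congrFun hall i
  simp only [p, Pi.zero_apply, mul_eq_zero, Finset.prod_eq_zero_iff] at this
  rcases this with h | ⟨i', _, h⟩
  · exact Subtype.ext (by rw [hg', h]; simp)
  · exact absurd (by rw [h]; simp) (ht i')

end Fermat.Agent.Carayol
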