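/-
Series facts for the special fibre of `X(q; M)`: Frobenius, the derivative of `j`, and the
independence of the monomials in `j (t)` and `j (t ^ M)`.
-/
import Fermat.Agent.Carayol.ValuationsDefs
import Mathlib.RingTheory.PowerSeries.Expand
import Mathlib.RingTheory.PowerSeries.Trunc
import Mathlib.FieldTheory.Finite.Basic
import Mathlib.RingTheory.Polynomial.Basic

set_option autoImplicit false

noncomputable section

namespace Fermat.Agent.Carayol

open ModularCurve Polynomial

theorem powerSeries_pow_eq_expand {p : ℕ} [Fact p.Prime] (f : PowerSeries (ZMod p)) :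
    f ^ p = PowerSeries.expand p (Fact.out : p.Prime).ne_zero f := by
  ext n
  have h1 : PowerSeries.coeff n (f ^ p) =
      Polynomial.coeff ((PowerSeries.trunc (n + 1) f) ^ p) n := by
    have := congrArg (fun P : (ZMod p)[X] => P.coeff n) (PowerSeries.trunc_trunc_pow f (n + 1) p)
    simp only [PowerSeries.coeff_trunc, Nat.lt_add_one, if_true] at this
    rw [← this, ← Polynomial.coe_pow, Polynomial.coeff_coe]
  rw [h1, ← ZMod.expand_card, Polynomial.coeff_expand (Fact.out : p.Prime).pos,
    PowerSeries.coeff_expand]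
  split_ifs with h
  · rw [PowerSeries.coeff_trunc, if_pos (lt_of_le_of_lt (Nat.div_le_self n p) (Nat.lt_add_one n))]
  · rfl

theorem ofPowerSeries_expand {R : Type*} [CommRing R] (p : ℕ) [NeZero p] (f : PowerSeries R) :
    HahnSeries.ofPowerSeries ℤ R (PowerSeries.expand p (NeZero.ne p) f) =
      qExpand R p (HahnSeries.ofPowerSeries ℤ R f) := by
  have hp : (0 : ℤ) < p := by exact_mod_cast (NeZero.pos p)
  ext k
  rcases lt_or_ge k 0 with hk | hk
  · rw [ofPowerSeries_coeff_of_neg _ hk]
    by_cases hd : (p : ℤ) ∣ k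
    · obtain ⟨m, rfl⟩ := hd
      rw [qExpand_coeff_mul, ofPowerSeries_coeff_of_neg _ (neg_of_mul_neg_right hk hp.le)]
    · rw [qExpand_coeff_of_not_dvd _ _ hd]
  · lift k to ℕ using hk
    rw [HahnSeries.ofPowerSeries_apply_coeff, PowerSeries.coeff_expand]
    split_ifs with hd
    · obtain ⟨m, rfl⟩ := hd
      rw [Nat.mul_div_cancel_left _ (NeZero.pos p), Nat.cast_mul, qExpand_coeff_mul,
        HahnSeries.ofPowerSeries_apply_coeff]
    · rw [qExpand_coeff_of_not_dvd _ _ (by exact_mod_cast hd)]

theorem jqModC_pow_prime (q : ℕ) [Fact q.Prime] {k : Type*} [CommRing k] [CharP k q] :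
    jqModC k ^ q = qExpand k q (jqModC k) := by
  haveI : NeZero q := ⟨(Fact.out : q.Prime).ne_zero⟩
  have h : jqModC (ZMod q) ^ q = qExpand (ZMod q) q (jqModC (ZMod q)) := by
    rw [jqModC_pow, jqModC, map_mul, qExpand_single, powerSeries_pow_eq_expand,
      ofPowerSeries_expand]
    congr 1
    simp
  have := congrArg (coeffMap (ZMod.castHom (dvd_refl q) k)) h
  rwa [map_pow, coeffMap_qExpand, coeffMap_jqModC] at this

section Deriv

variable {R : Type*} [CommRing R]

/-- `t d/dt`. -/
def thetaSeries (x : LaurentSeries R) : LaurentSeries R where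
  coeff n := (n : R) * x.coeff n
  isPWO_support' := x.isPWO_support'.mono fun n hn h0 => hn (by simp [h0])

@[simp]
theorem thetaSeries_coeff (x : LaurentSeries R) (n : ℤ) :
    (thetaSeries x).coeff n = (n : R) * x.coeff n := rfl

theorem thetaSeries_jqModC_ne_zero (k : Type*) [CommRing k] [Nontrivial k] :
    thetaSeries (jqModC k) ≠ 0 := by
  intro h
  simpa [coeff_jqModC_neg_one] using
    congrArg (fun z : LaurentSeries k => z.coeff (-1)) h

end Deriv

theorem transcendental_of_order_neg {k : Type*} [Field k] {s : LaurentSeries k} (hs : s.order < 0) :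
    Transcendental k s := by
  rintro ⟨p, hp, hp0⟩
  have hs0 : s ≠ 0 := fun h => by simp [h] at hs
  have horder : ∀ i : ℕ, (s ^ i).order = i • s.order := HahnSeries.order_pow s
  have hlead : (Polynomial.aeval s p).coeff ((p.natDegree : ℤ) * s.order) ≠ 0 := by
    rw [Polynomial.aeval_eq_sum_range, HahnSeries.coeff_sum, Finset.sum_eq_single p.natDegree]
    · rw [Algebra.smul_def, algebraMap_laurentSeries_eq_single, HahnSeries.coeff_single_zero_mul]
      refine mul_ne_zero (Polynomial.leadingCoeff_ne_zero.mpr hp) ?_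
      rw [show ((p.natDegree : ℤ) * s.order) = (s ^ p.natDegree).order by rw [horder, nsmul_eq_mul]]
      exact HahnSeries.coeff_order_eq_zero.not.mpr (pow_ne_zero _ hs0)
    · intro i hi hne
      rw [Finset.mem_range] at hi
      rw [Algebra.smul_def, algebraMap_laurentSeries_eq_single, HahnSeries.coeff_single_zero_mul,
        HahnSeries.coeff_eq_zero_of_lt_order, mul_zero]
      rw [horder, nsmul_eq_mul]
      have : (i : ℤ) < p.natDegree := by omega
      nlinarith
    · simp
  exact hlead (by rw [hp0]; simp)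

theorem order_jqModC_neg (k : Type*) [Field k] : (jqModC k).order < 0 := by
  have : (jqModC k).order ≤ -1 :=
    HahnSeries.order_le_of_coeff_ne_zero (by rw [coeff_jqModC_neg_one]; exact one_ne_zero)
  omega

theorem transcendental_jqModC (k : Type*) [Field k] : Transcendental k (jqModC k) :=
  transcendental_of_order_neg (order_jqModC_neg k)

/-- Monomials `s ^ r * y ^ i`, `r < q`, are independent over `k[s ^ q]` as soon as the `y ^ i` are
independent over `k[s]`. -/
theorem eq_zero_of_sum_expand {k E : Type*} [Field k] [CommRing E] [Algebra k E] {q n : ℕ}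
    (hq : 0 < q) (s y : E)
    (hind : ∀ a : Fin n → k[X], ∑ i, aeval s (a i) * y ^ (i : ℕ) = 0 → a = 0)
    (P : Fin q → Fin n → k[X])
    (h : ∑ r, ∑ i, aeval (s ^ q) (P r i) * (s ^ (r : ℕ) * y ^ (i : ℕ)) = 0) : P = 0 := by
  classical
  let a : Fin n → k[X] := fun i => ∑ r : Fin q, expand k q (P r i) * Polynomial.X ^ (r : ℕ)
  have ha : a = 0 := by
    refine hind a ?_
    rw [← h, Finset.sum_comm]
    refine Finset.sum_congr rfl fun i _ => ?_
    simp only [a, map_sum, map_mul, expand_aeval, map_pow, aeval_X, Finset.sum_mul, mul_assoc]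
  funext r i
  ext m
  have hc := congrArg (fun z : k[X] => z.coeff (q * m + r)) (congrFun ha i)
  simp only [a, finsetSum_coeff, Pi.zero_apply, coeff_zero, coeff_mul_X_pow'] at hc
  rw [Finset.sum_eq_single r] at hc
  · simpa [coeff_expand hq, Nat.mul_div_cancel_left _ hq] using hc
  · intro r' _ hne
    split_ifs with h'
    · rw [coeff_expand hq, if_neg]
      intro hd
      apply hne
      have h1 : q * m + r ≡ r' [MOD q] := ((Nat.modEq_iff_dvd' h').mpr hd).symm
      have h2 : (r : ℕ) % q = (r' : ℕ) % q := by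
        unfold Nat.ModEq at h1
        rwa [Nat.mul_add_mod] at h1
      rw [Nat.mod_eq_of_lt r.2, Nat.mod_eq_of_lt r'.2] at h2
      exact Fin.ext h2.symm
    · rfl
  · simp

end Fermat.Agent.Carayol
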