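/-
Residual facts at a place above `q`: twisting by a `q`-th root of unity reduces to the identity,
the difference quotient of conjugates of `j (τ / q)`, and Igusa's independence.
-/
import Fermat.Agent.Carayol.ValuationsGauss
import Fermat.Agent.Carayol.ValuationsMonomial
import Fermat.Agent.Igusa.FibreIrred
import Fermat.Agent.ModFun.ModularPolynomial
import Fermat.Prelude.Def_FLTPrelim_Ramification

set_option autoImplicit false

noncomputable section

namespace Fermat.Agent.Carayol

open ModularCurve Polynomial IsLocalRing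

variable (q : ℕ) [Fact q.Prime]

theorem charP_residue {A : ValuationSubring Qb} (hA : A.LiesOverPrime q) :
    CharP (ResidueField A) q := by
  haveI : CharP (ResidueField A) (ringChar (ResidueField A)) := ringChar.charP _
  have h : (q : ResidueField A) = 0 := by
    have h1 : ((q : A) : Qb) = (q : Qb) := map_natCast A.subtype q
    have h2 : ¬ IsUnit (q : A) := by
      intro hu
      have := (A.valuation_eq_one_iff (q : A)).mp hu
      have h3 := (ValuationSubring.mem_nonunits_iff A).mp hA
      rw [h1] at this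
      exact absurd this h3.ne
    rw [← map_natCast (residue A), residue_eq_zero_iff]
    exact h2
  exact CharP.congr (ringChar (ResidueField A))
    (((Nat.dvd_prime (Fact.out : q.Prime)).mp
      ((CharP.cast_eq_zero_iff (ResidueField A) (ringChar (ResidueField A)) q).mp h)).resolve_left
      (fun h1 => (CharP.ringChar_ne_one (R := ResidueField A)) h1))

theorem mem_of_pow_eq_one (A : ValuationSubring Qb) {x : Qb} {n : ℕ} (hn : n ≠ 0)
    (h : x ^ n = 1) : x ∈ A := by
  rw [← A.valuation_le_one_iff]
  by_contra hlt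
  push Not at hlt
  have := one_lt_pow₀ hlt hn
  rw [← map_pow, h, map_one] at this
  exact lt_irrefl _ this

/-- `ζ` as an element of `A`. -/
def zetaA (A : ValuationSubring Qb) : A :=
  ⟨zetaQ q, mem_of_pow_eq_one A (NeZero.ne q) (isPrimitiveRoot_zetaQ q).pow_eq_one⟩

theorem residue_zetaA {A : ValuationSubring Qb} (hA : A.LiesOverPrime q) :
    residue A (zetaA q A) = 1 := by
  haveI := charP_residue q hA
  have h : (residue A (zetaA q A)) ^ q = 1 := by
    rw [← map_pow, ← map_one (residue A)]
    congr 1
    exact Subtype.ext (isPrimitiveRoot_zetaQ q).pow_eq_one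
  have h2 : (residue A (zetaA q A) - 1) ^ q = 0 := by
    rw [sub_pow_char, h, one_pow, sub_self]
  exact sub_eq_zero.mp (pow_eq_zero_iff (NeZero.ne q) |>.mp h2)

variable {q}

theorem zpow_zetaQ_eq (n : ℤ) :
    (((zetaQ q) ^ n : Qbˣ) : Qb) = (zetaQ q : Qb) ^ (n % q).toNat := by
  have hq : (q : ℤ) ≠ 0 := by exact_mod_cast NeZero.ne q
  have hu : (zetaQ q) ^ q = 1 := Units.ext (by simpa using (isPrimitiveRoot_zetaQ q).pow_eq_one)
  conv_lhs => rw [← Int.emod_add_mul_ediv n q, zpow_add, zpow_mul, zpow_natCast, hu, one_zpow,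
    mul_one, ← Int.toNat_of_nonneg (Int.emod_nonneg n hq), zpow_natCast]
  rw [Units.val_pow_eq_pow_val]

/-- Twisting integral series by a power of `ζ` keeps them integral with the same reduction. -/
theorem exists_twist_integral {A : ValuationSubring Qb} (hA : A.LiesOverPrime q) (b : ℕ)
    (y : LaurentSeries A) :
    ∃ z : LaurentSeries A,
      coeffMap A.subtype z = seriesTwist (zetaQ q ^ b) (coeffMap A.subtype y) ∧
      coeffMap (residue A) z = coeffMap (residue A) y := by
  refine ⟨{ coeff := fun n => zetaA q A ^ (((b : ℤ) * n) % q).toNat * y.coeff n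
            isPWO_support' := y.isPWO_support'.mono fun n hn h0 => hn (by simp [h0]) }, ?_, ?_⟩
  · ext n
    show ((zetaA q A ^ (((b : ℤ) * n) % q).toNat * y.coeff n : A) : Qb) = _
    rw [seriesTwist_coeff, coeffMap_coeff, ← zpow_natCast (zetaQ q) b, ← zpow_mul, zpow_zetaQ_eq]
    rfl
  · ext n
    show residue A (zetaA q A ^ (((b : ℤ) * n) % q).toNat * y.coeff n) = _
    rw [map_mul, map_pow, residue_zetaA q hA, one_pow, one_mul]
    rfl

/-- The integral series `(twist_b x - x) / (ζ - 1)` for an integral `x`. -/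
theorem exists_diffQuotient {A : ValuationSubring Qb} (hA : A.LiesOverPrime q) (b : ℕ)
    (y : LaurentSeries A) :
    ∃ z : LaurentSeries A,
      HahnSeries.single (0 : ℤ) ((zetaQ q : Qb) - 1) * coeffMap A.subtype z =
        seriesTwist (zetaQ q ^ b) (coeffMap A.subtype y) - coeffMap A.subtype y ∧
      coeffMap (residue A) z =
        (b : ResidueField A) • thetaSeries (coeffMap (residue A) y) := by
  haveI := charP_residue q hA
  refine ⟨{ coeff := fun n => (∑ l ∈ Finset.range (((b : ℤ) * n) % q).toNat, zetaA q A ^ l) *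
              y.coeff n
            isPWO_support' := y.isPWO_support'.mono fun n hn h0 => hn (by simp [h0]) }, ?_, ?_⟩
  · ext n
    rw [HahnSeries.coeff_single_zero_mul, HahnSeries.coeff_sub, seriesTwist_coeff,
      ← zpow_natCast (zetaQ q) b, ← zpow_mul, zpow_zetaQ_eq, coeffMap_coeff, coeffMap_coeff]
    show _ * (((∑ l ∈ _, zetaA q A ^ l) * y.coeff n : A) : Qb) = _ * (y.coeff n : Qb) - (y.coeff n : Qb)
    push_cast
    simp only [zetaA]
    rw [← mul_assoc, mul_geom_sum]
    ring
  · ext n
    show residue A ((∑ l ∈ Finset.range (((b : ℤ) * n) % q).toNat, zetaA q A ^ l) * y.coeff n) = _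
    rw [map_mul, map_sum]
    simp only [map_pow, residue_zetaA q hA, one_pow, Finset.sum_const, Finset.card_range,
      nsmul_eq_mul, mul_one]
    rw [HahnSeries.coeff_smul, thetaSeries_coeff, coeffMap_coeff, smul_eq_mul, ← mul_assoc]
    congr 1
    have hnn : 0 ≤ ((b : ℤ) * n) % q := Int.emod_nonneg _ (by exact_mod_cast NeZero.ne q)
    rw [← Int.cast_natCast (R := ResidueField A), Int.toNat_of_nonneg hnn,
      show (b : ResidueField A) * (n : ResidueField A) = (((b : ℤ) * n : ℤ) : ResidueField A) by
        push_cast; rfl]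
    exact (CharP.intCast_eq_intCast (ResidueField A) q).mpr (Int.mod_modEq _ _)

/-- Igusa: the powers of `j (t ^ M)` are independent over `k [j (t)]`. -/
theorem eq_zero_of_sum_jqNModC {A : ValuationSubring Qb} (hA : A.LiesOverPrime q) {M : ℕ}
    [NeZero M] (hqM : ¬ q ∣ M) (a : Fin (dedekindPsi M) → (ResidueField A)[X])
    (ha : ∑ i, aeval (jqModC (ResidueField A)) (a i) *
      jqNModC (ResidueField A) M ^ (i : ℕ) = 0) : a = 0 := by
  classical
  haveI := charP_residue q hA
  let ι : Qb →+* ℂ := (IsAlgClosed.lift : Qb →ₐ[ℚ] ℂ).toRingHom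
  let V : Subring ℂ := A.toSubring.map ι
  let e : A.toSubring ≃+* V := A.toSubring.equivMapOfInjective ι ι.injective
  let f : V →+* ResidueField A := (residue A).comp e.symm.toRingHom
  have hroot : ∀ d, d ∣ M → ∃ z : Vˣ, Units.map V.subtype z = ModFun.zetaU d := by
    intro d hd
    have hd0 : d ≠ 0 := fun h => NeZero.ne M (by simpa [h] using hd)
    haveI : NeZero d := ⟨hd0⟩
    obtain ⟨w, hw⟩ := (HasEnoughRootsOfUnity.exists_primitiveRoot Qb d :
      ∃ w : Qb, IsPrimitiveRoot w d)
    obtain ⟨i, -, hi⟩ := (hw.map_of_injective ι.injective).eq_pow_of_pow_eq_one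
      (Complex.isPrimitiveRoot_exp d hd0).pow_eq_one
    haveI : NeZero d := ⟨hd0⟩
    have hwi : (w ^ i) ^ d = 1 := by rw [← pow_mul, mul_comm, pow_mul, hw.pow_eq_one, one_pow]
    have hu : IsUnit (⟨w ^ i, mem_of_pow_eq_one A hd0 hwi⟩ : A) :=
      IsUnit.of_pow_eq_one (Subtype.ext hwi) hd0
    refine ⟨Units.map e.toRingHom hu.unit, Units.ext ?_⟩
    show ι (w ^ i) = _
    rw [map_pow]
    exact hi
  have hN : IsUnit (M : V) := by
    have h1 : IsUnit (M : A) := by
      by_contra h
      have h2 : residue A (M : A) = 0 := (residue_eq_zero_iff _).mpr h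
      rw [map_natCast] at h2
      exact hqM ((CharP.cast_eq_zero_iff (ResidueField A) q M).mp h2)
    have := h1.map (e.toRingHom : A.toSubring →+* V)
    rwa [map_natCast] at this
  have hc : Fintype.card (Gamma0.Coset M) = dedekindPsi M := by
    rw [← Nat.card_eq_fintype_card]; exact ModFun.card_quotient_Gamma0_eq M
  have key := Igusa.Fibre.independent_jqNModC hroot hN f (fun i => a (finCongr hc i)) (by
    rw [← ha]
    exact Fintype.sum_equiv (finCongr hc) _ _ fun i => rfl)
  funext i
  simpa using congrFun key ((finCongr hc).symm i)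

end Fermat.Agent.Carayol
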