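/-
The components of the special fibre of `X(q; M)` exhaust the degree. With `D` the stabiliser of
the component at infinity in the automorphism group `G`: the residual degree is at least
`|D| ψ(M)` (Artin applied to the image of `D`, a difference quotient of conjugates of `j (τ / q)`
separates the torus part), and the components, `|G| / |D|` in number, have at most `|G| ψ(M)`.
-/
import Fermat.Agent.Carayol.Valuations
import Fermat.Agent.Carayol.ValuationsDegree
import Fermat.Agent.Carayol.ValuationsResidual
import Mathlib.FieldTheory.Galois.Basic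

set_option autoImplicit false
set_option linter.style.haveILetI false
set_option maxHeartbeats 1000000

noncomputable section

namespace Fermat.Agent.Carayol

open ModularCurve IntermediateField AlgebraicCurve CongruenceSubgroup IsLocalRing Polynomial
open scoped MatrixGroups

variable {q : ℕ} [Fact q.Prime] {M : ℕ} [NeZero M] {A : ValuationSubring Qb}

theorem compVal_one : compVal A (1 : XField q M ≃ₐ[Qb] XField q M) = infVal q M A := by
  ext x; rfl

theorem compVal_mul (g h : XField q M ≃ₐ[Qb] XField q M) :
    compVal A (g * h) = (compVal A g).comap (h : XField q M →+* XField q M) := by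
  ext x; rfl

variable (hqM : ¬ q ∣ M)

theorem mem_autGroup_sigma (γ : Gamma0 M) : sigma hqM γ ∈ autGroup (M := M) hqM := ⟨γ, rfl⟩

variable (A) in
/-- The stabiliser of the component at infinity. -/
def decGroup : Subgroup (XField q M ≃ₐ[Qb] XField q M) where
  carrier := {g | g ∈ autGroup (M := M) hqM ∧ compVal A g = infVal q M A}
  one_mem' := ⟨one_mem _, compVal_one⟩
  mul_mem' := by
    rintro g h ⟨hg, eg⟩ ⟨hh, eh⟩
    refine ⟨mul_mem hg hh, ?_⟩
    rw [compVal_mul, eg]
    exact eh
  inv_mem' := by
    rintro g ⟨hg, eg⟩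
    refine ⟨inv_mem hg, ?_⟩
    conv_lhs => rw [← mul_one (g⁻¹)]
    ext x
    rw [mem_compVal_iff, mul_one, ← SetLike.ext_iff.mp eg, mem_compVal_iff]
    rw [show g (g⁻¹ x) = (g * g⁻¹) x from rfl, mul_inv_cancel, AlgEquiv.one_apply]

instance finite_decGroup : Finite (decGroup A hqM) := by
  haveI := autGroup_finite (M := M) hqM
  exact Finite.of_injective (fun g => (⟨g.1, g.2.1⟩ : autGroup (M := M) hqM))
    fun g h e => Subtype.ext (congrArg Subtype.val e :)

theorem apply_mem_infVal_iff {g : XField q M ≃ₐ[Qb] XField q M} (hg : g ∈ decGroup A hqM)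
    (x : XField q M) : g x ∈ infVal q M A ↔ x ∈ infVal q M A := by
  rw [← mem_compVal_iff, hg.2]

/-- A member of the decomposition group acting on the residual field, as a function. -/
def thetaFun (g : decGroup A hqM) (z : resField q M A) : resField q M A :=
  ⟨infRed q M A ⟨g.1 ((exists_infRed_eq A z).choose : XField q M),
    (apply_mem_infVal_iff hqM g.2 _).mpr (exists_infRed_eq A z).choose.2⟩,
    infRed_mem_resField A _⟩

theorem thetaFun_spec (g : decGroup A hqM) (z : resField q M A) {x : XField q M}
    (hx : x ∈ infVal q M A) (e : infRed q M A ⟨x, hx⟩ = z) (hgx : g.1 x ∈ infVal q M A) :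
    (thetaFun hqM g z : LaurentSeries (ResidueField A)) = infRed q M A ⟨g.1 x, hgx⟩ := by
  obtain ⟨g, hg⟩ := g
  set c := (exists_infRed_eq A z).choose with hc
  have hcz : infRed q M A c = z := (exists_infRed_eq A z).choose_spec
  show infRed q M A ⟨g (c : XField q M), _⟩ = _
  rw [← sub_eq_zero, ← map_sub]
  set d : infVal q M A := c - ⟨x, hx⟩
  have hd : infRed q M A d = 0 := by rw [map_sub, hcz, e, sub_self]
  have hgd : g (d : XField q M) ∈ infVal q M A := (apply_mem_infVal_iff hqM hg _).mpr d.2
  have key : infRed q M A ⟨g (d : XField q M), hgd⟩ = 0 := by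
    by_contra hne
    obtain ⟨y, hy⟩ := exists_mul_eq_one_of_infRed_ne_zero A hne
    have hy' : g.symm (y : XField q M) ∈ infVal q M A := by
      rw [← apply_mem_infVal_iff hqM hg, AlgEquiv.apply_symm_apply]
      exact y.2
    have h1 : d * ⟨g.symm (y : XField q M), hy'⟩ = 1 := by
      apply Subtype.ext
      apply g.injective
      show g ((d : XField q M) * g.symm (y : XField q M)) = g 1
      rw [map_mul, map_one, AlgEquiv.apply_symm_apply]
      exact congrArg Subtype.val hy
    have h2 := congrArg (infRed q M A) h1
    rw [map_mul, hd, zero_mul, map_one] at h2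
    exact zero_ne_one h2
  refine Eq.trans (congrArg _ (Subtype.ext ?_)) key
  show g (c : XField q M) - g x = g ((c : XField q M) - x)
  rw [map_sub]

theorem infVal_coe_apply_algebraMap (g : decGroup A hqM) (a : A) :
    g.1 (algebraMap Qb (XField q M) a) = algebraMap Qb (XField q M) a :=
  g.1.commutes _

theorem infRed_algebraMap_eq (a : A) :
    infRed q M A ⟨algebraMap Qb (XField q M) a, (algebraMap_mem_infVal_iff A).2 a.2⟩ =
      algebraMap (ResidueField A) (LaurentSeries (ResidueField A)) (residue A a) := by
  obtain ⟨h, he⟩ := gaussRed_algebraMap (π := residue A) a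
  exact he

/-- The action on the residual field. -/
def thetaHom (g : decGroup A hqM) : resField q M A →+* resField q M A where
  toFun := thetaFun hqM g
  map_one' := Subtype.ext <| by
    rw [thetaFun_spec hqM g 1 (x := 1) (one_mem _) (map_one (infRed q M A))
      (by rw [map_one]; exact one_mem _)]
    exact (congrArg (infRed q M A) (Subtype.ext (map_one g.1))).trans (map_one _)
  map_zero' := Subtype.ext <| by
    rw [thetaFun_spec hqM g 0 (x := 0) (zero_mem _) (map_zero (infRed q M A))
      (by rw [map_zero]; exact zero_mem _)]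
    exact (congrArg (infRed q M A) (Subtype.ext (map_zero g.1))).trans (map_zero _)
  map_mul' z w := Subtype.ext <| by
    obtain ⟨a, ha⟩ := exists_infRed_eq A z
    obtain ⟨b, hb⟩ := exists_infRed_eq A w
    have h1 := (apply_mem_infVal_iff hqM g.2 (a : XField q M)).mpr a.2
    have h2 := (apply_mem_infVal_iff hqM g.2 (b : XField q M)).mpr b.2
    rw [thetaFun_spec hqM g (z * w) (x := ((a * b : infVal q M A) : XField q M)) (a * b).2
      (by rw [Subtype.coe_eta, map_mul, ha, hb]; rfl)
      ((apply_mem_infVal_iff hqM g.2 _).mpr (a * b).2), IntermediateField.coe_mul,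
      thetaFun_spec hqM g z a.2 ha h1, thetaFun_spec hqM g w b.2 hb h2, ← map_mul]
    exact congrArg _ (Subtype.ext (map_mul g.1 _ _))
  map_add' z w := Subtype.ext <| by
    obtain ⟨a, ha⟩ := exists_infRed_eq A z
    obtain ⟨b, hb⟩ := exists_infRed_eq A w
    have h1 := (apply_mem_infVal_iff hqM g.2 (a : XField q M)).mpr a.2
    have h2 := (apply_mem_infVal_iff hqM g.2 (b : XField q M)).mpr b.2
    rw [thetaFun_spec hqM g (z + w) (x := ((a + b : infVal q M A) : XField q M)) (a + b).2
      (by rw [Subtype.coe_eta, map_add, ha, hb]; rfl)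
      ((apply_mem_infVal_iff hqM g.2 _).mpr (a + b).2), IntermediateField.coe_add,
      thetaFun_spec hqM g z a.2 ha h1, thetaFun_spec hqM g w b.2 hb h2, ← map_add]
    exact congrArg _ (Subtype.ext (map_add g.1 _ _))

theorem thetaHom_mul (g h : decGroup A hqM) (z : resField q M A) :
    thetaHom hqM (g * h) z = thetaHom hqM g (thetaHom hqM h z) := by
  apply Subtype.ext
  obtain ⟨a, ha⟩ := exists_infRed_eq A z
  have h1 := (apply_mem_infVal_iff hqM h.2 (a : XField q M)).mpr a.2
  have h2 := (apply_mem_infVal_iff hqM g.2 _).mpr h1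
  show (thetaFun hqM (g * h) z : LaurentSeries (ResidueField A)) = thetaFun hqM g (thetaFun hqM h z)
  rw [thetaFun_spec hqM g (thetaFun hqM h z) h1 (thetaFun_spec hqM h z a.2 ha h1).symm h2,
    thetaFun_spec hqM (g * h) z a.2 ha h2]
  rfl

theorem thetaHom_one (z : resField q M A) : thetaHom hqM (1 : decGroup A hqM) z = z := by
  apply Subtype.ext
  obtain ⟨a, ha⟩ := exists_infRed_eq A z
  show (thetaFun hqM 1 z : LaurentSeries (ResidueField A)) = z
  rw [thetaFun_spec hqM 1 z a.2 ha a.2]
  exact ha

theorem thetaHom_algebraMap (g : decGroup A hqM) (c : ResidueField A) :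
    thetaHom hqM g (algebraMap _ (resField q M A) c) = algebraMap _ (resField q M A) c := by
  obtain ⟨a, rfl⟩ := residue_surjective c
  apply Subtype.ext
  show (thetaFun hqM g _ : LaurentSeries (ResidueField A)) = _
  rw [thetaFun_spec hqM g _ ((algebraMap_mem_infVal_iff A).2 a.2) (infRed_algebraMap_eq a)
    (by rw [infVal_coe_apply_algebraMap]; exact (algebraMap_mem_infVal_iff A).2 a.2)]
  exact (congrArg _ (Subtype.ext (infVal_coe_apply_algebraMap hqM g a))).trans
    (infRed_algebraMap_eq a)

theorem infRed_of_integral {x : XField q M} (hx : x ∈ infVal q M A) {y : LaurentSeries A}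
    (e : (x : LaurentSeries Qb) = coeffMap A.subtype y) :
    infRed q M A ⟨x, hx⟩ = coeffMap (residue A) y := by
  rw [infRed_eq A ⟨x, hx⟩ (y₁ := y) (y₂ := 1) (by simp) (by rw [map_one, mul_one]; exact e),
    map_one, div_one]

/-- The residual value of a conjugate of `j (d q τ)`. -/
def genRed (k : Type*) [CommRing k] (q d : ℕ) [NeZero q] [NeZero d] : Line q → LaurentSeries k
  | some _ => qExpand k d (jqModC k)
  | none => qExpand k (d * q * q) (jqModC k)

theorem exists_infRed_genElt (hA : A.LiesOverPrime q) {d : ℕ} [NeZero d] (hd : d ∣ M) (P : Line q) :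
    ∃ h : genElt q M hd P ∈ infVal q M A,
      infRed q M A ⟨_, h⟩ = genRed (ResidueField A) q d P := by
  obtain _ | b := P
  · have e : (genElt q M hd none : LaurentSeries Qb) =
        coeffMap A.subtype (qExpand A (d * q * q) (jqModC A)) := by
      rw [coeffMap_qExpand, coeffMap_jqModC]; rfl
    have h : genElt q M hd none ∈ infVal q M A := by
      rw [mem_infVal_iff, e]; exact coeffMap_mem_gaussSubring _
    exact ⟨h, by rw [infRed_of_integral h e, coeffMap_qExpand, coeffMap_jqModC]; rfl⟩
  · obtain ⟨z, hz1, hz2⟩ := exists_twist_integral hA b.val (qExpand A d (jqModC A))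
    have e : (genElt q M hd (some b) : LaurentSeries Qb) = coeffMap A.subtype z := by
      rw [hz1, coeffMap_qExpand, coeffMap_jqModC]; rfl
    have h : genElt q M hd (some b) ∈ infVal q M A := by
      rw [mem_infVal_iff, e]; exact coeffMap_mem_gaussSubring _
    exact ⟨h, by rw [infRed_of_integral h e, hz2, coeffMap_qExpand, coeffMap_jqModC]; rfl⟩

theorem exists_infRed_baseElt {d : ℕ} [NeZero d] (hd : d ∣ M) :
    ∃ h : baseElt q M hd ∈ infVal q M A, infRed q M A ⟨_, h⟩ =
      qExpand (ResidueField A) (d * q) (jqModC (ResidueField A)) := by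
  have e : (baseElt q M hd : LaurentSeries Qb) =
      coeffMap A.subtype (qExpand A (d * q) (jqModC A)) := by
    rw [coeffMap_qExpand, coeffMap_jqModC]; rfl
  have h : baseElt q M hd ∈ infVal q M A := by
    rw [mem_infVal_iff, e]; exact coeffMap_mem_gaussSubring _
  exact ⟨h, by rw [infRed_of_integral h e, coeffMap_qExpand, coeffMap_jqModC]⟩

/-- `j (t ^ d)` in the residual field. -/
def resGen (hA : A.LiesOverPrime q) {d : ℕ} [NeZero d] (hd : d ∣ M) : resField q M A :=
  ⟨qExpand (ResidueField A) d (jqModC (ResidueField A)), by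
    obtain ⟨h, e⟩ := exists_infRed_genElt hA hd (some (0 : ZMod q))
    have := infRed_mem_resField A ⟨_, h⟩
    rwa [e] at this⟩

theorem resGen_pow (hA : A.LiesOverPrime q) {d : ℕ} [NeZero d] (hd : d ∣ M) :
    ((resGen hA hd : resField q M A) : LaurentSeries (ResidueField A)) ^ q =
      qExpand (ResidueField A) (d * q) (jqModC (ResidueField A)) := by
  haveI := charP_residue q hA
  show (qExpand (ResidueField A) d (jqModC (ResidueField A))) ^ q = _
  rw [← map_pow, jqModC_pow_prime q, qExpand_qExpand]

theorem resGen_one_pow (hA : A.LiesOverPrime q) :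
    resGen (M := M) hA (one_dvd M) ^ q = jRed A hqM hA := by
  apply Subtype.ext
  rw [IntermediateField.coe_pow, resGen_pow]
  exact qExpand_congr (one_mul q) _

variable (hA : A.LiesOverPrime q)

theorem thetaHom_resGen_pow (g : decGroup A hqM) {d : ℕ} [NeZero d] (hd : d ∣ M) :
    thetaHom hqM g (resGen hA hd ^ q) = resGen hA hd ^ q := by
  obtain ⟨h, e⟩ := exists_infRed_baseElt (q := q) (M := M) (A := A) hd
  obtain ⟨γ, hγ⟩ := g.2.1
  have hfix : g.1 (baseElt q M hd) = baseElt q M hd := by rw [← hγ, sigma_baseElt]
  apply Subtype.ext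
  show (thetaFun hqM g _ : LaurentSeries (ResidueField A)) = _
  rw [thetaFun_spec hqM g _ h (by rw [e, IntermediateField.coe_pow, resGen_pow]) (by rwa [hfix]),
    IntermediateField.coe_pow, resGen_pow, ← e]
  exact congrArg _ (Subtype.ext hfix)

theorem thetaHom_resGen (g : decGroup A hqM) {d : ℕ} [NeZero d] (hd : d ∣ M) :
    thetaHom hqM g (resGen hA hd) = resGen hA hd := by
  haveI := charP_residue q hA
  haveI : CharP (resField q M A) q :=
    charP_of_injective_algebraMap (algebraMap (ResidueField A) (resField q M A)).injective q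
  have h := thetaHom_resGen_pow hqM hA g hd
  rw [map_pow] at h
  exact frobenius_inj (resField q M A) q (by rw [frobenius_def, frobenius_def, h])

include hA in
/-- The decomposition group fixes the point at infinity of the projective line. -/
theorem lineMul_none_of_mem (γ : Gamma0 M) (hγ : sigma hqM γ ∈ decGroup A hqM) :
    lineMul (none : Line q) (γ : SL(2, ℤ))⁻¹ = none := by
  haveI := charP_residue q hA
  by_contra hne
  obtain ⟨b, hb⟩ := Option.ne_none_iff_exists'.mp hne
  obtain ⟨h, e⟩ := exists_infRed_genElt hA (one_dvd M) (none : Line q)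
  obtain ⟨h', e'⟩ := exists_infRed_genElt hA (one_dvd M) (some b : Line q)
  set g : decGroup A hqM := ⟨_, hγ⟩
  have e1 : sigma hqM γ (genElt q M (one_dvd M) none) = genElt q M (one_dvd M) (some b) := by
    rw [sigma_genElt, hb]
  set s := resGen (M := M) hA (one_dvd M)
  have hs : ((s ^ (q * q) : resField q M A) : LaurentSeries (ResidueField A)) =
      genRed (ResidueField A) q 1 none := by
    rw [pow_mul, IntermediateField.coe_pow, IntermediateField.coe_pow, resGen_pow, ← map_pow,
      jqModC_pow_prime q, qExpand_qExpand]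
    rfl
  have h1 : thetaHom hqM g (s ^ (q * q)) = s := by
    apply Subtype.ext
    show (thetaFun hqM g _ : LaurentSeries (ResidueField A)) = _
    rw [thetaFun_spec hqM g _ h (e.trans hs.symm) (by show sigma hqM γ _ ∈ _; rwa [e1])]
    exact ((congrArg _ (Subtype.ext e1)).trans e').trans rfl
  rw [map_pow, thetaHom_resGen] at h1
  have hq2 : 2 ≤ q * q := by
    have := (Fact.out : q.Prime).two_le
    nlinarith
  have ht : Transcendental (ResidueField A) (qExpand (ResidueField A) 1 (jqModC (ResidueField A))) := by
    rw [qExpand_one_apply]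
    exact transcendental_jqModC _
  refine ht ⟨Polynomial.X ^ (q * q) - Polynomial.X, FiniteField.X_pow_card_sub_X_ne_zero _ (by omega), ?_⟩
  rw [map_sub, map_pow, Polynomial.aeval_X, sub_eq_zero]
  exact congrArg (fun z : resField q M A => (z : LaurentSeries (ResidueField A))) h1

/-- The constant field of rational functions in the reduction of `j`. -/
abbrev ratField : IntermediateField (ResidueField A) (resField q M A) :=
  IntermediateField.adjoin (ResidueField A) {jRed A hqM hA}

theorem thetaHom_fix_ratField (g : decGroup A hqM) {z : resField q M A}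
    (hz : z ∈ ratField hqM hA) : thetaHom hqM g z = z := by
  induction hz using IntermediateField.adjoin_induction with
  | mem x hx =>
    rw [Set.mem_singleton_iff.mp hx, ← resGen_one_pow, thetaHom_resGen_pow]
  | algebraMap c => exact thetaHom_algebraMap hqM g c
  | add x y _ _ hx hy => rw [map_add, hx, hy]
  | inv x _ hx => rw [map_inv₀, hx]
  | mul x y _ _ hx hy => rw [map_mul, hx, hy]

/-- The action of the decomposition group on the residual field. -/
def thetaAut : decGroup A hqM →* (resField q M A ≃ₐ[ratField hqM hA] resField q M A) where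
  toFun g :=
    { toFun := thetaHom hqM g
      invFun := thetaHom hqM g⁻¹
      left_inv := fun z => by rw [← thetaHom_mul, inv_mul_cancel, thetaHom_one]
      right_inv := fun z => by rw [← thetaHom_mul, mul_inv_cancel, thetaHom_one]
      map_mul' := map_mul (thetaHom hqM g)
      map_add' := map_add (thetaHom hqM g)
      commutes' := fun c => thetaHom_fix_ratField hqM hA g c.2 }
  map_one' := AlgEquiv.ext fun z => thetaHom_one hqM z
  map_mul' g h := AlgEquiv.ext fun z => thetaHom_mul hqM g h z

include hA in
/-- The difference quotient of two conjugates of `j (τ / q)` and its residue. -/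
theorem exists_infRed_diffElt (b c : ZMod q) :
    ∃ h : algebraMap Qb (XField q M) (((zetaQ q : Qb) - 1)⁻¹) *
        (genElt q M (one_dvd M) (some b) - genElt q M (one_dvd M) (some c)) ∈ infVal q M A,
      infRed q M A ⟨_, h⟩ = ((b.val : ResidueField A) - (c.val : ResidueField A)) •
        thetaSeries (jqModC (ResidueField A)) := by
  have hne : (zetaQ q : Qb) - 1 ≠ 0 := sub_ne_zero.mpr
    ((isPrimitiveRoot_zetaQ q).ne_one (Fact.out : q.Prime).one_lt)
  obtain ⟨zb, hb1, hb2⟩ := exists_diffQuotient hA b.val (qExpand A 1 (jqModC A))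
  obtain ⟨zc, hc1, hc2⟩ := exists_diffQuotient hA c.val (qExpand A 1 (jqModC A))
  generalize hg : algebraMap Qb (XField q M) (((zetaQ q : Qb) - 1)⁻¹) *
      (genElt q M (one_dvd M) (some b) - genElt q M (one_dvd M) (some c)) = g
  have hgen : ∀ a : ZMod q, (gen q 1 (some a)) =
      seriesTwist (zetaQ q ^ a.val) (coeffMap A.subtype (qExpand A 1 (jqModC A))) := by
    intro a
    rw [coeffMap_qExpand, coeffMap_jqModC]; rfl
  have e : (g : LaurentSeries Qb) = coeffMap A.subtype (zb - zc) := by
    apply mul_left_cancel₀ (b := (g : LaurentSeries Qb))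
      (show (HahnSeries.single (0 : ℤ) ((zetaQ q : Qb) - 1)) ≠ 0 from
        HahnSeries.single_ne_zero hne)
    rw [RingHom.map_sub (coeffMap A.subtype), _root_.mul_sub, hb1, hc1, ← hg,
      IntermediateField.coe_mul]
    show _ * (algebraMap Qb (LaurentSeries Qb) _ * (gen q 1 (some b) - gen q 1 (some c))) = _
    rw [algebraMap_laurentSeries_eq_single, ← mul_assoc, HahnSeries.single_mul_single, add_zero,
      mul_inv_cancel₀ hne, hgen, hgen]
    show 1 * _ = _
    ring
  have h : g ∈ infVal q M A := by rw [mem_infVal_iff, e]; exact coeffMap_mem_gaussSubring _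
  refine ⟨h, ?_⟩
  rw [infRed_of_integral h e, map_sub, hb2, hc2, coeffMap_qExpand, coeffMap_jqModC,
    qExpand_one_apply, sub_smul]

theorem card_decGroup_le :
    Nat.card (decGroup A hqM) ≤ q * Nat.card (thetaAut (A := A) hqM hA).range := by
  classical
  haveI := charP_residue q hA
  have hγ : ∀ g : decGroup A hqM, ∃ γ : Gamma0 M, sigma hqM γ = g.1 := fun g => g.2.1
  choose γ hγ using hγ
  let L : decGroup A hqM → Line q → Line q := fun g P => lineMul P ((γ g : SL(2, ℤ))⁻¹)
  have hnone : ∀ g, L g none = none := fun g =>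
    lineMul_none_of_mem hqM hA (γ g) (by rw [hγ]; exact g.2)
  -- a member of the kernel translates
  have hker : ∀ g ∈ (thetaAut (A := A) hqM hA).ker, ∃ v : ZMod q,
      ∀ b, L g (some b) = some (b + v) := by
    intro g hg
    have hinv : (((γ g : SL(2, ℤ))⁻¹ 1 0 : ℤ) : ZMod q) = 0 := by
      have := hnone g
      simp only [L, lineMul_none] at this
      by_contra h
      rw [if_neg h] at this
      simp at this
    set δ : SL(2, ℤ) := (γ g : SL(2, ℤ))⁻¹ with hδ
    have hdet : ((δ 0 0 : ℤ) : ZMod q) * ((δ 1 1 : ℤ) : ZMod q) = 1 := by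
      have h2 := (redQ q δ).2
      rw [Matrix.det_fin_two] at h2
      simpa [redQ_apply, hinv] using h2
    have hα : ((δ 0 0 : ℤ) : ZMod q) ≠ 0 := fun h => by simp [h] at hdet
    set u : ZMod q := ((δ 1 1 : ℤ) : ZMod q) / ((δ 0 0 : ℤ) : ZMod q)
    set v : ZMod q := ((δ 0 1 : ℤ) : ZMod q) / ((δ 0 0 : ℤ) : ZMod q)
    have hL : ∀ b, L g (some b) = some (b * u + v) := by
      intro b
      show lineMul (some b) δ = _
      rw [lineMul_some, hinv, mul_zero, add_zero, if_neg hα]
      congr 1
      simp only [u, v]
      field_simp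
      ring
    -- the difference quotient of `1` and `0`
    obtain ⟨h1, e1⟩ := exists_infRed_diffElt (q := q) (M := M) (A := A) hA (1 : ZMod q) 0
    obtain ⟨h2, e2⟩ := exists_infRed_diffElt (q := q) (M := M) (A := A) hA (u + v) v
    set r : resField q M A := ⟨_, infRed_mem_resField A ⟨_, h1⟩⟩
    have hgr : g.1 (algebraMap Qb (XField q M) (((zetaQ q : Qb) - 1)⁻¹) *
        (genElt q M (one_dvd M) (some (1 : ZMod q)) - genElt q M (one_dvd M) (some 0))) =
        algebraMap Qb (XField q M) (((zetaQ q : Qb) - 1)⁻¹) *
        (genElt q M (one_dvd M) (some (u + v)) - genElt q M (one_dvd M) (some v)) := by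
      rw [← hγ, map_mul, map_sub, AlgEquiv.commutes, sigma_genElt, sigma_genElt]
      simp only [L] at hL
      rw [hL, hL, one_mul, zero_mul, zero_add]
    have h3 : thetaHom hqM g r = r := DFunLike.congr_fun (MonoidHom.mem_ker.mp hg) r
    have h4 := congrArg (fun z : resField q M A => (z : LaurentSeries (ResidueField A))) h3
    simp only [r] at h4
    change (thetaFun hqM g _ : LaurentSeries (ResidueField A)) = _ at h4
    rw [thetaFun_spec hqM g _ h1 rfl ((apply_mem_infVal_iff hqM g.2 _).mpr h1)] at h4
    rw [infRed_congr A hgr _ h2, e2] at h4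
    have h5 := congrArg (fun z : LaurentSeries (ResidueField A) => z.coeff (-1))
      (h4.trans e1)
    have hcast : ∀ b : ZMod q,
        (b.val : ResidueField A) = ZMod.castHom (dvd_refl q) (ResidueField A) b := fun b => by
      rw [ZMod.castHom_apply, ZMod.natCast_val]
    simp only [HahnSeries.coeff_smul, thetaSeries_coeff, coeff_jqModC_neg_one, smul_eq_mul,
      mul_one, Int.cast_neg, Int.cast_one, mul_neg, neg_inj, hcast, ← map_sub] at h5
    have h6 : u + v - v = 1 - 0 := (ZMod.castHom_injective (ResidueField A)) h5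
    have hu : u = 1 := by simpa using h6
    exact ⟨v, fun b => by rw [hL, hu, mul_one]⟩
  choose v hv using hker
  have hinj : Function.Injective fun g : (thetaAut (A := A) hqM hA).ker => v g.1 g.2 := by
    intro g g' e
    apply Subtype.ext; apply Subtype.ext
    rw [← hγ, ← hγ]
    refine algEquiv_ext_genSeries fun i => ?_
    rw [sigma_genSeriesElt, sigma_genSeriesElt]
    obtain ⟨d, _ | _ | b⟩ := i
    · rfl
    · show genSeriesElt (d, some (L g.1 none)) = genSeriesElt (d, some (L g'.1 none))
      rw [hnone, hnone]
    · show genSeriesElt (d, some (L g.1 (some b))) = genSeriesElt (d, some (L g'.1 (some b)))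
      rw [hv _ g.2, hv _ g'.2]
      simp only at e
      rw [e]
  have h1 : Nat.card (thetaAut (A := A) hqM hA).ker ≤ q := by
    simpa using Nat.card_le_card_of_injective _ hinj
  have h2 := Subgroup.card_mul_index (thetaAut (A := A) hqM hA).ker
  rw [Subgroup.index_ker] at h2
  rw [← h2]
  exact Nat.mul_le_mul_right _ h1

variable [Module.Finite (ratField hqM hA) (resField q M A)]

theorem mul_le_finrank_resField :
    dedekindPsi M * Nat.card (decGroup A hqM) ≤
      Module.finrank (ratField hqM hA) (resField q M A) := by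
  classical
  haveI := charP_residue q hA
  set H := (thetaAut (A := A) hqM hA).range
  haveI : Finite H := Finite.of_surjective _ (thetaAut (A := A) hqM hA).rangeRestrict_surjective
  have hH := IntermediateField.finrank_fixedField_eq_card H
  set E := IntermediateField.fixedField H
  have hfix : ∀ {d : ℕ} [NeZero d] (hd : d ∣ M), resGen hA hd ∈ E := by
    intro d _ hd f
    obtain ⟨g, hg⟩ := f.2
    show f.1 (resGen hA hd) = resGen hA hd
    rw [← hg]
    exact thetaHom_resGen hqM hA g hd
  let s : E := ⟨resGen hA (one_dvd M), hfix _⟩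
  let y : E := ⟨resGen hA (dvd_refl M), hfix _⟩
  let w : Fin q × Fin (dedekindPsi M) → E := fun p => s ^ (p.1 : ℕ) * y ^ (p.2 : ℕ)
  have hw : LinearIndependent (ratField hqM hA) w := by
    refine linearIndependent_adjoin_simple_of_poly _ (fun p => w p) fun P hP => ?_
    have h0 : ∑ r, ∑ i, Polynomial.aeval (jqModC (ResidueField A) ^ q) (P (r, i)) *
        (jqModC (ResidueField A) ^ (r : ℕ) * jqNModC (ResidueField A) M ^ (i : ℕ)) = 0 := by
      have h1 : ∑ p, Polynomial.aeval (jRed A hqM hA) (P p) * ((w p : E) : resField q M A) = 0 := by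
        have h := congrArg E.val hP
        rw [map_sum, map_zero] at h
        exact h
      have h2 := congrArg (resField q M A).val h1
      rw [map_sum, map_zero, Fintype.sum_prod_type] at h2
      refine Eq.trans ?_ h2
      refine Finset.sum_congr rfl fun r _ => Finset.sum_congr rfl fun i _ => ?_
      have hj : jqModC (ResidueField A) ^ q = (resField q M A).val (jRed A hqM hA) :=
        jqModC_pow_prime q
      rw [map_mul, ← Polynomial.aeval_algHom_apply, hj]
      congr 1
      show _ = ((s : resField q M A) ^ (r : ℕ) * (y : resField q M A) ^ (i : ℕ) :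
        LaurentSeries (ResidueField A))
      simp only [s, y, resGen]
      rw [qExpand_one_apply]
      rfl
    have := eq_zero_of_sum_expand (NeZero.pos q) _ _
      (fun a ha => eq_zero_of_sum_jqNModC hA hqM a ha) (fun r i => P (r, i)) h0
    funext p
    exact congrFun (congrFun this p.1) p.2
  have h1 : q * dedekindPsi M ≤ Module.finrank (ratField hqM hA) E := by
    simpa using hw.fintype_card_le_finrank
  calc dedekindPsi M * Nat.card (decGroup A hqM)
      ≤ dedekindPsi M * (q * Nat.card H) := Nat.mul_le_mul_left _ (card_decGroup_le hqM hA)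
    _ = q * dedekindPsi M * Module.finrank E (resField q M A) := by rw [hH]; ring
    _ ≤ Module.finrank (ratField hqM hA) E * Module.finrank E (resField q M A) :=
        Nat.mul_le_mul_right _ h1
    _ = _ := Module.finrank_mul_finrank _ _ _

end Fermat.Agent.Carayol
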