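/-
The family of components is complete, and the residual field is a function field.
-/
import Fermat.Agent.Carayol.ValuationsExhaust

set_option autoImplicit false
set_option linter.style.haveILetI false
set_option maxHeartbeats 1000000

noncomputable section

namespace Fermat.Agent.Carayol

open ModularCurve IntermediateField AlgebraicCurve CongruenceSubgroup IsLocalRing
open scoped MatrixGroups

variable {q : ℕ} [Fact q.Prime] {M : ℕ} [NeZero M] (A : ValuationSubring Qb) (hqM : ¬ q ∣ M)

theorem le_of_le_compVal_of_isOfFinOrder {a : XField q M ≃ₐ[Qb] XField q M} (ha : IsOfFinOrder a)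
    (h : ∀ x, a x ∈ infVal q M A → x ∈ infVal q M A) (x : XField q M) (hx : x ∈ infVal q M A) :
    a x ∈ infVal q M A := by
  have hdown : ∀ (j : ℕ) (y : XField q M), (a ^ j) y ∈ infVal q M A → y ∈ infVal q M A := by
    intro j
    induction j with
    | zero => intro y hy; simpa using hy
    | succ j ih =>
      intro y hy
      rw [pow_succ', AlgEquiv.mul_apply] at hy
      exact ih y (h _ hy)
  refine hdown (orderOf a - 1) _ ?_
  rw [← AlgEquiv.mul_apply, ← pow_succ, Nat.sub_add_cancel ha.orderOf_pos, pow_orderOf_eq_one]
  simpa using hx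

/-- Distinct components are incomparable. -/
theorem exists_mem_not_mem_compVal {g h : XField q M ≃ₐ[Qb] XField q M}
    (hg : g ∈ autGroup (M := M) hqM) (hh : h ∈ autGroup (M := M) hqM)
    (hne : compVal A g ≠ compVal A h) : ∃ f, f ∈ compVal A g ∧ f ∉ compVal A h := by
  by_contra hc
  push Not at hc
  apply hne
  haveI := autGroup_finite (M := M) hqM
  have ha : IsOfFinOrder (g * h⁻¹) := by
    have := isOfFinOrder_of_finite (⟨_, mul_mem hg (inv_mem hh)⟩ : autGroup (M := M) hqM)
    exact (autGroup (M := M) hqM).subtype.isOfFinOrder this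
  have hinv : ∀ y, (g * h⁻¹) (h y) = g y := fun y => by
    rw [← AlgEquiv.mul_apply, inv_mul_cancel_right]
  have hsub : ∀ x, (g * h⁻¹) x ∈ infVal q M A → x ∈ infVal q M A := by
    intro x hx
    have hx' : h (h⁻¹ x) = x := by rw [← AlgEquiv.mul_apply, mul_inv_cancel, AlgEquiv.one_apply]
    rw [← hx'] at hx ⊢
    rw [hinv] at hx
    exact (mem_compVal_iff A).mp (hc _ ((mem_compVal_iff A).mpr hx))
  ext x
  refine ⟨hc x, fun hx => ?_⟩
  rw [mem_compVal_iff, ← hinv]
  exact le_of_le_compVal_of_isOfFinOrder A ha hsub _ ((mem_compVal_iff A).mp hx)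

variable {A} (hA : A.LiesOverPrime q)

/-- Residual independent families on distinct components. -/
theorem sum_card_le_finrank_xField {ι : Type*} [Fintype ι] (γ : ι → Gamma0 M)
    (hne : ∀ i j, i ≠ j → compVal A (sigma hqM (γ i)) ≠ compVal A (sigma hqM (γ j)))
    {σ : ι → Type*} [∀ i, Fintype (σ i)] (w : ∀ i, σ i → resField q M A)
    (hw : ∀ i, LinearIndependent (ratField hqM hA) (w i)) :
    ∑ i, Fintype.card (σ i) ≤
      Module.finrank (IntermediateField.adjoin Qb {jElt q M}) (XField q M) := by
  classical
  haveI := isFunctionFieldOne_xField (q := q) (M := M) hqM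
  haveI := Curve.finite_adjoin_of_transcendental (transcendental_jElt (q := q) (M := M))
  choose hx hxe using fun i => exists_compRed_jElt (A := A) hqM (γ i)
  have hj : ∀ i, compRed A (sigma hqM (γ i)) ⟨jElt q M, hx i⟩ = jRed A hqM hA := fun i =>
    Subtype.ext (hxe i)
  choose l hl using fun i (s : σ i) => compRed_surjective A (sigma hqM (γ i)) (w i s)
  have cast : ∀ {a b : resField q M A} (_ : a = b) {τ : Type _} (v : τ → resField q M A),
      LinearIndependent (ResidueField A)⟮a⟯ v → LinearIndependent (ResidueField A)⟮b⟯ v := by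
    intro a b e τ v h; subst e; exact h
  exact sum_card_le_finrank (residue A) (fun i => compVal A (sigma hqM (γ i)))
    (fun i => compRed A (sigma hqM (γ i)))
    (fun i a => (algebraMap_mem_compVal_iff A _).2 a.2)
    (fun i a => compRed_algebraMap A _ a)
    (fun i => ker_compRed A _)
    (fun i j hij => exists_mem_not_mem_compVal A hqM ⟨γ i, rfl⟩ ⟨γ j, rfl⟩ (hne i j hij))
    hx (fun i => by rw [hj]; exact transcendental_jRed A hqM hA) l
    (fun i => cast (hj i).symm _ (by simpa only [hl] using hw i))

theorem finite_ratField_resField : Module.Finite (ratField hqM hA) (resField q M A) := by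
  refine Module.rank_lt_aleph0_iff.mp (lt_of_le_of_lt (rank_le
    (n := Module.finrank (IntermediateField.adjoin Qb {jElt q M}) (XField q M)) fun s hs => ?_)
    (Cardinal.natCast_lt_aleph0))
  have := sum_card_le_finrank_xField hqM hA (ι := Unit) (fun _ => 1)
    (fun i j h => absurd rfl h) (σ := fun _ => ↥s) (fun _ x => (x : resField q M A)) (fun _ => hs)
  simpa using this

include hqM hA in
theorem isFunctionFieldOne_resField :
    Curve.IsFunctionFieldOne (ResidueField A) (resField q M A) :=
  haveI := finite_ratField_resField hqM hA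
  Curve.IsFunctionFieldOne.of_finite (transcendental_jRed A hqM hA)

theorem card_autGroup_eq :
    Nat.card (autGroup (M := M) hqM) = (compSet A hqM).ncard * Nat.card (decGroup A hqM) := by
  classical
  haveI := autGroup_finite (M := M) hqM
  haveI := Fintype.ofFinite (autGroup (M := M) hqM)
  haveI := Fintype.ofFinite (decGroup A hqM)
  let f : autGroup (M := M) hqM → ValuationSubring (XField q M) := fun g => compVal A g.1
  have himg : (compSet A hqM) = ((Finset.univ.image f : Finset _) : Set _) := by
    ext V
    simp only [compSet, Set.mem_range, Finset.coe_image, Finset.coe_univ, Set.image_univ, f]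
    constructor
    · rintro ⟨γ, rfl⟩; exact ⟨⟨_, γ, rfl⟩, rfl⟩
    · rintro ⟨⟨_, γ, rfl⟩, rfl⟩; exact ⟨γ, rfl⟩
  have hfib : ∀ V ∈ Finset.univ.image f,
      (Finset.univ.filter fun g => f g = V).card = Fintype.card (decGroup A hqM) := by
    intro V hV
    obtain ⟨⟨g₀, hg₀⟩, -, rfl⟩ := Finset.mem_image.mp hV
    have hmem : ∀ g : XField q M ≃ₐ[Qb] XField q M,
        compVal A g = compVal A g₀ ↔ compVal A (g * g₀⁻¹) = infVal q M A := by
      intro g
      constructor
      · intro h
        rw [compVal_mul, h, ← compVal_mul, mul_inv_cancel, compVal_one]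
      · intro h
        conv_lhs => rw [← inv_mul_cancel_right g g₀, compVal_mul, h]
        rfl
    rw [← Fintype.card_subtype]
    refine Fintype.card_congr
      { toFun := fun g => ⟨g.1.1 * g₀⁻¹, mul_mem g.1.2 (inv_mem hg₀), (hmem _).mp g.2⟩
        invFun := fun d => ⟨⟨d.1 * g₀, mul_mem d.2.1 hg₀⟩, (hmem _).mpr (by
          show compVal A (d.1 * g₀ * g₀⁻¹) = _
          rw [mul_inv_cancel_right]; exact d.2.2)⟩
        left_inv := fun g => Subtype.ext (Subtype.ext (inv_mul_cancel_right _ _))
        right_inv := fun d => Subtype.ext (mul_inv_cancel_right _ _) }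
  rw [Nat.card_eq_fintype_card, Nat.card_eq_fintype_card, himg, Set.ncard_coe_finset,
    ← Finset.card_univ, Finset.card_eq_sum_card_image f, Finset.sum_congr rfl hfib,
    Finset.sum_const, smul_eq_mul]

/-- A complete family of components: no ramification, no lost degree. -/
theorem finrank_eq_ncard_mul :
    Module.finrank (IntermediateField.adjoin Qb {jElt q M}) (XField q M) =
      (compSet A hqM).ncard *
        Module.finrank (IntermediateField.adjoin (ResidueField A) {jRed A hqM hA})
          (resField q M A) := by
  classical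
  haveI := finite_ratField_resField (q := q) (M := M) hqM hA
  refine le_antisymm ?_ ?_
  · rw [finrank_xField hqM, card_autGroup_eq (A := A) hqM, mul_assoc, mul_comm (Nat.card _)]
    exact Nat.mul_le_mul_left _ (mul_le_finrank_resField hqM hA)
  · haveI := (finite_compSet A hqM).fintype
    have hγ : ∀ V : compSet A hqM, ∃ γ : Gamma0 M, compVal A (sigma hqM γ) = V.1 := fun V => V.2
    choose γ hγ using hγ
    have := sum_card_le_finrank_xField hqM hA γ (fun i j h => by
        rw [hγ, hγ]; exact fun e => h (Subtype.ext e))
      (σ := fun _ => Fin (Module.finrank (ratField hqM hA) (resField q M A)))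
      (fun _ => ⇑(Module.finBasis (ratField hqM hA) (resField q M A)))
      (fun _ => (Module.finBasis (ratField hqM hA) (resField q M A)).linearIndependent)
    rw [Finset.sum_const, Finset.card_univ, Fintype.card_fin, smul_eq_mul,
      ← Nat.card_eq_fintype_card, Nat.card_coe_set_eq] at this
    exact this

end Fermat.Agent.Carayol
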