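/-
The two components of the special fibre of the field fixed by the unipotent group: the
restrictions of the component at infinity and of its translate by the Weyl element, with their
residual fields, and the action of inertia on them.
-/
import Fermat.Agent.Carayol.LTwoCompTransport
import Fermat.Agent.Carayol.ValuationsComplete

set_option autoImplicit false
set_option linter.style.haveILetI false
set_option synthInstance.maxHeartbeats 400000

noncomputable section

open scoped MatrixGroups

namespace Fermat.Agent.Carayol.LTwoComp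

open AlgebraicCurve ModularCurve Cuspidal IsLocalRing

attribute [-simp] ZMod.inv_coe_unit
attribute [local simp] Units.val_inv_eq_inv_val

variable {q : ℕ} [Fact q.Prime] {M : ℕ} [NeZero M] (A : ValuationSubring Qb) (hqM : ¬ q ∣ M)

/-- An intermediate field containing a base over which the field is finite is a function field. -/
theorem isFunctionFieldOne_of_adjoin_le {k E : Type} [Field k] [Field E] [Algebra k E]
    [Curve.IsFunctionFieldOne k E] {S : IntermediateField k E} (K : IntermediateField k E)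
    [Module.Finite K E] (h : K ≤ S) : Curve.IsFunctionFieldOne k S := by
  letI := (IntermediateField.inclusion h).toRingHom.toAlgebra
  haveI : IsScalarTower K S E := IsScalarTower.of_algebraMap_eq fun _ => rfl
  haveI : Module.Finite S E := Module.Finite.of_restrictScalars_finite K S E
  exact Curve.IsFunctionFieldOne.of_finite_subextension (F' := E)

/-- The translates defining the two components. -/
def instAut : Fin 2 → (XField q M ≃ₐ[Qb] XField q M)
  | 0 => 1
  | 1 => autHom hqM weyl

/-- The two valuations of the fixed field. -/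
def instVal (i : Fin 2) : ValuationSubring (unipFix hqM) :=
  (compVal A (instAut hqM i)).comap (unipFix hqM).val.toRingHom

theorem mem_instVal_iff {i : Fin 2} {f : unipFix hqM} :
    f ∈ instVal A hqM i ↔ instAut hqM i (f : XField q M) ∈ infVal q M A := Iff.rfl

theorem algebraMap_mem_instVal_iff (i : Fin 2) {a : Qb} :
    algebraMap Qb (unipFix hqM) a ∈ instVal A hqM i ↔ a ∈ A :=
  algebraMap_mem_compVal_iff A (instAut hqM i)

/-- The reductions, in the residual field of `X(q; M)`. -/
def instHom (i : Fin 2) : instVal A hqM i →+* resField q M A :=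
  (compRed A (instAut hqM i)).comp
    (((unipFix hqM).val.toRingHom.comp (instVal A hqM i).subtype).codRestrict _ fun f => f.2)

theorem coe_instHom (i : Fin 2) (f : unipFix hqM) (h : f ∈ instVal A hqM i)
    (h' : instAut hqM i (f : XField q M) ∈ infVal q M A) :
    (instHom A hqM i ⟨f, h⟩ : LaurentSeries (ResidueField A)) = infRed q M A ⟨_, h'⟩ := rfl

/-- The residual fields of the two components. -/
def instRes (i : Fin 2) : IntermediateField (ResidueField A) (resField q M A) :=
  IntermediateField.adjoin (ResidueField A) (Set.range (instHom A hqM i))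

/-- Shortcut instance. -/
instance fieldInstRes (i : Fin 2) : Field (instRes A hqM i) := (instRes A hqM i).toField

/-- Shortcut instance. -/
instance algebraInstRes (i : Fin 2) : Algebra (ResidueField A) (instRes A hqM i) :=
  (instRes A hqM i).toSubalgebra.algebra

/-- The reductions on the two components. -/
def instPhi (i : Fin 2) : instVal A hqM i →+* instRes A hqM i :=
  (instHom A hqM i).codRestrict (instRes A hqM i) fun f =>
    IntermediateField.subset_adjoin _ _ ⟨f, rfl⟩

theorem coe_instPhi (i : Fin 2) (f : instVal A hqM i) :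
    (instPhi A hqM i f : resField q M A) = instHom A hqM i f := rfl

theorem instPhi_algebraMap (i : Fin 2) (a : A) :
    instPhi A hqM i ⟨algebraMap Qb (unipFix hqM) a,
        (algebraMap_mem_instVal_iff A hqM i).2 a.2⟩ =
      algebraMap (ResidueField A) (instRes A hqM i) (residue A a) := by
  apply Subtype.ext
  exact compRed_algebraMap A (instAut hqM i) a

theorem instPhi_eq_zero_iff (i : Fin 2) (f : instVal A hqM i) :
    instPhi A hqM i f = 0 ↔ ¬ IsUnit f := by
  refine ⟨fun h hu => ?_, fun h => ?_⟩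
  · have := hu.map (instPhi A hqM i)
    rw [h] at this
    exact not_isUnit_zero this
  · by_contra hne
    have h0 : compRed A (instAut hqM i) ⟨((f : unipFix hqM) : XField q M), f.2⟩ ≠ 0 := fun h' =>
      hne (Subtype.ext h')
    have hk := ker_compRed A (instAut hqM i)
    have hu : IsUnit (⟨((f : unipFix hqM) : XField q M), f.2⟩ : compVal A (instAut hqM i)) := by
      by_contra hnu
      refine h0 (RingHom.mem_ker.1 ?_)
      rw [hk, IsLocalRing.mem_maximalIdeal]
      exact hnu
    obtain ⟨g, hg⟩ := isUnit_iff_exists_inv.1 hu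
    have hg' : ((f : unipFix hqM) : XField q M) * (g : XField q M) = 1 := congrArg Subtype.val hg
    have hgV : (f : unipFix hqM)⁻¹ ∈ instVal A hqM i := by
      show (((f : unipFix hqM)⁻¹ : unipFix hqM) : XField q M) ∈ compVal A (instAut hqM i)
      rw [show (((f : unipFix hqM)⁻¹ : unipFix hqM) : XField q M) =
        (((f : unipFix hqM) : XField q M))⁻¹ from map_inv₀ (unipFix hqM).val _,
        inv_eq_of_mul_eq_one_right hg']
      exact g.2
    refine h (isUnit_iff_exists_inv.2 ⟨⟨_, hgV⟩, Subtype.ext (mul_inv_cancel₀ fun h' => ?_)⟩)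
    exact hne (by rw [show f = 0 from Subtype.ext h', map_zero])

theorem instPhi_scale (i : Fin 2) {f : unipFix hqM} (hf : f ≠ 0) :
    ∃ c : Qb, ∃ h : c • f ∈ instVal A hqM i, instPhi A hqM i ⟨_, h⟩ ≠ 0 := by
  have hf' : (f : XField q M) ≠ 0 := fun h => hf (Subtype.ext h)
  obtain ⟨c, h, hne⟩ := exists_scale A (instAut hqM i) hf'
  have e : ((c • f : unipFix hqM) : XField q M) = algebraMap Qb (XField q M) c * f :=
    Algebra.smul_def c (f : XField q M)
  have hmem : c • f ∈ instVal A hqM i := by
    show ((c • f : unipFix hqM) : XField q M) ∈ compVal A (instAut hqM i)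
    rw [e]; exact h
  refine ⟨c, hmem, fun h0 => hne ?_⟩
  have h1 : compRed A (instAut hqM i) ⟨((c • f : unipFix hqM) : XField q M), hmem⟩ = 0 :=
    congrArg Subtype.val h0
  exact (congrArg (compRed A (instAut hqM i)) (Subtype.ext e.symm)).trans h1

theorem instPhi_surjective (i : Fin 2) : Function.Surjective (instPhi A hqM i) := by
  rintro ⟨z, hz⟩
  suffices ∃ f, instHom A hqM i f = z from this.imp fun f hf => Subtype.ext hf
  induction hz using IntermediateField.adjoin_induction with
  | mem z hz => exact hz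
  | algebraMap c =>
    obtain ⟨a, rfl⟩ := IsLocalRing.residue_surjective c
    exact ⟨_, congrArg Subtype.val (instPhi_algebraMap A hqM i a)⟩
  | add x y _ _ hx hy =>
    obtain ⟨a, rfl⟩ := hx
    obtain ⟨b, rfl⟩ := hy
    exact ⟨a + b, map_add _ a b⟩
  | inv x _ hx =>
    obtain ⟨a, rfl⟩ := hx
    by_cases h : IsUnit a
    · obtain ⟨b, hb⟩ := isUnit_iff_exists_inv.1 h
      exact ⟨b, eq_inv_of_mul_eq_one_right (by rw [← map_mul, hb, map_one])⟩
    · refine ⟨0, ?_⟩
      have h0 : instHom A hqM i a = 0 :=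
        congrArg Subtype.val ((instPhi_eq_zero_iff A hqM i a).2 h)
      rw [h0, inv_zero, map_zero]
  | mul x y _ _ hx hy =>
    obtain ⟨a, rfl⟩ := hx
    obtain ⟨b, rfl⟩ := hy
    exact ⟨a * b, map_mul _ a b⟩

theorem jElt_mem_unipFix : jElt q M ∈ unipFix hqM :=
  (mem_unipFix hqM).2 fun β => autHom_baseElt hqM (uni β) (one_dvd M)

include hqM in
theorem instHom_jElt (hA : A.LiesOverPrime q) (i : Fin 2) :
    ∃ h : (⟨jElt q M, jElt_mem_unipFix hqM⟩ : unipFix hqM) ∈ instVal A hqM i,
      instHom A hqM i ⟨_, h⟩ = jRed A hqM hA := by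
  obtain ⟨h, e⟩ := exists_infRed_jElt (q := q) (M := M) A
  have hfix : instAut hqM i (jElt q M) = jElt q M := by
    fin_cases i
    · rfl
    · exact autHom_baseElt hqM weyl (one_dvd M)
  refine ⟨by rw [mem_instVal_iff, hfix]; exact h, Subtype.ext ?_⟩
  exact (infRed_congr A hfix _ h).trans e

theorem isFunctionFieldOne_instRes (hA : A.LiesOverPrime q) (i : Fin 2) :
    Curve.IsFunctionFieldOne (ResidueField A) (instRes A hqM i) := by
  haveI := isFunctionFieldOne_resField hqM hA
  haveI := finite_ratField_resField (q := q) (M := M) hqM hA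
  obtain ⟨h, e⟩ := instHom_jElt A hqM hA i
  exact isFunctionFieldOne_of_adjoin_le (ratField hqM hA)
    (IntermediateField.adjoin_le_iff.2 (Set.singleton_subset_iff.2
      (IntermediateField.subset_adjoin _ _ ⟨_, e⟩)))

/-- Inertia is trivial on the component at infinity. -/
theorem instPhi_unipGal_zero {σ : Qb ≃ₐ[ℚ] Qb} (hσ : σ ∈ A.inertiaSubgroupIn ℚ) (c : (ZMod q)ˣ)
    (hc : σ (zetaQ q : Qb) = (zetaQ q : Qb) ^ (c : ZMod q).val) (f : instVal A hqM 0) :
    ∃ h : unipGal hqM σ c hc • (f : unipFix hqM) ∈ instVal A hqM 0,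
      instPhi A hqM 0 ⟨_, h⟩ = instPhi A hqM 0 f := by
  obtain ⟨hiff, hred⟩ := infRed_galRingAut A hσ ((f : unipFix hqM) : XField q M)
  have hmem : galRingAut σ ((f : unipFix hqM) : XField q M) ∈ infVal q M A := hiff.2 f.2
  exact ⟨hmem, Subtype.ext (Subtype.ext (hred hmem f.2))⟩

theorem coe_torGal_smul (σ : Qb ≃ₐ[ℚ] Qb) (c : (ZMod q)ˣ)
    (hc : σ (zetaQ q : Qb) = (zetaQ q : Qb) ^ (c : ZMod q).val) (g : unipFix hqM) :
    (((unipTor hqM c⁻¹ * unipGal hqM σ c hc) • g : unipFix hqM) : XField q M) =
      autHom hqM (tor c⁻¹) (galRingAut σ (g : XField q M)) := by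
  rw [mul_smul]
  exact (coe_unipRes_smul hqM _ _ _).trans rfl

theorem infRed_weyl_tor_gal {σ : Qb ≃ₐ[ℚ] Qb} (hσ : σ ∈ A.inertiaSubgroupIn ℚ) (c : (ZMod q)ˣ)
    (hc : σ (zetaQ q : Qb) = (zetaQ q : Qb) ^ (c : ZMod q).val) (x : XField q M)
    (hx : autHom hqM weyl x ∈ infVal q M A) :
    ∃ h : autHom hqM weyl (autHom hqM (tor c⁻¹) (galRingAut σ x)) ∈ infVal q M A,
      infRed q M A ⟨_, h⟩ = infRed q M A ⟨_, hx⟩ := by
  have hkey : twist c (weyl : SL(2, ZMod q)) = weyl * tor c⁻¹ := by
    ext i j
    fin_cases i <;> fin_cases j <;> simp [twist, coe_twistFun, Matrix.mul_apply, Fin.sum_univ_two]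
  have e : autHom hqM weyl (autHom hqM (tor c⁻¹) (galRingAut σ x)) =
      galRingAut σ (autHom hqM weyl x) := by
    rw [galRingAut_autHom hqM σ c hc, hkey, map_mul, AlgEquiv.mul_apply]
  have hy' := infRed_galRingAut A hσ (autHom hqM weyl x)
  have hmem := hy'.1.2 hx
  have hmem' : autHom hqM weyl (autHom hqM (tor c⁻¹) (galRingAut σ x)) ∈ infVal q M A :=
    Eq.mpr (congrArg (· ∈ infVal q M A) e) hmem
  exact ⟨hmem', (infRed_congr A e hmem' hmem).trans (hy'.2 hmem hx)⟩

/-- Inertia acts as the torus element on the other component. -/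
theorem instPhi_unipGal_one {σ : Qb ≃ₐ[ℚ] Qb} (hσ : σ ∈ A.inertiaSubgroupIn ℚ) (c : (ZMod q)ˣ)
    (hc : σ (zetaQ q : Qb) = (zetaQ q : Qb) ^ (c : ZMod q).val) (f : instVal A hqM 1) :
    ∃ h : (unipTor hqM c⁻¹ * unipGal hqM σ c hc) • (f : unipFix hqM) ∈ instVal A hqM 1,
      instPhi A hqM 1 ⟨_, h⟩ = instPhi A hqM 1 f := by
  obtain ⟨h, e⟩ := infRed_weyl_tor_gal A hqM hσ c hc ((f : unipFix hqM) : XField q M) f.2
  have hgx := coe_torGal_smul hqM σ c hc (f : unipFix hqM)
  have hmem2 : (unipTor hqM c⁻¹ * unipGal hqM σ c hc) • (f : unipFix hqM) ∈ instVal A hqM 1 := by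
    rw [mem_instVal_iff, hgx]
    exact h
  refine ⟨hmem2, Subtype.ext (Subtype.ext ?_)⟩
  rw [coe_instPhi, coe_instPhi, coe_instHom A hqM 1 _ hmem2 ((mem_instVal_iff A hqM).1 hmem2)]
  refine (infRed_congr A (congrArg (instAut hqM 1) hgx) _ h).trans (e.trans ?_)
  exact (coe_instHom A hqM 1 (f : unipFix hqM) f.2 ((mem_instVal_iff A hqM).1 f.2)).symm

end Fermat.Agent.Carayol.LTwoComp

end
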