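/-
The special fibre of `X(q; M)` as a `MultiReduction`, with the symmetries of its components.
-/
import Fermat.Agent.Carayol.ValuationsComplete
import Fermat.Agent.Bad.GluingDefs
import Fermat.Agent.Bad.GluingLift

set_option autoImplicit false
set_option linter.style.haveILetI false
set_option maxHeartbeats 1000000

noncomputable section

namespace Fermat.Agent.Carayol

open ModularCurve IntermediateField AlgebraicCurve CongruenceSubgroup IsLocalRing Polynomial
open scoped MatrixGroups

variable {q : ℕ} [Fact q.Prime] {M : ℕ} [NeZero M] (A : ValuationSubring Qb) (hqM : ¬ q ∣ M)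

/-- A translate defining a component. -/
def compRep (V : compSet A hqM) : Gamma0 M := Classical.choose V.2

theorem compVal_compRep (V : compSet A hqM) :
    compVal A (sigma hqM (compRep A hqM V)) = V.1 := Classical.choose_spec V.2

instance fintype_compSet : Fintype (compSet A hqM) := (finite_compSet A hqM).fintype

/-- The reduction of `X(q; M)` on all components. -/
def xReduction (hA : A.LiesOverPrime q) :
    Bad.MultiReduction A (XField q M) (ResidueField A) fun _ : compSet A hqM => resField q M A where
  π := residue A
  π_surjective := residue_surjective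
  V V := compVal A (sigma hqM (compRep A hqM V))
  mem_V_iff _ _ := algebraMap_mem_compVal_iff A _
  φ V := compRed A (sigma hqM (compRep A hqM V))
  φ_algebraMap _ a := compRed_algebraMap A _ a
  exists_lift h := by
    refine Bad.exists_lift_of_distinct (residue A) residue_surjective
      (fun V => compVal A (sigma hqM (compRep A hqM V))) (fun V a => algebraMap_mem_compVal_iff A _)
      (fun V => compRed A (sigma hqM (compRep A hqM V))) (fun V => compRed_surjective A _)
      (fun V f hf => ?_) (fun V W hVW e => hVW ?_) h
    · obtain ⟨c, h, hne⟩ := exists_scale A (sigma hqM (compRep A hqM V)) hf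
      simp only [Algebra.smul_def]
      exact ⟨c, h, hne⟩
    · exact Subtype.ext ((compVal_compRep A hqM V).symm.trans (e.trans (compVal_compRep A hqM W)))
  exists_scale V f hf := by
    obtain ⟨c, h, hne⟩ := exists_scale A (sigma hqM (compRep A hqM V)) hf
    simp only [Algebra.smul_def]
    exact ⟨c, h, hne⟩
  x := jElt q M
  x_mem V := (exists_compRed_jElt A hqM (compRep A hqM V)).1
  x_transcendental V := by
    rw [show compRed A (sigma hqM (compRep A hqM V)) ⟨jElt q M, _⟩ = jRed A hqM hA from
      Subtype.ext (exists_compRed_jElt A hqM (compRep A hqM V)).2]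
    exact transcendental_jRed A hqM hA
  degree_eq := by
    rw [finrank_eq_ncard_mul hqM hA, ← Nat.card_coe_set_eq, Nat.card_eq_fintype_card,
      ← Finset.card_univ, ← smul_eq_mul, ← Finset.sum_const]
    refine Finset.sum_congr rfl fun V _ => ?_
    rw [show compRed A (sigma hqM (compRep A hqM V)) ⟨jElt q M, _⟩ = jRed A hqM hA from
      Subtype.ext (exists_compRed_jElt A hqM (compRep A hqM V)).2]
  degree_pos V := by
    rw [show compRed A (sigma hqM (compRep A hqM V)) ⟨jElt q M, _⟩ = jRed A hqM hA from
      Subtype.ext (exists_compRed_jElt A hqM (compRep A hqM V)).2]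
    haveI := finite_ratField_resField (q := q) (M := M) hqM hA
    exact Module.finrank_pos
  nonempty := ⟨⟨_, (1 : Gamma0 M), rfl⟩⟩

/-- An automorphism from `Γ₀(M)` maps components to components, keeping the residual field. -/
theorem compVal_sigma_mul (γ δ : Gamma0 M) :
    compVal A (sigma hqM (γ * δ)) =
      (compVal A (sigma hqM γ)).comap (sigma hqM δ : XField q M →+* XField q M) := by
  rw [map_mul, compVal_mul]

end Fermat.Agent.Carayol
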