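/-
`X₀(qM)` below `X(q; M)`: the two embeddings exchanged by `w` and `w_q`, and the two components
seen through them.
-/
import Fermat.Agent.Carayol.CuspidalAction
import Fermat.Agent.Carayol.ValuationsReduction
import Fermat.Agent.BadReduction.X0Conductor

set_option autoImplicit false
set_option linter.style.haveILetI false
set_option linter.unusedSectionVars false
set_option synthInstance.maxHeartbeats 400000
set_option maxHeartbeats 800000

noncomputable section

namespace Fermat.Agent.Carayol.LTwoComp

open ModularCurve IntermediateField AlgebraicCurve IsLocalRing BadReduction Cuspidal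
open scoped MatrixGroups

variable {q : ℕ} [Fact q.Prime] {M : ℕ} [NeZero M]

theorem bar_mq_eq :
    modularFunctionFieldBar (M * q * q) = modularFunctionFieldBar (q * q * M) := by
  rw [show M * q * q = q * q * M by ring]

theorem bar_swap_eq : modularFunctionFieldBar (M * q) = modularFunctionFieldBar (q * M) := by
  rw [mul_comm]

variable (q M) in
/-- `X₀(qM)` at the parameter of `∞`: expansions unchanged. -/
def covA : X0F M q →ₐ[Qb] XField q M :=
  (levelIncl q M).comp ((heckeAlphaBar Qb (q * M) q).comp
    (IntermediateField.equivOfEq bar_swap_eq).toAlgHom)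

variable (q M) in
/-- `X₀(qM)` as the field fixed by the upper triangular matrices: `τ ↦ q τ` on expansions. -/
def covB : X0F M q →ₐ[Qb] XField q M :=
  (levelIncl q M).comp ((heckeBetaBar Qb (q * M) q).comp
    (IntermediateField.equivOfEq bar_swap_eq).toAlgHom)

theorem coe_covA (x : X0F M q) : (covA q M x : LaurentSeries Qb) = (x : LaurentSeries Qb) := by
  simp [covA]

theorem coe_covB (x : X0F M q) :
    (covB q M x : LaurentSeries Qb) = qExpand Qb q (x : LaurentSeries Qb) := by
  simp [covB]

theorem fieldRange_covB : (covB q M).fieldRange = pointField q M none := by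
  rw [← fieldRange_levelIncl_comp_beta]
  refine le_antisymm ?_ ?_
  · rintro _ ⟨x, rfl⟩
    exact ⟨IntermediateField.equivOfEq bar_swap_eq x, rfl⟩
  · rintro _ ⟨x, rfl⟩
    refine ⟨(IntermediateField.equivOfEq bar_swap_eq).symm x, ?_⟩
    show levelIncl q M (heckeBetaBar Qb (q * M) q (IntermediateField.equivOfEq bar_swap_eq
      ((IntermediateField.equivOfEq bar_swap_eq).symm x))) = _
    rw [AlgEquiv.apply_symm_apply]
    rfl

variable (hqM : ¬ q ∣ M)

theorem autHom_covB {g : SL(2, ZMod q)} (hg : g ∈ borel q) (x : X0F M q) :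
    autHom hqM g (covB q M x) = covB q M x := by
  have h : covB q M x ∈ pointField q M none := fieldRange_covB (q := q) (M := M) ▸ ⟨x, rfl⟩
  exact (mem_pointField_none_iff hqM).1 h g hg

theorem exists_covB_of_fixed {y : XField q M} (h : ∀ g ∈ borel q, autHom hqM g y = y) :
    ∃ x, covB q M x = y :=
  AlgHom.mem_fieldRange.1 (fieldRange_covB (q := q) (M := M) ▸ (mem_pointField_none_iff hqM).2 h)

theorem lineSmul_weyl_inv_none : lineSmul (weyl : SL(2, ZMod q))⁻¹ none = (some 0 : Line q) := by
  simp [lineSmul, lineVec, vecLine, Matrix.vecMul, dotProduct, Fin.sum_univ_two,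
    Matrix.SpecialLinearGroup.coe_inv, Matrix.adjugate_fin_two]

theorem coe_jdBar (d : {d : ℕ // d ∈ (M * q).divisors}) {n : ℕ} [NeZero n] (hn : d.1 = n) :
    jdBar d = qExpand Qb n (jqModC Qb) := by
  obtain ⟨d, hd⟩ := d
  subst hn
  rw [jdBar, coeffEmb_qExpand_jq, coeffMap_qExpand, coeffMap_jqModC]

/-- `w` exchanges the two embeddings as `w_q` does. -/
theorem autHom_weyl_covB (x : X0F M q) :
    autHom hqM weyl (covB q M x) = covA q M (atkinLehner hqM x) := by
  suffices h : (autHom hqM weyl).toAlgHom.comp (covB q M) =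
      (covA q M).comp (atkinLehner hqM).toAlgHom from AlgHom.congr_fun h x
  refine algHom_ext_jdBar fun d => ?_
  show autHom hqM weyl (covB q M ⟨jdBar d, jdBar_mem d⟩) =
    covA q M (atkinHom hqM ⟨jdBar d, jdBar_mem d⟩)
  rw [atkinHom_jdBar]
  have hsw : (swapIdx hqM d).1 = swapDiv M q d.1 := rfl
  have hd : d.1 ∣ q * M := (Nat.dvd_of_mem_divisors d.2).trans (mul_comm M q).dvd
  rcases dvd_or_exists_eq_mul hd with hdM | ⟨e, he, hde⟩
  · haveI : NeZero d.1 := ⟨(Nat.pos_of_mem_divisors d.2).ne'⟩
    have hn : ¬ q ∣ d.1 := fun h => hqM (h.trans hdM)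
    have e1 : covB q M ⟨jdBar d, jdBar_mem d⟩ = baseElt q M hdM := by
      apply Subtype.ext
      rw [coe_covB]
      show qExpand Qb q (jdBar d) = baseGen q d.1
      rw [coe_jdBar d (n := d.1) rfl, qExpand_qExpand, baseGen]
      exact qExpand_congr (mul_comm _ _) _
    rw [e1, autHom_baseElt]
    apply Subtype.ext
    rw [coe_covA]
    show baseGen q d.1 = jdBar (swapIdx hqM d)
    rw [coe_jdBar (swapIdx hqM d) (n := d.1 * q) (by rw [hsw, swapDiv, if_neg hn]), baseGen]
  · haveI : NeZero e := ⟨fun h0 => (Nat.pos_of_mem_divisors d.2).ne' (by rw [hde, h0, mul_zero])⟩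
    have e1 : covB q M ⟨jdBar d, jdBar_mem d⟩ = genElt q M he none := by
      apply Subtype.ext
      rw [coe_covB]
      show qExpand Qb q (jdBar d) = gen q e none
      rw [coe_jdBar d (n := q * e) hde, qExpand_qExpand, gen]
      exact qExpand_congr (by ring) _
    rw [e1, autHom_genElt, lineSmul_weyl_inv_none]
    apply Subtype.ext
    rw [coe_covA]
    show gen q e (some 0) = jdBar (swapIdx hqM d)
    rw [gen_some_zero, coe_jdBar (swapIdx hqM d) (n := e)
      (by rw [hsw, swapDiv, if_pos (hde ▸ dvd_mul_right q e), hde,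
        Nat.mul_div_cancel_left _ (Fact.out : q.Prime).pos])]

/-! ### The Gauss valuation -/

variable (A : ValuationSubring Qb)

theorem covA_mem_infVal_iff (x : X0F M q) : covA q M x ∈ infVal q M A ↔ x ∈ infV M q A := by
  rw [mem_infVal_iff, coe_covA]
  rfl

theorem infRed_covA (x : X0F M q) (h : covA q M x ∈ infVal q M A) (h' : x ∈ infV M q A) :
    Carayol.infRed q M A ⟨covA q M x, h⟩ = BadReduction.infRed M q A ⟨x, h'⟩ := by
  show gaussRed A (residue A) ⟨_, _⟩ = gaussRed A (residue A) ⟨_, _⟩
  congr 1

theorem exists_infRed_covB (x : X0F M q) (hx : x ∈ infV M q A) :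
    ∃ h : covB q M x ∈ infVal q M A, Carayol.infRed q M A ⟨_, h⟩ =
      qExpand (ResidueField A) q (BadReduction.infRed M q A ⟨x, hx⟩) := by
  obtain ⟨y₁, y₂, hne, e⟩ := id hx
  have hne' : coeffMap (residue A) (qExpand A q y₂) ≠ 0 := by
    rw [coeffMap_qExpand]
    exact fun h => hne ((map_eq_zero_iff _ (qExpand_injective q)).1 h)
  have e' : (covB q M x : LaurentSeries Qb) * coeffMap A.subtype (qExpand A q y₂) =
      coeffMap A.subtype (qExpand A q y₁) := by
    rw [coe_covB, coeffMap_qExpand, coeffMap_qExpand, ← map_mul]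
    exact congrArg _ e
  have h : covB q M x ∈ infVal q M A := by
    rw [mem_infVal_iff]
    exact ⟨_, _, hne', e'⟩
  refine ⟨h, ?_⟩
  rw [Carayol.infRed_eq A ⟨_, h⟩ hne' e', BadReduction.infRed_eq A ⟨x, _⟩ hne e, map_div₀,
    coeffMap_qExpand, coeffMap_qExpand]

theorem covB_mem_infVal_iff (x : X0F M q) : covB q M x ∈ infVal q M A ↔ x ∈ infV M q A := by
  refine ⟨fun h => ?_, fun h => (exists_infRed_covB A x h).choose⟩
  by_contra hx
  have hi : x⁻¹ ∈ infV M q A := ((infV M q A).mem_or_inv_mem x).resolve_left hx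
  obtain ⟨h', e⟩ := exists_infRed_covB A x⁻¹ hi
  have h0 : BadReduction.infRed M q A ⟨x⁻¹, hi⟩ = 0 :=
    (gaussValRed_eq_zero_iff _ _ A _).2 fun hu => hx (by
      obtain ⟨⟨w, hw⟩, hmul⟩ := hu.exists_right_inv
      have h1 : x⁻¹ * w = 1 := congrArg Subtype.val hmul
      rwa [eq_inv_of_mul_eq_one_right h1, inv_inv] at hw)
  rw [h0, map_zero] at e
  have hx0 : x ≠ 0 := fun h0 => hx (h0 ▸ zero_mem _)
  have := congrArg (Carayol.infRed q M A) (show (⟨_, h⟩ : infVal q M A) * ⟨_, h'⟩ = 1 from
    Subtype.ext (by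
      show covB q M x * covB q M x⁻¹ = 1
      rw [← map_mul, mul_inv_cancel₀ hx0, map_one]))
  rw [map_mul, e, mul_zero, map_one] at this
  exact zero_ne_one this

variable (hA : A.LiesOverPrime q)

/-- The valuation and reduction of the two components of `X(q; M)` over those of `X₀(qM)`. -/
def sheet : Fin 2 → XField q M ≃ₐ[Qb] XField q M
  | 0 => 1
  | 1 => autHom hqM weyl

theorem sheet_zero : sheet (M := M) hqM 0 = 1 := rfl

theorem sheet_one : sheet (M := M) hqM 1 = autHom hqM weyl := rfl

theorem sheet_mem_autGroup (i : Fin 2) : sheet hqM i ∈ autGroup (M := M) hqM := by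
  fin_cases i
  · exact one_mem _
  · exact autHom_mem hqM _

theorem covB_mem_compVal_iff (i : Fin 2) (x : X0F M q) :
    covB q M x ∈ compVal A (sheet hqM i) ↔ x ∈ compV hqM A i := by
  fin_cases i
  · exact covB_mem_infVal_iff A x
  · rw [mem_compVal_iff]
    show autHom hqM weyl (covB q M x) ∈ _ ↔ _
    rw [autHom_weyl_covB, covA_mem_infVal_iff]
    rfl

include hqM hA in
theorem qExpand_mem_resField (z : X0Res M A) :
    qExpand (ResidueField A) q (z : LaurentSeries (ResidueField A)) ∈ resField q M A := by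
  obtain ⟨f, hf, e⟩ := exists_lift_compPhi hqM A hA fun _ => z
  obtain ⟨h, e'⟩ := exists_infRed_covB A f (hf 0)
  rw [show (z : LaurentSeries (ResidueField A)) = BadReduction.infRed M q A ⟨f, hf 0⟩ from
    (congrArg Subtype.val (e 0)).symm, ← e']
  exact infRed_mem_resField A _

include hqM hA in
theorem mem_resField_of_mem_fullC (z : X0Res M A) :
    (z : LaurentSeries (ResidueField A)) ∈ resField q M A := by
  obtain ⟨f, hf, e⟩ := exists_lift_compPhi hqM A hA fun _ => z
  rw [show (z : LaurentSeries (ResidueField A)) = BadReduction.infRed M q A ⟨f, hf 0⟩ from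
    (congrArg Subtype.val (e 0)).symm,
    ← infRed_covA A f ((covA_mem_infVal_iff A f).2 (hf 0)) (hf 0)]
  exact infRed_mem_resField A _

local instance resFieldX0 : Field (X0Res M A) := inferInstance
local instance resAlgX0 : Algebra (ResidueField A) (X0Res M A) := inferInstance
local instance resFieldComp : Field (resField q M A) := inferInstance
local instance resAlgComp : Algebra (ResidueField A) (resField q M A) := algebraResField (q := q) (M := M) A

/-- The residual embedding over the component at infinity: `t ↦ t ^ q`. -/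
def sheetEmbZero : X0Res M A →ₐ[ResidueField A] resField q M A where
  toFun z := ⟨qExpand (ResidueField A) q (z : LaurentSeries (ResidueField A)),
    qExpand_mem_resField hqM A hA z⟩
  map_one' := Subtype.ext (map_one (qExpand (ResidueField A) q))
  map_zero' := Subtype.ext (map_zero (qExpand (ResidueField A) q))
  map_mul' z w := Subtype.ext (map_mul (qExpand (ResidueField A) q) _ _)
  map_add' z w := Subtype.ext (map_add (qExpand (ResidueField A) q) _ _)
  commutes' c := Subtype.ext ((qExpandAlgHomC (ResidueField A) q).commutes c)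

/-- The residual embedding over the other component: expansions unchanged. -/
def sheetEmbOne : X0Res M A →ₐ[ResidueField A] resField q M A :=
  IntermediateField.inclusion fun z hz => mem_resField_of_mem_fullC hqM A hA ⟨z, hz⟩

/-- The residual embeddings. -/
def sheetEmb : Fin 2 → X0Res M A →ₐ[ResidueField A] resField q M A
  | 0 => sheetEmbZero hqM A hA
  | 1 => sheetEmbOne hqM A hA

theorem sheetEmb_zero : sheetEmb hqM A hA 0 = sheetEmbZero hqM A hA := rfl

theorem sheetEmb_one : sheetEmb hqM A hA 1 = sheetEmbOne hqM A hA := rfl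

theorem coe_sheetEmbZero (z : X0Res M A) :
    (sheetEmbZero hqM A hA z).1 =
      qExpand (ResidueField A) q (z : LaurentSeries (ResidueField A)) := rfl

theorem coe_sheetEmbOne (z : X0Res M A) :
    (sheetEmbOne hqM A hA z).1 = (z : LaurentSeries (ResidueField A)) :=
  IntermediateField.coe_inclusion _ z

theorem compRed_covB_zero (x : compV hqM A 0) (h : covB q M x ∈ compVal A (sheet hqM 0)) :
    (compRed A (sheet hqM 0) ⟨covB q M x, h⟩ : LaurentSeries (ResidueField A)) =
      qExpand (ResidueField A) q (compPhi hqM A hA 0 x : LaurentSeries (ResidueField A)) := by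
  obtain ⟨h', e⟩ := exists_infRed_covB A (x : X0F M q) x.2
  have hs : sheet hqM 0 (covB q M (x : X0F M q)) = covB q M (x : X0F M q) := by
    rw [sheet_zero, AlgEquiv.one_apply]
  have h'' : sheet hqM 0 (covB q M (x : X0F M q)) ∈ infVal q M A := hs.symm ▸ h'
  refine (coe_compRed A _ _ h h'').trans ((infRed_congr A hs h'' h').trans (e.trans ?_))
  rw [coe_compPhi_zero]
  exact congrArg _ (congrArg _ (Subtype.ext rfl))

theorem compRed_covB_one (x : compV hqM A 1) (h : covB q M x ∈ compVal A (sheet hqM 1)) :
    (compRed A (sheet hqM 1) ⟨covB q M x, h⟩ : LaurentSeries (ResidueField A)) =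
      (compPhi hqM A hA 1 x : LaurentSeries (ResidueField A)) := by
  have hw : covA q M (atkinLehner hqM (x : X0F M q)) ∈ infVal q M A :=
    (covA_mem_infVal_iff A _).2 x.2
  have hs : sheet hqM 1 (covB q M (x : X0F M q)) = covA q M (atkinLehner hqM (x : X0F M q)) := by
    rw [sheet_one, autHom_weyl_covB]
  have hw' : sheet hqM 1 (covB q M (x : X0F M q)) ∈ infVal q M A := hs.symm ▸ hw
  have hx : atkinLehner hqM (x : X0F M q) ∈ infV M q A := (mem_compV_one hqM A).1 x.2
  refine (coe_compRed A _ _ h hw').trans ((infRed_congr A hs hw' hw).trans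
    ((infRed_covA A _ hw hx).trans ?_))
  rw [coe_compPhi_one]

theorem compRed_covB (i : Fin 2) (x : compV hqM A i) :
    compRed A (sheet hqM i) ⟨covB q M x, (covB_mem_compVal_iff hqM A i x).2 x.2⟩ =
      sheetEmb hqM A hA i (compPhi hqM A hA i x) := by
  match i with
  | 0 =>
    rw [sheetEmb_zero]
    refine Subtype.ext ?_
    refine Eq.trans ?_ (coe_sheetEmbZero hqM A hA _).symm
    exact compRed_covB_zero hqM A hA x _
  | 1 =>
    rw [sheetEmb_one]
    refine Subtype.ext ?_
    refine Eq.trans ?_ (coe_sheetEmbOne hqM A hA _).symm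
    exact compRed_covB_one hqM A hA x _

/-! ### Galois conjugation -/

theorem galRingAut_covB (σ : Qb ≃ₐ[ℚ] Qb) (x : X0F M q) :
    galRingAut σ (covB q M x) =
      covB q M (arithmeticGalois (modularFunctionFieldFull (M * q)) σ • x) := by
  apply Subtype.ext
  rw [coe_galRingAut, coe_covB, coe_covB, coe_galois_smul, coeffMap_qExpand]

theorem galRingAut_covA (σ : Qb ≃ₐ[ℚ] Qb) (x : X0F M q) :
    galRingAut σ (covA q M x) =
      covA q M (arithmeticGalois (modularFunctionFieldFull (M * q)) σ • x) := by
  apply Subtype.ext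
  rw [coe_galRingAut, coe_covA, coe_covA, coe_galois_smul]

end Fermat.Agent.Carayol.LTwoComp

end
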