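/-
`X₀(q M)` inside the field fixed by the unipotent group, compatibly with the two components: with
`t = exp (2 π i τ / q)` the embedding expands by `q`, on the component at infinity the reductions
are expanded by `q` and on the other they are the same series.
-/
import Fermat.Agent.Carayol.LTwoCompInstComp
import Fermat.Agent.Carayol.LTwoCompMaps
import Fermat.Agent.BadReduction.X0Reduction

set_option autoImplicit false
set_option linter.style.haveILetI false
set_option linter.unusedSectionVars false
set_option synthInstance.maxHeartbeats 400000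

noncomputable section

open scoped MatrixGroups

namespace Fermat.Agent.Carayol.LTwoComp

open AlgebraicCurve ModularCurve Cuspidal IsLocalRing BadReduction

variable {q : ℕ} [Fact q.Prime] {M : ℕ} [NeZero M] (A : ValuationSubring Qb) (hqM : ¬ q ∣ M)

theorem uni_mem_borel (β : ZMod q) : uni β ∈ borel q := by
  rw [mem_borel]; simp

include hqM in
theorem covB_mem_unipFix (x : X0F M q) : covB q M x ∈ unipFix hqM :=
  (mem_unipFix hqM).2 fun β => autHom_covB hqM (uni_mem_borel β) x

/-- The cover. -/
def instCov : X0F M q →ₐ[Qb] unipFix hqM :=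
  (covB q M).codRestrict (unipFix hqM).toSubalgebra (covB_mem_unipFix hqM)

theorem coe_instCov_eq_covB (g : X0F M q) :
    ((instCov hqM g : unipFix hqM) : XField q M) = covB q M g := rfl

theorem coe_instCov (g : X0F M q) :
    (((instCov hqM g : unipFix hqM) : XField q M) : LaurentSeries Qb) =
      qExpand Qb q (g : LaurentSeries Qb) := coe_covB g

/-- Its image is the field of the point `∞`. -/
theorem mem_range_instCov_iff (f : unipFix hqM) :
    (∃ g, instCov hqM g = f) ↔ (f : XField q M) ∈ pointField q M none := by
  rw [← fieldRange_covB, AlgHom.mem_fieldRange]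
  exact exists_congr fun g => Subtype.ext_iff

theorem instAut_eq_sheet : ∀ i : Fin 2, instAut (M := M) hqM i = sheet hqM i
  | 0 => rfl
  | 1 => rfl

theorem instCov_mem_iff (i : Fin 2) (g : X0F M q) :
    instCov hqM g ∈ instVal A hqM i ↔ g ∈ BadReduction.compV hqM A i := by
  rw [← covB_mem_compVal_iff hqM A i g, ← instAut_eq_sheet hqM i]
  rfl

theorem instHom_instCov_sheet (hA : A.LiesOverPrime q) : ∀ (i : Fin 2)
    (g : BadReduction.compV hqM A i) (h : instCov hqM (g : X0F M q) ∈ instVal A hqM i),
    instHom A hqM i ⟨_, h⟩ = sheetEmb hqM A hA i (BadReduction.compPhi hqM A hA i g)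
  | 0, g, _ => compRed_covB hqM A hA 0 g
  | 1, g, _ => compRed_covB hqM A hA 1 g

/-- On the component at infinity the reductions are expanded by `q`. -/
theorem instHom_instCov_zero (hA : A.LiesOverPrime q) (g : BadReduction.compV hqM A 0)
    (h : instCov hqM (g : X0F M q) ∈ instVal A hqM 0) :
    (instHom A hqM 0 ⟨_, h⟩ : LaurentSeries (ResidueField A)) =
      qExpand (ResidueField A) q
        (BadReduction.compPhi hqM A hA 0 g : LaurentSeries (ResidueField A)) :=
  compRed_covB_zero hqM A hA g h

/-- On the other component they are the same series. -/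
theorem instHom_instCov_one (hA : A.LiesOverPrime q) (g : BadReduction.compV hqM A 1)
    (h : instCov hqM (g : X0F M q) ∈ instVal A hqM 1) :
    (instHom A hqM 1 ⟨_, h⟩ : LaurentSeries (ResidueField A)) =
      (BadReduction.compPhi hqM A hA 1 g : LaurentSeries (ResidueField A)) :=
  compRed_covB_one hqM A hA g h

theorem sheetEmb_mem (hA : A.LiesOverPrime q) (i : Fin 2) (z : X0Res M A) :
    sheetEmb hqM A hA i z ∈ instRes A hqM i := by
  obtain ⟨g, hg, he⟩ := exists_lift_compPhi hqM A hA fun _ => z
  rw [← he i, ← instHom_instCov_sheet A hqM hA i ⟨g, hg i⟩ ((instCov_mem_iff A hqM i g).2 (hg i))]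
  exact IntermediateField.subset_adjoin _ _ ⟨_, rfl⟩

/-- The covers of the components. -/
def instEmb (hA : A.LiesOverPrime q) (i : Fin 2) : X0Res M A →ₐ[ResidueField A] instRes A hqM i :=
  (sheetEmb hqM A hA i).codRestrict (instRes A hqM i).toSubalgebra (sheetEmb_mem A hqM hA i)

theorem coe_instEmb_zero (hA : A.LiesOverPrime q) (x : X0Res M A) :
    ((instEmb A hqM hA 0 x : resField q M A) : LaurentSeries (ResidueField A)) =
      qExpand (ResidueField A) q (x : LaurentSeries (ResidueField A)) :=
  coe_sheetEmbZero hqM A hA x

theorem coe_instEmb_one (hA : A.LiesOverPrime q) (x : X0Res M A) :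
    ((instEmb A hqM hA 1 x : resField q M A) : LaurentSeries (ResidueField A)) =
      (x : LaurentSeries (ResidueField A)) :=
  coe_sheetEmbOne hqM A hA x

theorem instPhi_instCov (hA : A.LiesOverPrime q) (i : Fin 2) (g : BadReduction.compV hqM A i) :
    instPhi A hqM i ⟨instCov hqM g, (instCov_mem_iff A hqM i g).2 g.2⟩ =
      instEmb A hqM hA i (BadReduction.compPhi hqM A hA i g) :=
  Subtype.ext (instHom_instCov_sheet A hqM hA i g _)

end Fermat.Agent.Carayol.LTwoComp

end
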