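/-
Residual degrees of an extension of function fields at a valuation: residually independent families
lift, a finite group of automorphisms provides independent families, and so do `p`-th powers.
-/
import Fermat.Prelude.Def_AlgebraicCurve_Correspondence
import Mathlib.FieldTheory.Galois.Basic
import Mathlib.Algebra.CharP.Frobenius
import Mathlib.LinearAlgebra.Dimension.Finite
import Mathlib.RingTheory.Valuation.ValuationSubring

set_option autoImplicit false
set_option linter.style.haveILetI false

noncomputable section

namespace Fermat.Agent.Carayol.LTwoComp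

open AlgebraicCurve

section

variable {K F F' F'' : Type*} [Field K] [Field F] [Field F'] [Field F''] [Algebra K F]
  [Algebra K F'] [Algebra K F'']

theorem finrankAlong_comp (φ : F →ₐ[K] F') (ψ : F' →ₐ[K] F'') :
    finrankAlong K (ψ.comp φ) = finrankAlong K φ * finrankAlong K ψ := by
  letI := algebraAlong φ
  letI := algebraAlong ψ
  letI : Algebra F F'' := algebraAlong (ψ.comp φ)
  haveI : IsScalarTower F F' F'' := IsScalarTower.of_algebraMap_eq fun _ => rfl
  exact (Module.finrank_mul_finrank F F' F'').symm

/-- A family independent along a map bounds its degree from below. -/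
theorem le_finrankAlong_of_family (f : F →ₐ[K] F') (hf : FiniteAlong K f) {m : ℕ}
    (v : Fin m → F') (hv : ∀ b : Fin m → F, ∑ i, f (b i) * v i = 0 → b = 0) :
    m ≤ finrankAlong K f := by
  letI := algebraAlong f
  haveI : Module.Finite F F' := hf
  have hli : LinearIndependent F v := Fintype.linearIndependent_iff.2 fun g hg =>
    congrFun (hv g (by simpa [Algebra.smul_def, RingHom.algebraMap_toAlgebra] using hg))
  simpa [finrankAlong] using hli.fintype_card_le_finrank

end

/-- The residual degree at a valuation is at most the degree. -/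
theorem residual_finiteAlong_and_le {K k F1 F E0 E : Type*} [Field K] [Field k] [Field F1]
    [Field F] [Field E0] [Field E] [Algebra K F1] [Algebra K F] [Algebra k E0] [Algebra k E]
    (cov : F1 →ₐ[K] F) (hfin : FiniteAlong K cov) (V1 : ValuationSubring F1)
    (V : ValuationSubring F) (hmem : ∀ g, cov g ∈ V ↔ g ∈ V1) (φ1 : V1 →+* E0) (φ : V →+* E)
    (hφ : Function.Surjective φ) (emb : E0 →ₐ[k] E)
    (he : ∀ g : V1, φ ⟨cov g, (hmem g).2 g.2⟩ = emb (φ1 g)) :
    FiniteAlong k emb ∧ finrankAlong k emb ≤ finrankAlong K cov := by
  classical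
  letI := algebraAlong cov
  letI := algebraAlong emb
  haveI : Module.Finite F1 F := hfin
  have key : ∀ s : Finset E, LinearIndependent E0 (fun i : s => (i : E)) →
      s.card ≤ Module.finrank F1 F := by
    intro s hs
    choose u hu using fun i : s => hφ (i : E)
    have hli : LinearIndependent F1 fun i => ((u i : V) : F) := by
      rw [Fintype.linearIndependent_iff]
      intro g hg
      by_contra hne
      push Not at hne
      obtain ⟨s₀, hs₀⟩ := hne
      obtain ⟨m, -, hmax⟩ := Finset.univ.exists_max_image (fun i => V1.valuation (g i))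
        ⟨s₀, Finset.mem_univ _⟩
      have hm : g m ≠ 0 := by
        intro h0
        have := hmax s₀ (Finset.mem_univ _)
        rw [h0, map_zero, le_zero_iff, map_eq_zero] at this
        exact hs₀ this
      have hc : ∀ i, (g m)⁻¹ * g i ∈ V1 := fun i => by
        rw [← V1.valuation_le_one_iff, map_mul, map_inv₀,
          inv_mul_le_one₀ (zero_lt_iff.2 ((_root_.map_ne_zero _).2 hm))]
        exact hmax i (Finset.mem_univ _)
      have hsum : ∑ i, cov ((g m)⁻¹ * g i) * ((u i : V) : F) = 0 := by
        have h0 : ∑ i, cov (g i) * ((u i : V) : F) = 0 := by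
          simpa [Algebra.smul_def, RingHom.algebraMap_toAlgebra] using hg
        simp only [map_mul, mul_assoc, ← Finset.mul_sum, h0, mul_zero]
      have e : ∑ i, emb (φ1 ⟨_, hc i⟩) * (i : E) = 0 := by
        rw [← map_zero φ]
        simp only [← he, ← hu, ← map_mul]
        rw [← map_sum]
        exact congrArg φ (Subtype.ext (by simpa using hsum))
      have h1 := Fintype.linearIndependent_iff.1 hs (fun i => φ1 ⟨_, hc i⟩)
        (by simpa [Algebra.smul_def, RingHom.algebraMap_toAlgebra] using e) m
      rw [show (⟨(g m)⁻¹ * g m, hc m⟩ : V1) = 1 from Subtype.ext (inv_mul_cancel₀ hm),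
        map_one] at h1
      exact one_ne_zero h1
    simpa using hli.fintype_card_le_finrank
  have hr : Module.rank E0 E ≤ Module.finrank F1 F := rank_le key
  have hf : Module.Finite E0 E :=
    Module.rank_lt_aleph0_iff.mp (lt_of_le_of_lt hr (Cardinal.natCast_lt_aleph0))
  refine ⟨hf, ?_⟩
  show Module.finrank E0 E ≤ Module.finrank F1 F
  exact Nat.cast_le.1 (le_trans (le_of_eq (Module.finrank_eq_rank E0 E)) hr)

/-- A finite group fixing the image gives independent families. -/
theorem exists_family_of_fixed {R E E0 : Type*} [Field R] [Field E] [Field E0] [Algebra R E]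
    [FiniteDimensional R E] (H : Subgroup (E ≃ₐ[R] E)) (f : E0 →+* E)
    (hfix : ∀ h ∈ H, ∀ x, h (f x) = f x) {m : ℕ} (hm : m ≤ Nat.card H) :
    ∃ v : Fin m → E, ∀ b : Fin m → E0, ∑ i, f (b i) * v i = 0 → b = 0 := by
  classical
  rw [← IntermediateField.finrank_fixedField_eq_card H] at hm
  let B := Module.finBasis (IntermediateField.fixedField H) E
  refine ⟨fun i => B (Fin.castLE hm i), fun b hb => funext fun i => ?_⟩
  have hmem : ∀ x, f x ∈ IntermediateField.fixedField H := fun x =>
    (IntermediateField.mem_fixedField_iff _ _).2 fun h hh => hfix h hh x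
  have h0 := Fintype.linearIndependent_iff.1
    (B.linearIndependent.comp _ (Fin.castLE_injective hm)) (fun i => ⟨f (b i), hmem _⟩)
    (by simpa [IntermediateField.smul_def] using hb) i
  exact f.injective (show f (b i) = f 0 by rw [map_zero]; exact congrArg Subtype.val h0)

/-- Powers by the characteristic of an independent family are independent along the twisted map. -/
theorem family_pow {E E0 : Type*} [Field E] [Field E0] (p : ℕ) [ExpChar E p]
    (f₀ f₁ : E0 →+* E) (h : ∀ a, ∃ b, f₀ a = f₁ b ^ p) {m : ℕ} (v : Fin m → E)
    (hv : ∀ b : Fin m → E0, ∑ i, f₁ (b i) * v i = 0 → b = 0) (a : Fin m → E0)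
    (ha : ∑ i, f₀ (a i) * v i ^ p = 0) : a = 0 := by
  choose b hb using fun i => h (a i)
  have hp : 0 < p := expChar_pos E p
  have h1 : (∑ i, f₁ (b i) * v i) ^ p = 0 := by
    rw [sum_pow_char]
    simpa [mul_pow, ← hb] using ha
  have h2 := hv b (eq_zero_of_pow_eq_zero h1)
  funext i
  exact f₀.injective (by rw [hb, h2]; simp [zero_pow hp.ne'])

end Fermat.Agent.Carayol.LTwoComp

end
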