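/-
The ramification of `j` on `X₀(N)` over the algebraic numbers for `4 ∣ N` (no elliptic points), the
number of cusps, and the transport of both along an isomorphism onto a field of `q`-series.
-/
import Fermat.Agent.Genus.Modular
import Fermat.Agent.Places.Gamma0
import Fermat.Agent.Curve.BasicExtension

set_option autoImplicit false
set_option linter.style.haveILetI false

noncomputable section

open AlgebraicCurve ModularCurve CongruenceSubgroup
open scoped MatrixGroups
open Fermat.Agent.ModFun (jfun)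

namespace Fermat.Agent.Carayol.LTwoComp

/-- The ramification index of a point over `j = c` which is not elliptic for the subgroup. -/
def jIndex {R : Type*} [Field R] (c : R) : ℤ :=
  open scoped Classical in
  if c = 0 then 3 else if c = 1728 then 2 else 1

theorem jIndex_pos {R : Type*} [Field R] (c : R) : 0 < jIndex c := by
  unfold jIndex
  split_ifs <;> norm_num

theorem nuTwo_eq_zero_of_four_dvd {N : ℕ} (h : 4 ∣ N) : nuTwo N = 0 := by
  haveI : IsEmpty {x : ZMod N // x ^ 2 + 1 = 0} := ⟨fun x => by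
    have h4 := congrArg (ZMod.castHom h (ZMod 4)) x.2
    rw [map_add, map_pow, map_one, map_zero] at h4
    revert h4
    generalize ZMod.castHom h (ZMod 4) x.1 = y
    revert y
    decide⟩
  rw [nuTwo, Nat.card_of_isEmpty]

theorem nuThree_eq_zero_of_four_dvd {N : ℕ} (h : 4 ∣ N) : nuThree N = 0 := by
  haveI : IsEmpty {x : ZMod N // x ^ 2 + x + 1 = 0} := ⟨fun x => by
    have h4 := congrArg (ZMod.castHom h (ZMod 4)) x.2
    rw [map_add, map_add, map_pow, map_one, map_zero] at h4
    revert h4
    generalize ZMod.castHom h (ZMod 4) x.1 = y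
    revert y
    decide⟩
  rw [nuThree, Nat.card_of_isEmpty]

/-- If a fibre of `j` has as many points as the index divided by the maximal ramification, then
every point of it is maximally ramified. -/
theorem ord_eq_of_card_fiber {Γ : Subgroup SL(2, ℤ)} [Γ.FiniteIndex] {F : Type*} [Field F]
    [Algebra ℂ F] (M : Places.Model Γ F) (c : ℂ) (e : ℕ)
    (he : ∀ τ, jfun τ = c → Places.ellPeriod ⊤ τ = e)
    (hcount : Nat.card {v : Place ℂ F // 0 < v.ord (M.jF - algebraMap ℂ F c)} * e = Γ.index)
    (v : Place ℂ F) (hv : 0 < v.ord (M.jF - algebraMap ℂ F c)) :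
    v.ord (M.jF - algebraMap ℂ F c) = e := by
  classical
  haveI := M.isFunctionFieldOne
  have hfin : {v : Place ℂ F | 0 < v.ord (M.jF - algebraMap ℂ F c)}.Finite :=
    (Curve.finite_setOf_ord_ne_zero (K := ℂ) (M.jF - algebraMap ℂ F c)).subset
      fun _ hw => ne_of_gt hw
  have hle : ∀ w ∈ hfin.toFinset, w.ord (M.jF - algebraMap ℂ F c) ≤ (e : ℤ) := by
    intro w hw
    rw [Set.Finite.mem_toFinset, Set.mem_setOf_eq] at hw
    obtain ⟨τ, rfl, rfl⟩ := (M.ord_jF_sub_pos_iff w c).1 hw
    have h := M.ord_jF_sub_jfun τ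
    rw [he τ rfl] at h
    rw [← h]
    refine le_mul_of_one_le_right hw.le ?_
    exact_mod_cast Places.ellPeriod_pos M.neg_one_mem τ
  have hsum := M.sum_ord_jF_sub c
  rw [finsum_eq_sum_of_support_subset _ (s := hfin.toFinset) ?_] at hsum
  swap
  · intro w hw
    simp only [Function.mem_support, ne_eq, max_eq_right_iff, not_le] at hw
    simpa using hw
  have hsum' : ∑ w ∈ hfin.toFinset, w.ord (M.jF - algebraMap ℂ F c) =
      ∑ _w ∈ hfin.toFinset, (e : ℤ) := by
    rw [Finset.sum_const, nsmul_eq_mul, ← Nat.cast_mul,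
      show hfin.toFinset.card = Nat.card {v : Place ℂ F // 0 < v.ord (M.jF - algebraMap ℂ F c)}
        from (Nat.card_eq_card_finite_toFinset hfin).symm, hcount, ← hsum]
    refine Finset.sum_congr rfl fun w hw => (max_eq_left ?_).symm
    rw [Set.Finite.mem_toFinset, Set.mem_setOf_eq] at hw
    exact hw.le
  exact (Finset.sum_eq_sum_iff_of_le hle).1 hsum' v (by simpa using hv)

theorem ord_x0Model_jF_sub {N : ℕ} [NeZero N] (h4 : 4 ∣ N) (c : ℂ)
    (w : Place ℂ ↥(modularFunctionFieldC ℂ N))
    (hw : 0 < w.ord ((Places.x0Model N).jF - algebraMap ℂ _ c)) :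
    w.ord ((Places.x0Model N).jF - algebraMap ℂ _ c) = jIndex c := by
  classical
  haveI : (Gamma0 N).FiniteIndex :=
    ⟨by rw [Gamma0.index_Gamma0 N]; exact (Gamma0.dedekindPsi_pos N).ne'⟩
  unfold jIndex
  have e1 := Gamma0.two_mul_card_orbits_S N
  have e2 := Gamma0.three_mul_card_orbits_ST N
  rw [nuTwo_eq_zero_of_four_dvd h4, add_zero, Gamma0.card_coset, ← Gamma0.index_Gamma0 N] at e1
  rw [nuThree_eq_zero_of_four_dvd h4, mul_zero, add_zero, Gamma0.card_coset,
    ← Gamma0.index_Gamma0 N] at e2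
  split_ifs with h0 h1
  · subst h0
    exact ord_eq_of_card_fiber _ 0 3 (fun τ hτ => by rw [Places.ellPeriod_top_eq, if_pos hτ])
      (by rw [← e2, mul_comm, map_zero, sub_zero, (Places.x0Model N).card_fiber_zero]) w hw
  · subst h1
    exact ord_eq_of_card_fiber _ 1728 2
      (fun τ hτ => by rw [Places.ellPeriod_top_eq, if_neg (hτ ▸ h0), if_pos hτ])
      (by rw [← e1, mul_comm, (Places.x0Model N).card_fiber_1728]) w hw
  · exact (Places.x0Model N).ord_jF_sub_eq_one w h0 h1 hw

/-- `j` as an element of the function field of `X₀(N)` over the algebraic numbers. -/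
def barJ (N : ℕ) : ↥(modularFunctionFieldBar N) :=
  ⟨jqModC (AlgebraicClosure ℚ), Genus.jqModC_mem_bar N⟩

open IntermediateField in
theorem bar_ramification (N : ℕ) [NeZero N] :
    (4 ∣ N → ∀ (v : Place (AlgebraicClosure ℚ) ↥(modularFunctionFieldBar N))
        (c : AlgebraicClosure ℚ), 0 < v.ord (barJ N - algebraMap _ _ c) →
        v.ord (barJ N - algebraMap _ _ c) = jIndex c) ∧
      {v : Place (AlgebraicClosure ℚ) ↥(modularFunctionFieldBar N) |
        v.ord (barJ N) < 0}.ncard = cuspCount N := by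
  classical
  obtain ⟨ι⟩ : Nonempty (AlgebraicClosure ℚ →+* ℂ) :=
    ⟨(IsAlgClosed.lift : AlgebraicClosure ℚ →ₐ[ℚ] ℂ).toRingHom⟩
  letI algQC : Algebra (AlgebraicClosure ℚ) ℂ := ι.toAlgebra
  letI : Algebra ↥(modularFunctionFieldBar N) ↥(modularFunctionFieldC ℂ N) :=
    (ModFun.barToC N ι).toAlgebra
  letI algKE : Algebra (AlgebraicClosure ℚ) ↥(modularFunctionFieldC ℂ N) :=
    ((algebraMap ℂ ↥(modularFunctionFieldC ℂ N)).comp ι).toAlgebra
  haveI : IsScalarTower (AlgebraicClosure ℚ) ↥(modularFunctionFieldBar N)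
      ↥(modularFunctionFieldC ℂ N) := by
    refine IsScalarTower.of_algebraMap_eq fun a => Subtype.ext ?_
    show algebraMap ℂ (LaurentSeries ℂ) (ι a) =
      coeffMap ι (algebraMap (AlgebraicClosure ℚ) (LaurentSeries (AlgebraicClosure ℚ)) a)
    rw [algebraMap_laurentSeries_eq_single, algebraMap_laurentSeries_eq_single, coeffMap_single]
  haveI : IsScalarTower (AlgebraicClosure ℚ) ℂ ↥(modularFunctionFieldC ℂ N) :=
    IsScalarTower.of_algebraMap_eq fun _ => rfl
  set x := barJ N with hxdef
  let M := Places.x0Model N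
  have hxM : algebraMap ↥(modularFunctionFieldBar N) ↥(modularFunctionFieldC ℂ N) x = M.jF :=
    Subtype.ext (coeffMap_jqModC ι)
  have hx : Transcendental (AlgebraicClosure ℚ) x := fun h =>
    ModFun.transcendental_jqModC (AlgebraicClosure ℚ)
      (h.algHom (modularFunctionFieldBar N).val)
  haveI : Module.Finite (IntermediateField.adjoin (AlgebraicClosure ℚ) {x})
      ↥(modularFunctionFieldBar N) := Curve.finite_adjoin_of_transcendental hx
  haveI : Curve.IsConstExt (AlgebraicClosure ℚ) ↥(modularFunctionFieldBar N) ℂ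
      ↥(modularFunctionFieldC ℂ N) := by
    refine Curve.IsConstExt.of_transcendental x ?_ ?_
    · rw [hxM]
      exact fun h => ModFun.transcendental_jqModC ℂ (h.algHom (modularFunctionFieldC ℂ N).val)
    · apply IntermediateField.lift_injective (modularFunctionFieldC ℂ N)
      rw [IntermediateField.lift_top, IntermediateField.lift_adjoin]
      refine le_antisymm ?_ (IntermediateField.adjoin_le_iff.mpr ?_)
      · rw [IntermediateField.adjoin_le_iff]
        rintro _ ⟨y, -, rfl⟩
        exact y.2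
      · rintro _ (rfl | rfl)
        · refine IntermediateField.subset_adjoin _ _ ⟨M.jF, ⟨x, hxM⟩, rfl⟩
        · refine IntermediateField.subset_adjoin _ _ ⟨⟨_, jqNModC_mem ℂ N⟩,
            ⟨⟨_, Genus.jqNModC_mem_bar N⟩, Subtype.ext (coeffMap_jqNModC ι N)⟩, rfl⟩
  haveI : (Gamma0 N).FiniteIndex :=
    ⟨by rw [Gamma0.index_Gamma0 N]; exact (Gamma0.dedekindPsi_pos N).ne'⟩
  refine ⟨fun h4 v c hv => ?_, ?_⟩
  · have hmap : algebraMap ↥(modularFunctionFieldBar N) ↥(modularFunctionFieldC ℂ N)
        (x - algebraMap _ _ c) = M.jF - algebraMap ℂ _ (ι c) := by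
      rw [map_sub, ← IsScalarTower.algebraMap_apply, hxM]
      rfl
    have hord := Curve.ord_placeExt (Ω := ℂ) (E := ↥(modularFunctionFieldC ℂ N)) v
      (x - algebraMap _ _ c)
    rw [hmap] at hord
    rw [← hord] at hv ⊢
    rw [ord_x0Model_jF_sub h4 (ι c) _ hv]
    unfold jIndex
    simp only [show (1728 : ℂ) = ι 1728 from (map_ofNat ι 1728).symm, ι.injective.eq_iff,
      map_eq_zero]
  · rw [← Genus.ncard_setOf_ord_neg (Ω := ℂ) (E := ↥(modularFunctionFieldC ℂ N)), hxM]
    exact M.card_fiber_infty.trans (Gamma0.card_cuspOrbit N)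

/-- A place pulls back along an isomorphism, with the orders. -/
theorem exists_place_comap {K A B : Type*} [Field K] [Field A] [Field B] [Algebra K A]
    [Algebra K B] (d : A ≃ₐ[K] B) (w : Place K B) :
    ∃ v : Place K A, (∀ f, f ∈ v.toValuationSubring ↔ d f ∈ w.toValuationSubring) ∧
      ∀ f, v.ord f = w.ord (d f) := by
  letI : Algebra A B := d.toRingEquiv.toRingHom.toAlgebra
  haveI : IsScalarTower K A B :=
    IsScalarTower.of_algebraMap_eq fun a => (d.commutes a).symm
  haveI : Algebra.IsIntegral A B := ⟨fun b => by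
    obtain ⟨a, rfl⟩ := d.surjective b
    exact isIntegral_algebraMap (x := a)⟩
  have hval : ∀ f, algebraMap A B f = d f := fun _ => rfl
  refine ⟨w.restrict A, fun f => Place.mem_restrict_iff .., fun f => ?_⟩
  have h := w.ord_restrict (F := A) f
  obtain ⟨π, hπ⟩ := IsDiscreteValuationRing.exists_irreducible w.toValuationSubring
  obtain ⟨a, ha⟩ := d.surjective (π : B)
  have h1 := w.ord_restrict (F := A) a
  rw [hval, ha, w.ord_coe_irreducible hπ] at h1
  have he : (Place.ramificationIndex (F := A) w : ℤ) = 1 :=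
    Int.eq_one_of_mul_eq_one_right (Int.natCast_nonneg _) h1.symm
  rw [hval, he, one_mul] at h
  exact h.symm

/-- Places of isomorphic function fields correspond, with the orders. -/
theorem exists_placeEquiv {K F F' : Type*} [Field K] [Field F] [Field F'] [Algebra K F]
    [Algebra K F'] (e : F ≃ₐ[K] F') :
    ∃ P : Place K F' ≃ Place K F, ∀ w f, (P w).ord f = w.ord (e f) := by
  choose P hP hPord using exists_place_comap e
  choose Q hQ hQord using exists_place_comap e.symm
  refine ⟨⟨P, Q, fun w => ?_, fun v => ?_⟩, fun w f => hPord w f⟩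
  · ext f
    rw [hQ, hP, e.apply_symm_apply]
  · ext f
    rw [hP, hQ, e.symm_apply_apply]

/-- `∑_{d ∣ qM} φ(gcd(d, qM/d))` is twice that sum for `M`. -/
theorem cuspCount_prime_mul {q M : ℕ} (hq : q.Prime) (hqM : ¬ q ∣ M) [NeZero M] :
    cuspCount (q * M) = 2 * cuspCount M := by
  classical
  have hqne : q ≠ 0 := hq.ne_zero
  have hdiv : (q * M).divisors = M.divisors ∪ M.divisors.image (q * ·) := by
    ext d
    simp only [Finset.mem_union, Finset.mem_image, Nat.mem_divisors]
    constructor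
    · rintro ⟨hd, -⟩
      by_cases hqd : q ∣ d
      · obtain ⟨e, rfl⟩ := hqd
        exact Or.inr ⟨e, ⟨Nat.dvd_of_mul_dvd_mul_left hq.pos hd, NeZero.ne M⟩, rfl⟩
      · exact Or.inl ⟨Nat.Coprime.dvd_of_dvd_mul_left
          ((hq.coprime_iff_not_dvd.mpr hqd).symm) hd, NeZero.ne M⟩
    · rintro (⟨hd, -⟩ | ⟨e, ⟨he, -⟩, rfl⟩)
      · exact ⟨hd.mul_left q, Nat.mul_ne_zero hqne (NeZero.ne M)⟩
      · exact ⟨Nat.mul_dvd_mul_left q he, Nat.mul_ne_zero hqne (NeZero.ne M)⟩
  have hdisj : Disjoint M.divisors (M.divisors.image (q * ·)) := by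
    rw [Finset.disjoint_left]
    intro d hd hd'
    obtain ⟨e, -, rfl⟩ := Finset.mem_image.mp hd'
    exact hqM ((dvd_mul_right q e).trans (Nat.dvd_of_mem_divisors hd))
  rw [cuspCount, hdiv, Finset.sum_union hdisj,
    Finset.sum_image fun a _ b _ h => Nat.eq_of_mul_eq_mul_left hq.pos h, cuspCount, two_mul]
  congr 1
  · refine Finset.sum_congr rfl fun d hd => congrArg Nat.totient ?_
    obtain ⟨hdM, -⟩ := Nat.mem_divisors.mp hd
    rw [Nat.mul_div_assoc q hdM, Nat.Coprime.gcd_mul_left_cancel_right]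
    exact hq.coprime_iff_not_dvd.mpr fun h => hqM (h.trans hdM)
  · refine Finset.sum_congr rfl fun d hd => congrArg Nat.totient ?_
    obtain ⟨hdM, -⟩ := Nat.mem_divisors.mp hd
    rw [Nat.mul_div_mul_left _ _ hq.pos, Nat.Coprime.gcd_mul_left_cancel]
    exact hq.coprime_iff_not_dvd.mpr fun h => hqM (h.trans (Nat.div_dvd_of_dvd hdM))

end Fermat.Agent.Carayol.LTwoComp

end
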