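/-
For `4 ∣ M` the map from `X₀(q M)` to `X₀(M)` (inside the function field of `X(q; M)`: from the
field of the point `∞` to the base field) is unramified away from the cusps, and there are exactly
twice as many cusps upstairs.
-/
import Fermat.Agent.Carayol.CuspidalAction
import Fermat.Agent.Carayol.LTwoCompUnramLevel
import Fermat.Agent.Curve.BasicFunctionField

set_option autoImplicit false

noncomputable section

namespace Fermat.Agent.Carayol.LTwoComp

open AlgebraicCurve ModularCurve Cuspidal

variable {q : ℕ} [Fact q.Prime] {M : ℕ} [NeZero M]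

theorem baseField_le_pointField (P : Line q) : baseField q M ≤ pointField q M P := by
  refine IntermediateField.adjoin_le_iff.mpr ?_
  rintro _ ⟨d, hd, hdM, rfl⟩
  exact baseElt_mem_pointField P hdM

theorem jElt_mem_baseField : jElt q M ∈ baseField q M :=
  IntermediateField.subset_adjoin Qb _ ⟨1, inferInstance, one_dvd M, rfl⟩

/-- What is known on `X₀(N)` for any field of level `N` inside that of `X(q; M)`. -/
theorem ramification_of_map_eq (N : ℕ) [NeZero N] (S : IntermediateField Qb (XField q M))
    (hS : S.map (XField q M).val = (modularFunctionFieldBar N).map (qExpandAlgHomC Qb q))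
    (hj : jElt q M ∈ S) :
    (∀ w : Place Qb S, 0 ≤ w.ord ⟨jElt q M, hj⟩ →
        ∃ c : Qb, 0 < w.ord ((⟨jElt q M, hj⟩ : S) - algebraMap Qb S c)) ∧
      (4 ∣ N → ∀ (w : Place Qb S) (c : Qb),
        0 < w.ord ((⟨jElt q M, hj⟩ : S) - algebraMap Qb S c) →
        w.ord ((⟨jElt q M, hj⟩ : S) - algebraMap Qb S c) = jIndex c) ∧
      {w : Place Qb S | w.ord ⟨jElt q M, hj⟩ < 0}.ncard = cuspCount N ∧
      Curve.IsFunctionFieldOne Qb S := by
  let e : ↥(modularFunctionFieldBar N) ≃ₐ[Qb] S :=
    (IntermediateField.equivMap (modularFunctionFieldBar N) (qExpandAlgHomC Qb q)).trans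
      ((IntermediateField.equivOfEq hS.symm).trans
        (IntermediateField.equivMap S (XField q M).val).symm)
  have he : ∀ z, ((e z : XField q M) : LaurentSeries Qb) = qExpand Qb q z := fun z => by
    have h : IntermediateField.equivMap S (XField q M).val (e z) =
        IntermediateField.equivOfEq hS.symm
          (IntermediateField.equivMap (modularFunctionFieldBar N) (qExpandAlgHomC Qb q) z) := by
      simp [e]
    exact congrArg Subtype.val h
  have hx : e (barJ N) = ⟨jElt q M, hj⟩ := Subtype.ext <| Subtype.ext <| by
    rw [he]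
    exact qExpand_congr (one_mul q).symm _
  obtain ⟨P, hP⟩ := exists_placeEquiv e
  have hjc : ∀ w c, (P w).ord (barJ N - algebraMap _ _ c) =
      w.ord ((⟨jElt q M, hj⟩ : S) - algebraMap Qb S c) := fun w c => by
    rw [hP, map_sub, e.commutes, hx]
  have hj' : ∀ w, (P w).ord (barJ N) = w.ord ⟨jElt q M, hj⟩ := fun w => by rw [hP, hx]
  refine ⟨fun w hw => ?_, fun h4 w c hw => ?_, ?_, ?_⟩
  · haveI := Curve.finite_residueField (K := Qb) (P w)
    obtain ⟨c, hc | hc⟩ := Places.exists_const_ord_pos (P w) (f := barJ N) (by rwa [hj'])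
    · exact absurd (hc ▸ isAlgebraic_algebraMap c : IsAlgebraic Qb (barJ N)) fun h =>
        ModFun.transcendental_jqModC Qb (h.algHom (modularFunctionFieldBar N).val)
    · exact ⟨c, by rwa [← hjc]⟩
  · rw [← hjc] at hw ⊢
    exact (bar_ramification N).1 h4 _ c hw
  · rw [← (bar_ramification N).2, ← Set.ncard_image_of_injective _ P.injective]
    congr 1
    ext v
    obtain ⟨w, rfl⟩ := P.surjective v
    simp only [Set.mem_image, Set.mem_setOf_eq, P.injective.eq_iff, exists_eq_right, hj']
  · letI : Algebra (modularFunctionFieldBar N) S := e.toRingEquiv.toRingHom.toAlgebra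
    haveI : IsScalarTower Qb (modularFunctionFieldBar N) S :=
      IsScalarTower.of_algebraMap_eq fun a => (e.commutes a).symm
    haveI : Module.Finite (modularFunctionFieldBar N) S :=
      Module.Finite.of_surjective (Algebra.linearMap (modularFunctionFieldBar N) S)
        fun b => ⟨e.symm b, e.apply_symm_apply b⟩
    exact Curve.IsFunctionFieldOne.of_finite_extension (F := modularFunctionFieldBar N)

theorem map_baseField_eq_bar :
    (baseField q M).map (XField q M).val =
      (modularFunctionFieldBar M).map (qExpandAlgHomC Qb q) := by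
  rw [map_baseField, show modularFunctionFieldBar M = modularFunctionFieldC Qb M from
    ModFun.laurentBaseChange_full_eq M Qb]

theorem map_pointField_none_eq_bar :
    (pointField q M none).map (XField q M).val =
      (modularFunctionFieldBar (q * M)).map (qExpandAlgHomC Qb q) := by
  rw [← fieldRange_levelIncl_comp_beta]
  refine SetLike.ext fun y => ⟨?_, ?_⟩
  · rintro ⟨_, ⟨z, rfl⟩, rfl⟩
    exact ⟨z, z.2, by simp⟩
  · rintro ⟨z, hz, rfl⟩
    exact ⟨_, ⟨⟨z, hz⟩, rfl⟩, by simp⟩

/-- Away from the cusps every place of the upper field has index one. -/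
theorem exists_ord_eq_one_of_noncusp (hqM : ¬ q ∣ M) (h4 : 4 ∣ M)
    (w : Place Qb (pointField q M none))
    (hw : 0 ≤ w.ord ⟨jElt q M, baseField_le_pointField none jElt_mem_baseField⟩) :
    ∃ g : baseField q M,
      w.ord (IntermediateField.inclusion (baseField_le_pointField none) g) = 1 := by
  obtain ⟨hval, hup, -, hffu⟩ := ramification_of_map_eq (q * M) (pointField q M none)
    map_pointField_none_eq_bar (baseField_le_pointField none jElt_mem_baseField)
  obtain ⟨-, hdown, -, hffd⟩ := ramification_of_map_eq M (baseField q M)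
    map_baseField_eq_bar jElt_mem_baseField
  obtain ⟨c, hc⟩ := hval w hw
  have hupc := hup (h4.mul_left q) w c hc
  set incl := IntermediateField.inclusion (baseField_le_pointField (q := q) (M := M) none)
  letI : Algebra (baseField q M) (pointField q M none) := incl.toRingHom.toAlgebra
  haveI : IsScalarTower Qb (baseField q M) (pointField q M none) :=
    IsScalarTower.of_algebraMap_eq fun a => (incl.commutes a).symm
  haveI : Algebra.IsIntegral (baseField q M) (pointField q M none) := by
    haveI := Curve.finite_of_isFunctionFieldOne (K := Qb) (F := baseField q M)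
      (F' := pointField q M none)
    infer_instance
  obtain ⟨g, -, hg⟩ := Place.exists_ord_eq_ramificationIndex (F := baseField q M) w
  refine ⟨g, ?_⟩
  have hj := w.ord_restrict (F := baseField q M)
    ((⟨jElt q M, jElt_mem_baseField⟩ : baseField q M) - algebraMap Qb _ c)
  rw [map_sub, ← IsScalarTower.algebraMap_apply] at hj
  have hv : 0 < (w.restrict (baseField q M)).ord
      ((⟨jElt q M, jElt_mem_baseField⟩ : baseField q M) - algebraMap Qb _ c) := by
    refine pos_of_mul_pos_right (hj ▸ hc) (Int.natCast_nonneg _)
  have hdownc := hdown h4 _ c hv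
  change _ = _ at hupc
  rw [hdownc] at hj
  have h1 : (Place.ramificationIndex (F := baseField q M) w : ℤ) * jIndex c = 1 * jIndex c := by
    rw [one_mul, ← hj]
    exact hupc
  show w.ord (algebraMap (baseField q M) (pointField q M none) g) = 1
  rw [hg, mul_right_cancel₀ (jIndex_pos c).ne' h1]

/-- There are twice as many cusps upstairs. -/
theorem ncard_cusps_pointField (hqM : ¬ q ∣ M) :
    {w : Place Qb (pointField q M none) |
        w.ord ⟨jElt q M, baseField_le_pointField none jElt_mem_baseField⟩ < 0}.ncard =
      2 * {v : Place Qb (baseField q M) | v.ord ⟨jElt q M, jElt_mem_baseField⟩ < 0}.ncard := by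
  rw [(ramification_of_map_eq (q * M) (pointField q M none) map_pointField_none_eq_bar _).2.2.1,
    (ramification_of_map_eq M (baseField q M) map_baseField_eq_bar _).2.2.1]
  exact cuspCount_prime_mul Fact.out hqM

end Fermat.Agent.Carayol.LTwoComp

end
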