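/-
For `4 ∣ M` the quotient `F` of `X(q; M)` by the upper unipotent group is unramified over
`X₀(q M)`.

The stabiliser of a place of `X(q; M)` acts on a uniformiser through a faithful character, so it
is cyclic modulo the centre and hence commutative. Away from the cusps it lies in every Borel
subgroup, as `X₀(q M)` is unramified over `X₀(M)` there; at a cusp it has exactly two orbits on
the projective line, so it contains no split torus element.
-/
import Fermat.Agent.Carayol.LTwoCompUnramBase
import Fermat.Agent.Carayol.LTwoCompUnramLocal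
import Fermat.Agent.Carayol.CuspidalVanish
import Mathlib.GroupTheory.Perm.Cycle.Basic
import Mathlib.RingTheory.IntegralDomain

set_option autoImplicit false
set_option linter.style.haveILetI false
set_option linter.unusedSectionVars false
set_option synthInstance.maxHeartbeats 400000

noncomputable section

open scoped MatrixGroups

namespace Fermat.Agent.Carayol.LTwoComp

open AlgebraicCurve ModularCurve Cuspidal Matrix Fermat.Agent.Curve

attribute [-simp] ZMod.inv_coe_unit
attribute [local simp] Units.val_inv_eq_inv_val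

variable {q : ℕ} [Fact q.Prime] {M : ℕ} [NeZero M] (hqM : ¬ q ∣ M)

include hqM

theorem isFunctionFieldOne_of_baseField_le (S : IntermediateField Qb (XField q M))
    (h : baseField q M ≤ S) : IsFunctionFieldOne Qb S := by
  haveI := isFunctionFieldOne_xField hqM
  haveI := autGroup_finite (M := M) hqM
  haveI : Module.Finite (baseField q M) (XField q M) := Module.finite_of_finrank_pos (by
    rw [finrank_baseField_xField hqM]
    exact Nat.card_pos)
  exact isFunctionFieldOne_of_le h

/-- An automorphism acting trivially comes from a scalar matrix. -/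
theorem scalar_of_autHom_eq_one {g : SL(2, ZMod q)} (hg : autHom (M := M) hqM g = 1) :
    g 1 0 = 0 ∧ g 0 1 = 0 ∧ g 0 0 = g 1 1 := by
  have hP : ∀ P : Line q, lineSmul g⁻¹ P = P := fun P => genElt_one_injective (M := M) (by
    rw [← autHom_genElt hqM g (one_dvd M) P, hg, AlgEquiv.one_apply])
  have h1 := lineSmul_inv_none.1 (hP none)
  have h2 := lineSmul_inv_zero.1 (hP (some 0))
  refine ⟨h1, h2, ?_⟩
  have hdet : g 0 0 * g 1 1 - g 0 1 * g 1 0 = 1 := by
    have h := g.2
    rwa [Matrix.det_fin_two] at h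
  have ha : g 1 1 ≠ 0 := fun h => by simp [h, h1] at hdet
  have h3 := hP (some 1)
  simp [lineSmul, lineVec, vecLine, Matrix.vecMul, dotProduct, Fin.sum_univ_two,
    Matrix.SpecialLinearGroup.coe_inv, Matrix.adjugate_fin_two, h1, h2, ha] at h3
  field_simp at h3
  exact h3

theorem commute_of_autHom_eq_one {g : SL(2, ZMod q)} (hg : autHom (M := M) hqM g = 1)
    (h : SL(2, ZMod q)) : Commute g h := by
  obtain ⟨h1, h2, h3⟩ := scalar_of_autHom_eq_one hqM hg
  ext i j
  fin_cases i <;> fin_cases j <;>
    simp [Matrix.mul_apply, Fin.sum_univ_two, h1, h2, h3, mul_comm]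

/-- The stabiliser of a place of `X(q; M)`. -/
def stab (u : Place Qb (XField q M)) : Subgroup SL(2, ZMod q) :=
  (MulAction.stabilizer (SemilinearAut Qb (XField q M)) u).comap
    (SemilinearAut.ofAlgAut.comp (autHom hqM))

theorem mem_stab {u : Place Qb (XField q M)} {g : SL(2, ZMod q)} :
    g ∈ stab hqM u ↔ SemilinearAut.ofAlgAut (autHom hqM g) • u = u := Iff.rfl

/-- The translate of a place. -/
def move (g : SL(2, ZMod q)) (u : Place Qb (XField q M)) : Place Qb (XField q M) :=
  SemilinearAut.ofAlgAut (autHom hqM g) • u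

theorem move_mul (g h : SL(2, ZMod q)) (u : Place Qb (XField q M)) :
    move hqM (g * h) u = move hqM g (move hqM h u) := by
  rw [move, move, move, map_mul, map_mul, mul_smul]

theorem mem_stab_move {g h : SL(2, ZMod q)} {u : Place Qb (XField q M)} :
    g ∈ stab hqM (move hqM h u) ↔ h⁻¹ * g * h ∈ stab hqM u := by
  rw [mem_stab, mem_stab, ← move, ← move, ← move_mul]
  constructor
  · intro e
    rw [mul_assoc, move_mul, e, ← move_mul, inv_mul_cancel, move, map_one, map_one, one_smul]
  · intro e
    conv_rhs => rw [← e]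
    rw [← move_mul]
    congr 1
    group

/-- The stabiliser of a place is commutative, and a single element generates its image. -/
theorem stab_cyclic (u : Place Qb (XField q M)) :
    ∃ g₀ ∈ stab hqM u, (∀ g ∈ stab hqM u, ∃ j : ℤ, autHom (M := M) hqM g = autHom hqM g₀ ^ j) ∧
      ∀ g ∈ stab hqM u, ∀ h ∈ stab hqM u, g * h = h * g := by
  classical
  haveI := isFunctionFieldOne_xField hqM
  obtain ⟨p, hp0, hp⟩ := exists_ord_eq u 1
  let T : SL(2, ZMod q) → (XField q M ≃ₐ[Qb] XField q M) := fun g => autHom hqM g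
  have hord : ∀ g ∈ stab hqM u, ∀ y, u.ord (T g y) = u.ord y := fun g hg y => by
    have h := SemilinearAut.ord_smul (SemilinearAut.ofAlgAut (T g)) u y
    rwa [mem_stab hqM |>.1 hg, SemilinearAut.ofAlgAut_smul] at h
  have hmem : ∀ g ∈ stab hqM u, T g p / p ∈ u.toValuationSubring := fun g hg =>
    mem_of_ord_nonneg u (by rw [ord_div u (by simpa using hp0) hp0, hord g hg, sub_self])
  let χ : stab hqM u →* Qb :=
    { toFun := fun g => Bad.placeValue u (T g p / p)
      map_one' := by
        simp only [T, OneMemClass.coe_one, map_one, AlgEquiv.one_apply, div_self hp0,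
          Bad.placeValue_one]
      map_mul' := fun g h => by
        have e : T (g * h : stab hqM u) p / p = T g (T h p / p) * (T g p / p) := by
          simp only [T, Subgroup.coe_mul, map_mul, AlgEquiv.mul_apply, map_div₀]
          field_simp
          rw [mul_div_assoc, div_self (by simpa using hp0), mul_one]
        show Bad.placeValue u _ = _
        rw [e, Bad.placeValue_mul u (mem_of_ord_nonneg u (by
            rw [hord g g.2]; exact ord_nonneg_of_mem u (hmem h h.2))) (hmem g g.2),
          placeValue_fixed u (T g) ((mem_stab hqM).1 g.2) (hmem h h.2), mul_comm] }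
  have hker : ∀ g : stab hqM u, χ g = 1 → autHom (M := M) hqM g = 1 := fun g hg =>
    eq_one_of_character u (T g) ((mem_stab hqM).1 g.2) (m := orderOf (g : SL(2, ZMod q)))
      (orderOf_pos _) (by rw [← map_pow, pow_orderOf_eq_one, map_one]) hp hg
  let χu : stab hqM u →* Qbˣ := χ.toHomUnits
  haveI : Finite χu.range := Finite.of_surjective _ χu.rangeRestrict_surjective
  obtain ⟨⟨_, g₀, rfl⟩, hgen⟩ := IsCyclic.exists_generator (α := χu.range)
  have hpow : ∀ g : stab hqM u, ∃ j : ℤ, autHom (M := M) hqM ((g₀ : SL(2, ZMod q)) ^ (-j) * g) = 1 := by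
    intro g
    obtain ⟨j, hj⟩ := Subgroup.mem_zpowers_iff.1 (hgen ⟨χu g, g, rfl⟩)
    refine ⟨j, ?_⟩
    have h1 : χu (g₀ ^ (-j) * g) = 1 := by
      have hj' : χu g₀ ^ j = χu g := congrArg Subtype.val hj
      rw [map_mul, map_zpow, _root_.zpow_neg, hj', inv_mul_cancel]
    have h2 : χ (g₀ ^ (-j) * g) = 1 := congrArg Units.val h1
    simpa using hker _ h2
  have hsplit : ∀ g : stab hqM u, ∃ (j : ℤ) (z : SL(2, ZMod q)),
      autHom (M := M) hqM z = 1 ∧ (g : SL(2, ZMod q)) = (g₀ : SL(2, ZMod q)) ^ j * z := fun g => by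
    obtain ⟨j, hj⟩ := hpow g
    exact ⟨j, _, hj, by group⟩
  refine ⟨g₀, g₀.2, fun g hg => ?_, fun g hg h hh => ?_⟩
  · obtain ⟨j, z, hz, e⟩ := hsplit ⟨g, hg⟩
    exact ⟨j, by rw [show g = _ from e, map_mul, map_zpow, hz, mul_one]⟩
  · obtain ⟨a, z, hz, e⟩ := hsplit ⟨g, hg⟩
    obtain ⟨b, z', hz', e'⟩ := hsplit ⟨h, hh⟩
    have c1 := commute_of_autHom_eq_one hqM hz
    have c2 := commute_of_autHom_eq_one hqM hz'
    rw [show g = _ from e, show h = _ from e']
    exact ((((Commute.refl (g₀ : SL(2, ZMod q))).zpow_zpow a b).mul_right (c2 _).symm).mul_left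
      ((c1 _).mul_right (c1 _))).eq

/-- The permutation of the projective line given by a matrix. -/
def linePerm : SL(2, ZMod q) →* Equiv.Perm (Line q) where
  toFun g :=
    { toFun := lineSmul g⁻¹
      invFun := lineSmul g
      left_inv := fun P => genElt_one_injective (M := M) (by
        rw [show g = g⁻¹⁻¹ from (inv_inv g).symm, ← autHom_genElt hqM g⁻¹ (one_dvd M),
          inv_inv, ← autHom_genElt hqM g (one_dvd M), ← AlgEquiv.mul_apply, ← map_mul,
          inv_mul_cancel, map_one, AlgEquiv.one_apply])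
      right_inv := fun P => genElt_one_injective (M := M) (by
        rw [← autHom_genElt hqM g (one_dvd M), show g = g⁻¹⁻¹ from (inv_inv g).symm,
          ← autHom_genElt hqM g⁻¹ (one_dvd M), inv_inv, ← AlgEquiv.mul_apply, ← map_mul,
          mul_inv_cancel, map_one, AlgEquiv.one_apply]) }
  map_one' := Equiv.ext fun P => genElt_one_injective (M := M) (by
    show genElt q M (one_dvd M) (lineSmul (1 : SL(2, ZMod q))⁻¹ P) = genElt q M (one_dvd M) P
    rw [← autHom_genElt hqM 1 (one_dvd M), map_one, AlgEquiv.one_apply])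
  map_mul' g h := Equiv.ext fun P => genElt_one_injective (M := M) (by
    show genElt q M (one_dvd M) (lineSmul (g * h)⁻¹ P) =
      genElt q M (one_dvd M) (lineSmul g⁻¹ (lineSmul h⁻¹ P))
    rw [← autHom_genElt hqM (g * h) (one_dvd M), map_mul, AlgEquiv.mul_apply, autHom_genElt,
      autHom_genElt])

theorem linePerm_none_iff {g : SL(2, ZMod q)} :
    linePerm hqM g none = none ↔ g ∈ borel q := by
  show lineSmul g⁻¹ none = none ↔ _
  rw [lineSmul_inv_none, mem_borel]

theorem linePerm_congr {g h : SL(2, ZMod q)} (e : autHom (M := M) hqM g = autHom hqM h) :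
    linePerm hqM g = linePerm hqM h :=
  Equiv.ext fun P => genElt_one_injective (M := M) (by
    show genElt q M (one_dvd M) (lineSmul g⁻¹ P) = genElt q M (one_dvd M) (lineSmul h⁻¹ P)
    rw [← autHom_genElt hqM g (one_dvd M), e, autHom_genElt])

/-- All these permutations are even. -/
theorem sign_linePerm (hq5 : 5 ≤ q) (g : SL(2, ZMod q)) :
    Equiv.Perm.sign (linePerm hqM g) = 1 := by
  set s := Equiv.Perm.sign.comp (linePerm (q := q) hqM) with hs
  have hu : ∀ β : ZMod q, s (uni β) = 1 := by
    intro β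
    have hpow : ∀ n : ℕ, uni β ^ n = uni ((n : ZMod q) * β) := by
      intro n
      induction n with
      | zero => simp [uni_zero]
      | succ n ih =>
        rw [pow_succ, ih]
        ext i j
        fin_cases i <;> fin_cases j <;> simp [Matrix.mul_apply, Fin.sum_univ_two, add_mul, add_comm]
    have h1 : s (uni β) ^ q = 1 := by
      rw [← map_pow, hpow, ZMod.natCast_self, zero_mul, uni_zero, map_one]
    obtain ⟨r, hr⟩ := (Fact.out : q.Prime).odd_of_ne_two (by omega)
    have h2 : s (uni β) ^ (2 * r + 1) = 1 := hr ▸ h1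
    rwa [pow_succ, pow_mul, Int.units_sq, one_pow, one_mul] at h2
  have htor : ∀ a : (ZMod q)ˣ, s (tor a) = s weyl := by
    intro a
    have e : tor a = uni (a : ZMod q) * (weyl * uni ((a : ZMod q)⁻¹) * weyl⁻¹) *
        uni (a : ZMod q) * weyl := by
      have ha := a.ne_zero
      ext i j
      fin_cases i <;> fin_cases j <;>
        simp [Matrix.mul_apply, Fin.sum_univ_two, Matrix.SpecialLinearGroup.coe_inv,
          Matrix.adjugate_fin_two, ha]
    rw [e]
    simp only [map_mul, map_inv, hu, one_mul, mul_one]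
    rw [mul_inv_cancel, one_mul]
  have hw : s weyl = 1 := by rw [← htor 1, tor_one, map_one]
  rcases bruhat g with ⟨p, rfl⟩ | ⟨α, a, β, rfl⟩
  · show s _ = 1
    rw [bor, map_mul, htor, hw, hu, one_mul]
  · show s _ = 1
    simp only [map_mul, hu, hw, htor, one_mul]

/-- No single permutation of this kind moves `∞` to every point. -/
theorem not_transitive (hq5 : 5 ≤ q) (g : SL(2, ZMod q))
    (htrans : ∀ P : Line q, ∃ j : ℤ, (linePerm hqM g ^ j) none = P) : False := by
  classical
  set σ := linePerm hqM g with hσ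
  have hmove : ∀ P, σ P ≠ P := by
    intro P hP
    obtain ⟨j, rfl⟩ := htrans P
    have h0 : σ none = none := by
      apply (σ ^ j).injective
      rw [← Equiv.Perm.mul_apply, ← zpow_one σ, ← _root_.zpow_mul, one_mul, ← _root_.zpow_add,
        add_comm, _root_.zpow_add, zpow_one, Equiv.Perm.mul_apply]
      exact hP
    obtain ⟨i, hi⟩ := htrans (some 0)
    rw [Equiv.Perm.zpow_apply_eq_self_of_apply_eq_self h0 i] at hi
    exact Option.some_ne_none _ hi.symm
  have hcyc : σ.IsCycle := ⟨none, hmove none, fun P _ => htrans P⟩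
  have hsupp : σ.support = Finset.univ := Finset.eq_univ_iff_forall.2 fun P =>
    Equiv.Perm.mem_support.2 (hmove P)
  have h1 := sign_linePerm hqM hq5 g
  rw [← hσ, hcyc.sign, hsupp, Finset.card_univ, Fintype.card_option, ZMod.card] at h1
  obtain ⟨r, hr⟩ := (Fact.out : q.Prime).odd_of_ne_two (by omega)
  rw [hr, show 2 * r + 1 + 1 = 2 * (r + 1) by ring, pow_mul, Int.units_sq, one_pow] at h1
  exact absurd h1 (by decide)

/-! ### Restrictions -/

/-- The automorphisms over the base are all of `SL₂`. -/
theorem base_fixed_iff (y : XField q M) :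
    (∀ g : SL(2, ZMod q), autHom hqM g y = y) ↔ y ∈ baseField q M := by
  rw [← fixedField_autGroup hqM, IntermediateField.mem_fixedField_iff]
  exact ⟨fun h f hf => by obtain ⟨g, rfl⟩ := exists_autHom_eq hqM hf; exact h g,
    fun h g => h _ (autHom_mem hqM g)⟩

theorem ker_le_borel : (autHom (M := M) hqM).ker ≤ borel q := fun _ hz =>
  mem_borel.2 (scalar_of_autHom_eq_one hqM hz).1

/-- Off the cusps the stabilisers lie in every Borel subgroup. -/
theorem stab_noncusp (h4 : 4 ∣ M) {u : Place Qb (XField q M)} (hu : 0 ≤ u.ord (jElt q M))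
    {g : SL(2, ZMod q)} (hg : g ∈ stab hqM u) : g 1 0 = 0 := by
  haveI := isFunctionFieldOne_xField hqM
  haveI := isFunctionFieldOne_of_baseField_le hqM (baseField q M) le_rfl
  haveI := isFunctionFieldOne_of_baseField_le hqM (pointField q M none) (baseField_le_pointField none)
  have hj : 0 ≤ (resP (pointField q M none).val u).ord
      ⟨jElt q M, baseField_le_pointField none jElt_mem_baseField⟩ := by
    have h := ord_cov (pointField q M none).val u
      ⟨jElt q M, baseField_le_pointField none jElt_mem_baseField⟩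
    by_contra hneg
    push Not at hneg
    have he : (1 : ℤ) ≤ ramI (pointField q M none).val u := by exact_mod_cast ramI_pos _ u
    exact absurd (h.trans_lt (mul_neg_of_pos_of_neg (by omega) hneg)) (not_lt.2 hu)
  exact mem_borel.1 (mem_of_index_dvd (autHom hqM) (borel q) (baseField_le_pointField none)
    (base_fixed_iff hqM) (fun y => (mem_pointField_none_iff hqM).symm) (ker_le_borel hqM) u
    (exists_ord_eq_one_of_noncusp hqM h4 _ hj) ((mem_stab hqM).1 hg))

theorem j_ord_move (g : SL(2, ZMod q)) (u : Place Qb (XField q M)) :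
    (move hqM g u).ord (jElt q M) = u.ord (jElt q M) := by
  conv_lhs => rw [show jElt q M = autHom hqM g (jElt q M) from
    (autHom_baseElt hqM g (one_dvd M)).symm, ← SemilinearAut.ofAlgAut_smul]
  exact SemilinearAut.ord_smul _ _ _

/-- The cusps of the base have exactly two cusps above them, so no stabiliser contains a
non-trivial split torus element. -/
theorem false_of_tor_mem_stab_cusp (hq5 : 5 ≤ q) {u : Place Qb (XField q M)}
    (hu : u.ord (jElt q M) < 0) (a : (ZMod q)ˣ) (ha : (a : ZMod q) * a ≠ 1)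
    (hau : tor a ∈ stab hqM u) : False := by
  haveI := isFunctionFieldOne_xField hqM
  haveI := isFunctionFieldOne_of_baseField_le hqM (baseField q M) le_rfl
  haveI := isFunctionFieldOne_of_baseField_le hqM (pointField q M none) (baseField_le_pointField none)
  have hno : ∀ w : Place Qb (XField q M), (∀ g, ∃ h ∈ borel q,
      SemilinearAut.ofAlgAut (autHom hqM (g * h)) • w = w) → False := by
    intro w hw
    obtain ⟨g₀, -, hgen, -⟩ := stab_cyclic hqM w
    refine not_transitive hqM hq5 g₀ fun Q => ?_
    obtain ⟨g, rfl⟩ : ∃ g, linePerm hqM g none = Q := by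
      rcases Q with _ | β
      · exact ⟨1, by rw [map_one]; rfl⟩
      · refine ⟨uni (-β) * weyl, ?_⟩
        show lineSmul (uni (-β) * weyl)⁻¹ none = some β
        simp [lineSmul, lineVec, vecLine, Matrix.vecMul, dotProduct, Fin.sum_univ_two,
          Matrix.SpecialLinearGroup.coe_inv, Matrix.adjugate_fin_two, Matrix.mul_apply]
    obtain ⟨b, hb, hbe⟩ := hw g
    obtain ⟨j, hj⟩ := hgen (g * b) hbe
    refine ⟨j, ?_⟩
    rw [← map_zpow, ← linePerm_congr hqM (g := g * b) (h := g₀ ^ j) (by rw [hj, map_zpow]),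
      map_mul, Equiv.Perm.mul_apply, (linePerm_none_iff hqM).2 hb]
  obtain ⟨c, hc, h3⟩ := exists_mem_of_three (autHom hqM) (borel q) (baseField_le_pointField none)
    (base_fixed_iff hqM) (fun y => (mem_pointField_none_iff hqM).symm)
    ⟨jElt q M, jElt_mem_baseField⟩ (ncard_cusps_pointField hqM) hno hu 1 weyl (weyl * uni 1)
  obtain ⟨-, -, -, hcomm⟩ := stab_cyclic hqM u
  have h := hcomm c hc _ hau
  have h01 := congrArg (fun g : SL(2, ZMod q) => g 0 1) h
  have h10 := congrArg (fun g : SL(2, ZMod q) => g 1 0) h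
  simp [Matrix.mul_apply, Fin.sum_univ_two] at h01 h10
  have ha0 := a.ne_zero
  have hne : (a : ZMod q)⁻¹ - (a : ZMod q) ≠ 0 := fun e => ha (by
    rw [sub_eq_zero] at e
    nth_rewrite 1 [← e]
    exact inv_mul_cancel₀ ha0)
  have c01 : c 0 1 = 0 := (mul_eq_zero.1 (show ((a : ZMod q)⁻¹ - (a : ZMod q)) * c 0 1 = 0 by
    linear_combination h01)).resolve_left hne
  have c10 : c 1 0 = 0 := (mul_eq_zero.1 (show ((a : ZMod q)⁻¹ - (a : ZMod q)) * c 1 0 = 0 by
    linear_combination -h10)).resolve_left hne
  have hd : c 0 0 * c 1 1 - c 0 1 * c 1 0 = 1 := by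
    have h := c.2
    rwa [Matrix.det_fin_two] at h
  obtain ⟨d0, d1⟩ : c 0 0 ≠ 0 ∧ c 1 1 ≠ 0 :=
    mul_ne_zero_iff.1 (by rw [c01, zero_mul, sub_zero] at hd; rw [hd]; exact one_ne_zero)
  rcases h3 with h | h | h
  · rw [mem_borel] at h
    simp [Matrix.mul_apply, Fin.sum_univ_two, c10, d0] at h
  · rw [mem_borel] at h
    simp [Matrix.mul_apply, Fin.sum_univ_two, c10, d0] at h
  · rw [mem_borel] at h
    simp [Matrix.mul_apply, Matrix.vecMul, dotProduct, Fin.sum_univ_two, c01, d1,
      Matrix.SpecialLinearGroup.coe_inv, Matrix.adjugate_fin_two] at h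

/-- An element of the Borel subgroup fixing a place has diagonal `±1`. -/
theorem sq_eq_one_of_bor_mem_stab (hq5 : 5 ≤ q) (h4 : 4 ∣ M) (u : Place Qb (XField q M))
    (a : (ZMod q)ˣ) (β : ZMod q) (h : bor (a, β) ∈ stab hqM u) : (a : ZMod q) * a = 1 := by
  by_contra ha
  have ha0 := a.ne_zero
  have hne : (a : ZMod q) - (a : ZMod q)⁻¹ ≠ 0 := fun e => ha (by
    rw [sub_eq_zero] at e
    nth_rewrite 1 [e]
    exact inv_mul_cancel₀ ha0)
  set t : ZMod q := (a : ZMod q) * β / ((a : ZMod q) - (a : ZMod q)⁻¹) with ht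
  have hconj : (uni t)⁻¹ * tor a * uni t = bor (a, β) := by
    have e : t * ((a : ZMod q) - (a : ZMod q)⁻¹) = (a : ZMod q) * β := by
      rw [ht, div_mul_cancel₀ _ hne]
    ext i j
    fin_cases i <;> fin_cases j <;>
      simp [bor, Matrix.mul_apply, Fin.sum_univ_two, Matrix.SpecialLinearGroup.coe_inv,
        Matrix.adjugate_fin_two]
    linear_combination e
  have hu' : tor a ∈ stab hqM (move hqM (uni t) u) := (mem_stab_move hqM).2 (hconj ▸ h)
  set u' := move hqM (uni t) u
  rcases lt_or_ge (u'.ord (jElt q M)) 0 with hj | hj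
  · exact false_of_tor_mem_stab_cusp hqM hq5 hj a ha hu'
  -- off the cusps the stabiliser is trivial
  have key : ∀ g, ((weyl * uni 1) * tor a * (weyl * uni 1)⁻¹ : SL(2, ZMod q)) = g → g 1 0 = 0 := by
    intro g hg
    refine stab_noncusp hqM h4 (u := move hqM (weyl * uni 1) u') ?_ ?_
    · rw [j_ord_move]; exact hj
    · rw [mem_stab_move, ← hg]
      simpa [mul_assoc] using hu'
  have h10 := key _ rfl
  simp [Matrix.mul_apply, Fin.sum_univ_two, Matrix.SpecialLinearGroup.coe_inv,
    Matrix.adjugate_fin_two] at h10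
  exact hne (by linear_combination h10)

/-- For `4 ∣ M` the quotient of `X(q; M)` by the unipotent group is unramified over `X₀(q M)`. -/
theorem exists_ord_eq_one (hq5 : 5 ≤ q) (h4 : 4 ∣ M) (F : IntermediateField Qb (XField q M))
    (hF : ∀ y, y ∈ F ↔ ∀ β : ZMod q, autHom hqM (uni β) y = y) :
    ∃ hle : pointField q M none ≤ F,
      ∀ w : Place Qb F, ∃ g : pointField q M none, w.ord (IntermediateField.inclusion hle g) = 1 := by
  have hle : pointField q M none ≤ F := fun y hy => (hF y).2 fun β =>
    (mem_pointField_none_iff hqM).1 hy _ (mem_borel.2 (by simp))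
  refine ⟨hle, fun w => ?_⟩
  haveI := isFunctionFieldOne_xField hqM
  haveI := isFunctionFieldOne_of_baseField_le hqM F ((baseField_le_pointField none).trans hle)
  haveI := isFunctionFieldOne_of_baseField_le hqM (pointField q M none) (baseField_le_pointField none)
  let U : Multiplicative (ZMod q) →* SL(2, ZMod q) :=
    { toFun := fun β => uni β.toAdd
      map_one' := uni_zero
      map_mul' := fun x y => by
        ext i j
        fin_cases i <;> fin_cases j <;> simp [Matrix.mul_apply, Fin.sum_univ_two, add_comm] }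
  refine exists_ord_eq_one_of_stab (autHom hqM) (borel q) U.range hle
    (fun y => (mem_pointField_none_iff hqM).symm) (fun y => ?_) ?_ ?_ w
  · rw [hF]
    exact ⟨fun h β => h _ ⟨Multiplicative.ofAdd β, rfl⟩, fun h g ⟨β, hβ⟩ => hβ ▸ h β.toAdd⟩
  · rintro _ ⟨β, rfl⟩ h
    have := (scalar_of_autHom_eq_one hqM h).2.1
    simp [U] at this
    rw [this, map_one]
  · intro u g hg hgu
    obtain ⟨⟨a, β⟩, rfl⟩ := exists_bor_eq hg
    have ha := sq_eq_one_of_bor_mem_stab hqM hq5 h4 u a β hgu
    have hta : autHom (M := M) hqM (tor a) = 1 := by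
      have h1 := red_lift (M := M) hqM (tor a)
      rw [← h1, autHom_red]
      refine sigma_eq_one_of_scalar hqM _ ?_ ?_ ?_
      · rw [← red_apply, h1]; simp
      · rw [← red_apply, h1]; simp
      · rw [← red_apply, ← red_apply, h1]
        simp only [coe_tor, Matrix.of_apply, Matrix.cons_val', Matrix.cons_val_zero,
          Matrix.cons_val_one, Matrix.cons_val_fin_one]
        exact eq_inv_of_mul_eq_one_left ha
    exact ⟨tor a, mem_borel.2 (by simp), hta, uni β, ⟨Multiplicative.ofAdd β, rfl⟩, rfl⟩

end Fermat.Agent.Carayol.LTwoComp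

end
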