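/-
The Borel subgroup on `X(q; M)`: its order, its relation to the stabiliser of the component at
infinity, and functions with prescribed residues on components, invariant under the unipotents.
-/
import Fermat.Agent.Carayol.LTwoCompTransport
import Fermat.Agent.Carayol.LTwoCompUnram
import Fermat.Agent.Carayol.ValuationsReduction

set_option autoImplicit false
set_option linter.style.haveILetI false
set_option synthInstance.maxHeartbeats 400000

noncomputable section

open scoped MatrixGroups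

namespace Fermat.Agent.Carayol.LTwoComp

open AlgebraicCurve ModularCurve Cuspidal IsLocalRing

attribute [-simp] ZMod.inv_coe_unit
attribute [local simp] Units.val_inv_eq_inv_val

variable {q : ℕ} [Fact q.Prime] {M : ℕ} [NeZero M] (A : ValuationSubring Qb) (hqM : ¬ q ∣ M)

theorem intCast_lift (g : SL(2, ZMod q)) (i j : Fin 2) :
    ((((Cuspidal.lift hqM g : CongruenceSubgroup.Gamma0 M) : SL(2, ℤ)) i j : ℤ) : ZMod q) = g i j :=
  (red_apply (q := q) _ i j).symm.trans (by rw [red_lift])

theorem autHom_tor_neg_one : autHom (M := M) hqM (tor (-1 : (ZMod q)ˣ)) = 1 :=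
  sigma_eq_one_of_scalar hqM (Cuspidal.lift hqM (tor (-1)))
    (by rw [intCast_lift]; simp) (by rw [intCast_lift]; simp)
    (by rw [intCast_lift, intCast_lift]; simp)

theorem eq_one_or_of_autHom_eq_one {g : SL(2, ZMod q)} (h : autHom (M := M) hqM g = 1) :
    g = 1 ∨ g = tor (-1) := by
  obtain ⟨h10, h01, h00⟩ := scalar_of_autHom_eq_one hqM h
  have hdet : g 0 0 * g 0 0 = 1 := by
    have h2 := g.2
    rw [Matrix.det_fin_two, h10, h01, ← h00] at h2
    simpa using h2
  rcases mul_self_eq_one_iff.1 hdet with e | e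
  · left; ext i j; fin_cases i <;> fin_cases j <;> simp [← h00, e, h10, h01]
  · right; ext i j; fin_cases i <;> fin_cases j <;> simp [← h00, e, h10, h01]

/-- The image of the upper triangular subgroup. -/
def borelImage : Subgroup (XField q M ≃ₐ[Qb] XField q M) :=
  ((autHom hqM).comp (borel q).subtype).range

theorem natCard_borelImage (hq5 : 5 ≤ q) :
    2 * Nat.card (borelImage (M := M) hqM) = (q - 1) * q := by
  classical
  set ρ := (autHom (M := M) hqM).comp (borel q).subtype with hρ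
  have hker : Nat.card ρ.ker = 2 := by
    refine Nat.card_eq_two_iff.2 ⟨1, ⟨⟨tor (-1), mem_borel.2 (by simp)⟩, ?_⟩, ?_, ?_⟩
    · exact MonoidHom.mem_ker.2 (autHom_tor_neg_one hqM)
    · intro e
      haveI : Fact (2 < q) := ⟨by omega⟩
      have e' : (1 : SL(2, ZMod q)) = tor (-1) :=
        congrArg (fun x : ρ.ker => ((x : borel q) : SL(2, ZMod q))) e
      have := congrArg (fun g : SL(2, ZMod q) => g 0 0) e'
      simp at this
      exact ZMod.neg_one_ne_one this.symm
    · refine Set.eq_univ_of_forall fun g => ?_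
      rcases eq_one_or_of_autHom_eq_one (M := M) hqM (MonoidHom.mem_ker.1 g.2) with e | e
      · exact Or.inl (Subtype.ext (Subtype.ext e))
      · exact Or.inr (Subtype.ext (Subtype.ext e))
  have h := Subgroup.card_mul_index ρ.ker
  rw [Subgroup.index_ker, hker, ← Nat.card_congr (borelEquiv q), Nat.card_prod,
    Nat.card_eq_fintype_card (α := (ZMod q)ˣ), ZMod.card_units, Nat.card_zmod] at h
  exact h

theorem natCard_range_unipHom : Nat.card (unipHom (M := M) hqM).range = q := by
  have hinj : Function.Injective (unipHom (M := M) hqM) := by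
    rw [injective_iff_map_eq_one]
    intro x hx
    obtain ⟨-, h01, -⟩ := scalar_of_autHom_eq_one hqM (g := uni x.toAdd) hx
    simp at h01
    exact Multiplicative.toAdd.injective (by simpa using h01)
  rw [← Nat.card_congr (MonoidHom.ofInjective hinj).toEquiv, Nat.card_congr Multiplicative.toAdd,
    Nat.card_zmod]

theorem autHom_eq_sigma (g : SL(2, ZMod q)) :
    autHom (M := M) hqM g = sigma hqM (Cuspidal.lift hqM g) := rfl

theorem sigma_series_eq (u : CongruenceSubgroup.Gamma0 M) (hv : compVal A (sigma hqM u) = infVal q M A)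
    (hr : ∀ (x : XField q M) (h : x ∈ compVal A (sigma hqM u)) (h' : x ∈ infVal q M A),
        (compRed A (sigma hqM u) ⟨x, h⟩ : LaurentSeries (ResidueField A)) =
          infRed q M A ⟨x, h'⟩) (g : XField q M ≃ₐ[Qb] XField q M) (e : sigma hqM u = g) :
    compVal A g = infVal q M A ∧
      ∀ (x : XField q M) (h : g x ∈ infVal q M A) (h' : x ∈ infVal q M A),
        infRed q M A ⟨g x, h⟩ = infRed q M A ⟨x, h'⟩ := by
  subst e
  refine ⟨hv, fun x h h' => ?_⟩
  have h1 : x ∈ compVal A (sigma hqM u) := (mem_compVal_iff A).2 h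
  rw [← coe_compRed A (sigma hqM u) x h1 h]
  exact hr x h1 h'

/-- The upper unipotents fix the component at infinity and act trivially on its residual field. -/
theorem infRed_uni (hA : A.LiesOverPrime q) (β : ZMod q) :
    compVal A (autHom (M := M) hqM (uni β)) = infVal q M A ∧
      ∀ (x : XField q M) (h : autHom hqM (uni β) x ∈ infVal q M A) (h' : x ∈ infVal q M A),
        infRed q M A ⟨_, h⟩ = infRed q M A ⟨x, h'⟩ := by
  obtain ⟨hv, hr⟩ := sigma_unipotent A hqM hA (Cuspidal.lift hqM (uni β))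
    (by rw [intCast_lift]; simp) (by rw [intCast_lift]; simp)
  exact sigma_series_eq A hqM _ hv hr _ (autHom_eq_sigma hqM (uni β)).symm

/-- Elements fixing the component at infinity are upper triangular. -/
theorem mem_borel_of_compVal_eq (hA : A.LiesOverPrime q) {g : SL(2, ZMod q)}
    (h : compVal A (autHom (M := M) hqM g) = infVal q M A) : g 1 0 = 0 := by
  have hdec : sigma hqM (Cuspidal.lift hqM g) ∈ decGroup A hqM :=
    ⟨⟨_, rfl⟩, h⟩
  have hfix : autHom hqM g (genElt q M (one_dvd M) none) = genElt q M (one_dvd M) none := by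
    show sigma hqM (Cuspidal.lift hqM g) _ = _
    rw [sigma_genElt, lineMul_none_of_mem hqM hA _ hdec]
  rw [autHom_genElt] at hfix
  exact lineSmul_inv_none.1 (genElt_one_injective hfix)

theorem compVal_autHom_eq_imp (hA : A.LiesOverPrime q) {a b : SL(2, ZMod q)}
    (h : compVal A (autHom (M := M) hqM a) = compVal A (autHom hqM b)) :
    (a * b⁻¹) 1 0 = 0 := by
  refine mem_borel_of_compVal_eq A hqM hA ?_
  rw [map_mul, compVal_mul, h, ← compVal_mul, ← map_mul, mul_inv_cancel, map_one, compVal_one]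

theorem compVal_weyl_uni_ne (hA : A.LiesOverPrime q) (β : ZMod q) :
    compVal A (autHom (M := M) hqM (weyl * uni β)) ≠ infVal q M A := fun h => by
  simpa [Matrix.mul_apply, Fin.sum_univ_two] using mem_borel_of_compVal_eq A hqM hA h

theorem compVal_weyl_uni_ne_weyl (hA : A.LiesOverPrime q) {β : ZMod q} (hβ : β ≠ 0) :
    compVal A (autHom (M := M) hqM (weyl * uni β)) ≠ compVal A (autHom hqM weyl) := fun h => by
  have := compVal_autHom_eq_imp A hqM hA h
  simp [Matrix.mul_apply, Fin.sum_univ_two, Matrix.SpecialLinearGroup.coe_inv,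
    Matrix.adjugate_fin_two] at this
  exact hβ this

/-- With the torus fixing the component at infinity, so does the upper triangular subgroup. -/
theorem borelImage_le_decGroup (hA : A.LiesOverPrime q)
    (htor : ∀ a : (ZMod q)ˣ, compVal A (autHom hqM (tor a)) = infVal q M A) :
    borelImage (M := M) hqM ≤ decGroup A hqM := by
  rintro _ ⟨⟨g, hg⟩, rfl⟩
  obtain ⟨p, rfl⟩ := exists_bor_eq hg
  show autHom hqM (bor p) ∈ _
  rw [bor, map_mul]
  exact mul_mem ⟨autHom_mem hqM _, htor _⟩ ⟨autHom_mem hqM _, (infRed_uni A hqM hA _).1⟩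

/-! ### Prescribed residues -/

theorem compRed_congr {g h : XField q M ≃ₐ[Qb] XField q M} (e : g = h) {x : XField q M}
    (hx : x ∈ compVal A g) :
    ∃ hx' : x ∈ compVal A h, compRed A g ⟨x, hx⟩ = compRed A h ⟨x, hx'⟩ := by
  subst e; exact ⟨hx, rfl⟩

theorem compRed_eq_zero_iff (g : XField q M ≃ₐ[Qb] XField q M) {x : XField q M}
    (hx : x ∈ compVal A g) :
    compRed A g ⟨x, hx⟩ = 0 ↔ ¬ (x ≠ 0 ∧ x⁻¹ ∈ compVal A g) := by
  constructor
  · rintro h ⟨hx0, hi⟩
    have h1 : (⟨x, hx⟩ : compVal A g) * ⟨x⁻¹, hi⟩ = 1 := Subtype.ext (mul_inv_cancel₀ hx0)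
    have h2 := congrArg (compRed A g) h1
    rw [map_mul, h, zero_mul, map_one] at h2
    exact zero_ne_one h2
  · intro h
    rw [← RingHom.mem_ker, ker_compRed, IsLocalRing.mem_maximalIdeal, mem_nonunits_iff]
    intro hu
    obtain ⟨⟨y, hy⟩, h1⟩ := hu.exists_right_inv
    have h2 : x * y = 1 := congrArg Subtype.val h1
    exact h ⟨left_ne_zero_of_mul_eq_one h2, by rwa [← eq_inv_of_mul_eq_one_right h2]⟩

theorem compRed_eq_zero_congr {g h : XField q M ≃ₐ[Qb] XField q M}
    (e : compVal A g = compVal A h) {x : XField q M} (hx : x ∈ compVal A g)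
    (hx' : x ∈ compVal A h) (h0 : compRed A g ⟨x, hx⟩ = 0) : compRed A h ⟨x, hx'⟩ = 0 := by
  rw [compRed_eq_zero_iff] at h0 ⊢
  rwa [← e]

/-- A function with a given residue on one component and residue zero on the others. -/
theorem exists_prescribed (hA : A.LiesOverPrime q) (γ₀ : SL(2, ZMod q))
    (z : resField q M A) :
    ∃ f : XField q M,
      (∃ h : f ∈ compVal A (autHom hqM γ₀), compRed A _ ⟨f, h⟩ = z) ∧
      ∀ γ : SL(2, ZMod q), compVal A (autHom (M := M) hqM γ) ≠ compVal A (autHom hqM γ₀) →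
        ∃ h : f ∈ compVal A (autHom hqM γ), compRed A _ ⟨f, h⟩ = 0 := by
  classical
  set R := xReduction A hqM hA
  let V : SL(2, ZMod q) → compSet A hqM := fun γ =>
    ⟨compVal A (autHom hqM γ), Cuspidal.lift hqM γ, rfl⟩
  have hV : ∀ γ, R.V (V γ) = compVal A (autHom hqM γ) := fun γ => compVal_compRep A hqM _
  obtain ⟨⟨f₀, hf₀⟩, hf₀z⟩ := compRed_surjective A (autHom hqM γ₀) z
  have hf₀' : f₀ ∈ R.V (V γ₀) := by rw [hV]; exact hf₀
  obtain ⟨f, hf, hfe⟩ := R.exists_lift (Pi.single (V γ₀) (R.φ (V γ₀) ⟨f₀, hf₀'⟩))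
  have hmem : ∀ γ, f ∈ compVal A (autHom hqM γ) := fun γ => by rw [← hV]; exact hf _
  refine ⟨f, ⟨hmem γ₀, ?_⟩, fun γ hγ => ⟨hmem γ, ?_⟩⟩
  · have h1 := hfe (V γ₀)
    rw [Pi.single_eq_same] at h1
    have hd : f - f₀ ∈ R.V (V γ₀) := sub_mem (hf _) hf₀'
    have h2 : R.φ (V γ₀) ⟨f - f₀, hd⟩ = 0 := by
      rw [show (⟨f - f₀, hd⟩ : R.V (V γ₀)) = ⟨f, hf _⟩ - ⟨f₀, hf₀'⟩ from rfl, map_sub, h1, sub_self]
    have hd' : f - f₀ ∈ compVal A (autHom hqM γ₀) := sub_mem (hmem γ₀) hf₀
    have h3 := compRed_eq_zero_congr A (hV γ₀) hd hd' h2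
    rw [show (⟨f - f₀, hd'⟩ : compVal A (autHom hqM γ₀)) = ⟨f, hmem γ₀⟩ - ⟨f₀, hf₀⟩ from rfl,
      map_sub, sub_eq_zero, hf₀z] at h3
    exact h3
  · have h1 := hfe (V γ)
    rw [Pi.single_eq_of_ne (fun e => hγ (congrArg Subtype.val e))] at h1
    exact compRed_eq_zero_congr A (hV γ) (hf _) (hmem γ) h1

/-- A function fixed by the unipotents, zero on the component at infinity, with a given residue
on the other. -/
theorem exists_unipFix_residue (hA : A.LiesOverPrime q) (z : resField q M A) :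
    ∃ N ∈ unipFix (M := M) hqM,
      (∃ h : N ∈ compVal A (1 : XField q M ≃ₐ[Qb] XField q M), compRed A _ ⟨N, h⟩ = 0) ∧
      ∃ h : N ∈ compVal A (autHom hqM weyl), compRed A _ ⟨N, h⟩ = z := by
  obtain ⟨f, hfw, hfo⟩ := exists_prescribed A hqM hA weyl z
  refine ⟨∑ β : ZMod q, autHom hqM (uni β) f, (mem_unipFix hqM).2 fun γ => ?_, ?_, ?_⟩
  · rw [map_sum]
    exact Fintype.sum_equiv (Equiv.addLeft γ) _ _ fun β => by
      rw [Equiv.coe_addLeft, uni_add', map_mul, AlgEquiv.mul_apply]
  · have h1 : ∀ β : ZMod q, ∃ h : autHom hqM (uni β) f ∈ compVal A (1 : XField q M ≃ₐ[Qb] XField q M),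
        compRed A _ ⟨_, h⟩ = 0 := fun β => by
      have hne : compVal A (autHom (M := M) hqM (uni β)) ≠ compVal A (autHom hqM weyl) := by
        rw [(infRed_uni A hqM hA β).1]
        intro e
        exact compVal_weyl_uni_ne A hqM hA 0 (by rw [uni_zero, mul_one]; exact e.symm)
      obtain ⟨h, e⟩ := hfo (uni β) hne
      exact ⟨h, Subtype.ext (congrArg Subtype.val e :)⟩
    choose h he using h1
    refine ⟨sum_mem fun β _ => h β, ?_⟩
    rw [show (⟨∑ β, autHom hqM (uni β) f, sum_mem fun β _ => h β⟩ :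
        compVal A (1 : XField q M ≃ₐ[Qb] XField q M)) =
      ∑ β, ⟨autHom hqM (uni β) f, h β⟩ from Subtype.ext (by simp), map_sum]
    exact Finset.sum_eq_zero fun β _ => he β
  · have h1 : ∀ β : ZMod q, ∃ h : autHom hqM (uni β) f ∈ compVal A (autHom hqM weyl),
        compRed A _ ⟨_, h⟩ = if β = 0 then z else 0 := fun β => by
      rcases eq_or_ne β 0 with rfl | hβ
      · obtain ⟨h, e⟩ := hfw
        have e1 : autHom hqM (uni (0 : ZMod q)) f = f := by
          rw [uni_zero, map_one, AlgEquiv.one_apply]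
        refine ⟨by rw [e1]; exact h, ?_⟩
        rw [if_pos rfl, ← e]
        exact congrArg _ (Subtype.ext e1)
      · obtain ⟨h, e⟩ := hfo (weyl * uni β) (compVal_weyl_uni_ne_weyl A hqM hA hβ)
        obtain ⟨h', e'⟩ := compRed_congr A (map_mul (autHom hqM) weyl (uni β)) h
        refine ⟨h', ?_⟩
        rw [if_neg hβ, ← e, e']
        exact Subtype.ext rfl
    choose h he using h1
    refine ⟨sum_mem fun β _ => h β, ?_⟩
    rw [show (⟨∑ β, autHom hqM (uni β) f, sum_mem fun β _ => h β⟩ :
        compVal A (autHom hqM weyl)) =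
      ∑ β, ⟨autHom hqM (uni β) f, h β⟩ from Subtype.ext (by simp), map_sum,
      Finset.sum_congr rfl fun β _ => he β, Finset.sum_ite_eq' _ _ _,
      if_pos (Finset.mem_univ _)]

end Fermat.Agent.Carayol.LTwoComp

end
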