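/-
The residual fields of the two components: the second is everything, the first contains all
`q`-th powers, and there are `(q - 1) / 2` residual functions independent over `X₀(M)`.
-/
import Fermat.Agent.Carayol.LTwoCompInstComp
import Fermat.Agent.Carayol.LTwoCompInstDegreeGroup
import Fermat.Agent.Carayol.LTwoCompInstDegreeAux
import Fermat.Agent.BadReduction.X0Reduction

set_option autoImplicit false
set_option linter.style.haveILetI false
set_option synthInstance.maxHeartbeats 400000

noncomputable section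

open scoped MatrixGroups

namespace Fermat.Agent.Carayol.LTwoComp

open AlgebraicCurve ModularCurve Cuspidal IsLocalRing

variable {q : ℕ} [Fact q.Prime] {M : ℕ} [NeZero M] (A : ValuationSubring Qb) (hqM : ¬ q ∣ M)

theorem instHom_eq_compRed (i : Fin 2) (f : unipFix hqM) (h : f ∈ instVal A hqM i)
    (h' : (f : XField q M) ∈ compVal A (instAut hqM i)) :
    instHom A hqM i ⟨f, h⟩ = compRed A (instAut hqM i) ⟨(f : XField q M), h'⟩ := rfl

/-- A function on the fixed field, zero on the first component with a given residue on the other. -/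
theorem exists_instHom_pair (hA : A.LiesOverPrime q) (z : resField q M A) :
    ∃ N : unipFix hqM, (∃ h : N ∈ instVal A hqM 0, instHom A hqM 0 ⟨N, h⟩ = 0) ∧
      ∃ h : N ∈ instVal A hqM 1, instHom A hqM 1 ⟨N, h⟩ = z := by
  obtain ⟨N, hN, ⟨h0, e0⟩, h1, e1⟩ := exists_unipFix_residue A hqM hA z
  exact ⟨⟨N, hN⟩, ⟨h0, (instHom_eq_compRed A hqM 0 ⟨N, hN⟩ h0 h0).trans e0⟩,
    h1, (instHom_eq_compRed A hqM 1 ⟨N, hN⟩ h1 h1).trans e1⟩

theorem mem_instRes_one (hA : A.LiesOverPrime q) (z : resField q M A) :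
    z ∈ instRes A hqM 1 := by
  obtain ⟨N, -, h, e⟩ := exists_instHom_pair A hqM hA z
  exact IntermediateField.subset_adjoin _ _ ⟨⟨N, h⟩, e⟩

theorem pow_mem_instRes_zero (hA : A.LiesOverPrime q) (z : resField q M A) :
    z ^ q ∈ instRes A hqM 0 := by
  classical
  obtain ⟨⟨f, hf⟩, hfz⟩ := exists_infRed_eq A z
  have h1 : ∀ β : ZMod q, ∃ h : autHom hqM (uni β) f ∈ infVal q M A,
      infRed q M A ⟨_, h⟩ = (z : LaurentSeries (ResidueField A)) := fun β => by
    obtain ⟨hv, hr⟩ := infRed_uni A hqM hA β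
    have h : autHom hqM (uni β) f ∈ infVal q M A := (SetLike.ext_iff.1 hv f).2 hf
    exact ⟨h, (hr f h hf).trans hfz⟩
  choose h he using h1
  set N := ∏ β : ZMod q, autHom hqM (uni β) f with hN
  have hfix : N ∈ unipFix hqM := (mem_unipFix hqM).2 fun γ => by
    rw [hN, map_prod]
    exact Fintype.prod_equiv (Equiv.addLeft γ) _ _ fun β => by
      rw [Equiv.coe_addLeft, uni_add', map_mul, AlgEquiv.mul_apply]
  have hmem : N ∈ infVal q M A := prod_mem fun β _ => h β
  have hi : (⟨N, hfix⟩ : unipFix hqM) ∈ instVal A hqM 0 := hmem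
  refine IntermediateField.subset_adjoin _ _ ⟨⟨⟨N, hfix⟩, hi⟩, Subtype.ext ?_⟩
  rw [coe_instHom A hqM 0 ⟨N, hfix⟩ hi hmem, IntermediateField.coe_pow]
  refine Eq.trans (congrArg (infRed q M A)
    (show (⟨_, hmem⟩ : infVal q M A) = ∏ β, ⟨autHom hqM (uni β) f, h β⟩ from
      Subtype.ext (by simp [hN]))) ?_
  rw [map_prod, Finset.prod_congr rfl fun β _ => he β, Finset.prod_const, Finset.card_univ,
    ZMod.card]

variable {A}

/-- An endomorphism of a subfield fixes what is generated by fixed elements. -/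
theorem fixed_of_adjoin {k E : Type*} [Field k] [Field E] [Algebra k E] (L : IntermediateField k E)
    (θ : L →+* L) (hc : ∀ c : k, θ (algebraMap k L c) = algebraMap k L c) {S : Set E}
    (hS : ∀ x ∈ S, ∃ h : x ∈ L, θ ⟨x, h⟩ = ⟨x, h⟩) {z : E}
    (hz : z ∈ IntermediateField.adjoin k S) : ∃ h : z ∈ L, θ ⟨z, h⟩ = ⟨z, h⟩ := by
  induction hz using IntermediateField.adjoin_induction with
  | mem x hx => exact hS x hx
  | algebraMap c => exact ⟨L.algebraMap_mem c, hc c⟩
  | add x y _ _ hx hy =>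
    obtain ⟨h1, e1⟩ := hx
    obtain ⟨h2, e2⟩ := hy
    exact ⟨add_mem h1 h2, (map_add θ ⟨x, h1⟩ ⟨y, h2⟩).trans (by rw [e1, e2]; rfl)⟩
  | inv x _ hx =>
    obtain ⟨h1, e1⟩ := hx
    refine ⟨inv_mem h1, ?_⟩
    have e : (⟨x⁻¹, inv_mem h1⟩ : L) = (⟨x, h1⟩ : L)⁻¹ :=
      Subtype.ext (by simp)
    rw [e, map_inv₀, e1]
  | mul x y _ _ hx hy =>
    obtain ⟨h1, e1⟩ := hx
    obtain ⟨h2, e2⟩ := hy
    exact ⟨mul_mem h1 h2, (map_mul θ ⟨x, h1⟩ ⟨y, h2⟩).trans (by rw [e1, e2]; rfl)⟩

/-- The reductions of `X₀(M)` inside the residual field are fixed by the decomposition group. -/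
theorem thetaHom_fix_full (hA : A.LiesOverPrime q) (g : decGroup A hqM)
    {z : LaurentSeries (ResidueField A)}
    (hz : z ∈ modularFunctionFieldFullC (ResidueField A) M) :
    ∃ h : z ∈ resField q M A, thetaHom hqM g ⟨z, h⟩ = ⟨z, h⟩ := by
  refine fixed_of_adjoin (resField q M A) (thetaHom hqM g)
    (fun c => thetaHom_algebraMap hqM g c)
    (S := divisorExpansionsC (ResidueField A) M) (fun x hx => ?_) hz
  obtain ⟨d, i, hd, rfl⟩ := hx
  haveI := i
  exact ⟨(resGen hA hd).2, thetaHom_resGen hqM hA g hd⟩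

/-- Residual functions independent over `X₀(M)`. -/
theorem exists_resField_family (hq5 : 5 ≤ q) (hA : A.LiesOverPrime q)
    (htor : ∀ a : (ZMod q)ˣ, compVal A (autHom hqM (tor a)) = infVal q M A)
    (e₁ : BadReduction.X0Res M A →+* resField q M A)
    (he₁ : ∀ x, (e₁ x : LaurentSeries (ResidueField A)) = x) :
    ∃ v : Fin ((q - 1) / 2) → resField q M A,
      ∀ b : Fin ((q - 1) / 2) → BadReduction.X0Res M A, ∑ i, e₁ (b i) * v i = 0 → b = 0 := by
  haveI := finite_ratField_resField (q := q) (M := M) hqM hA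
  haveI := autGroup_finite (M := M) hqM
  refine exists_family_of_fixed (thetaAut (A := A) hqM hA).range e₁ ?_ ?_
  · rintro _ ⟨g, rfl⟩ x
    obtain ⟨h, e⟩ := thetaHom_fix_full hqM hA g x.2
    have hx : e₁ x = ⟨_, h⟩ := Subtype.ext (he₁ x)
    rw [hx]
    exact e
  · have h1 := natCard_borelImage (M := M) hqM hq5
    have h2 : Nat.card (borelImage (M := M) hqM) ≤ Nat.card (decGroup A hqM) :=
      Subgroup.card_le_of_le (borelImage_le_decGroup A hqM hA htor)
    have h3 := card_decGroup_le (M := M) hqM hA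
    have h4 : (q - 1) ≤ 2 * Nat.card (thetaAut (A := A) hqM hA).range := by
      refine Nat.le_of_mul_le_mul_right ?_ (show 0 < q by omega)
      calc (q - 1) * q = 2 * Nat.card (borelImage (M := M) hqM) := h1.symm
        _ ≤ 2 * (q * Nat.card (thetaAut (A := A) hqM hA).range) :=
          Nat.mul_le_mul_left _ (h2.trans h3)
        _ = _ := by ring
    omega

/-- A function of level `M` expanded by `q` is the `q`-th power of one. -/
theorem exists_qExpand_eq_pow [CharP (ResidueField A) q] [IsAlgClosed (ResidueField A)]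
    {z : LaurentSeries (ResidueField A)}
    (hz : z ∈ modularFunctionFieldFullC (ResidueField A) M) :
    ∃ b ∈ modularFunctionFieldFullC (ResidueField A) M,
      qExpand (ResidueField A) q z = b ^ q := by
  haveI : CharP (LaurentSeries (ResidueField A)) q :=
    charP_of_injective_algebraMap (algebraMap (ResidueField A) _).injective q
  haveI : ExpChar (LaurentSeries (ResidueField A)) q := ExpChar.prime Fact.out
  unfold modularFunctionFieldFullC at hz ⊢
  induction hz using IntermediateField.adjoin_induction with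
  | mem x hx =>
    obtain ⟨d, _, hd, rfl⟩ := hx
    refine ⟨qExpand (ResidueField A) d (jqModC (ResidueField A)),
      IntermediateField.subset_adjoin _ _ (mem_divisorExpansionsC _ _ hd), ?_⟩
    rw [← map_pow, jqModC_pow_prime q, qExpand_qExpand, qExpand_qExpand]
    exact qExpand_congr (mul_comm q d) _
  | algebraMap c =>
    obtain ⟨b, hb⟩ := IsAlgClosed.exists_pow_nat_eq c (NeZero.pos q)
    refine ⟨_, IntermediateField.algebraMap_mem _ b, ?_⟩
    rw [← map_pow, hb, algebraMap_laurentSeries_eq_single]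
    exact qExpand_C (N := q) c
  | add x y _ _ hx hy =>
    obtain ⟨a, ha, ea⟩ := hx
    obtain ⟨b, hb, eb⟩ := hy
    exact ⟨a + b, add_mem ha hb, by rw [map_add, ea, eb, add_pow_char]⟩
  | inv x _ hx =>
    obtain ⟨a, ha, ea⟩ := hx
    exact ⟨a⁻¹, inv_mem ha, by rw [map_inv₀, ea, inv_pow]⟩
  | mul x y _ _ hx hy =>
    obtain ⟨a, ha, ea⟩ := hx
    obtain ⟨b, hb, eb⟩ := hy
    exact ⟨a * b, mul_mem ha hb, by rw [map_mul, ea, eb, mul_pow]⟩

end Fermat.Agent.Carayol.LTwoComp

end
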