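/-
The residual degrees of the two components over `X₀(M)` are the degree `(q - 1) / 2` of the cover.
-/
import Fermat.Agent.Carayol.LTwoCompInstCov
import Fermat.Agent.Carayol.LTwoCompInstDegreeRes
import Fermat.Agent.Bad.GluingLattice

set_option autoImplicit false
set_option linter.style.haveILetI false
set_option synthInstance.maxHeartbeats 400000

noncomputable section

open scoped MatrixGroups

namespace Fermat.Agent.Carayol.LTwoComp

open AlgebraicCurve ModularCurve Cuspidal IsLocalRing BadReduction

variable {q : ℕ} [Fact q.Prime] {M : ℕ} [NeZero M] (A : ValuationSubring Qb) (hqM : ¬ q ∣ M)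

theorem finrankAlong_instCov (hq5 : 5 ≤ q) :
    finrankAlong Qb (instCov (q := q) (M := M) hqM) = (q - 1) / 2 := by
  classical
  haveI := isFunctionFieldOne_xField (q := q) (M := M) hqM
  haveI := isFunctionFieldOne_unipFix (q := q) (M := M) hqM
  haveI := Fintype.ofFinite (borel q)
  have h1 : finrankAlong Qb (unipFix (M := M) hqM).val = q := by
    refine (finrankAlong_eq_natCard_range (unipFix hqM).val (unipHom hqM) fun y => ?_).trans
      (natCard_range_unipHom hqM)
    exact ⟨fun h => ⟨⟨y, (mem_unipFix hqM).2 fun β => h (Multiplicative.ofAdd β)⟩, rfl⟩,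
      by rintro ⟨g, rfl⟩ x; exact (mem_unipFix hqM).1 g.2 x.toAdd⟩
  have h2 : finrankAlong Qb ((unipFix (M := M) hqM).val.comp (instCov hqM)) =
      Nat.card (borelImage (M := M) hqM) := by
    refine finrankAlong_eq_natCard_range _ ((autHom hqM).comp (borel q).subtype) fun y => ⟨?_, ?_⟩
    · intro h
      have hy : y ∈ pointField q M none :=
        (mem_pointField_none_iff hqM).2 fun g hg => h ⟨g, hg⟩
      have hu : y ∈ unipFix hqM := (mem_unipFix hqM).2 fun β => h ⟨uni β, uni_mem β⟩
      obtain ⟨g, hg⟩ := (mem_range_instCov_iff hqM ⟨y, hu⟩).2 hy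
      exact ⟨g, congrArg Subtype.val hg⟩
    · rintro ⟨g, rfl⟩ h
      exact (mem_pointField_none_iff hqM).1 ((mem_range_instCov_iff hqM _).1 ⟨g, rfl⟩) _ h.2
  rw [finrankAlong_comp, h1] at h2
  have h3 := natCard_borelImage (M := M) hqM hq5
  rw [← h2, ← mul_assoc] at h3
  have h4 := Nat.eq_of_mul_eq_mul_right (show 0 < q by omega) h3
  omega

/-- The residual degrees are those of the cover. -/
theorem finrankAlong_instEmb (hq5 : 5 ≤ q) (hA : A.LiesOverPrime q)
    (htor : ∀ a : (ZMod q)ˣ, compVal A (autHom hqM (tor a)) = infVal q M A) (i : Fin 2) :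
    finrankAlong (ResidueField A) (instEmb A hqM hA i) = (q - 1) / 2 := by
  classical
  haveI := charP_residue q hA
  haveI : IsAlgClosed (ResidueField A) := (x0Reduction hqM A hA).isAlgClosed_residue
  haveI := isFunctionFieldOne_unipFix (q := q) (M := M) hqM
  obtain ⟨hfin, hle⟩ := residual_finiteAlong_and_le (instCov hqM)
    (Curve.finiteAlong (instCov hqM)) (BadReduction.compV hqM A i) (instVal A hqM i)
    (instCov_mem_iff A hqM i) (BadReduction.compPhi hqM A hA i) (instPhi A hqM i)
    (instPhi_surjective A hqM i) (instEmb A hqM hA i) (instPhi_instCov A hqM hA i)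
  rw [finrankAlong_instCov hqM hq5] at hle
  refine le_antisymm hle ?_
  let e₁ : X0Res M A →+* resField q M A :=
    (instRes A hqM 1).val.toRingHom.comp (instEmb A hqM hA 1).toRingHom
  have he₁ : ∀ x, (e₁ x : LaurentSeries (ResidueField A)) = x :=
    coe_instEmb_one A hqM hA
  obtain ⟨v, hv⟩ := exists_resField_family hqM hq5 hA htor e₁ he₁
  match i with
  | 1 =>
    refine le_finrankAlong_of_family _ hfin (fun l => ⟨v l, mem_instRes_one A hqM hA _⟩)
      fun b hb => hv b ?_
    have h := congrArg (instRes A hqM 1).val hb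
    rw [map_sum, map_zero] at h
    exact h
  | 0 =>
    haveI : CharP (resField q M A) q :=
      charP_of_injective_algebraMap (algebraMap (ResidueField A) (resField q M A)).injective q
    haveI : ExpChar (resField q M A) q := ExpChar.prime Fact.out
    let e₀ : X0Res M A →+* resField q M A :=
      (instRes A hqM 0).val.toRingHom.comp (instEmb A hqM hA 0).toRingHom
    have hkey : ∀ a, ∃ b, e₀ a = e₁ b ^ q := fun a => by
      obtain ⟨b, hb, e⟩ := exists_qExpand_eq_pow (q := q) (M := M) (A := A) a.2
      refine ⟨⟨b, hb⟩, Subtype.ext ?_⟩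
      rw [IntermediateField.coe_pow, he₁]
      exact (coe_instEmb_zero A hqM hA a).trans e
    refine le_finrankAlong_of_family _ hfin
      (fun l => ⟨v l ^ q, pow_mem_instRes_zero A hqM hA _⟩)
      fun b hb => family_pow q e₀ e₁ hkey v hv b ?_
    have h := congrArg (instRes A hqM 0).val hb
    rw [map_sum, map_zero] at h
    exact h

/-- A function on the fixed field whose inverse separates. -/
theorem inv_separates {i j : Fin 2} (f : unipFix hqM) (hi : f ∈ instVal A hqM i)
    (hj : f ∈ instVal A hqM j) (ei : instHom A hqM i ⟨f, hi⟩ = 1)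
    (ej : instHom A hqM j ⟨f, hj⟩ = 0) :
    ∃ g, g ∈ instVal A hqM i ∧ g ∉ instVal A hqM j := by
  have hi' : (f : XField q M) ∈ compVal A (instAut hqM i) := hi
  have hj' : (f : XField q M) ∈ compVal A (instAut hqM j) := hj
  rw [instHom_eq_compRed A hqM i f hi hi'] at ei
  rw [instHom_eq_compRed A hqM j f hj hj', compRed_eq_zero_iff] at ej
  have h1 : (f : XField q M) ≠ 0 ∧ (f : XField q M)⁻¹ ∈ compVal A (instAut hqM i) := by
    by_contra hc
    rw [← compRed_eq_zero_iff A _ hi', ei] at hc
    exact one_ne_zero hc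
  exact ⟨f⁻¹, h1.2, fun h => ej ⟨h1.1, h⟩⟩

/-- The two valuations are incomparable. -/
theorem exists_instVal_separated' {i j : Fin 2} (hA : A.LiesOverPrime q)
    (hij : i ≠ j) : ∃ f, f ∈ instVal A hqM i ∧ f ∉ instVal A hqM j := by
  obtain ⟨N, ⟨h0, e0⟩, h1, e1⟩ := exists_instHom_pair A hqM hA 1
  fin_cases i <;> fin_cases j
  · exact absurd rfl hij
  · refine inv_separates A hqM (1 - N) (sub_mem (one_mem _) h0) (sub_mem (one_mem _) h1) ?_ ?_
    · show instHom A hqM 0 (1 - ⟨N, h0⟩) = 1
      rw [map_sub, map_one, e0, sub_zero]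
    · show instHom A hqM 1 (1 - ⟨N, h1⟩) = 0
      rw [map_sub, map_one, e1, sub_self]
  · exact inv_separates A hqM N h1 h0 e1 e0
  · exact absurd rfl hij

/-- The two valuations are incomparable. -/
theorem exists_instVal_separated (hA : A.LiesOverPrime q)
    (_htor : ∀ a : (ZMod q)ˣ, compVal A (autHom hqM (tor a)) = infVal q M A) {i j : Fin 2}
    (hij : i ≠ j) : ∃ f, f ∈ instVal A hqM i ∧ f ∉ instVal A hqM j :=
  exists_instVal_separated' A hqM hA hij

end Fermat.Agent.Carayol.LTwoComp

end
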