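/-
Automorphisms induced on the residual field of a valuation preserved by an automorphism, and
degrees along embeddings.
-/
import Fermat.Agent.Carayol.CuspidalNorm
import Fermat.Agent.HeckeJ.Degree
import Mathlib.RingTheory.RootsOfUnity.PrimitiveRoots

set_option autoImplicit false
set_option linter.style.haveILetI false
set_option linter.unusedSectionVars false

noncomputable section

namespace Fermat.Agent.Carayol.LTwoComp

open AlgebraicCurve IntermediateField

/-- Degree over a simple extension of an image. -/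
theorem finrank_adjoin_image {K F F' : Type} [Field K] [Field F] [Field F'] [Algebra K F]
    [Algebra K F'] (φ : F →ₐ[K] F') (x : F) :
    Module.finrank K⟮φ x⟯ F' = Module.finrank K⟮x⟯ F * finrankAlong K φ := by
  have hle : K⟮φ x⟯ ≤ φ.fieldRange :=
    adjoin_simple_le_iff.2 ⟨x, rfl⟩
  have h1 : relfinrank K⟮φ x⟯ φ.fieldRange = Module.finrank K⟮x⟯ F := by
    rw [show K⟮φ x⟯ = K⟮x⟯.map φ by rw [adjoin_map, Set.image_singleton],
      AlgHom.fieldRange_eq_map φ, relfinrank_map_map, relfinrank_top_right]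
  have h2 : Module.finrank φ.fieldRange F' = finrankAlong K φ := by
    letI := algebraAlong φ
    symm
    refine Algebra.finrank_eq_of_equiv_equiv
      (AlgEquiv.ofInjectiveField φ).toRingEquiv
      (RingEquiv.refl F') (RingHom.ext fun y => rfl)
  rw [← h1, ← h2]
  exact (relfinrank_mul_finrank_top hle).symm

/-- No degree is lost upstairs when the residual degrees equal the degree of the cover. -/
theorem degree_eq_image {K F1 F k E0 : Type} {E : Fin 2 → Type} [Field K] [Field F1] [Field F]
    [Algebra K F1] [Algebra K F] [Field k] [Field E0] [Algebra k E0] [∀ i, Field (E i)]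
    [∀ i, Algebra k (E i)] (cov : F1 →ₐ[K] F) (emb : ∀ i, E0 →ₐ[k] E i) (x : F1) (xb : Fin 2 → E0)
    (n : ℕ) (h : Module.finrank K⟮x⟯ F1 = ∑ i, Module.finrank k⟮xb i⟯ E0)
    (hc : finrankAlong K cov = n) (he : ∀ i, finrankAlong k (emb i) = n) (zb : ∀ i, E i)
    (hz : ∀ i, zb i = emb i (xb i)) :
    Module.finrank K⟮cov x⟯ F = ∑ i, Module.finrank k⟮zb i⟯ (E i) := by
  rw [finrank_adjoin_image, hc, h, Finset.sum_mul]
  exact Finset.sum_congr rfl fun i _ => by rw [hz, finrank_adjoin_image, he]

theorem degree_pos_image {k E0 E : Type} [Field k] [Field E0] [Algebra k E0] [Field E]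
    [Algebra k E] (emb : E0 →ₐ[k] E) (xb : E0) {n : ℕ} (hn : 0 < n)
    (hx : 0 < Module.finrank k⟮xb⟯ E0) (he : finrankAlong k emb = n) (zb : E)
    (hz : zb = emb xb) : 0 < Module.finrank k⟮zb⟯ E := by
  rw [hz, finrank_adjoin_image, he]
  exact Nat.mul_pos hx hn

theorem transcendental_image {k E0 E : Type} [Field k] [Field E0] [Algebra k E0] [Field E]
    [Algebra k E] (emb : E0 →ₐ[k] E) {xb : E0} (hx : Transcendental k xb) (zb : E)
    (hz : zb = emb xb) : Transcendental k zb := by
  rw [hz]
  exact fun h => hx ((isAlgebraic_algHom_iff emb emb.injective).1 h)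

section ResAut

variable {K F k E : Type} [Field K] [Field F] [Algebra K F] [Field k] [Field E] [Algebra k E]
  {A : ValuationSubring K} {V : ValuationSubring F} (π : A →+* k) (hπ : Function.Surjective π)
  (φ : V →+* E) (hsurj : Function.Surjective φ) (hker : ∀ f, φ f = 0 ↔ ¬ IsUnit f)
  (hmem : ∀ a : A, algebraMap K F a ∈ V)
  (halg : ∀ a : A, φ ⟨algebraMap K F a, hmem a⟩ = algebraMap k E (π a))
  (t : F ≃ₐ[K] F) (hV : ∀ f, t f ∈ V ↔ f ∈ V)

/-- The automorphism of the valuation ring. -/
def valAut : V ≃+* V where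
  toFun f := ⟨t f, (hV f).2 f.2⟩
  invFun f := ⟨t.symm f, (hV _).1 (by rw [AlgEquiv.apply_symm_apply]; exact f.2)⟩
  left_inv f := Subtype.ext (t.symm_apply_apply f)
  right_inv f := Subtype.ext (t.apply_symm_apply f)
  map_mul' f g := Subtype.ext (map_mul t f.1 g.1)
  map_add' f g := Subtype.ext (map_add t f.1 g.1)

include hker in
theorem ker_le_comp (e : V ≃+* V) : RingHom.ker φ ≤ RingHom.ker (φ.comp e.toRingHom) := by
  intro f hf
  rw [RingHom.mem_ker] at hf ⊢
  rw [RingHom.comp_apply, hker]
  intro hu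
  refine (hker f).1 hf ?_
  have := hu.map e.symm
  rwa [show e.symm (e.toRingHom f) = f from e.symm_apply_apply f] at this

/-- The induced map on the residual field. -/
def resHom (e : V ≃+* V) : E →+* E :=
  RingHom.liftOfRightInverse φ (Function.surjInv hsurj)
    (Function.rightInverse_surjInv hsurj) ⟨φ.comp e.toRingHom, ker_le_comp φ hker e⟩

theorem resHom_apply (e : V ≃+* V) (f : V) : resHom φ hsurj hker e (φ f) = φ (e f) :=
  RingHom.liftOfRightInverse_comp_apply _ _ _ _ f

/-- The automorphism of the residual field induced by an automorphism preserving the valuation. -/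
def resAut : E ≃ₐ[k] E :=
  { toFun := resHom φ hsurj hker (valAut t hV)
    invFun := resHom φ hsurj hker (valAut t hV).symm
    left_inv := fun h => by
      obtain ⟨f, rfl⟩ := hsurj h
      rw [resHom_apply, resHom_apply, RingEquiv.symm_apply_apply]
    right_inv := fun h => by
      obtain ⟨f, rfl⟩ := hsurj h
      rw [resHom_apply, resHom_apply, RingEquiv.apply_symm_apply]
    map_mul' := map_mul (resHom φ hsurj hker (valAut t hV))
    map_add' := map_add (resHom φ hsurj hker (valAut t hV))
    commutes' := fun c => by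
      obtain ⟨a, rfl⟩ := hπ c
      show resHom φ hsurj hker (valAut t hV) (algebraMap k E (π a)) = _
      rw [← halg, resHom_apply]
      exact congrArg φ (Subtype.ext (t.commutes (a : K))) }

theorem resAut_apply (f : V) :
    resAut π hπ φ hsurj hker hmem halg t hV (φ f) = φ ⟨t f, (hV f).2 f.2⟩ :=
  resHom_apply φ hsurj hker (valAut t hV) f

include hV in
theorem pow_mem_iff (j : ℕ) (f : F) : (t ^ j) f ∈ V ↔ f ∈ V := by
  induction j with
  | zero => simp
  | succ j ih => rw [pow_succ', AlgEquiv.mul_apply, hV, ih]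

theorem resAut_pow_apply (j : ℕ) (f : V) :
    (resAut π hπ φ hsurj hker hmem halg t hV ^ j) (φ f) =
      φ ⟨(t ^ j) f, (pow_mem_iff t hV j f).2 f.2⟩ := by
  induction j with
  | zero => exact congrArg φ (Subtype.ext rfl)
  | succ j ih =>
    rw [pow_succ', AlgEquiv.mul_apply, ih, resAut_apply]
    exact congrArg φ (Subtype.ext (DFunLike.congr_fun (pow_succ' t j) (f : F)).symm)

theorem resAut_pow_eq_one {n : ℕ} (htn : t ^ n = 1) :
    resAut π hπ φ hsurj hker hmem halg t hV ^ n = 1 := by
  refine AlgEquiv.ext fun h => ?_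
  obtain ⟨f, rfl⟩ := hsurj h
  rw [resAut_pow_apply]
  exact congrArg φ (Subtype.ext (DFunLike.congr_fun htn (f : F)))

variable {F1 E0 : Type} [Field F1] [Algebra K F1] [Field E0] [Algebra k E0]
  {V1 : ValuationSubring F1} (φ1 : V1 →+* E0) (cov : F1 →ₐ[K] F) (emb : E0 →ₐ[k] E)
  (hcov : ∀ g, cov g ∈ V ↔ g ∈ V1)
  (hred : ∀ g : V1, φ ⟨cov g, (hcov g).2 g.2⟩ = emb (φ1 g))

include hred in
/-- The invariants of the induced automorphism come from the base. -/
theorem exists_emb_eq_of_resAut_eq {n : ℕ} (htn : t ^ n = 1) (hn : (n : k) ≠ 0)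
    (hfix : ∀ f : F, t f = f → ∃ g, cov g = f) {h : E}
    (hh : resAut π hπ φ hsurj hker hmem halg t hV h = h) : ∃ g, emb g = h := by
  classical
  obtain ⟨f, rfl⟩ := hsurj h
  let a : ℕ → V := fun j => ⟨(t ^ j) f, (pow_mem_iff t hV j f).2 f.2⟩
  have hpow : ∀ j, (resAut π hπ φ hsurj hker hmem halg t hV ^ j) (φ f) = φ f := by
    intro j
    induction j with
    | zero => rfl
    | succ j ih => rw [pow_succ, AlgEquiv.mul_apply, hh, ih]
  have ha : ∀ j, φ (a j) = φ f := fun j =>
    (resAut_pow_apply π hπ φ hsurj hker hmem halg t hV j f).symm.trans (hpow j)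
  set S : V := ∑ j ∈ Finset.range n, a j
  have hS : t (S : F) = S := by
    have e : (S : F) = ∑ j ∈ Finset.range n, (t ^ j) (f : F) := map_sum V.subtype a _
    have e1 := Finset.sum_range_succ (fun j => (t ^ j) (f : F)) n
    rw [Finset.sum_range_succ' (fun j => (t ^ j) (f : F)) n, htn, pow_zero] at e1
    rw [e, map_sum]
    refine Eq.trans (Finset.sum_congr rfl fun j _ => ?_) (add_right_cancel e1)
    show t ((t ^ j) (f : F)) = (t ^ (j + 1)) (f : F)
    rw [pow_succ', AlgEquiv.mul_apply]
  obtain ⟨g, hg⟩ := hfix _ hS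
  have hg1 : g ∈ V1 := (hcov g).1 (hg ▸ S.2)
  have e : emb (φ1 ⟨g, hg1⟩) = (n : k) • φ f := by
    rw [← hred, show (⟨cov g, (hcov g).2 hg1⟩ : V) = S from Subtype.ext hg, map_sum,
      Finset.sum_congr rfl fun j _ => ha j, Finset.sum_const, Finset.card_range,
      Nat.cast_smul_eq_nsmul]
  refine ⟨(n : k)⁻¹ • φ1 ⟨g, hg1⟩, ?_⟩
  rw [map_smul, e, smul_smul, inv_mul_cancel₀ hn, one_smul]

end ResAut

/-- An automorphism of finite order with invariants the image of an embedding has order the
degree. -/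
theorem orderOf_eq_finrankAlong {k E0 E : Type} [Field k] [IsAlgClosed k] [Field E0] [Algebra k E0]
    [Field E] [Algebra k E] [Curve.IsFunctionFieldOne k E0] [Curve.IsFunctionFieldOne k E]
    (emb : E0 →ₐ[k] E) (d : E ≃ₐ[k] E) (hd : IsOfFinOrder d) (hcov : ∀ g, d (emb g) = emb g)
    (hfix : ∀ h, d h = h → ∃ g, emb g = h) : finrankAlong k emb = orderOf d := by
  haveI : Finite (Subgroup.zpowers d) := hd.finite_zpowers.to_subtype
  letI : Fintype (Subgroup.zpowers d) := Fintype.ofFinite _
  rw [Cuspidal.finrankAlong_eq_natCard_range emb (Subgroup.zpowers d).subtype, Subgroup.range_subtype,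
    Nat.card_zpowers]
  intro h
  constructor
  · intro hh
    exact hfix h (hh ⟨d, Subgroup.mem_zpowers d⟩)
  · rintro ⟨g, rfl⟩ ⟨x, hx⟩
    show x (emb g) = emb g
    obtain ⟨j, rfl⟩ := hd.mem_powers_iff_mem_zpowers.2 hx
    show (d ^ j) (emb g) = emb g
    induction j with
    | zero => rfl
    | succ j ih => rw [pow_succ, AlgEquiv.mul_apply, hcov, ih (Subgroup.npow_mem_zpowers d j)]

/-- A homomorphism to automorphisms with invariants the image of an embedding has image of order
the degree. -/
theorem orderOf_eq_finrankAlong_of_generator {K F1 F : Type} [Field K] [IsAlgClosed K] [Field F1]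
    [Algebra K F1] [Field F] [Algebra K F] [PerfectField K] [Curve.IsFunctionFieldOne K F1]
    [Curve.IsFunctionFieldOne K F] (cov : F1 →ₐ[K] F) {H : Type} [Group H] [Finite H]
    (τ : H →* (F ≃ₐ[K] F)) (hfix : ∀ y, (∀ h, τ h y = y) ↔ y ∈ Set.range cov) (g : H)
    (hg : ∀ h, ∃ j : ℕ, g ^ j = h) : orderOf (τ g) = finrankAlong K cov := by
  letI := Fintype.ofFinite H
  rw [Cuspidal.finrankAlong_eq_natCard_range cov τ hfix, ← Nat.card_zpowers]
  have e : τ.range = Subgroup.zpowers (τ g) := by
    refine le_antisymm ?_ (Subgroup.zpowers_le.2 ⟨g, rfl⟩)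
    rintro _ ⟨h, rfl⟩
    obtain ⟨j, rfl⟩ := hg h
    rw [map_pow]
    exact Subgroup.npow_mem_zpowers _ j
  rw [e]

end Fermat.Agent.Carayol.LTwoComp

end
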