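/-
No split covers: a cyclic unramified cover of a curve with seminormal two-component special fibre
cannot be completely split on both components when an inertial automorphism rotates the sheets
over one component only.

Let `y` run through the functions with `t y = ζ y`. Then `y ^ m` and `y ^ (m - 1) s y` are
functions on the base, reducing to `(a ^ m, b ^ m)` and `(a ^ m, ζ b ^ m)`. So `y` vanishes at
every point joining the two components, and satisfies a condition at every branch beyond the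
first at the other points: fewer functions than Riemann-Roch provides.
-/
import Fermat.Agent.Bad.Gluing
import Fermat.Agent.Bad.BGlueConn
import Fermat.Agent.Curve.BasicModular
import Fermat.Prelude.Def_AlgebraicCurve_Correspondence
import Mathlib.LinearAlgebra.LinearIndependent.Lemmas

set_option autoImplicit false
set_option linter.style.haveILetI false
set_option linter.unusedSectionVars false

noncomputable section

namespace Fermat.Agent.Carayol.Split

open AlgebraicCurve IntermediateField Fermat.Agent.Curve Fermat.Agent.Bad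
open MultiReduction

universe uK uF uι uk uE

variable {K : Type uK} [Field K] [IsAlgClosed K] {A : ValuationSubring K}
  {F1 : Type uF} [Field F1] [Algebra K F1] [IsFunctionFieldOne K F1]
  {F' : Type uF} [Field F'] [Algebra K F'] [IsFunctionFieldOne K F']
  {k : Type uk} [Field k]
  {E0 : Type uE} [Field E0] [Algebra k E0] [IsFunctionFieldOne k E0]
  {ι : Type uι} [Fintype ι] {Fb : ι → Type uE} [∀ i, Field (Fb i)] [∀ i, Algebra k (Fb i)]

theorem exists_place_above [PerfectField K] (φ : F1 →ₐ[K] F') (v : Place K F1) :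
    ∃ w : Place K F', w.restrictAlong φ (Curve.isIntegral_toRingHom φ) = v := by
  have hφ := Curve.isIntegral_toRingHom φ
  have h := Divisor.degree_pullbackAlong φ hφ
    (Curve.fundamentalIdentityAlong φ hφ (Curve.finiteAlong φ)) (Finsupp.single v 1)
  rcases (Place.fiberAlong φ hφ v).eq_empty_or_nonempty with he | ⟨w, hw⟩
  · rw [Divisor.pullbackAlong_single, he, Finset.sum_empty, map_zero, Divisor.degree_single,
      IsCurveOver.deg_eq_one_of_isAlgClosed] at h
    letI := algebraAlong φ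
    haveI := isScalarTower_along φ
    haveI : FiniteDimensional F1 F' := Curve.finiteAlong φ
    have : 0 < finrankAlong K φ := Module.finrank_pos
    simp at h
    omega
  · exact ⟨w, Place.mem_fiberAlong.1 hw⟩

/-- The functions in an eigenspace with poles bounded by `N` times those of `φ x`. -/
def eigSpace (t : F' ≃ₐ[K] F') (z : K) (x : F') (N : ℕ) : Submodule K F' :=
  LinearMap.ker (t.toLinearMap - z • (LinearMap.id : F' →ₗ[K] F')) ⊓
    riemannRochSpace (N • poleDivisor K x)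

theorem mem_eigSpace {t : F' ≃ₐ[K] F'} {z : K} {x : F'} {N : ℕ} {y : F'} :
    y ∈ eigSpace t z x N ↔ t y = z • y ∧ y ∈ riemannRochSpace (N • poleDivisor K x) := by
  simp [eigSpace, sub_eq_zero]

theorem exists_eigen (t : F' ≃ₐ[K] F') {m : ℕ} (htm : t ^ m = 1)
    (hord : ∀ j, t ^ j = 1 → m ∣ j) (hm : 0 < m) {z : K} (hz : z ^ m = 1) :
    ∃ y : F', y ≠ 0 ∧ t y = z • y := by
  classical
  have hinj : Function.Injective fun j : Fin m => ((t ^ (j : ℕ) : F' ≃ₐ[K] F') : F' →* F') := by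
    intro i j hij
    have hij' : t ^ (i : ℕ) = t ^ (j : ℕ) := AlgEquiv.ext fun f => DFunLike.congr_fun hij f
    have key : ∀ a b : ℕ, a ≤ b → b < m → t ^ a = t ^ b → a = b := by
      intro a b hab hbm e
      have h1 : t ^ (b - a) = 1 := by
        have := congrArg (fun g => (t ^ a)⁻¹ * g) e
        simp only [inv_mul_cancel] at this
        rw [this, ← Nat.add_sub_cancel' hab, pow_add, inv_mul_cancel_left, Nat.add_sub_cancel' hab]
      have := Nat.eq_zero_of_dvd_of_lt (hord _ h1) (by omega)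
      omega
    refine Fin.ext ?_
    rcases le_total (i : ℕ) (j : ℕ) with h | h
    · exact key _ _ h j.2 hij'
    · exact (key _ _ h i.2 hij'.symm).symm
  have hli := (linearIndependent_monoidHom F' F').comp _ hinj
  have hz0 : z ≠ 0 := fun h => by simp [h, zero_pow hm.ne'] at hz
  have hne : ∃ f : F', ∑ j : Fin m, algebraMap K F' (z⁻¹ ^ (j : ℕ)) * (t ^ (j : ℕ)) f ≠ 0 := by
    by_contra hc
    push Not at hc
    have h := Fintype.linearIndependent_iff.1 hli
      (fun j => algebraMap K F' (z⁻¹ ^ (j : ℕ))) (funext fun f => by simpa using hc f) ⟨0, hm⟩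
    simp at h
  obtain ⟨f, hf⟩ := hne
  refine ⟨_, hf, ?_⟩
  set g : ℕ → F' := fun j => algebraMap K F' (z⁻¹ ^ j) * (t ^ j) f with hg
  have hstep : ∀ j, t (g j) = z • g (j + 1) := fun j => by
    simp only [hg, map_mul, AlgEquiv.commutes, Algebra.smul_def, pow_succ', AlgEquiv.mul_apply]
    rw [← mul_assoc, ← mul_assoc, ← map_mul, mul_inv_cancel₀ hz0, map_one, one_mul]
  have hper : g m = g 0 := by
    simp only [hg, inv_pow, hz, inv_one, map_one, htm, pow_zero]
  rw [Fin.sum_univ_eq_sum_range (fun j => g j), map_sum, Finset.sum_congr rfl fun j _ => hstep j,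
    ← Finset.smul_sum]
  congr 1
  have h1 := Finset.sum_range_succ g m
  rw [Finset.sum_range_succ' g m, hper] at h1
  exact add_right_cancel h1

variable [∀ i, IsFunctionFieldOne k (Fb i)]

/-- The impossibility of a split cover. -/
theorem no_split_cover [PerfectField K] {q : ℕ} [Fact q.Prime] [CharP k q] [IsAlgClosed k]
    (hA : RankLeOne A) {R1 : MultiReduction A F1 k (fun _ : Fin 2 => E0)}
    (G : Gluing R1) (hG : G.IsSeminormal) (R' : MultiReduction A F' k Fb)
    (cov : F1 →ₐ[K] F') (sel : Fin 2 → ι) (emb : ∀ i, E0 →ₐ[k] Fb (sel i))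
    (hπ : R'.π = R1.π)
    (hemb : ∀ i, Function.Surjective (emb i))
    (cov_mem_iff : ∀ i (f : F1), cov f ∈ R'.V (sel i) ↔ f ∈ R1.V i)
    (cov_red : ∀ i (f : R1.V i),
      R'.φ (sel i) ⟨cov f, (cov_mem_iff i f).2 f.2⟩ = emb i (R1.φ i f))
    (t : F' ≃ₐ[K] F') (m : ℕ) (hm : 0 < m) (htm : t ^ m = 1) (hord : ∀ j, t ^ j = 1 → m ∣ j)
    (ht_cov : ∀ g, t (cov g) = cov g) (ht_fixed : ∀ f : F', t f = f → ∃ g, cov g = f)
    (unram : ∀ w : Place K F', ∃ g : F1, w.ord (cov g) = 1)
    (z : A) (hzm : (z : K) ^ m = 1) (hz1 : R1.π z ≠ 1)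
    (s : F' →+* F') (hs_eig : ∀ y, t y = (z : K) • y → t (s y) = (z : K) • s y)
    (hs_polar : ∀ N, ∀ g ∈ R1.polarSp N, ∃ g' ∈ R1.polarSp N, cov g' = s (cov g))
    (hs0 : ∀ y ∈ R'.integers, t y = (z : K) • y →
      ∃ h : s y ∈ R'.V (sel 0), ∀ h', R'.φ (sel 0) ⟨_, h⟩ = R'.φ (sel 0) ⟨y, h'⟩)
    (hs1 : ∀ y ∈ R'.integers, t y = (z : K) • y →
      ∃ h : s y ∈ R'.V (sel 1), ∀ h',
        R'.φ (sel 1) ⟨_, h⟩ = R'.π z • R'.φ (sel 1) ⟨y, h'⟩)
    (hdet : ∀ (y : R'.integers), t (y : F') = (z : K) • (y : F') →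
      (∀ i, R'.red y (sel i) = 0) → R'.red y = 0) : False := by
  classical
  have hm0 : (m : ℤ) ≠ 0 := by omega
  -- places above and orders
  have hφ := Curve.isIntegral_toRingHom cov
  have hord1 : ∀ (w : Place K F') (f : F1),
      w.ord (cov f) = (w.restrictAlong cov hφ).ord f := by
    intro w f
    obtain ⟨g, hg⟩ := unram w
    have h := Place.ord_restrictAlong cov hφ w g
    rw [hg] at h
    have he : (w.ramificationIndexAlong cov : ℤ) = 1 :=
      Int.eq_one_of_dvd_one (by positivity) ⟨_, h⟩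
    rw [Place.ord_restrictAlong cov hφ w f, he, one_mul]
  have hpole : ∀ (w : Place K F'),
      poleDivisor K (cov R1.x) w = poleDivisor K R1.x (w.restrictAlong cov hφ) := fun w => by
    rw [poleDivisor_apply, poleDivisor_apply, hord1]
  -- a function on the base with a power of bounded poles
  have hdesc : ∀ (y : F') (N : ℕ), y ∈ riemannRochSpace (N • poleDivisor K (cov R1.x)) →
      ∀ g : F1, cov g = y → g ∈ R1.polarSp N := by
    intro y N hy g hg
    rcases eq_or_ne g 0 with rfl | hg0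
    · exact zero_mem _
    have hy0 : y ≠ 0 := hg ▸ (map_ne_zero cov).2 hg0
    refine (RedAux.mem_L_iff hg0).2 fun v => ?_
    obtain ⟨w, hw⟩ := exists_place_above cov v
    have h := (RedAux.mem_L_iff hy0).1 hy w
    rw [Finsupp.smul_apply, hpole, hw, ← hg, hord1, hw] at h
    rw [Finsupp.smul_apply]
    exact h
  have hroot : ∀ (g : F1) (N : ℕ), g ^ m ∈ R1.polarSp (m * N) → g ∈ R1.polarSp N := by
    intro g N h
    rcases eq_or_ne g 0 with rfl | hg0
    · exact zero_mem _
    refine (RedAux.mem_L_iff hg0).2 fun v => ?_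
    have h' := (RedAux.mem_L_iff (pow_ne_zero m hg0)).1 h v
    rw [ord_pow, Finsupp.smul_apply, nsmul_eq_mul, Nat.cast_mul, mul_assoc, ← mul_neg] at h'
    rw [Finsupp.smul_apply, nsmul_eq_mul]
    exact le_of_mul_le_mul_left h' (by exact_mod_cast hm)
  have hzpow : ∀ (y : F'), t y = (z : K) • y → t (y ^ m) = y ^ m := fun y hy => by
    rw [map_pow, hy, smul_pow, hzm, one_smul]
  -- a non-zero eigenfunction and the divisor under it
  obtain ⟨y₀, hy₀, hy₀t⟩ := exists_eigen t htm hord hm hzm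
  obtain ⟨g₀, hg₀⟩ := ht_fixed _ (hzpow y₀ hy₀t)
  have hg₀0 : g₀ ≠ 0 := fun h => pow_ne_zero m hy₀ (by rw [← hg₀, h, map_zero])
  obtain ⟨Dg, hDg, hDg0⟩ := HasPrincipalDivisors.exists_divisor (K := K) g₀ hg₀0
  have hDdiv : ∀ w : Place K F', (m : ℤ) * w.ord y₀ = Dg (w.restrictAlong cov hφ) := fun w => by
    rw [hDg, ← hord1, hg₀, ord_pow]
  let D₀ : Divisor K F1 := Dg.mapRange (fun a => a / (m : ℤ)) (Int.zero_ediv _)
  have hD₀ : ∀ w : Place K F', D₀ (w.restrictAlong cov hφ) = w.ord y₀ := fun w => by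
    simp [D₀, ← hDdiv, Int.mul_ediv_cancel_left _ hm0]
  have hmD : m • D₀ = Dg := by
    ext v
    obtain ⟨w, rfl⟩ := exists_place_above cov v
    rw [Finsupp.smul_apply, hD₀, ← hDdiv, nsmul_eq_mul]
  have hD₀0 : Divisor.degree D₀ = 0 := by
    have h := congrArg Divisor.degree hmD
    rw [map_nsmul, hDg0, nsmul_eq_mul] at h
    exact (mul_eq_zero.1 h).resolve_left hm0
  let W : ℕ → Submodule K F' := fun N => eigSpace t (z : K) (cov R1.x) N
  have hWfin : ∀ N, FiniteDimensional K (W N) := fun N => by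
    haveI := RedAux.finite_L (N • poleDivisor K (cov R1.x))
    exact Submodule.finiteDimensional_of_le inf_le_right
  -- Riemann–Roch: the eigenspace is large
  have hbig : ∃ N₀ : ℕ, ∀ N, N₀ ≤ N →
      ((N * ∑ i : Fin 2, Module.finrank k⟮R1.xb i⟯ E0 : ℕ) : ℤ) + 1 - (genusFF K F1 : ℤ)
        ≤ Module.finrank k (R'.spFibre (W N)) := by
    obtain ⟨N₀, hN₀⟩ := R1.exists_finrank_spFibre_twist
    refine ⟨N₀, fun N hN => ?_⟩
    haveI := hWfin N
    haveI := R1.finiteDimensional_twistSp D₀ N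
    rw [R'.finrank_spFibre, ← hN₀ D₀ hD₀0 N hN, R1.finrank_spFibre]
    let μ : R1.twistSp D₀ N →ₗ[K] F' :=
      (LinearMap.mulLeft K y₀).comp (cov.toLinearMap.comp (R1.twistSp D₀ N).subtype)
    have hμ : ∀ f, μ f ∈ W N := by
      rintro ⟨f, hf⟩
      show y₀ * cov f ∈ W N
      rcases eq_or_ne f 0 with rfl | hf0
      · rw [map_zero, mul_zero]; exact zero_mem _
      refine mem_eigSpace.2 ⟨by rw [map_mul, hy₀t, ht_cov, smul_mul_assoc], ?_⟩
      have hc : cov f ≠ 0 := (map_ne_zero cov).2 hf0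
      refine (RedAux.mem_L_iff (mul_ne_zero hy₀ hc)).2 fun w => ?_
      have h := (RedAux.mem_L_iff hf0).1 hf (w.restrictAlong cov hφ)
      rw [Finsupp.add_apply, Finsupp.smul_apply, hD₀] at h
      rw [Place.ord_mul _ hy₀ hc, Finsupp.smul_apply, hpole, hord1]
      show _ ≤ _
      change _ ≤ _ at h
      simp only [MultiReduction.poleX] at h
      omega
    exact_mod_cast LinearMap.finrank_le_finrank_of_injective
      (f := μ.codRestrict (W N) hμ) fun f f' h =>
        Subtype.ext (cov.injective (mul_left_cancel₀ hy₀ (congrArg Subtype.val h :)))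
  -- the two reductions, on the base
  let e : ∀ i, E0 ≃ₐ[k] Fb (sel i) := fun i =>
    AlgEquiv.ofBijective (emb i) ⟨(emb i).injective, hemb i⟩
  let P : (∀ i, Fb i) →ₗ[k] (Fin 2 → E0) :=
    LinearMap.pi fun i => (e i).symm.toLinearMap.comp (LinearMap.proj (sel i))
  have hP : ∀ (h : ∀ i, Fb i) i, emb i (P h i) = h (sel i) := fun h i =>
    (e i).apply_symm_apply _
  -- powers
  have hprod : ∀ (y : F') (N : ℕ), y ∈ W N → ∀ hy : y ∈ R'.integers,
      ∃ (z₁ : R1.integers) (z₂ : R1.integers), (z₁ : F1) ∈ R1.polarSp (m * N) ∧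
        (z₂ : F1) ∈ R1.polarSp (m * N) ∧
        R1.red z₁ = P (R'.red ⟨y, hy⟩) ^ m ∧
        R1.red z₂ = fun i => (if i = 0 then (1 : k) else R1.π z) • P (R'.red ⟨y, hy⟩) i ^ m := by
    intro y N hyW hy
    obtain ⟨hyt, hyL⟩ := mem_eigSpace.1 hyW
    obtain ⟨z₁, hz₁⟩ := ht_fixed _ (hzpow y hyt)
    have hz₁p : z₁ ∈ R1.polarSp (m * N) := by
      refine hdesc (y ^ m) _ ?_ z₁ hz₁
      rw [mul_smul]
      exact Bad.pow_mem_L hyL m
    have hfix2 : t (y ^ (m - 1) * s y) = y ^ (m - 1) * s y := by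
      rw [map_mul, map_pow, hyt, hs_eig y hyt, smul_pow, smul_mul_smul_comm, ← pow_succ,
        Nat.sub_add_cancel hm, hzm, one_smul]
    obtain ⟨z₂, hz₂⟩ := ht_fixed _ hfix2
    have hz₂p : z₂ ∈ R1.polarSp (m * N) := by
      obtain ⟨g', hg', hg'e⟩ := hs_polar _ _ hz₁p
      apply hroot
      have e1 : z₂ ^ m = z₁ ^ (m - 1) * g' := by
        apply cov.injective
        show cov (z₂ ^ m) = cov (z₁ ^ (m - 1) * g')
        rw [map_pow, map_mul, map_pow, hz₂, hz₁, hg'e, hz₁, mul_pow, map_pow, ← pow_mul, ← pow_mul,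
          mul_comm m]
      rw [e1, show m * (m * N) = (m - 1) * (m * N) + m * N by
        rw [← Nat.succ_mul, Nat.succ_eq_add_one, Nat.sub_add_cancel hm]]
      exact R1.mul_mem_polarSp (R1.pow_mem_polarSp hz₁p _) hg'
    have hmem : ∀ i, y ∈ R'.V (sel i) := fun i => R'.mem_integers.1 hy (sel i)
    have h1V : ∀ i, z₁ ∈ R1.V i := fun i =>
      (cov_mem_iff i z₁).1 (hz₁ ▸ pow_mem (hmem i) m)
    obtain ⟨hsy0, hs0e⟩ := hs0 y hy hyt
    obtain ⟨hsy1, hs1e⟩ := hs1 y hy hyt
    have h2V : ∀ i, z₂ ∈ R1.V i := fun i => (cov_mem_iff i z₂).1 (hz₂ ▸ by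
      fin_cases i
      · exact mul_mem (pow_mem (hmem 0) _) hsy0
      · exact mul_mem (pow_mem (hmem 1) _) hsy1)
    refine ⟨⟨z₁, R1.mem_integers.2 h1V⟩, ⟨z₂, R1.mem_integers.2 h2V⟩, hz₁p, hz₂p,
      funext fun i => (emb i).injective ?_, funext fun i => (emb i).injective ?_⟩
    · show emb i _ = emb i _
      rw [R1.red_apply, ← cov_red, Pi.pow_apply, map_pow, hP, R'.red_apply, ← map_pow]
      exact congrArg _ (Subtype.ext hz₁)
    · show emb i _ = emb i _
      rw [R1.red_apply, ← cov_red, map_smul, map_pow, hP, R'.red_apply]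
      fin_cases i
      · have := congrArg (R'.φ (sel 0)) (Subtype.ext (p := fun f => f ∈ R'.V (sel 0))
          (a1 := ⟨cov z₂, (cov_mem_iff 0 z₂).2 (h2V 0)⟩)
          (a2 := ⟨y, hmem 0⟩ ^ (m - 1) * ⟨s y, hsy0⟩) hz₂)
        rw [map_mul, map_pow, hs0e (hmem 0), ← pow_succ, Nat.sub_add_cancel hm] at this
        simpa using this
      · have := congrArg (R'.φ (sel 1)) (Subtype.ext (p := fun f => f ∈ R'.V (sel 1))
          (a1 := ⟨cov z₂, (cov_mem_iff 1 z₂).2 (h2V 1)⟩)
          (a2 := ⟨y, hmem 1⟩ ^ (m - 1) * ⟨s y, hsy1⟩) hz₂)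
        rw [map_mul, map_pow, hs1e (hmem 1), hπ, mul_smul_comm, ← pow_succ,
          Nat.sub_add_cancel hm] at this
        simpa using this
  have hpolar : ∀ (N : ℕ), ∀ h ∈ R'.spFibre (W N), P h ∈ R1.polarFibre N := by
    rintro N _ ⟨⟨y, hy⟩, hyW, rfl⟩
    obtain ⟨z₁, -, hz₁p, -, e₁, -⟩ := hprod y N hyW hy
    have h := R1.spFibre_polar_le _ ⟨z₁, hz₁p, rfl⟩
    rw [e₁, R1.mem_polarFibre] at h
    rw [R1.mem_polarFibre]
    intro i
    rcases eq_or_ne (P (R'.red ⟨y, hy⟩) i) 0 with h0 | h0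
    · rw [h0]; exact zero_mem _
    refine (RedAux.mem_L_iff h0).2 fun v => ?_
    have h' := (RedAux.mem_L_iff (pow_ne_zero m h0)).1 (h i) v
    rw [ord_pow, Finsupp.smul_apply, nsmul_eq_mul, Nat.cast_mul, mul_assoc, ← mul_neg] at h'
    rw [Finsupp.smul_apply, nsmul_eq_mul]
    exact le_of_mul_le_mul_left h' (by exact_mod_cast hm)
  -- a point joining the components
  obtain ⟨Nb, hNb, -⟩ := exists_seminormal_bound R1 G.B G.pt hG.pt_surjective G.regular
    G.matched hG.count
  obtain ⟨b₀, b₁, hb₀, hb₁, hjoin⟩ : ∃ b₀ b₁ : ↥G.B, (b₀ : Σ _ : Fin 2, Place k E0).1 = 0 ∧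
      (b₁ : Σ _ : Fin 2, Place k E0).1 = 1 ∧ G.pt b₀ = G.pt b₁ := by
    by_contra hc
    push Not at hc
    have hside : ∀ b b' : ↥G.B, G.pt b = G.pt b' →
        (b : Σ _ : Fin 2, Place k E0).1 = (b' : Σ _ : Fin 2, Place k E0).1 := by
      intro b b' h
      have key : ∀ j : Fin 2, j = 0 ∨ j = 1 := by decide
      rcases key (b : Σ _ : Fin 2, Place k E0).1 with h0 | h0 <;>
        rcases key (b' : Σ _ : Fin 2, Place k E0).1 with h1 | h1
      · exact h0.trans h1.symm
      · exact absurd h (hc b b' h0 h1)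
      · exact absurd h.symm (hc b' b h1 h0)
      · exact h0.trans h1.symm
    let c : Fin 2 → k := fun i => if i = 0 then 1 else 0
    have hmem : BGlue.constTuple c ∈ R1.spFibre (R1.polarSp Nb) := by
      refine hNb Nb le_rfl _ (BGlue.constTuple_mem_polarFibre R1 c Nb) fun b b' h => ?_
      show placeValue _ (algebraMap k E0 (c _)) = placeValue _ (algebraMap k E0 (c _))
      rw [placeValue_algebraMap, placeValue_algebraMap, hside b b' h]
    have := BGlue.constTuple_eq_const hA G hmem 0 1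
    simp [c] at this
  -- the values at the branches form a small space
  have hvals : ∀ (N : ℕ) (h : R1.polarFibre N), (h : Fin 2 → E0) ∈ (R'.spFibre (W N)).map P →
      (∀ b b' : ↥G.B, G.pt b = G.pt b' →
        branchEval R1 G.B G.regular N h b ^ m = branchEval R1 G.B G.regular N h b' ^ m) ∧
      branchEval R1 G.B G.regular N h b₀ = 0 := by
    rintro N ⟨h, hh⟩ ⟨_, ⟨⟨y, hy⟩, hyW, rfl⟩, rfl⟩
    obtain ⟨z₁, z₂, hz₁p, hz₂p, e₁, e₂⟩ := hprod y N hyW hy
    have hreg : ∀ b : ↥G.B, P (R'.red ⟨y, hy⟩) (b : Σ _ : Fin 2, Place k E0).1 ∈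
        (b : Σ _ : Fin 2, Place k E0).2.toValuationSubring := fun b =>
      R1.mem_of_mem_polarFibre hh (G.regular b b.2)
    have h1 : ∀ b b' : ↥G.B, G.pt b = G.pt b' → bval (b : Σ _ : Fin 2, Place k E0) (R1.red z₁) =
        bval (b' : Σ _ : Fin 2, Place k E0) (R1.red z₁) :=
      fun b b' hb => G.matched _ _ ⟨z₁, hz₁p, rfl⟩ b b' hb
    have h2 := G.matched _ _ ⟨z₂, hz₂p, rfl⟩ b₀ b₁ hjoin
    simp only [e₁, bval, Pi.pow_apply, placeValue_pow _ (hreg _)] at h1
    refine ⟨fun b b' hb => h1 b b' hb, ?_⟩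
    simp only [e₂, bval, hb₀, hb₁, if_true, Fin.one_eq_zero_iff, OfNat.ofNat_ne_one, if_false]
      at h2
    have r0 := hreg b₀
    have r1 := hreg b₁
    rw [hb₀] at r0
    rw [hb₁] at r1
    rw [placeValue_smul _ _ (pow_mem r0 m), placeValue_smul _ _ (pow_mem r1 m),
      placeValue_pow _ r0, placeValue_pow _ r1, one_mul] at h2
    have h3 := h1 b₀ b₁ hjoin
    rw [hb₀, hb₁] at h3
    show placeValue _ _ = 0
    rw [hb₀]
    refine (pow_eq_zero_iff hm.ne').1 ?_
    by_contra hne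
    apply hz1
    have h5 : placeValue (b₁ : Σ _ : Fin 2, Place k E0).2 (P (R'.red ⟨y, hy⟩) 1) ^ m ≠ 0 :=
      fun h5 => hne (by rw [h2, h5, mul_zero])
    exact (mul_eq_right₀ h5).1 (h2.symm.trans h3)
  -- count
  obtain ⟨N₁, hN₁⟩ := hbig
  obtain ⟨N₂, hN₂⟩ := exists_branchEval_surjective (R := R1) G.B G.regular
  obtain ⟨N₃, hN₃⟩ := R1.exists_finrank_polarFibre
  set N := N₁ + N₂ + N₃ with hN
  obtain ⟨hfd, hdimP⟩ := hN₃ N (by omega)
  haveI := hWfin N
  haveI := R'.finiteDimensional_spFibre (W N)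
  set S : Submodule k (R1.polarFibre N) :=
    ((R'.spFibre (W N)).map P).comap (R1.polarFibre N).subtype
  have hPinj : Function.Injective (P.domRestrict (R'.spFibre (W N))) := by
    rw [← LinearMap.ker_eq_bot, LinearMap.ker_eq_bot']
    rintro ⟨_, ⟨y, hyW, rfl⟩⟩ h0
    refine Subtype.ext (hdet y (mem_eigSpace.1 hyW).1 fun i => ?_)
    rw [← hP (R'.red y) i, show P (R'.red y) = 0 from h0, Pi.zero_apply, map_zero]
  have hdimS : Module.finrank k S = Module.finrank k (R'.spFibre (W N)) := by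
    rw [← LinearMap.finrank_range_of_inj hPinj, LinearMap.range_domRestrict]
    refine (Submodule.comapSubtypeEquivOfLe ?_).finrank_eq
    rintro _ ⟨h, hh, rfl⟩
    exact hpolar N h hh
  set E : Submodule k (↥G.B → k) := S.map (branchEval R1 G.B G.regular N)
  set sec : G.Pt → ↥G.B := Function.surjInv hG.pt_surjective
  haveI : Finite G.Pt := Finite.of_surjective G.pt hG.pt_surjective
  haveI := Fintype.ofFinite G.Pt
  let p₀ := G.pt b₀
  let ev : E →ₗ[k] ({p : G.Pt // p ≠ p₀} → k) :=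
    (LinearMap.funLeft k k fun p : {p : G.Pt // p ≠ p₀} => sec p.1).comp E.subtype
  have hev : Function.Injective ev := by
    rw [← LinearMap.ker_eq_bot, LinearMap.ker_eq_bot']
    rintro ⟨_, ⟨h, hh, rfl⟩⟩ h0
    obtain ⟨hmatch, hzero⟩ := hvals N h hh
    refine Subtype.ext (funext fun b => (pow_eq_zero_iff hm.ne').1 ?_)
    rcases eq_or_ne (G.pt b) p₀ with hb | hb
    · rw [hmatch b b₀ hb, hzero, zero_pow hm.ne']
    · have := congrFun h0 ⟨G.pt b, hb⟩
      rw [hmatch b (sec (G.pt b)) (Function.surjInv_eq hG.pt_surjective _).symm]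
      exact (congrArg (· ^ m) this).trans (zero_pow hm.ne')
  have hE : Module.finrank k E + 1 ≤ Nat.card G.Pt := by
    have := LinearMap.finrank_le_finrank_of_injective hev
    rw [Module.finrank_fintype_fun_eq_card, Fintype.card_subtype_compl,
      Fintype.card_subtype_eq] at this
    rw [Nat.card_eq_fintype_card]
    have : 0 < Fintype.card G.Pt := Fintype.card_pos_iff.2 ⟨p₀⟩
    omega
  have hcomap := finrank_comap_add_finrank (branchEval R1 G.B G.regular N)
    (hN₂ N (by omega)) E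
  have hSle : Module.finrank k S ≤
      Module.finrank k (E.comap (branchEval R1 G.B G.regular N)) :=
    Submodule.finrank_mono fun h hh => ⟨h, hh, rfl⟩
  rw [Module.finrank_fintype_fun_eq_card, Fintype.card_coe] at hcomap
  have h1 := hN₁ N (by omega)
  have hcount := hG.count
  have hs2 : ∀ f : Fin 2 → ℤ, ∑ i, f i = f 0 + f 1 := fun f => Fin.sum_univ_two f
  omega

end Fermat.Agent.Carayol.Split

end
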