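/-
General lemmas for the torus step: components of a restricted valuation, factorisation of
residual maps, finite groups of automorphisms and their fixed fields, descent of unramifiedness.
-/
import Fermat.Agent.Carayol.LTwoCompSplit
import Fermat.Agent.Carayol.LTwoCompUnramBase
import Mathlib.FieldTheory.Fixed

set_option autoImplicit false
set_option linter.style.haveILetI false

noncomputable section

namespace Fermat.Agent.Carayol.LTwoComp.InstTor

open AlgebraicCurve IntermediateField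

universe uK uF uE uk

section Valuation

variable {F : Type uF} [Field F]

/-- A unit of a valuation ring. -/
theorem isUnit_iff_inv_mem (V : ValuationSubring F) {x : F} (hx : x ∈ V) :
    IsUnit (⟨x, hx⟩ : V) ↔ x ≠ 0 ∧ x⁻¹ ∈ V := by
  refine ⟨fun h => ?_, fun ⟨h0, hi⟩ => isUnit_iff_exists_inv.2 ⟨⟨_, hi⟩,
    Subtype.ext (mul_inv_cancel₀ h0)⟩⟩
  obtain ⟨⟨y, hy⟩, e⟩ := isUnit_iff_exists_inv.1 h
  have e' : x * y = 1 := congrArg Subtype.val e
  exact ⟨left_ne_zero_of_mul_eq_one e', by rwa [inv_eq_of_mul_eq_one_right e']⟩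

variable {K : Type uK} [Field K] [Algebra K F] {k : Type uk} [Field k]
  {E0 : Type uE} [Field E0] [Algebra k E0] {E : Type uE} [Field E] [Algebra k E]
  {F1 : Type uF} [Field F1] [Algebra K F1]

/-- Residual maps of compatible valuations factor. -/
theorem exists_factor {A : ValuationSubring K} (π : A →+* k) (hπ : Function.Surjective π)
    (V : ValuationSubring F1) (p : V →+* E0) (hp : Function.Surjective p)
    (W : ValuationSubring F) (ψ : W →+* E) (hψ : ∀ f : W, ψ f ≠ 0 → (f : F)⁻¹ ∈ W)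
    (c : F1 →ₐ[K] F) (hmem : ∀ f, c f ∈ W ↔ f ∈ V)
    (hVc : ∀ a : A, algebraMap K F1 a ∈ V)
    (hpc : ∀ a : A, p ⟨algebraMap K F1 a, hVc a⟩ = algebraMap k E0 (π a))
    (hψc : ∀ (a : A) (h : algebraMap K F a ∈ W), ψ ⟨algebraMap K F a, h⟩ = algebraMap k E (π a)) :
    ∃ e : E0 →ₐ[k] E, ∀ f : V, e (p f) = ψ ⟨c f, (hmem f).2 f.2⟩ := by
  let g : V →+* E := ψ.comp (((c : F1 →+* F).comp V.subtype).codRestrict W
    fun f => (hmem f).2 f.2)
  have hg : ∀ f : V, g f = ψ ⟨c f, (hmem f).2 f.2⟩ := fun f => rfl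
  have hker : RingHom.ker p ≤ RingHom.ker g := fun f hf => by
    rw [RingHom.mem_ker] at hf ⊢
    by_contra hne
    rw [hg] at hne
    have hi : ((f : F1)⁻¹) ∈ V := (hmem _).1 (by rw [map_inv₀]; exact hψ _ hne)
    have h0 : (f : F1) ≠ 0 := fun h0 => hne (by
      rw [show (⟨c f, (hmem f).2 f.2⟩ : W) = 0 from Subtype.ext (by simp [h0]), map_zero])
    have h1 : f * ⟨_, hi⟩ = 1 := Subtype.ext (mul_inv_cancel₀ h0)
    have h2 := congrArg p h1
    rw [map_mul, hf, zero_mul, map_one] at h2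
    exact zero_ne_one h2
  let e : E0 →+* E := p.liftOfSurjective hp ⟨g, hker⟩
  have he : ∀ f, e (p f) = g f := fun f => p.liftOfRightInverse_comp_apply _ _ ⟨g, hker⟩ f
  refine ⟨{ e with commutes' := fun r => ?_ }, fun f => (he f).trans (hg f)⟩
  obtain ⟨a, rfl⟩ := hπ r
  show e (algebraMap k E0 (π a)) = _
  rw [← hpc a, he, hg]
  have hm : algebraMap K F a ∈ W := by rw [← c.commutes]; exact (hmem _).2 (hVc a)
  exact (congrArg ψ (Subtype.ext (c.commutes (a : K)))).trans (hψc a hm)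

end Valuation

section Fixed

variable {K : Type uK} {F : Type uF} [Field K] [Field F] [Algebra K F]

/-- An automorphism fixing the fixed field of a finite group belongs to the group. -/
theorem mem_of_fix_fixedField {G : Subgroup (F ≃ₐ[K] F)} [Finite G] {g : F ≃ₐ[K] F}
    (h : ∀ x ∈ IntermediateField.fixedField G, g x = x) : g ∈ G := by
  let g' : F →ₐ[FixedPoints.subfield G F] F :=
    { g.toAlgHom.toRingHom with commutes' := fun x => h x.1 x.2 }
  obtain ⟨d, hd⟩ := (FixedPoints.toAlgHom_bijective G F).2 g'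
  have e : (d : F ≃ₐ[K] F) = g := AlgEquiv.ext fun x => DFunLike.congr_fun hd x
  exact e ▸ d.2

/-- The restriction of an automorphism. -/
theorem exists_restrict (L : IntermediateField K F) (T : F ≃ₐ[K] F)
    (h : ∀ x, T x ∈ L ↔ x ∈ L) :
    ∃ t : L ≃ₐ[K] L, (∀ y : L, (t y : F) = T y) ∧
      ∀ (j : ℕ) (y : L), ((t ^ j) y : F) = (T ^ j) (y : F) := by
  let t₁ : L →ₐ[K] L := (T.toAlgHom.comp L.val).codRestrict L.toSubalgebra fun y => (h y).2 y.2
  let t₂ : L →ₐ[K] L := (T.symm.toAlgHom.comp L.val).codRestrict L.toSubalgebra fun y =>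
    (h _).1 (by
      show T (T.symm (y : F)) ∈ L
      rw [AlgEquiv.apply_symm_apply]; exact y.2)
  let t : L ≃ₐ[K] L := AlgEquiv.ofAlgHom t₁ t₂
    (AlgHom.ext fun y => Subtype.ext (T.apply_symm_apply (y : F)))
    (AlgHom.ext fun y => Subtype.ext (T.symm_apply_apply (y : F)))
  have ht : ∀ y : L, (t y : F) = T y := fun y => rfl
  refine ⟨t, ht, fun j => ?_⟩
  induction j with
  | zero => exact fun y => rfl
  | succ j ih => intro y; rw [pow_succ', AlgEquiv.mul_apply, ht, ih, pow_succ', AlgEquiv.mul_apply]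

theorem exists_period {G : Type*} [Group G] (D : Subgroup G) (T : G) {n : ℕ} (hn : 0 < n)
    (h : T ^ n ∈ D) : ∃ m, 0 < m ∧ m ≤ n ∧ ∀ j, T ^ j ∈ D ↔ m ∣ j := by
  classical
  have hex : ∃ m, 0 < m ∧ T ^ m ∈ D := ⟨n, hn, h⟩
  obtain ⟨hm0, hmD⟩ := Nat.find_spec hex
  refine ⟨_, hm0, Nat.find_min' hex ⟨hn, h⟩, fun j => ⟨fun hj => ?_, ?_⟩⟩
  · rw [Nat.dvd_iff_mod_eq_zero]
    by_contra h0
    refine Nat.find_min hex (Nat.mod_lt j hm0) ⟨Nat.pos_of_ne_zero h0, ?_⟩
    have e := Nat.mod_add_div j (Nat.find hex)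
    rw [← e, pow_add, pow_mul] at hj
    exact (Subgroup.mul_mem_cancel_right D (pow_mem hmD _)).1 hj
  · rintro ⟨c, rfl⟩
    rw [pow_mul]
    exact pow_mem hmD _

end Fixed

section Descend

variable {K : Type uK} [Field K] [IsAlgClosed K] [PerfectField K]
  {F' F'' : Type uF} [Field F'] [Field F''] [Algebra K F'] [Algebra K F'']
  [Curve.IsFunctionFieldOne K F'] [Curve.IsFunctionFieldOne K F'']

/-- A uniformiser from below of an extension is one of the intermediate field. -/
theorem exists_ord_eq_one_descend {S : Type*} (inc : F' →ₐ[K] F'') (c : S → F')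
    (h : ∀ v : Place K F'', ∃ g, v.ord (inc (c g)) = 1) (w : Place K F') :
    ∃ g, w.ord (c g) = 1 := by
  obtain ⟨v, hv⟩ := Split.exists_place_above inc w
  obtain ⟨g, hg⟩ := h v
  refine ⟨g, ?_⟩
  have e := Place.ord_restrictAlong inc (Curve.isIntegral_toRingHom inc) v (c g)
  rw [hg, hv] at e
  rcases Int.eq_one_or_neg_one_of_mul_eq_one e.symm with h1 | h1
  · rwa [h1, one_mul, eq_comm] at e
  · omega

end Descend

end Fermat.Agent.Carayol.LTwoComp.InstTor

end
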