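/-
The residual functions on the component at infinity fixed by its decomposition group: they are
combinations `∑ r, j ^ r * (a r)(t ^ q)` with `a r` on `X₀(M)`, and the reductions of functions
fixed by the unipotent group are series in `t ^ q`.
-/
import Fermat.Agent.Carayol.ValuationsComplete
import Fermat.Agent.Carayol.LTwoCompUnram
import Fermat.Agent.BadReduction.X0Frobenius
import Fermat.Agent.DeligneSerre.GroupPlaces
import Mathlib.FieldTheory.KummerPolynomial

set_option autoImplicit false
set_option linter.style.haveILetI false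
set_option linter.unusedSectionVars false
set_option maxHeartbeats 800000
set_option synthInstance.maxHeartbeats 200000

noncomputable section

open scoped MatrixGroups

namespace Fermat.Agent.Carayol.LTwoComp.InstTor

open ModularCurve IntermediateField AlgebraicCurve IsLocalRing Cuspidal Polynomial

variable {q : ℕ} [Fact q.Prime]

section Series

variable {k : Type*} [Field k] [CharP k q]

theorem jqModC_not_mem_range : jqModC k ∉ Set.range (qExpand k q) := by
  rintro ⟨g, hg⟩
  have h := congrArg (fun z : LaurentSeries k => z.coeff (-1)) hg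
  rw [show (qExpand k q g).coeff (-1) = 0 from qExpand_coeff_of_not_dvd _ _ fun hd => by
    have := Int.eq_one_of_dvd_one (by positivity) ((dvd_neg).1 hd)
    have := (Fact.out : q.Prime).one_lt
    omega] at h
  rw [coeff_jqModC_neg_one] at h
  exact zero_ne_one h

/-- `1, j, …, j ^ (q - 1)` are independent over the series in `t ^ q`. -/
theorem eq_zero_of_sum_jq_mul_qExpand {a : Fin q → LaurentSeries k}
    (h : ∑ r : Fin q, jqModC k ^ (r : ℕ) * qExpand k q (a r) = 0) : a = 0 := by
  haveI : CharP (LaurentSeries k) q :=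
    charP_of_injective_algebraMap (algebraMap k (LaurentSeries k)).injective q
  set R : IntermediateField k (LaurentSeries k) := (qExpandAlgHomC k q).fieldRange
  let b : R := ⟨jqModC k ^ q, jqModC k, (jqModC_pow_prime q).symm⟩
  have hirr : Irreducible (X ^ q - C b) :=
    (X_pow_sub_C_irreducible_iff_of_prime (Fact.out : q.Prime)).2 fun c hc => by
      have h1 : (c : LaurentSeries k) = jqModC k :=
        frobenius_inj (LaurentSeries k) q (by
          rw [frobenius_def, frobenius_def]
          exact congrArg Subtype.val hc)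
      obtain ⟨g, hg⟩ := c.2
      exact jqModC_not_mem_range (k := k) ⟨g, hg.trans h1⟩
  have hmin : minpoly R (jqModC k) = X ^ q - C b :=
    (minpoly.eq_of_irreducible_of_monic hirr (by simp [b])
      (monic_X_pow_sub_C b (NeZero.ne q))).symm
  have hdeg : (minpoly R (jqModC k)).natDegree = q := by rw [hmin, natDegree_X_pow_sub_C]
  have hli := (linearIndependent_pow (K := R) (jqModC k)).comp (Fin.cast hdeg.symm)
    (Fin.cast_injective _)
  have h0 := Fintype.linearIndependent_iff.1 hli (fun r => ⟨qExpand k q (a r), a r, rfl⟩) (by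
    refine Eq.trans (Finset.sum_congr rfl fun r _ => ?_) h
    rw [Function.comp_apply, Fin.val_cast, IntermediateField.smul_def, smul_eq_mul, mul_comm])
  funext r
  exact qExpand_injective (R := k) (N := q)
    ((congrArg Subtype.val (h0 r)).trans (map_zero _).symm)

omit [CharP k q] in
/-- A series supported on the multiples of `q` is a series in `t ^ q`. -/
theorem exists_qExpand_of_support (z : LaurentSeries k)
    (hz : ∀ n : ℤ, ¬ (q : ℤ) ∣ n → z.coeff n = 0) : ∃ g, qExpand k q g = z := by
  have hmono : StrictMono fun n : ℤ => (q : ℤ) * n := fun a b hab =>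
    mul_lt_mul_of_pos_left hab (by exact_mod_cast (Fact.out : q.Prime).pos)
  refine ⟨{ coeff := fun n => z.coeff ((q : ℤ) * n)
            isPWO_support' := ?_ }, ?_⟩
  · intro u
    obtain ⟨m, n, hmn, hle⟩ := z.isPWO_support' fun i => ⟨(q : ℤ) * u i, (u i).2⟩
    exact ⟨m, n, hmn, hmono.le_iff_le.1 hle⟩
  · ext n
    by_cases hn : (q : ℤ) ∣ n
    · obtain ⟨m, rfl⟩ := hn
      rw [qExpand_coeff_mul]
    · rw [qExpand_coeff_of_not_dvd _ _ hn, hz n hn]

end Series

theorem mul_le_of_le {a b c d e : ℕ} (h : b ≤ c * d) (he : e = c * a) : a * b ≤ e * d := by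
  subst he
  rw [mul_comm c a, mul_assoc]
  exact Nat.mul_le_mul_left a h

theorem span_eq_top_of_finrank_le {K L : Type*} [Field K] [Field L] [Algebra K L]
    [Module.Finite K L] (E : IntermediateField K L) {ι : Type*} [Fintype ι] [Nonempty ι]
    {w : ι → E} (hw : LinearIndependent K w)
    (h : Module.finrank K L ≤ Fintype.card ι * Module.finrank E L) :
    Submodule.span K (Set.range w) = ⊤ := by
  refine hw.span_eq_top_of_card_eq_finrank (le_antisymm hw.fintype_card_le_finrank ?_)
  rw [← Module.finrank_mul_finrank K E L] at h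
  exact Nat.le_of_mul_le_mul_right h Module.finrank_pos

variable {M : ℕ} [NeZero M] {A : ValuationSubring Qb} (hqM : ¬ q ∣ M) (hA : A.LiesOverPrime q)

/-- The residual degree is `ψ(M)` times the order of the decomposition group. -/
theorem finrank_resField_eq :
    Module.finrank (ratField hqM hA) (resField q M A) =
      dedekindPsi M * Nat.card (decGroup A hqM) := by
  have h := finrank_eq_ncard_mul (A := A) hqM hA
  rw [finrank_xField hqM, card_autGroup_eq (A := A) hqM, mul_assoc] at h
  have hpos : 0 < (compSet A hqM).ncard :=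
    Set.ncard_pos (finite_compSet A hqM) |>.2 ⟨_, (1 : CongruenceSubgroup.Gamma0 M), rfl⟩
  rw [mul_comm (dedekindPsi M)]
  exact (Nat.eq_of_mul_eq_mul_left hpos h).symm

set_option maxHeartbeats 3200000 in
include hA in
/-- A residual function fixed by the decomposition group. -/
theorem exists_expansion_of_fixed {z : resField q M A}
    (hz : ∀ g : decGroup A hqM, thetaHom hqM g z = z) :
    ∃ a : Fin q → LaurentSeries (ResidueField A),
      (∀ r, a r ∈ modularFunctionFieldFullC (ResidueField A) M) ∧
      (z : LaurentSeries (ResidueField A)) =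
        ∑ r : Fin q, jqModC (ResidueField A) ^ (r : ℕ) * qExpand (ResidueField A) q (a r) := by
  classical
  haveI := charP_residue q hA
  haveI := finite_ratField_resField (q := q) (M := M) hqM hA
  set H := (thetaAut (A := A) hqM hA).range
  haveI : Finite H := Finite.of_surjective _ (thetaAut (A := A) hqM hA).rangeRestrict_surjective
  have hH := IntermediateField.finrank_fixedField_eq_card H
  set E := IntermediateField.fixedField H
  have hfix : ∀ {d : ℕ} [NeZero d] (hd : d ∣ M), resGen hA hd ∈ E := by
    intro d _ hd f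
    obtain ⟨g, hg⟩ := f.2
    show f.1 (resGen hA hd) = resGen hA hd
    rw [← hg]
    exact thetaHom_resGen hqM hA g hd
  have hzE : z ∈ E := fun f => by
    obtain ⟨g, hg⟩ := f.2
    show f.1 z = z
    rw [← hg]
    exact hz g
  let s : E := ⟨resGen hA (one_dvd M), hfix _⟩
  let y : E := ⟨resGen hA (dvd_refl M), hfix _⟩
  let w : Fin q × Fin (dedekindPsi M) → E := fun p => s ^ (p.1 : ℕ) * (y ^ q) ^ (p.2 : ℕ)
  have hcoe : ∀ p, (((w p : E) : resField q M A) : LaurentSeries (ResidueField A)) =
      jqModC (ResidueField A) ^ (p.1 : ℕ) *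
        qExpand (ResidueField A) q (jqNModC (ResidueField A) M ^ (p.2 : ℕ)) := fun p => by
    rw [map_pow]
    show ((s : resField q M A) : LaurentSeries (ResidueField A)) ^ (p.1 : ℕ) *
      (((y : resField q M A) : LaurentSeries (ResidueField A)) ^ q) ^ (p.2 : ℕ) = _
    rw [resGen_pow hA (dvd_refl M)]
    simp only [s, resGen]
    rw [qExpand_one_apply]
    congr 2
    show _ = qExpand (ResidueField A) q (qExpand (ResidueField A) M (jqModC (ResidueField A)))
    rw [qExpand_qExpand]
    exact qExpand_congr (mul_comm M q) _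
  have hw : LinearIndependent (ratField hqM hA) w := by
    refine linearIndependent_adjoin_simple_of_poly _ (fun p => w p) fun P hP => ?_
    have h1 : ∑ p, Polynomial.aeval (jRed A hqM hA) (P p) * ((w p : E) : resField q M A) = 0 := by
      have h := congrArg E.val hP
      rw [map_sum, map_zero] at h
      exact h
    have h2 := congrArg (resField q M A).val h1
    rw [map_sum, map_zero, Fintype.sum_prod_type] at h2
    have hev : ∀ Q : Polynomial (ResidueField A), (resField q M A).val (Polynomial.aeval (jRed A hqM hA) Q) =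
        qExpand (ResidueField A) q (Polynomial.aeval (jqModC (ResidueField A)) Q) := fun Q =>
      ((Polynomial.aeval_algHom_apply (resField q M A).val _ Q).symm.trans
        (Polynomial.aeval_algHom_apply (qExpandAlgHomC (ResidueField A) q) _ Q))
    have h3 := eq_zero_of_sum_jq_mul_qExpand (q := q)
      (a := fun r : Fin q => ∑ i, Polynomial.aeval (jqModC (ResidueField A)) (P (r, i)) *
        jqNModC (ResidueField A) M ^ (i : ℕ)) (by
      refine Eq.trans (Finset.sum_congr rfl fun r _ => ?_) h2
      rw [map_sum, Finset.mul_sum]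
      refine Finset.sum_congr rfl fun i _ => ?_
      rw [map_mul, map_mul, hev]
      show _ = _ * (((w (r, i) : E) : resField q M A) : LaurentSeries (ResidueField A))
      rw [hcoe]
      ring)
    funext p
    exact congrFun (eq_zero_of_sum_jqNModC hA hqM (fun i => P (p.1, i)) (congrFun h3 p.1)) p.2
  have hspan : Submodule.span (ratField hqM hA) (Set.range w) = ⊤ := by
    haveI : Nonempty (Fin q × Fin (dedekindPsi M)) :=
      ⟨(⟨0, NeZero.pos q⟩, ⟨0, Gamma0.dedekindPsi_pos M⟩)⟩
    refine span_eq_top_of_finrank_le E hw ?_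
    rewrite [hH, finrank_resField_eq hqM hA]
    refine mul_le_of_le (card_decGroup_le (A := A) hqM hA) ?_
    rw [Fintype.card_prod, Fintype.card_fin, Fintype.card_fin]
  obtain ⟨c, hc⟩ := (Submodule.mem_span_range_iff_exists_fun (ratField hqM hA)).1
    (Submodule.eq_top_iff'.1 hspan ⟨z, hzE⟩)
  -- coefficients are series in `t ^ q` of functions on `X₀(M)`
  have hrat : ∀ x ∈ ratField hqM hA, ∃ e ∈ modularFunctionFieldFullC (ResidueField A) M,
      qExpand (ResidueField A) q e = (x : LaurentSeries (ResidueField A)) := by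
    intro x hx
    have hle : ratField hqM hA ≤ (((modularFunctionFieldFullC (ResidueField A) M).map
        (qExpandAlgHomC (ResidueField A) q))).comap (resField q M A).val := by
      refine IntermediateField.adjoin_le_iff.2 ?_
      rw [Set.singleton_subset_iff]
      exact ⟨_, jqModC_mem_full (ResidueField A) M, rfl⟩
    exact hle hx
  choose e he he' using fun p => hrat _ (c p).2
  have hjN : jqNModC (ResidueField A) M ∈ modularFunctionFieldFullC (ResidueField A) M :=
    IntermediateField.subset_adjoin _ _ ⟨M, inferInstance, dvd_refl M, rfl⟩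
  refine ⟨fun r => ∑ i, e (r, i) * jqNModC (ResidueField A) M ^ (i : ℕ),
    fun r => sum_mem fun i _ => mul_mem (he _) (pow_mem hjN _), ?_⟩
  have h4 := congrArg (fun u : E => ((u : resField q M A) : LaurentSeries (ResidueField A))) hc
  dsimp only at h4
  rw [← h4]
  rw [AddSubmonoidClass.coe_finsetSum, AddSubmonoidClass.coe_finsetSum, Fintype.sum_prod_type]
  refine Finset.sum_congr rfl fun r _ => ?_
  rw [map_sum, Finset.mul_sum]
  refine Finset.sum_congr rfl fun i _ => ?_
  show ((c (r, i) : resField q M A) : LaurentSeries (ResidueField A)) *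
    (((w (r, i) : E) : resField q M A) : LaurentSeries (ResidueField A)) = _
  rw [hcoe, map_mul, he']
  ring

include hqM hA in
/-- Fixed residual functions are on `X₀(M)`; those in `t ^ q` are expanded from `X₀(M)`. -/
theorem mem_fullC_of_fixed {z : resField q M A}
    (hz : ∀ g : decGroup A hqM, thetaHom hqM g z = z) :
    (z : LaurentSeries (ResidueField A)) ∈ modularFunctionFieldFullC (ResidueField A) M ∧
      ∀ g, qExpand (ResidueField A) q g = (z : LaurentSeries (ResidueField A)) →
        g ∈ modularFunctionFieldFullC (ResidueField A) M := by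
  haveI := charP_residue q hA
  haveI := DeligneSerre.isAlgClosed_residueField A
  obtain ⟨a, ha, he⟩ := exists_expansion_of_fixed hqM hA hz
  refine ⟨he ▸ sum_mem fun r _ => mul_mem (pow_mem (jqModC_mem_full _ M) _)
    (BadReduction.qExpand_mem_fullC _ q M (ha r)), fun g hg => ?_⟩
  let r₀ : Fin q := ⟨0, NeZero.pos q⟩
  have h := eq_zero_of_sum_jq_mul_qExpand (q := q) (a := fun r => a r - if r = r₀ then g else 0) (by
    simp only [map_sub, _root_.mul_sub, Finset.sum_sub_distrib, apply_ite (qExpand (ResidueField A) q),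
      map_zero, mul_ite, mul_zero, Finset.sum_ite_eq', Finset.mem_univ, if_true]
    rw [← he, hg]
    simp [r₀])
  have h0 := congrFun h r₀
  simp only [if_pos, Pi.zero_apply, sub_eq_zero] at h0
  exact h0 ▸ ha r₀

include hA in
/-- The unipotents are in the decomposition group. -/
theorem uni_mem_decGroup (β : ZMod q) : autHom hqM (uni β) ∈ decGroup A hqM := by
  obtain ⟨u, hu⟩ := exists_red_eq hqM (uni β : SL(2, ZMod q))
  rw [← hu, autHom_red]
  refine ⟨⟨u, rfl⟩, (sigma_unipotent A hqM hA u ?_ ?_).1⟩
  · rw [← red_apply, hu]; simp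
  · rw [← red_apply, hu]; simp

include hA in
/-- The reduction of a function fixed by the unipotent group is a series in `t ^ q`. -/
theorem exists_qExpand_infRed {f : XField q M} (hf : f ∈ infVal q M A)
    (hfix : ∀ β : ZMod q, autHom hqM (uni β) f = f) :
    ∃ g, qExpand (ResidueField A) q g = infRed q M A ⟨f, hf⟩ := by
  classical
  haveI := charP_residue q hA
  obtain ⟨u, hu⟩ := exists_red_eq hqM (uni 1 : SL(2, ZMod q))
  obtain ⟨c, hc⟩ := coe_sigma_unipotent hqM u (by rw [← red_apply, hu]; simp)
    (by rw [← red_apply, hu]; simp)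
  have hc0 : c ≠ 0 := by
    rintro rfl
    have h1 : autHom (M := M) hqM (uni 1) = 1 := by
      rw [← hu, autHom_red]
      refine AlgEquiv.ext fun x => Subtype.ext ?_
      rw [hc]
      simp [seriesTwist_one]
    simpa using (scalar_of_autHom_eq_one hqM h1).2.1
  have hinv : seriesTwist (zetaQ q ^ c.val) (f : LaurentSeries Qb) = f := by
    rw [← hc, ← autHom_red, hu, hfix]
  obtain ⟨v, hv, hv1⟩ := zetaQ_residue_one hA
  have hvq : v ^ q = 1 := Units.ext (Subtype.ext (by
    simp [hv, (isPrimitiveRoot_zetaQ q).pow_eq_one]))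
  have hne : ∀ n : ℤ, ¬ (q : ℤ) ∣ n → (((v ^ c.val) ^ n : Aˣ) : A) ≠ 1 := by
    intro n hn h
    have h1 : (Units.map A.subtype.toMonoidHom (v ^ c.val)) ^ n = 1 := by
      rw [← map_zpow, Units.ext_iff]
      rw [Units.coe_map]
      exact (congrArg A.subtype h).trans (map_one _)
    rw [show Units.map A.subtype.toMonoidHom (v ^ c.val) = zetaQ q ^ c.val from
      Units.ext (by simp [hv]), ← zpow_natCast, ← zpow_mul] at h1
    have h2 := ((IsPrimitiveRoot.coe_units_iff.1 (isPrimitiveRoot_zetaQ q)).zpow_eq_one_iff_dvd _).1 h1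
    rcases (Int.Prime.dvd_mul' (Fact.out : q.Prime) h2) with h3 | h3
    · refine hc0 ?_
      rw [← ZMod.natCast_zmod_val c]
      exact (ZMod.natCast_eq_zero_iff _ _).2 (Int.natCast_dvd_natCast.1 h3)
    · exact hn h3
  obtain ⟨y₁, y₂, h2, e⟩ := (mem_infVal_iff A).1 hf
  -- an invariant denominator
  set w : Aˣ := v ^ c.val with hw
  set Y₂ := ∏ i ∈ Finset.range q, seriesTwist (w ^ i) y₂ with hY₂
  set Y₁ := (∏ i ∈ Finset.range (q - 1), seriesTwist (w ^ (i + 1)) y₂) * y₁ with hY₁
  have hwq : w ^ q = 1 := by rw [hw, ← pow_mul, mul_comm, pow_mul, hvq, one_pow]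
  have hY₂inv : seriesTwist w Y₂ = Y₂ := by
    rw [hY₂, map_prod]
    simp only [seriesTwist_seriesTwist, ← pow_succ']
    obtain ⟨m, hm⟩ : ∃ m, q = m + 1 := ⟨q - 1, by have := (Fact.out : q.Prime).pos; omega⟩
    rw [hm, Finset.prod_range_succ, Finset.prod_range_succ' (fun i => seriesTwist (w ^ i) y₂),
      ← hm, hwq, pow_zero]
  have hY₂split : Y₂ = (∏ i ∈ Finset.range (q - 1), seriesTwist (w ^ (i + 1)) y₂) * y₂ := by
    rw [hY₂]
    conv_lhs => rw [show q = q - 1 + 1 by have := (Fact.out : q.Prime).pos; omega,
      Finset.prod_range_succ' (fun i => seriesTwist (w ^ i) y₂), pow_zero, seriesTwist_one]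
  have e' : (f : LaurentSeries Qb) * coeffMap A.subtype Y₂ = coeffMap A.subtype Y₁ := by
    rw [hY₂split, hY₁, map_mul, map_mul, mul_left_comm, e]
  have hmapw : Units.map A.subtype.toMonoidHom w = zetaQ q ^ c.val := Units.ext (by simp [hw, hv])
  have hY₁inv : seriesTwist w Y₁ = Y₁ := by
    have h := congrArg (seriesTwist (zetaQ q ^ c.val)) e'
    rw [map_mul, hinv, ← hmapw, ← coeffMap_seriesTwist, ← coeffMap_seriesTwist, hY₂inv, e'] at h
    refine HahnSeries.ext (funext fun n => Subtype.ext ?_)
    exact (congrArg (fun z : LaurentSeries Qb => z.coeff n) h).symm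
  have hred : ∀ y : LaurentSeries A, seriesTwist w y = y →
      ∃ g, qExpand (ResidueField A) q g = coeffMap (residue A) y := fun y hy =>
    exists_qExpand_of_support _ fun n hn => by
      have h := congrArg (fun z : LaurentSeries A => z.coeff n) hy
      rw [seriesTwist_coeff] at h
      rw [coeffMap_coeff, show y.coeff n = 0 from ?_, map_zero]
      by_contra h0
      exact hne n hn (mul_right_cancel₀ h0 (h.trans (one_mul _).symm))
  obtain ⟨g₁, hg₁⟩ := hred Y₁ hY₁inv
  obtain ⟨g₂, hg₂⟩ := hred Y₂ hY₂inv
  have h2' : coeffMap (residue A) Y₂ ≠ 0 := by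
    rw [hY₂, map_prod, Finset.prod_ne_zero_iff]
    intro i _
    rw [coeffMap_seriesTwist, show Units.map (residue A).toMonoidHom (w ^ i) = 1 from
      Units.ext (by simp [hw, hv1]), seriesTwist_one]
    exact h2
  refine ⟨g₁ / g₂, ?_⟩
  rw [map_div₀, hg₁, hg₂]
  exact (infRed_eq A ⟨f, hf⟩ h2' e').symm

end Fermat.Agent.Carayol.LTwoComp.InstTor
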