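/-
The field fixed by the decomposition group of the component at infinity: its symmetries and the
residues of its functions.
-/
import Fermat.Agent.Carayol.LTwoCompInstTorRes
import Fermat.Agent.Carayol.LTwoCompInstTorGen
import Fermat.Agent.Carayol.LTwoCompInstDegreeGroup
import Fermat.Agent.Carayol.LTwoCompMaps

set_option autoImplicit false
set_option linter.style.haveILetI false
set_option maxHeartbeats 800000
set_option synthInstance.maxHeartbeats 200000

noncomputable section

open scoped MatrixGroups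

namespace Fermat.Agent.Carayol.LTwoComp.InstTor

open AlgebraicCurve ModularCurve Cuspidal IsLocalRing IntermediateField BadReduction

attribute [-simp] ZMod.inv_coe_unit
attribute [local simp] Units.val_inv_eq_inv_val

variable {q : ℕ} [Fact q.Prime] {M : ℕ} [NeZero M] (A : ValuationSubring Qb) (hqM : ¬ q ∣ M)

/-- The functions fixed by the decomposition group of the component at infinity. -/
def decFix : IntermediateField Qb (XField q M) := IntermediateField.fixedField (decGroup A hqM)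

theorem mem_decFix {f : XField q M} :
    f ∈ decFix A hqM ↔ ∀ d ∈ decGroup A hqM, d f = f :=
  IntermediateField.mem_fixedField_iff _ _

variable (hA : A.LiesOverPrime q)

include hA

theorem exists_bor_of_mem_decGroup {d : XField q M ≃ₐ[Qb] XField q M}
    (hd : d ∈ decGroup A hqM) : ∃ (b : (ZMod q)ˣ) (β : ZMod q),
      autHom hqM (tor b * uni β) = d ∧ autHom hqM (tor b) ∈ decGroup A hqM := by
  obtain ⟨g, rfl⟩ := exists_autHom_eq hqM hd.1
  obtain ⟨⟨b, β⟩, rfl⟩ := exists_bor_eq (mem_borel.2 (mem_borel_of_compVal_eq A hqM hA hd.2))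
  refine ⟨b, β, rfl, ?_⟩
  rw [bor, map_mul] at hd
  exact (Subgroup.mul_mem_cancel_right _ (uni_mem_decGroup hqM hA β)).1 hd

theorem mem_decFix_iff {f : XField q M} :
    f ∈ decFix A hqM ↔ (∀ β : ZMod q, autHom hqM (uni β) f = f) ∧
      ∀ b : (ZMod q)ˣ, autHom hqM (tor b) ∈ decGroup A hqM → autHom hqM (tor b) f = f := by
  rw [mem_decFix]
  refine ⟨fun h => ⟨fun β => h _ (uni_mem_decGroup hqM hA β), fun b hb => h _ hb⟩,
    fun ⟨hu, ht⟩ d hd => ?_⟩
  obtain ⟨b, β, rfl, hb⟩ := exists_bor_of_mem_decGroup A hqM hA hd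
  rw [map_mul, AlgEquiv.mul_apply, hu, ht b hb]

theorem tor_apply_mem_decFix {a : (ZMod q)ˣ} {f : XField q M} (hf : f ∈ decFix A hqM) :
    autHom hqM (tor a) f ∈ decFix A hqM := by
  rw [mem_decFix_iff A hqM hA] at hf ⊢
  refine ⟨fun β => ?_, fun b hb => ?_⟩
  · have ha : (a : ZMod q) * a ≠ 0 := mul_ne_zero a.ne_zero a.ne_zero
    have h := hf.1 (((a : ZMod q) * a)⁻¹ * β)
    conv_rhs => rw [← h]
    rw [← AlgEquiv.mul_apply, ← map_mul, ← AlgEquiv.mul_apply, ← map_mul, tor_mul_uni,
      mul_inv_cancel_left₀ ha]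
  · rw [← AlgEquiv.mul_apply, ← map_mul, ← tor_mul, mul_comm, tor_mul, map_mul, AlgEquiv.mul_apply,
      hf.2 b hb]

theorem tor_mem_decFix_iff (a : (ZMod q)ˣ) (f : XField q M) :
    autHom hqM (tor a) f ∈ decFix A hqM ↔ f ∈ decFix A hqM := by
  refine ⟨fun h => ?_, tor_apply_mem_decFix A hqM hA⟩
  have h1 := tor_apply_mem_decFix A hqM hA (a := a⁻¹) h
  have e : (tor a⁻¹ : SL(2, ZMod q)) * tor a = 1 := by
    rw [← tor_mul, inv_mul_cancel]
    ext i j
    fin_cases i <;> fin_cases j <;> simp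
  rwa [← AlgEquiv.mul_apply, ← map_mul, e, map_one, AlgEquiv.one_apply] at h1

theorem gal_mem_decFix (σ : Qb ≃ₐ[ℚ] Qb) (c : (ZMod q)ˣ)
    (hc : σ (zetaQ q : Qb) = (zetaQ q : Qb) ^ (c : ZMod q).val) {f : XField q M}
    (hf : f ∈ decFix A hqM) : galRingAut σ f ∈ decFix A hqM := by
  rw [mem_decFix_iff A hqM hA] at hf ⊢
  refine ⟨fun β => ?_, fun b hb => ?_⟩
  · have h := galRingAut_autHom hqM σ c hc (uni ((c : ZMod q)⁻¹ * β)) f
    rw [twist_uni, mul_inv_cancel_left₀ c.ne_zero, hf.1] at h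
    exact h.symm
  · have h := galRingAut_autHom hqM σ c hc (tor b) f
    rw [twist_tor, hf.2 b hb] at h
    exact h.symm

theorem pointField_le_decFix : pointField q M none ≤ decFix A hqM := fun f hf => by
  rw [mem_decFix_iff A hqM hA]
  exact ⟨fun β => (mem_pointField_none_iff hqM).1 hf _ (mem_borel.2 (by simp)),
    fun b _ => (mem_pointField_none_iff hqM).1 hf _ (mem_borel.2 (by simp))⟩

theorem decFix_le_unipFix : decFix A hqM ≤ unipFix hqM := fun _ hf =>
  (mem_unipFix hqM).2 ((mem_decFix_iff A hqM hA).1 hf).1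

theorem baseField_le_decFix : baseField q M ≤ decFix A hqM :=
  (baseField_le_pointField none).trans (pointField_le_decFix A hqM hA)

theorem isFunctionFieldOne_decFix : Curve.IsFunctionFieldOne Qb (decFix A hqM) :=
  isFunctionFieldOne_of_baseField_le hqM _ (baseField_le_decFix A hqM hA)

theorem jElt_mem_decFix : jElt q M ∈ decFix A hqM :=
  baseField_le_decFix A hqM hA jElt_mem_baseField

omit hA in
/-- Vanishing residues are multiplied by constants. -/
theorem infRed_smul_eq_zero (c : A) {x : XField q M} (hx : x ∈ infVal q M A)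
    (h0 : infRed q M A ⟨x, hx⟩ = 0) :
    ∃ h : (c : Qb) • x ∈ infVal q M A, infRed q M A ⟨_, h⟩ = 0 := by
  have hc : algebraMap Qb (XField q M) (c : Qb) ∈ infVal q M A :=
    (algebraMap_mem_infVal_iff A).2 c.2
  refine ⟨by rw [Algebra.smul_def]; exact mul_mem hc hx, ?_⟩
  have e : ∀ h, (⟨(c : Qb) • x, h⟩ : infVal q M A) = ⟨_, hc⟩ * ⟨x, hx⟩ := fun h =>
    Subtype.ext (Algebra.smul_def _ _)
  rw [e, map_mul, h0, mul_zero]

/-- Functions fixed by the decomposition group reduce to `X₀(M)`: at infinity as series in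
`t ^ q`. -/
theorem exists_residue_zero {f : XField q M} (hf : f ∈ decFix A hqM) (h : f ∈ infVal q M A) :
    ∃ z : X0Res M A, qExpand (ResidueField A) q (z : LaurentSeries (ResidueField A)) =
      infRed q M A ⟨f, h⟩ := by
  obtain ⟨g, hg⟩ := exists_qExpand_infRed hqM hA h ((mem_decFix_iff A hqM hA).1 hf).1
  let z : resField q M A := ⟨_, infRed_mem_resField A ⟨f, h⟩⟩
  have hfix : ∀ d : decGroup A hqM, thetaHom hqM d z = z := fun d => by
    refine Subtype.ext ?_
    show (thetaFun hqM d z : LaurentSeries (ResidueField A)) = _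
    have e := (mem_decFix A hqM).1 hf d.1 d.2
    rw [thetaFun_spec hqM d z h rfl ((apply_mem_infVal_iff hqM d.2 f).2 h)]
    exact infRed_congr A e _ h
  exact ⟨⟨g, (mem_fullC_of_fixed hqM hA hfix).2 g hg⟩, hg⟩

/-- On the other component the residues lie in `X₀(M)`. -/
theorem exists_residue_one {f : XField q M} (hf : f ∈ decFix A hqM)
    (h : autHom hqM weyl f ∈ infVal q M A) :
    ∃ z : X0Res M A, (z : LaurentSeries (ResidueField A)) = infRed q M A ⟨_, h⟩ := by
  let z : resField q M A := ⟨_, infRed_mem_resField A ⟨_, h⟩⟩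
  have hfix : ∀ d : decGroup A hqM, thetaHom hqM d z = z := fun d => by
    refine Subtype.ext ?_
    show (thetaFun hqM d z : LaurentSeries (ResidueField A)) = _
    have hd' := (apply_mem_infVal_iff hqM d.2 (autHom hqM weyl f)).2 h
    rw [thetaFun_spec hqM d z h rfl hd']
    obtain ⟨b, β, hd, hb⟩ := exists_bor_of_mem_decGroup A hqM hA d.2
    have e1 : autHom hqM (uni β) (autHom hqM weyl f) ∈ infVal q M A :=
      (apply_mem_infVal_iff hqM (uni_mem_decGroup hqM hA β) _).2 h
    have hbi : autHom hqM (tor b⁻¹) ∈ decGroup A hqM := by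
      have hi := inv_mem hb
      rwa [← map_inv, show (tor b)⁻¹ = (tor b⁻¹ : SL(2, ZMod q)) from
        inv_eq_of_mul_eq_one_right (by
          rw [← tor_mul, mul_inv_cancel]
          ext i j
          fin_cases i <;> fin_cases j <;> simp)] at hi
    have hbw : autHom hqM (tor b) (autHom hqM weyl f) = autHom hqM weyl f := by
      have e : (tor b : SL(2, ZMod q)) * weyl = weyl * tor b⁻¹ := by
        rw [weyl_mul_tor, inv_inv]
      rw [← AlgEquiv.mul_apply, ← map_mul, e, map_mul, AlgEquiv.mul_apply,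
        ((mem_decFix_iff A hqM hA).1 hf).2 _ hbi]
    have e3 : d.1 (autHom hqM weyl f) =
        autHom hqM (tor b) (autHom hqM (uni β) (autHom hqM weyl f)) := by
      rw [← hd, map_mul, AlgEquiv.mul_apply]
    have e2 := (infRed_uni A hqM hA β).2 _ e1 h
    have hx1 : autHom hqM (tor b) (autHom hqM (uni β) (autHom hqM weyl f)) ∈ infVal q M A :=
      (apply_mem_infVal_iff hqM hb _).2 e1
    refine (infRed_congr A e3 _ hx1).trans ?_
    show infRed q M A ⟨_, hx1⟩ = (z : LaurentSeries (ResidueField A))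
    have h4 := thetaFun_spec hqM ⟨_, hb⟩ z e1 e2 hx1
    rw [← h4, thetaFun_spec hqM ⟨_, hb⟩ z h rfl ((apply_mem_infVal_iff hqM hb _).2 h)]
    exact infRed_congr A hbw _ h
  exact ⟨⟨_, (mem_fullC_of_fixed hqM hA hfix).1⟩, rfl⟩

/-- A function multiplied by constants under the torus, with vanishing residues at infinity and
on the translate by the Weyl element, has vanishing residue on every component. -/
theorem infRed_eq_zero_of_eigen {y : XField q M} (hy : y ∈ decFix A hqM)
    (htor : ∀ a : (ZMod q)ˣ, ∃ c : A, autHom hqM (tor a) y = (c : Qb) • y)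
    (h0 : ∃ h : y ∈ infVal q M A, infRed q M A ⟨_, h⟩ = 0)
    (h1 : ∃ h : autHom hqM weyl y ∈ infVal q M A, infRed q M A ⟨_, h⟩ = 0)
    (g : SL(2, ZMod q)) :
    ∃ h : autHom hqM g y ∈ infVal q M A, infRed q M A ⟨_, h⟩ = 0 := by
  have hu := ((mem_decFix_iff A hqM hA).1 hy).1
  rcases bruhat g with ⟨⟨a, β⟩, rfl⟩ | ⟨α, a, β, rfl⟩
  · obtain ⟨c, hc⟩ := htor a
    have e : autHom hqM (bor (a, β)) y = (c : Qb) • y := by
      rw [bor, map_mul, AlgEquiv.mul_apply, hu, hc]
    obtain ⟨h, he⟩ := h0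
    obtain ⟨h', he'⟩ := infRed_smul_eq_zero A c h he
    exact ⟨e ▸ h', (infRed_congr A e _ h').trans he'⟩
  · obtain ⟨c, hc⟩ := htor a
    have e : autHom hqM (uni α * weyl * tor a * uni β) y =
        autHom hqM (uni α) ((c : Qb) • autHom hqM weyl y) := by
      rw [map_mul, AlgEquiv.mul_apply, hu, map_mul, AlgEquiv.mul_apply, hc, map_mul,
        AlgEquiv.mul_apply, Algebra.smul_def, map_mul, AlgEquiv.commutes, ← Algebra.smul_def]
    obtain ⟨h, he⟩ := h1
    obtain ⟨h', he'⟩ := infRed_smul_eq_zero A c h he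
    have h'' := (apply_mem_infVal_iff hqM (uni_mem_decGroup hqM hA α) _).2 h'
    exact ⟨e ▸ h'', (infRed_congr A e _ h'').trans (((infRed_uni A hqM hA α).2 _ h'' h').trans he')⟩

end Fermat.Agent.Carayol.LTwoComp.InstTor

end
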