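/-
Restriction of a reduction along finitely many valuations to an intermediate field containing the
coordinate: the components are the distinct restricted valuations, their residual fields are the
images, and no degree is lost.
-/
import Fermat.Agent.Bad.GluingLattice
import Fermat.Agent.Bad.GluingLift
import Fermat.Agent.Carayol.ValuationsDegree
import Fermat.Agent.Curve.ModelGauss
import Mathlib.FieldTheory.Relrank

set_option autoImplicit false
set_option linter.style.haveILetI false
set_option linter.unusedSectionVars false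

noncomputable section

namespace Fermat.Agent.Bad

open AlgebraicCurve IntermediateField Polynomial

universe uK uF uι uk uFb

namespace MultiReduction

variable {K : Type uK} [Field K] {A : ValuationSubring K}
  {F : Type uF} [Field F] [Algebra K F] {ι : Type uι} [Fintype ι]
  {k : Type uk} [Field k] {Fb : ι → Type uFb} [∀ i, Field (Fb i)] [∀ i, Algebra k (Fb i)]
  (R : MultiReduction A F k Fb) (L : IntermediateField K F)

/-- The degree over a simple extension inside an intermediate field. -/
theorem finrank_adjoin_simple_sub {K E : Type*} [Field K] [Field E] [Algebra K E]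
    (L : IntermediateField K E) (y : L) :
    Module.finrank K⟮y⟯ L = relfinrank K⟮(y : E)⟯ L := by
  rw [← relfinrank_top_right, ← relfinrank_map_map K⟮y⟯ ⊤ L.val, adjoin_map, Set.image_singleton,
    ← AlgHom.fieldRange_eq_map, fieldRange_val]
  rfl

/-- The restricted valuation. -/
def subVal (i : ι) : ValuationSubring L :=
  (R.V i).comap L.val.toRingHom

theorem mem_subVal_iff {i : ι} {f : L} : f ∈ R.subVal L i ↔ (f : F) ∈ R.V i := Iff.rfl

theorem algebraMap_mem_subVal_iff (i : ι) (a : K) :
    algebraMap K L a ∈ R.subVal L i ↔ a ∈ A := R.mem_V_iff i a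

/-- The reduction of the restricted valuation, in the residual field upstairs. -/
def subHom (i : ι) : R.subVal L i →+* Fb i :=
  (R.φ i).comp ((L.val.toRingHom.comp (R.subVal L i).subtype).codRestrict _ fun f => f.2)

theorem subHom_apply (i : ι) (f : R.subVal L i) :
    R.subHom L i f = R.φ i ⟨((f : L) : F), f.2⟩ := rfl

theorem inv_mem_subVal {i : ι} {f : R.subVal L i} (hf : R.subHom L i f ≠ 0) :
    (f : L)⁻¹ ∈ R.subVal L i := by
  rw [mem_subVal_iff]
  exact R.inv_mem_V hf

theorem subHom_eq_zero_iff {i : ι} (f : R.subVal L i) :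
    R.subHom L i f = 0 ↔ ¬ IsUnit f := by
  refine ⟨fun h hu => ?_, fun h => ?_⟩
  · exact (hu.map (R.subHom L i)).ne_zero h
  · by_contra hne
    refine h (IsUnit.of_mul_eq_one ⟨(f : L)⁻¹, R.inv_mem_subVal L hne⟩ (Subtype.ext ?_))
    refine mul_inv_cancel₀ fun h0 : (f : L) = 0 => hne ?_
    rw [show f = 0 from Subtype.ext h0, map_zero]

theorem subHom_algebraMap (i : ι) (a : A) :
    R.subHom L i ⟨algebraMap K L a, (R.algebraMap_mem_subVal_iff L i a).2 a.2⟩ =
      algebraMap k (Fb i) (R.π a) :=
  R.φ_algebraMap i a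

/-- The image of the intermediate field in a residual field. -/
def subImage (i : ι) : IntermediateField k (Fb i) :=
  { carrier := Set.range (R.subHom L i)
    mul_mem' := by rintro _ _ ⟨a, rfl⟩ ⟨b, rfl⟩; exact ⟨a * b, map_mul _ _ _⟩
    one_mem' := ⟨1, map_one _⟩
    add_mem' := by rintro _ _ ⟨a, rfl⟩ ⟨b, rfl⟩; exact ⟨a + b, map_add _ _ _⟩
    zero_mem' := ⟨0, map_zero _⟩
    algebraMap_mem' := fun c => by
      obtain ⟨a, rfl⟩ := R.π_surjective c
      exact ⟨_, R.subHom_algebraMap L i a⟩
    inv_mem' := by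
      rintro _ ⟨f, rfl⟩
      rcases eq_or_ne (R.subHom L i f) 0 with h | h
      · exact ⟨0, by rw [h, inv_zero, map_zero]⟩
      · refine ⟨⟨_, R.inv_mem_subVal L h⟩, eq_inv_of_mul_eq_one_right ?_⟩
        rw [← map_mul, ← map_one (R.subHom L i)]
        exact congrArg _ (Subtype.ext (mul_inv_cancel₀ fun h0 : (f : L) = 0 => h (by
          rw [show f = 0 from Subtype.ext h0, map_zero]))) }

theorem mem_subImage_iff {i : ι} {z : Fb i} :
    z ∈ R.subImage L i ↔ ∃ f, R.subHom L i f = z := Iff.rfl

/-- The reduction onto the image. -/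
def subφ (i : ι) : R.subVal L i →+* R.subImage L i :=
  (R.subHom L i).codRestrict _ fun f => ⟨f, rfl⟩

theorem coe_subφ (i : ι) (f : R.subVal L i) :
    ((R.subφ L i f : R.subImage L i) : Fb i) = R.subHom L i f := rfl

theorem subφ_surjective (i : ι) : Function.Surjective (R.subφ L i) := by
  rintro ⟨_, f, rfl⟩
  exact ⟨f, rfl⟩

theorem subφ_scale (i : ι) {f : L} (hf : f ≠ 0) :
    ∃ c : K, ∃ h : c • f ∈ R.subVal L i, R.subφ L i ⟨c • f, h⟩ ≠ 0 := by
  obtain ⟨c, h, hne⟩ := R.exists_scale i (f : F) fun h => hf (Subtype.ext h)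
  exact ⟨c, h, fun h0 => hne (congrArg Subtype.val h0)⟩

variable (hx : R.x ∈ L)

/-- The coordinate in the intermediate field. -/
def subX : L := ⟨R.x, hx⟩

theorem subX_mem (i : ι) : R.subX L hx ∈ R.subVal L i := R.x_mem i

/-- The reduced coordinate in the image. -/
def subXb (i : ι) : R.subImage L i := R.subφ L i ⟨R.subX L hx, R.subX_mem L hx i⟩

theorem coe_subXb (i : ι) : ((R.subXb L hx i : R.subImage L i) : Fb i) = R.xb i := rfl

theorem transcendental_subXb (i : ι) : Transcendental k (R.subXb L hx i) := fun h =>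
  R.x_transcendental i (h.algHom (R.subImage L i).val)

theorem adjoin_xb_le (i : ι) (hx : R.x ∈ L) : k⟮R.xb i⟯ ≤ R.subImage L i :=
  adjoin_simple_le_iff.2 ⟨⟨R.subX L hx, R.subX_mem L hx i⟩, rfl⟩

theorem finrank_subImage (i : ι) :
    Module.finrank k⟮R.subXb L hx i⟯ (R.subImage L i) =
      relfinrank k⟮R.xb i⟯ (R.subImage L i) :=
  finrank_adjoin_simple_sub _ _

/-- Tower law for the image. -/
theorem finrank_subImage_mul (i : ι) :
    Module.finrank k⟮R.subXb L hx i⟯ (R.subImage L i) * Module.finrank (R.subImage L i) (Fb i) =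
      Module.finrank k⟮R.xb i⟯ (Fb i) := by
  rw [finrank_subImage]
  exact relfinrank_mul_finrank_top (R.adjoin_xb_le L i hx)

include hx in
theorem finite_subImage (i : ι) : Module.Finite (R.subImage L i) (Fb i) :=
  Module.finite_of_finrank_pos
    (Nat.pos_of_mul_pos_left ((R.finrank_subImage_mul L hx i).symm ▸ R.degree_pos i))

theorem degree_pos_subImage (i : ι) :
    0 < Module.finrank k⟮R.subXb L hx i⟯ (R.subImage L i) :=
  Nat.pos_of_mul_pos_right ((R.finrank_subImage_mul L hx i).symm ▸ R.degree_pos i)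

/-- Tower law upstairs. -/
theorem finrank_subX_mul :
    Module.finrank K⟮R.subX L hx⟯ L * Module.finrank L F = Module.finrank K⟮R.x⟯ F := by
  rw [finrank_adjoin_simple_sub]
  exact relfinrank_mul_finrank_top (adjoin_simple_le_iff.2 hx)

theorem finrank_x_pos : 0 < Module.finrank K⟮R.x⟯ F := by
  rw [R.degree_eq]
  obtain ⟨i⟩ := R.nonempty
  exact lt_of_lt_of_le (R.degree_pos i)
    (Finset.single_le_sum (f := fun i => Module.finrank k⟮R.φ i ⟨R.x, R.x_mem i⟩⟯ (Fb i))
      (fun _ _ => Nat.zero_le _) (Finset.mem_univ i))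

include hx in
theorem finite_top : Module.Finite L F :=
  Module.finite_of_finrank_pos
    (Nat.pos_of_mul_pos_left ((R.finrank_subX_mul L hx).symm ▸ R.finrank_x_pos))

theorem finite_subX : Module.Finite K⟮R.subX L hx⟯ L :=
  Module.finite_of_finrank_pos
    (Nat.pos_of_mul_pos_right ((R.finrank_subX_mul L hx).symm ▸ R.finrank_x_pos))

/-- Lifting a polynomial in the reduced coordinate, on all components at once. -/
theorem exists_aeval_lift (P : k[X]) :
    ∃ z : L, ∃ hz : ∀ i, z ∈ R.subVal L i,
      ∀ i, R.subφ L i ⟨z, hz i⟩ = aeval (R.subXb L hx i) P := by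
  induction P using Polynomial.induction_on' with
  | add p q hp hq =>
    obtain ⟨a, ha, ha'⟩ := hp
    obtain ⟨b, hb, hb'⟩ := hq
    refine ⟨a + b, fun i => add_mem (ha i) (hb i), fun i => ?_⟩
    rw [map_add, ← ha', ← hb', ← map_add]
    rfl
  | monomial n c =>
    obtain ⟨a, rfl⟩ := R.π_surjective c
    refine ⟨algebraMap K L a * R.subX L hx ^ n, fun i => mul_mem
      ((R.algebraMap_mem_subVal_iff L i a).2 a.2) (pow_mem (R.subX_mem L hx i) n), fun i => ?_⟩
    rw [aeval_monomial]
    refine Eq.trans (map_mul (R.subφ L i) ⟨_, (R.algebraMap_mem_subVal_iff L i a).2 a.2⟩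
      (⟨_, R.subX_mem L hx i⟩ ^ n)) ?_
    rw [map_pow]
    congr 1
    exact Subtype.ext (R.subHom_algebraMap L i a)

/-- The residual degree below depends only on the restricted valuation. -/
theorem finrank_subImage_le {i j : ι} (hij : R.subVal L i = R.subVal L j) :
    Module.finrank k⟮R.subXb L hx i⟯ (R.subImage L i) ≤
      Module.finrank k⟮R.subXb L hx j⟯ (R.subImage L j) := by
  classical
  haveI : Module.Finite k⟮R.subXb L hx i⟯ (R.subImage L i) :=
    Module.finite_of_finrank_pos (R.degree_pos_subImage L hx i)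
  haveI : Module.Finite k⟮R.subXb L hx j⟯ (R.subImage L j) :=
    Module.finite_of_finrank_pos (R.degree_pos_subImage L hx j)
  set b := Module.finBasis k⟮R.subXb L hx i⟯ (R.subImage L i)
  choose f hf using fun l => R.subφ_surjective L i (b l)
  have hfj : ∀ l, ((f l : R.subVal L i) : L) ∈ R.subVal L j := fun l => hij ▸ (f l).2
  have hli : LinearIndependent k⟮R.subXb L hx j⟯ fun l => R.subφ L j ⟨_, hfj l⟩ := by
    refine Carayol.linearIndependent_adjoin_simple_of_poly _ _ fun P hP => ?_
    choose z hz hzP using fun l => R.exists_aeval_lift L hx (P l)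
    have hsi : ∑ l, z l * (f l : L) ∈ R.subVal L i :=
      sum_mem fun l _ => mul_mem (hz l i) (f l).2
    have hsj : ∑ l, z l * (f l : L) ∈ R.subVal L j := hij ▸ hsi
    have ej : R.subφ L j ⟨_, hsj⟩ = 0 := by
      rw [← hP, show (⟨_, hsj⟩ : R.subVal L j) =
          ∑ l, ⟨z l, hz l j⟩ * ⟨(f l : L), hfj l⟩ from Subtype.ext (by simp), map_sum]
      exact Finset.sum_congr rfl fun l _ => by rw [map_mul, hzP, IntermediateField.smul_def, smul_eq_mul]
    have hnu : ¬ IsUnit (⟨_, hsj⟩ : R.subVal L j) :=
      (R.subHom_eq_zero_iff L _).1 (congrArg Subtype.val ej)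
    have hnui : ¬ IsUnit (⟨_, hsi⟩ : R.subVal L i) := by
      intro hu
      apply hnu
      obtain ⟨⟨w, hw⟩, h1⟩ := hu.exists_right_inv
      exact IsUnit.of_mul_eq_one ⟨w, hij ▸ hw⟩ (Subtype.ext (Subtype.ext_iff.1 h1 :))
    have ei : R.subφ L i ⟨_, hsi⟩ = 0 :=
      Subtype.ext ((R.subHom_eq_zero_iff L _).2 hnui)
    rw [show (⟨_, hsi⟩ : R.subVal L i) = ∑ l, ⟨z l, hz l i⟩ * f l from Subtype.ext (by simp),
      map_sum] at ei
    simp only [map_mul, hzP, hf] at ei
    funext l
    have h0 := Fintype.linearIndependent_iff.1 b.linearIndependent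
      (fun l => ⟨aeval (R.subXb L hx i) (P l),
        algebra_adjoin_le_adjoin _ _ (aeval_mem_adjoin_singleton _ _)⟩)
      (by simpa [IntermediateField.smul_def] using ei) l
    by_contra h3
    exact R.transcendental_subXb L hx i ⟨_, h3, congrArg Subtype.val h0⟩
  simpa using hli.fintype_card_le_finrank

include hx in
/-- The residual degrees above one restricted valuation add up to at most the degree. -/
theorem sum_finrank_top_le (W : ValuationSubring L) [DecidableEq (ValuationSubring L)] :
    ∑ i ∈ Finset.univ.filter (fun i => R.subVal L i = W),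
        Module.finrank (R.subImage L i) (Fb i) ≤ Module.finrank L F := by
  classical
  haveI := R.finite_top L hx
  haveI : ∀ i, Module.Finite (R.subImage L i) (Fb i) := R.finite_subImage L hx
  let σ := Σ i : {i // R.subVal L i = W}, Fin (Module.finrank (R.subImage L i.1) (Fb i.1))
  choose u hu hu' using fun s : σ => R.exists_lift
    (Pi.single s.1.1 (Module.finBasis (R.subImage L s.1.1) (Fb s.1.1) s.2))
  have hli : LinearIndependent L u := by
    rw [Fintype.linearIndependent_iff]
    intro g hg
    by_contra hne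
    push Not at hne
    obtain ⟨s₀, hs₀⟩ := hne
    haveI : Nonempty σ := ⟨s₀⟩
    obtain ⟨m, -, hmax⟩ := Finset.univ.exists_max_image (fun s => W.valuation (g s))
      ⟨s₀, Finset.mem_univ _⟩
    have hm : g m ≠ 0 := by
      intro h0
      have := hmax s₀ (Finset.mem_univ _)
      rw [h0, map_zero, le_zero_iff, map_eq_zero] at this
      exact hs₀ this
    have hc : ∀ s, (g m)⁻¹ * g s ∈ W := by
      intro s
      rw [← W.valuation_le_one_iff, map_mul, map_inv₀,
        inv_mul_le_one₀ (zero_lt_iff.2 ((_root_.map_ne_zero _).2 hm))]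
      exact hmax s (Finset.mem_univ _)
    obtain ⟨⟨i, hi⟩, l₀⟩ := m
    have hci : ∀ s, (((g ⟨⟨i, hi⟩, l₀⟩)⁻¹ * g s : L) : F) ∈ R.V i := fun s => by
      rw [← mem_subVal_iff, hi]; exact hc s
    set c : σ → R.subImage L i := fun s => R.subφ L i ⟨(g ⟨⟨i, hi⟩, l₀⟩)⁻¹ * g s, hci s⟩
    have hsum : ∑ s, (((g ⟨⟨i, hi⟩, l₀⟩)⁻¹ * g s : L) : F) * u s = 0 := by
      have : ∑ s, (g s : F) * u s = 0 := hg
      simp only [MulMemClass.coe_mul, mul_assoc, ← Finset.mul_sum, this, mul_zero]
    have e : ∑ s, (c s : Fb i) * R.φ i ⟨u s, hu s i⟩ = 0 := by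
      rw [← map_zero (R.φ i)]
      simp only [c, coe_subφ, subHom_apply, ← map_mul]
      rw [← map_sum]
      exact congrArg _ (Subtype.ext (by simpa using hsum))
    rw [Fintype.sum_sigma, Finset.sum_eq_single ⟨i, hi⟩] at e
    · simp only [hu', Pi.single_eq_same] at e
      have h0 := Fintype.linearIndependent_iff.1
        (Module.finBasis (R.subImage L i) (Fb i)).linearIndependent
        (fun l => c ⟨⟨i, hi⟩, l⟩) (by simpa [IntermediateField.smul_def] using e) l₀
      have h1 : c ⟨⟨i, hi⟩, l₀⟩ = 1 := by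
        rw [← map_one (R.subφ L i)]
        refine congrArg (R.subφ L i) (Subtype.ext ?_)
        exact inv_mul_cancel₀ hm
      rw [h1] at h0
      exact one_ne_zero h0
    · intro j _ hj
      refine Finset.sum_eq_zero fun l _ => ?_
      rw [hu', Pi.single_eq_of_ne (fun h => hj (Subtype.ext h.symm)), mul_zero]
    · exact fun h => (h (Finset.mem_univ _)).elim
  have := hli.fintype_card_le_finrank
  rw [Fintype.card_sigma] at this
  refine le_trans (le_of_eq ?_) this
  rw [← Finset.sum_subtype_eq_sum_filter]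
  simp

/-- The index set of the components below: the distinct restricted valuations. -/
abbrev SubIdx : Type uF := ↥(Set.range (R.subVal L))

instance fintype_subIdx : Fintype (R.SubIdx L) :=
  (Set.finite_range (R.subVal L)).fintype

/-- A component above. -/
def subRep (W : R.SubIdx L) : ι := W.2.choose

theorem subVal_subRep (W : R.SubIdx L) : R.subVal L (R.subRep L W) = W.1 := W.2.choose_spec

theorem subVal_subRep_mk (i : ι) :
    R.subVal L (R.subRep L ⟨R.subVal L i, i, rfl⟩) = R.subVal L i := R.subVal_subRep L _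

variable [IsAlgClosed K]

theorem exists_subLift (h : ∀ W : R.SubIdx L, R.subImage L (R.subRep L W)) :
    ∃ f : L, ∃ hf : ∀ W : R.SubIdx L, f ∈ R.subVal L (R.subRep L W),
      ∀ W, R.subφ L (R.subRep L W) ⟨f, hf W⟩ = h W :=
  exists_lift_of_distinct R.π R.π_surjective (fun W => R.subVal L (R.subRep L W))
    (fun W a => R.algebraMap_mem_subVal_iff L _ a) (fun W => R.subφ L (R.subRep L W))
    (fun W => R.subφ_surjective L _) (fun W f hf => R.subφ_scale L _ hf)
    (fun W W' hne e => hne (Subtype.ext (by
      rw [← R.subVal_subRep L W, ← R.subVal_subRep L W']; exact e))) h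

/-- Residual bases below lift to a family independent over `K(x)`. -/
theorem sum_subImage_le :
    ∑ W : R.SubIdx L, Module.finrank k⟮R.subXb L hx (R.subRep L W)⟯
        (R.subImage L (R.subRep L W)) ≤ Module.finrank K⟮R.subX L hx⟯ L := by
  classical
  haveI := R.finite_subX L hx
  haveI : ∀ W : R.SubIdx L, Module.Finite k⟮R.subXb L hx (R.subRep L W)⟯
      (R.subImage L (R.subRep L W)) := fun W =>
    Module.finite_of_finrank_pos (R.degree_pos_subImage L hx _)
  let σ := Σ W : R.SubIdx L,
    Fin (Module.finrank k⟮R.subXb L hx (R.subRep L W)⟯ (R.subImage L (R.subRep L W)))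
  choose u hu hu' using fun s : σ => R.exists_subLift L
    (Pi.single s.1 (Module.finBasis k⟮R.subXb L hx (R.subRep L s.1)⟯
      (R.subImage L (R.subRep L s.1)) s.2))
  have hli : LinearIndependent K⟮R.subX L hx⟯ u := by
    refine Carayol.linearIndependent_adjoin_simple_of_poly _ _ fun P hP => ?_
    by_contra hne
    obtain ⟨c, Q, -, hQ, ⟨W₀, l₀⟩, hj⟩ :=
      Curve.ModelAux.exists_scale_family (A := A) R.π hne
    have hQmem : ∀ (s : σ) (i : ι), ∃ h : aeval (R.subX L hx) ((Q s).map A.subtype) ∈ R.subVal L i,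
        R.subφ L i ⟨_, h⟩ = aeval (R.subXb L hx i) ((Q s).map R.π) := fun s i => by
      obtain ⟨h, e⟩ := Carayol.map_aeval_eq (A := A) (ι := Unit) R.π (fun _ => R.subVal L i)
        (fun _ => R.subφ L i) (fun _ a => (R.algebraMap_mem_subVal_iff L i a).2 a.2)
        (fun _ a => Subtype.ext (R.subHom_algebraMap L i a)) () (R.subX_mem L hx i) (Q s)
      exact ⟨h, e⟩
    choose hm he using fun s => hQmem s (R.subRep L W₀)
    have e : ∑ s, R.subφ L (R.subRep L W₀) ⟨_, hm s⟩ *
        R.subφ L (R.subRep L W₀) ⟨u s, hu s W₀⟩ = 0 := by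
      simp only [← map_mul]
      rw [← map_sum, ← map_zero (R.subφ L (R.subRep L W₀))]
      congr 1
      apply Subtype.ext
      simp only [AddSubmonoidClass.coe_finsetSum, MulMemClass.coe_mul, ZeroMemClass.coe_zero, hQ,
        map_mul, Polynomial.aeval_C, mul_assoc, ← Finset.mul_sum]
      have : ∑ s, aeval (R.subX L hx) (P s) * u s = 0 := hP
      rw [this, mul_zero]
    rw [Fintype.sum_sigma, Finset.sum_eq_single W₀] at e
    · simp only [hu', Pi.single_eq_same, he] at e
      have h0 := Fintype.linearIndependent_iff.1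
        (Module.finBasis k⟮R.subXb L hx (R.subRep L W₀)⟯
          (R.subImage L (R.subRep L W₀))).linearIndependent
        (fun l => ⟨aeval (R.subXb L hx (R.subRep L W₀)) ((Q ⟨W₀, l⟩).map R.π),
          algebra_adjoin_le_adjoin _ _ (aeval_mem_adjoin_singleton _ _)⟩)
        (by simpa [IntermediateField.smul_def] using e) l₀
      exact R.transcendental_subXb L hx _ ⟨_, hj, congrArg Subtype.val h0⟩
    · intro W' _ hW
      refine Finset.sum_eq_zero fun l _ => ?_
      rw [hu', Pi.single_eq_of_ne (Ne.symm hW), mul_zero]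
    · exact fun h => (h (Finset.mem_univ _)).elim
  have := hli.fintype_card_le_finrank
  simpa [σ] using this

/-- No degree is lost below. -/
theorem sum_subImage_eq :
    ∑ W : R.SubIdx L, Module.finrank k⟮R.subXb L hx (R.subRep L W)⟯
        (R.subImage L (R.subRep L W)) = Module.finrank K⟮R.subX L hx⟯ L := by
  classical
  refine le_antisymm (R.sum_subImage_le L hx) (Nat.le_of_mul_le_mul_right ?_
    (Nat.pos_of_mul_pos_left ((R.finrank_subX_mul L hx).symm ▸ R.finrank_x_pos)))
  rw [R.finrank_subX_mul L hx, R.degree_eq, Finset.sum_mul,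
    ← Finset.sum_fiberwise Finset.univ (fun i => (⟨R.subVal L i, i, rfl⟩ : R.SubIdx L))]
  refine Finset.sum_le_sum fun W _ => ?_
  calc _ ≤ ∑ i ∈ Finset.univ.filter (fun i => (⟨R.subVal L i, i, rfl⟩ : R.SubIdx L) = W),
          Module.finrank k⟮R.subXb L hx (R.subRep L W)⟯ (R.subImage L (R.subRep L W)) *
            Module.finrank (R.subImage L i) (Fb i) := Finset.sum_le_sum fun i hi => ?_
    _ ≤ _ := by
      rw [← Finset.mul_sum]
      refine Nat.mul_le_mul_left _ (le_trans (le_of_eq ?_) (R.sum_finrank_top_le L hx W.1))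
      refine Finset.sum_congr (Finset.filter_congr fun i _ => ?_) fun _ _ => rfl
      exact Subtype.ext_iff
  have hW : R.subVal L i = R.subVal L (R.subRep L W) := by
    rw [R.subVal_subRep, ← (Finset.mem_filter.1 hi).2]
  refine le_trans (le_of_eq (R.finrank_subImage_mul L hx i).symm) ?_
  exact Nat.mul_le_mul_right _ (R.finrank_subImage_le L hx hW)

/-- The reduction of the intermediate field: one component for every restricted valuation. -/
def restrict : MultiReduction A L k (fun W : R.SubIdx L => R.subImage L (R.subRep L W)) where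
  π := R.π
  π_surjective := R.π_surjective
  V W := R.subVal L (R.subRep L W)
  mem_V_iff W a := R.algebraMap_mem_subVal_iff L _ a
  φ W := R.subφ L (R.subRep L W)
  φ_algebraMap W a := Subtype.ext (R.subHom_algebraMap L _ a)
  exists_lift := R.exists_subLift L
  exists_scale W _ hf := R.subφ_scale L _ hf
  x := R.subX L hx
  x_mem W := R.subX_mem L hx _
  x_transcendental W := R.transcendental_subXb L hx _
  degree_eq := (R.sum_subImage_eq L hx).symm
  degree_pos W := R.degree_pos_subImage L hx _
  nonempty := by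
    obtain ⟨i⟩ := R.nonempty
    exact ⟨⟨_, i, rfl⟩⟩

theorem restrict_V (W : R.SubIdx L) : (R.restrict L hx).V W = W.1 := R.subVal_subRep L W

end MultiReduction

end Fermat.Agent.Bad

end
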