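/-
The functions fixed by the decomposition group as a cover of `X₀(qM)`: the reduction restricted to
them and the identification of two of its components with those of `X₀(qM)`.
-/
import Fermat.Agent.Carayol.LTwoCompInstTorFix
import Fermat.Agent.Carayol.LTwoCompRestrict

set_option autoImplicit false
set_option linter.style.haveILetI false
set_option maxHeartbeats 800000
set_option synthInstance.maxHeartbeats 400000

noncomputable section

open scoped MatrixGroups

namespace Fermat.Agent.Carayol.LTwoComp.InstTor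

open AlgebraicCurve ModularCurve Cuspidal IsLocalRing IntermediateField BadReduction Bad

variable {q : ℕ} [Fact q.Prime] {M : ℕ} [NeZero M] (A : ValuationSubring Qb) (hqM : ¬ q ∣ M)

/-- Two translates cutting out the same valuation of an intermediate field identify the same
residues there. -/
theorem compRed_eq_iff_of_forall {L : IntermediateField Qb (XField q M)}
    {g h : XField q M ≃ₐ[Qb] XField q M} (e : ∀ x ∈ L, x ∈ compVal A g ↔ x ∈ compVal A h)
    {x y : XField q M} (hxL : x ∈ L) (hyL : y ∈ L) (hx : x ∈ compVal A g) (hy : y ∈ compVal A g)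
    (hx' : x ∈ compVal A h) (hy' : y ∈ compVal A h) :
    compRed A g ⟨x, hx⟩ = compRed A g ⟨y, hy⟩ ↔ compRed A h ⟨x, hx'⟩ = compRed A h ⟨y, hy'⟩ := by
  have hg : (⟨x - y, sub_mem hx hy⟩ : compVal A g) = ⟨x, hx⟩ - ⟨y, hy⟩ := rfl
  have hh : (⟨x - y, sub_mem hx' hy'⟩ : compVal A h) = ⟨x, hx'⟩ - ⟨y, hy'⟩ := rfl
  have h1 := compRed_eq_zero_iff A g (sub_mem hx hy)
  have h2 := compRed_eq_zero_iff A h (sub_mem hx' hy')
  rw [hg, map_sub, sub_eq_zero] at h1
  rw [hh, map_sub, sub_eq_zero] at h2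
  rw [h1, h2, e _ (inv_mem (sub_mem hxL hyL))]

variable (hA : A.LiesOverPrime q)

include hA in
/-- Residues of fixed functions on the two sheets come from `X₀(qM)`. -/
theorem exists_compRed_covB_eq (i : Fin 2) {f : XField q M} (hf : f ∈ decFix A hqM)
    (h : f ∈ compVal A (sheet hqM i)) :
    ∃ x : compV hqM A i,
      compRed A (sheet hqM i) ⟨covB q M x, (covB_mem_compVal_iff hqM A i x).2 x.2⟩ =
        compRed A (sheet hqM i) ⟨f, h⟩ := by
  match i with
  | 0 =>
    have e0 : sheet hqM 0 f = f := by rw [sheet_zero, AlgEquiv.one_apply]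
    have h0 : f ∈ infVal q M A := e0 ▸ (mem_compVal_iff A).1 h
    obtain ⟨z, hz⟩ := exists_residue_zero A hqM hA hf h0
    obtain ⟨x, hx, hxe⟩ := exists_lift_compPhi hqM A hA fun _ => z
    refine ⟨⟨x, hx 0⟩, Subtype.ext ?_⟩
    refine (compRed_covB_zero hqM A hA ⟨x, hx 0⟩ _).trans ?_
    rw [hxe 0, hz]
    exact (infRed_congr A e0 ((mem_compVal_iff A).1 h) h0).symm.trans
      (coe_compRed A _ f h ((mem_compVal_iff A).1 h)).symm
  | 1 =>
    obtain ⟨z, hz⟩ := exists_residue_one A hqM hA hf (show autHom hqM weyl f ∈ infVal q M A from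
      (mem_compVal_iff A).1 h)
    obtain ⟨x, hx, hxe⟩ := exists_lift_compPhi hqM A hA fun _ => z
    refine ⟨⟨x, hx 1⟩, Subtype.ext ?_⟩
    refine (compRed_covB_one hqM A hA ⟨x, hx 1⟩ _).trans ?_
    rw [hxe 1, hz]
    exact (coe_compRed A _ f h ((mem_compVal_iff A).1 h)).symm

/-- The cover. -/
def decCov : X0F M q →ₐ[Qb] decFix A hqM :=
  (covB q M).codRestrict (decFix A hqM).toSubalgebra fun x =>
    pointField_le_decFix A hqM hA (fieldRange_covB (q := q) (M := M) ▸ ⟨x, rfl⟩)

theorem coe_decCov (x : X0F M q) :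
    ((decCov A hqM hA x : decFix A hqM) : XField q M) = covB q M x := rfl

theorem exists_decCov_of_fixed {f : decFix A hqM}
    (h : ∀ a : (ZMod q)ˣ, autHom hqM (tor a) (f : XField q M) = f) :
    ∃ x, decCov A hqM hA x = f := by
  obtain ⟨x, hx⟩ := exists_covB_of_fixed hqM (y := (f : XField q M)) fun g hg => by
    obtain ⟨⟨a, β⟩, rfl⟩ := exists_bor_eq hg
    rw [bor, map_mul, AlgEquiv.mul_apply, ((mem_decFix_iff A hqM hA).1 f.2).1, h]
  exact ⟨x, Subtype.ext hx⟩

/-- The reduction restricted to the fixed functions. -/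
def decRed :=
  (xReduction A hqM hA).restrict (decFix A hqM) (jElt_mem_decFix A hqM hA)

/-- A sheet as a component upstairs. -/
def sheetComp (i : Fin 2) : compSet A hqM :=
  ⟨compVal A (sheet hqM i), by
    obtain ⟨γ, hγ⟩ := sheet_mem_autGroup (M := M) hqM i
    exact ⟨γ, congrArg (compVal A) hγ⟩⟩

/-- The component of the fixed functions under a sheet. -/
def decSel (i : Fin 2) : (xReduction A hqM hA).SubIdx (decFix A hqM) :=
  ⟨_, sheetComp A hqM i, rfl⟩

/-- The translate chosen for a component of the fixed functions. -/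
def decAut (W : (xReduction A hqM hA).SubIdx (decFix A hqM)) :
    XField q M ≃ₐ[Qb] XField q M :=
  sigma hqM (compRep A hqM ((xReduction A hqM hA).subRep (decFix A hqM) W))

theorem mem_decAut_iff (i : Fin 2) {x : XField q M} (hx : x ∈ decFix A hqM) :
    x ∈ compVal A (decAut A hqM hA (decSel A hqM hA i)) ↔ x ∈ compVal A (sheet hqM i) := by
  have h := SetLike.ext_iff.1
    ((xReduction A hqM hA).subVal_subRep_mk (decFix A hqM) (sheetComp A hqM i)) ⟨x, hx⟩
  refine h.trans ?_
  show x ∈ compVal A (sigma hqM (compRep A hqM (sheetComp A hqM i))) ↔ _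
  rw [compVal_compRep]
  rfl

theorem mem_decRed_iff (i : Fin 2) {f : decFix A hqM} :
    f ∈ (decRed A hqM hA).V (decSel A hqM hA i) ↔
      (f : XField q M) ∈ compVal A (sheet hqM i) :=
  mem_decAut_iff A hqM hA i f.2

/-- Equality of residues may be tested on the sheets. -/
theorem decRed_eq_of_sheet (i : Fin 2) {f g : decFix A hqM}
    (hf : f ∈ (decRed A hqM hA).V (decSel A hqM hA i))
    (hg : g ∈ (decRed A hqM hA).V (decSel A hqM hA i))
    (e : compRed A (sheet hqM i) ⟨(f : XField q M), (mem_decRed_iff A hqM hA i).1 hf⟩ =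
      compRed A (sheet hqM i) ⟨(g : XField q M), (mem_decRed_iff A hqM hA i).1 hg⟩) :
    (decRed A hqM hA).φ (decSel A hqM hA i) ⟨f, hf⟩ =
      (decRed A hqM hA).φ (decSel A hqM hA i) ⟨g, hg⟩ :=
  Subtype.ext ((compRed_eq_iff_of_forall A (fun _ hx => mem_decAut_iff A hqM hA i hx)
    f.2 g.2 hf hg _ _).2 e)

/-- A residue vanishing on a component of the fixed functions vanishes on the sheet. -/
theorem sheet_eq_zero_of_decRed (i : Fin 2) {f : decFix A hqM}
    (hf : f ∈ (decRed A hqM hA).V (decSel A hqM hA i))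
    (e : (decRed A hqM hA).φ (decSel A hqM hA i) ⟨f, hf⟩ = 0) :
    compRed A (sheet hqM i) ⟨(f : XField q M), (mem_decRed_iff A hqM hA i).1 hf⟩ = 0 := by
  have h1 : compRed A (decAut A hqM hA (decSel A hqM hA i)) ⟨(f : XField q M), hf⟩ =
      compRed A (decAut A hqM hA (decSel A hqM hA i)) ⟨0, zero_mem _⟩ :=
    (congrArg Subtype.val e).trans (map_zero _).symm
  have h2 := (compRed_eq_iff_of_forall A (fun _ hx => mem_decAut_iff A hqM hA i hx)
    f.2 (zero_mem _) hf (zero_mem _) ((mem_decRed_iff A hqM hA i).1 hf) (zero_mem _)).1 h1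
  exact h2.trans (map_zero _)

theorem mem_infVal_of_eq {x x' : XField q M} (e : x = x') (h : x ∈ infVal q M A) :
    x' ∈ infVal q M A := e ▸ h

theorem mem_decRed_zero_iff {f : decFix A hqM} :
    f ∈ (decRed A hqM hA).V (decSel A hqM hA 0) ↔ (f : XField q M) ∈ infVal q M A := by
  rw [mem_decRed_iff, mem_compVal_iff, sheet_zero, AlgEquiv.one_apply]

theorem mem_decRed_one_iff {f : decFix A hqM} :
    f ∈ (decRed A hqM hA).V (decSel A hqM hA 1) ↔
      autHom hqM weyl (f : XField q M) ∈ infVal q M A := by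
  rw [mem_decRed_iff, mem_compVal_iff, sheet_one]

/-- Residues on the component of infinity are compared by their series. -/
theorem decRed_zero_eq {f g : decFix A hqM}
    (hf : f ∈ (decRed A hqM hA).V (decSel A hqM hA 0))
    (hg : g ∈ (decRed A hqM hA).V (decSel A hqM hA 0))
    (e : infRed q M A ⟨_, (mem_decRed_zero_iff A hqM hA).1 hf⟩ =
      infRed q M A ⟨_, (mem_decRed_zero_iff A hqM hA).1 hg⟩) :
    (decRed A hqM hA).φ (decSel A hqM hA 0) ⟨f, hf⟩ =
      (decRed A hqM hA).φ (decSel A hqM hA 0) ⟨g, hg⟩ := by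
  refine decRed_eq_of_sheet A hqM hA 0 hf hg (Subtype.ext ?_)
  have e1 : ∀ x : XField q M, sheet hqM 0 x = x := fun x => by
    rw [sheet_zero, AlgEquiv.one_apply]
  have h1 := (mem_decRed_iff A hqM hA 0).1 hf
  have h2 := (mem_decRed_iff A hqM hA 0).1 hg
  refine (coe_compRed A _ _ h1 ((mem_compVal_iff A).1 h1)).trans ?_
  refine Eq.trans ?_ (coe_compRed A _ _ h2 ((mem_compVal_iff A).1 h2)).symm
  exact ((infRed_congr A (e1 _) _ _).trans e).trans (infRed_congr A (e1 _) _ _).symm

/-- Residues on the other component are compared by their series. -/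
theorem decRed_one_eq {f g : decFix A hqM}
    (hf : f ∈ (decRed A hqM hA).V (decSel A hqM hA 1))
    (hg : g ∈ (decRed A hqM hA).V (decSel A hqM hA 1))
    (e : infRed q M A ⟨_, (mem_decRed_one_iff A hqM hA).1 hf⟩ =
      infRed q M A ⟨_, (mem_decRed_one_iff A hqM hA).1 hg⟩) :
    (decRed A hqM hA).φ (decSel A hqM hA 1) ⟨f, hf⟩ =
      (decRed A hqM hA).φ (decSel A hqM hA 1) ⟨g, hg⟩ := by
  refine decRed_eq_of_sheet A hqM hA 1 hf hg (Subtype.ext ?_)
  have e1 : ∀ x : XField q M, sheet hqM 1 x = autHom hqM weyl x := fun x => by rw [sheet_one]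
  have h1 := (mem_decRed_iff A hqM hA 1).1 hf
  have h2 := (mem_decRed_iff A hqM hA 1).1 hg
  refine (coe_compRed A _ _ h1 ((mem_compVal_iff A).1 h1)).trans ?_
  refine Eq.trans ?_ (coe_compRed A _ _ h2 ((mem_compVal_iff A).1 h2)).symm
  exact ((infRed_congr A (e1 _) _ _).trans e).trans (infRed_congr A (e1 _) _ _).symm

theorem infRed_zero_of_decRed_zero {f : decFix A hqM}
    (hf : f ∈ (decRed A hqM hA).V (decSel A hqM hA 0))
    (e : (decRed A hqM hA).φ (decSel A hqM hA 0) ⟨f, hf⟩ = 0) :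
    ∃ h : (f : XField q M) ∈ infVal q M A, infRed q M A ⟨_, h⟩ = 0 := by
  refine ⟨(mem_decRed_zero_iff A hqM hA).1 hf, ?_⟩
  have h1 := (mem_decRed_iff A hqM hA 0).1 hf
  have h := congrArg Subtype.val (sheet_eq_zero_of_decRed A hqM hA 0 hf e)
  rw [coe_compRed A _ _ h1 ((mem_compVal_iff A).1 h1)] at h
  exact (infRed_congr A (show sheet hqM 0 (f : XField q M) = f by
    rw [sheet_zero, AlgEquiv.one_apply]) _ _).symm.trans h

theorem infRed_zero_of_decRed_one {f : decFix A hqM}
    (hf : f ∈ (decRed A hqM hA).V (decSel A hqM hA 1))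
    (e : (decRed A hqM hA).φ (decSel A hqM hA 1) ⟨f, hf⟩ = 0) :
    ∃ h : autHom hqM weyl (f : XField q M) ∈ infVal q M A, infRed q M A ⟨_, h⟩ = 0 := by
  refine ⟨(mem_decRed_one_iff A hqM hA).1 hf, ?_⟩
  have h1 := (mem_decRed_iff A hqM hA 1).1 hf
  have h := congrArg Subtype.val (sheet_eq_zero_of_decRed A hqM hA 1 hf e)
  rw [coe_compRed A _ _ h1 ((mem_compVal_iff A).1 h1)] at h
  exact (infRed_congr A (show sheet hqM 1 (f : XField q M) = autHom hqM weyl (f : XField q M) by
    rw [sheet_one]) _ _).symm.trans h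

theorem decRed_red_apply_eq_zero (y : (decRed A hqM hA).integers)
    (W : (xReduction A hqM hA).SubIdx (decFix A hqM))
    (h0 : ∀ g : SL(2, ZMod q), ∃ h : autHom hqM g ((y : decFix A hqM) : XField q M) ∈ infVal q M A,
      infRed q M A ⟨_, h⟩ = 0) : (decRed A hqM hA).red y W = 0 := by
  obtain ⟨h, he⟩ := h0
    (red ((compRep A hqM ((xReduction A hqM hA).subRep (decFix A hqM) W)) : SL(2, ℤ)))
  have hy : ((y : decFix A hqM) : XField q M) ∈ compVal A (decAut A hqM hA W) :=
    (decRed A hqM hA).mem_integers.1 y.2 W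
  refine Subtype.ext (Subtype.ext ?_)
  refine (coe_compRed A (decAut A hqM hA W) _ hy ((mem_compVal_iff A).1 hy)).trans ?_
  refine (infRed_congr A ?_ _ h).trans (he.trans ?_)
  · rw [autHom_red]; rfl
  · rfl

theorem decCov_mem_iff (i : Fin 2) (x : X0F M q) :
    decCov A hqM hA x ∈ (decRed A hqM hA).V (decSel A hqM hA i) ↔ x ∈ compV hqM A i :=
  (mem_decRed_iff A hqM hA i).trans (covB_mem_compVal_iff hqM A i x)

/-- The residual maps of the cover, which lose nothing. -/
theorem exists_decEmb (i : Fin 2) :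
    ∃ e : X0Res M A →ₐ[ResidueField A]
        (xReduction A hqM hA).subImage (decFix A hqM)
          ((xReduction A hqM hA).subRep (decFix A hqM) (decSel A hqM hA i)),
      Function.Surjective e ∧ ∀ x : compV hqM A i,
        (decRed A hqM hA).φ (decSel A hqM hA i) ⟨decCov A hqM hA x,
          (decCov_mem_iff A hqM hA i x).2 x.2⟩ = e (compPhi hqM A hA i x) := by
  obtain ⟨e, he⟩ := exists_factor (residue A) residue_surjective (compV hqM A i)
    (compPhi hqM A hA i)
    (fun z => let ⟨f, hf, h⟩ := exists_lift_compPhi hqM A hA fun _ => z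
      ⟨⟨f, hf i⟩, h i⟩)
    ((decRed A hqM hA).V (decSel A hqM hA i)) ((decRed A hqM hA).φ (decSel A hqM hA i))
    (fun f hf => (decRed A hqM hA).inv_mem_V hf)
    (decCov A hqM hA) (decCov_mem_iff A hqM hA i)
    (fun a => (algebraMap_mem_compV_iff hqM A i a).2 a.2)
    (fun a => compPhi_algebraMap hqM A hA i a)
    (fun a h => (decRed A hqM hA).φ_algebraMap (decSel A hqM hA i) a)
  refine ⟨e, fun z => ?_, fun x => (he x).symm⟩
  obtain ⟨f, hf⟩ := (xReduction A hqM hA).subφ_surjective (decFix A hqM) _ z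
  have hf' := (mem_decRed_iff A hqM hA i).1 f.2
  obtain ⟨x, hx⟩ := exists_compRed_covB_eq A hqM hA i f.1.2 hf'
  refine ⟨compPhi hqM A hA i x, (he x).trans (Eq.trans ?_ hf)⟩
  exact decRed_eq_of_sheet A hqM hA i _ f.2 hx

end Fermat.Agent.Carayol.LTwoComp.InstTor

end
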