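/-
The torus fixes the component at infinity of `X(q; M)`: equivalently the quotient by the unipotent
group has exactly two components. Otherwise the functions fixed by the decomposition group would
form a cover of `X₀(qM)` split on both components, rotated by inertia on one of them only.
-/
import Fermat.Agent.Carayol.LTwoCompInstTorCover
import Fermat.Agent.Carayol.CuspidalInertia
import Fermat.Agent.BadReduction.X0FrobeniusAction
import Fermat.Agent.DeligneSerre.GroupPlaces
import Fermat.Agent.Mazur.LocalRank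
import Fermat.Agent.Datum.Roots

set_option autoImplicit false
set_option linter.style.haveILetI false
set_option maxHeartbeats 1600000
set_option synthInstance.maxHeartbeats 400000

noncomputable section

open scoped MatrixGroups

namespace Fermat.Agent.Carayol.LTwoComp

open AlgebraicCurve ModularCurve Cuspidal IsLocalRing IntermediateField BadReduction Bad InstTor

attribute [-simp] ZMod.inv_coe_unit
attribute [local simp] Units.val_inv_eq_inv_val

variable {q : ℕ} [Fact q.Prime] {M : ℕ} [NeZero M]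

namespace InstTor

theorem pow_apply_eigen {K F : Type*} [Field K] [Field F] [Algebra K F] (T : F ≃ₐ[K] F) {z : K}
    {y : F} (h : T y = z • y) : ∀ j : ℕ, (T ^ j) y = z ^ j • y
  | 0 => by simp
  | j + 1 => by
    rw [pow_succ', AlgEquiv.mul_apply, pow_apply_eigen T h j, Algebra.smul_def, map_mul,
      AlgEquiv.commutes, ← Algebra.smul_def, h, smul_smul, ← pow_succ]

theorem residue_ne_one_of_isPrimitiveRoot {A : ValuationSubring Qb} {m : ℕ}
    [CharP (ResidueField A) q] (hm : ¬ q ∣ m) (z : A) (hz : (z : Qb) ^ m = 1)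
    (hz1 : (z : Qb) ≠ 1) : residue A z ≠ 1 := by
  intro h
  have hzA : z ^ m = 1 := Subtype.ext (by simpa using hz)
  have h0 : (∑ i ∈ Finset.range m, z ^ i) * (z - 1) = 0 := by rw [geom_sum_mul, hzA, sub_self]
  have h1 : ∑ i ∈ Finset.range m, z ^ i = 0 :=
    (mul_eq_zero.1 h0).resolve_right fun h2 => hz1 (congrArg Subtype.val (sub_eq_zero.1 h2))
  have h3 := congrArg (residue A) h1
  simp [h] at h3
  exact hm ((CharP.cast_eq_zero_iff _ q m).1 h3)

theorem galois_mem_polarSp (A : ValuationSubring Qb) (hqM : ¬ q ∣ M) (hA : A.LiesOverPrime q)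
    (σ : Qb ≃ₐ[ℚ] Qb) {N : ℕ} {g : X0F M q} (hg : g ∈ (x0Reduction hqM A hA).polarSp N) :
    arithmeticGalois (modularFunctionFieldFull (M * q)) σ • g ∈
      (x0Reduction hqM A hA).polarSp N := by
  set G := arithmeticGalois (L := Qb) (modularFunctionFieldFull (M * q)) σ with hG
  rcases eq_or_ne g 0 with rfl | h0
  · rw [smul_zero]; exact zero_mem _
  have h0' : G • g ≠ 0 := fun h => h0 ((smul_eq_zero_iff_eq G).1 h)
  refine (Curve.RedAux.mem_L_iff h0').2 fun v => ?_
  have hord : ∀ f : X0F M q, v.ord (G • f) = (G⁻¹ • v).ord f := fun f => by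
    conv_lhs => rw [← smul_inv_smul G v]
    exact SemilinearAut.ord_smul _ _ f
  have h := (Curve.RedAux.mem_L_iff h0).1 hg (G⁻¹ • v)
  have hx : v.ord (x0Fun (q := q) hqM) = (G⁻¹ • v).ord (x0Fun (q := q) hqM) := by
    rw [← hord, hG, galois_smul_x0Fun hqM σ]
  simp only [Finsupp.smul_apply, MultiReduction.poleX, Curve.poleDivisor_apply] at h ⊢
  rw [hord]
  show -(N • max (-(v.ord (x0Fun hqM))) 0) ≤ _
  rw [hx]
  exact h

theorem decRed_gal_zero (A : ValuationSubring Qb) (hqM : ¬ q ∣ M) (hA : A.LiesOverPrime q)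
    {σ : Qb ≃ₐ[ℚ] Qb} (hσ : σ ∈ A.inertiaSubgroupIn ℚ) {y y' : decFix A hqM}
    (e : (y' : XField q M) = galRingAut σ (y : XField q M))
    (hy : y ∈ (decRed A hqM hA).V (decSel A hqM hA 0)) :
    ∃ h : y' ∈ (decRed A hqM hA).V (decSel A hqM hA 0), ∀ h',
      (decRed A hqM hA).φ (decSel A hqM hA 0) ⟨y', h⟩ =
        (decRed A hqM hA).φ (decSel A hqM hA 0) ⟨y, h'⟩ := by
  obtain ⟨hiff, hred⟩ := infRed_galRingAut A hσ (y : XField q M)
  have h0 := hiff.2 ((mem_decRed_zero_iff A hqM hA).1 hy)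
  refine ⟨(mem_decRed_zero_iff A hqM hA).2 (mem_infVal_of_eq A e.symm h0), fun h' =>
    decRed_zero_eq A hqM hA _ _ ?_⟩
  exact (infRed_congr A e _ h0).trans (hred _ _)

theorem decRed_gal_one (A : ValuationSubring Qb) (hqM : ¬ q ∣ M) (hA : A.LiesOverPrime q)
    {σ : Qb ≃ₐ[ℚ] Qb} (hσ : σ ∈ A.inertiaSubgroupIn ℚ) {c : (ZMod q)ˣ}
    (hc : σ (zetaQ q : Qb) = (zetaQ q : Qb) ^ (c : ZMod q).val) (z : A) {y y' : decFix A hqM}
    (hT : autHom hqM (tor c) (y : XField q M) = (z : Qb) • (y : XField q M))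
    (e : (y' : XField q M) = galRingAut σ (y : XField q M))
    (hy : y ∈ (decRed A hqM hA).V (decSel A hqM hA 1)) :
    ∃ h : y' ∈ (decRed A hqM hA).V (decSel A hqM hA 1), ∀ h',
      (decRed A hqM hA).φ (decSel A hqM hA 1) ⟨y', h⟩ =
        residue A z • (decRed A hqM hA).φ (decSel A hqM hA 1) ⟨y, h'⟩ := by
  have hzV : algebraMap Qb (decFix A hqM) (z : Qb) ∈ (decRed A hqM hA).V (decSel A hqM hA 1) :=
    ((decRed A hqM hA).mem_V_iff _ _).2 z.2
  obtain ⟨yz, hyz⟩ : ∃ yz, yz = algebraMap Qb (decFix A hqM) (z : Qb) * y := ⟨_, rfl⟩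
  have hzy : yz ∈ (decRed A hqM hA).V (decSel A hqM hA 1) := hyz ▸ mul_mem hzV hy
  have hcoe : (yz : XField q M) = autHom hqM (tor c) (y : XField q M) := by
    rw [hT, Algebra.smul_def, hyz]; rfl
  have hw : autHom hqM weyl (y' : XField q M) =
      galRingAut σ (autHom hqM weyl (yz : XField q M)) := by
    have e1 : (weyl : SL(2, ZMod q)) = twist c (weyl * tor c) := by
      rw [map_mul, twist_tor, twist_weyl, mul_assoc, weyl_mul_tor, ← mul_assoc, ← tor_mul,
        mul_inv_cancel]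
      ext i k
      fin_cases i <;> fin_cases k <;> simp
    conv_lhs => rw [e, e1, ← galRingAut_autHom hqM σ c hc, map_mul, AlgEquiv.mul_apply]
    rw [hcoe]
  obtain ⟨hiff, hred⟩ := infRed_galRingAut A hσ (autHom hqM weyl (yz : XField q M))
  have h1 := hiff.2 ((mem_decRed_one_iff A hqM hA).1 hzy)
  refine ⟨(mem_decRed_one_iff A hqM hA).2 (mem_infVal_of_eq A hw.symm h1), fun h' =>
    (decRed_one_eq A hqM hA _ hzy ?_).trans ?_⟩
  · exact (infRed_congr A hw _ h1).trans (hred _ _)
  · have e2 : (⟨yz, hzy⟩ : (decRed A hqM hA).V (decSel A hqM hA 1)) = ⟨_, hzV⟩ * ⟨y, h'⟩ :=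
      Subtype.ext hyz
    rw [e2, map_mul, (decRed A hqM hA).φ_algebraMap _ z, ← Algebra.smul_def]
    rfl

theorem decRed_red_eq_zero (A : ValuationSubring Qb) (hqM : ¬ q ∣ M) (hA : A.LiesOverPrime q)
    (y : (decRed A hqM hA).integers)
    (htor : ∀ a : (ZMod q)ˣ, ∃ c : A, autHom hqM (tor a) ((y : decFix A hqM) : XField q M) =
      (c : Qb) • ((y : decFix A hqM) : XField q M))
    (hred : ∀ i, (decRed A hqM hA).red y (decSel A hqM hA i) = 0) :
    (decRed A hqM hA).red y = 0 :=
  funext fun W => decRed_red_apply_eq_zero A hqM hA y W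
    (infRed_eq_zero_of_eigen A hqM hA (y : decFix A hqM).2 htor
      (infRed_zero_of_decRed_zero A hqM hA ((decRed A hqM hA).mem_integers.1 y.2 _) (hred 0))
      (infRed_zero_of_decRed_one A hqM hA ((decRed A hqM hA).mem_integers.1 y.2 _) (hred 1)))

theorem residue_false (A : ValuationSubring Qb) (hqM : ¬ q ∣ M) (hq5 : 5 ≤ q) (h4 : 4 ∣ M)
    (hA : A.LiesOverPrime q) (g₀ : (ZMod q)ˣ) (hgen : ∀ a : (ZMod q)ˣ, ∃ j : ℕ, g₀ ^ j = a)
    {m : ℕ} (hm1 : 1 < m) (hmq : m < q)
    (hper : ∀ j, autHom (M := M) hqM (tor g₀) ^ j ∈ decGroup A hqM ↔ m ∣ j) : False := by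
  haveI := isFunctionFieldOne_xField (q := q) hqM
  haveI := isFunctionFieldOne_decFix A hqM hA
  haveI := isFunctionFieldOne_unipFix (q := q) (M := M) hqM
  haveI := isFunctionFieldOne_resField hqM hA
  haveI := charP_residue q hA
  haveI := DeligneSerre.isAlgClosed_residueField A
  haveI : ∀ W : (xReduction A hqM hA).SubIdx (decFix A hqM), Curve.IsFunctionFieldOne
      (ResidueField A) ((xReduction A hqM hA).subImage (decFix A hqM)
        ((xReduction A hqM hA).subRep (decFix A hqM) W)) := fun W => by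
    haveI := (xReduction A hqM hA).finite_subImage (decFix A hqM) (jElt_mem_decFix A hqM hA)
      ((xReduction A hqM hA).subRep (decFix A hqM) W)
    exact Curve.IsFunctionFieldOne.of_finite_subextension (F' := resField q M A)
  set T := autHom (M := M) hqM (tor g₀) with hT
  have hTpow : ∀ j : ℕ, autHom (M := M) hqM (tor (g₀ ^ j)) = T ^ j := by
    intro j
    induction j with
    | zero =>
      rw [pow_zero, pow_zero, show (tor 1 : SL(2, ZMod q)) = 1 by
        ext i k; fin_cases i <;> fin_cases k <;> simp, map_one]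
    | succ j ih => rw [pow_succ, tor_mul, map_mul, ih, pow_succ]
  obtain ⟨t, ht, htp⟩ := exists_restrict (decFix A hqM) T (tor_mem_decFix_iff A hqM hA g₀)
  have htm : t ^ m = 1 := AlgEquiv.ext fun y => Subtype.ext (by
    rw [htp]
    exact (mem_decFix A hqM).1 y.2 _ ((hper m).2 dvd_rfl))
  have hord : ∀ j, t ^ j = 1 → m ∣ j := fun j hj => (hper j).1
    (mem_of_fix_fixedField fun x hx => by
      rw [← htp j ⟨x, hx⟩, hj]; rfl)
  -- the cover
  choose emb hemb hcov using exists_decEmb A hqM hA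
  obtain ⟨B, hreg, hmeets, hZ⟩ := exists_conductor_proof hqM A hA
  have ht_cov : ∀ x, t (decCov A hqM hA x) = decCov A hqM hA x := fun x => Subtype.ext (by
    rw [ht]; exact autHom_covB hqM (mem_borel.2 (by simp)) x)
  have ht_fixed : ∀ f, t f = f → ∃ x, decCov A hqM hA x = f := fun f hf =>
    exists_decCov_of_fixed A hqM hA fun a => by
      obtain ⟨j, rfl⟩ := hgen a
      rw [hTpow]
      clear hTpow
      induction j with
      | zero => rfl
      | succ j ih => rw [pow_succ', AlgEquiv.mul_apply, ih, ← ht, hf]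
  have unram : ∀ w : Place Qb (decFix A hqM), ∃ x, w.ord (decCov A hqM hA x) = 1 := by
    obtain ⟨hle, hU⟩ := exists_ord_eq_one hqM hq5 h4 (unipFix hqM) (fun y => mem_unipFix hqM)
    refine exists_ord_eq_one_descend (IntermediateField.inclusion (decFix_le_unipFix A hqM hA))
      (decCov A hqM hA) fun v => ?_
    obtain ⟨g, hg⟩ := hU v
    obtain ⟨x, hx⟩ := exists_covB_of_fixed hqM ((mem_pointField_none_iff hqM).1 g.2)
    refine ⟨x, ?_⟩
    rw [← hg]
    exact congrArg v.ord (Subtype.ext hx)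
  -- the root of unity and inertia
  haveI : NeZero m := ⟨by omega⟩
  obtain ⟨z₀, hz₀⟩ := HasEnoughRootsOfUnity.exists_primitiveRoot Qb m
  let z : A := ⟨z₀, mem_of_pow_eq_one A (NeZero.ne m) hz₀.pow_eq_one⟩
  have hzm : (z : Qb) ^ m = 1 := hz₀.pow_eq_one
  have hqm : ¬ q ∣ m := fun h => by have := Nat.le_of_dvd (by omega) h; omega
  have hz1 : residue A z ≠ 1 :=
    residue_ne_one_of_isPrimitiveRoot hqm z hzm (hz₀.ne_one hm1)
  obtain ⟨σ, hσ, hσζ⟩ := exists_inertia_apply_root hA g₀
  have hc : σ (zetaQ q : Qb) = (zetaQ q : Qb) ^ (g₀ : ZMod q).val :=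
    hσζ _ (isPrimitiveRoot_zetaQ q).pow_eq_one
  have hσz : σ (z : Qb) = z :=
    Datum.inertia_apply_root hA hσ ((Fact.out : q.Prime).coprime_iff_not_dvd.2 hqm) (by omega) hzm
  let s : decFix A hqM →+* decFix A hqM :=
    ((galRingAut σ).toRingHom.comp (decFix A hqM).val.toRingHom).codRestrict (decFix A hqM)
      fun f => gal_mem_decFix A hqM hA σ g₀ hc f.2
  have hs : ∀ y, ((s y : decFix A hqM) : XField q M) = galRingAut σ (y : XField q M) := fun y => rfl
  have hsmul : ∀ (x : XField q M), galRingAut σ ((z : Qb) • x) = (z : Qb) • galRingAut σ x := by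
    intro x
    rw [Algebra.smul_def, map_mul, galRingAut_algebraMap, hσz, ← Algebra.smul_def]
  have hσT : ∀ x, galRingAut σ (T x) = T (galRingAut σ x) := fun x => by
    rw [hT, galRingAut_autHom hqM σ g₀ hc, twist_tor]
  refine Split.no_split_cover (q := q) (Mazur.rankLeOne_of_liesOverPrime (Fact.out : q.Prime) hA)
    (Gluing.ofVanishing (x0Reduction hqM A hA) B hreg hmeets hZ)
    (Gluing.ofVanishing_isSeminormal (x0Reduction hqM A hA) B hreg hmeets hZ)
    (decRed A hqM hA) (decCov A hqM hA) (decSel A hqM hA) emb rfl hemb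
    (decCov_mem_iff A hqM hA) hcov t m (by omega) htm hord ht_cov ht_fixed unram z hzm hz1 s
    ?_ ?_ ?_ ?_ ?_
  · intro y hy
    apply Subtype.ext
    rw [ht, hs]
    show T (galRingAut σ (y : XField q M)) = (z : Qb) • galRingAut σ (y : XField q M)
    rw [← hσT, ← ht, hy]
    exact hsmul _
  · intro N g hg
    refine ⟨_, galois_mem_polarSp A hqM hA σ hg, Subtype.ext ?_⟩
    rw [hs]
    exact (galRingAut_covB σ g).symm
  · intro y hy hyt
    exact decRed_gal_zero A hqM hA hσ (hs y) ((decRed A hqM hA).mem_integers.1 hy _)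
  · intro y hy hyt
    exact decRed_gal_one A hqM hA hσ hc z ((ht y).symm.trans (congrArg Subtype.val hyt)) (hs y)
      ((decRed A hqM hA).mem_integers.1 hy _)
  · intro y hyt hred
    refine decRed_red_eq_zero A hqM hA y (fun a => ?_) hred
    obtain ⟨j, rfl⟩ := hgen a
    refine ⟨z ^ j, ?_⟩
    rw [hTpow, pow_apply_eigen T ((ht _).symm.trans (congrArg Subtype.val hyt)) j]
    rfl

end InstTor

theorem compVal_tor (A : ValuationSubring Qb) (hqM : ¬ q ∣ M) (hq5 : 5 ≤ q) (h4 : 4 ∣ M)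
    (hA : A.LiesOverPrime q) (a : (ZMod q)ˣ) :
    compVal A (autHom hqM (tor a)) = infVal q M A := by
  obtain ⟨g₀, hg₀⟩ := IsCyclic.exists_generator (α := (ZMod q)ˣ)
  have hgen : ∀ b : (ZMod q)ˣ, ∃ j : ℕ, g₀ ^ j = b := fun b =>
    Submonoid.mem_powers_iff _ _ |>.1 (mem_powers_iff_mem_zpowers.2 (hg₀ b))
  have hTpow : ∀ j : ℕ, autHom (M := M) hqM (tor (g₀ ^ j)) = autHom hqM (tor g₀) ^ j := by
    intro j
    induction j with
    | zero =>
      rw [pow_zero, pow_zero, show (tor 1 : SL(2, ZMod q)) = 1 by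
        ext i k; fin_cases i <;> fin_cases k <;> simp, map_one]
    | succ j ih => rw [pow_succ, tor_mul, map_mul, ih, pow_succ]
  have hq1 : autHom (M := M) hqM (tor g₀) ^ (q - 1) ∈ decGroup A hqM := by
    rw [← hTpow, ZMod.units_pow_card_sub_one_eq_one q g₀, show (tor 1 : SL(2, ZMod q)) = 1 by
        ext i k; fin_cases i <;> fin_cases k <;> simp, map_one]
    exact one_mem _
  obtain ⟨m, hm0, hmle, hper⟩ := InstTor.exists_period (decGroup A hqM)
    (autHom hqM (tor g₀)) (by omega) hq1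
  rcases eq_or_lt_of_le (Nat.succ_le_of_lt hm0) with h1 | h1
  · obtain ⟨j, rfl⟩ := hgen a
    rw [hTpow]
    exact ((hper j).2 (h1 ▸ one_dvd j)).2
  · exact (InstTor.residue_false A hqM hq5 h4 hA g₀ hgen h1 (by omega) hper).elim

end Fermat.Agent.Carayol.LTwoComp

end
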