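/-
A cyclic unramified cover of a curve with two-component special fibre: the input data for
"the deck transformations fix every class trivial on both components".

`R1` is the reduction of the base curve (for us `X₀(qM)`, residually two copies of `X₀(M)`), `R`
that of the cover (for us the quotient of `X(q; M)` by the unipotent group), `t` a deck
transformation generating the group, `d i` its action on the component `i`, and `s` a semilinear
automorphism acting as the identity on the component `0` and as `d 1` on the component `1`.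
-/
import Fermat.Agent.Bad.GluingDefs
import Fermat.Prelude.Def_AlgebraicCurve_BaseChangeGalois

set_option autoImplicit false

noncomputable section

namespace Fermat.Agent.Carayol

open AlgebraicCurve Fermat.Agent.Curve Fermat.Agent.Bad

universe uK uF uk uE

variable {K : Type uK} [Field K] {A : ValuationSubring K}
  {F1 : Type uF} [Field F1] [Algebra K F1] [IsFunctionFieldOne K F1]
  {F : Type uF} [Field F] [Algebra K F] [IsFunctionFieldOne K F]
  {k : Type uk} [Field k]
  {E0 : Type uE} [Field E0] [Algebra k E0] [IsFunctionFieldOne k E0]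
  {Eb : Fin 2 → Type uE} [∀ i, Field (Eb i)] [∀ i, Algebra k (Eb i)]
  [∀ i, IsFunctionFieldOne k (Eb i)]

/-- A cyclic unramified cover of degree `n` of a two-component reduction, with a deck
transformation and an inertial automorphism twisting one component by it. -/
structure TwoCompCover (R1 : MultiReduction A F1 k (fun _ : Fin 2 => E0))
    (R : MultiReduction A F k Eb) (n : ℕ) where
  n_pos : 0 < n
  n_ne_zero : (n : k) ≠ 0
  /-- the cover -/
  cov : F1 →ₐ[K] F
  /-- the covers of the components -/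
  emb : ∀ i, E0 →ₐ[k] Eb i
  π_eq : R.π = R1.π
  x_eq : R.x = cov R1.x
  cov_mem_iff : ∀ i (f : F1), cov f ∈ R.V i ↔ f ∈ R1.V i
  cov_red : ∀ i (f : R1.V i),
    R.φ i ⟨cov f, (cov_mem_iff i f).2 f.2⟩ = emb i (R1.φ i f)
  /-- the deck transformation -/
  t : F ≃ₐ[K] F
  t_pow : t ^ n = 1
  t_order : ∀ j, t ^ j = 1 → n ∣ j
  t_cov : ∀ g : F1, t (cov g) = cov g
  t_fixed : ∀ f : F, t f = f → ∃ g, cov g = f
  /-- its action on the components -/
  d : ∀ i, Eb i ≃ₐ[k] Eb i
  t_mem_iff : ∀ i (f : F), t f ∈ R.V i ↔ f ∈ R.V i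
  t_red : ∀ i (f : R.V i), R.φ i ⟨t f, (t_mem_iff i f).2 f.2⟩ = d i (R.φ i f)
  d_order : ∀ i j, d i ^ j = 1 → n ∣ j
  d_fixed : ∀ i (h : Eb i), d i h = h → ∃ g, emb i g = h
  /-- the inertial automorphism -/
  s : SemilinearAut K F
  s_x : s • R.x = R.x
  s_red_zero : ∀ f : R.V 0, ∃ h : s • (f : F) ∈ R.V 0, R.φ 0 ⟨_, h⟩ = R.φ 0 f
  s_red_one : ∀ f : R.V 1, ∃ h : s • (f : F) ∈ R.V 1, R.φ 1 ⟨_, h⟩ = d 1 (R.φ 1 f)
  /-- the cover is unramified -/
  unram : ∀ w : Place K F, ∃ g : F1, w.ord (cov g) = 1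
  /-- (Z) for the base -/
  hZ : ∃ B : Finset (Σ _ : Fin 2, Place k E0),
    (∀ b ∈ B, 0 ≤ b.2.ord (R1.xb b.1)) ∧ (∀ i, ∃ b ∈ B, b.1 = i) ∧
    ∃ N₀ : ℕ, ∀ N, N₀ ≤ N → ∀ h ∈ R1.polarFibre N,
      (∀ b ∈ B, MultiReduction.VanishesAt b 1 h) → h ∈ R1.spFibre (R1.polarSp N)
  /-- every component extends to the base -/
  proj_full : ∃ N₁ : ℕ, ∀ N, N₁ ≤ N → ∀ i,
    ∀ a ∈ riemannRochSpace (N • poleDivisor k (R1.xb i)),
      ∃ h ∈ R1.spFibre (R1.polarSp N), h i = a

end Fermat.Agent.Carayol

end
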