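/-
The base of the two-component cover: a tuple `(e, 0)` is in the special fibre exactly when `e`
vanishes at the singular points of its component, and there are as many of those on each
component as the drop of the Euler characteristic.
-/
import Fermat.Agent.Bad.Gluing
import Fermat.Agent.Bad.BGlueConn
import Fermat.Agent.Carayol.LTwoCompData

set_option autoImplicit false
set_option linter.style.haveILetI false
set_option maxHeartbeats 400000

noncomputable section

namespace Fermat.Agent.Carayol.LTwoComp

open AlgebraicCurve Fermat.Agent.Curve Fermat.Agent.Curve.RedAux Fermat.Agent.Bad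
open MultiReduction IntermediateField

universe uK uF uk uE

variable {K : Type uK} [Field K] [IsAlgClosed K] {A : ValuationSubring K}
  {F : Type uF} [Field F] [Algebra K F] [IsFunctionFieldOne K F]
  {k : Type uk} [Field k]
  {Eb : Fin 2 → Type uE} [∀ i, Field (Eb i)] [∀ i, Algebra k (Eb i)]
  [∀ i, IsFunctionFieldOne k (Eb i)]

section General

variable (R : MultiReduction A F k Eb)

/-- A tuple in some special fibre. -/
def InS (h : ∀ i, Eb i) : Prop := ∃ N, h ∈ R.spFibre (R.polarSp N)

variable {R}

omit [IsAlgClosed K] in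
theorem InS.add [IsAlgClosed K] {h h' : ∀ i, Eb i} (hh : InS R h) (hh' : InS R h') :
    InS R (h + h') := by
  obtain ⟨N, hN⟩ := hh
  obtain ⟨M, hM⟩ := hh'
  exact ⟨N + M, add_mem (R.spFibre_polar_mono (Nat.le_add_right N M) hN)
    (R.spFibre_polar_mono (Nat.le_add_left M N) hM)⟩

theorem InS.mul {h h' : ∀ i, Eb i} (hh : InS R h) (hh' : InS R h') : InS R (h * h') := by
  obtain ⟨N, hN⟩ := hh
  obtain ⟨M, hM⟩ := hh'
  exact ⟨N + M, R.mul_mem_spFibre_polar hN hM⟩

theorem InS.pow {h : ∀ i, Eb i} (hh : InS R h) (m : ℕ) : InS R (h ^ m) := by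
  obtain ⟨N, hN⟩ := hh
  exact ⟨m * N, R.pow_mem_spFibre_polar hN m⟩

end General

section Base

variable {F1 : Type uF} [Field F1] [Algebra K F1] [IsFunctionFieldOne K F1]
  {E0 : Type uE} [Field E0] [Algebra k E0] [IsFunctionFieldOne k E0]
  {R1 : MultiReduction A F1 k (fun _ : Fin 2 => E0)} {R : MultiReduction A F k Eb} {n : ℕ}
  (C : TwoCompCover R1 R n)

open Classical in
/-- The singular points of the component `i`: the common zeros, among the branches of (Z), of the
tuples of the special fibre supported on this component. -/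
def sing (i : Fin 2) : Finset (Place k E0) :=
  (C.hZ.choose.preimage (Sigma.mk i) sigma_mk_injective.injOn).filter fun v =>
    ∀ e : E0, InS R1 (Pi.single (M := fun _ : Fin 2 => E0) i e) → e = 0 ∨ 1 ≤ v.ord e

omit [IsAlgClosed K] in
theorem mem_sing {i : Fin 2} {v : Place k E0} :
    v ∈ sing C i ↔ (⟨i, v⟩ : Σ _ : Fin 2, Place k E0) ∈ C.hZ.choose ∧
      ∀ e : E0, InS R1 (Pi.single (M := fun _ : Fin 2 => E0) i e) → e = 0 ∨ 1 ≤ v.ord e := by
  classical
  rw [sing, Finset.mem_filter, Finset.mem_preimage]

omit [IsAlgClosed K] in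
theorem regular_of_mem_sing {i : Fin 2} {v : Place k E0} (hv : v ∈ sing C i) :
    0 ≤ v.ord (R1.xb i) := by
  have h := C.hZ.choose_spec.1 ⟨i, v⟩ ((mem_sing C).1 hv).1
  dsimp only at h
  exact h

/-- The bound for one component: poles bounded by those of `x`, zeros at the singular points. -/
def singDiv (i : Fin 2) (N : ℕ) : Divisor k E0 :=
  N • poleDivisor k (R1.xb i) - ∑ v ∈ sing C i, Finsupp.single v 1

omit [IsAlgClosed K] in
open Classical in
theorem singDiv_apply (i : Fin 2) (N : ℕ) (v : Place k E0) :
    singDiv C i N v = (N : ℤ) * poleDivisor k (R1.xb i) v - if v ∈ sing C i then 1 else 0 := by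
  rw [singDiv, Finsupp.sub_apply, Finsupp.smul_apply, nsmul_eq_mul, Finsupp.finsetSum_apply]
  simp [Finsupp.single_apply, Finset.sum_ite_eq']

omit [IsAlgClosed K] in
theorem poleDivisor_sing {i : Fin 2} {v : Place k E0} (hv : v ∈ sing C i) :
    poleDivisor k (R1.xb i) v = 0 := by
  have := regular_of_mem_sing C hv
  rw [poleDivisor_apply]; omega

/-- The one-component tuples of the special fibre. -/
theorem exists_single_mem_iff : ∃ N₀ : ℕ, ∀ N, N₀ ≤ N → ∀ i (e : E0),
    Pi.single (M := fun _ : Fin 2 => E0) i e ∈ R1.spFibre (R1.polarSp N) ↔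
      e ∈ riemannRochSpace (singDiv C i N) := by
  classical
  haveI := R1.isAlgClosed_residue
  obtain ⟨hreg, hmeets, hZ⟩ := C.hZ.choose_spec
  let G := Gluing.ofVanishing R1 C.hZ.choose hreg hmeets hZ
  obtain ⟨N₁, hZ⟩ := hZ
  obtain ⟨N₂, hproj⟩ := C.proj_full
  set B := C.hZ.choose with hB
  obtain ⟨N₃, hsurj⟩ := exists_branchEval_surjective (R := R1) B hreg
  refine ⟨G.bound, fun N hN i e => ⟨fun he => ?_, fun he => ?_⟩⟩
  · rcases eq_or_ne e 0 with rfl | he0
    · exact zero_mem _
    refine (mem_L_iff he0).2 fun v => ?_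
    rw [singDiv_apply]
    split_ifs with hv
    · have := (((mem_sing C).1 hv).2 e ⟨N, he⟩).resolve_left he0
      rw [poleDivisor_sing C hv]
      omega
    · have h1 := (R1.mem_polarFibre_iff_ord.1 (R1.spFibre_polar_le N he) i v)
      rw [Pi.single_eq_same] at h1
      have := h1.resolve_left he0
      rw [poleDivisor_apply]
      omega
  · have hemem : ∀ v : Place k E0, 0 ≤ v.ord (R1.xb i) → e ∈ v.toValuationSubring := by
      intro v hv
      refine mem_of_zero_or_le v (or_iff_not_imp_left.2 fun he0 => ?_)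
      have h1 := (mem_L_iff he0).1 he v
      rw [singDiv_apply, poleDivisor_apply, max_eq_right (by omega), mul_zero] at h1
      split_ifs at h1 <;> omega
    have hsing0 : ∀ v, v ∈ sing C i → placeValue v e = 0 := by
      intro v hv
      rw [placeValue_eq_zero_iff v (hemem v (regular_of_mem_sing C hv))]
      refine or_iff_not_imp_left.2 fun he0 => ?_
      have h1 := (mem_L_iff he0).1 he v
      rw [singDiv_apply, if_pos hv, poleDivisor_sing C hv] at h1
      omega
    have hpart : ∀ b : ↥B, ∃ p : E0, InS R1 (Pi.single (M := fun _ : Fin 2 => E0) i p) ∧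
        ∀ b' : ↥B, (b' : Σ _ : Fin 2, Place k E0).1 = i →
          placeValue (b' : Σ _ : Fin 2, Place k E0).2 p =
            if b' = b then placeValue (b' : Σ _ : Fin 2, Place k E0).2 e else 0 := by
      rintro ⟨⟨l, v⟩, hb⟩
      by_cases hskip : l = i ∧ v ∉ sing C i
      swap
      · refine ⟨0, ⟨0, by rw [Pi.single_zero]; exact zero_mem _⟩, fun b' hb' => ?_⟩
        rw [placeValue_zero]
        split_ifs with h
        · subst h
          have hl : l = i := hb'
          exact (hsing0 v (not_not.1 fun hv => hskip ⟨hl, hv⟩)).symm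
        · rfl
      obtain ⟨rfl, hv⟩ := hskip
      rw [mem_sing C, not_and] at hv
      have h1 := hv hb
      push Not at h1
      obtain ⟨z, hzS, hz0, hzv⟩ := h1
      obtain ⟨M', hM'⟩ := hzS
      have hzmem : ∀ b' : ↥B, (b' : Σ _ : Fin 2, Place k E0).1 = l →
          z ∈ (b' : Σ _ : Fin 2, Place k E0).2.toValuationSubring := by
        rintro ⟨⟨l', v'⟩, hb'⟩ h
        subst h
        have := R1.mem_of_mem_polarFibre (R1.spFibre_polar_le M' hM') (b := ⟨l', v'⟩)
          (hreg _ hb')
        rwa [Pi.single_eq_same] at this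
      have hzne : placeValue v z ≠ 0 := by
        rw [Ne, placeValue_eq_zero_iff v (hzmem ⟨⟨l, v⟩, hb⟩ rfl)]
        push Not
        exact ⟨hz0, hzv⟩
      obtain ⟨g, hg⟩ := hsurj (max N₂ N₃) (le_max_right _ _)
        fun b' => if b' = ⟨⟨l, v⟩, hb⟩ then placeValue v e / placeValue v z else 0
      obtain ⟨g', hg', hgi⟩ := hproj (max N₂ N₃) (le_max_left _ _) l ((g : ∀ _ : Fin 2, E0) l)
        (R1.mem_polarFibre.1 g.2 l)
      refine ⟨z * (g : ∀ _ : Fin 2, E0) l, ?_, fun b' hb'l => ?_⟩
      · have h2 := InS.mul (⟨M', hM'⟩ : InS R1 _) (⟨_, hg'⟩ : InS R1 g')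
        have e1 : Pi.single (M := fun _ : Fin 2 => E0) l z * g' =
            Pi.single (M := fun _ : Fin 2 => E0) l (z * (g : ∀ _ : Fin 2, E0) l) := by
          funext j
          rcases eq_or_ne j l with rfl | hj
          · simp [hgi]
          · simp [Pi.single_eq_of_ne hj]
        rwa [e1] at h2
      · have hgv := congrFun hg b'
        rw [branchEval_apply] at hgv
        obtain ⟨⟨l', v'⟩, hb'⟩ := b'
        have hl : l' = l := hb'l
        subst hl
        have hgmem : (g : ∀ _ : Fin 2, E0) l' ∈ v'.toValuationSubring :=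
          R1.mem_of_mem_polarFibre g.2 (b := ⟨l', v'⟩) (hreg _ hb')
        show placeValue v' (z * (g : ∀ _ : Fin 2, E0) l') = _
        rw [placeValue_mul v' (hzmem ⟨⟨l', v'⟩, hb'⟩ rfl) hgmem,
          show placeValue v' ((g : ∀ _ : Fin 2, E0) l') = _ from hgv]
        split_ifs with h
        · obtain rfl : v' = v := by simpa using h
          exact mul_div_cancel₀ _ hzne
        · exact mul_zero _
    choose p hpS hpv using hpart
    set P := ∑ b, p b with hP
    have hPS : InS R1 (Pi.single (M := fun _ : Fin 2 => E0) i P) := by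
      choose L hL using hpS
      refine ⟨Finset.univ.sup L, ?_⟩
      show LinearMap.single k (fun _ : Fin 2 => E0) i P ∈ _
      rw [hP, map_sum]
      exact sum_mem fun b _ =>
        R1.spFibre_polar_mono (Finset.le_sup (Finset.mem_univ b)) (hL b)
    obtain ⟨M', hM'⟩ := hPS
    have hNfib : ∀ {x : E0} {L : ℕ}, x ∈ riemannRochSpace (L • poleDivisor k (R1.xb i)) →
        Pi.single (M := fun _ : Fin 2 => E0) i x ∈ R1.polarFibre L := by
      intro x L hx
      rw [R1.mem_polarFibre]
      intro l
      rcases eq_or_ne l i with rfl | hl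
      · rwa [Pi.single_eq_same]
      · rw [Pi.single_eq_of_ne hl]; exact zero_mem _
    have heN : e ∈ riemannRochSpace (N • poleDivisor k (R1.xb i)) :=
      L_mono (Finsupp.le_def.2 fun v => by
        rw [singDiv_apply, Finsupp.smul_apply, nsmul_eq_mul]
        split_ifs <;> omega) he
    set L := max (max N M') N₁ with hL
    have hPL : P ∈ riemannRochSpace (L • poleDivisor k (R1.xb i)) := by
      have h1 := R1.mem_polarFibre.1
        (R1.polarFibre_mono (show M' ≤ L by omega) (R1.spFibre_polar_le M' hM')) i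
      rwa [Pi.single_eq_same] at h1
    have hrP : Pi.single (M := fun _ : Fin 2 => E0) i (e - P) ∈ R1.polarFibre L :=
      hNfib (Submodule.sub_mem _ (L_mono (nsmul_le_nsmul_left (poleDivisor_nonneg _)
        (show N ≤ L by omega)) heN) hPL)
    have hrS : Pi.single (M := fun _ : Fin 2 => E0) i (e - P) ∈ R1.spFibre (R1.polarSp L) := by
      refine hZ L (by omega) _ hrP fun b hb => ?_
      rcases eq_or_ne b.1 i with hbi | hbi
      swap
      · exact Or.inl (Pi.single_eq_of_ne hbi _)
      obtain ⟨l, v⟩ := b
      dsimp only at hbi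
      subst hbi
      have hv := hreg ⟨l, v⟩ hb
      dsimp only at hv
      have hpmem : ∀ b, p b ∈ v.toValuationSubring := by
        intro b
        obtain ⟨L', hL'⟩ := hpS b
        have := R1.mem_of_mem_polarFibre (R1.spFibre_polar_le L' hL') (b := ⟨l, v⟩) hv
        rwa [Pi.single_eq_same] at this
      have hsum : ∀ t : Finset ↥B, placeValue v (∑ b ∈ t, p b) = ∑ b ∈ t, placeValue v (p b) := by
        intro t
        induction t using Finset.induction_on with
        | empty => simp [placeValue_zero]
        | insert a t ha ih =>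
          rw [Finset.sum_insert ha, Finset.sum_insert ha,
            placeValue_add v (hpmem a) (sum_mem fun b _ => hpmem b), ih]
      have hPmem : P ∈ v.toValuationSubring := sum_mem fun b _ => hpmem b
      have hPv : placeValue v P = placeValue v e := by
        rw [hP, hsum, Finset.sum_eq_single (⟨⟨l, v⟩, hb⟩ : ↥B)]
        · rw [hpv _ ⟨⟨l, v⟩, hb⟩ rfl, if_pos rfl]
        · intro b _ hne
          rw [hpv b ⟨⟨l, v⟩, hb⟩ rfl, if_neg (Ne.symm hne)]
        · simp
      have hzero : placeValue v (e - P) = 0 := by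
        rw [placeValue_sub v (hemem v hv) hPmem, hPv, sub_self]
      show Pi.single (M := fun _ : Fin 2 => E0) l (e - P) l = 0 ∨ _
      rw [Pi.single_eq_same]
      exact ((placeValue_eq_zero_iff v (sub_mem (hemem v hv) hPmem)).1 hzero).imp
        id fun h => by exact_mod_cast h
    have heS : Pi.single (M := fun _ : Fin 2 => E0) i e ∈ R1.spFibre (R1.polarSp L) := by
      have h1 : Pi.single (M := fun _ : Fin 2 => E0) i (e - P) +
          Pi.single (M := fun _ : Fin 2 => E0) i P =
          Pi.single (M := fun _ : Fin 2 => E0) i e := by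
        funext l
        rcases eq_or_ne l i with rfl | hl
        · rw [Pi.add_apply, Pi.single_eq_same, Pi.single_eq_same, Pi.single_eq_same, sub_add_cancel]
        · rw [Pi.add_apply, Pi.single_eq_of_ne hl, Pi.single_eq_of_ne hl,
            Pi.single_eq_of_ne hl, add_zero]
      rw [← h1]
      exact Submodule.add_mem _ hrS (R1.spFibre_polar_mono (show M' ≤ L by omega) hM')
    exact G.saturated N L hN _ heS (hNfib heN)

/-- Each component has a singular point: the special fibre is connected. -/
theorem sing_nonempty (hA : RankLeOne A) (i : Fin 2) : (sing C i).Nonempty := by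
  classical
  rw [Finset.nonempty_iff_ne_empty]
  intro h0
  obtain ⟨hreg, hmeets, hZ⟩ := C.hZ.choose_spec
  obtain ⟨N, hN⟩ := exists_single_mem_iff C
  have hmem : (1 : E0) ∈ riemannRochSpace (singDiv C i N) := by
    refine (mem_L_iff one_ne_zero).2 fun v => ?_
    rw [singDiv_apply, if_neg (by simp [h0]), sub_zero, Place.ord_one, poleDivisor_apply]
    have : (0 : ℤ) ≤ (N : ℤ) * max (-(v.ord (R1.xb i))) 0 :=
      mul_nonneg (Int.natCast_nonneg _) (le_max_right _ _)
    omega
  have h1 := (hN N le_rfl i 1).2 hmem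
  let c : Fin 2 → k := Pi.single i 1
  have hc : BGlue.constTuple c ∈ R1.spFibre (R1.polarSp N) := by
    convert h1 using 1
    funext l
    rcases eq_or_ne l i with rfl | hl
    · rw [Pi.single_eq_same]
      show algebraMap k E0 (c l) = 1
      simp [c]
    · rw [Pi.single_eq_of_ne hl]
      show algebraMap k E0 (c l) = 0
      simp [c, Pi.single_eq_of_ne hl]
  obtain ⟨j, hij⟩ : ∃ j : Fin 2, j ≠ i := exists_ne i
  have := BGlue.constTuple_eq_const hA (Gluing.ofVanishing R1 _ hreg hmeets hZ) hc i j
  simp [c, Pi.single_eq_of_ne hij] at this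

/-- Each component has as many singular points as the drop of the Euler characteristic. -/
theorem card_sing (i : Fin 2) :
    ((sing C i).card : ℤ) = (genusFF K F1 : ℤ) + 1 - 2 * (genusFF k E0 : ℤ) := by
  classical
  haveI := R1.isAlgClosed_residue
  obtain ⟨N₀, hsingle⟩ := exists_single_mem_iff C
  obtain ⟨N₁, hproj⟩ := C.proj_full
  obtain ⟨N₂, hdim⟩ := R1.exists_finrank_spFibre_twist
  obtain ⟨c, hc⟩ := exists_finrank_L_eq (K := k) (F := E0)
  obtain ⟨j, hij⟩ : ∃ j : Fin 2, j ≠ i := exists_ne i
  set d : Fin 2 → ℕ := fun l => Module.finrank k⟮R1.xb l⟯ E0 with hd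
  set N := max (max N₀ N₁) N₂ + c.toNat + (sing C i).card with hN
  set S := R1.spFibre (R1.polarSp N) with hS
  haveI : FiniteDimensional k S := R1.finiteDimensional_spFibre_polar N
  let p : S →ₗ[k] E0 := (LinearMap.proj j).comp S.subtype
  have hrange : LinearMap.range p = riemannRochSpace (N • poleDivisor k (R1.xb j)) := by
    refine le_antisymm ?_ fun a ha => ?_
    · rintro _ ⟨h, rfl⟩
      exact R1.mem_polarFibre.1 (R1.spFibre_polar_le N h.2) j
    · obtain ⟨h, hh, rfl⟩ := hproj N (by omega) j a ha
      exact ⟨⟨h, hh⟩, rfl⟩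
  have hsupp : ∀ h : S, p h = 0 →
      (h : Fin 2 → E0) = Pi.single (M := fun _ : Fin 2 => E0) i ((h : Fin 2 → E0) i) := by
    intro h hh
    funext l
    rcases eq_or_ne l i with rfl | hl
    · rw [Pi.single_eq_same]
    · rw [Pi.single_eq_of_ne hl]
      have : l = j := by fin_cases i <;> fin_cases j <;> fin_cases l <;> simp at hl hij ⊢
      subst this
      exact hh
  let ker : riemannRochSpace (singDiv C i N) →ₗ[k] LinearMap.ker p :=
    { toFun := fun e => ⟨⟨Pi.single (M := fun _ : Fin 2 => E0) i (e : E0),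
          (hsingle N (by omega) i e).2 e.2⟩, Pi.single_eq_of_ne hij _⟩
      map_add' := fun a b => Subtype.ext (Subtype.ext (by
        funext l
        show Pi.single (M := fun _ : Fin 2 => E0) i ((a : E0) + (b : E0)) l =
          Pi.single (M := fun _ : Fin 2 => E0) i (a : E0) l +
            Pi.single (M := fun _ : Fin 2 => E0) i (b : E0) l
        rcases eq_or_ne l i with rfl | hl
        · simp only [Pi.single_eq_same]
        · simp only [Pi.single_eq_of_ne hl, add_zero]))
      map_smul' := fun t a => Subtype.ext (Subtype.ext (by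
        funext l
        show Pi.single (M := fun _ : Fin 2 => E0) i (t • (a : E0)) l =
          t • Pi.single (M := fun _ : Fin 2 => E0) i (a : E0) l
        rcases eq_or_ne l i with rfl | hl
        · simp only [Pi.single_eq_same]
        · simp only [Pi.single_eq_of_ne hl, smul_zero])) }
  have hker : Function.Bijective ker := by
    refine ⟨fun a b hab => Subtype.ext ?_, fun ⟨h, hh⟩ => ?_⟩
    · exact Pi.single_injective (M := fun _ : Fin 2 => E0) i
        (congrArg (fun z : LinearMap.ker p => ((z : S) : Fin 2 → E0)) hab)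
    · have h1 := hsupp h hh
      refine ⟨⟨(h : Fin 2 → E0) i, (hsingle N (by omega) i _).1 (h1 ▸ h.2)⟩, ?_⟩
      exact Subtype.ext (Subtype.ext h1.symm)
  have hsum := p.finrank_range_add_finrank_ker
  rw [hrange, ← (LinearEquiv.ofBijective ker hker).finrank_eq] at hsum
  have hdeg : ∀ l, Divisor.degree (N • poleDivisor k (R1.xb l)) = (N : ℤ) * d l := by
    intro l
    rw [map_nsmul, degree_poleDivisor (t := R1.xb l) (R1.x_transcendental l), nsmul_eq_mul]
  have hdpos : ∀ l, 0 < d l := fun l => R1.degree_pos l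
  have hN' : ∀ l, (N : ℤ) ≤ (N : ℤ) * d l := fun l =>
    le_mul_of_one_le_right (Int.natCast_nonneg N) (by exact_mod_cast hdpos l)
  have hdegi : Divisor.degree (singDiv C i N) = (N : ℤ) * d i - (sing C i).card := by
    rw [singDiv, map_sub, hdeg, map_sum]
    simp [RedAux.deg_one]
  have hi := hc (singDiv C i N) (by rw [hdegi]; have := hN' i; omega)
  have hj := hc (N • poleDivisor k (R1.xb j)) (by rw [hdeg]; have := hN' j; omega)
  have h2 := hdim 0 (map_zero _) N (by omega)
  rw [R1.twistSp_zero] at h2
  have hij2 : ∑ l, Module.finrank k⟮R1.xb l⟯ E0 = d i + d j := by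
    rw [Fin.sum_univ_two]
    fin_cases i <;> fin_cases j <;> simp at hij <;> simp [hd, add_comm]
  rw [hdegi] at hi
  rw [hdeg] at hj
  rw [hij2] at h2
  push_cast at h2
  rw [mul_add] at h2
  have hs : (Module.finrank k (riemannRochSpace (N • poleDivisor k (R1.xb j))) : ℤ) +
      (Module.finrank k (riemannRochSpace (singDiv C i N)) : ℤ) = Module.finrank k S := by
    exact_mod_cast hsum
  linarith

end Base

end Fermat.Agent.Carayol.LTwoComp

end
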