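/-
Eigenfunctions of a cyclic cover of function fields: if `d` generates the automorphisms of `E`
over `E0`, the functions with `d f = z • f` and bounded poles are `L(G) · h` for one eigenfunction
`h`, with `G` read off from the divisor of `h ^ n ∈ E0`.
-/
import Fermat.Agent.Curve.BasicExtension
import Fermat.Agent.Curve.ReductionAux
import Mathlib.RingTheory.RootsOfUnity.PrimitiveRoots
import Mathlib.Algebra.Field.GeomSum
import Mathlib.LinearAlgebra.LinearIndependent.Lemmas

set_option autoImplicit false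
set_option linter.style.haveILetI false

noncomputable section

namespace Fermat.Agent.Carayol.LTwoComp

open AlgebraicCurve Fermat.Agent.Curve Fermat.Agent.Curve.RedAux

universe uk uE

variable {k : Type uk} [Field k] {E0 E : Type uE} [Field E0] [Field E] [Algebra k E0] [Algebra k E]

/-- `d` generates the group, of order `n`, of automorphisms of `E` over `ψ E0`. -/
structure IsCyclicCover (ψ : E0 →ₐ[k] E) (d : E ≃ₐ[k] E) (n : ℕ) : Prop where
  n_pos : 0 < n
  n_ne_zero : (n : k) ≠ 0
  cov : ∀ g, d (ψ g) = ψ g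
  pow : d ^ n = 1
  order : ∀ j, d ^ j = 1 → n ∣ j
  fixed : ∀ f, d f = f → ∃ g, ψ g = f

/-- The eigenspace of `d` for `z`. -/
def eig (d : E ≃ₐ[k] E) (z : k) : Submodule k E where
  carrier := {f | d f = z • f}
  zero_mem' := by simp
  add_mem' := by
    intro f g hf hg
    show d (f + g) = z • (f + g)
    rw [map_add, smul_add, show d f = z • f from hf, show d g = z • g from hg]
  smul_mem' := by
    intro a f hf
    show d (a • f) = z • a • f
    rw [map_smul, show d f = z • f from hf, smul_comm]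

theorem mem_eig {d : E ≃ₐ[k] E} {z : k} {f : E} : f ∈ eig d z ↔ d f = z • f := Iff.rfl

theorem pow_succ_apply (d : E ≃ₐ[k] E) (j : ℕ) (f : E) : d ((d ^ j) f) = (d ^ (j + 1)) f := by
  rw [pow_succ', AlgEquiv.mul_apply]

theorem pow_apply_of_mem_eig {d : E ≃ₐ[k] E} {z : k} {f : E} (hf : f ∈ eig d z) (j : ℕ) :
    (d ^ j) f = z ^ j • f := by
  induction j with
  | zero => simp
  | succ j ih =>
    rw [← pow_succ_apply, ih, map_smul, mem_eig.1 hf, smul_smul, pow_succ]

/-- The projection to the `z`-eigenspace. -/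
def proj (d : E ≃ₐ[k] E) (n : ℕ) (z : k) (f : E) : E :=
  (n : k)⁻¹ • ∑ j ∈ Finset.range n, z⁻¹ ^ j • (d ^ j) f

theorem proj_mem_eig {d : E ≃ₐ[k] E} {n : ℕ} (hd : d ^ n = 1) {z : k} (hz : z ^ n = 1)
    (hn : 0 < n) (f : E) : proj d n z f ∈ eig d z := by
  have hz0 : z ≠ 0 := fun h => by rw [h, zero_pow hn.ne'] at hz; exact zero_ne_one hz
  set g : ℕ → E := fun j => z⁻¹ ^ j • (d ^ j) f with hg
  have hstep : ∀ j, d (g j) = z • g (j + 1) := by
    intro j
    rw [hg]
    simp only [map_smul, pow_succ_apply, smul_smul]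
    congr 1
    rw [pow_succ', ← mul_assoc, mul_inv_cancel₀ hz0, one_mul]
  have hper : g n = g 0 := by
    show z⁻¹ ^ n • (d ^ n) f = z⁻¹ ^ 0 • (d ^ 0) f
    rw [hd, inv_pow, hz, inv_one, pow_zero, pow_zero]
  have hshift : ∑ j ∈ Finset.range n, g (j + 1) = ∑ j ∈ Finset.range n, g j := by
    have h1 := Finset.sum_range_succ g n
    rw [Finset.sum_range_succ', hper] at h1
    exact add_right_cancel h1
  rw [mem_eig, proj, map_smul, map_sum, Finset.sum_congr rfl fun j _ => hstep j,
    ← Finset.smul_sum, hshift, smul_comm]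

theorem sum_proj {d : E ≃ₐ[k] E} {n : ℕ} (hn : 0 < n) (hn0 : (n : k) ≠ 0) {ζ : k}
    (hζ : IsPrimitiveRoot ζ n) (f : E) :
    ∑ c ∈ Finset.range n, proj d n (ζ ^ c) f = f := by
  simp only [proj, ← Finset.smul_sum]
  rw [Finset.sum_comm]
  have e : ∀ c j : ℕ, (ζ ^ c)⁻¹ ^ j = ζ⁻¹ ^ (c * j) := fun c j => by rw [pow_mul, inv_pow ζ c]
  simp only [← Finset.sum_smul, e]
  rw [Finset.sum_eq_single_of_mem 0 (Finset.mem_range.2 hn)]
  · simp [smul_smul, inv_mul_cancel₀ hn0, ← Nat.cast_smul_eq_nsmul k]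
  · intro j hj hj0
    have hj' : j < n := Finset.mem_range.1 hj
    have hζ' : IsPrimitiveRoot ζ⁻¹ n := hζ.inv
    have hne : ζ⁻¹ ^ j ≠ 1 := fun h => hj0 (by
      by_contra hjn
      exact Nat.not_le.2 hj' (Nat.le_of_dvd (by omega) (hζ'.dvd_of_pow_eq_one j h)))
    have h := geom_sum_eq hne n
    rw [← pow_mul, mul_comm j n, pow_mul, hζ'.pow_eq_one, one_pow, sub_self, zero_div] at h
    have h' : ∑ c ∈ Finset.range n, ζ⁻¹ ^ (c * j) = 0 := by
      rw [← h]
      exact Finset.sum_congr rfl fun c _ => by rw [← pow_mul, mul_comm j c]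
    rw [h', zero_smul]

namespace IsCyclicCover

variable {ψ : E0 →ₐ[k] E} {d : E ≃ₐ[k] E} {n : ℕ}

theorem exists_eq_mul (hC : IsCyclicCover ψ d n) {z : k} (hz : z ≠ 0) {h f : E}
    (hh : h ∈ eig d z) (hh0 : h ≠ 0) (hf : f ∈ eig d z) : ∃ g, f = ψ g * h := by
  obtain ⟨g, hg⟩ := hC.fixed (f * h⁻¹) (by
    rw [map_mul, map_inv₀, mem_eig.1 hf, mem_eig.1 hh, Algebra.smul_def, Algebra.smul_def,
      mul_inv, mul_mul_mul_comm, mul_inv_cancel₀ (by simpa using hz), one_mul])
  exact ⟨g, by rw [hg, mul_assoc, inv_mul_cancel₀ hh0, mul_one]⟩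

theorem mul_mem_eig (hC : IsCyclicCover ψ d n) {z : k} {h : E} (hh : h ∈ eig d z) (g : E0) :
    ψ g * h ∈ eig d z := by
  rw [mem_eig, map_mul, hC.cov, mem_eig.1 hh, Algebra.mul_smul_comm]

/-- There is an eigenfunction for a primitive root of unity. -/
theorem exists_eigen (hC : IsCyclicCover ψ d n) {ζ : k} (hζ : IsPrimitiveRoot ζ n) :
    ∃ h : E, h ≠ 0 ∧ h ∈ eig d ζ := by
  by_contra! hcon
  have hzero : ∀ f, ∑ j : Fin n, ζ⁻¹ ^ (j : ℕ) • (d ^ (j : ℕ)) f = 0 := by
    intro f
    have h1 : proj d n ζ f = 0 := by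
      by_contra h0
      exact hcon _ h0 (proj_mem_eig hC.pow hζ.pow_eq_one hC.n_pos f)
    rw [proj, smul_eq_zero, inv_eq_zero] at h1
    rw [Fin.sum_univ_eq_sum_range fun j => ζ⁻¹ ^ j • (d ^ j) f]
    exact h1.resolve_left hC.n_ne_zero
  let e : Fin n → (E →* E) := fun j => ((d ^ (j : ℕ) : E ≃ₐ[k] E) : E →* E)
  have hinj : Function.Injective e := by
    intro i j hij
    have h1 : d ^ (i : ℕ) = d ^ (j : ℕ) := AlgEquiv.ext fun f => DFunLike.congr_fun hij f
    have key : ∀ {a b : ℕ}, a ≤ b → b < n → d ^ a = d ^ b → a = b := by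
      intro a b hab hb h
      have h2 : d ^ (b - a) = 1 := by
        have h3 : d ^ a * d ^ (b - a) = d ^ a * 1 := by
          rw [← pow_add, Nat.add_sub_cancel' hab, mul_one, h]
        exact mul_left_cancel h3
      by_contra hne
      exact Nat.not_le.2 (show b - a < n by omega) (Nat.le_of_dvd (by omega) (hC.order _ h2))
    rcases le_total (i : ℕ) j with h | h
    · exact Fin.ext (key h j.2 h1)
    · exact Fin.ext (key h i.2 h1.symm).symm
  have hli := (linearIndependent_monoidHom E E).comp e hinj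
  have h0 := Fintype.linearIndependent_iff.1 hli
    (fun j => algebraMap k E (ζ⁻¹ ^ (j : ℕ))) (by
      funext f
      rw [Finset.sum_apply]
      simp only [Function.comp_apply, Pi.smul_apply, Pi.zero_apply, smul_eq_mul]
      rw [← hzero f]
      exact Finset.sum_congr rfl fun j _ => (Algebra.smul_def _ _).symm) ⟨0, hC.n_pos⟩
  simp at h0

/-- Every function is a combination of the powers of an eigenfunction. -/
theorem exists_expansion (hC : IsCyclicCover ψ d n) {ζ : k} (hζ : IsPrimitiveRoot ζ n) {h : E}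
    (hh : h ∈ eig d ζ) (hh0 : h ≠ 0) (f : E) :
    ∃ g : ℕ → E0, f = ∑ c ∈ Finset.range n, ψ (g c) * h ^ c ∧
      d f = ∑ c ∈ Finset.range n, ζ ^ c • (ψ (g c) * h ^ c) := by
  have hpow : ∀ c : ℕ, h ^ c ∈ eig d (ζ ^ c) := fun c => by
    rw [mem_eig, map_pow, mem_eig.1 hh, smul_pow]
  have hz : ∀ c : ℕ, (ζ ^ c) ^ n = 1 := fun c => by
    rw [← pow_mul, mul_comm, pow_mul, hζ.pow_eq_one, one_pow]
  have key : ∀ c, ∃ g, proj d n (ζ ^ c) f = ψ g * h ^ c := fun c =>
    hC.exists_eq_mul (pow_ne_zero _ (hζ.ne_zero hC.n_pos.ne')) (hpow c) (pow_ne_zero _ hh0)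
      (proj_mem_eig hC.pow (hz c) hC.n_pos f)
  choose g hg using key
  have hf := sum_proj (d := d) hC.n_pos hC.n_ne_zero hζ f
  simp only [hg] at hf
  refine ⟨g, hf.symm, ?_⟩
  conv_lhs => rw [← hf]
  rw [map_sum]
  exact Finset.sum_congr rfl fun c _ => mem_eig.1 (hC.mul_mem_eig (hpow c) (g c))

theorem exists_pow_eq (hC : IsCyclicCover ψ d n) {z : k} (hz : z ^ n = 1) {h : E}
    (hh : h ∈ eig d z) : ∃ H, ψ H = h ^ n :=
  hC.fixed _ (by rw [map_pow, mem_eig.1 hh, smul_pow, hz, one_smul])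

end IsCyclicCover

section Places

variable [IsFunctionFieldOne k E0] [IsFunctionFieldOne k E] (ψ : E0 →ₐ[k] E)

theorem isIntegral_toRingHom : ψ.toRingHom.IsIntegral := by
  letI := algebraAlong ψ
  haveI := isScalarTower_along ψ
  haveI : Module.Finite E0 E := finite_of_isFunctionFieldOne (K := k)
  exact fun f => Algebra.IsIntegral.isIntegral (R := E0) f

/-- The place below `w`. -/
def resP (w : Place k E) : Place k E0 :=
  letI := algebraAlong ψ
  haveI := isScalarTower_along ψ
  haveI := isIntegral_along ψ (isIntegral_toRingHom ψ)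
  w.restrict E0

/-- The ramification index of `w`. -/
def ramI (w : Place k E) : ℕ :=
  letI := algebraAlong ψ
  w.ramificationIndex E0

theorem ord_cov (w : Place k E) (g : E0) : w.ord (ψ g) = (ramI ψ w : ℤ) * (resP ψ w).ord g := by
  letI := algebraAlong ψ
  haveI := isScalarTower_along ψ
  haveI := isIntegral_along ψ (isIntegral_toRingHom ψ)
  exact w.ord_restrict g

theorem ramI_pos (w : Place k E) : 0 < ramI ψ w := by
  letI := algebraAlong ψ
  haveI := isScalarTower_along ψ
  haveI := isIntegral_along ψ (isIntegral_toRingHom ψ)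
  exact w.ramificationIndex_pos

theorem resP_surjective : Function.Surjective (resP ψ) := by
  letI := algebraAlong ψ
  haveI := isScalarTower_along ψ
  haveI := isIntegral_along ψ (isIntegral_toRingHom ψ)
  haveI : Module.Finite E0 E := finite_of_isFunctionFieldOne (K := k)
  exact fun v => exists_restrict_eq v

theorem finite_fibre (v : Place k E0) : {w | resP ψ w = v}.Finite := by
  letI := algebraAlong ψ
  haveI := isScalarTower_along ψ
  haveI := isIntegral_along ψ (isIntegral_toRingHom ψ)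
  exact Place.restrict_fiber_finite v

open Classical in
/-- `f` has poles bounded by the pullback of `D` and vanishes above `Z`. -/
def covBound (D : Divisor k E0) (Z : Finset (Place k E0)) : Submodule k E where
  carrier := {f | f = 0 ∨ ∀ w : Place k E,
    (if resP ψ w ∈ Z then 1 else 0) - (ramI ψ w : ℤ) * D (resP ψ w) ≤ w.ord f}
  zero_mem' := Or.inl rfl
  add_mem' := by
    intro f g hf hg
    by_cases h : f + g = 0
    · exact Or.inl h
    · exact Or.inr fun w => le_ord_add w _ h (fun h0 => hf.resolve_left h0 w)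
        fun h0 => hg.resolve_left h0 w
  smul_mem' := by
    intro a f hf
    rcases eq_or_ne a 0 with rfl | ha
    · exact Or.inl (zero_smul _ _)
    rcases hf with h | h
    · exact Or.inl (by simp [h])
    · exact Or.inr fun w => by rw [ord_const_smul w ha]; exact h w

open Classical in
theorem mem_covBound {D : Divisor k E0} {Z : Finset (Place k E0)} {f : E} :
    f ∈ covBound ψ D Z ↔ f = 0 ∨ ∀ w : Place k E,
      (if resP ψ w ∈ Z then 1 else 0) - (ramI ψ w : ℤ) * D (resP ψ w) ≤ w.ord f := Iff.rfl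

theorem mem_L_cov_iff {g : E0} {N : ℕ} {f : E} :
    f ∈ riemannRochSpace (N • poleDivisor k (ψ g)) ↔
      f ∈ covBound ψ (N • poleDivisor k g) ∅ := by
  classical
  rw [mem_riemannRochSpace_iff, mem_covBound]
  rcases eq_or_ne f 0 with rfl | hf
  · simp
  simp only [hf, false_or, Finset.notMem_empty, if_false, zero_sub]
  refine forall_congr' fun w => ?_
  simp only [Finsupp.smul_apply, poleDivisor_apply, nsmul_eq_mul, ord_cov]
  rw [← mul_assoc, mul_comm (ramI ψ w : ℤ) (N : ℤ), mul_assoc (N : ℤ),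
    mul_max_of_nonneg _ _ (Int.natCast_nonneg (ramI ψ w)), mul_zero, mul_neg]

end Places

namespace IsCyclicCover

variable [IsFunctionFieldOne k E0] [IsFunctionFieldOne k E]
  {ψ : E0 →ₐ[k] E} {d : E ≃ₐ[k] E} {n : ℕ}

theorem mul_ord (hC : IsCyclicCover ψ d n) {H : E0} {h : E} (hH : ψ H = h ^ n) (w : Place k E) :
    (n : ℤ) * w.ord h = (ramI ψ w : ℤ) * (resP ψ w).ord H := by
  have := hC.n_pos
  rw [← ord_cov, hH, ord_pow]

open Classical in
/-- The bounded part of an eigenspace is a Riemann-Roch space downstairs. -/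
theorem exists_divisor_eigen (hC : IsCyclicCover ψ d n) {z : k} (hz : z ≠ 0) {h : E}
    (hh : h ∈ eig d z) (hh0 : h ≠ 0) {H : E0} (hH : ψ H = h ^ n)
    (D : Divisor k E0) (Z : Finset (Place k E0)) :
    ∃ G : Divisor k E0,
      (∀ v, G v = D v + (v.ord H - (if v ∈ Z then 1 else 0)) / (n : ℤ)) ∧
      Nonempty (riemannRochSpace G ≃ₗ[k] (eig d z ⊓ covBound ψ D Z : Submodule k E)) := by
  have hn := hC.n_pos
  have hH0 : H ≠ 0 := fun e => pow_ne_zero n hh0 (by rw [← hH, e, map_zero])
  obtain ⟨P, hP, -⟩ := HasPrincipalDivisors.exists_divisor (K := k) H hH0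
  let G : Divisor k E0 := Finsupp.onFinset (D.support ∪ P.support ∪ Z)
    (fun v => D v + (v.ord H - (if v ∈ Z then 1 else 0)) / (n : ℤ)) (fun v hv => by
      by_contra hnot
      simp only [Finset.mem_union, Finsupp.mem_support_iff, not_or, not_not, hP] at hnot
      refine hv ?_
      rw [hnot.1.1, hnot.1.2, if_neg hnot.2]
      simp)
  have hG : ∀ v, G v = D v + (v.ord H - (if v ∈ Z then 1 else 0)) / (n : ℤ) := fun v => rfl
  have key : ∀ g : E0, ψ g * h ∈ covBound ψ D Z ↔ g ∈ riemannRochSpace G := by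
    intro g
    rcases eq_or_ne g 0 with rfl | hg
    · simp
    have hψg : ψ g ≠ 0 := by simpa using hg
    rw [mem_L_iff hg, mem_covBound]
    simp only [mul_eq_zero, hψg, hh0, or_self, false_or]
    constructor
    · intro hcond v
      obtain ⟨w, rfl⟩ := resP_surjective ψ v
      have h1 := hcond w
      have he : (1 : ℤ) ≤ ramI ψ w := by exact_mod_cast ramI_pos ψ w
      rw [w.ord_mul hψg hh0, ord_cov] at h1
      have h2 := hC.mul_ord hH w
      rw [hG]
      set e : ℤ := (ramI ψ w : ℤ)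
      set v := resP ψ w
      set b : ℤ := if v ∈ Z then 1 else 0
      have hb : b = 0 ∨ b = 1 := by simp only [b]; split_ifs <;> simp
      have hX : b ≤ (n : ℤ) * v.ord g + v.ord H + (n : ℤ) * D v := by
        by_contra hlt
        push Not at hlt
        have h4 : e * ((n : ℤ) * v.ord g + v.ord H + (n : ℤ) * D v) ≤ e * (b - 1) :=
          mul_le_mul_of_nonneg_left (by omega) (by omega)
        have h5 : (n : ℤ) * (b - e * D v) ≤ (n : ℤ) * (e * v.ord g + w.ord h) :=
          mul_le_mul_of_nonneg_left h1 (by omega)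
        rcases hb with hb | hb <;> rw [hb] at h4 h5
        · nlinarith
        · nlinarith
      have h6 : -(D v + (v.ord H - b) / (n : ℤ)) ≤ v.ord g := by
        have h7 : -(v.ord g + D v) ≤ (v.ord H - b) / (n : ℤ) := by
          rw [Int.le_ediv_iff_mul_le (by omega : (0 : ℤ) < n)]
          nlinarith
        omega
      exact h6
    · intro hcond w
      have h1 := hcond (resP ψ w)
      rw [hG] at h1
      have he : (1 : ℤ) ≤ ramI ψ w := by exact_mod_cast ramI_pos ψ w
      rw [w.ord_mul hψg hh0, ord_cov]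
      have h2 := hC.mul_ord hH w
      set e : ℤ := (ramI ψ w : ℤ)
      set v := resP ψ w
      set b : ℤ := if v ∈ Z then 1 else 0
      have hb : b = 0 ∨ b = 1 := by simp only [b]; split_ifs <;> simp
      have h7 : -(v.ord g + D v) ≤ (v.ord H - b) / (n : ℤ) := by omega
      rw [Int.le_ediv_iff_mul_le (by omega : (0 : ℤ) < n)] at h7
      have hX : b ≤ (n : ℤ) * v.ord g + v.ord H + (n : ℤ) * D v := by nlinarith
      by_contra hlt
      push Not at hlt
      have h5 : (n : ℤ) * (e * v.ord g + w.ord h) ≤ (n : ℤ) * (b - e * D v - 1) :=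
        mul_le_mul_of_nonneg_left (by omega) (by omega)
      have h6 : e * b ≤ e * ((n : ℤ) * v.ord g + v.ord H + (n : ℤ) * D v) :=
        mul_le_mul_of_nonneg_left hX (by omega)
      rcases hb with hb | hb <;> rw [hb] at h5 h6
      · nlinarith
      · nlinarith
  let L : riemannRochSpace G →ₗ[k] (eig d z ⊓ covBound ψ D Z : Submodule k E) :=
    { toFun := fun g => ⟨ψ g * h, hC.mul_mem_eig hh g, (key g).2 g.2⟩
      map_add' := fun a b => Subtype.ext (by simp [add_mul])
      map_smul' := fun a g => Subtype.ext (by simp) }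
  refine ⟨G, hG, ⟨LinearEquiv.ofBijective L ⟨fun a b hab => ?_, ?_⟩⟩⟩
  · have h1 : ψ (a : E0) * h = ψ (b : E0) * h := congrArg Subtype.val hab
    exact Subtype.ext (ψ.toRingHom.injective (mul_right_cancel₀ hh0 h1))
  · rintro ⟨f, hf, hfb⟩
    obtain ⟨g, rfl⟩ := hC.exists_eq_mul hz hh hh0 hf
    exact ⟨⟨g, (key g).1 hfb⟩, rfl⟩

end IsCyclicCover

end Fermat.Agent.Carayol.LTwoComp

end
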