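/-
Basic facts on a two-component cyclic cover: both components are cyclic covers, and the union of
the special fibres is stable under the deck transformation and under the inertial twist, hence
its eigenvectors for non-trivial roots of unity split by components.
-/
import Fermat.Agent.Carayol.LTwoCompBase
import Fermat.Agent.Carayol.LTwoCompEigen
import Mathlib.RingTheory.Polynomial.Cyclotomic.Roots

set_option autoImplicit false
set_option linter.style.haveILetI false
set_option maxHeartbeats 400000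

noncomputable section

namespace Fermat.Agent.Carayol.LTwoComp

open AlgebraicCurve Fermat.Agent.Curve Fermat.Agent.Curve.RedAux Fermat.Agent.Bad
open MultiReduction IntermediateField

universe uK uF uk uE

theorem smul_mem_L_pole {k E : Type*} [Field k] [Field E] [Algebra k E] [IsFunctionFieldOne k E]
    (g : SemilinearAut k E) {x : E} (hx : g • x = x) {N : ℕ} {f : E}
    (hf : f ∈ riemannRochSpace (N • poleDivisor k x)) :
    g • f ∈ riemannRochSpace (N • poleDivisor k x) := by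
  rcases eq_or_ne f 0 with rfl | hf0
  · rw [smul_zero]; exact zero_mem _
  have hgf : g • f ≠ 0 := fun h => hf0 (by
    rw [← inv_smul_smul g f, h, smul_zero])
  refine (mem_L_iff hgf).2 fun v => ?_
  obtain ⟨w, rfl⟩ : ∃ w, g • w = v := ⟨g⁻¹ • v, smul_inv_smul g v⟩
  have h2 := (mem_L_iff hf0).1 hf w
  rw [Finsupp.smul_apply, poleDivisor_apply] at h2 ⊢
  have hw : (g • w).ord x = w.ord x := by
    conv_lhs => rw [← hx]
    exact SemilinearAut.ord_smul g w x
  rwa [SemilinearAut.ord_smul, hw]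

variable {K : Type uK} [Field K] [IsAlgClosed K] {A : ValuationSubring K}
  {F1 : Type uF} [Field F1] [Algebra K F1] [IsFunctionFieldOne K F1]
  {F : Type uF} [Field F] [Algebra K F] [IsFunctionFieldOne K F]
  {k : Type uk} [Field k]
  {E0 : Type uE} [Field E0] [Algebra k E0] [IsFunctionFieldOne k E0]
  {Eb : Fin 2 → Type uE} [∀ i, Field (Eb i)] [∀ i, Algebra k (Eb i)]
  [∀ i, IsFunctionFieldOne k (Eb i)]
  {R1 : MultiReduction A F1 k (fun _ : Fin 2 => E0)} {R : MultiReduction A F k Eb} {n : ℕ}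
  (C : TwoCompCover R1 R n)

include C

omit [IsAlgClosed K] in
theorem natCast_K_ne_zero : (n : K) ≠ 0 := by
  intro h
  have h' : (n : A) = 0 := Subtype.ext (by simpa using h)
  exact C.n_ne_zero (by rw [← map_natCast R.π, h', map_zero])

omit [IsAlgClosed K] in
theorem isCyclicCover_top : IsCyclicCover C.cov C.t n :=
  ⟨C.n_pos, natCast_K_ne_zero C, C.t_cov, C.t_pow, C.t_order, C.t_fixed⟩

omit [IsAlgClosed K] in
theorem d_pow_red (i : Fin 2) (j : ℕ) (f : R.V i) :
    ∃ h : (C.t ^ j) (f : F) ∈ R.V i, R.φ i ⟨_, h⟩ = (C.d i ^ j) (R.φ i f) := by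
  induction j with
  | zero => exact ⟨f.2, rfl⟩
  | succ j ih =>
    obtain ⟨h, e⟩ := ih
    have h' : (C.t ^ (j + 1)) (f : F) ∈ R.V i := by
      rw [← pow_succ_apply]; exact (C.t_mem_iff i _).2 h
    refine ⟨h', ?_⟩
    rw [← pow_succ_apply (C.d i), ← e, ← C.t_red i ⟨_, h⟩]
    exact congrArg (R.φ i) (Subtype.ext (pow_succ_apply C.t j _).symm)

omit [IsAlgClosed K] in
theorem isCyclicCover_comp (i : Fin 2) : IsCyclicCover (C.emb i) (C.d i) n where
  n_pos := C.n_pos
  n_ne_zero := C.n_ne_zero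
  cov g := by
    obtain ⟨f, rfl⟩ := R1.φ_surjective i g
    rw [← C.cov_red i f, ← C.t_red i ⟨_, (C.cov_mem_iff i f).2 f.2⟩]
    exact congrArg (R.φ i) (Subtype.ext (C.t_cov _))
  pow := AlgEquiv.ext fun h => by
    obtain ⟨f, rfl⟩ := R.φ_surjective i h
    obtain ⟨h', e⟩ := d_pow_red C i n f
    rw [← e]
    exact congrArg (R.φ i) (Subtype.ext (DFunLike.congr_fun C.t_pow (f : F)))
  order := C.d_order i
  fixed := C.d_fixed i

omit [IsAlgClosed K] in
theorem xb_eq (i : Fin 2) : R.xb i = C.emb i (R1.xb i) := by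
  unfold MultiReduction.xb
  rw [← C.cov_red i ⟨R1.x, R1.x_mem i⟩]
  exact congrArg (R.φ i) (Subtype.ext C.x_eq)

omit [IsAlgClosed K] in
theorem mem_polarSp_iff {N : ℕ} {f : F} :
    f ∈ R.polarSp N ↔ f ∈ covBound C.cov (N • R1.poleX) ∅ := by
  unfold MultiReduction.polarSp MultiReduction.poleX
  rw [C.x_eq]
  exact mem_L_cov_iff C.cov

omit [IsAlgClosed K] in
theorem ramI_top (w : Place K F) : ramI C.cov w = 1 := by
  obtain ⟨g, hg⟩ := C.unram w
  rw [ord_cov] at hg
  have h1 : (ramI C.cov w : ℤ) ∣ 1 := ⟨_, hg.symm⟩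
  exact_mod_cast Int.eq_one_of_dvd_one (Int.natCast_nonneg _) h1

omit [IsAlgClosed K] in
theorem cov_mem_polarSp {N : ℕ} {g : F1} (hg : g ∈ R1.polarSp N) :
    C.cov g ∈ R.polarSp N := by
  classical
  rw [mem_polarSp_iff C, mem_covBound]
  rcases eq_or_ne g 0 with rfl | hg0
  · exact Or.inl (map_zero _)
  refine Or.inr fun w => ?_
  rw [ord_cov, if_neg (Finset.notMem_empty _), zero_sub, ← mul_neg]
  exact mul_le_mul_of_nonneg_left ((mem_L_iff hg0).1 hg _) (Int.natCast_nonneg _)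

omit [IsAlgClosed K] in
/-- The special fibre of the base maps to that of the cover. -/
theorem emb_mem_spFibre {N : ℕ} {h : Fin 2 → E0} (hh : h ∈ R1.spFibre (R1.polarSp N)) :
    (fun i => C.emb i (h i)) ∈ R.spFibre (R.polarSp N) := by
  obtain ⟨⟨f, hf⟩, hfN, rfl⟩ := hh
  have hf' := R1.mem_integers.1 hf
  refine ⟨⟨C.cov f, R.mem_integers.2 fun i => (C.cov_mem_iff i f).2 (hf' i)⟩,
    cov_mem_polarSp C hfN, funext fun i => ?_⟩
  rw [R.red_apply, R1.red_apply]
  exact C.cov_red i ⟨f, hf' i⟩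

omit [IsAlgClosed K] in
theorem t_mem_spFibre {N : ℕ} {h : ∀ i, Eb i} (hh : h ∈ R.spFibre (R.polarSp N)) :
    (fun i => C.d i (h i)) ∈ R.spFibre (R.polarSp N) := by
  obtain ⟨⟨f, hf⟩, hfN, rfl⟩ := hh
  have hf' := R.mem_integers.1 hf
  refine ⟨⟨C.t f, R.mem_integers.2 fun i => (C.t_mem_iff i f).2 (hf' i)⟩, ?_, funext fun i => ?_⟩
  · have h1 := smul_mem_L_pole (SemilinearAut.ofAlgAut C.t) (x := R.x)
      (by rw [SemilinearAut.ofAlgAut_smul, C.x_eq, C.t_cov]) (show f ∈ riemannRochSpace _ from hfN)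
    rwa [SemilinearAut.ofAlgAut_smul] at h1
  · rw [R.red_apply, R.red_apply]
    exact C.t_red i ⟨f, hf' i⟩

omit [IsAlgClosed K] in
theorem s_mem_spFibre {N : ℕ} {h : ∀ i, Eb i} (hh : h ∈ R.spFibre (R.polarSp N)) :
    Function.update h 1 (C.d 1 (h 1)) ∈ R.spFibre (R.polarSp N) := by
  obtain ⟨⟨f, hf⟩, hfN, rfl⟩ := hh
  have hf' := R.mem_integers.1 hf
  obtain ⟨h0, e0⟩ := C.s_red_zero ⟨f, hf' 0⟩
  obtain ⟨h1, e1⟩ := C.s_red_one ⟨f, hf' 1⟩
  refine ⟨⟨C.s • f, R.mem_integers.2 fun i => ?_⟩,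
    smul_mem_L_pole C.s C.s_x (show f ∈ riemannRochSpace _ from hfN), funext fun i => ?_⟩
  · fin_cases i
    · exact h0
    · exact h1
  · fin_cases i
    · exact (R.red_apply _ _).trans e0
    · exact (R.red_apply _ _).trans (e1.trans (Function.update_self (β := fun i => Eb i) _ _ _).symm)

omit [IsAlgClosed K] in
theorem pow_t_mem_spFibre {N : ℕ} (j : ℕ) :
    ∀ {h : ∀ i, Eb i}, h ∈ R.spFibre (R.polarSp N) →
      (fun i => (C.d i ^ j) (h i)) ∈ R.spFibre (R.polarSp N) := by
  induction j with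
  | zero => exact fun hh => hh
  | succ j ih =>
    intro h hh
    have := t_mem_spFibre C (ih hh)
    simp only [pow_succ_apply] at this
    exact this

omit [IsAlgClosed K] in
/-- Eigenvectors for non-trivial roots of unity split by components. -/
theorem single_mem_of_eig {N : ℕ} {h : ∀ i, Eb i} (hh : h ∈ R.spFibre (R.polarSp N)) {z : k}
    (hz : z ≠ 1) (he : ∀ i, h i ∈ eig (C.d i) z) (i : Fin 2) :
    Pi.single (M := Eb) i (h i) ∈ R.spFibre (R.polarSp N) := by
  have h1 := s_mem_spFibre C hh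
  have hz' : (1 - z) ≠ 0 := sub_ne_zero.2 (Ne.symm hz)
  fin_cases i
  · have h2 := Submodule.smul_mem _ (1 - z)⁻¹
      (sub_mem h1 (Submodule.smul_mem _ z hh))
    convert h2 using 1
    funext l
    fin_cases l
    · show Pi.single (M := Eb) 0 (h 0) 0 = (1 - z)⁻¹ • (Function.update h 1 _ 0 - z • h 0)
      rw [Pi.single_eq_same, Function.update_of_ne (by decide : (0 : Fin 2) ≠ 1)]
      rw [show h 0 - z • h 0 = (1 - z) • h 0 by rw [sub_smul, one_smul], smul_smul,
        inv_mul_cancel₀ hz', one_smul]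
    · show Pi.single (M := Eb) 0 (h 0) 1 = (1 - z)⁻¹ • (Function.update h 1 _ 1 - z • h 1)
      rw [Pi.single_eq_of_ne (by decide : (1 : Fin 2) ≠ 0), Function.update_self,
        mem_eig.1 (he 1), sub_self, smul_zero]
  · have h2 := Submodule.smul_mem _ (1 - z)⁻¹ (sub_mem hh h1)
    convert h2 using 1
    funext l
    fin_cases l
    · show Pi.single (M := Eb) 1 (h 1) 0 = (1 - z)⁻¹ • (h 0 - Function.update h 1 _ 0)
      rw [Pi.single_eq_of_ne (by decide : (0 : Fin 2) ≠ 1),
        Function.update_of_ne (by decide : (0 : Fin 2) ≠ 1), sub_self, smul_zero]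
    · show Pi.single (M := Eb) 1 (h 1) 1 = (1 - z)⁻¹ • (h 1 - Function.update h 1 _ 1)
      rw [Pi.single_eq_same, Function.update_self, mem_eig.1 (he 1),
        show h 1 - z • h 1 = (1 - z) • h 1 by rw [sub_smul, one_smul], smul_smul,
        inv_mul_cancel₀ hz', one_smul]

/-- A root of unity in `A` primitive both in `K` and residually. -/
theorem exists_root : ∃ ζ : A, IsPrimitiveRoot (ζ : K) n ∧ IsPrimitiveRoot (R.π ζ) n := by
  haveI : NeZero (n : K) := ⟨natCast_K_ne_zero C⟩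
  haveI : NeZero (n : k) := ⟨C.n_ne_zero⟩
  obtain ⟨z, hz⟩ := IsAlgClosed.exists_root (Polynomial.cyclotomic n K)
    (Polynomial.degree_cyclotomic_pos n K C.n_pos).ne'
  have hzp : IsPrimitiveRoot z n := Polynomial.isRoot_cyclotomic_iff.1 hz
  have hzA : z ∈ A := by
    rcases A.mem_or_inv_mem z with h | h
    · exact h
    · have h1 : z⁻¹ ^ (n - 1) ∈ A := pow_mem h _
      have h2 : z⁻¹ ^ (n - 1) = z := by
        have h3 : z ^ (n - 1) * z = 1 := by
          rw [← pow_succ, Nat.sub_add_cancel C.n_pos, hzp.pow_eq_one]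
        rw [inv_pow]
        exact inv_eq_of_mul_eq_one_right h3
      rwa [h2] at h1
  refine ⟨⟨z, hzA⟩, hzp, Polynomial.isRoot_cyclotomic_iff.1 ?_⟩
  have h0 : (Polynomial.cyclotomic n A).IsRoot ⟨z, hzA⟩ := by
    refine Polynomial.IsRoot.of_map (f := A.subtype) ?_ Subtype.val_injective
    rw [Polynomial.map_cyclotomic]
    exact hz
  have := h0.map (f := R.π)
  rwa [Polynomial.map_cyclotomic] at this

end Fermat.Agent.Carayol.LTwoComp

end
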