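/-
Counting eigenfunctions of a two-component cyclic cover: for a non-trivial root of unity every
pair of eigenfunctions on the components vanishing above the singular points is in the special
fibre, and the orders at singular points of the eigenfunctions are prime to the degree.
-/
import Fermat.Agent.Carayol.LTwoCompCover

set_option autoImplicit false
set_option linter.style.haveILetI false
set_option maxHeartbeats 400000

noncomputable section

namespace Fermat.Agent.Carayol.LTwoComp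

open AlgebraicCurve Fermat.Agent.Curve Fermat.Agent.Curve.RedAux Fermat.Agent.Bad
open MultiReduction IntermediateField

universe uK uF uk uE

theorem ediv_pair_le {n x b : ℤ} (hn : 0 < n) (hb : b = 0 ∨ b = 1) :
    (x - b) / n + (-x - b) / n ≤ -b := by
  have h1 := Int.ediv_mul_le (x - b) hn.ne'
  have h2 := Int.ediv_mul_le (-x - b) hn.ne'
  by_contra h
  push Not at h
  have h3 : (-b + 1) * n ≤ ((x - b) / n + (-x - b) / n) * n :=
    mul_le_mul_of_nonneg_right (by omega) hn.le
  rcases hb with rfl | rfl <;> nlinarith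

theorem ediv_pair_lt {n x : ℤ} (hn : 0 < n) (hx : n ∣ x) :
    (x - 1) / n + (-x - 1) / n ≤ -2 := by
  obtain ⟨y, rfl⟩ := hx
  have h1 := Int.ediv_mul_le (n * y - 1) hn.ne'
  have h2 := Int.ediv_mul_le (-(n * y) - 1) hn.ne'
  have h3 : (n * y - 1) / n < y := by
    by_contra h
    push Not at h
    nlinarith [mul_le_mul_of_nonneg_right h hn.le]
  have h4 : (-(n * y) - 1) / n < -y := by
    by_contra h
    push Not at h
    nlinarith [mul_le_mul_of_nonneg_right h hn.le]
  omega

variable {K : Type uK} [Field K] [IsAlgClosed K] {A : ValuationSubring K}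
  {F1 : Type uF} [Field F1] [Algebra K F1] [IsFunctionFieldOne K F1]
  {F : Type uF} [Field F] [Algebra K F] [IsFunctionFieldOne K F]
  {k : Type uk} [Field k]
  {E0 : Type uE} [Field E0] [Algebra k E0] [IsFunctionFieldOne k E0]
  {Eb : Fin 2 → Type uE} [∀ i, Field (Eb i)] [∀ i, Algebra k (Eb i)]
  [∀ i, IsFunctionFieldOne k (Eb i)]
  {R1 : MultiReduction A F1 k (fun _ : Fin 2 => E0)} {R : MultiReduction A F k Eb} {n : ℕ}
  (C : TwoCompCover R1 R n)

/-- Eigenfunctions of the component `i` with bounded poles vanishing above the singular points. -/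
def compEig (i : Fin 2) (z : k) (N : ℕ) : Submodule k (Eb i) :=
  eig (C.d i) z ⊓ covBound (C.emb i) (N • poleDivisor k (R1.xb i)) (sing C i)

/-- Eigenfunctions of the cover with bounded poles. -/
def topEig (z : K) (N : ℕ) : Submodule K F :=
  eig C.t z ⊓ covBound C.cov (N • R1.poleX) ∅

open Classical in
/-- The indicator of the singular points. -/
def indSing (i : Fin 2) (v : Place k E0) : ℤ := if v ∈ sing C i then 1 else 0

include C

theorem topEig_le (z : K) (N : ℕ) : topEig C z N ≤ R.polarSp N :=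
  fun _ hf => (mem_polarSp_iff C).2 hf.2

/-- A tuple of the special fibre fixed by the deck transformation comes from the base. -/
theorem exists_base_of_fixed {N : ℕ} {h : ∀ i, Eb i} (hh : h ∈ R.spFibre (R.polarSp N))
    {g : Fin 2 → E0} (hg : ∀ i, C.emb i (g i) = h i) : g ∈ R1.spFibre (R1.polarSp N) := by
  classical
  have hh' : h ∈ R.spFibre (topEig C 1 N) := by
    obtain ⟨⟨f, hf⟩, hfN, hred⟩ := hh
    have hf' := R.mem_integers.1 hf
    have hd : ∀ i, C.d i (h i) = h i := fun i => by rw [← hg, (isCyclicCover_comp C i).cov]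
    have hpow : ∀ j i, ∃ hm : (C.t ^ j) f ∈ R.V i, R.φ i ⟨_, hm⟩ = h i := by
      intro j i
      obtain ⟨hm, e⟩ := d_pow_red C i j ⟨f, hf' i⟩
      refine ⟨hm, e.trans ?_⟩
      rw [← R.red_apply ⟨f, hf⟩ i, hred]
      have he : h i ∈ eig (C.d i) (1 : k) := by rw [mem_eig, one_smul, hd]
      rw [pow_apply_of_mem_eig he j, one_pow, one_smul]
    have hpolar : ∀ j : ℕ, (C.t ^ j) f ∈ R.polarSp N := by
      intro j
      induction j with
      | zero => exact hfN
      | succ j ih =>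
        have h1 := smul_mem_L_pole (SemilinearAut.ofAlgAut C.t) (x := R.x)
          (by rw [SemilinearAut.ofAlgAut_smul, C.x_eq, C.t_cov])
          (show (C.t ^ j) f ∈ riemannRochSpace _ from ih)
        rwa [SemilinearAut.ofAlgAut_smul, pow_succ_apply] at h1
    have hA' : (n : K)⁻¹ ∈ A := by
      rcases A.mem_or_inv_mem (n : K)⁻¹ with h1 | h1
      · exact h1
      · have hu : IsUnit (n : A) := by
          by_contra hnu
          exact C.n_ne_zero (by
            rw [← map_natCast R.π, (R.π_eq_zero_iff_mem _).2 hnu])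
        obtain ⟨b, hb⟩ := hu.exists_right_inv
        have hb' : (n : K) * (b : K) = 1 := by simpa using congrArg Subtype.val hb
        rw [inv_eq_of_mul_eq_one_right hb']
        exact b.2
    have hF : proj C.t n (1 : K) f ∈ R.integers := R.mem_integers.2 fun i => by
      rw [proj, Algebra.smul_def]
      refine mul_mem ((R.mem_V_iff i _).2 hA') (sum_mem fun j _ => ?_)
      rw [inv_one, one_pow, one_smul]
      exact (hpow j i).1
    refine ⟨⟨_, hF⟩, ⟨proj_mem_eig C.t_pow (one_pow n) C.n_pos f,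
      (mem_polarSp_iff C).1 (Submodule.smul_mem _ _ (sum_mem fun j _ =>
        Submodule.smul_mem _ _ (hpolar j)))⟩, funext fun i => ?_⟩
    rw [R.red_apply]
    have e1 : (⟨proj C.t n (1 : K) f, R.mem_integers.1 hF i⟩ : R.V i) =
        ⟨algebraMap K F (n : K)⁻¹, (R.mem_V_iff i _).2 hA'⟩ *
          ∑ j ∈ Finset.range n, ⟨(C.t ^ j) f, (hpow j i).1⟩ := by
      refine Subtype.ext ?_
      show proj C.t n (1 : K) f = _
      rw [MulMemClass.coe_mul, AddSubmonoidClass.coe_finsetSum, proj, Algebra.smul_def]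
      simp
    rw [e1, map_mul, map_sum, R.φ_algebraMap i ⟨_, hA'⟩,
      Finset.sum_congr rfl fun j _ => (hpow j i).2, Finset.sum_const, Finset.card_range,
      ← Nat.cast_smul_eq_nsmul k, ← Algebra.smul_def, smul_smul]
    rw [show R.π ⟨_, hA'⟩ * (n : k) = 1 by
      rw [← map_natCast R.π, ← map_mul, ← map_one R.π]
      exact congrArg _ (Subtype.ext (by simpa using inv_mul_cancel₀ (natCast_K_ne_zero C))),
      one_smul]
  obtain ⟨⟨f, hf⟩, ⟨hft, hfp⟩, hred⟩ := hh'
  rw [SetLike.mem_coe, mem_eig, one_smul] at hft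
  obtain ⟨u, rfl⟩ := C.t_fixed f hft
  have hu : ∀ i, u ∈ R1.V i := fun i => (C.cov_mem_iff i u).1 (R.mem_integers.1 hf i)
  refine ⟨⟨u, R1.mem_integers.2 hu⟩, ?_, funext fun i => (C.emb i).injective ?_⟩
  · rcases eq_or_ne u 0 with rfl | hu0
    · exact zero_mem _
    refine (mem_L_iff hu0).2 fun v => ?_
    obtain ⟨w, rfl⟩ := resP_surjective C.cov v
    have h1 := ((mem_covBound _).1 hfp).resolve_left (by simpa using hu0) w
    rw [if_neg (Finset.notMem_empty _), zero_sub, ord_cov, ramI_top C, Nat.cast_one, one_mul,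
      one_mul] at h1
    exact h1
  · show C.emb i (R1.red ⟨u, _⟩ i) = C.emb i (g i)
    rw [hg, ← hred, R1.red_apply, R.red_apply]
    exact (C.cov_red i ⟨u, hu i⟩).symm

/-- A one-component eigen-tuple of the special fibre vanishes above the singular points. -/
theorem vanishes_above {i : Fin 2} {z : k} (hz : z ^ n = 1) {e : Eb i}
    (hee : e ∈ eig (C.d i) z) (he : InS R (Pi.single (M := Eb) i e)) {w : Place k (Eb i)}
    (hw : resP (C.emb i) w ∈ sing C i) : e = 0 ∨ 1 ≤ w.ord e := by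
  refine or_iff_not_imp_left.2 fun he0 => ?_
  have hC := isCyclicCover_comp C i
  obtain ⟨H, hH⟩ := hC.exists_pow_eq hz hee
  obtain ⟨N, hN⟩ := he.pow n
  have hp : Pi.single (M := Eb) i e ^ n = Pi.single (M := Eb) i (e ^ n) := by
    funext l
    rcases eq_or_ne l i with rfl | hl
    · rw [Pi.pow_apply, Pi.single_eq_same, Pi.single_eq_same]
    · rw [Pi.pow_apply, Pi.single_eq_of_ne hl, Pi.single_eq_of_ne hl, zero_pow C.n_pos.ne']
  rw [hp] at hN
  have hbase := exists_base_of_fixed C hN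
    (g := Pi.single (M := fun _ : Fin 2 => E0) i H) fun l => by
      rcases eq_or_ne l i with rfl | hl
      · rw [Pi.single_eq_same, Pi.single_eq_same, hH]
      · rw [Pi.single_eq_of_ne hl, Pi.single_eq_of_ne hl, map_zero]
  have hH0 : H ≠ 0 := fun h => pow_ne_zero n he0 (by rw [← hH, h, map_zero])
  have h1 := (((mem_sing C).1 hw).2 H ⟨N, hbase⟩).resolve_left hH0
  have h2 := hC.mul_ord hH w
  have h3 : (1 : ℤ) ≤ ramI (C.emb i) w := by exact_mod_cast ramI_pos (C.emb i) w
  by_contra hlt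
  have h4 : (n : ℤ) * w.ord e ≤ 0 :=
    mul_nonpos_of_nonneg_of_nonpos (Int.natCast_nonneg _) (by omega)
  have h5 : 1 ≤ (ramI (C.emb i) w : ℤ) * (resP (C.emb i) w).ord H := by nlinarith
  omega

theorem mem_L_xb_iff {i : Fin 2} {N : ℕ} {e : Eb i} :
    e ∈ riemannRochSpace (N • poleDivisor k (R.xb i)) ↔
      e ∈ covBound (C.emb i) (N • poleDivisor k (R1.xb i)) ∅ := by
  rw [xb_eq C i]
  exact mem_L_cov_iff (C.emb i)

theorem mem_covBound_sing {i : Fin 2} {N : ℕ} {e : Eb i}
    (hb : e ∈ riemannRochSpace (N • poleDivisor k (R.xb i)))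
    (hv : ∀ w, resP (C.emb i) w ∈ sing C i → e = 0 ∨ 1 ≤ w.ord e) :
    e ∈ covBound (C.emb i) (N • poleDivisor k (R1.xb i)) (sing C i) := by
  classical
  rw [mem_covBound]
  refine or_iff_not_imp_left.2 fun he0 w => ?_
  split_ifs with hw
  · rw [Finsupp.smul_apply, poleDivisor_sing C hw, smul_zero, mul_zero, sub_zero]
    exact (hv w hw).resolve_left he0
  · have h2 := (((mem_covBound _).1 ((mem_L_xb_iff C).1 hb)).resolve_left he0) w
    rwa [if_neg (Finset.notMem_empty _)] at h2

/-- The reduction of a top eigenfunction lies in the component eigenspaces. -/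
theorem red_mem_compEig {z : A} (hzn : R.π z ^ n = 1) (hz : R.π z ≠ 1) {N : ℕ} {y : ∀ i, Eb i}
    (hy : y ∈ R.spFibre (topEig C (z : K) N)) (i : Fin 2) :
    y i ∈ compEig C i (R.π z) N := by
  have hS := R.spFibre_mono (topEig_le C (z : K) N) hy
  obtain ⟨⟨f, hf⟩, hfW, rfl⟩ := hy
  have hf' := R.mem_integers.1 hf
  have heig : ∀ l, R.red ⟨f, hf⟩ l ∈ eig (C.d l) (R.π z) := by
    intro l
    rw [mem_eig, R.red_apply, ← C.t_red l ⟨f, hf' l⟩, Algebra.smul_def, ← R.φ_algebraMap l z,
      ← map_mul]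
    refine congrArg (R.φ l) (Subtype.ext ?_)
    show C.t f = algebraMap K F (z : K) * f
    rw [← Algebra.smul_def]
    exact hfW.1
  refine ⟨heig i, mem_covBound_sing C (R.mem_polarFibre.1 (R.spFibre_polar_le N hS) i)
    fun w hw => vanishes_above C hzn (heig i) ⟨N, single_mem_of_eig C hS hz heig i⟩ hw⟩

theorem exists_finrank_topEig {z : A} (hz : (z : K) ^ n = 1) (hz0 : (z : K) ≠ 0) {h : F}
    (hh : h ∈ eig C.t (z : K)) (hh0 : h ≠ 0) :
    ∃ N₀ : ℕ, ∀ N, N₀ ≤ N → FiniteDimensional K (topEig C (z : K) N) ∧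
      (Module.finrank K (topEig C (z : K) N) : ℤ) =
        (N : ℤ) * (Divisor.degree R1.poleX) + 1 - (genusFF K F1 : ℤ) := by
  classical
  have hC := isCyclicCover_top C
  have hn : (0 : ℤ) < n := by exact_mod_cast C.n_pos
  obtain ⟨H, hH⟩ := hC.exists_pow_eq hz hh
  have hH0 : H ≠ 0 := fun e => pow_ne_zero n hh0 (by rw [← hH, e, map_zero])
  obtain ⟨P, hP, hP0⟩ := HasPrincipalDivisors.exists_divisor (K := K) H hH0
  obtain ⟨c, hc⟩ := exists_finrank_L_eq (K := K) (F := F1)
  have hdvd : ∀ v : Place K F1, (n : ℤ) ∣ v.ord H := by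
    intro v
    obtain ⟨w, rfl⟩ := resP_surjective C.cov v
    have := hC.mul_ord hH w
    rw [ramI_top C, Nat.cast_one, one_mul] at this
    exact ⟨_, this.symm⟩
  have hdpos : 1 ≤ Divisor.degree R1.poleX := by
    rw [R1.degree_poleX]
    have := R1.degree_pos 0
    have h2 := Finset.single_le_sum (f := fun i => Module.finrank k⟮R1.xb i⟯ E0)
      (fun _ _ => Nat.zero_le _) (Finset.mem_univ (0 : Fin 2))
    have h3 : 1 ≤ ∑ i, Module.finrank k⟮R1.xb i⟯ E0 := le_trans this h2
    exact_mod_cast h3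
  refine ⟨c.toNat, fun N hN => ?_⟩
  obtain ⟨G, hG, ⟨e⟩⟩ := hC.exists_divisor_eigen hz0 hh hh0 hH (N • R1.poleX) ∅
  have hnG : (n : ℤ) • G = ((n : ℤ) * (N : ℤ)) • R1.poleX + P := by
    ext v
    rw [Finsupp.add_apply, Finsupp.smul_apply, Finsupp.smul_apply, hG,
      if_neg (Finset.notMem_empty _), sub_zero, Finsupp.smul_apply, smul_eq_mul, smul_eq_mul,
      nsmul_eq_mul, hP, mul_add, Int.mul_ediv_cancel' (hdvd v), mul_assoc]
  have hdeg : Divisor.degree G = (N : ℤ) * Divisor.degree R1.poleX := by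
    have := congrArg Divisor.degree hnG
    rw [map_add, hP0, add_zero, map_zsmul, map_zsmul, smul_eq_mul, smul_eq_mul, mul_assoc] at this
    exact mul_left_cancel₀ hn.ne' this
  haveI := finite_L G
  refine ⟨e.finiteDimensional, ?_⟩
  show (Module.finrank K (eig C.t (z : K) ⊓ covBound C.cov (N • R1.poleX) ∅ : Submodule K F) : ℤ) = _
  rw [← e.finrank_eq, hc G (by rw [hdeg]; have := le_mul_of_one_le_right (Int.natCast_nonneg N) hdpos; omega), hdeg]

theorem exists_finrank_compEig (i : Fin 2) {z : k} (hz0 : z ≠ 0) {h : Eb i}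
    (hh : h ∈ eig (C.d i) z) (hh0 : h ≠ 0) {H : E0} (hH : C.emb i H = h ^ n) :
    ∃ G₀ : Divisor k E0,
      (∀ v, G₀ v = (v.ord H - indSing C i v) / (n : ℤ)) ∧
      ∃ N₀ : ℕ, ∀ N, N₀ ≤ N → FiniteDimensional k (compEig C i z N) ∧
        (Module.finrank k (compEig C i z N) : ℤ) =
          (N : ℤ) * (Module.finrank k⟮R1.xb i⟯ E0) + Divisor.degree G₀ + 1 -
            (genusFF k E0 : ℤ) := by
  haveI := R1.isAlgClosed_residue
  have hC := isCyclicCover_comp C i
  obtain ⟨c, hc⟩ := exists_finrank_L_eq (K := k) (F := E0)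
  obtain ⟨G₀, hG₀, -⟩ := hC.exists_divisor_eigen hz0 hh hh0 hH 0 (sing C i)
  refine ⟨G₀, fun v => by rw [hG₀, indSing]; simp, (c - Divisor.degree G₀).toNat, fun N hN => ?_⟩
  obtain ⟨G, hG, ⟨e⟩⟩ :=
    hC.exists_divisor_eigen hz0 hh hh0 hH (N • poleDivisor k (R1.xb i)) (sing C i)
  have hGeq : G = N • poleDivisor k (R1.xb i) + G₀ := by
    ext v
    rw [Finsupp.add_apply, hG, hG₀]
    simp
  have hdeg : Divisor.degree G =
      (N : ℤ) * (Module.finrank k⟮R1.xb i⟯ E0) + Divisor.degree G₀ := by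
    rw [hGeq, map_add, map_nsmul, degree_poleDivisor (t := R1.xb i) (R1.x_transcendental i),
      nsmul_eq_mul]
  haveI := finite_L G
  refine ⟨e.finiteDimensional, ?_⟩
  have hle : (N : ℤ) ≤ (N : ℤ) * (Module.finrank k⟮R1.xb i⟯ E0) :=
    le_mul_of_one_le_right (Int.natCast_nonneg N) (by exact_mod_cast R1.degree_pos i)
  show (Module.finrank k (eig (C.d i) z ⊓
    covBound (C.emb i) (N • poleDivisor k (R1.xb i)) (sing C i) : Submodule k (Eb i)) : ℤ) = _
  rw [← e.finrank_eq, hc G (by rw [hdeg]; omega), hdeg]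

/-- The degree of the two bounds for a root of unity and its inverse. -/
theorem degree_pair {i : Fin 2} {H : E0} (hH0 : H ≠ 0) {c : ℕ} (hc : c ≤ n)
    {G G' : Divisor k E0}
    (hG : ∀ v, G v = ((c : ℤ) * v.ord H -
      indSing C i v) / (n : ℤ))
    (hG' : ∀ v, G' v = (((n - c : ℕ) : ℤ) * v.ord H -
      indSing C i v) / (n : ℤ)) :
    Divisor.degree G + Divisor.degree G' ≤ -((sing C i).card : ℤ) ∧
      ∀ v ∈ sing C i, (n : ℤ) ∣ (c : ℤ) * v.ord H →
        Divisor.degree G + Divisor.degree G' < -((sing C i).card : ℤ) := by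
  classical
  haveI := R1.isAlgClosed_residue
  have hn : (0 : ℤ) < n := by exact_mod_cast C.n_pos
  obtain ⟨P, hP, hP0⟩ := HasPrincipalDivisors.exists_divisor (K := k) H hH0
  set Z : Divisor k E0 := -∑ v ∈ sing C i, Finsupp.single v 1 with hZ
  have hZv : ∀ v, Z v = -(if v ∈ sing C i then 1 else 0 : ℤ) := by
    intro v
    rw [hZ, Finsupp.neg_apply, Finsupp.finsetSum_apply]
    simp [Finsupp.single_apply, Finset.sum_ite_eq']
  have hZdeg : Divisor.degree Z = -((sing C i).card : ℤ) := by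
    rw [hZ, map_neg, map_sum]
    simp [RedAux.deg_one]
  have hval : ∀ v, (G + G' - P) v =
      ((c : ℤ) * v.ord H - indSing C i v) / (n : ℤ) +
        (-((c : ℤ) * v.ord H) - indSing C i v) / (n : ℤ) := by
    intro v
    rw [Finsupp.sub_apply, Finsupp.add_apply, hG, hG', hP, Nat.cast_sub hc]
    have e : ((n : ℤ) - (c : ℤ)) * v.ord H - indSing C i v =
        (-((c : ℤ) * v.ord H) - indSing C i v) + v.ord H * (n : ℤ) := by ring
    rw [e, Int.add_mul_ediv_right _ _ hn.ne']
    ring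
  have hle : G + G' - P ≤ Z := Finsupp.le_def.2 fun v => by
    rw [hval, hZv, ← indSing]
    exact ediv_pair_le hn (by unfold indSing; split_ifs <;> simp)
  have hdeg : Divisor.degree (G + G' - P) = Divisor.degree G + Divisor.degree G' := by
    rw [map_sub, map_add, hP0, sub_zero]
  refine ⟨?_, fun v hv hdvd => ?_⟩
  · rw [← hZdeg, ← hdeg]; exact RedAux.degree_mono hle
  · rw [← hZdeg, ← hdeg]
    refine lt_of_le_of_ne (RedAux.degree_mono hle) fun heq => ?_
    have h1 := congrArg (fun D : Divisor k E0 => D v) (RedAux.eq_of_le_of_degree_le hle heq.ge)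
    replace h1 : (G + G' - P) v = Z v := h1
    rw [hval, hZv, indSing, if_pos hv] at h1
    have := ediv_pair_lt hn hdvd
    omega

/-- Both components together bound the eigenfunctions of the cover, with equality only if all
eigen-tuples are in the special fibre. -/
theorem finrank_topEig_le {z : A} (hzn : R.π z ^ n = 1) (hz : R.π z ≠ 1) {N : ℕ}
    [FiniteDimensional K (topEig C (z : K) N)]
    (hfin : ∀ i, FiniteDimensional k (compEig C i (R.π z) N)) :
    Module.finrank K (topEig C (z : K) N) ≤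
        Module.finrank k (compEig C 0 (R.π z) N) + Module.finrank k (compEig C 1 (R.π z) N) ∧
      (Module.finrank K (topEig C (z : K) N) =
          Module.finrank k (compEig C 0 (R.π z) N) + Module.finrank k (compEig C 1 (R.π z) N) →
        ∀ i, ∀ e ∈ compEig C i (R.π z) N,
          Pi.single (M := Eb) i e ∈ R.spFibre (R.polarSp N)) := by
  haveI := hfin 0
  haveI := hfin 1
  set S := R.spFibre (topEig C (z : K) N) with hS
  haveI : FiniteDimensional k S := R.finiteDimensional_spFibre _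
  let L : S →ₗ[k] compEig C 0 (R.π z) N × compEig C 1 (R.π z) N :=
    { toFun := fun y => (⟨(y : ∀ i, Eb i) 0, red_mem_compEig C hzn hz y.2 0⟩,
        ⟨(y : ∀ i, Eb i) 1, red_mem_compEig C hzn hz y.2 1⟩)
      map_add' := fun _ _ => rfl
      map_smul' := fun _ _ => rfl }
  have hinj : Function.Injective L := by
    intro a b hab
    apply Subtype.ext
    funext i
    fin_cases i
    · exact congrArg (fun p : compEig C 0 (R.π z) N × compEig C 1 (R.π z) N => (p.1 : Eb 0)) hab
    · exact congrArg (fun p : compEig C 0 (R.π z) N × compEig C 1 (R.π z) N => (p.2 : Eb 1)) hab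
  have h1 := LinearMap.finrank_le_finrank_of_injective hinj
  rw [Module.finrank_prod, hS, R.finrank_spFibre] at h1
  refine ⟨h1, fun heq i e he => ?_⟩
  have hsurj : Function.Surjective L := by
    refine (LinearMap.injective_iff_surjective_of_finrank_eq_finrank ?_).1 hinj
    rw [Module.finrank_prod, hS, R.finrank_spFibre, heq]
  fin_cases i
  · obtain ⟨y, hy⟩ := hsurj (⟨e, he⟩, 0)
    have h0 : (y : ∀ i, Eb i) = Pi.single (M := Eb) 0 e := by
      funext l
      fin_cases l
      · exact (congrArg (fun p : compEig C 0 (R.π z) N × compEig C 1 (R.π z) N => (p.1 : Eb 0))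
          hy).trans (Pi.single_eq_same (M := Eb) 0 e).symm
      · exact (congrArg (fun p : compEig C 0 (R.π z) N × compEig C 1 (R.π z) N => (p.2 : Eb 1))
          hy).trans (Pi.single_eq_of_ne (M := Eb) (by decide : (1 : Fin 2) ≠ 0) e).symm
    exact h0 ▸ R.spFibre_mono (topEig_le C (z : K) N) y.2
  · obtain ⟨y, hy⟩ := hsurj (0, ⟨e, he⟩)
    have h0 : (y : ∀ i, Eb i) = Pi.single (M := Eb) 1 e := by
      funext l
      fin_cases l
      · exact (congrArg (fun p : compEig C 0 (R.π z) N × compEig C 1 (R.π z) N => (p.1 : Eb 0))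
          hy).trans (Pi.single_eq_of_ne (M := Eb) (by decide : (0 : Fin 2) ≠ 1) e).symm
      · exact (congrArg (fun p : compEig C 0 (R.π z) N × compEig C 1 (R.π z) N => (p.2 : Eb 1))
          hy).trans (Pi.single_eq_same (M := Eb) 1 e).symm
    exact h0 ▸ R.spFibre_mono (topEig_le C (z : K) N) y.2

/-- For a non-trivial root of unity all eigen-tuples vanishing above the singular points are in
the special fibre, and the order of the eigenfunction there is not divisible by the degree. -/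
theorem exists_count {ζ : A} (hζK : IsPrimitiveRoot (ζ : K) n)
    (hζk : IsPrimitiveRoot (R.π ζ) n) {h : ∀ i, Eb i} (hh : ∀ i, h i ∈ eig (C.d i) (R.π ζ))
    (hh0 : ∀ i, h i ≠ 0) {H : Fin 2 → E0} (hH : ∀ i, C.emb i (H i) = h i ^ n)
    {c : ℕ} (hc0 : 0 < c) (hcn : c < n) :
    (∀ i, ∀ v ∈ sing C i, ¬ (n : ℤ) ∣ (c : ℤ) * v.ord (H i)) ∧
      ∃ N₀ : ℕ, ∀ N, N₀ ≤ N → ∀ i, ∀ e ∈ compEig C i (R.π ζ ^ c) N,
        Pi.single (M := Eb) i e ∈ R.spFibre (R.polarSp N) := by
  classical
  haveI := R1.isAlgClosed_residue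
  obtain ⟨hF, hhF0, hhF⟩ := (isCyclicCover_top C).exists_eigen hζK
  have hK : ∀ m : ℕ, ((ζ ^ m : A) : K) = (ζ : K) ^ m := fun m => by push_cast; rfl
  -- the data for an exponent
  have top : ∀ m : ℕ, ∃ N₀ : ℕ, ∀ N, N₀ ≤ N →
      FiniteDimensional K (topEig C ((ζ ^ m : A) : K) N) ∧
      (Module.finrank K (topEig C ((ζ ^ m : A) : K) N) : ℤ) =
        (N : ℤ) * (Divisor.degree R1.poleX) + 1 - (genusFF K F1 : ℤ) := by
    intro m
    refine exists_finrank_topEig C (h := hF ^ m) ?_ ?_ ?_ (pow_ne_zero _ hhF0)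
    · rw [hK, ← pow_mul, mul_comm, pow_mul, hζK.pow_eq_one, one_pow]
    · rw [hK]; exact pow_ne_zero _ (hζK.ne_zero C.n_pos.ne')
    · rw [hK, mem_eig, map_pow, mem_eig.1 hhF, smul_pow]
  have comp : ∀ (i : Fin 2) (m : ℕ), ∃ G₀ : Divisor k E0,
      (∀ v, G₀ v = ((m : ℤ) * v.ord (H i) - indSing C i v) / (n : ℤ)) ∧
      ∃ N₀ : ℕ, ∀ N, N₀ ≤ N → FiniteDimensional k (compEig C i (R.π ζ ^ m) N) ∧
        (Module.finrank k (compEig C i (R.π ζ ^ m) N) : ℤ) =
          (N : ℤ) * (Module.finrank k⟮R1.xb i⟯ E0) + Divisor.degree G₀ + 1 -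
            (genusFF k E0 : ℤ) := by
    intro i m
    obtain ⟨G₀, hG₀, hN⟩ := exists_finrank_compEig C i (z := R.π ζ ^ m) (h := h i ^ m)
      (H := H i ^ m) (pow_ne_zero _ (hζk.ne_zero C.n_pos.ne'))
      (by rw [mem_eig, map_pow, mem_eig.1 (hh i), smul_pow]) (pow_ne_zero _ (hh0 i))
      (by rw [map_pow, hH, ← pow_mul, ← pow_mul, mul_comm])
    exact ⟨G₀, fun v => by rw [hG₀, ord_pow], hN⟩
  choose Nt hNt using top
  choose G hG Nc hNc using comp
  set c' := n - c with hc'
  have hne : ∀ m, 0 < m → m < n → R.π (ζ ^ m) ≠ 1 := fun m h0 h1 => by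
    rw [map_pow]; exact hζk.pow_ne_one_of_pos_of_lt (by omega) h1
  have hH0 : ∀ i, H i ≠ 0 := fun i e => pow_ne_zero n (hh0 i) (by rw [← hH, e, map_zero])
  -- the count at a given degree
  have key : ∀ N, (∀ m, m = c ∨ m = c' → Nt m ≤ N ∧ ∀ i, Nc i m ≤ N) →
      (∀ i, Divisor.degree (G i c) + Divisor.degree (G i c') = -((sing C i).card : ℤ)) ∧
      (∀ i, ∀ e ∈ compEig C i (R.π ζ ^ c) N,
        Pi.single (M := Eb) i e ∈ R.spFibre (R.polarSp N)) := by
    intro N hN
    have hle : ∀ m, m = c ∨ m = c' →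
        (Module.finrank K (topEig C ((ζ ^ m : A) : K) N) : ℤ) ≤
          (Module.finrank k (compEig C 0 (R.π ζ ^ m) N) : ℤ) +
            (Module.finrank k (compEig C 1 (R.π ζ ^ m) N) : ℤ) ∧
        ((Module.finrank K (topEig C ((ζ ^ m : A) : K) N) : ℤ) =
          (Module.finrank k (compEig C 0 (R.π ζ ^ m) N) : ℤ) +
            (Module.finrank k (compEig C 1 (R.π ζ ^ m) N) : ℤ) →
          ∀ i, ∀ e ∈ compEig C i (R.π ζ ^ m) N,
            Pi.single (M := Eb) i e ∈ R.spFibre (R.polarSp N)) := by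
      intro m hm
      haveI := (hNt m N (hN m hm).1).1
      have := finrank_topEig_le C (z := ζ ^ m) (by rw [map_pow, ← pow_mul, mul_comm, pow_mul, hζk.pow_eq_one, one_pow]) (hne m (by omega) (by omega)) (N := N)
        (fun i => by rw [map_pow]; exact (hNc i m N ((hN m hm).2 i)).1)
      rw [show R.π (ζ ^ m) = R.π ζ ^ m from map_pow _ _ _] at this
      exact ⟨by exact_mod_cast this.1, fun h' => this.2 (by exact_mod_cast h')⟩
    have e0 := (hNc 0 c N ((hN c (Or.inl rfl)).2 0)).2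
    have e1 := (hNc 1 c N ((hN c (Or.inl rfl)).2 1)).2
    have e0' := (hNc 0 c' N ((hN c' (Or.inr rfl)).2 0)).2
    have e1' := (hNc 1 c' N ((hN c' (Or.inr rfl)).2 1)).2
    have et := (hNt c N (hN c (Or.inl rfl)).1).2
    have et' := (hNt c' N (hN c' (Or.inr rfl)).1).2
    have hd : Divisor.degree R1.poleX = ((Module.finrank k⟮R1.xb 0⟯ E0 : ℕ) : ℤ) +
        ((Module.finrank k⟮R1.xb 1⟯ E0 : ℕ) : ℤ) := by
      rw [R1.degree_poleX, Fin.sum_univ_two, Nat.cast_add]
    rw [hd, mul_add] at et et'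
    have s0 := card_sing C 0
    have s1 := card_sing C 1
    have p0 := (degree_pair C (i := 0) (hH0 0) hcn.le (hG 0 c) (hG 0 c')).1
    have p1 := (degree_pair C (i := 1) (hH0 1) hcn.le (hG 1 c) (hG 1 c')).1
    have l := (hle c (Or.inl rfl)).1
    have l' := (hle c' (Or.inr rfl)).1
    refine ⟨fun i => ?_, (hle c (Or.inl rfl)).2 (by linarith)⟩
    fin_cases i
    · show Divisor.degree (G 0 c) + Divisor.degree (G 0 c') = -((sing C 0).card : ℤ)
      linarith
    · show Divisor.degree (G 1 c) + Divisor.degree (G 1 c') = -((sing C 1).card : ℤ)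
      linarith
  set N₀ := max (max (Nt c) (Nt c'))
    (max (max (Nc 0 c) (Nc 0 c')) (max (Nc 1 c) (Nc 1 c'))) with hN₀
  have hbig : ∀ N, N₀ ≤ N → ∀ m, m = c ∨ m = c' → Nt m ≤ N ∧ ∀ i, Nc i m ≤ N := by
    intro N hN m hm
    rcases hm with rfl | rfl <;> refine ⟨by omega, Fin.forall_fin_two.2 ⟨by omega, by omega⟩⟩
  refine ⟨fun i v hv hdvd => ?_, N₀, fun N hN => (key N (hbig N hN)).2⟩
  have h1 := (key N₀ (hbig N₀ le_rfl)).1 i
  have h2 := (degree_pair C (i := i) (hH0 i) hcn.le (hG i c) (hG i c')).2 v hv hdvd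
  omega

end Fermat.Agent.Carayol.LTwoComp

end
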