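/-
The deck transformations of a two-component cyclic cover fix every branch above the singular
points, the special fibre is seminormal, and hence the deck transformations fix every torsion
class prime to the residue characteristic which is trivial on both components.
-/
import Fermat.Agent.Carayol.LTwoCompCount

set_option autoImplicit false
set_option linter.style.haveILetI false
set_option maxHeartbeats 400000

noncomputable section

namespace Fermat.Agent.Carayol.LTwoComp

open AlgebraicCurve Fermat.Agent.Curve Fermat.Agent.Curve.RedAux Fermat.Agent.Bad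
open MultiReduction IntermediateField

universe uK uF uk uE

theorem ord_smul_sum {k E : Type*} [Field k] [Field E] [Algebra k E] (v : Place k E) {n : ℕ}
    (T : ℕ → E) (hT : ∀ a b, a < n → b < n → T a ≠ 0 → T b ≠ 0 → v.ord (T a) = v.ord (T b) → a = b)
    (hne : ∃ a < n, T a ≠ 0) (u : ℕ → k) (hu : ∀ a, u a ≠ 0) :
    v.ord (∑ a ∈ Finset.range n, u a • T a) = v.ord (∑ a ∈ Finset.range n, T a) := by
  classical
  obtain ⟨m, hm, hmin⟩ := Finset.exists_min_image ((Finset.range n).filter fun a => T a ≠ 0)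
    (fun a => v.ord (T a)) (by
      obtain ⟨a, ha, ha0⟩ := hne
      exact ⟨a, Finset.mem_filter.2 ⟨Finset.mem_range.2 ha, ha0⟩⟩)
  obtain ⟨hmr, hm0⟩ := Finset.mem_filter.1 hm
  have hmn := Finset.mem_range.1 hmr
  have key : ∀ u : ℕ → k, (∀ a, u a ≠ 0) →
      v.ord (∑ a ∈ Finset.range n, u a • T a) = v.ord (T m) := by
    intro u hu
    rw [← Finset.add_sum_erase _ _ hmr]
    rw [ord_add_eq_left v (smul_ne_zero (hu m) hm0), ord_const_smul v (hu m)]
    intro h0
    rw [ord_const_smul v (hu m), Int.lt_iff_add_one_le]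
    refine le_ord_sum v _ _ _ (fun a ha ha0 => ?_) h0
    obtain ⟨ham, har⟩ := Finset.mem_erase.1 ha
    have ha0' : T a ≠ 0 := (smul_ne_zero_iff.1 ha0).2
    rw [ord_const_smul v (hu a)]
    have h1 := hmin a (Finset.mem_filter.2 ⟨har, ha0'⟩)
    rcases lt_or_eq_of_le h1 with h2 | h2
    · omega
    · exact absurd (hT a m (Finset.mem_range.1 har) hmn ha0' hm0 h2.symm)
        ham
  rw [key u hu]
  have := key (fun _ => 1) fun _ => one_ne_zero
  simpa using this.symm

variable {K : Type uK} [Field K] [IsAlgClosed K] {A : ValuationSubring K}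
  {F1 : Type uF} [Field F1] [Algebra K F1] [IsFunctionFieldOne K F1]
  {F : Type uF} [Field F] [Algebra K F] [IsFunctionFieldOne K F]
  {k : Type uk} [Field k]
  {E0 : Type uE} [Field E0] [Algebra k E0] [IsFunctionFieldOne k E0]
  {Eb : Fin 2 → Type uE} [∀ i, Field (Eb i)] [∀ i, Algebra k (Eb i)]
  [∀ i, IsFunctionFieldOne k (Eb i)]
  {R1 : MultiReduction A F1 k (fun _ : Fin 2 => E0)} {R : MultiReduction A F k Eb} {n : ℕ}
  (C : TwoCompCover R1 R n)

include C

theorem exists_eigen_data :
    ∃ ζ : A, IsPrimitiveRoot (ζ : K) n ∧ IsPrimitiveRoot (R.π ζ) n ∧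
      ∃ (h : ∀ i, Eb i) (H : Fin 2 → E0), (∀ i, h i ∈ eig (C.d i) (R.π ζ)) ∧ (∀ i, h i ≠ 0) ∧
        (∀ i, C.emb i (H i) = h i ^ n) ∧
        ∀ c, 0 < c → c < n → ∀ i, ∀ v ∈ sing C i, ¬ (n : ℤ) ∣ (c : ℤ) * v.ord (H i) := by
  obtain ⟨ζ, hζK, hζk⟩ := exists_root C
  choose h hh0 hh using fun i => (isCyclicCover_comp C i).exists_eigen hζk
  choose H hH using fun i =>
    (isCyclicCover_comp C i).exists_pow_eq hζk.pow_eq_one (hh i)
  exact ⟨ζ, hζK, hζk, h, H, hh, hh0, hH, fun c hc0 hcn =>
    (exists_count C hζK hζk hh hh0 hH hc0 hcn).1⟩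

/-- The deck transformation keeps the orders at branches above singular points. -/
theorem ord_d_eq {i : Fin 2} {w : Place k (Eb i)}
    (hw : resP (C.emb i) w ∈ sing C i) (f : Eb i) : w.ord (C.d i f) = w.ord f := by
  obtain ⟨ζ, -, hζk, h, H, hh, hh0, hH, hcount⟩ := exists_eigen_data C
  set v := resP (C.emb i) w
  have hC := isCyclicCover_comp C i
  have hn : (0 : ℤ) < n := by exact_mod_cast C.n_pos
  have he : (1 : ℤ) ≤ ramI (C.emb i) w := by exact_mod_cast ramI_pos (C.emb i) w
  obtain ⟨g, hf, hdf⟩ := hC.exists_expansion hζk (hh i) (hh0 i) f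
  rcases eq_or_ne f 0 with rfl | hf0
  · rw [map_zero]
  rw [hdf]
  conv_rhs => rw [hf]
  refine ord_smul_sum w (fun c => C.emb i (g c) * h i ^ c) (fun a b ha hb ha0 hb0 hab => ?_) ?_
    (fun c => R.π ζ ^ c) fun c => pow_ne_zero _ (hζk.ne_zero C.n_pos.ne')
  · have hga : C.emb i (g a) ≠ 0 := left_ne_zero_of_mul ha0
    have hgb : C.emb i (g b) ≠ 0 := left_ne_zero_of_mul hb0
    rw [w.ord_mul hga (pow_ne_zero _ (hh0 i)), w.ord_mul hgb (pow_ne_zero _ (hh0 i)), ord_cov,
      ord_cov, ord_pow, ord_pow] at hab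
    have h2 := hC.mul_ord (hH i) w
    have h3 : (ramI (C.emb i) w : ℤ) * ((n : ℤ) * v.ord (g a) + (a : ℤ) * v.ord (H i)) =
        (ramI (C.emb i) w : ℤ) * ((n : ℤ) * v.ord (g b) + (b : ℤ) * v.ord (H i)) := by
      linear_combination (n : ℤ) * hab + ((b : ℤ) - (a : ℤ)) * h2
    have h4 := mul_left_cancel₀ (by omega : (ramI (C.emb i) w : ℤ) ≠ 0) h3
    by_contra hne
    rcases Nat.lt_or_gt_of_ne hne with hlt | hlt
    · refine hcount (b - a) (by omega) (by omega) i v hw ⟨v.ord (g a) - v.ord (g b), ?_⟩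
      rw [Nat.cast_sub hlt.le]
      linear_combination -h4
    · refine hcount (a - b) (by omega) (by omega) i v hw ⟨v.ord (g b) - v.ord (g a), ?_⟩
      rw [Nat.cast_sub hlt.le]
      linear_combination h4
  · by_contra hall
    push Not at hall
    exact hf0 (hf.trans (Finset.sum_eq_zero fun c hc => hall c (Finset.mem_range.1 hc)))

theorem d_mem_iff {i : Fin 2} {w : Place k (Eb i)}
    (hw : resP (C.emb i) w ∈ sing C i) (f : Eb i) :
    C.d i f ∈ w.toValuationSubring ↔ f ∈ w.toValuationSubring := by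
  rw [mem_iff_ord_nonneg, mem_iff_ord_nonneg, ord_d_eq C hw]

omit [IsAlgClosed K] in
theorem finite_branches : {b : Σ i, Place k (Eb i) | resP (C.emb b.1) b.2 ∈ sing C b.1}.Finite := by
  refine Set.Finite.subset (Set.finite_iUnion fun i : Fin 2 =>
    Set.Finite.image (Sigma.mk i)
      (Set.Finite.biUnion (sing C i).finite_toSet fun v _ => finite_fibre (C.emb i) v)) ?_
  rintro ⟨i, w⟩ hw
  exact Set.mem_iUnion.2 ⟨i, w, Set.mem_biUnion hw rfl, rfl⟩

/-- The branches above the singular points. -/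
def branches : Finset (Σ i, Place k (Eb i)) := (finite_branches C).toFinset

omit [IsAlgClosed K] in
theorem mem_branches {b : Σ i, Place k (Eb i)} :
    b ∈ branches C ↔ resP (C.emb b.1) b.2 ∈ sing C b.1 := Set.Finite.mem_toFinset _

/-- (Z) for the cover: tuples vanishing at the branches are in the special fibre. -/
theorem exists_conductor : ∃ N₀ : ℕ, ∀ N, N₀ ≤ N → ∀ h ∈ R.polarFibre N,
    (∀ b ∈ branches C, VanishesAt b 1 h) → h ∈ R.spFibre (R.polarSp N) := by
  classical
  obtain ⟨ζ, hζK, hζk⟩ := exists_root C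
  choose e he0 he using fun i => (isCyclicCover_comp C i).exists_eigen hζk
  choose H hH using fun i =>
    (isCyclicCover_comp C i).exists_pow_eq hζk.pow_eq_one (he i)
  have hcount : ∀ c, ∃ N₀ : ℕ, 0 < c → c < n → ∀ N, N₀ ≤ N → ∀ i,
      ∀ x ∈ compEig C i (R.π ζ ^ c) N, Pi.single (M := Eb) i x ∈ R.spFibre (R.polarSp N) := by
    intro c
    by_cases hc : 0 < c ∧ c < n
    · obtain ⟨N₀, hN₀⟩ := (exists_count C hζK hζk he he0 hH hc.1 hc.2).2
      exact ⟨N₀, fun _ _ => hN₀⟩
    · exact ⟨0, fun h1 h2 => absurd ⟨h1, h2⟩ hc⟩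
  choose Nc hNc using hcount
  obtain ⟨N₁, hsingle⟩ := exists_single_mem_iff C
  refine ⟨max N₁ ((Finset.range n).sup Nc), fun N hN h hh hvan => ?_⟩
  suffices hi : ∀ i, Pi.single (M := Eb) i (h i) ∈ R.spFibre (R.polarSp N) by
    have := sum_mem (t := Finset.univ) fun i (_ : i ∈ Finset.univ) => hi i
    rwa [Finset.univ_sum_single] at this
  intro i
  have hC := isCyclicCover_comp C i
  have hxb : SemilinearAut.ofAlgAut (C.d i) • R.xb i = R.xb i := by
    rw [SemilinearAut.ofAlgAut_smul, xb_eq C i, hC.cov]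
  -- poles and zeros of the translates of `h i`
  have hL : ∀ j : ℕ, (C.d i ^ j) (h i) ∈ riemannRochSpace (N • poleDivisor k (R.xb i)) ∧
      ∀ w, resP (C.emb i) w ∈ sing C i →
        (C.d i ^ j) (h i) = 0 ∨ 1 ≤ w.ord ((C.d i ^ j) (h i)) := by
    intro j
    induction j with
    | zero =>
      exact ⟨R.mem_polarFibre.1 hh i, fun w hw => by
        simpa [VanishesAt] using hvan ⟨i, w⟩ ((mem_branches C).2 hw)⟩
    | succ j ih =>
      refine ⟨?_, fun w hw => ?_⟩
      · have := smul_mem_L_pole _ hxb ih.1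
        rwa [SemilinearAut.ofAlgAut_smul, pow_succ_apply] at this
      · rw [← pow_succ_apply, ord_d_eq C hw]
        exact (ih.2 w hw).imp (fun h0 => by rw [h0, map_zero]) id
  have hproj : ∀ c, proj (C.d i) n (R.π ζ ^ c) (h i) ∈ compEig C i (R.π ζ ^ c) N := fun c =>
    ⟨proj_mem_eig hC.pow (by rw [← pow_mul, mul_comm, pow_mul, hζk.pow_eq_one, one_pow]) C.n_pos _,
      Submodule.smul_mem _ _ (sum_mem fun j _ => Submodule.smul_mem _ _
        (mem_covBound_sing C (hL j).1 (hL j).2))⟩
  rw [← sum_proj (d := C.d i) C.n_pos C.n_ne_zero hζk (h i)]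
  show LinearMap.single k Eb i _ ∈ _
  rw [map_sum]
  refine sum_mem fun c hc => ?_
  show Pi.single (M := Eb) i (proj (C.d i) n (R.π ζ ^ c) (h i)) ∈ _
  rcases Nat.eq_zero_or_pos c with rfl | hc0
  · -- the invariant part comes from the base
    obtain ⟨heig, hcov⟩ := hproj 0
    rw [SetLike.mem_coe, mem_eig, pow_zero, one_smul] at heig
    obtain ⟨g, hg⟩ := hC.fixed _ heig
    rw [pow_zero, ← hg]
    rw [SetLike.mem_coe, pow_zero, ← hg, mem_covBound] at hcov
    have hgL : g ∈ riemannRochSpace (singDiv C i N) := by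
      rcases eq_or_ne g 0 with rfl | hg0
      · exact zero_mem _
      refine (mem_L_iff hg0).2 fun v => ?_
      obtain ⟨w, rfl⟩ := resP_surjective (C.emb i) v
      have h1 := hcov.resolve_left (by simpa using hg0) w
      rw [ord_cov, Finsupp.smul_apply, nsmul_eq_mul] at h1
      rw [singDiv_apply]
      have ha : (1 : ℤ) ≤ (ramI (C.emb i) w : ℤ) := by exact_mod_cast ramI_pos (C.emb i) w
      set a : ℤ := (ramI (C.emb i) w : ℤ)
      by_contra hlt
      push Not at hlt
      split_ifs at h1 hlt with hv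
      · rw [poleDivisor_sing C hv, mul_zero] at h1 hlt
        have := mul_le_mul_of_nonneg_left
          (show (resP (C.emb i) w).ord g ≤ 0 by omega) (show (0 : ℤ) ≤ a by omega)
        simp at this h1
        omega
      · nlinarith
    have h2 := emb_mem_spFibre C ((hsingle N (le_trans (le_max_left _ _) hN) i g).2 hgL)
    convert h2 using 1
    funext l
    rcases eq_or_ne l i with rfl | hl
    · rw [Pi.single_eq_same, Pi.single_eq_same]
    · rw [Pi.single_eq_of_ne hl, Pi.single_eq_of_ne hl, map_zero]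
  · exact hNc c hc0 (Finset.mem_range.1 hc) N
      (le_trans (Finset.le_sup hc) (le_trans (le_max_right _ _) hN)) i _ (hproj c)

/-- The special fibre of the cover is seminormal, glued at the branches above the singular
points, all of which are fixed by the deck transformation. -/
theorem exists_gluing (hA : RankLeOne A) :
    ∃ G : Gluing R, G.IsSeminormal ∧
      ∀ b ∈ G.B, ∀ f : Eb b.1, C.d b.1 f ∈ b.2.toValuationSubring ↔ f ∈ b.2.toValuationSubring := by
  have hreg : ∀ b ∈ branches C, 0 ≤ b.2.ord (R.xb b.1) := by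
    intro b hb
    rw [xb_eq C b.1, ord_cov]
    exact mul_nonneg (Int.natCast_nonneg _) (regular_of_mem_sing C ((mem_branches C).1 hb))
  have hmeets : ∀ i, ∃ b ∈ branches C, b.1 = i := fun i => by
    obtain ⟨v, hv⟩ := sing_nonempty C hA i
    obtain ⟨w, rfl⟩ := resP_surjective (C.emb i) v
    exact ⟨⟨i, w⟩, (mem_branches C).2 hv, rfl⟩
  refine ⟨Gluing.ofVanishing R (branches C) hreg hmeets (exists_conductor C),
    Gluing.ofVanishing_isSeminormal R _ hreg hmeets _, fun b hb f => ?_⟩
  exact d_mem_iff C ((mem_branches C).1 hb) f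

/-- The deck transformation as an automorphism of the reduction. -/
def deckAut : ReductionAut R where
  g := SemilinearAut.ofAlgAut C.t
  mem_A_iff _ := Iff.rfl
  σk := RingEquiv.refl k
  π_apply _ := rfl
  τ := Equiv.refl _
  mem_V_iff i f := C.t_mem_iff i f
  θ i := (C.d i).toRingEquiv
  θ_algebraMap i a := (C.d i).commutes a
  φ_smul i f := C.t_red i f
  smul_poleX := by
    have hx : SemilinearAut.ofAlgAut C.t • R.x = R.x := by
      rw [SemilinearAut.ofAlgAut_smul, C.x_eq, C.t_cov]
    ext v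
    obtain ⟨w, rfl⟩ : ∃ w, SemilinearAut.ofAlgAut C.t • w = v :=
      ⟨(SemilinearAut.ofAlgAut C.t)⁻¹ • v, smul_inv_smul _ v⟩
    rw [SemilinearAut.divisor_smul_apply_smul, MultiReduction.poleX, poleDivisor_apply,
      poleDivisor_apply]
    conv_rhs => rw [← hx]
    rw [SemilinearAut.ord_smul]

/-- The deck transformation fixes every class which is trivial on both components. -/
theorem deck_smul_eq_self (hA : RankLeOne A) (q : ℕ) [Fact q.Prime] [CharP k q] {m : ℕ}
    (hm : (m : k) ≠ 0) {c : Pic0 K F} (hc : IsComponentTrivial R m c) :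
    SemilinearAut.ofAlgAut C.t • c = c := by
  obtain ⟨G, hG, hfix⟩ := exists_gluing C hA
  let P : (deckAut C).Preserves G :=
    { e := Equiv.refl _
      coe_e := fun b => by
        refine Sigma.ext rfl (heq_of_eq (Place.ext ?_))
        refine SetLike.ext fun f => ?_
        show f ∈ (b : Σ i, Place k (Eb i)).2.toValuationSubring ↔
          (C.d (b : Σ i, Place k (Eb i)).1).symm f ∈ (b : Σ i, Place k (Eb i)).2.toValuationSubring
        conv_lhs => rw [← (C.d (b : Σ i, Place k (Eb i)).1).apply_symm_apply f]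
        exact hfix b b.2 _
      pt_compat := fun _ _ h => h }
  have hmem := (hG.isGood G hm hc).mem_goodTorsion
  obtain ⟨γ, hγ⟩ : ∃ γ, gluingHom G hm ⟨c, hmem⟩ = G.mkData γ := by
    obtain ⟨D, f, N, z, rfl, hf, hz⟩ := hG.isGood G hm hc
    exact ⟨_, gluingHom_mk G hm D f N z hf hz hmem⟩
  have h1 := P.gluingHom_smul G hm hmem hγ
  have h2 : P.onValues G γ = γ := funext fun b => Units.ext rfl
  rw [h2, ← hγ] at h1
  exact congrArg Subtype.val (gluingHom_injective G hA q hm h1)

end Fermat.Agent.Carayol.LTwoComp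

end
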