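/-
A semilinear automorphism trivial on the residual functions of one component does not move the
image of a class there; for two commuting ones, one for each of two components, the product
`(g₁ - 1) (g₀ - 1)` maps into the classes trivial on both components.
-/
import Fermat.Agent.Bad.Gluing

set_option autoImplicit false

noncomputable section

namespace Fermat.Agent.Carayol.LTwoComp

open AlgebraicCurve Fermat.Agent.Curve Fermat.Agent.Bad

universe uK uF uι uk uFb

variable {K : Type uK} [Field K] [IsAlgClosed K] {A : ValuationSubring K}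
  {F : Type uF} [Field F] [Algebra K F] [IsFunctionFieldOne K F]
  {k : Type uk} [Field k]

section General

variable {ι : Type uι} [Fintype ι] {Fb : ι → Type uFb} [∀ i, Field (Fb i)]
  [∀ i, Algebra k (Fb i)] [∀ i, IsFunctionFieldOne k (Fb i)] (R : MultiReduction A F k Fb)

/-- The image on a component is unchanged by an automorphism trivial on it. -/
theorem componentMap_smul {m : ℕ} (hm : (m : k) ≠ 0) (i : ι) {g : SemilinearAut K F}
    (hg : ∀ f : R.V i, ∃ h : g • (f : F) ∈ R.V i, R.φ i ⟨_, h⟩ = R.φ i f)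
    (x : Pic0.torsion K F m) : componentMap R hm i (g • x) = componentMap R hm i x := by
  obtain ⟨D, f, hD, hf⟩ := BComp.exists_rep x
  obtain ⟨s, hs, hsn⟩ := R.exists_scale i (f : F) f.ne_zero
  have hD' : Pic0.mk (SemilinearAut.degZeroSMulHom g D) = g • (x : Pic0 K F) := by
    rw [← SemilinearAut.pic0_smul_mk, hD]
  have hm1 : Pic0.mk D ∈ Pic0.torsion K F m := hD ▸ x.2
  have hm2 : Pic0.mk (SemilinearAut.degZeroSMulHom g D) ∈ Pic0.torsion K F m :=
    hD' ▸ (g • x).2
  rw [show g • x = ⟨_, hm2⟩ from Subtype.ext hD'.symm,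
    show x = ⟨_, hm1⟩ from Subtype.ext hD.symm]
  obtain ⟨h, he⟩ := hg ⟨_, hs⟩
  have e : SemilinearAut.baseAut g s • (g • (f : F)) = g • (s • (f : F)) := by
    rw [Algebra.smul_def, Algebra.smul_def, smul_mul', SemilinearAut.smul_algebraMap]
  have hmem : SemilinearAut.baseAut g s • (g • (f : F)) ∈ R.V i := by rw [e]; exact h
  rw [componentMap_mk hm i D f s hs (Units.mk0 _ hsn) hm1 f.ne_zero hf rfl,
    componentMap_mk hm i _ (g • (f : F)) _ hmem (Units.mk0 _ hsn) hm2
      (fun h0 => f.ne_zero (by rw [← inv_smul_smul g (f : F), h0, smul_zero]))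
      (fun v => by
        rw [SemilinearAut.coe_degZeroSMulHom, SemilinearAut.divisor_smul_apply, hf]
        have h1 := SemilinearAut.ord_smul g (g⁻¹ • v) (f : F)
        rw [smul_inv_smul] at h1
        exact h1.symm) ?_]
  rw [Units.val_mk0, ← he]
  exact congrArg (R.φ i) (Subtype.ext e)

end General

variable {Eb : Fin 2 → Type uFb} [∀ i, Field (Eb i)] [∀ i, Algebra k (Eb i)]
  [∀ i, IsFunctionFieldOne k (Eb i)] (R : MultiReduction A F k Eb)

/-- Two commuting automorphisms, each trivial on one component. -/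
theorem isComponentTrivial_smul_sub_smul_sub (hA : RankLeOne A) {m : ℕ} (hm : (m : k) ≠ 0)
    {g : Fin 2 → SemilinearAut K F}
    (hg : ∀ i (f : R.V i), ∃ h : g i • (f : F) ∈ R.V i, R.φ i ⟨_, h⟩ = R.φ i f)
    {x : Pic0 K F} (hcomm : g 1 • g 0 • x = g 0 • g 1 • x) (hx : x ∈ Pic0.torsion K F m) :
    IsComponentTrivial R m (g 1 • (g 0 • x - x) - (g 0 • x - x)) := by
  set X : Pic0.torsion K F m := ⟨x, hx⟩
  refine (isComponentTrivial_iff hA hm (g 1 • (g 0 • X - X) - (g 0 • X - X))).2 fun i => ?_
  fin_cases i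
  · have e : g 1 • (g 0 • X - X) - (g 0 • X - X) = g 0 • (g 1 • X - X) - (g 1 • X - X) := by
      apply Subtype.ext
      simp only [AddSubgroupClass.coe_sub, smul_sub, SemilinearAut.coe_torsion_smul]
      show g 1 • g 0 • x - g 1 • x - (g 0 • x - x) = g 0 • g 1 • x - g 0 • x - (g 1 • x - x)
      rw [hcomm]
      abel
    rw [e]
    show componentMap R hm 0 _ = 0
    rw [sub_eq_add_neg, map_add, componentMap_smul R hm 0 (hg 0), ← map_add, add_neg_cancel,
      map_zero]
  · show componentMap R hm 1 _ = 0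
    rw [sub_eq_add_neg, map_add, componentMap_smul R hm 1 (hg 1), ← map_add, add_neg_cancel,
      map_zero]

end Fermat.Agent.Carayol.LTwoComp

end
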