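/-
From a two-component cover structure on the field fixed by the unipotent group to the relation on
classes of `X(q; M)`: the inertial automorphism is trivial on one component, its product with the
inverse torus element on the other, they commute, and the deck transformations fix what is trivial
on both components.
-/
import Fermat.Agent.Carayol.LTwoCompTransport
import Fermat.Agent.Carayol.LTwoCompTrivial
import Fermat.Agent.Carayol.LTwoCompGluing
import Fermat.Agent.Carayol.ValuationsResidual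
import Fermat.Agent.Mazur.LocalRank

set_option autoImplicit false
set_option linter.style.haveILetI false

noncomputable section

open scoped MatrixGroups

namespace Fermat.Agent.Carayol.LTwoComp

open AlgebraicCurve ModularCurve Cuspidal Fermat.Agent.Curve Fermat.Agent.Bad

section Generic

universe uK uF uk uE

variable {K : Type uK} [Field K] [IsAlgClosed K] {A : ValuationSubring K}
  {F1 : Type uF} [Field F1] [Algebra K F1] [IsFunctionFieldOne K F1]
  {F : Type uF} [Field F] [Algebra K F] [IsFunctionFieldOne K F]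
  {k : Type uk} [Field k]
  {E0 : Type uE} [Field E0] [Algebra k E0] [IsFunctionFieldOne k E0]
  {Eb : Fin 2 → Type uE} [∀ i, Field (Eb i)] [∀ i, Algebra k (Eb i)]
  [∀ i, IsFunctionFieldOne k (Eb i)]
  {R1 : MultiReduction A F1 k (fun _ : Fin 2 => E0)} {R : MultiReduction A F k Eb} {n : ℕ}

/-- A power of the deck transformation fixes `(g₁ - 1) (g₀ - 1) x`, for commuting `g i` trivial on
the component `i`. -/
theorem pow_smul_eq_of_cover (C : TwoCompCover R1 R n) (hA : RankLeOne A) (q : ℕ) [Fact q.Prime]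
    [CharP k q] {m : ℕ} (hm : (m : k) ≠ 0) {g₀ g₁ : SemilinearAut K F}
    (h₀ : ∀ f : R.V 0, ∃ h : g₀ • (f : F) ∈ R.V 0, R.φ 0 ⟨_, h⟩ = R.φ 0 f)
    (h₁ : ∀ f : R.V 1, ∃ h : g₁ • (f : F) ∈ R.V 1, R.φ 1 ⟨_, h⟩ = R.φ 1 f)
    (hcomm : Commute g₁ g₀) (x : Pic0 K F) (hx : m • x = 0) {T : SemilinearAut K F}
    (hT : ∃ j : ℕ, T = SemilinearAut.ofAlgAut (C.t ^ j)) :
    T • (g₁ • (g₀ • x - x) - (g₀ • x - x)) = g₁ • (g₀ • x - x) - (g₀ • x - x) := by
  obtain ⟨j, rfl⟩ := hT
  have htriv : IsComponentTrivial R m (g₁ • (g₀ • x - x) - (g₀ • x - x)) := by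
    have h := isComponentTrivial_smul_sub_smul_sub R hA hm (g := ![g₀, g₁])
      (Fin.forall_fin_two.2 ⟨h₀, h₁⟩) (x := x)
      (by show g₁ • g₀ • x = g₀ • g₁ • x; rw [← mul_smul, hcomm.eq, mul_smul])
      (by rwa [Pic0.torsion, Submodule.mem_toAddSubgroup, Submodule.mem_torsionBy_iff])
    exact h
  have h1 := deck_smul_eq_self C hA q hm htriv
  induction j with
  | zero => rw [pow_zero, map_one, one_smul]
  | succ j ih => rw [pow_succ, map_mul, mul_smul, h1, ih]

end Generic

variable {q : ℕ} [Fact q.Prime] {M : ℕ} [NeZero M] (hqM : ¬ q ∣ M)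

theorem semilinearAut_ext {K F : Type*} [Field K] [Field F] [Algebra K F]
    {g h : SemilinearAut K F} (hF : ∀ x : F, g • x = h • x) : g = h := by
  refine Subtype.ext (Prod.ext (RingEquiv.ext hF) (RingEquiv.ext fun a => ?_))
  exact (algebraMap K F).injective (by
    rw [← g.2 a, ← h.2 a]
    exact hF _)

/-- On the fixed field Galois commutes with the torus. -/
theorem commute_unipTor_unipGal (σ : Qb ≃ₐ[ℚ] Qb) (c : (ZMod q)ˣ)
    (hc : σ (zetaQ q : Qb) = (zetaQ q : Qb) ^ (c : ZMod q).val) (a : (ZMod q)ˣ) :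
    Commute (unipTor hqM a) (unipGal hqM σ c hc) := by
  refine semilinearAut_ext fun f => Subtype.ext ?_
  show autHom hqM (tor a) (galRingAut σ (f : XField q M)) =
    galRingAut σ (autHom hqM (tor a) (f : XField q M))
  rw [galRingAut_autHom hqM σ c hc, twist_tor]

variable {F1 : Type} [Field F1] [Algebra Qb F1] [IsFunctionFieldOne Qb F1]
  {A : ValuationSubring Qb}
  {E0 : Type} [Field E0] [Algebra (IsLocalRing.ResidueField A) E0]
  [IsFunctionFieldOne (IsLocalRing.ResidueField A) E0]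
  {Eb : Fin 2 → Type} [∀ i, Field (Eb i)] [∀ i, Algebra (IsLocalRing.ResidueField A) (Eb i)]
  [∀ i, IsFunctionFieldOne (IsLocalRing.ResidueField A) (Eb i)]

/-- The relation on `X(q; M)` from a cover structure on the fixed field. -/
theorem nsmul_tor_smul_eq_of_cover [IsFunctionFieldOne Qb (unipFix hqM)]
    [IsAlgClosed (IsLocalRing.ResidueField A)]
    {R1 : MultiReduction A F1 (IsLocalRing.ResidueField A) (fun _ : Fin 2 => E0)}
    {R : MultiReduction A (unipFix hqM) (IsLocalRing.ResidueField A) Eb} {d : ℕ}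
    (C : TwoCompCover R1 R d) (hA : A.LiesOverPrime q) {σ : Qb ≃ₐ[ℚ] Qb} (c : (ZMod q)ˣ)
    (hc : σ (zetaQ q : Qb) = (zetaQ q : Qb) ^ (c : ZMod q).val)
    (hdeck : ∀ a : (ZMod q)ˣ, ∃ j : ℕ, unipTor hqM a = SemilinearAut.ofAlgAut (C.t ^ j))
    (h₀ : ∀ f : R.V 0, ∃ h : unipGal hqM σ c hc • (f : unipFix hqM) ∈ R.V 0,
      R.φ 0 ⟨_, h⟩ = R.φ 0 f)
    (h₁ : ∀ f : R.V 1, ∃ h : (unipTor hqM c⁻¹ * unipGal hqM σ c hc) • (f : unipFix hqM) ∈ R.V 1,
      R.φ 1 ⟨_, h⟩ = R.φ 1 f)
    {n : ℕ} (hn : ¬ q ∣ n) (y : Pic0 Qb (XField q M)) (hy : n • y = 0)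
    (hU : letI := picAction (q := q) hqM; ∀ β : ZMod q, uni β • y = y) (a : (ZMod q)ˣ) :
    letI := picAction (q := q) hqM
    q • tor a • (tor c⁻¹ • galAct q M σ • (galAct q M σ • y - y) - (galAct q M σ • y - y)) =
      q • (tor c⁻¹ • galAct q M σ • (galAct q M σ • y - y) - (galAct q M σ • y - y)) := by
  haveI : CharP (IsLocalRing.ResidueField A) q := charP_residue q hA
  have hm : (n : IsLocalRing.ResidueField A) ≠ 0 := fun h =>
    hn ((CharP.cast_eq_zero_iff _ q n).1 h)
  refine nsmul_tor_smul_eq_of_unipFix hqM c hc a (fun w hw => ?_) y hy hU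
  simp only [← mul_smul (unipTor hqM c⁻¹)]
  exact pow_smul_eq_of_cover C (Mazur.rankLeOne_of_liesOverPrime (Fact.out : q.Prime) hA) q hm
    h₀ h₁ ((commute_unipTor_unipGal hqM σ c hc c⁻¹).mul_left (Commute.refl _)) w hw (hdeck a)

end Fermat.Agent.Carayol.LTwoComp

end
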