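/-
The two-component cover structure on the field fixed by the unipotent group, over the reduction of
`X₀(q M)`: the deck transformations are the torus elements and inertia twists one component.
-/
import Fermat.Agent.Carayol.LTwoCompInstTor
import Fermat.Agent.Carayol.LTwoCompInstDegree
import Fermat.Agent.Carayol.LTwoCompInstGeneric
import Fermat.Agent.Carayol.LTwoCompKillCover
import Fermat.Agent.BadReduction.X0Conductor
import Fermat.Agent.BadReduction.X0FrobeniusAction
import Fermat.Agent.Bad.GluingLift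

set_option autoImplicit false
set_option linter.style.haveILetI false
set_option linter.unusedSectionVars false
set_option synthInstance.maxHeartbeats 400000

noncomputable section

open scoped MatrixGroups

namespace Fermat.Agent.Carayol.LTwoComp

open AlgebraicCurve ModularCurve Cuspidal IsLocalRing BadReduction IntermediateField

variable {q : ℕ} [Fact q.Prime] {M : ℕ} [NeZero M] (A : ValuationSubring Qb) (hqM : ¬ q ∣ M)

theorem pow_apply_eq_self {K F : Type} [Field K] [Field F] [Algebra K F] {t : F ≃ₐ[K] F} {f : F}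
    (hf : t f = f) (j : ℕ) : (t ^ j) f = f := by
  induction j with
  | zero => rfl
  | succ j ih => rw [pow_succ, AlgEquiv.mul_apply, hf, ih]

/-! ### The deck transformations -/

/-- A torus element on the fixed field, linearly. -/
def unipTorEquiv (a : (ZMod q)ˣ) : unipFix hqM ≃ₐ[Qb] unipFix hqM :=
  AlgEquiv.ofRingEquiv (f := SemilinearAut.toRingAut (unipTor hqM a)) fun x =>
    SemilinearAut.commutes (unipTor hqM a) x

theorem coe_unipTorEquiv (a : (ZMod q)ˣ) (f : unipFix hqM) :
    ((unipTorEquiv hqM a f : unipFix hqM) : XField q M) = autHom hqM (tor a) (f : XField q M) :=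
  rfl

/-- The deck group. -/
def unipTorHom : (ZMod q)ˣ →* (unipFix hqM ≃ₐ[Qb] unipFix hqM) where
  toFun := unipTorEquiv hqM
  map_one' := AlgEquiv.ext fun f => Subtype.ext (by
    rw [coe_unipTorEquiv, tor_one, map_one, AlgEquiv.one_apply, AlgEquiv.one_apply])
  map_mul' a b := AlgEquiv.ext fun f => Subtype.ext (by
    rw [coe_unipTorEquiv, tor_mul, map_mul, AlgEquiv.mul_apply, AlgEquiv.mul_apply,
      coe_unipTorEquiv, coe_unipTorEquiv])

theorem unipTor_eq (a : (ZMod q)ˣ) :
    unipTor hqM a = SemilinearAut.ofAlgAut (unipTorHom hqM a) :=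
  semilinearAut_ext fun _ => rfl

theorem unipTorHom_fixed_iff (f : unipFix hqM) :
    (∀ a, unipTorHom hqM a f = f) ↔ f ∈ Set.range (instCov hqM) := by
  rw [Set.mem_range, mem_range_instCov_iff, mem_pointField_none_iff hqM]
  constructor
  · intro h g hg
    obtain ⟨⟨a, β⟩, rfl⟩ := exists_bor_eq hg
    rw [bor, map_mul, AlgEquiv.mul_apply, (mem_unipFix hqM).1 f.2 β]
    exact congrArg Subtype.val (h a)
  · exact fun h a => Subtype.ext (h _ (mem_borel.2 rfl))

variable (hA : A.LiesOverPrime q)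

theorem unipTor_mem_iff
    (htor : ∀ a : (ZMod q)ˣ, compVal A (autHom hqM (tor a)) = infVal q M A)
    (a : (ZMod q)ˣ) (i : Fin 2) (f : unipFix hqM) :
    unipTorHom hqM a f ∈ instVal A hqM i ↔ f ∈ instVal A hqM i := by
  have key : ∀ (b : (ZMod q)ˣ) (x : XField q M),
      autHom hqM (tor b) x ∈ infVal q M A ↔ x ∈ infVal q M A := fun b x => by
    rw [← mem_compVal_iff, htor b]
  rw [mem_instVal_iff, mem_instVal_iff]
  show instAut hqM i (autHom hqM (tor a) (f : XField q M)) ∈ _ ↔ _
  fin_cases i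
  · exact key a _
  · show autHom hqM weyl (autHom hqM (tor a) (f : XField q M)) ∈ _ ↔ _
    rw [← AlgEquiv.mul_apply, ← map_mul, weyl_mul_tor, map_mul, AlgEquiv.mul_apply]
    exact key _ _

/-! ### The reduction of the fixed field -/

include hA in
theorem x0Fun_instCov_mem (i : Fin 2) : instCov hqM (x0Fun hqM) ∈ instVal A hqM i :=
  (instCov_mem_iff A hqM i _).2 ((x0Reduction hqM A hA).x_mem i)

theorem instPhi_x0Fun (i : Fin 2) :
    instPhi A hqM i ⟨instCov hqM (x0Fun hqM), x0Fun_instCov_mem A hqM hA i⟩ =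
      instEmb A hqM hA i ((x0Reduction hqM A hA).xb i) :=
  instPhi_instCov A hqM hA i ⟨_, (x0Reduction hqM A hA).x_mem i⟩

/-- The special fibre of the fixed field. -/
def instReduction (hq5 : 5 ≤ q)
    (htor : ∀ a : (ZMod q)ˣ, compVal A (autHom hqM (tor a)) = infVal q M A) :
    Bad.MultiReduction A (unipFix hqM) (ResidueField A) (fun i : Fin 2 => instRes A hqM i) where
  π := residue A
  π_surjective := residue_surjective
  V := instVal A hqM
  mem_V_iff i _ := algebraMap_mem_instVal_iff A hqM i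
  φ := instPhi A hqM
  φ_algebraMap := instPhi_algebraMap A hqM
  exists_lift := Bad.exists_lift_of_distinct (residue A) residue_surjective (instVal A hqM)
    (fun i _ => algebraMap_mem_instVal_iff A hqM i) (instPhi A hqM) (instPhi_surjective A hqM)
    (fun i _ hf => instPhi_scale A hqM i hf)
    (fun i j hij e => by
      obtain ⟨f, h1, h2⟩ := exists_instVal_separated A hqM hA htor hij
      exact h2 (e ▸ h1))
  exists_scale i _ hf := instPhi_scale A hqM i hf
  x := instCov hqM (x0Fun hqM)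
  x_mem := x0Fun_instCov_mem A hqM hA
  x_transcendental i :=
    transcendental_image (instEmb A hqM hA i) ((x0Reduction hqM A hA).x_transcendental i) _
      (instPhi_x0Fun A hqM hA i)
  degree_eq :=
    degree_eq_image (instCov hqM) (instEmb A hqM hA) (x0Fun hqM)
      (x0Reduction hqM A hA).xb ((q - 1) / 2) (x0Reduction hqM A hA).degree_eq
      (finrankAlong_instCov hqM hq5) (finrankAlong_instEmb A hqM hq5 hA htor) _
      (instPhi_x0Fun A hqM hA)
  degree_pos i :=
    degree_pos_image (instEmb A hqM hA i) _ (n := (q - 1) / 2) (by omega)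
      ((x0Reduction hqM A hA).degree_pos i) (finrankAlong_instEmb A hqM hq5 hA htor i) _
      (instPhi_x0Fun A hqM hA i)
  nonempty := inferInstance

theorem galRingAut_instCov_x0Fun (σ : Qb ≃ₐ[ℚ] Qb) (c : (ZMod q)ˣ)
    (hc : σ (zetaQ q : Qb) = (zetaQ q : Qb) ^ (c : ZMod q).val) :
    unipGal hqM σ c hc • instCov hqM (x0Fun hqM) = instCov hqM (x0Fun hqM) := by
  refine Subtype.ext (Subtype.ext ?_)
  show coeffMap (σ : Qb →+* Qb)
    (((instCov hqM (x0Fun hqM) : unipFix hqM) : XField q M) : LaurentSeries Qb) = _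
  rw [coe_instCov, coeffMap_qExpand, ← coe_galois_smul, galois_smul_x0Fun hqM σ]

theorem autHom_tor_cancel (g : (ZMod q)ˣ) (y : XField q M) :
    autHom hqM (tor g) (autHom hqM (tor g⁻¹) y) = y := by
  rw [← AlgEquiv.mul_apply, ← map_mul, ← tor_mul, mul_inv_cancel, tor_one, map_one,
    AlgEquiv.one_apply]

theorem coe_unipGal_smul (σ : Qb ≃ₐ[ℚ] Qb) (g : (ZMod q)ˣ)
    (hg : σ (zetaQ q : Qb) = (zetaQ q : Qb) ^ (g : ZMod q).val) (f : unipFix hqM) :
    ((unipGal hqM σ g hg • f : unipFix hqM) : XField q M) = galRingAut σ (f : XField q M) :=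
  coe_unipRes_smul hqM _ _ f

theorem unipTorHom_torGal (σ : Qb ≃ₐ[ℚ] Qb) (g : (ZMod q)ˣ)
    (hg : σ (zetaQ q : Qb) = (zetaQ q : Qb) ^ (g : ZMod q).val) (f : unipFix hqM) :
    unipTorHom hqM g ((unipTor hqM g⁻¹ * unipGal hqM σ g hg) • f) = unipGal hqM σ g hg • f :=
  Subtype.ext ((coe_unipTorEquiv hqM g _).trans
    (((congrArg (fun y => autHom hqM (tor g) y) (coe_torGal_smul hqM σ g hg f)).trans
      (autHom_tor_cancel hqM g _)).trans (coe_unipGal_smul hqM σ g hg f).symm))

/-- A map trivial after a deck transformation is that deck transformation on the residual field. -/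
theorem exists_red_of_comp {F E : Type} [Field F] [Field E] {V : ValuationSubring F}
    (φ : V →+* E) (T : F → F) (D : E → E) (hV : ∀ f, T f ∈ V ↔ f ∈ V)
    (hD : ∀ f : V, D (φ f) = φ ⟨T f, (hV f).2 f.2⟩) {g g' : F} (f : V) (e1 : T g' = g)
    (hg' : ∃ h : g' ∈ V, φ ⟨g', h⟩ = φ f) : ∃ h : g ∈ V, φ ⟨g, h⟩ = D (φ f) := by
  obtain ⟨h, e⟩ := hg'
  refine ⟨e1 ▸ (hV g').2 h, ?_⟩
  rw [← e, hD]
  exact congrArg φ (Subtype.ext e1.symm)

section DeckRes

variable (t : unipFix hqM ≃ₐ[Qb] unipFix hqM) (i : Fin 2)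
  (hV : ∀ f, t f ∈ instVal A hqM i ↔ f ∈ instVal A hqM i)

/-- The action of an automorphism on the residual field of a component. -/
def instDeckRes : instRes A hqM i ≃ₐ[ResidueField A] instRes A hqM i :=
  resAut (k := ResidueField A) (E := instRes A hqM i) (residue A) residue_surjective
    (instPhi A hqM i) (instPhi_surjective A hqM i) (instPhi_eq_zero_iff A hqM i)
    (fun a => (algebraMap_mem_instVal_iff A hqM i).2 a.2) (instPhi_algebraMap A hqM i) t hV

theorem instDeckRes_apply (f : instVal A hqM i) :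
    instDeckRes A hqM t i hV (instPhi A hqM i f) = instPhi A hqM i ⟨t f, (hV f).2 f.2⟩ :=
  resAut_apply (k := ResidueField A) (residue A) residue_surjective (instPhi A hqM i)
    (instPhi_surjective A hqM i) (instPhi_eq_zero_iff A hqM i)
    (fun a => (algebraMap_mem_instVal_iff A hqM i).2 a.2) (instPhi_algebraMap A hqM i) t hV f

theorem exists_instEmb_eq {n : ℕ} (htn : t ^ n = 1) (hnk : (n : ResidueField A) ≠ 0)
    (hfix : ∀ f, t f = f → ∃ g, instCov hqM g = f) (h : instRes A hqM i)
    (hh : instDeckRes A hqM t i hV h = h) : ∃ g, instEmb A hqM hA i g = h :=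
  exists_emb_eq_of_resAut_eq (k := ResidueField A) (E := instRes A hqM i) (F1 := X0F M q)
    (E0 := X0Res M A) (residue A) residue_surjective (instPhi A hqM i)
    (instPhi_surjective A hqM i) (instPhi_eq_zero_iff A hqM i)
    (fun a => (algebraMap_mem_instVal_iff A hqM i).2 a.2) (instPhi_algebraMap A hqM i) t hV
    (V1 := BadReduction.compV hqM A i) (BadReduction.compPhi hqM A hA i) (instCov hqM)
    (instEmb A hqM hA i) (instCov_mem_iff A hqM i) (instPhi_instCov A hqM hA i) htn hnk hfix hh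

theorem instDeckRes_instEmb (hcovfix : ∀ g, t (instCov hqM g) = instCov hqM g) (g : X0Res M A) :
    instDeckRes A hqM t i hV (instEmb A hqM hA i g) = instEmb A hqM hA i g := by
  obtain ⟨f, hf, he⟩ := (x0Reduction hqM A hA).exists_lift (fun _ => g)
  have e : instEmb A hqM hA i g =
      instPhi A hqM i ⟨instCov hqM f, (instCov_mem_iff A hqM i f).2 (hf i)⟩ :=
    (congrArg (instEmb A hqM hA i) (he i).symm).trans
      (instPhi_instCov A hqM hA i ⟨f, hf i⟩).symm
  rw [e, instDeckRes_apply]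
  exact congrArg (instPhi A hqM i) (Subtype.ext (hcovfix f))

theorem orderOf_instDeckRes [IsAlgClosed (ResidueField A)]
    [Curve.IsFunctionFieldOne (ResidueField A) (instRes A hqM i)]
    {n : ℕ} (htn : t ^ n = 1) (hnk : (n : ResidueField A) ≠ 0)
    (hfix : ∀ f, t f = f → ∃ g, instCov hqM g = f)
    (hcovfix : ∀ g, t (instCov hqM g) = instCov hqM g) (hn0 : 0 < n)
    (he : finrankAlong (ResidueField A) (instEmb A hqM hA i) = n) :
    orderOf (instDeckRes A hqM t i hV) = n := by
  have hpow : instDeckRes A hqM t i hV ^ n = 1 :=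
    resAut_pow_eq_one (k := ResidueField A) (residue A) residue_surjective (instPhi A hqM i)
      (instPhi_surjective A hqM i) (instPhi_eq_zero_iff A hqM i)
      (fun a => (algebraMap_mem_instVal_iff A hqM i).2 a.2) (instPhi_algebraMap A hqM i) t hV htn
  exact ((orderOf_eq_finrankAlong (k := ResidueField A) (E0 := X0Res M A) (instEmb A hqM hA i)
    (instDeckRes A hqM t i hV) (isOfFinOrder_iff_pow_eq_one.2 ⟨n, hn0, hpow⟩)
    (instDeckRes_instEmb A hqM hA t i hV hcovfix)
    (exists_instEmb_eq A hqM hA t i hV htn hnk hfix)).symm).trans he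

end DeckRes

theorem orderOf_unipTorHom (n : ℕ) (hn : (q - 1) / 2 = n) (g₀ : (ZMod q)ˣ)
    (hgen : ∀ a : (ZMod q)ˣ, ∃ j : ℕ, g₀ ^ j = a) (hq5 : 5 ≤ q)
    [Curve.IsFunctionFieldOne Qb (unipFix hqM)] : orderOf (unipTorHom hqM g₀) = n :=
  ((orderOf_eq_finrankAlong_of_generator (K := Qb) (F1 := X0F M q) (F := unipFix hqM)
    (instCov hqM) (H := (ZMod q)ˣ) (unipTorHom hqM) (unipTorHom_fixed_iff hqM) g₀ hgen).trans
    (finrankAlong_instCov hqM hq5)).trans hn

theorem exists_instCov_eq (g₀ : (ZMod q)ˣ) (hgen : ∀ a : (ZMod q)ˣ, ∃ j : ℕ, g₀ ^ j = a)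
    (f : unipFix hqM) (hf : unipTorHom hqM g₀ f = f) : ∃ g, instCov hqM g = f := by
  refine (unipTorHom_fixed_iff hqM f).1 fun a => ?_
  obtain ⟨j, hj⟩ := hgen a
  have h1 : unipTorHom hqM a = unipTorHom hqM g₀ ^ j :=
    (congrArg (unipTorHom hqM) hj.symm).trans (map_pow (unipTorHom hqM) g₀ j)
  exact (congrArg (fun T : unipFix hqM ≃ₐ[Qb] unipFix hqM => T f) h1).trans
    (pow_apply_eq_self (t := unipTorHom hqM g₀) hf j)

theorem unipTor_pow_eq (g : (ZMod q)ˣ) (j : ℕ) :
    unipTor hqM (g ^ j) = SemilinearAut.ofAlgAut (unipTorHom hqM g ^ j) :=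
  (unipTor_eq hqM (g ^ j)).trans (congrArg _ (map_pow (unipTorHom hqM) g j))

set_option maxHeartbeats 1000000 in
/-- The two-component cover structure, with the torus as deck group and inertia trivial on one
component and equal to a deck transformation on the other. -/
theorem exists_twoCompCover_aux (n : ℕ) (hn : (q - 1) / 2 = n) (g₀ : (ZMod q)ˣ)
    (hgen : ∀ a : (ZMod q)ˣ, ∃ j : ℕ, g₀ ^ j = a) {σ : Qb ≃ₐ[ℚ] Qb}
    (hσ : σ ∈ A.inertiaSubgroupIn ℚ)
    (hσg : σ (zetaQ q : Qb) = (zetaQ q : Qb) ^ (g₀ : ZMod q).val) (hq5 : 5 ≤ q)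
    (htor : ∀ a : (ZMod q)ˣ, compVal A (autHom hqM (tor a)) = infVal q M A)
    (hunr : ∀ w : Place Qb (unipFix hqM), ∃ g : X0F M q, w.ord (instCov hqM g) = 1)
    [Curve.IsFunctionFieldOne Qb (unipFix hqM)]
    [∀ i, Curve.IsFunctionFieldOne (ResidueField A) (instRes A hqM i)] :
    ∃ C : TwoCompCover (x0Reduction hqM A hA) (instReduction A hqM hA hq5 htor) n,
      ∀ a : (ZMod q)ˣ, ∃ j : ℕ, unipTor hqM a = SemilinearAut.ofAlgAut (C.t ^ j) := by
  haveI := charP_residue q hA
  haveI := (x0Reduction hqM A hA).isAlgClosed_residue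
  have hnpos : 0 < n := by omega
  have hnk : (n : ResidueField A) ≠ 0 := fun h => by
    have := Nat.le_of_dvd hnpos ((CharP.cast_eq_zero_iff (ResidueField A) q n).1 h)
    omega
  let t := unipTorHom hqM g₀
  have hord : orderOf t = n := orderOf_unipTorHom hqM n hn g₀ hgen hq5
  have htn : t ^ n = 1 := hord ▸ pow_orderOf_eq_one t
  have hcovfix : ∀ g, t (instCov hqM g) = instCov hqM g := fun g =>
    (unipTorHom_fixed_iff hqM _).2 ⟨g, rfl⟩ g₀
  have hfix : ∀ f, t f = f → ∃ g, instCov hqM g = f := exists_instCov_eq hqM g₀ hgen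
  have hV : ∀ i f, t f ∈ instVal A hqM i ↔ f ∈ instVal A hqM i :=
    fun i f => unipTor_mem_iff A hqM htor g₀ i f
  have hdfix : ∀ i h, instDeckRes A hqM t i (hV i) h = h → ∃ g, instEmb A hqM hA i g = h :=
    fun i h hh => exists_instEmb_eq A hqM hA t i (hV i) htn hnk hfix h hh
  have hdord : ∀ i, orderOf (instDeckRes A hqM t i (hV i)) = n := fun i =>
    orderOf_instDeckRes A hqM hA t i (hV i) htn hnk hfix hcovfix hnpos
      ((finrankAlong_instEmb A hqM hq5 hA htor i).trans hn)
  refine ⟨{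
    n_pos := hnpos
    n_ne_zero := hnk
    cov := instCov hqM
    emb := instEmb A hqM hA
    π_eq := rfl
    x_eq := rfl
    cov_mem_iff := instCov_mem_iff A hqM
    cov_red := instPhi_instCov A hqM hA
    t := t
    t_pow := htn
    t_order := fun j hj => hord ▸ orderOf_dvd_of_pow_eq_one hj
    t_cov := hcovfix
    t_fixed := hfix
    d := fun i => instDeckRes A hqM t i (hV i)
    t_mem_iff := hV
    t_red := fun i f => (instDeckRes_apply A hqM t i (hV i) f).symm
    d_order := fun i j hj => hdord i ▸ orderOf_dvd_of_pow_eq_one hj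
    d_fixed := hdfix
    s := unipGal hqM σ g₀ hσg
    s_x := galRingAut_instCov_x0Fun hqM σ g₀ hσg
    s_red_zero := instPhi_unipGal_zero A hqM hσ g₀ hσg
    s_red_one := fun f =>
      exists_red_of_comp (instPhi A hqM 1) (fun x => t x) (fun x => instDeckRes A hqM t 1 (hV 1) x) (hV 1)
        (instDeckRes_apply A hqM t 1 (hV 1)) f
        (unipTorHom_torGal hqM σ g₀ hσg (f : unipFix hqM))
        (instPhi_unipGal_one A hqM hσ g₀ hσg f)
    unram := hunr
    hZ := exists_conductor_proof hqM A hA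
    proj_full := exists_proj_full hqM A hA }, fun a => ?_⟩
  obtain ⟨j, rfl⟩ := hgen a
  exact ⟨j, unipTor_pow_eq hqM g₀ j⟩

theorem exists_gen_units : ∃ g₀ : (ZMod q)ˣ, ∀ a : (ZMod q)ˣ, ∃ j : ℕ, g₀ ^ j = a := by
  obtain ⟨g₀, hg₀⟩ := IsCyclic.exists_generator (α := (ZMod q)ˣ)
  exact ⟨g₀, fun a => (isOfFinOrder_of_finite g₀).mem_powers_iff_mem_zpowers.2 (hg₀ a)⟩

end Fermat.Agent.Carayol.LTwoComp

end
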