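/-
On classes of `X(q; M)` fixed by the upper unipotent group, the values of
`(tor c⁻¹ σ - 1) (σ - 1)` are fixed by the torus up to `q`, for `σ` in inertia at `q`: they die on
both components of the special fibre of the quotient by the unipotent group.
-/
import Fermat.Agent.Carayol.CuspidalVanish
import Fermat.Agent.Carayol.LTwoCompInst

set_option autoImplicit false
set_option linter.style.haveILetI false
set_option synthInstance.maxHeartbeats 400000

noncomputable section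

namespace Fermat.Agent.Carayol.LTwoComp

open AlgebraicCurve ModularCurve Cuspidal BadReduction IsLocalRing

theorem exists_ord_instCov_eq_one {q : ℕ} [Fact q.Prime] {M : ℕ} [NeZero M] (hqM : ¬ q ∣ M)
    (hq5 : 5 ≤ q) (h4 : 4 ∣ M) (w : Place Qb (unipFix hqM)) :
    ∃ g : X0F M q, w.ord (instCov hqM g) = 1 := by
  obtain ⟨hle, h⟩ := exists_ord_eq_one hqM hq5 h4 (unipFix hqM) (fun y => mem_unipFix hqM)
  obtain ⟨g, hg⟩ := h w
  obtain ⟨x, hx⟩ := (mem_range_instCov_iff hqM (IntermediateField.inclusion hle g)).2 g.2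
  exact ⟨x, (congrArg w.ord hx).trans hg⟩

theorem nsmul_tor_smul_eq {q : ℕ} [Fact q.Prime] {M : ℕ} [NeZero M] (hqM : ¬ q ∣ M) (hq5 : 5 ≤ q)
    (h4 : 4 ∣ M) {A : ValuationSubring Qb} (hA : A.LiesOverPrime q) {σ : Qb ≃ₐ[ℚ] Qb}
    (hσ : σ ∈ A.inertiaSubgroupIn ℚ) (c : (ZMod q)ˣ)
    (hc : σ (zetaQ q : Qb) = (zetaQ q : Qb) ^ (c : ZMod q).val)
    {n : ℕ} (hn : ¬ q ∣ n) (hn0 : n ≠ 0) (y : Pic0 Qb (XField q M)) (hy : n • y = 0)
    (hU : letI := picAction (q := q) hqM; ∀ β : ZMod q, uni β • y = y) (a : (ZMod q)ˣ) :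
    letI := picAction (q := q) hqM
    q • tor a • (tor c⁻¹ • galAct q M σ • (galAct q M σ • y - y) - (galAct q M σ • y - y)) =
      q • (tor c⁻¹ • galAct q M σ • (galAct q M σ • y - y) - (galAct q M σ • y - y)) := by
  haveI := isFunctionFieldOne_unipFix (q := q) (M := M) hqM
  haveI : ∀ i, Curve.IsFunctionFieldOne (ResidueField A) (instRes A hqM i) :=
    isFunctionFieldOne_instRes A hqM hA
  haveI := (x0Reduction hqM A hA).isAlgClosed_residue
  have htor := compVal_tor A hqM hq5 h4 hA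
  obtain ⟨g₀, hgen⟩ := exists_gen_units (q := q)
  obtain ⟨τ, hτ, hτg⟩ := Cuspidal.exists_inertia_twist hA g₀
  obtain ⟨C, hdeck⟩ := exists_twoCompCover_aux A hqM hA ((q - 1) / 2) rfl g₀ hgen hτ hτg hq5 htor
    (exists_ord_instCov_eq_one hqM hq5 h4)
  exact nsmul_tor_smul_eq_of_cover hqM C hA c hc hdeck
    (instPhi_unipGal_zero A hqM hσ c hc) (instPhi_unipGal_one A hqM hσ c hc) hn y hy hU a

end Fermat.Agent.Carayol.LTwoComp

end
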