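/-
Coefficient extension `O ⊗ Pic⁰(X(q; M))[m]` of the torsion of `X(q; M)`, with the actions of
`SL₂(ℤ/q)` and of Galois, and the maps `v ↦ lop ξ (∑ vᵢ ⊗ pullback of δᵢ)`.
-/
import Fermat.Agent.Carayol.BFrame
import Fermat.Agent.Carayol.CuspidalTwistKill
import Fermat.Agent.Carayol.LTwoCompKill
import Fermat.Agent.Carayol.LCharRoot
import Mathlib.LinearAlgebra.TensorProduct.Tower
import Mathlib.Algebra.Module.CharacterModule
import Mathlib.RingTheory.DiscreteValuationRing.Basic

set_option autoImplicit false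

noncomputable section

open scoped MatrixGroups TensorProduct Matrix

namespace Fermat.Agent.Carayol.TensorPic

open AlgebraicCurve ModularCurve Cuspidal TwistInertia GaloisAdic TameTrace

section Kill

variable {q : ℕ} [Fact q.Prime] {R : Type*} [CommRing R] {M : Type*} [AddCommGroup M] [Module R M]
  [DistribMulAction SL(2, ZMod q) M] [SMulCommClass SL(2, ZMod q) R M]
  (ξ : MulChar (ZMod q) R) {c : (ZMod q)ˣ} {σ : M →ₗ[R] M}

/-- The hypothesis of `kill_lop` from the torus invariance of the values of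
`(tor c⁻¹ σ - 1) (σ - 1)` on sums over the unipotent group. -/
theorem hz_of_tor_fixed (hσ : ∀ (g : SL(2, ZMod q)) m, σ (g • m) = twist c g • σ m)
    (hu : ∀ (a : (ZMod q)ˣ) (x : M),
      q • tor a • (tor c⁻¹ • σ (σ (sumU q x) - sumU q x) - (σ (sumU q x) - sumU q x)) =
        q • (tor c⁻¹ • σ (σ (sumU q x) - sumU q x) - (σ (sumU q x) - sumU q x)))
    (a₀ : (ZMod q)ˣ) {z : M} (hU : ∀ β : ZMod q, uni β • z = z)
    (hT : ∀ a : (ZMod q)ˣ, tor a • z = ξ ((a * a : (ZMod q)ˣ) : ZMod q) • z) :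
    ((q : R) * q * (ξ ((a₀ * a₀ : (ZMod q)ˣ) : ZMod q) - 1)) •
      (σ (σ z - ξ ((c * c : (ZMod q)ˣ) : ZMod q) • z) -
        (σ z - ξ ((c * c : (ZMod q)ˣ) : ZMod q) • z)) = 0 := by
  have hcomm : ∀ (a : (ZMod q)ˣ) (m : M), σ (tor a • m) = tor a • σ m := fun a m => by
    rw [hσ, twist_tor]
  set w := σ z - z with hw
  have hTw : ∀ a : (ZMod q)ˣ, tor a • w = ξ ((a * a : (ZMod q)ˣ) : ZMod q) • w := fun a => by
    rw [hw, smul_sub, ← hcomm, hT, map_smul, smul_sub]
  set u := tor c⁻¹ • σ w - w with hu'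
  have hu₁ : u = ξ (((c⁻¹ * c⁻¹ : (ZMod q)ˣ)) : ZMod q) • σ w - w := by
    rw [hu', ← hcomm, hTw, map_smul]
  have hTu : tor a₀ • u = ξ ((a₀ * a₀ : (ZMod q)ˣ) : ZMod q) • u := by
    rw [hu₁, smul_sub, smul_comm (tor a₀), ← hcomm, hTw, map_smul, smul_sub]
    rw [hw]
    module
  have hsum : sumU q z = (q : R) • z := by
    simp only [sumU, hU, Finset.sum_const, Finset.card_univ, ZMod.card]
    rw [Nat.cast_smul_eq_nsmul]
  have h := hu a₀ z
  rw [hsum, map_smul, ← smul_sub, map_smul, smul_comm (tor c⁻¹) (q : R), ← smul_sub, ← hw, ← hu',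
    smul_comm (tor a₀) (q : R), ← Nat.cast_smul_eq_nsmul R q, ← Nat.cast_smul_eq_nsmul R q, hTu,
    smul_smul, smul_smul, smul_smul, ← sub_eq_zero, ← sub_smul] at h
  have hcc : ξ ((c * c : (ZMod q)ˣ) : ZMod q) * ξ ((c⁻¹ * c⁻¹ : (ZMod q)ˣ) : ZMod q) = 1 := by
    rw [← map_mul, ← Units.val_mul, show c * c * (c⁻¹ * c⁻¹) = 1 by group, Units.val_one, map_one]
  have e : σ (σ z - ξ ((c * c : (ZMod q)ˣ) : ZMod q) • z) -
      (σ z - ξ ((c * c : (ZMod q)ˣ) : ZMod q) • z) = ξ ((c * c : (ZMod q)ˣ) : ZMod q) • u := by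
    rw [hu₁, smul_sub, smul_smul, hcc, one_smul, hw, map_sub, map_sub, map_smul, smul_sub]
    abel
  rw [e, smul_comm]
  refine (congrArg (fun m : M => ξ ((c * c : (ZMod q)ˣ) : ZMod q) • m) ?_).trans (smul_zero _)
  rw [← h]
  congr 1
  ring

omit [SMulCommClass SL(2, ZMod q) R M] [Fact q.Prime] in
/-- Additivity of the inertial relation. -/
theorem rel_add {g₁ g₂ : SL(2, ZMod q)} {f : M →ₗ[R] M} {u w : M}
    (hu : q • g₁ • (g₂ • f (f u - u) - (f u - u)) = q • (g₂ • f (f u - u) - (f u - u)))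
    (hw : q • g₁ • (g₂ • f (f w - w) - (f w - w)) = q • (g₂ • f (f w - w) - (f w - w))) :
    q • g₁ • (g₂ • f (f (u + w) - (u + w)) - (f (u + w) - (u + w))) =
      q • (g₂ • f (f (u + w) - (u + w)) - (f (u + w) - (u + w))) := by
  have e : f (u + w) - (u + w) = (f u - u) + (f w - w) := by rw [map_add]; abel
  rw [e, map_add, smul_add g₂, add_sub_add_comm, smul_add g₁, smul_add, smul_add, hu, hw]

end Kill

section Basic

variable (O : Type) [CommRing O] {G : Type*} [Monoid G] {T : Type*} [AddCommGroup T]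
  [DistribMulAction G T]

/-- The coefficient extension of an action. -/
def baseEnd : G →* Module.End O (O ⊗[ℤ] T) where
  toFun g := (DistribSMul.toAddMonoidHom T g).toIntLinearMap.baseChange O
  map_one' := TensorProduct.AlgebraTensorModule.ext fun o t => by simp
  map_mul' g h := TensorProduct.AlgebraTensorModule.ext fun o t => by
    simp [Module.End.mul_apply, mul_smul]

theorem baseEnd_tmul (g : G) (o : O) (t : T) : baseEnd O g (o ⊗ₜ[ℤ] t) = o ⊗ₜ[ℤ] (g • t) := rfl

end Basic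

variable {q : ℕ} [Fact q.Prime] {M : ℕ} [NeZero M] (O : Type) [CommRing O]

/-- `O ⊗ Pic⁰(X(q; M))[m]`. -/
abbrev Coef (q : ℕ) [Fact q.Prime] (M : ℕ) [NeZero M] (m : ℕ) : Type :=
  O ⊗[ℤ] Pic0.torsion Qb (XField q M) m

/-- The action of `SL₂(ℤ/q)` on the torsion. -/
@[reducible]
def torsAction (hqM : ¬ q ∣ M) (m : ℕ) :
    DistribMulAction SL(2, ZMod q) (Pic0.torsion Qb (XField q M) m) :=
  DistribMulAction.compHom _ (SemilinearAut.ofAlgAut.comp (autHom hqM))

/-- The action of `SL₂(ℤ/q)` on the coefficient extension. -/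
@[reducible]
def coefAction (hqM : ¬ q ∣ M) (m : ℕ) : DistribMulAction SL(2, ZMod q) (Coef O q M m) :=
  DistribMulAction.compHom _
    ((baseEnd O (G := SemilinearAut Qb (XField q M))
      (T := Pic0.torsion Qb (XField q M) m)).comp (SemilinearAut.ofAlgAut.comp (autHom hqM)))

theorem coefAction_comm (hqM : ¬ q ∣ M) (m : ℕ) :
    letI := coefAction O hqM m
    SMulCommClass SL(2, ZMod q) O (Coef O q M m) :=
  letI := coefAction O hqM m
  ⟨fun g o x => (baseEnd O (T := Pic0.torsion Qb (XField q M) m) (SemilinearAut.ofAlgAut (autHom hqM g))).map_smul o x⟩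

/-- The Galois action on the coefficient extension. -/
def coefGal (q : ℕ) [Fact q.Prime] (M : ℕ) [NeZero M] (m : ℕ) (σ : Qb ≃ₐ[ℚ] Qb) :
    Module.End O (Coef O q M m) :=
  baseEnd O (galAct q M σ)

/-- `lop` as a linear map. -/
def lopLin {q : ℕ} [Fact q.Prime] {R : Type*} [CommRing R] {Q : Type*} [AddCommGroup Q]
    [Module R Q] [DistribMulAction SL(2, ZMod q) Q] [SMulCommClass SL(2, ZMod q) R Q]
    (ξ : MulChar (ZMod q) R) : Q →ₗ[R] Q where
  toFun := lop ξ
  map_add' x y := by simp only [lop, sumU, twU, smul_add, Finset.sum_add_distrib, Finset.smul_sum]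
  map_smul' r x := by
    simp only [lop, sumU, twU, Finset.smul_sum, RingHom.id_apply,
      smul_comm (weyl : SL(2, ZMod q)) r, smul_comm (uni _) r, smul_comm (ξ _) r]

variable (hqM : ¬ q ∣ M) (m : ℕ)

theorem coefGal_smul {σ : Qb ≃ₐ[ℚ] Qb} (c : (ZMod q)ˣ)
    (hc : σ (zetaQ q : Qb) = (zetaQ q : Qb) ^ (c : ZMod q).val) (g : SL(2, ZMod q))
    (x : Coef O q M m) :
    letI := coefAction O hqM m
    coefGal O q M m σ (g • x) = twist c g • coefGal O q M m σ x := by
  let e := baseEnd O (G := SemilinearAut Qb (XField q M)) (T := Pic0.torsion Qb (XField q M) m)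
  show e (galAct q M σ) (e (SemilinearAut.ofAlgAut (autHom hqM g)) x)
    = e (SemilinearAut.ofAlgAut (autHom hqM (twist c g))) (e (galAct q M σ) x)
  induction x using TensorProduct.induction_on with
  | zero => simp
  | tmul o t =>
    simp only [e, baseEnd_tmul]
    congr 1
    exact Subtype.ext (galAct_smul_smul hqM σ c hc g (t : Pic0 Qb (XField q M)))
  | add x y hx hy => simp only [map_add, hx, hy]

theorem coefAction_tmul (g : SL(2, ZMod q)) (o : O) (t : Pic0.torsion Qb (XField q M) m) :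
    letI := coefAction O hqM m
    letI := torsAction hqM m
    g • (o ⊗ₜ[ℤ] t : Coef O q M m) = o ⊗ₜ[ℤ] (g • t) := rfl

/-- The inertial relation on sums over the unipotent group, with coefficients. -/
theorem coef_tor_fixed {A : ValuationSubring Qb} (hA : A.LiesOverPrime q) (hq5 : 5 ≤ q)
    (h4 : 4 ∣ M) (hm : ¬ q ∣ m) (hm0 : m ≠ 0) {σ : Qb ≃ₐ[ℚ] Qb}
    (hσ : σ ∈ A.inertiaSubgroupIn ℚ) (c : (ZMod q)ˣ)
    (hc : σ (zetaQ q : Qb) = (zetaQ q : Qb) ^ (c : ZMod q).val) (a : (ZMod q)ˣ)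
    (x : Coef O q M m) :
    letI := coefAction O hqM m
    q • tor a • (tor c⁻¹ • coefGal O q M m σ (coefGal O q M m σ (sumU q x) - sumU q x)
        - (coefGal O q M m σ (sumU q x) - sumU q x)) =
      q • (tor c⁻¹ • coefGal O q M m σ (coefGal O q M m σ (sumU q x) - sumU q x)
        - (coefGal O q M m σ (sumU q x) - sumU q x)) := by
  let := coefAction O hqM m
  let := torsAction hqM m
  have hg : ∀ (g : SL(2, ZMod q)) (o : O) (t : Pic0.torsion Qb (XField q M) m),
      g • (o ⊗ₜ[ℤ] t : Coef O q M m) = o ⊗ₜ[ℤ] (g • t) := fun g o t => rfl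
  induction x using TensorProduct.induction_on with
  | zero => simp [sumU]
  | tmul o t =>
    have hs : sumU q (o ⊗ₜ[ℤ] t : Coef O q M m) = o ⊗ₜ[ℤ] sumU q t := by
      simp only [sumU, hg, TensorProduct.tmul_sum]
    rw [hs]
    simp only [coefGal, baseEnd_tmul, ← TensorProduct.tmul_sub, hg, ← TensorProduct.tmul_smul]
    congr 1
    refine Subtype.ext ?_
    let := picAction (q := q) (M := M) hqM
    have hy : m • ((sumU q t : Pic0.torsion Qb (XField q M) m) : Pic0 Qb (XField q M)) = 0 := by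
      rw [← natCast_zsmul]
      exact Pic0.mem_torsion.1 (Subtype.coe_prop _)
    have hct : ∀ (g : SL(2, ZMod q)) (t : Pic0.torsion Qb (XField q M) m),
        ((g • t : Pic0.torsion Qb (XField q M) m) : Pic0 Qb (XField q M))
          = g • (t : Pic0 Qb (XField q M)) := fun g t => rfl
    have hfix : ∀ β : ZMod q, uni β • ((sumU q t : Pic0.torsion Qb (XField q M) m) :
        Pic0 Qb (XField q M)) = ((sumU q t : Pic0.torsion Qb (XField q M) m) :
        Pic0 Qb (XField q M)) := fun β => by rw [← hct, uni_smul_sumU]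
    have key := LTwoComp.nsmul_tor_smul_eq hqM hq5 h4 hA hσ c hc hm hm0 _ hy hfix a
    simp only [AddSubgroup.coe_nsmul, AddSubgroup.coe_sub, hct, SemilinearAut.coe_torsion_smul]
    exact key
  | add x y hx hy =>
    have hs : sumU q (x + y) = sumU q x + sumU q y := by
      simp only [sumU, smul_add, Finset.sum_add_distrib]
    rw [hs]
    have := coefAction_comm O hqM m
    exact rel_add (R := O) (g₁ := tor a) (g₂ := tor c⁻¹) (f := coefGal O q M m σ) hx hy

section Level

variable {p : ℕ} [Fact p.Prime] (n : ℕ)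

/-- A point of `J₀(q² M)[pⁿ]` on `X(q; M)`. -/
def pullTors : Torsion.jTorsion (q * M * q) (p ^ n) →+ Pic0.torsion Qb (XField q M) (p ^ n) :=
  AddMonoidHom.mk' (fun x => ⟨pullLevel hqM (x : JZero (q * M * q)), Pic0.mem_torsion.2 (by
      rw [natCast_zsmul, ← map_nsmul, Torsion.mem_jTorsion.1 x.2, map_zero])⟩)
    fun x y => Subtype.ext (map_add (pullLevel hqM) _ _)

/-- The images of the unit vectors. -/
def baseVec (i : Fin (parFrame (q * M * q) p).H.r) : Coef O q M (p ^ n) :=
  (1 : O) ⊗ₜ[ℤ] pullTors hqM n (Torsion.torsionCoord (q * M * q) (p ^ n) (Pi.single i 1))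

/-- `v ↦ ∑ vᵢ ⊗ pullback of δᵢ`. -/
def baseMap : (Fin (parFrame (q * M * q) p).H.r → O) →ₗ[O] Coef O q M (p ^ n) :=
  Fintype.linearCombination O (baseVec O hqM n)

theorem baseMap_apply (v : Fin (parFrame (q * M * q) p).H.r → O) :
    baseMap O hqM n v = ∑ i, v i • baseVec O hqM n i :=
  Fintype.linearCombination_apply O (baseVec O hqM n) v

omit [Fact p.Prime] in
theorem nsmul_coef_eq_zero (x : Coef O q M (p ^ n)) : p ^ n • x = 0 := by
  induction x using TensorProduct.induction_on with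
  | zero => simp
  | tmul o t =>
    rw [← TensorProduct.tmul_smul, show p ^ n • t = 0 from Subtype.ext (by
      rw [AddSubgroup.coe_nsmul, ← natCast_zsmul]; exact Pic0.mem_torsion.1 t.2),
      TensorProduct.tmul_zero]
  | add x y hx hy => rw [smul_add, hx, hy, add_zero]

omit [Fact p.Prime] in
theorem span_smul_eq_zero {o : O} (ho : o ∈ Ideal.span {(p ^ n : O)}) (x : Coef O q M (p ^ n)) :
    o • x = 0 := by
  obtain ⟨r, rfl⟩ := Ideal.mem_span_singleton'.1 ho
  rw [← Nat.cast_pow, mul_smul, Nat.cast_smul_eq_nsmul, nsmul_coef_eq_zero, smul_zero]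

theorem tor_smul_baseMap (a : (ZMod q)ˣ) (v : Fin (parFrame (q * M * q) p).H.r → O) :
    letI := coefAction O hqM (p ^ n)
    tor a • baseMap O hqM n v = baseMap O hqM n v := by
  let := coefAction O hqM (p ^ n)
  have := coefAction_comm O hqM (p ^ n)
  simp only [baseMap_apply, Finset.smul_sum, smul_comm (tor a)]
  refine Finset.sum_congr rfl fun i _ => congrArg (v i • ·) ?_
  show (1 : O) ⊗ₜ[ℤ] _ = _
  exact congrArg (_ ⊗ₜ[ℤ] ·) (Subtype.ext (tor_smul_pullLevel hqM a _))

variable [IsLocalRing O] [IsAdicComplete (IsLocalRing.maximalIdeal O) O]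
  (hp : (p : O) ∈ IsLocalRing.maximalIdeal O)

/-- Galois through the coordinates. -/
theorem coefGal_baseMap (σ : Qb ≃ₐ[ℚ] Qb) (v : Fin (parFrame (q * M * q) p).H.r → O) :
    coefGal O q M (p ^ n) σ (baseMap O hqM n v)
      = baseMap O hqM n (galMatO hp (parFrame (q * M * q) p) σ *ᵥ v) := by
  let F := parFrame (q * M * q) p
  set A := F.galMatrixMod σ n with hA
  let f : (Fin F.H.r → ZMod (p ^ n)) →+ Pic0.torsion Qb (XField q M) (p ^ n) :=
    (pullTors hqM n).comp (Torsion.torsionCoord (q * M * q) (p ^ n)).toAddMonoidHom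
  have hx : ∀ j, coefGal O q M (p ^ n) σ (baseVec O hqM n j)
      = ∑ i, ((A i j).val : O) • baseVec O hqM n i := fun j => by
    have h1 : galAct q M σ • f (Pi.single j 1) = f (A *ᵥ Pi.single j 1) := Subtype.ext <| by
      show galAct q M σ • pullLevel hqM (F.e n (Pi.single j 1)) = pullLevel hqM (F.e n _)
      rw [F.e_galMatrixMod, pullLevel_galois_smul]
    have h2 : A *ᵥ Pi.single j 1 = ∑ i, (A i j).val • (Pi.single i 1 : _ → ZMod (p ^ n)) := by
      funext k
      rw [Finset.sum_apply, Finset.sum_eq_single k]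
      · simp
      · intro b _ hb
        simp [Ne.symm hb]
      · simp
    show (1 : O) ⊗ₜ[ℤ] (galAct q M σ • f (Pi.single j 1)) = _
    rw [h1, h2, map_sum, TensorProduct.tmul_sum]
    refine Finset.sum_congr rfl fun i _ => ?_
    rw [map_nsmul, TensorProduct.tmul_smul, Nat.cast_smul_eq_nsmul]
    rfl
  simp only [baseMap_apply, map_sum, map_smul, hx, Matrix.mulVec, dotProduct, Finset.sum_smul,
    Finset.smul_sum, smul_smul]
  rw [Finset.sum_comm]
  refine Finset.sum_congr rfl fun i _ => Finset.sum_congr rfl fun j _ => ?_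
  rw [← sub_eq_zero, ← sub_smul]
  refine span_smul_eq_zero O n ?_ _
  have e : ∀ x g w : O, w * x - g * w = (x - g) * w := fun x g w => by ring
  erw [e]
  refine Ideal.mul_mem_right _ _ ?_
  obtain ⟨r, hr⟩ : ∃ r : ℤ_[p], ((A i j).val : ℤ_[p]) - F.galMatrix σ i j = r * (p : ℤ_[p]) ^ n := by
    have : ((A i j).val : ℤ_[p]) - F.galMatrix σ i j ∈ RingHom.ker (PadicInt.toZModPow n) := by
      rw [RingHom.mem_ker, map_sub, map_natCast, ZMod.natCast_zmod_val, hA, sub_eq_zero]
      exact (congrFun (congrFun (F.map_galMatrix σ n) i) j).symm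
    rw [PadicInt.ker_toZModPow, Ideal.mem_span_singleton'] at this
    exact this.imp fun r h => h.symm
  refine Ideal.mem_span_singleton'.2 ⟨padicIntHom O hp r, ?_⟩
  have h := congrArg (padicIntHom O hp) hr
  rw [map_sub, map_natCast, map_mul, map_pow, map_natCast] at h
  rw [← h]
  rfl

end Level

end Fermat.Agent.Carayol.TensorPic
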