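/-
Non-vanishing of `lop ξ` on the image of an eigen class with coefficients, and small lemmas for
the inertia at a prime of a primitive nebentype.
-/
import Fermat.Agent.Carayol.BTensor
import Mathlib.Topology.Instances.AddCircle.Defs

set_option autoImplicit false

noncomputable section

open scoped MatrixGroups TensorProduct

namespace Fermat.Agent.Carayol.TensorPic

open AlgebraicCurve ModularCurve Cuspidal TwistInertia GaloisAdic TameTrace CongruenceSubgroup

/-- Functionals with values in `ℤ/m` separate `O` modulo `m`. -/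
theorem exists_functional {O : Type*} [CommRing O] {m : ℕ} [NeZero m] {x : O}
    (hx : x ∉ Ideal.span {(m : O)}) : ∃ f : O →+ ZMod m, f x ≠ 0 := by
  classical
  obtain ⟨χ, hχ⟩ := CharacterModule.exists_character_apply_ne_zero_of_ne_zero
    (A := O ⧸ Ideal.span {(m : O)}) (a := Ideal.Quotient.mk _ x)
    fun h => hx (Ideal.Quotient.eq_zero_iff_mem.1 h)
  have hm : (m : ℚ) ≠ 0 := Nat.cast_ne_zero.2 (NeZero.ne m)
  let ι₀ : ℤ →+ AddCircle (1 : ℚ) := zmultiplesHom _ (((1 : ℚ) / m : ℚ) : AddCircle (1 : ℚ))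
  have hι₀ : ι₀ m = 0 := by
    rw [zmultiplesHom_apply, natCast_zsmul, ← AddCircle.coe_nsmul, nsmul_eq_mul,
      mul_one_div_cancel hm, AddCircle.coe_period]
  let ι : ZMod m →+ AddCircle (1 : ℚ) := ZMod.lift m ⟨ι₀, hι₀⟩
  have hinj : Function.Injective ι := (ZMod.lift_injective _).2 fun z hz => by
    change z • (((1 : ℚ) / m : ℚ) : AddCircle (1 : ℚ)) = 0 at hz
    rw [← AddCircle.coe_zsmul, AddCircle.coe_eq_zero_iff] at hz
    obtain ⟨k, hk⟩ := hz
    rw [zsmul_eq_mul, zsmul_eq_mul, mul_one, mul_one_div, eq_div_iff hm] at hk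
    rw [ZMod.intCast_zmod_eq_zero_iff_dvd]
    exact ⟨k, by rw [mul_comm]; exact_mod_cast hk.symm⟩
  have hmem : ∀ o : O, ∃ z : ZMod m, ι z = χ (Ideal.Quotient.mk _ o) := fun o => by
    have h0 : m • χ (Ideal.Quotient.mk (Ideal.span {(m : O)}) o) = 0 := by
      rw [← map_nsmul, nsmul_eq_mul, ← map_natCast (Ideal.Quotient.mk (Ideal.span {(m : O)})),
        ← map_mul, Ideal.Quotient.eq_zero_iff_mem.2 (Ideal.mem_span_singleton.2 (dvd_mul_right _ _)), map_zero]
    obtain ⟨j, -, hj⟩ := (AddCircle.nsmul_eq_zero_iff (NeZero.pos m)).1 h0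
    refine ⟨(j : ℤ), ?_⟩
    rw [← hj]
    show ZMod.lift m ⟨ι₀, hι₀⟩ (j : ℤ) = _
    rw [ZMod.lift_coe, zmultiplesHom_apply, ← AddCircle.coe_zsmul]
    congr 1
    rw [zsmul_eq_mul]
    push_cast
    ring
  choose g hg using hmem
  refine ⟨AddMonoidHom.mk' g fun a b => hinj ?_, fun h => hχ ?_⟩
  · rw [map_add, hg, hg, hg, map_add, map_add]
  · rw [← hg x, show g x = 0 from h, map_zero]

/-- A functional applied to the coefficients. -/
def coefEval {q : ℕ} [Fact q.Prime] {M : ℕ} [NeZero M] {O : Type} [CommRing O] {m : ℕ}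
    (f : O →+ ZMod m) : Coef O q M m →ₗ[ℤ] Pic0.torsion Qb (XField q M) m :=
  TensorProduct.lift (LinearMap.mk₂ ℤ (fun (o : O) (t : Pic0.torsion Qb (XField q M) m) => f o • t)
    (fun o o' t => by rw [map_add, add_smul])
    (fun a o t => by
      rw [map_zsmul]
      exact map_zsmul ((smulAddHom (ZMod m) (Pic0.torsion Qb (XField q M) m)).flip t) a _)
    (fun o t t' => smul_add _ _ _)
    fun a o t => map_zsmul (smulAddHom (ZMod m) (Pic0.torsion Qb (XField q M) m) (f o)) a t)

theorem coefEval_smul_smul_one {q : ℕ} [Fact q.Prime] {M : ℕ} [NeZero M] {O : Type} [CommRing O]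
    {m : ℕ} (hqM : ¬ q ∣ M) (f : O →+ ZMod m) (g : SL(2, ZMod q)) (o : O)
    (t : Pic0.torsion Qb (XField q M) m) :
    letI := coefAction O hqM m
    letI := torsAction hqM m
    coefEval f (o • g • ((1 : O) ⊗ₜ[ℤ] t : Coef O q M m)) = f o • g • t := by
  let := coefAction O hqM m
  let := torsAction hqM m
  have e : o • g • ((1 : O) ⊗ₜ[ℤ] t : Coef O q M m) = o ⊗ₜ[ℤ] (g • t) :=
    (congrArg (o • ·) (coefAction_tmul O hqM m g 1 t)).trans
      ((TensorProduct.smul_tmul' o 1 _).trans (by rw [smul_eq_mul, mul_one]))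
  exact (congrArg (coefEval f) e).trans (TensorProduct.lift.tmul _ _)

/-- An eigen class composed with a functional, in terms of the dual basis. -/
theorem apply_eq_sum_single {N : ℕ} [NeZero N] {O : Type} [CommRing O] {m : ℕ} [NeZero m]
    (φ : ParHom.parEllHoms (Gamma0 N) O O) (f : O →+ ZMod m) (o : O) (h : Gamma0 N) :
    f (o * (φ : Additive (Gamma0 N) →+ O) (Additive.ofMul h)) =
      ∑ i, f (o * (φ : Additive (Gamma0 N) →+ O) (Additive.ofMul (HeckeCohom.gen N i))) *
        (((ParHom.parEquiv (ParHom.neg_one_mem_Gamma0 N) ℤ (ZMod m)).symm (Pi.single i 1) :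
          ParHom.parEllHoms (Gamma0 N) ℤ (ZMod m)) : Additive (Gamma0 N) →+ ZMod m)
            (Additive.ofMul h) := by
  set P := ParHom.parEquiv (ParHom.neg_one_mem_Gamma0 N) ℤ (ZMod m)
  have hb : ∀ i, ((P.symm (Pi.single i 1) : ParHom.parEllHoms (Gamma0 N) ℤ (ZMod m)) :
      Additive (Gamma0 N) →+ ZMod m) (Additive.ofMul h) =
        (((HeckeCohom.basisHom N i : Additive (Gamma0 N) →+ ℤ) (Additive.ofMul h) : ℤ) :
          ZMod m) := fun i => by
    have hd := DFunLike.congr_fun (HeckeCohom.decomp (P.symm (Pi.single i 1)).2)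
      (Additive.ofMul h)
    rw [hd, AddMonoidHom.finsetSum_apply, Finset.sum_eq_single i]
    · have e := congrFun (P.apply_symm_apply (Pi.single i 1)) i
      rw [ParHom.parEquiv_apply, Pi.single_eq_same] at e
      rw [AddMonoidHom.comp_apply, zmultiplesHom_apply, HeckeCohom.gen, e, zsmul_one]
    · intro j _ hj
      have e := congrFun (P.apply_symm_apply (Pi.single i 1)) j
      rw [ParHom.parEquiv_apply, Pi.single_eq_of_ne hj] at e
      rw [AddMonoidHom.comp_apply, zmultiplesHom_apply, HeckeCohom.gen, e, smul_zero]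
    · simp
  have hψ := DFunLike.congr_fun (HeckeCohom.decomp
    (ParHom.IsParEllHom.comp φ.2 (f.comp (AddMonoidHom.mulLeft o)))) (Additive.ofMul h)
  simp only [AddMonoidHom.comp_apply, AddMonoidHom.coe_mulLeft, AddMonoidHom.finsetSum_apply,
    zmultiplesHom_apply] at hψ
  rw [hψ]
  refine Finset.sum_congr rfl fun i _ => ?_
  rw [hb, zsmul_eq_mul, mul_comm]

variable {q : ℕ} [Fact q.Prime] {M : ℕ} [NeZero M] (hqM : ¬ q ∣ M) {p : ℕ} [Fact p.Prime]
  {O : Type} [CommRing O] [IsLocalRing O] [IsAdicComplete (IsLocalRing.maximalIdeal O) O]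

/-- Non-vanishing from the non-vanishing of the combination of conjugated characters. -/
theorem exists_smul_lop_ne_zero (hp : (p : O) ∈ IsLocalRing.maximalIdeal O) [IsDomain O]
    (ξ : MulChar (ZMod q) O) (φ : ParHom.parEllHoms (Gamma0 (q * M * q)) O O)
    (γ : ZMod q → ZMod q → Gamma0 M)
    (hγ : ∀ β α, red (q := q) (γ β α : SL(2, ℤ))
      = twist (embUnit q) (uni β * weyl * uni α * weyl))
    (δ : deltaGrp q M)
    (hne : ∑ β : ZMod q, ∑ α : ZMod q, ξ α * (φ : Additive (Gamma0 (q * M * q)) →+ O)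
      (Additive.ofMul (Torsion.frickeConj (q * M * q) (down q M hqM (conjDelta (γ β α) δ)))) ≠ 0)
    {c : O} (hc : c ≠ 0) :
    ∃ n : ℕ, letI := coefAction O hqM (p ^ n)
      c • lop ξ (baseMap O hqM n (coordVec p φ)) ≠ 0 := by
  classical
  obtain ⟨n, hn⟩ : ∃ n : ℕ, c * (∑ β : ZMod q, ∑ α : ZMod q, ξ α *
      (φ : Additive (Gamma0 (q * M * q)) →+ O) (Additive.ofMul
        (Torsion.frickeConj (q * M * q) (down q M hqM (conjDelta (γ β α) δ))))) ∉
      Ideal.span {((p ^ n : ℕ) : O)} := by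
    by_contra h
    push Not at h
    refine mul_ne_zero hc hne (eq_of_forall_sub_mem_pow (y := 0) fun n => ?_)
    rw [sub_zero]
    refine (Ideal.span_le.2 (Set.singleton_subset_iff.2 ?_)) (h n)
    rw [Nat.cast_pow]
    exact Ideal.pow_mem_pow hp n
  refine ⟨n, fun h0 => ?_⟩
  let := coefAction O hqM (p ^ n)
  let := torsAction hqM (p ^ n)
  have := coefAction_comm O hqM (p ^ n)
  obtain ⟨f, hf⟩ := exists_functional hn
  -- apply the functional to the coefficients
  let T := Pic0.torsion Qb (XField q M) (p ^ n)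
  let L : Coef O q M (p ^ n) →ₗ[ℤ] T := coefEval f
  have hL : ∀ (g : SL(2, ZMod q)) (o : O) (t : T),
      L (o • g • ((1 : O) ⊗ₜ[ℤ] t : Coef O q M (p ^ n))) = f o • g • t :=
    fun g o t => coefEval_smul_smul_one hqM f g o t
  let N := q * M * q
  let v := coordVec p φ
  let x : Fin (parFrame N p).H.r → Torsion.jTorsion N (p ^ n) :=
    fun i => Torsion.torsionCoord N (p ^ n) (Pi.single i 1)
  have h1 := congrArg (fun z => ((L z : T) : Pic0 Qb (XField q M))) h0
  simp only [map_zero, AddSubgroup.coe_zero, lop, sumU, twU, baseMap_apply, Finset.smul_sum,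
    smul_comm (weyl : SL(2, ZMod q)) (_ : O), smul_comm (uni _) (_ : O), smul_smul c,
    smul_smul (M := O) _ (coordVec p φ _)] at h1
  simp only [baseVec, ← mul_smul (_ : SL(2, ZMod q)), map_sum, hL,
    AddSubgroup.val_finsetSum] at h1
  have hz : ∀ (r : ZMod (p ^ n)) (t : T), r • t = r.val • t := fun r t => by
    conv_lhs => rw [← ZMod.natCast_zmod_val r]
    exact Nat.cast_smul_eq_nsmul _ _ _
  simp only [hz, AddSubgroup.coe_nsmul] at h1
  rw [← Finset.sum_product', ← Finset.sum_product'] at h1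
  have key := sum_char_eq_zero_of_sum_pullLevel_eq_zero (n := p ^ n) hqM
    (Finset.univ : Finset ((ZMod q × ZMod q) × Fin (parFrame N p).H.r))
    (fun b => (f (c * (ξ b.1.2 * v b.2))).val)
    (fun b => uni b.1.1 * (weyl * (uni b.1.2 * weyl)))
    (fun b => γ b.1.1 b.1.2)
    (fun b _ => by rw [hγ]; simp only [mul_assoc])
    (x := fun b => (x b.2 : JZero N))
    (φ := fun b => (((ParHom.parEquiv (ParHom.neg_one_mem_Gamma0 N) ℤ (ZMod (p ^ n))).symm
        (Pi.single b.2 1) : ParHom.parEllHoms (Gamma0 N) ℤ (ZMod (p ^ n))) :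
          Additive (Gamma0 N) →+ ZMod (p ^ n)).comp (MonoidHom.toAdditive (Torsion.frickeConj N)))
    (fun b _ => Torsion.isTorsionChar_torsionEquiv N (p ^ n) _) (by
      rw [← h1]
      exact Finset.sum_congr rfl fun b _ => rfl) δ
  refine hf ?_
  rw [Finset.mul_sum, map_sum]
  simp only [Finset.mul_sum, map_sum]
  rw [← Finset.sum_product']
  rw [Fintype.sum_prod_type] at key
  refine Eq.trans (Finset.sum_congr rfl fun b _ => ?_) key
  rw [← mul_assoc c (ξ b.2), apply_eq_sum_single φ f (c * ξ b.2) _]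
  refine Finset.sum_congr rfl fun i _ => ?_
  rw [nsmul_eq_mul, ZMod.natCast_zmod_val, ← mul_assoc c (ξ b.2)]
  rfl

omit [IsAdicComplete (IsLocalRing.maximalIdeal O) O] in
/-- Coordinates small at a high level die at a given level. -/
theorem exists_pow_baseMap_eq_zero [IsDomain O] [IsDiscreteValuationRing O] [CharZero O] (n : ℕ) :
    ∃ K : ℕ, ∀ v : Fin (parFrame (q * M * q) p).H.r → O,
      (∀ i, v i ∈ IsLocalRing.maximalIdeal O ^ K) → baseMap O hqM n v = 0 := by
  obtain ⟨ϖ, hϖ⟩ := IsDiscreteValuationRing.exists_irreducible O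
  obtain ⟨K, hK⟩ := IsDiscreteValuationRing.ideal_eq_span_pow_irreducible
    (s := Ideal.span {((p : O) ^ n)})
    (by simp [pow_eq_zero_iff', (Fact.out (p := p.Prime)).ne_zero]) hϖ
  refine ⟨K, fun v hv => ?_⟩
  rw [baseMap_apply]
  refine Finset.sum_eq_zero fun i _ => span_smul_eq_zero O n ?_ _
  rw [hK, ← Ideal.span_singleton_pow, ← hϖ.maximalIdeal_eq]
  exact hv i

omit [IsAdicComplete (IsLocalRing.maximalIdeal O) O] [IsLocalRing O] in
/-- The component at `q` of a character to the squarefree modulus `q D'`. -/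
theorem exists_component {D' : ℕ} (hcop : q.Coprime D') (ψ : DirichletCharacter O (q * D')) :
    ∃ ξ : MulChar (ZMod q) O,
      (∀ x : (ZMod q)ˣ, ∃ y : (ZMod (q * D'))ˣ, ξ (x : ZMod q) = ψ (y : ZMod (q * D'))) ∧
      ∀ d : ℤ, (d : ZMod D') = 1 → (d : ZMod q) ≠ 0 →
        ψ (d : ZMod (q * D')) = ξ (d : ZMod q) := by
  let e := ZMod.chineseRemainder hcop
  let ι : ZMod q →* ZMod (q * D') :=
    { toFun := fun x => e.symm (x, 1)
      map_one' := map_one e.symm
      map_mul' := fun x y => by rw [← map_mul, Prod.mk_mul_mk, mul_one] }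
  refine ⟨MulChar.ofUnitHom (ψ.toUnitHom.comp (Units.map ι)), fun x => ⟨Units.map ι x, ?_⟩,
    fun d hd hdq => ?_⟩
  · rw [MulChar.ofUnitHom_coe, MonoidHom.comp_apply, MulChar.coe_toUnitHom]
  · have he : (d : ZMod (q * D')) = ι (d : ZMod q) := by
      show _ = e.symm ((d : ZMod q), 1)
      rw [RingEquiv.eq_symm_apply, map_intCast, ← hd]
      rfl
    rw [← Units.val_mk0 hdq, MulChar.ofUnitHom_coe, MonoidHom.comp_apply,
      MulChar.coe_toUnitHom, Units.coe_map, Units.val_mk0, he]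

/-- The quadratic relation for inertia on the images of the coordinates. -/
theorem kill_baseMap (hp : (p : O) ∈ IsLocalRing.maximalIdeal O) {A : ValuationSubring Qb}
    (hA : A.LiesOverPrime q) (hq5 : 5 ≤ q) (h4 : 4 ∣ M) (hqp : q ≠ p) (ξ : MulChar (ZMod q) O)
    (a₀ : (ZMod q)ˣ) {σ : Qb ≃ₐ[ℚ] Qb} (hσ : σ ∈ A.inertiaSubgroupIn ℚ) (c : (ZMod q)ˣ)
    (hc : σ (zetaQ q : Qb) = (zetaQ q : Qb) ^ (c : ZMod q).val) (n : ℕ)
    (v : Fin (parFrame (q * M * q) p).H.r → O) :
    letI := coefAction O hqM (p ^ n)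
    haveI := coefAction_comm O hqM (p ^ n)
    ((q : O) * q * (ξ ((a₀ * a₀ : (ZMod q)ˣ) : ZMod q) - 1)) •
      (lopLin ξ (baseMap O hqM n
          ((galMatO hp (parFrame (q * M * q) p) σ).mulVec
            ((galMatO hp (parFrame (q * M * q) p) σ).mulVec v))) -
        (ξ (c : ZMod q) + ξ⁻¹ (c : ZMod q)) •
          lopLin ξ (baseMap O hqM n ((galMatO hp (parFrame (q * M * q) p) σ).mulVec v)) +
        lopLin ξ (baseMap O hqM n v)) = 0 := by
  let := coefAction O hqM (p ^ n)
  have := coefAction_comm O hqM (p ^ n)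
  have hσ' := coefGal_smul O hqM (p ^ n) c hc
  have hqn : ¬ q ∣ p ^ n := fun h => hqp ((Nat.prime_dvd_prime_iff_eq Fact.out Fact.out).1
    ((Fact.out (p := q.Prime)).dvd_of_dvd_pow h))
  have hz := hz_of_tor_fixed ξ hσ' fun b x =>
    coef_tor_fixed O hqM (p ^ n) hA hq5 h4 hqn (NeZero.ne _) hσ c hc b x
  have h := kill_lop ξ hσ' (fun z hU hT => hz a₀ hU hT)
    (x := baseMap O hqM n v) (fun b => tor_smul_baseMap O hqM n b v)
  have e1 := coefGal_baseMap O hqM n hp σ v
  have e2 := (congrArg (coefGal O q M (p ^ n) σ) e1).trans (coefGal_baseMap O hqM n hp σ _)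
  rw [e2, e1] at h
  exact h

end Fermat.Agent.Carayol.TensorPic
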