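/-
Inertia at `q` on a representation whose eigen vectors map to a family of modules on which
vectors fixed by the inertia of `ℚ(ζ_q)` are killed by `(X - ψ(c)) (X - ψ(c)⁻¹)`.
-/
import Fermat.Agent.Carayol.BDensity
import Fermat.Agent.Ribet.Local
import Fermat.Agent.Datum.Roots
import Mathlib.NumberTheory.MulChar.Basic
import Mathlib.RingTheory.Ideal.Quotient.Index

set_option autoImplicit false

noncomputable section

open scoped Matrix

namespace Fermat.Agent.Carayol.TameTrace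

open GaloisAdic IsLocalRing

local notation "ℚbar" => AlgebraicClosure ℚ
local notation "Γℚ" => AlgebraicClosure ℚ ≃ₐ[ℚ] AlgebraicClosure ℚ

theorem isUnit_natCast {O : Type*} [CommRing O] [IsLocalRing O] {p : ℕ} (hp : p.Prime)
    (hpO : (p : O) ∈ maximalIdeal O) {k : ℕ} (hk : ¬ p ∣ k) : IsUnit (k : O) := by
  by_contra h
  have hk' : (k : O) ∈ maximalIdeal O := (mem_maximalIdeal _).mpr h
  refine (maximalIdeal.isMaximal O).ne_top ((Ideal.eq_top_iff_one _).mpr ?_)
  obtain ⟨u, v, huv⟩ : IsCoprime (p : ℤ) (k : ℤ) :=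
    Int.isCoprime_iff_nat_coprime.mpr (by simpa using hp.coprime_iff_not_dvd.mpr hk)
  have e := congrArg (Int.cast : ℤ → O) huv
  push_cast at e
  rw [← e]
  exact Ideal.add_mem _ (Ideal.mul_mem_left _ _ hpO) (Ideal.mul_mem_left _ _ hk')

theorem mulChar_inv_mul {R O : Type*} [CommRing R] [CommRing O] (χ : MulChar R O) {x : R}
    (hx : IsUnit x) : χ⁻¹ x * χ x = 1 := by
  rw [← MulChar.mul_apply, inv_mul_cancel, MulChar.one_apply hx]

/-- A prime dividing the order of a character value divides `q - 1`. -/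
theorem dvd_sub_one_of_mulChar {O : Type*} [CommRing O] {p q : ℕ} (hp : p.Prime) [Fact q.Prime]
    (χ : MulChar (ZMod q) O) (hord : ∀ x : (ZMod q)ˣ, ∃ n : ℕ, χ (x : ZMod q) ^ p ^ n = 1)
    (hne : ∃ x : (ZMod q)ˣ, χ (x : ZMod q) ≠ 1) : p ∣ q - 1 := by
  obtain ⟨x, hx⟩ := hne
  obtain ⟨n, hn⟩ := hord x
  obtain ⟨j, -, hj⟩ := (Nat.dvd_prime_pow hp).mp (orderOf_dvd_of_pow_eq_one hn)
  have h1 : orderOf (χ (x : ZMod q)) ∣ q - 1 := orderOf_dvd_of_pow_eq_one (by
    rw [← map_pow, ← Units.val_pow_eq_pow_val, ← ZMod.card_units q, pow_card_eq_one,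
      Units.val_one, map_one])
  rw [hj] at h1
  cases j with
  | zero => exact absurd (orderOf_eq_one_iff.mp (hj.trans (pow_zero p))) hx
  | succ j => exact (dvd_pow_self p j.succ_ne_zero).trans h1

theorem isNilpotent_sub_one {O : Type*} [CommRing O] {R : Type*} [Ring R] [Algebra O R] {n : ℕ}
    {I : Ideal O} (hI : ∀ c ∈ I ^ n, algebraMap O R c = 0) {g : R} {t : O} (ht : t - 2 ∈ I)
    (hg : g * g - t • g + 1 = 0) : IsNilpotent (g - 1) := by
  have h2 : (g - 1) ^ 2 = (t - 2) • g := by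
    rw [pow_two, sub_mul, mul_sub, mul_sub, one_mul, mul_one, one_mul]
    linear_combination (norm := module) hg
  refine ⟨2 * n, ?_⟩
  rw [pow_mul, h2, smul_pow, Algebra.smul_def, hI _ (Ideal.pow_mem_pow ht n), zero_mul]

theorem exists_pow_eq_one_of_quad {O : Type*} [CommRing O] {R : Type*} [Ring R] [Algebra O R]
    {p n : ℕ} (hp : p.Prime) {I : Ideal O} (hpI : (p : O) ∈ I)
    (hI : ∀ c ∈ I ^ n, algebraMap O R c = 0) {g : R} {t : O} (ht : t - 2 ∈ I)
    (hg : g * g - t • g + 1 = 0) : ∃ N : ℕ, g ^ p ^ N = 1 :=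
  exists_pow_prime_pow_eq_one hp ⟨n, by
    rw [← map_natCast (algebraMap O R), ← map_pow, hI _ (Ideal.pow_mem_pow hpI n)]⟩
    (isNilpotent_sub_one hI ht hg)

theorem pow_eq_one_of_le {M : Type*} [Monoid M] {x : M} {p a b : ℕ} (h : x ^ p ^ a = 1)
    (hab : a ≤ b) : x ^ p ^ b = 1 := by
  rw [← Nat.add_sub_cancel' hab, pow_add, pow_mul, h, one_pow]

variable {O : Type} [CommRing O] [IsDomain O] [IsDiscreteValuationRing O]
  [IsAdicComplete (maximalIdeal O) O] [Finite (ResidueField O)]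
  {p : ℕ} [Fact p.Prime] {N : ℕ} [NeZero N] {F : TorsionFrame N p}

section Levels

variable (F) (S : Finset ℕ) (a : ℕ → O) (n : ℕ)

/-- The eigen vectors which vanish modulo `𝔪ⁿ`. -/
def smallSub : Submodule O (eigenSub F S a) where
  carrier := {v | ∀ i, (v : Fin F.H.r → O) i ∈ maximalIdeal O ^ n}
  add_mem' hv hw i := Ideal.add_mem _ (hv i) (hw i)
  zero_mem' _ := Ideal.zero_mem _
  smul_mem' c _ hv i := Ideal.mul_mem_left _ c (hv i)

theorem finite_quot : Finite (eigenSub F S a ⧸ smallSub F S a n) := by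
  have hR : Finite (O ⧸ maximalIdeal O ^ n) :=
    haveI : Finite (O ⧸ maximalIdeal O) := inferInstanceAs (Finite (ResidueField O))
    Ideal.finite_quotient_pow (IsNoetherian.noetherian (maximalIdeal O)) n
  refine Finite.of_injective (β := Fin F.H.r → O ⧸ maximalIdeal O ^ n)
    (fun x => Quotient.liftOn' x (fun v i => Ideal.Quotient.mk _ ((v : Fin F.H.r → O) i))
      fun u v h => funext fun i => (Ideal.Quotient.eq).2 ((Submodule.quotientRel_def _).mp h i)) ?_
  rintro ⟨u⟩ ⟨v⟩ h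
  exact (Submodule.Quotient.eq _).mpr fun i => (Ideal.Quotient.eq).1 (congrFun h i)

theorem algebraMap_end_eq_zero {c : O} (hc : c ∈ maximalIdeal O ^ n) :
    algebraMap O (Module.End O (eigenSub F S a ⧸ smallSub F S a n)) c = 0 := by
  refine LinearMap.ext fun x => ?_
  obtain ⟨v, rfl⟩ := Submodule.mkQ_surjective _ x
  rw [Module.algebraMap_end_apply, LinearMap.zero_apply, ← map_smul, Submodule.mkQ_apply,
    Submodule.Quotient.mk_eq_zero]
  exact fun i => Ideal.mul_mem_right _ _ hc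

variable (hp : (p : O) ∈ maximalIdeal O) (hF : TorsionFacts N p)

theorem smallSub_le (σ : Γℚ) :
    smallSub F S a n ≤ (smallSub F S a n).comap (eigenEnd hp hF S a σ) := fun v hv i => by
  show (galMatO hp F σ *ᵥ (v : Fin F.H.r → O)) i ∈ _
  simp only [Matrix.mulVec, dotProduct]
  exact Ideal.sum_mem _ fun j _ => Ideal.mul_mem_left _ _ (hv j)

/-- The Galois action on the eigen vectors modulo `𝔪ⁿ`. -/
def quotEnd : Γℚ →* Module.End O (eigenSub F S a ⧸ smallSub F S a n) where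
  toFun σ := (smallSub F S a n).mapQ _ (eigenEnd hp hF S a σ) (smallSub_le F S a n hp hF σ)
  map_one' := by
    refine Submodule.linearMap_qext _ (LinearMap.ext fun v => ?_)
    simp
  map_mul' σ τ := by
    refine Submodule.linearMap_qext _ (LinearMap.ext fun v => ?_)
    simp [Module.End.mul_apply]

theorem quotEnd_mk (σ : Γℚ) (v : eigenSub F S a) :
    quotEnd F S a n hp hF σ (Submodule.Quotient.mk v)
      = Submodule.Quotient.mk (eigenEnd hp hF S a σ v) :=
  rfl

end Levels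

variable (hp : (p : O) ∈ maximalIdeal O) (hF : TorsionFacts N p) {S : Finset ℕ} {a : ℕ → O}
  (ρ : GaloisRepAdic O)
  (hρ : ∀ ℓ : ℕ, ℓ.Prime → ℓ ∉ S →
    ∀ A : ValuationSubring ℚbar, A.LiesOverPrime ℓ → ∀ σ : Γℚ, A.IsFrobeniusAt σ ℓ →
      LinearMap.charpoly (ρ.ρ σ)
        = Polynomial.X ^ 2 - Polynomial.C (a ℓ) * Polynomial.X + Polynomial.C ((ℓ : O)))
  {q : ℕ} [Fact q.Prime] (hqp : q ≠ p) {A : ValuationSubring ℚbar} (hA : A.LiesOverPrime q)
  (hunip : ∀ g ∈ A.inertiaSubgroupIn ℚ,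
    LinearMap.trace O ρ.V (ρ.ρ g) - 2 ∈ maximalIdeal O)

include hρ hqp hA hF F hp in
theorem det_inertia {g : Γℚ} (hg : g ∈ A.inertiaSubgroupIn ℚ) : (repMat ρ g).det = 1 := by
  rw [det_repMat, det_eq_padicCyclo (F := F) hp hF ρ hρ,
    padicCyclo_inertia p Fact.out hqp hA hg, map_one]

include hρ hqp hA hF hunip in
/-- Inertia at `q` has trace `ψ(c) + ψ(c)⁻¹`, if the eigen vectors map, without dying, to a family
of modules killed in the expected way. -/
theorem trace_eq_of_kill (hp2 : p ≠ 2) [CharZero O] (ψ : MulChar (ZMod q) O)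
    (hψord : ∀ x : (ZMod q)ˣ, ∃ n : ℕ, ψ (x : ZMod q) ^ p ^ n = 1)
    (hψ : ∃ x : (ZMod q)ˣ, ψ (x : ZMod q) ≠ 1)
    {ι : Type*} {Q : ι → Type*} [∀ i, AddCommGroup (Q i)] [∀ i, Module O (Q i)]
    (Y : ∀ i, (Fin F.H.r → O) →ₗ[O] Q i)
    (hY : ∀ i, ∃ n : ℕ, ∀ v, (∀ j, v j ∈ maximalIdeal O ^ n) → Y i v = 0)
    (hYG : ∀ (g : Γℚ) (i) (v w : Fin F.H.r → O), v ∈ eigenSub F S a → w ∈ eigenSub F S a →
      Y i v = Y i w → Y i (galMatO hp F g *ᵥ v) = Y i (galMatO hp F g *ᵥ w))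
    {k : O} (hk : k ≠ 0)
    (hkill : ∀ v ∈ eigenSub F S a,
      (∀ g ∈ A.inertiaSubgroupIn ℚ, Datum.chiMod q g = 1 →
        ∀ i, Y i (galMatO hp F g *ᵥ v) = Y i v) →
      ∀ g ∈ A.inertiaSubgroupIn ℚ, ∀ i,
        k • (Y i (galMatO hp F g *ᵥ (galMatO hp F g *ᵥ v))
          - (ψ (Datum.chiMod q g) + ψ⁻¹ (Datum.chiMod q g)) • Y i (galMatO hp F g *ᵥ v)
          + Y i v) = 0)
    (v₀ : Fin F.H.r → O) (hv₀E : v₀ ∈ eigenSub F S a)
    (hv₀ : ∀ c : O, c ≠ 0 → ∃ i, c • Y i v₀ ≠ 0) {g : Γℚ} (hg : g ∈ A.inertiaSubgroupIn ℚ) :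
    LinearMap.trace O ρ.V (ρ.ρ g) = ψ (Datum.chiMod q g) + ψ⁻¹ (Datum.chiMod q g) := by
  classical
  have hpp : p.Prime := Fact.out
  have hqq : q.Prime := Fact.out
  have hpq : p ∣ q - 1 := dvd_sub_one_of_mulChar hpp ψ hψord hψ
  have h2 : IsUnit (2 : O) := by
    have := isUnit_natCast hpp hp (k := 2) fun h =>
      hp2 ((Nat.prime_dvd_prime_iff_eq hpp Nat.prime_two).mp h)
    exact_mod_cast this
  have hq1 : IsUnit ((q + 1 : ℕ) : O) := isUnit_natCast hpp hp fun h => by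
    have h' : p ∣ (q + 1) - (q - 1) := Nat.dvd_sub h hpq
    rw [show q + 1 - (q - 1) = 2 by have := hqq.one_le; omega] at h'
    exact hp2 ((Nat.prime_dvd_prime_iff_eq hpp Nat.prime_two).mp h')
  obtain ⟨σ, τ, -, -, hτ, ⟨c₀, hc₀, hc₀ord⟩, htame⟩ :=
    Ribet.exists_tame_generators hpp hqq hqp A hA
  obtain ⟨e, m, hpm, hem⟩ :=
    Nat.exists_eq_pow_mul_and_not_dvd (show q - 1 ≠ 0 by have := hqq.two_le; omega) p hpp.ne_one
  let chi : Γℚ →* ZMod q := Datum.chiMod q
  have hchi0 : ∀ x : Γℚ, chi x ≠ 0 := fun x =>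
    (isUnit_iff_ne_zero.mp ((Group.isUnit x).map chi))
  have hchiτ : chi τ = (c₀ : ZMod q) := Datum.chiMod_eq_natCast q τ hc₀
  let fc : ∀ n : ℕ, Γℚ →* Module.End O (eigenSub F S a ⧸ smallSub F S a n) ×
      Matrix (Fin 2) (Fin 2) (O ⧸ maximalIdeal O ^ n) × ZMod q × (O ⧸ maximalIdeal O ^ n) := fun n =>
    (quotEnd F S a n hp hF).prod ((((Ideal.Quotient.mk (maximalIdeal O ^ n)).mapMatrix :
      Matrix (Fin 2) (Fin 2) O →+* _).toMonoidHom.comp (repMat ρ)).prod (((powMonoidHom m).comp chi).prod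
      ((Ideal.Quotient.mk (maximalIdeal O ^ n) : O →* _).comp
        (ψ.toMonoidHom.comp chi))))
  have hquadG : ∀ x ∈ A.inertiaSubgroupIn ℚ, eigenEnd (F := F) hp hF S a x * eigenEnd hp hF S a x
      - (repMat ρ x).trace • eigenEnd hp hF S a x + 1 = 0 := fun x hx => by
    have h := eigenEnd_quad (F := F) hp hF ρ hρ x
    rwa [det_inertia (F := F) hp hF ρ hρ hqp hA hx, one_smul] at h
  have htr : ∀ x ∈ A.inertiaSubgroupIn ℚ, (repMat ρ x).trace - 2 ∈ maximalIdeal O := fun x hx => by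
    rw [trace_repMat]; exact hunip x hx
  have hpow : ∀ n : ℕ, ∀ x ∈ A.inertiaSubgroupIn ℚ, ∃ N : ℕ, fc n x ^ p ^ N = 1 := by
    intro n x hx
    obtain ⟨N₁, hN₁⟩ := exists_pow_eq_one_of_quad (R := Module.End O
        (eigenSub F S a ⧸ smallSub F S a n)) hpp hp
      (fun c hc => algebraMap_end_eq_zero F S a n hc) (g := quotEnd F S a n hp hF x)
      (htr x hx) (by
        refine Submodule.linearMap_qext _ (LinearMap.ext fun v => ?_)
        have h := congrArg (Submodule.Quotient.mk (p := smallSub F S a n))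
          (LinearMap.congr_fun (hquadG x hx) v)
        simpa [quotEnd_mk] using h)
    obtain ⟨N₂, hN₂⟩ := exists_pow_eq_one_of_quad
      (R := Matrix (Fin 2) (Fin 2) (O ⧸ maximalIdeal O ^ n)) hpp hp
      (fun c hc => by
        rw [IsScalarTower.algebraMap_apply O (O ⧸ maximalIdeal O ^ n), Ideal.Quotient.algebraMap_eq,
          (Ideal.Quotient.eq_zero_iff_mem).2 hc, map_zero])
      (g := (Ideal.Quotient.mk (maximalIdeal O ^ n)).mapMatrix (repMat ρ x)) (htr x hx) (by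
        have h := congrArg (Ideal.Quotient.mkₐ O (maximalIdeal O ^ n)).mapMatrix
          (quad_matrix (repMat ρ x))
        rw [det_inertia (F := F) hp hF ρ hρ hqp hA hx, one_smul, map_add, map_sub, map_mul,
          map_smul, map_one, map_zero] at h
        exact h)
    obtain ⟨N₄, hN₄⟩ := hψord (Units.mk0 (chi x) (hchi0 x))
    have hN₃ : (chi x ^ m) ^ p ^ e = 1 := by
      rw [← pow_mul, mul_comm, ← hem, ZMod.pow_card_sub_one_eq_one (hchi0 x)]
    set M := N₁ + N₂ + e + N₄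
    refine ⟨M, Prod.ext ?_ (Prod.ext ?_ (Prod.ext ?_ ?_))⟩
    · exact pow_eq_one_of_le hN₁ (by omega)
    · exact pow_eq_one_of_le hN₂ (by omega)
    · exact pow_eq_one_of_le hN₃ (by omega)
    · have h4 : ψ (chi x) ^ p ^ N₄ = 1 := hN₄
      exact pow_eq_one_of_le (show (Ideal.Quotient.mk (maximalIdeal O ^ n) (ψ (chi x))) ^ p ^ N₄ = 1
        by rw [← map_pow, h4, map_one]) (by omega)
  have hgen : ∀ n : ℕ, (fc n σ * fc n τ = fc n τ ^ q * fc n σ) ∧
      ∀ x ∈ A.inertiaSubgroupIn ℚ, ∃ j : ℕ, fc n x = fc n τ ^ j := by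
    intro n
    have hR : Finite (O ⧸ maximalIdeal O ^ n) :=
      haveI : Finite (O ⧸ maximalIdeal O) := inferInstanceAs (Finite (ResidueField O))
      Ideal.finite_quotient_pow (IsNoetherian.noetherian (maximalIdeal O)) n
    have := finite_quot F S a n
    have : Finite (Module.End O (eigenSub F S a ⧸ smallSub F S a n)) :=
      Finite.of_injective (fun f => (f : _ → _)) DFunLike.coe_injective
    obtain ⟨L₁, hL₁, h₁⟩ := repMat_continuous ρ n
    obtain ⟨L₂, hL₂, h₂⟩ := F.galMatrix_continuous hF.smooth n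
    obtain ⟨L₃, hL₃, h₃⟩ := Datum.exists_level_chiMod q
    have := IntermediateField.finiteDimensional_sup L₂ L₃
    have := IntermediateField.finiteDimensional_sup L₁ (L₂ ⊔ L₃)
    have hlevel : ∀ x : Γℚ, (∀ y ∈ L₁ ⊔ (L₂ ⊔ L₃), x y = y) → (fc n).toHomUnits x = 1 := by
      intro x hx
      have hc : chi x = 1 :=
        h₃ x fun y hy => hx y (SetLike.le_def.1 (le_sup_of_le_right le_sup_right) hy)
      refine Units.ext (Prod.ext ?_ (Prod.ext ?_ (Prod.ext ?_ ?_)))
      · refine Submodule.linearMap_qext _ (LinearMap.ext fun v => ?_)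
        show Submodule.Quotient.mk (eigenEnd hp hF S a x v) = Submodule.Quotient.mk v
        rw [Submodule.Quotient.eq]
        intro i
        show ((galMatO hp F x *ᵥ (v : Fin F.H.r → O)) - (v : Fin F.H.r → O)) i ∈ _
        rw [← Matrix.one_mulVec (v : Fin F.H.r → O), Matrix.mulVec_mulVec, Matrix.mul_one,
          ← Matrix.sub_mulVec, ← map_one (padicIntHom O hp).mapMatrix]
        simp only [Matrix.mulVec, dotProduct]
        refine Ideal.sum_mem _ fun j _ => Ideal.mul_mem_right _ _ ?_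
        simp only [galMatO, RingHom.toMonoidHom_eq_coe, MonoidHom.coe_comp, MonoidHom.coe_coe,
          Function.comp_apply, RingHom.mapMatrix_apply, Matrix.sub_apply, Matrix.map_apply,
          ← map_sub]
        exact padicIntHom_mem_pow O hp (h₂ x (fun y hy => hx y
          (SetLike.le_def.1 (le_sup_of_le_right le_sup_left) hy)) i j)
      · show (Ideal.Quotient.mk (maximalIdeal O ^ n)).mapMatrix (repMat ρ x) = 1
        ext i j
        rw [← map_one (Ideal.Quotient.mk (maximalIdeal O ^ n)).mapMatrix]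
        simp only [RingHom.mapMatrix_apply, Matrix.map_apply]
        rw [Ideal.Quotient.eq, ← Matrix.sub_apply]
        exact h₁ x (fun y hy => hx y (SetLike.le_def.1 le_sup_left hy)) i j
      · show chi x ^ m = 1
        rw [hc, one_pow]
      · show Ideal.Quotient.mk (maximalIdeal O ^ n) (ψ (chi x)) = 1
        rw [hc, map_one, map_one]
    obtain ⟨hrel, hz, -⟩ := htame _ (fc n).toHomUnits ⟨_, ‹_›, hlevel⟩ fun x hx => by
      obtain ⟨M, hM⟩ := hpow n x hx
      exact ⟨M, Units.ext (by rw [Units.val_pow_eq_pow_val, MonoidHom.coe_toHomUnits, hM,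
        Units.val_one])⟩
    refine ⟨?_, fun x hx => ?_⟩
    · have h := congrArg Units.val (mul_inv_eq_iff_eq_mul.mp hrel)
      rwa [Units.val_mul, Units.val_mul, Units.val_pow_eq_pow_val, MonoidHom.coe_toHomUnits,
        MonoidHom.coe_toHomUnits] at h
    · obtain ⟨j, hj⟩ := mem_powers_iff_mem_zpowers.mpr (hz x hx)
      have h := congrArg Units.val hj
      rw [Units.val_pow_eq_pow_val, MonoidHom.coe_toHomUnits, MonoidHom.coe_toHomUnits] at h
      exact ⟨j, h.symm⟩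
  set t := (repMat ρ τ).trace with ht
  have hdτ : (repMat ρ τ).det = 1 := det_inertia (F := F) hp hF ρ hρ hqp hA hτ
  have htq : trSeq t 1 q = t := by
    refine eq_of_forall_sub_mem_pow fun n => ?_
    have h := congrArg (fun z => z.2.1) (hgen n).1
    simp only [Prod.snd_mul, Prod.fst_mul, Prod.pow_fst, Prod.pow_snd] at h
    set π := Ideal.Quotient.mk (maximalIdeal O ^ n)
    change π.mapMatrix (repMat ρ σ) * π.mapMatrix (repMat ρ τ)
      = π.mapMatrix (repMat ρ τ) ^ q * π.mapMatrix (repMat ρ σ) at h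
    rw [← Ideal.Quotient.eq, ← hdτ, ← trace_pow, AddMonoidHom.map_trace π,
      AddMonoidHom.map_trace π]
    show (π.mapMatrix (repMat ρ τ ^ q)).trace = (π.mapMatrix (repMat ρ τ)).trace
    have hinv : π.mapMatrix (repMat ρ σ) * π.mapMatrix (repMat ρ σ⁻¹) = 1 := by
      rw [← map_mul, ← map_mul, mul_inv_cancel, map_one, map_one]
    rw [map_pow, ← mul_one (π.mapMatrix (repMat ρ τ) ^ q), ← hinv, ← mul_assoc, ← h,
      Matrix.trace_mul_cycle, ← map_mul π.mapMatrix (repMat ρ σ⁻¹),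
      ← map_mul (repMat ρ) σ⁻¹ σ, inv_mul_cancel, map_one, map_one,
      Matrix.one_mul]
  have hq2 : trSeq t 1 (q - 1) = 2 :=
    trSeq_sub_one_eq_two hqq.one_le h2 hq1 (htr τ hτ) htq
  set G := eigenEnd (F := F) hp hF S a τ with hG
  have hfix : ∀ v : eigenSub F S a,
      (∀ i, Y i ↑((G ^ (q - 1)) v) = Y i (v : Fin F.H.r → O)) →
      ∀ x ∈ A.inertiaSubgroupIn ℚ, chi x = 1 →
        ∀ i, Y i (galMatO hp F x *ᵥ (v : Fin F.H.r → O)) = Y i (v : Fin F.H.r → O) := by
    intro v hv x hx hcx i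
    have hpowv : ∀ l : ℕ, ∀ i, Y i ↑((G ^ ((q - 1) * l)) v) = Y i (v : Fin F.H.r → O) := by
      intro l
      induction l with
      | zero => simp
      | succ l ih =>
        intro i
        rw [Nat.mul_succ, pow_add, Module.End.mul_apply, hG, ← map_pow, coe_eigenEnd]
        exact (hYG _ i _ _ ((G ^ (q - 1)) v).2 v.2 (hv i)).trans
          ((congrArg (Y i) (by rw [← coe_eigenEnd hp hF, map_pow])).trans (ih i))
    obtain ⟨n, hn⟩ := hY i
    obtain ⟨j, hj⟩ := (hgen n).2 x hx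
    obtain ⟨M, hM⟩ := hpow n x hx
    have h3 : (c₀ : ZMod q) ^ (m * j) = 1 := by
      have h := congrArg (fun z => z.2.2.1) hj
      simp only [Prod.pow_fst, Prod.pow_snd] at h
      change chi x ^ m = (chi τ ^ m) ^ j at h
      rw [hcx, one_pow, hchiτ, ← pow_mul] at h
      exact h.symm
    have h4 : p ^ e ∣ j := by
      have := orderOf_dvd_of_pow_eq_one h3
      rw [hc₀ord, hem, mul_comm (p ^ e) m] at this
      exact Nat.dvd_of_mul_dvd_mul_left (Nat.pos_of_ne_zero fun h0 => hpm (by rw [h0]; exact dvd_zero p)) this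
    obtain ⟨u, hu1, hu2⟩ := Nat.chineseRemainder
      (Nat.Coprime.pow_left M (hpp.coprime_iff_not_dvd.mpr hpm)) 1 0
    obtain ⟨l, hl⟩ : q - 1 ∣ j * u := by
      rw [hem]; exact mul_dvd_mul h4 (Nat.modEq_zero_iff_dvd.mp hu2)
    have hx' : fc n x = fc n τ ^ ((q - 1) * l) := by
      rw [← hl, pow_mul, ← hj]
      conv_lhs => rw [← pow_one (fc n x)]
      rw [pow_eq_pow_mod 1 hM, pow_eq_pow_mod u hM, show u % p ^ M = 1 % p ^ M from hu1]
    have h1 := LinearMap.congr_fun (congrArg Prod.fst hx') (Submodule.Quotient.mk v)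
    rw [Prod.pow_fst] at h1
    change quotEnd F S a n hp hF x (Submodule.Quotient.mk v)
      = ((quotEnd F S a n hp hF τ) ^ ((q - 1) * l)) (Submodule.Quotient.mk v) at h1
    rw [← map_pow, quotEnd_mk, quotEnd_mk, Submodule.Quotient.eq, map_pow, ← hG] at h1
    rw [← hpowv l i, ← sub_eq_zero, ← map_sub]
    exact hn _ h1
  have hts : t = ψ (chi τ) + ψ⁻¹ (chi τ) := by
    refine eq_of_kill (E := eigenSub F S a) G (hquadG τ hτ) hk (q - 1) (fun htt => ?_)
      (fun i => (Y i).comp (eigenSub F S a).subtype) (fun v hv i => ?_) ⟨v₀, hv₀E⟩ hv₀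
    · exact pow_eq_one_of_trSeq (E := Module.End O (eigenSub F S a)) (g := G) h2 (htr τ hτ) htt hq2
        (hquadG τ hτ)
    · exact hkill _ v.2 (hfix v hv) τ hτ i
  have hunit : ∀ x : Γℚ, ψ⁻¹ (chi x) * ψ (chi x) = 1 := fun x =>
    mulChar_inv_mul ψ (isUnit_iff_ne_zero.mpr (hchi0 x))
  refine eq_of_forall_sub_mem_pow fun n => ?_
  obtain ⟨j, hj⟩ := (hgen n).2 g hg
  have h5 := congrArg (fun z => z.2.1) hj
  have h6 := congrArg (fun z => z.2.2.2) hj
  simp only [Prod.pow_fst, Prod.pow_snd] at h5 h6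
  set π := Ideal.Quotient.mk (maximalIdeal O ^ n)
  change π.mapMatrix (repMat ρ g) = π.mapMatrix (repMat ρ τ) ^ j at h5
  change π (ψ (chi g)) = π (ψ (chi τ)) ^ j at h6
  have h7 : π (ψ⁻¹ (chi g)) = π (ψ⁻¹ (chi τ)) ^ j := by
    refine left_inv_eq_right_inv (a := π (ψ (chi g))) ?_ ?_
    · rw [← map_mul, hunit, map_one]
    · rw [h6, ← mul_pow, ← map_mul, mul_comm, hunit, map_one, one_pow]
  rw [← Ideal.Quotient.eq, ← trace_repMat, AddMonoidHom.map_trace π,
    show (repMat ρ g).map π = π.mapMatrix (repMat ρ g) from rfl, h5, ← map_pow,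
    show π.mapMatrix (repMat ρ τ ^ j) = (repMat ρ τ ^ j).map π from rfl,
    ← AddMonoidHom.map_trace π, trace_pow, hdτ, ← ht, hts,
    trSeq_add_pow (by rw [mul_comm]; exact hunit τ), map_add, map_add, map_pow, map_pow, h6, h7]

end Fermat.Agent.Carayol.TameTrace
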