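/-
The field of definition of the constants: the fixed field of the inertia elements fixing the `q`-th
roots of unity. Its residues are everything, and its valuations are the powers of `ζ - 1`.
-/
import Fermat.Agent.Carayol.ValuationsDefs
import Fermat.Agent.AtP.InertiaField
import Fermat.Agent.Galois.TamePlace
import Fermat.Agent.Mult.Inertia
import Fermat.Agent.Curve.ModelDef
import Mathlib.RingTheory.RootsOfUnity.Lemmas
import Mathlib.FieldTheory.Normal.Closure

set_option autoImplicit false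

noncomputable section

namespace Fermat.Agent.Carayol.CGood

open IsLocalRing
open scoped Pointwise NumberField

local notation "GQ" => (Qb ≃ₐ[ℚ] Qb)

variable (q : ℕ) [Fact q.Prime] (A : ValuationSubring Qb)

/-- Inertia over `ℚ(ζ)`. -/
def I1 : Subgroup GQ :=
  A.inertiaSubgroupIn ℚ ⊓ MulAction.stabilizer GQ (zetaQ q : Qb)

theorem mem_I1 {σ : GQ} :
    σ ∈ I1 q A ↔ σ ∈ A.inertiaSubgroupIn ℚ ∧ σ (zetaQ q : Qb) = zetaQ q := Iff.rfl

/-- The fixed field of `I1`. -/
def fixK : Subfield Qb := (IntermediateField.fixedField (I1 q A)).toSubfield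

theorem mem_fixK {x : Qb} : x ∈ fixK q A ↔ ∀ σ ∈ I1 q A, σ x = x :=
  ⟨fun h σ hσ => h ⟨σ, hσ⟩, fun h σ => h σ σ.2⟩

theorem zeta_mem_fixK : (zetaQ q : Qb) ∈ fixK q A :=
  (mem_fixK q A).2 fun _ hσ => hσ.2

theorem zeta_mem : (zetaQ q : Qb) ∈ A :=
  Mult.mem_of_pow_mem (Fact.out : q.Prime).ne_zero
    ((isPrimitiveRoot_zetaQ q).pow_eq_one.symm ▸ A.one_mem)

/-- `ζ - 1`. -/
def wQ : A := ⟨(zetaQ q : Qb) - 1, sub_mem (zeta_mem q A) A.one_mem⟩

theorem coe_wQ : ((wQ q A : A) : Qb) = (zetaQ q : Qb) - 1 := rfl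

theorem wQ_mem_fixK : ((wQ q A : A) : Qb) ∈ fixK q A :=
  sub_mem (zeta_mem_fixK q A) (one_mem _)

theorem wQ_ne : ((wQ q A : A) : Qb) ≠ 0 :=
  sub_ne_zero.2 ((isPrimitiveRoot_zetaQ q).ne_one (Fact.out : q.Prime).one_lt)

variable {q A}

theorem valuation_eq_of_inertia {σ : GQ} (hσ : σ ∈ A.inertiaSubgroupIn ℚ) (x : Qb) :
    A.valuation (σ x) = A.valuation x := by
  have hd := Mult.mem_decomposition_of_mem_inertia hσ
  have key : ∀ y : Qb, σ y ∈ A ↔ y ∈ A := Mult.apply_mem_iff_of_mem_decomposition hd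
  rcases eq_or_ne x 0 with rfl | hx
  · rw [map_zero]
  have hσx : σ x ≠ 0 := by simpa using hx
  -- `σ x / x` is a unit: otherwise iterate along the finite orbit
  obtain ⟨m, hm, hmx⟩ : ∃ m, 0 < m ∧ (σ ^ m) x = x := by
    have hfin : (Set.range fun m : ℕ => (σ ^ m) x).Finite := by
      refine Set.Finite.subset
        ((minpoly ℚ x).rootSet_finite Qb) ?_
      rintro _ ⟨m, rfl⟩
      rw [Polynomial.mem_rootSet]
      exact ⟨minpoly.ne_zero (Algebra.IsIntegral.isIntegral x),
        by rw [Polynomial.aeval_algHom_apply, minpoly.aeval, map_zero]⟩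
    obtain ⟨a, b, hlt, he⟩ := hfin.exists_lt_map_eq_of_forall_mem (f := fun m : ℕ => (σ ^ m) x)
      fun m => Set.mem_range_self m
    refine ⟨b - a, by omega, (σ ^ a).injective ?_⟩
    rw [← AlgEquiv.mul_apply, ← pow_add, Nat.add_sub_cancel' hlt.le]
    exact he.symm
  have hiter : ∀ y, A.valuation (σ y) ≤ A.valuation y ∨ A.valuation y ≤ A.valuation (σ y) :=
    fun y => le_total _ _
  have hmono : ∀ a b : Qb, A.valuation a ≤ A.valuation b ↔ A.valuation (σ a) ≤ A.valuation (σ b) := by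
    intro a b
    rcases eq_or_ne b 0 with rfl | hb
    · simp
    have hσb : σ b ≠ 0 := by simpa using hb
    rw [← div_le_one₀ (zero_lt_iff.2 (by simpa using hb)), ← map_div₀, A.valuation_le_one_iff,
      ← div_le_one₀ (zero_lt_iff.2 (by simpa using hσb)), ← map_div₀, A.valuation_le_one_iff,
      ← map_div₀, key]
  rcases lt_trichotomy (A.valuation (σ x)) (A.valuation x) with h | h | h
  · exfalso
    have hdec : ∀ j, A.valuation ((σ ^ (j + 1)) x) < A.valuation x := by
      intro j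
      induction j with
      | zero => simpa using h
      | succ j ih =>
        refine lt_trans ?_ h
        rw [pow_succ', AlgEquiv.mul_apply, lt_iff_not_ge, ← hmono, not_le]
        exact ih
    obtain ⟨j, rfl⟩ : ∃ j, m = j + 1 := ⟨m - 1, by omega⟩
    have := hdec j
    rw [hmx] at this
    exact lt_irrefl _ this
  · exact h
  · exfalso
    have hinc : ∀ j, A.valuation x < A.valuation ((σ ^ (j + 1)) x) := by
      intro j
      induction j with
      | zero => simpa using h
      | succ j ih =>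
        refine lt_trans h ?_
        rw [pow_succ', AlgEquiv.mul_apply, lt_iff_not_ge, ← hmono, not_le]
        exact ih
    obtain ⟨j, rfl⟩ : ∃ j, m = j + 1 := ⟨m - 1, by omega⟩
    have := hinc j
    rw [hmx] at this
    exact lt_irrefl _ this

theorem one_lt_valuation_iff_notMem {x : Qb} : 1 < A.valuation x ↔ x ∉ A := by
  rw [← A.valuation_le_one_iff, not_le]

theorem valuation_eq_one_of_notMem_nonunits {x : Qb} (hx : x ∈ A) (h : x ∉ A.nonunits) :
    A.valuation x = 1 := by
  rw [ValuationSubring.mem_nonunits_iff] at h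
  exact le_antisymm ((A.valuation_le_one_iff x).2 hx) (not_lt.1 h)

/-- An element fixed by inertia has the valuation of a power of `q`. -/
theorem exists_valuation_eq_zpow (hA : A.LiesOverPrime q) {x : Qb} (hx : x ≠ 0)
    (hfix : ∀ σ ∈ A.inertiaSubgroupIn ℚ, σ x = x) :
    ∃ m : ℤ, A.valuation x = A.valuation (q : Qb) ^ m := by
  have hq : q.Prime := Fact.out
  suffices h : ∀ y : Qb, IsIntegral ℤ y → y ≠ 0 → (∀ σ ∈ A.inertiaSubgroupIn ℚ, σ y = y) →
      ∃ m : ℤ, A.valuation y = A.valuation (q : Qb) ^ m by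
    have halg : IsAlgebraic ℤ x :=
      (IsFractionRing.isAlgebraic_iff ℤ ℚ Qb).mpr (Algebra.IsAlgebraic.isAlgebraic x)
    obtain ⟨c, hc, hint⟩ := halg.exists_integral_multiple
    have hc' : (c : Qb) ≠ 0 := Int.cast_ne_zero.2 hc
    rw [zsmul_eq_mul] at hint
    obtain ⟨m, hm⟩ := h _ hint (mul_ne_zero hc' hx) fun σ hσ => by
      rw [map_mul, map_intCast, hfix σ hσ]
    obtain ⟨m', hm'⟩ := h (c : Qb) (isIntegral_algebraMap (x := c) (A := Qb)) hc'
      fun σ _ => map_intCast σ c
    refine ⟨m - m', ?_⟩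
    rw [map_mul, hm'] at hm
    have hv : A.valuation (q : Qb) ≠ 0 := by
      simp [hq.ne_zero]
    rw [zpow_sub₀ hv, eq_div_iff (zpow_ne_zero _ hv), mul_comm, hm]
  intro y hy hy0 hfy
  let E : IntermediateField ℚ Qb := IntermediateField.adjoin ℚ {y}
  haveI : FiniteDimensional ℚ E :=
    IntermediateField.adjoin.finiteDimensional (Algebra.IsIntegral.isIntegral y)
  let L := IntermediateField.normalClosure ℚ E Qb
  haveI : FiniteDimensional ℚ L := normalClosure.is_finiteDimensional ℚ E Qb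
  haveI : Normal ℚ L := normalClosure.normal ℚ E Qb
  haveI : NumberField L := ⟨⟩
  haveI : IsGalois ℚ L := ⟨⟩
  have hyL : y ∈ L :=
    IntermediateField.le_normalClosure E (IntermediateField.mem_adjoin_simple_self ℚ y)
  let c : 𝓞 L := ⟨⟨y, hyL⟩,
    (isIntegral_algHom_iff (L.val.restrictScalars ℤ) Subtype.val_injective).mp hy⟩
  have hc : c ≠ 0 := fun h => hy0 (by
    have := congrArg (fun z : 𝓞 L => ((z : L) : Qb)) h
    exact this)
  obtain ⟨m, s, t, hs, ht, hst⟩ := AtP.exists_pow_mul_unit_of_inertia_fixed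
    (Galois.layerPrime A L) hq (Galois.natCast_mem_layerPrime hA) hc fun τ hτ => by
      obtain ⟨g, hg, rfl⟩ := Galois.exists_inertia_lift hτ
      have h2 : (((AlgEquiv.restrictNormalHom L g • c : 𝓞 L) : L) : Qb) = ((c : L) : Qb) := by
        rw [Galois.layer_coe_smul]; exact hfy g hg
      exact NumberField.RingOfIntegers.ext (Subtype.ext h2)
  have hunit : ∀ u : 𝓞 L, u ∉ Galois.layerPrime A L → A.valuation ((u : L) : Qb) = 1 :=
    fun u hu => valuation_eq_one_of_notMem_nonunits (Galois.layerToPlace A L u).2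
      fun h => hu (Galois.mem_layerPrime.2 h)
  refine ⟨m, ?_⟩
  have he := congrArg (fun z : 𝓞 L => A.valuation ((z : L) : Qb)) hst
  simp only [map_mul, map_pow, MulMemClass.coe_mul, SubmonoidClass.coe_pow, hunit s hs,
    hunit t ht, one_mul, mul_one] at he
  rw [zpow_natCast]
  rw [show A.valuation y = A.valuation ((c : L) : Qb) from rfl, he]
  congr 1

variable (q A) in
theorem π_wQ (hA : A.LiesOverPrime q) : residue A (wQ q A) = 0 := by
  rw [residue_eq_zero_iff, ← ValuationSubring.coe_mem_nonunits_iff]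
  by_contra h
  have hv := valuation_eq_one_of_notMem_nonunits (wQ q A).2 h
  haveI : CharP (ResidueField A) q := (CharP.charP_iff_prime_eq_zero Fact.out).2 (by
    rw [← map_natCast (residue A), residue_eq_zero_iff, ← ValuationSubring.coe_mem_nonunits_iff]
    exact_mod_cast hA)
  have h0 : (residue A (wQ q A)) = 0 := by
    have hz : (residue A ⟨(zetaQ q : Qb), zeta_mem q A⟩) ^ q = 1 := by
      rw [← map_pow, ← map_one (residue A)]
      exact congrArg _ (Subtype.ext (isPrimitiveRoot_zetaQ q).pow_eq_one)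
    have : residue A (wQ q A) = residue A ⟨(zetaQ q : Qb), zeta_mem q A⟩ - 1 := by
      rw [← map_one (residue A), ← map_sub]; rfl
    rw [this]
    refine (pow_eq_zero_iff (Fact.out : q.Prime).ne_zero).1 ?_
    rw [sub_pow_char, hz, one_pow, sub_self]
  rw [residue_eq_zero_iff, ← ValuationSubring.coe_mem_nonunits_iff] at h0
  exact h h0

theorem residue_one_add_ne_zero (hA : A.LiesOverPrime q) {i : ℕ} (h0 : 0 < i) (hi : i < q) :
    A.valuation ((zetaQ q : Qb) ^ i - 1) = A.valuation ((wQ q A : A) : Qb) := by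
  rw [coe_wQ, ← geom_sum_mul, map_mul]
  let S : A := ∑ j ∈ Finset.range i, (⟨(zetaQ q : Qb), zeta_mem q A⟩ : A) ^ j
  have hS : (S : Qb) = ∑ j ∈ Finset.range i, (zetaQ q : Qb) ^ j := by
    simp [S, AddSubmonoidClass.coe_finsetSum]
  have hres : residue A S = (i : ResidueField A) := by
    have hz : residue A ⟨(zetaQ q : Qb), zeta_mem q A⟩ = 1 := by
      have := π_wQ q A hA
      rw [← sub_eq_zero, ← map_one (residue A), ← map_sub]
      exact this
    simp only [S, map_sum, map_pow, hz, one_pow, Finset.sum_const, Finset.card_range, nsmul_one]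
  have hne : residue A S ≠ 0 := by
    rw [hres, ← map_natCast (residue A)]
    intro h
    rw [residue_eq_zero_iff, ← ValuationSubring.coe_mem_nonunits_iff] at h
    have := (Mult.natCast_mem_nonunits_iff Fact.out hA i).1 (by exact_mod_cast h)
    exact absurd (Nat.le_of_dvd h0 this) (by omega)
  have h1 : A.valuation (S : Qb) = 1 := valuation_eq_one_of_notMem_nonunits S.2 fun h => hne (by
    rw [residue_eq_zero_iff, ← ValuationSubring.coe_mem_nonunits_iff]; exact h)
  rw [← hS, h1, one_mul]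

theorem valuation_q (hA : A.LiesOverPrime q) :
    A.valuation (q : Qb) = A.valuation ((wQ q A : A) : Qb) ^ (q - 1) := by
  obtain ⟨n, hn⟩ : ∃ n, q = n + 1 := ⟨q - 1, by have := (Fact.out : q.Prime).pos; omega⟩
  have hz : IsPrimitiveRoot (zetaQ q : Qb) (n + 1) := by
    have := isPrimitiveRoot_zetaQ q
    convert this using 1
    exact hn.symm
  have h := hz.prod_one_sub_pow_eq_order
  have h2 : (q : Qb) = (n : Qb) + 1 := by rw [hn]; push_cast; ring
  rw [h2, ← h, map_prod, Finset.prod_eq_pow_card (b := A.valuation ((wQ q A : A) : Qb)),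
    Finset.card_range, show q - 1 = n by omega]
  intro i hi
  rw [Finset.mem_range] at hi
  rw [← neg_sub, Valuation.map_neg]
  exact residue_one_add_ne_zero hA (by omega) (by omega)

/-- The valuations of `fixK` are powers of the valuation of `ζ - 1`. -/
theorem exists_valuation_fixK (hA : A.LiesOverPrime q) {c : Qb} (hc : c ∈ fixK q A)
    (hc0 : c ≠ 0) : ∃ m : ℤ, A.valuation c = A.valuation ((wQ q A : A) : Qb) ^ m := by
  classical
  let I := A.inertiaSubgroupIn ℚ
  have hz := isPrimitiveRoot_zetaQ q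
  -- the cyclotomic character on inertia
  let χ : I →* (ZMod q)ˣ := (hz.autToPow ℚ).comp I.subtype
  have hχ : ∀ σ : I, (zetaQ q : Qb) ^ ((χ σ : (ZMod q)ˣ) : ZMod q).val = (σ : GQ) (zetaQ q) :=
    fun σ => hz.autToPow_spec ℚ (σ : GQ)
  have hdep : ∀ σ τ : I, χ σ = χ τ → (σ : GQ) c = (τ : GQ) c := fun σ τ h => by
    have hmem : ((τ⁻¹ * σ : I) : GQ) ∈ I1 q A := by
      refine (mem_I1 q A).2 ⟨(τ⁻¹ * σ : I).2, ?_⟩
      have h1 : χ (τ⁻¹ * σ) = 1 := by rw [map_mul, map_inv, h, inv_mul_cancel]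
      rw [← hχ, h1, Units.val_one, ZMod.val_one, pow_one]
    have h2 := (mem_fixK q A).1 hc _ hmem
    rw [Subgroup.coe_mul, Subgroup.coe_inv, AlgEquiv.mul_apply] at h2
    have := congrArg (τ : GQ) h2
    rwa [← AlgEquiv.mul_apply, mul_inv_cancel, AlgEquiv.one_apply] at this
  haveI : Fintype χ.range := Fintype.ofFinite _
  choose rep hrep using fun a : χ.range => MonoidHom.mem_range.1 a.2
  let N : Qb := ∏ a : χ.range, (rep a : GQ) c
  have hN0 : N ≠ 0 := Finset.prod_ne_zero_iff.2 fun a _ => by simpa using hc0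
  have hNfix : ∀ σ ∈ A.inertiaSubgroupIn ℚ, σ N = N := by
    intro σ hσ
    rw [map_prod]
    refine Fintype.prod_equiv (Equiv.mulLeft (⟨χ ⟨σ, hσ⟩, _, rfl⟩ : χ.range)) _ _ fun a => ?_
    rw [← AlgEquiv.mul_apply]
    refine hdep (⟨σ, hσ⟩ * rep a) _ ?_
    rw [map_mul, hrep, hrep]
    rfl
  obtain ⟨m, hm⟩ := exists_valuation_eq_zpow hA hN0 hNfix
  have hd : Fintype.card χ.range ∣ q - 1 := by
    rw [← Nat.card_eq_fintype_card]
    refine dvd_trans (Subgroup.card_subgroup_dvd_card _) ?_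
    rw [Nat.card_eq_fintype_card, ZMod.card_units]
  obtain ⟨e, he⟩ := hd
  refine ⟨m * e, ?_⟩
  have hval : A.valuation N = A.valuation c ^ Fintype.card χ.range := by
    rw [map_prod, Finset.prod_eq_pow_card (b := A.valuation c), Finset.card_univ]
    exact fun a _ => valuation_eq_of_inertia (rep a).2 c
  rw [hval, valuation_q hA, ← zpow_natCast, ← zpow_natCast, ← zpow_mul, he, Nat.cast_mul,
    show ((Fintype.card χ.range : ℤ) * (e : ℤ)) * m = (m * e) * Fintype.card χ.range by ring,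
    zpow_mul, zpow_natCast, zpow_natCast] at hm
  exact (pow_left_inj₀ zero_le zero_le (Fintype.card_ne_zero)).1 hm

/-- Every residue is the residue of an element of `fixK`. -/
theorem exists_residue_eq (hA : A.LiesOverPrime q) (y : ResidueField A) :
    ∃ a : A, (a : Qb) ∈ fixK q A ∧ residue A a = y := by
  classical
  have hq : q.Prime := Fact.out
  rcases eq_or_ne y 0 with rfl | hy
  · exact ⟨0, zero_mem _, map_zero _⟩
  obtain ⟨n, hn, hyn⟩ : ∃ n, 0 < n ∧ y ^ n = 1 := by
    obtain ⟨⟨x, hx⟩, rfl⟩ := residue_surjective y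
    obtain ⟨b, s, hb, hs, hsu, hxs⟩ := Galois.exists_integral_num_den A hx
    let L : IntermediateField ℚ Qb := IntermediateField.adjoin ℚ {b, s}
    haveI : FiniteDimensional ℚ L :=
      IntermediateField.finiteDimensional_adjoin fun z _ => Algebra.IsIntegral.isIntegral z
    haveI := Galois.finite_layerQuotient (L := L) hq hA
    let φ : 𝓞 L →+* ResidueField A := (residue A).comp (Galois.layerToPlace A L)
    let ψ : 𝓞 L ⧸ Galois.layerPrime A L →+* ResidueField A := Ideal.Quotient.lift _ φ fun z hz =>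
      (residue_eq_zero_iff _).2 hz
    have hord : ∀ z : 𝓞 L, φ z ≠ 0 → ∃ n, 0 < n ∧ φ z ^ n = 1 := by
      intro z hz
      have hfin : (Set.range fun m : ℕ => φ z ^ m).Finite :=
        (Set.finite_range ψ).subset (by
          rintro _ ⟨m, rfl⟩
          exact ⟨Ideal.Quotient.mk _ z ^ m, by rw [map_pow]; rfl⟩)
      obtain ⟨a, c, hlt, he⟩ := hfin.exists_lt_map_eq_of_forall_mem (f := fun m : ℕ => φ z ^ m)
        fun m => Set.mem_range_self m
      refine ⟨c - a, by omega, mul_left_cancel₀ (pow_ne_zero a hz) ?_⟩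
      rw [← pow_add, Nat.add_sub_cancel' hlt.le, mul_one]
      exact he.symm
    let bz : 𝓞 L := ⟨⟨b, IntermediateField.subset_adjoin ℚ _ (Set.mem_insert _ _)⟩,
      (isIntegral_algHom_iff (L.val.restrictScalars ℤ) Subtype.val_injective).mp hb⟩
    let sz : 𝓞 L := ⟨⟨s, IntermediateField.subset_adjoin ℚ _ (Set.mem_insert_of_mem _ rfl)⟩,
      (isIntegral_algHom_iff (L.val.restrictScalars ℤ) Subtype.val_injective).mp hs⟩
    have hs0 : φ sz ≠ 0 := fun h => hsu (ValuationSubring.coe_mem_nonunits_iff.2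
      ((residue_eq_zero_iff _).1 h))
    have hbs : residue A ⟨x, hx⟩ * φ sz = φ bz := by
      show residue A ⟨x, hx⟩ * residue A _ = residue A _
      rw [← map_mul]
      exact congrArg _ (Subtype.ext hxs)
    have hb0 : φ bz ≠ 0 := hbs ▸ mul_ne_zero hy hs0
    obtain ⟨n₁, hn₁, h₁⟩ := hord bz hb0
    obtain ⟨n₂, hn₂, h₂⟩ := hord sz hs0
    refine ⟨n₁ * n₂, Nat.mul_pos hn₁ hn₂, ?_⟩
    have := congrArg (fun t => t ^ (n₁ * n₂)) hbs
    simp only [mul_pow] at this
    rwa [pow_mul (φ bz), h₁, one_pow, mul_comm n₁ n₂, pow_mul (φ sz), h₂, one_pow, mul_one,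
      mul_comm n₂ n₁] at this
  haveI : CharP (ResidueField A) q := (CharP.charP_iff_prime_eq_zero hq).2 (by
    rw [← map_natCast (residue A), residue_eq_zero_iff, ← ValuationSubring.coe_mem_nonunits_iff]
    exact_mod_cast hA)
  obtain ⟨e, n', hn', rfl⟩ := Nat.exists_eq_pow_mul_and_not_dvd hn.ne' q hq.ne_one
  have hyn' : y ^ n' = 1 := by
    rw [mul_comm, pow_mul] at hyn
    haveI : ExpChar (ResidueField A) q := ExpChar.prime hq
    exact iterateFrobenius_inj (ResidueField A) q e (by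
      rw [iterateFrobenius_def, iterateFrobenius_def, hyn, one_pow])
  have hn'0 : 0 < n' := Nat.pos_of_ne_zero fun h => hn' (h ▸ dvd_zero q)
  haveI : NeZero n' := ⟨hn'0.ne'⟩
  obtain ⟨μ, hμ⟩ := HasEnoughRootsOfUnity.exists_primitiveRoot Qb n'
  have hμA : μ ∈ A := Mult.mem_of_pow_mem hn'0.ne' (hμ.pow_eq_one.symm ▸ A.one_mem)
  have hprim : IsPrimitiveRoot (residue A ⟨μ, hμA⟩) n' := by
    refine IsPrimitiveRoot.iff hn'0 |>.2 ⟨?_, fun l hl0 hl h => ?_⟩
    · rw [← map_pow, ← map_one (residue A)]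
      exact congrArg _ (Subtype.ext hμ.pow_eq_one)
    · rw [← map_pow, ← map_one (residue A), ← sub_eq_zero, ← map_sub, residue_eq_zero_iff,
        ← ValuationSubring.coe_mem_nonunits_iff] at h
      have h1 := Mult.eq_one_of_pow_eq_one hq hA hn' (z := μ ^ l)
        (by rw [← pow_mul, mul_comm, pow_mul, hμ.pow_eq_one, one_pow]) h
      exact hμ.pow_ne_one_of_pos_of_lt hl0.ne' hl h1
  obtain ⟨i, -, rfl⟩ := hprim.eq_pow_of_pow_eq_one hyn'
  refine ⟨⟨μ, hμA⟩ ^ i, (mem_fixK q A).2 fun σ hσ => ?_, map_pow _ _ _⟩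
  rw [SubmonoidClass.coe_pow, map_pow]
  exact congrArg (· ^ i) (Mult.inertia_apply_of_pow_eq_one hq hA hσ.1 hn' hμ.pow_eq_one)

/-- Powers of `ζ - 1` tend to zero. -/
theorem exists_div_pow_notMem (hA : A.LiesOverPrime q) (hA1 : Curve.RankLeOne A) {c : Qb}
    (hc : c ≠ 0) : ∃ m : ℕ, c / ((wQ q A : A) : Qb) ^ m ∉ A := by
  by_cases hcA : c ∈ A
  · have hw : wQ q A ∈ maximalIdeal A := (residue_eq_zero_iff _).1 (π_wQ q A hA)
    obtain ⟨n, e, he⟩ := hA1 (wQ q A) ⟨c, hcA⟩ hw (fun h => hc (congrArg Subtype.val h))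
    refine ⟨n + 1, fun hmem => ?_⟩
    have h1 : (wQ q A) * (⟨_, hmem⟩ * e) = 1 := Subtype.ext (by
      have he' := congrArg (fun z : A => (z : Qb)) he
      simp only [SubmonoidClass.coe_pow, MulMemClass.coe_mul] at he'
      show ((wQ q A : A) : Qb) * (c / ((wQ q A : A) : Qb) ^ (n + 1) * (e : Qb)) = 1
      rw [div_mul_eq_mul_div, ← he', pow_succ]
      have := wQ_ne q A
      field_simp)
    exact (mem_maximalIdeal _).1 hw (IsUnit.of_mul_eq_one _ h1)
  · exact ⟨0, by simpa using hcA⟩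

end Fermat.Agent.Carayol.CGood

end
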