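/-
Group theory for the cuspidality argument at a prime `q` with `q ^ 2 ∥ M` (Carayol's theorem).

`G = SL₂(𝔽_q)`, `B` its upper triangular subgroup, `D_c = diag(c, 1)`. A function `Φ` on `G`,
left invariant under the unipotent group, right invariant under the diagonal torus, invariant
under conjugation by all `D_c`, and with vanishing sums over `B`, `wB` and `Bw`, is killed by
`q * (q - 1) ^ 2`. In the application `Φ g` is the image of `g • x` on the component at `∞` of
the special fibre of `X(q; M')`, and conjugation by `D_c` is the inertia group at `q`.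
-/
import Mathlib.LinearAlgebra.Matrix.SpecialLinearGroup
import Mathlib.Algebra.Field.ZMod
import Mathlib.Algebra.Module.BigOperators
import Mathlib.FieldTheory.Finite.Basic
import Mathlib.GroupTheory.Coset.Basic
import Mathlib.Tactic.LinearCombination
import Mathlib.Tactic.FieldSimp
import Mathlib.Tactic.Ring
import Mathlib.Tactic.Module

set_option autoImplicit false

namespace Fermat.Agent.Carayol

open Matrix
open scoped MatrixGroups

namespace Cuspidal

variable {q : ℕ} [Fact q.Prime]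

attribute [local simp] Units.val_inv_eq_inv_val
attribute [-simp] ZMod.inv_coe_unit

/-- `(1 β; 0 1)` -/
def uni (β : ZMod q) : SL(2, ZMod q) :=
  ⟨!![1, β; 0, 1], by rw [Matrix.det_fin_two_of]; simp⟩

/-- `(a 0; 0 a⁻¹)` -/
def tor (a : (ZMod q)ˣ) : SL(2, ZMod q) :=
  ⟨!![(a : ZMod q), 0; 0, (a : ZMod q)⁻¹], by rw [Matrix.det_fin_two_of]; simp⟩

/-- `(0 -1; 1 0)` -/
def weyl : SL(2, ZMod q) :=
  ⟨!![0, -1; 1, 0], by rw [Matrix.det_fin_two_of]; simp⟩

/-- An element of the Borel subgroup. -/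
def bor (p : (ZMod q)ˣ × ZMod q) : SL(2, ZMod q) :=
  tor p.1 * uni p.2

/-- The underlying function of `twist`. -/
def twistFun (c : (ZMod q)ˣ) (g : SL(2, ZMod q)) : SL(2, ZMod q) :=
  ⟨!![g 0 0, (c : ZMod q) * g 0 1; (c : ZMod q)⁻¹ * g 1 0, g 1 1], by
    have h := g.2
    rw [Matrix.det_fin_two] at h
    have hc : (c : ZMod q) * (c : ZMod q)⁻¹ = 1 := mul_inv_cancel₀ c.ne_zero
    rw [Matrix.det_fin_two_of]
    linear_combination h - g 0 1 * g 1 0 * hc⟩

theorem coe_twistFun (c : (ZMod q)ˣ) (g : SL(2, ZMod q)) :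
    (twistFun c g : Matrix (Fin 2) (Fin 2) (ZMod q)) =
      !![g 0 0, (c : ZMod q) * g 0 1; (c : ZMod q)⁻¹ * g 1 0, g 1 1] := rfl

/-- Conjugation by `diag (c, 1)`: `(a b; e d) ↦ (a cb; c⁻¹e d)`. -/
def twist (c : (ZMod q)ˣ) : SL(2, ZMod q) →* SL(2, ZMod q) where
  toFun := twistFun c
  map_one' := by
    ext i j
    fin_cases i <;> fin_cases j <;> simp [coe_twistFun]
  map_mul' g h := by
    have hc : (c : ZMod q) * (c : ZMod q)⁻¹ = 1 := mul_inv_cancel₀ c.ne_zero
    ext i j
    fin_cases i <;> fin_cases j <;>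
      simp [coe_twistFun, Matrix.mul_apply, Fin.sum_univ_two]
    · linear_combination -(g 0 1 * h 1 0) * hc
    · ring
    · ring
    · linear_combination -(g 1 0 * h 0 1) * hc

@[simp] theorem coe_uni (β : ZMod q) :
    (uni β : Matrix (Fin 2) (Fin 2) (ZMod q)) = !![1, β; 0, 1] := rfl

@[simp] theorem coe_tor (a : (ZMod q)ˣ) :
    (tor a : Matrix (Fin 2) (Fin 2) (ZMod q)) = !![(a : ZMod q), 0; 0, (a : ZMod q)⁻¹] := rfl

@[simp] theorem coe_weyl :
    ((weyl : SL(2, ZMod q)) : Matrix (Fin 2) (Fin 2) (ZMod q)) = !![0, -1; 1, 0] := rfl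

@[simp] theorem coe_twist (c : (ZMod q)ˣ) (g : SL(2, ZMod q)) :
    (twist c g : Matrix (Fin 2) (Fin 2) (ZMod q)) =
      !![g 0 0, (c : ZMod q) * g 0 1; (c : ZMod q)⁻¹ * g 1 0, g 1 1] := rfl

theorem uni_zero : uni (0 : ZMod q) = 1 := by
  ext i j
  fin_cases i <;> fin_cases j <;> simp

theorem tor_one : tor (1 : (ZMod q)ˣ) = 1 := by
  ext i j
  fin_cases i <;> fin_cases j <;> simp

theorem tor_mul (a b : (ZMod q)ˣ) : tor (a * b) = tor a * tor b := by
  ext i j
  fin_cases i <;> fin_cases j <;> simp [Matrix.mul_apply, Fin.sum_univ_two, mul_comm]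

theorem tor_mul_uni (a : (ZMod q)ˣ) (β : ZMod q) :
    tor a * uni β = uni ((a : ZMod q) * (a : ZMod q) * β) * tor a := by
  have ha : (a : ZMod q) * (a : ZMod q)⁻¹ = 1 := mul_inv_cancel₀ a.ne_zero
  ext i j
  fin_cases i <;> fin_cases j <;> simp [Matrix.mul_apply, Fin.sum_univ_two]
  linear_combination -(a : ZMod q) * β * ha

theorem weyl_mul_tor (a : (ZMod q)ˣ) : weyl * tor a = tor a⁻¹ * weyl := by
  ext i j
  fin_cases i <;> fin_cases j <;> simp [Matrix.mul_apply, Fin.sum_univ_two]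

theorem twist_sq (a : (ZMod q)ˣ) (g : SL(2, ZMod q)) :
    twist (a * a) g * tor a = tor a * g := by
  have ha : (a : ZMod q) * (a : ZMod q)⁻¹ = 1 := mul_inv_cancel₀ a.ne_zero
  ext i j
  fin_cases i <;> fin_cases j <;> simp [Matrix.mul_apply, Fin.sum_univ_two]
  · ring
  · linear_combination (a : ZMod q) * g 0 1 * ha
  · linear_combination (a : ZMod q)⁻¹ * g 1 0 * ha
  · ring

theorem twist_weyl (c : (ZMod q)ˣ) : twist c (weyl : SL(2, ZMod q)) = tor c * weyl := by
  ext i j
  fin_cases i <;> fin_cases j <;> simp [Matrix.mul_apply, Fin.sum_univ_two]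

theorem twist_uni (c : (ZMod q)ˣ) (β : ZMod q) : twist c (uni β) = uni ((c : ZMod q) * β) := by
  ext i j
  fin_cases i <;> fin_cases j <;> simp

theorem twist_tor (c a : (ZMod q)ˣ) : twist c (tor a) = tor a := by
  ext i j
  fin_cases i <;> fin_cases j <;> simp

/-- Bruhat decomposition. -/
theorem bruhat (g : SL(2, ZMod q)) :
    (∃ p, g = bor p) ∨
      ∃ (α : ZMod q) (a : (ZMod q)ˣ) (β : ZMod q), g = uni α * weyl * tor a * uni β := by
  have hdet : g 0 0 * g 1 1 - g 0 1 * g 1 0 = 1 := by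
    have h := g.2
    rwa [Matrix.det_fin_two] at h
  rcases eq_or_ne (g 1 0) 0 with hc | hc
  · left
    have ha : g 0 0 ≠ 0 := by
      intro h0
      rw [h0, hc] at hdet
      simp at hdet
    refine ⟨(Units.mk0 (g 0 0) ha, g 0 1 / g 0 0), ?_⟩
    ext i j
    fin_cases i <;> fin_cases j <;> simp [bor, Matrix.mul_apply, Fin.sum_univ_two, hc]
    · field_simp
    · field_simp
      linear_combination hdet + g 0 1 * hc
  · right
    refine ⟨g 0 0 / g 1 0, Units.mk0 (g 1 0) hc, g 1 1 / g 1 0, ?_⟩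
    ext i j
    fin_cases i <;> fin_cases j <;> simp [Matrix.mul_apply, Fin.sum_univ_two]
    · field_simp
    · field_simp
      linear_combination -hdet
    · field_simp

section Function

variable {A : Type*} [AddCommGroup A] (Φ : SL(2, ZMod q) → A)

omit [AddCommGroup A] in
theorem tor_left_invariant
    (hT : ∀ g a, Φ (g * tor a) = Φ g) (htw : ∀ c g, Φ (twist c g) = Φ g)
    (a : (ZMod q)ˣ) (g : SL(2, ZMod q)) : Φ (tor a * g) = Φ g := by
  rw [← twist_sq, hT, htw]

/-- A function left invariant under the unipotent group, right invariant under the torus and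
invariant under all twists, whose sums over `B`, `wB` and `Bw` vanish, is killed by
`q * (q - 1) ^ 2`. -/
theorem nsmul_eq_zero
    (hU : ∀ β g, Φ (uni β * g) = Φ g) (hT : ∀ g a, Φ (g * tor a) = Φ g)
    (htw : ∀ c g, Φ (twist c g) = Φ g)
    (hB : ∑ p, Φ (bor p) = 0) (hwB : ∑ p, Φ (weyl * bor p) = 0)
    (hBw : ∑ p, Φ (bor p * weyl) = 0) (g : SL(2, ZMod q)) :
    (q * (q - 1) ^ 2) • Φ g = 0 := by
  have hTl := tor_left_invariant Φ hT htw
  have hBl : ∀ p g, Φ (bor p * g) = Φ g := fun p g => by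
    rw [bor, mul_assoc, hTl, hU]
  have hcard : Fintype.card ((ZMod q)ˣ × ZMod q) = (q - 1) * q := by
    rw [Fintype.card_prod, ZMod.card_units, ZMod.card]
  -- value at `1`
  have h1 : ((q - 1) * q) • Φ 1 = 0 := by
    have : ∀ p, Φ (bor p) = Φ 1 := fun p => by simpa using hBl p 1
    simpa [this, hcard] using hB
  -- value at `w`
  have hw : ((q - 1) * q) • Φ weyl = 0 := by
    simpa [hBl, hcard] using hBw
  -- the remaining double coset
  have hwu : ∀ β : ZMod q, ∀ c : (ZMod q)ˣ,
      Φ (weyl * uni ((c : ZMod q) * β)) = Φ (weyl * uni β) := fun β c => by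
    rw [← htw c (weyl * uni β), map_mul, twist_weyl, twist_uni, mul_assoc, hTl]
  have hrest : ∀ β : ZMod q, β ≠ 0 → Φ (weyl * uni β) = Φ (weyl * uni 1) := fun β hβ => by
    simpa using hwu 1 (Units.mk0 β hβ)
  have hsum : (q - 1) • (Φ weyl + (q - 1) • Φ (weyl * uni 1)) = 0 := by
    have e : ∀ p : (ZMod q)ˣ × ZMod q, Φ (weyl * bor p) = Φ (weyl * uni p.2) := fun p => by
      rw [bor, ← mul_assoc, weyl_mul_tor, mul_assoc, hTl]
    have e2 : ∑ β : ZMod q, Φ (weyl * uni β) = Φ weyl + (q - 1) • Φ (weyl * uni 1) := by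
      rw [← Finset.add_sum_erase _ _ (Finset.mem_univ (0 : ZMod q)), uni_zero, mul_one,
        Finset.sum_congr rfl fun β hβ => hrest β (Finset.ne_of_mem_erase hβ),
        Finset.sum_const, Finset.card_erase_of_mem (Finset.mem_univ _), Finset.card_univ,
        ZMod.card]
    have hwB' := hwB
    simp_rw [e] at hwB'
    rw [Fintype.sum_prod_type] at hwB'
    dsimp only at hwB'
    rw [Finset.sum_const, Finset.card_univ, ZMod.card_units, e2] at hwB'
    exact hwB'
  have hu : (q * (q - 1) ^ 2) • Φ (weyl * uni 1) = 0 := by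
    have h := congrArg (fun x => q • x) hsum
    simp only [smul_add, smul_zero, smul_smul] at h
    rw [mul_comm q (q - 1), hw, zero_add] at h
    rw [sq, ← h]
  have hk : ∀ x : A, ((q - 1) * q) • x = 0 → (q * (q - 1) ^ 2) • x = 0 := fun x hx => by
    rw [show q * (q - 1) ^ 2 = (q - 1) * ((q - 1) * q) by ring, mul_smul, hx, smul_zero]
  rcases bruhat g with ⟨p, rfl⟩ | ⟨α, a, β, rfl⟩
  · have : Φ (bor p) = Φ 1 := by simpa using hBl p 1
    rw [this]
    exact hk _ h1
  · rw [mul_assoc (uni α), weyl_mul_tor, mul_assoc (uni α), hU, mul_assoc, hTl]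
    rcases eq_or_ne β 0 with rfl | hβ
    · rw [uni_zero, mul_one]
      exact hk _ hw
    · rw [hrest β hβ]
      exact hu

end Function

section Hom

variable {M A : Type*} [AddCommGroup M] [AddCommGroup A] [DistribMulAction SL(2, ZMod q) M]

/-- Sum over the Borel subgroup. -/
def borelSum (x : M) : M :=
  ∑ p : (ZMod q)ˣ × ZMod q, bor p • x

/-- The component lemma: `r` is reduction to the component at `∞`, the `σ c` are elements of
inertia, `x` is a class fixed by the torus and by inertia with vanishing norms to the two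
Borel subgroups containing the torus. -/
theorem nsmul_map_smul_eq_zero (r : M →+ A) (σ : (ZMod q)ˣ → M → M)
    (hσ : ∀ c g m, σ c (g • m) = twist c g • σ c m)
    (hrσ : ∀ c m, r (σ c m) = r m) (hrU : ∀ (β : ZMod q) m, r (uni β • m) = r m)
    {x : M} (hxT : ∀ a : (ZMod q)ˣ, tor a • x = x) (hxσ : ∀ c, σ c x = x)
    (hB : borelSum (q := q) x = 0) (hB' : borelSum (q := q) ((weyl : SL(2, ZMod q)) • x) = 0)
    (g : SL(2, ZMod q)) :
    (q * (q - 1) ^ 2) • r (g • x) = 0 := by
  refine nsmul_eq_zero (fun g : SL(2, ZMod q) => r (g • x)) (fun β g => ?_) (fun g a => ?_) (fun c g => ?_)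
    ?_ ?_ ?_ g
  · rw [mul_smul, hrU]
  · rw [mul_smul, hxT]
  · rw [← hrσ c (g • x), hσ, hxσ]
  · simpa [borelSum] using congrArg r hB
  · simpa [borelSum, Finset.smul_sum, smul_smul] using
      congrArg (fun m => r ((weyl : SL(2, ZMod q)) • m)) hB
  · simpa [borelSum, smul_smul] using congrArg r hB'

end Hom

end Cuspidal

end Fermat.Agent.Carayol
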