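/-
`SL₂(ℤ/q)` acting on homomorphisms of `Γ(q) ∩ Γ₀(M)`, and the non-vanishing of `lop` on the twist
of a homomorphism with a character of the lower triangular group.
-/
import Fermat.Agent.Carayol.LCharRoot
import Fermat.Agent.Carayol.BTwistGroup

set_option autoImplicit false
set_option linter.unusedSectionVars false

noncomputable section

namespace Fermat.Agent.Carayol

namespace Cuspidal

open CongruenceSubgroup TwistInertia
open scoped MatrixGroups

attribute [-simp] ZMod.inv_coe_unit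

variable {q : ℕ} [Fact q.Prime] {M : ℕ} [NeZero M] {A : Type*} [AddCommGroup A]

theorem mem_deltaGrp_of_red {γ : Gamma0 M} (h : red (q := q) (γ : SL(2, ℤ)) = 1) :
    (γ : SL(2, ℤ)) ∈ deltaGrp q M :=
  ⟨h, γ.2⟩

theorem conjDelta_mul (γ γ' : Gamma0 M) (δ : deltaGrp q M) :
    conjDelta (γ * γ') δ = conjDelta γ' (conjDelta γ δ) :=
  Subtype.ext (by simp [conjDelta, mul_assoc])

theorem conjDelta_one (δ : deltaGrp q M) : conjDelta (1 : Gamma0 M) δ = δ :=
  Subtype.ext (by simp [conjDelta])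

/-- A homomorphism to an abelian group is fixed by inner automorphisms. -/
theorem hom_conjDelta_self (η : Additive (deltaGrp q M) →+ A) {ε : Gamma0 M}
    (hε : (ε : SL(2, ℤ)) ∈ deltaGrp q M) (δ : deltaGrp q M) :
    η (Additive.ofMul (conjDelta ε δ)) = η (Additive.ofMul δ) := by
  have e : conjDelta ε δ = (⟨_, hε⟩ : deltaGrp q M)⁻¹ * δ * ⟨_, hε⟩ := Subtype.ext rfl
  rw [e, ofMul_mul, ofMul_mul, ofMul_inv, map_add, map_add, map_neg]
  abel

/-- Conjugation only depends on the reduction modulo `q`. -/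
theorem hom_conjDelta_congr (η : Additive (deltaGrp q M) →+ A) {γ γ' : Gamma0 M}
    (h : red (q := q) (γ : SL(2, ℤ)) = red (γ' : SL(2, ℤ))) (δ : deltaGrp q M) :
    η (Additive.ofMul (conjDelta γ δ)) = η (Additive.ofMul (conjDelta γ' δ)) := by
  have h1 : red (q := q) ((γ⁻¹ * γ' : Gamma0 M) : SL(2, ℤ)) = 1 := by
    rw [Subgroup.coe_mul, Subgroup.coe_inv, map_mul, map_inv, h, inv_mul_cancel]
  rw [← mul_inv_cancel_left γ γ', conjDelta_mul,
    hom_conjDelta_self η (mem_deltaGrp_of_red h1)]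

/-- The action of `SL₂(ℤ/q)` on homomorphisms. -/
@[reducible]
def homAction (hqM : ¬ q ∣ M) :
    DistribMulAction SL(2, ZMod q) (Additive (deltaGrp q M) →+ A) where
  smul g η := η.comp (MonoidHom.toAdditive (conjDelta (lift hqM g)))
  one_smul η := AddMonoidHom.ext fun a => by
    show η (Additive.ofMul (conjDelta (lift hqM 1) (Additive.toMul a))) = η a
    rw [hom_conjDelta_congr η (γ' := 1) (by rw [red_lift, OneMemClass.coe_one, map_one]),
      conjDelta_one, ofMul_toMul]
  mul_smul g g' η := AddMonoidHom.ext fun a => by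
    show η (Additive.ofMul (conjDelta (lift hqM (g * g')) (Additive.toMul a))) =
      η (Additive.ofMul (conjDelta (lift hqM g') (conjDelta (lift hqM g) (Additive.toMul a))))
    rw [← conjDelta_mul, hom_conjDelta_congr η (γ' := lift hqM g * lift hqM g')
      (by rw [Subgroup.coe_mul, map_mul, red_lift, red_lift, red_lift])]
  smul_zero g := rfl
  smul_add g η η' := rfl

theorem homAction_apply (hqM : ¬ q ∣ M) {g : SL(2, ZMod q)} {γ : Gamma0 M}
    (hγ : red (q := q) (γ : SL(2, ℤ)) = g) (η : Additive (deltaGrp q M) →+ A)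
    (δ : deltaGrp q M) :
    (letI := homAction (A := A) hqM; g • η) (Additive.ofMul δ) =
      η (Additive.ofMul (conjDelta γ δ)) :=
  hom_conjDelta_congr η (by rw [red_lift, hγ]) δ

variable {R : Type*} [CommRing R] [Module R A]

theorem smulCommClass_homAction (hqM : ¬ q ∣ M) :
    letI := homAction (A := A) hqM
    SMulCommClass SL(2, ZMod q) R (Additive (deltaGrp q M) →+ A) :=
  letI := homAction (A := A) hqM
  ⟨fun _ _ _ => rfl⟩

/-- The transformation by a character of the lower triangular matrices gives invariance under the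
lower unipotent group and a torus character. -/
theorem lop_weyl_twist_ne_zero [IsDomain R] [CharZero R] (hqM : ¬ q ∣ M)
    (ψ : MulChar (ZMod q) R) (hψ : ∃ a : (ZMod q)ˣ, ψ (a : ZMod q) ^ 2 ≠ 1)
    {φ z : Additive (deltaGrp q M) →+ R}
    (hz : ∀ γ : Gamma0 M, (((γ : SL(2, ℤ)) 0 1 : ℤ) : ZMod q) = 0 → ∀ δ : deltaGrp q M,
      ψ (((γ : SL(2, ℤ)) 1 1 : ℤ) : ZMod q) ^ 2 * z (Additive.ofMul (conjDelta γ δ))
        = z (Additive.ofMul δ))
    (C : R) (hφ : letI := homAction (A := R) hqM; φ = C • twU ψ z) (hne : φ ≠ 0) :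
    letI := homAction (A := R) hqM
    lop ψ⁻¹ ((weyl : SL(2, ZMod q)) • φ) ≠ 0 := by
  letI := homAction (A := R) hqM
  haveI := smulCommClass_homAction (A := R) (R := R) hqM
  have hb : ∀ g : SL(2, ZMod q), g 0 1 = 0 → ψ (g 1 1) ^ 2 • g • z = z := by
    intro g hg
    refine AddMonoidHom.ext fun a => ?_
    obtain ⟨δ, rfl⟩ := Additive.ofMul.surjective a
    rw [AddMonoidHom.smul_apply, homAction_apply hqM (red_lift hqM g), smul_eq_mul]
    have h1 : red (q := q) (lift hqM g : SL(2, ℤ)) = g := red_lift hqM g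
    have h01 : (((lift hqM g : SL(2, ℤ)) 0 1 : ℤ) : ZMod q) = 0 := by
      rw [← red_apply, h1, hg]
    have h11 : (((lift hqM g : SL(2, ℤ)) 1 1 : ℤ) : ZMod q) = g 1 1 := by
      rw [← red_apply, h1]
    rw [← h11]
    exact hz _ h01 δ
  have htor : ∀ a : (ZMod q)ˣ, tor a • z = ψ (a : ZMod q) ^ 2 • z := by
    intro a
    have h := hb (tor a) (by simp)
    simp only [coe_tor, Matrix.of_apply, Matrix.cons_val', Matrix.cons_val_one, Matrix.cons_val_zero,
      Matrix.cons_val_fin_one] at h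
    conv_rhs => rw [← h]
    rw [smul_smul, ← mul_pow, ← map_mul, mul_inv_cancel₀ a.ne_zero, map_one, one_pow, one_smul]
  set y := (weyl : SL(2, ZMod q)) • z with hy
  have hww : (weyl : SL(2, ZMod q)) • y = z := by
    rw [hy, smul_smul, weyl_mul_weyl, htor, Units.val_neg, Units.val_one, ← map_pow]
    simp
  have hyU : ∀ β : ZMod q, uni β • y = y := by
    intro β
    have e : uni β * (weyl : SL(2, ZMod q)) = weyl * (weyl⁻¹ * uni β * weyl) := by group
    have h := hb (weyl⁻¹ * uni β * weyl) (by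
      simp [Matrix.mul_apply, Fin.sum_univ_two, Matrix.SpecialLinearGroup.coe_inv,
        Matrix.adjugate_fin_two])
    have h11 : (weyl⁻¹ * uni β * weyl : SL(2, ZMod q)) 1 1 = 1 := by
      simp [Matrix.mul_apply, Fin.sum_univ_two, Matrix.SpecialLinearGroup.coe_inv,
        Matrix.adjugate_fin_two]
    rw [h11, map_one, one_pow, one_smul] at h
    rw [hy, smul_smul, e, mul_smul, h]
  let χ : MulChar (ZMod q) R := (ψ ^ 2)⁻¹
  have hψχ : ∀ a : (ZMod q)ˣ, χ (a : ZMod q) = ψ ((a⁻¹ : (ZMod q)ˣ) : ZMod q) ^ 2 := fun a => by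
    rw [MulChar.inv_apply', MulChar.pow_apply' _ two_ne_zero, Units.val_inv_eq_inv_val]
  have hyT : ∀ a : (ZMod q)ˣ, tor a • y = χ (a : ZMod q) • y := by
    intro a
    rw [hy, smul_smul, ← inv_inv a, ← weyl_mul_tor, mul_smul, htor, inv_inv, hψχ,
      smul_comm (weyl : SL(2, ZMod q))]
  obtain ⟨a, ha⟩ := hψ
  have hψ1 : ψ ≠ 1 := fun h => ha (by rw [h, MulChar.one_apply_coe, one_pow])
  have hχ1 : χ ≠ 1 := fun h => ha (by
    have h2 : ψ ^ 2 = 1 := inv_eq_one.1 h
    rw [← MulChar.pow_apply' ψ two_ne_zero, h2, MulChar.one_apply_coe])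
  have hrop : (weyl : SL(2, ZMod q)) • φ = C • rop ψ y := by
    rw [hφ, rop, hww, smul_comm]
  have hlin : ∀ (c : R) (m : Additive (deltaGrp q M) →+ R), lop ψ⁻¹ (c • m) = c • lop ψ⁻¹ m := by
    intro c m
    simp only [lop, sumU, twU, Finset.smul_sum, smul_comm (weyl : SL(2, ZMod q)) c,
      smul_comm (uni _) c, smul_comm (ψ⁻¹ _) c]
  rw [hrop, hlin, lop_rop ψ hψ1 hχ1 hyU hyT, smul_smul]
  have hC : C ≠ 0 := fun h => hne (by rw [hφ, h, zero_smul])
  have hz0 : z ≠ 0 := fun h => hne (by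
    rw [hφ, h]
    simp [twU])
  have hy0 : y ≠ 0 := fun h => hz0 (by rw [← hww, h, smul_zero])
  intro h0
  have hq : (q : R) ≠ 0 := Nat.cast_ne_zero.2 (Fact.out : q.Prime).ne_zero
  have hq1 : (q : R) - 1 ≠ 0 := sub_ne_zero.2 fun h1 =>
    (Fact.out : q.Prime).ne_one (Nat.cast_eq_one.1 h1)
  have hm1 : ψ (-1) ≠ 0 := fun h1 => by
    have h2 : ψ (-1) * ψ (-1) = 1 := by rw [← map_mul]; simp
    simp [h1] at h2
  refine hy0 (AddMonoidHom.ext fun b => ?_)
  have h := DFunLike.congr_fun h0 b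
  rw [AddMonoidHom.smul_apply, AddMonoidHom.zero_apply, smul_eq_mul] at h
  exact (mul_eq_zero.1 h).resolve_left (mul_ne_zero hC (mul_ne_zero hm1 (mul_ne_zero hq hq1)))

end Cuspidal

end Fermat.Agent.Carayol

end
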