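/-
Fricke conjugation on `Γ(q) ∩ Γ₀(M)`: the `lop`-combination of the conjugated translates of a
homomorphism is the `lop` of its Weyl translate, conjugated back.
-/
import Fermat.Agent.Carayol.LCharHom
import Fermat.Agent.Torsion.Fricke

set_option autoImplicit false
set_option linter.unusedSectionVars false

noncomputable section

namespace Fermat.Agent.Carayol

namespace Cuspidal

open CongruenceSubgroup TwistInertia
open scoped MatrixGroups
open Fermat.Agent.Torsion (frickeConj frickeConjSL frickeConj_frickeConj)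

attribute [-simp] ZMod.inv_coe_unit

variable {q : ℕ} [Fact q.Prime] {M : ℕ} [NeZero M]

theorem coe_frickeConj {N : ℕ} (γ : Gamma0 N) :
    (((frickeConj N γ : Gamma0 N) : SL(2, ℤ)) : Matrix (Fin 2) (Fin 2) ℤ) =
      !![(γ : SL(2, ℤ)) 1 1, -((γ : SL(2, ℤ)) 1 0 / N);
        -((N : ℤ) * (γ : SL(2, ℤ)) 0 1), (γ : SL(2, ℤ)) 0 0] := rfl

/-- `M` as a unit modulo `q`. -/
def levelUnit (hqM : ¬ q ∣ M) : (ZMod q)ˣ :=
  Units.mk0 (M : ZMod q) fun h => hqM ((ZMod.natCast_eq_zero_iff _ _).1 h)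

theorem red_frickeConj (hqM : ¬ q ∣ M) (γ : Gamma0 M) :
    red (q := q) ((frickeConj M γ : Gamma0 M) : SL(2, ℤ)) =
      twist (levelUnit hqM)⁻¹ (weyl * red (γ : SL(2, ℤ)) * weyl⁻¹) := by
  obtain ⟨k, hk⟩ := (ZMod.intCast_zmod_eq_zero_iff_dvd _ _).mp (Gamma0_mem.mp γ.2)
  have hM : (M : ℤ) ≠ 0 := by exact_mod_cast NeZero.ne M
  have hm : (M : ZMod q) ≠ 0 := fun h => hqM ((ZMod.natCast_eq_zero_iff _ _).1 h)
  ext i j
  rw [red_apply, coe_frickeConj]
  fin_cases i <;> fin_cases j <;>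
    simp [levelUnit, Matrix.mul_apply, Fin.sum_univ_two, red_apply, hk,
      Matrix.SpecialLinearGroup.coe_inv, Matrix.adjugate_fin_two,
      Int.mul_ediv_cancel_left _ hM, Units.val_inv_eq_inv_val] <;>
    field_simp

variable (q M) in
/-- `Γ(q) ∩ Γ₀(M)` inside `Γ₀(M)`. -/
def toGamma0M : deltaGrp q M →* Gamma0 M :=
  Subgroup.inclusion inf_le_right

theorem frickeConj_mem_deltaGrp (hqM : ¬ q ∣ M) (δ : deltaGrp q M) :
    ((frickeConj M (toGamma0M q M δ) : Gamma0 M) : SL(2, ℤ)) ∈ deltaGrp q M := by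
  refine mem_deltaGrp_of_red (M := M) ?_
  rw [red_frickeConj hqM, show red (q := q) ((toGamma0M q M δ : Gamma0 M) : SL(2, ℤ)) = 1 from δ.2.1,
    mul_one, mul_inv_cancel, map_one]

/-- The Fricke involution of `Γ(q) ∩ Γ₀(M)`. -/
def frDelta (hqM : ¬ q ∣ M) : deltaGrp q M →* deltaGrp q M :=
  MonoidHom.mk' (fun δ => ⟨_, frickeConj_mem_deltaGrp hqM δ⟩) fun δ ε =>
    Subtype.ext (by simp only [map_mul, Subgroup.coe_mul])

theorem coe_frDelta (hqM : ¬ q ∣ M) (δ : deltaGrp q M) :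
    ((frDelta hqM δ : deltaGrp q M) : SL(2, ℤ)) = (frickeConj M (toGamma0M q M δ) : Gamma0 M) := rfl

theorem frDelta_frDelta (hqM : ¬ q ∣ M) (δ : deltaGrp q M) :
    frDelta hqM (frDelta hqM δ) = δ :=
  Subtype.ext (by
    rw [coe_frDelta]
    rw [show toGamma0M q M (frDelta hqM δ) = frickeConj M (toGamma0M q M δ) from Subtype.ext rfl,
      frickeConj_frickeConj]
    rfl)

theorem frDelta_conjDelta (hqM : ¬ q ∣ M) (γ : Gamma0 M) (δ : deltaGrp q M) :
    frDelta hqM (conjDelta γ δ) = conjDelta (frickeConj M γ) (frDelta hqM δ) := by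
  refine Subtype.ext ?_
  rw [coe_frDelta]
  show _ = ((frickeConj M γ : Gamma0 M) : SL(2, ℤ))⁻¹ *
    ((frickeConj M (toGamma0M q M δ) : Gamma0 M) : SL(2, ℤ)) * (frickeConj M γ : Gamma0 M)
  rw [← Subgroup.coe_inv, ← Subgroup.coe_mul, ← Subgroup.coe_mul, ← map_inv, ← map_mul, ← map_mul,
    show toGamma0M q M (conjDelta γ δ) = γ⁻¹ * toGamma0M q M δ * γ from Subtype.ext rfl]

/-- Fricke conjugation at level `q² M` is the Fricke involution of `Γ(q) ∩ Γ₀(M)`. -/
theorem frickeConj_down (hqM : ¬ q ∣ M) (δ : deltaGrp q M) :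
    frickeConj (q * M * q) (down q M hqM δ) = down q M hqM (frDelta hqM δ) := by
  obtain ⟨k, hk⟩ := (ZMod.intCast_zmod_eq_zero_iff_dvd _ _).mp (Gamma_mem.mp δ.2.1).2.1
  obtain ⟨l, hl⟩ : ((q * M : ℕ) : ℤ) ∣ (δ : SL(2, ℤ)) 1 0 := by
    push_cast
    exact IsCoprime.mul_dvd
      (Nat.isCoprime_iff_coprime.mpr ((Fact.out : q.Prime).coprime_iff_not_dvd.2 hqM))
      ((ZMod.intCast_zmod_eq_zero_iff_dvd _ _).mp (Gamma_mem.mp δ.2.1).2.2.1)
      ((ZMod.intCast_zmod_eq_zero_iff_dvd _ _).mp (Gamma0_mem.mp δ.2.2))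
  push_cast at hl
  have hq : (q : ℤ) ≠ 0 := by exact_mod_cast (NeZero.ne q)
  have hM : (M : ℤ) ≠ 0 := by exact_mod_cast NeZero.ne M
  have hN : ((q : ℤ) * M * q) ≠ 0 := mul_ne_zero (mul_ne_zero hq hM) hq
  have h1 : (q : ℤ) * M * l * q / (q * M * q) = l := by
    rw [show (q : ℤ) * M * l * q = q * M * q * l by ring, Int.mul_ediv_cancel_left _ hN]
  have h2 : (q : ℤ) * M * l / M = q * l := by
    rw [show (q : ℤ) * M * l = M * (q * l) by ring, Int.mul_ediv_cancel_left _ hM]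
  have h3 : -(q : ℤ) * l / q = -l := by
    rw [show -(q : ℤ) * l = q * -l by ring, Int.mul_ediv_cancel_left _ hq]
  have e : ((toGamma0M q M δ : Gamma0 M) : SL(2, ℤ)) = δ := rfl
  have h4 : (q : ℤ) * k / q = k := Int.mul_ediv_cancel_left _ hq
  refine Subtype.ext (Subtype.ext ?_)
  rw [coe_frickeConj]
  show _ = Matrix.of _
  ext i j
  fin_cases i <;> fin_cases j <;>
    simp [down, downSL, coe_frDelta, coe_frickeConj, e, hk, hl, h1, h2, h4] <;>
    first | ring1 | (rw [← neg_mul, h3])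

theorem weyl_mul_uni_mul_weyl_twist (u : (ZMod q)ˣ) (γ : ZMod q) :
    twist u (weyl * uni γ * weyl) = weyl * uni (((u⁻¹ : (ZMod q)ˣ) : ZMod q) * γ) * weyl := by
  ext i j
  fin_cases i <;> fin_cases j <;>
    simp [Matrix.mul_apply, Fin.sum_univ_two, Units.val_inv_eq_inv_val, mul_comm]

theorem twist_uni_weyl_uni_weyl (u : (ZMod q)ˣ) (β γ : ZMod q) :
    twist u (uni β * weyl * uni γ * weyl) =
      uni ((u : ZMod q) * β) * weyl * uni (((u⁻¹ : (ZMod q)ˣ) : ZMod q) * γ) * weyl := by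
  rw [show uni β * weyl * uni γ * (weyl : SL(2, ZMod q)) = uni β * (weyl * uni γ * weyl) by group,
    map_mul, twist_uni, weyl_mul_uni_mul_weyl_twist]
  group

theorem twist_frickeConj (m u : (ZMod q)ˣ) (β γ : ZMod q) :
    twist m⁻¹ ((weyl : SL(2, ZMod q)) * twist u (uni β * weyl * uni γ * weyl) * weyl⁻¹) =
      weyl * uni ((m : ZMod q) * (u : ZMod q) * β) * weyl * uni ((((m * u)⁻¹ : (ZMod q)ˣ) : ZMod q) * γ) := by
  rw [twist_uni_weyl_uni_weyl]
  rw [show (weyl : SL(2, ZMod q)) * (uni ((u : ZMod q) * β) * weyl *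
      uni (((u⁻¹ : (ZMod q)ˣ) : ZMod q) * γ) * weyl) * weyl⁻¹ =
      weyl * uni ((u : ZMod q) * β) * weyl * uni (((u⁻¹ : (ZMod q)ˣ) : ZMod q) * γ) by group,
    map_mul, weyl_mul_uni_mul_weyl_twist, twist_uni, inv_inv, mul_inv, Units.val_mul]
  simp only [mul_assoc]

variable {R : Type*} [CommRing R]

theorem tor_neg_one_smul (hqM : ¬ q ∣ M) (η : Additive (deltaGrp q M) →+ R) :
    (letI := homAction (A := R) hqM; tor (-1 : (ZMod q)ˣ) • η) = η := by
  letI := homAction (A := R) hqM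
  let e : Gamma0 M := ⟨-1, by simp [Gamma0_mem]⟩
  have he : red (q := q) (e : SL(2, ℤ)) = tor (-1 : (ZMod q)ˣ) := by
    ext i j
    rw [red_apply]
    fin_cases i <;> fin_cases j <;> simp [e]
  refine AddMonoidHom.ext fun a => ?_
  obtain ⟨δ, rfl⟩ := Additive.ofMul.surjective a
  rw [homAction_apply hqM he]
  congr 2
  exact Subtype.ext (by simp [conjDelta, e])

/-- **The combination of conjugates is a `lop` of a Weyl translate.** -/
theorem sum_frDelta_conjDelta (hqM : ¬ q ∣ M) (ξ : MulChar (ZMod q) R)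
    (η : Additive (deltaGrp q M) →+ R) (u : (ZMod q)ˣ) (lift : ZMod q → ZMod q → Gamma0 M)
    (hlift : ∀ β γ, red (q := q) (lift β γ : SL(2, ℤ)) = twist u (uni β * weyl * uni γ * weyl))
    (δ : deltaGrp q M) :
    ∑ β : ZMod q, ∑ γ : ZMod q,
      ξ γ * η (Additive.ofMul (frDelta hqM (conjDelta (lift β γ) δ))) =
    ξ ((levelUnit hqM * u : (ZMod q)ˣ) : ZMod q) *
      (letI := homAction (A := R) hqM;
        (weyl : SL(2, ZMod q)) • lop ξ ((weyl : SL(2, ZMod q)) • η))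
        (Additive.ofMul (frDelta hqM δ)) := by
  letI := homAction (A := R) hqM
  haveI := smulCommClass_homAction (A := R) (R := R) hqM
  set v := levelUnit hqM * u with hv
  have hterm : ∀ β γ, η (Additive.ofMul (frDelta hqM (conjDelta (lift β γ) δ))) =
      ((weyl * uni ((v : ZMod q) * β) * weyl * uni (((v⁻¹ : (ZMod q)ˣ) : ZMod q) * γ) : SL(2, ZMod q)) • η)
        (Additive.ofMul (frDelta hqM δ)) := by
    intro β γ
    rw [frDelta_conjDelta, homAction_apply hqM (γ := frickeConj M (lift β γ))]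
    rw [red_frickeConj hqM, hlift, twist_frickeConj, hv, Units.val_mul]
  have hgen : ∀ β γ : ZMod q,
      (weyl : SL(2, ZMod q)) • uni β • weyl • uni γ • weyl • weyl • η =
        (weyl * uni β * weyl * uni γ) • η := fun β γ => by
    rw [← mul_smul (weyl : SL(2, ZMod q)) weyl η, weyl_mul_weyl, tor_neg_one_smul]
    simp only [mul_smul]
    rfl
  simp only [hterm]
  rw [← Equiv.sum_comp (Equiv.mulLeft₀ _ (v⁻¹).ne_zero)]
  simp only [Equiv.mulLeft₀_apply, Units.mul_inv_cancel_left]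
  simp only [lop, sumU, twU, Finset.smul_sum, smul_comm _ (ξ _), AddMonoidHom.finsetSum_apply,
    AddMonoidHom.smul_apply, smul_eq_mul, Finset.mul_sum]
  refine Finset.sum_congr rfl fun β _ => ?_
  rw [← Equiv.sum_comp (Equiv.mulLeft₀ _ v.ne_zero)]
  refine Finset.sum_congr rfl fun γ _ => ?_
  rw [Equiv.mulLeft₀_apply, Units.inv_mul_cancel_left, map_mul, mul_assoc, hgen]

end Cuspidal

end Fermat.Agent.Carayol

end
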