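/-
The character of a twisted class on `Γ(q) ∩ Γ₀(M)`: it is the twist at `q` of the partial twist at
`D / q`, which transforms under the lower triangular group by the square of the local character.
-/
import Fermat.Agent.Carayol.LCharHom
import Fermat.Agent.Ribet.Twisted.TwistInjective

set_option autoImplicit false
set_option linter.unusedSectionVars false

noncomputable section

namespace Fermat.Agent.Carayol

namespace Cuspidal

open CongruenceSubgroup Ribet.Twisted TwistInertia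
open scoped MatrixGroups
open Fermat.Agent.HeckeCohom (gamma0GL gamma0GL_entry dvd_apply_one_zero det_eq_one)

attribute [-simp] ZMod.inv_coe_unit

section Conj

variable (q : ℕ)

/-- Conjugation of an integer matrix by `diag (q, 1)`. -/
def dnMat (X : SL(2, ℤ)) : Matrix (Fin 2) (Fin 2) ℤ :=
  !![X 0 0, X 0 1 / q; X 1 0 * q, X 1 1]

variable {q}

theorem det_dnMat [NeZero q] {X : SL(2, ℤ)} (h : (q : ℤ) ∣ X 0 1) : (dnMat q X).det = 1 := by
  obtain ⟨k, hk⟩ := h
  have hd := det_eq_one X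
  rw [dnMat, Matrix.det_fin_two_of, hk, Int.mul_ediv_cancel_left _ (by exact_mod_cast NeZero.ne q)]
  rw [hk] at hd
  linear_combination hd

theorem dnMat_mul [NeZero q] {X Y : SL(2, ℤ)} (hX : (q : ℤ) ∣ X 0 1) (hY : (q : ℤ) ∣ Y 0 1) :
    dnMat q (X * Y) = dnMat q X * dnMat q Y := by
  obtain ⟨k, hk⟩ := hX
  obtain ⟨l, hl⟩ := hY
  have hq : (q : ℤ) ≠ 0 := by exact_mod_cast (NeZero.ne q)
  have hk' : X 0 1 / q = k := by rw [hk, Int.mul_ediv_cancel_left _ hq]
  have hl' : Y 0 1 / q = l := by rw [hl, Int.mul_ediv_cancel_left _ hq]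
  ext i j
  fin_cases i <;> fin_cases j <;> simp [dnMat, Matrix.mul_apply, Fin.sum_univ_two, hk', hl']
  · rw [hk]; ring
  · rw [hk, hl, show X 0 0 * (q * l) + (q : ℤ) * k * Y 1 1 = q * (X 0 0 * l + k * Y 1 1) by ring,
      Int.mul_ediv_cancel_left _ hq]
  · ring
  · rw [hl]; ring

end Conj

section Split

variable {q D₁ : ℕ} {A : Type*} [CommRing A] (hco : q.Coprime D₁)

/-- The component at `q` of a character modulo `q * D₁`. -/
def psiQ (ψ : DirichletCharacter A (q * D₁)) : DirichletCharacter A q where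
  toFun x := ψ ((ZMod.chineseRemainder hco).symm (x, 1))
  map_one' := by rw [show ((1 : ZMod q), (1 : ZMod D₁)) = 1 from rfl, map_one, map_one]
  map_mul' x y := by
    rw [← map_mul ψ, ← map_mul (ZMod.chineseRemainder hco).symm, Prod.mk_mul_mk, mul_one]
  map_nonunit' x hx := by
    refine ψ.map_nonunit fun h => hx ?_
    have h2 := h.map ((RingHom.fst (ZMod q) (ZMod D₁)).comp (ZMod.chineseRemainder hco).toRingHom)
    simpa using h2

/-- The component at `D₁`, evaluated at `q` times the argument. -/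
def psiRest (ψ : DirichletCharacter A (q * D₁)) (s : ZMod D₁) : A :=
  ψ ((ZMod.chineseRemainder hco).symm (1, (q : ZMod D₁) * s))

theorem psi_eq (ψ : DirichletCharacter A (q * D₁)) (x : ZMod (q * D₁)) :
    ψ x = psiQ hco ψ (ZMod.chineseRemainder hco x).1 *
      ψ ((ZMod.chineseRemainder hco).symm (1, (ZMod.chineseRemainder hco x).2)) := by
  show _ = ψ _ * ψ _
  rw [← map_mul, ← map_mul, Prod.mk_mul_mk, mul_one, one_mul, Prod.mk.eta,
    RingEquiv.symm_apply_apply]

end Split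

variable {q : ℕ} [Fact q.Prime] {L D₁ M : ℕ} [NeZero D₁] [NeZero M]
  {A : Type*} [CommRing A]

/-- `δ ↦ diag (q,1)⁻¹ δ diag (q,1)` into level `L D`. -/
def downN {N : ℕ} (hqM : ¬ q ∣ M) (hN : q * M * q = N) : deltaGrp q M →* Gamma0 N :=
  (Subgroup.inclusion (le_of_eq (congrArg Gamma0 hN))).comp (down q M hqM)

theorem coe_downN {N : ℕ} (hqM : ¬ q ∣ M) (hN : q * M * q = N) (δ : deltaGrp q M) :
    ((downN hqM hN δ : Gamma0 N) : SL(2, ℤ)) = downSL q M δ := rfl

theorem coe_downSL (δ : deltaGrp q M) :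
    (downSL q M δ : Matrix (Fin 2) (Fin 2) ℤ) = dnMat q δ := rfl

theorem dvd_01 (δ : deltaGrp q M) : (q : ℤ) ∣ (δ : SL(2, ℤ)) 0 1 :=
  (ZMod.intCast_zmod_eq_zero_iff_dvd _ _).mp (Gamma_mem.mp δ.2.1).2.1

theorem downSL_11 (δ : deltaGrp q M) :
    ((downSL q M δ 1 1 : ℤ) : ZMod q) = 1 := (Gamma_mem.mp δ.2.1).2.2.2

theorem coe_transl (N : ℕ) (t : ℤ) :
    (((transl N t : Gamma0 N) : SL(2, ℤ)) : Matrix (Fin 2) (Fin 2) ℤ) = !![1, t; 0, 1] := rfl

theorem coprime_of (hq : ¬ q ∣ D₁) : q.Coprime D₁ :=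
  (Fact.out : q.Prime).coprime_iff_not_dvd.2 hq

theorem map_inv_transl {D : ℕ} (hD : D ∣ L) (ψ : DirichletCharacter A D) (t : ℤ) :
    chr hD ψ (transl L t)⁻¹ = 1 := by
  have h : chr hD ψ ((transl L t)⁻¹) * chr hD ψ (transl L t) = 1 := by
    rw [← map_mul, inv_mul_cancel, map_one]
  rwa [chr_transl, mul_one] at h

/-- Cocycles and conjugation. -/
theorem cocycle_conj {Γ : Type*} [Group Γ] {Φ : Γ →* A} (z : cocycles Φ A) {g e : Γ}
    (he : Φ e = 1) : Φ g * (z : Γ → A) (g⁻¹ * e * g) = (z : Γ → A) e := by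
  have h1 := z.2 g (g⁻¹ * e * g)
  have h2 := z.2 e g
  rw [← mul_assoc, ← mul_assoc, mul_inv_cancel, one_mul, h2, he, one_smul, smul_eq_mul] at h1
  linear_combination -h1

section Twist

variable (hqD : ¬ q ∣ D₁) (hD : q * D₁ ∣ L) (ψ : DirichletCharacter A (q * D₁))

/-- The partial twisting system at `D₁`. -/
theorem restOpData :
    OpData (gamma0GL L) (gamma0GL (L * D₁)) (twistBeta D₁) (chr hD ψ)
      (chr (((dvd_mul_right q D₁).trans hD).mul_right D₁) (psiQ (coprime_of hqD) ψ))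
      (psiRest (coprime_of hqD) ψ) where
  inj := Matrix.SpecialLinearGroup.mapGL_injective.comp Subtype.val_injective
  exists_step γ b := by
    obtain ⟨c, hc, -⟩ := twist_step ((dvd_mul_left D₁ q).trans hD) γ b
    exact ⟨c, _, hc⟩
  eq_of_eq c b b' e := twistBeta_eq_of_eq c b b' e
  weight γ c b j e := by
    obtain ⟨c', hc', hd⟩ := twist_step ((dvd_mul_left D₁ q).trans hD) γ b
    have hj := twistBeta_eq_of_eq ((c'⁻¹) * c) _ j (by
      rw [map_mul, map_inv, mul_assoc, ← e, hc', inv_mul_cancel_left])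
    subst hj
    have hcc : c = c' := by
      refine Matrix.SpecialLinearGroup.mapGL_injective.comp Subtype.val_injective
        (mul_right_cancel (e.symm.trans hc'))
    subst hcc
    have hq : (((c : SL(2, ℤ)) 1 1 : ℤ) : ZMod q) = (((γ : SL(2, ℤ)) 1 1 : ℤ) : ZMod q) := by
      have e' := congrArg (fun X : GL (Fin 2) ℝ => (X : Matrix (Fin 2) (Fin 2) ℝ)) e
      have e10 := congrFun (congrFun e' 1) 0
      have e11 := congrFun (congrFun e' 1) 1
      simp [twistBeta, Matrix.mul_apply, Fin.sum_univ_two, gamma0GL_entry, -ZMod.natCast_val]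
        at e10 e11
      set j := (b * (((γ : SL(2, ℤ)) 1 1 : ℤ) : ZMod D₁) ^ 2).val
      have hD₁ : (D₁ : ℝ) ≠ 0 := Nat.cast_ne_zero.2 (NeZero.ne D₁)
      obtain ⟨m, hm⟩ := dvd_apply_one_zero _ γ
      push_cast at hm
      have e11' : (γ : SL(2, ℤ)) 1 1 = (L : ℤ) * m * j + (c : SL(2, ℤ)) 1 1 := by
        rw [← @Int.cast_inj ℝ]
        push_cast
        rw [e11, ← e10, hm]
        push_cast
        field_simp
      rw [e11', Int.cast_add, Int.cast_mul, Int.cast_mul, Int.cast_natCast,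
        (ZMod.natCast_eq_zero_iff L q).2 ((dvd_mul_right q D₁).trans hD), zero_mul, zero_mul,
        zero_add]
    rw [chr_apply, chr_apply, psiRest, psiRest,
      psi_eq (coprime_of hqD) ψ (((c : SL(2, ℤ)) 1 1 : ℤ) : ZMod (q * D₁)), map_intCast,
      Prod.fst_intCast, Prod.snd_intCast, hq, hd, mul_pow, mul_comm (psiQ _ ψ _ ^ 2) _, ← mul_assoc,
      ← map_pow, ← map_mul, ← map_pow, Prod.pow_mk, one_pow, ← map_mul, Prod.mk_mul_mk, mul_one,
      mul_comm, mul_assoc]

variable (hN : q * M * q = L * (q * D₁)) (hqM : ¬ q ∣ M)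

include hN in
theorem mul_dvd_qqM : L * D₁ * q = q * M * q := by rw [hN]; ring

/-- `Γ(q) ∩ Γ₀(M)` inside level `L D₁`. -/
def inclRest : deltaGrp q M →* Gamma0 (L * D₁) :=
  (Subgroup.inclusion (fun γ hγ => by
    rw [Gamma0_mem, ZMod.intCast_zmod_eq_zero_iff_dvd] at hγ ⊢
    refine (Int.natCast_dvd_natCast.2 ?_).trans hγ
    rw [hN]; exact Dvd.intro q (by ring) :
    Gamma0 (q * M * q) ≤ Gamma0 (L * D₁))).comp (down q M hqM)

theorem chr_inclRest (δ : deltaGrp q M) :
    chr (((dvd_mul_right q D₁).trans hD).mul_right D₁) (psiQ (coprime_of hqD) ψ)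
      (inclRest hN hqM δ) = 1 := by
  rw [chr_apply, show ((inclRest hN hqM δ : Gamma0 (L * D₁)) : SL(2, ℤ)) 1 1 = downSL q M δ 1 1
    from rfl, downSL_11, map_one, one_pow]

/-- The partial twist restricted to `Γ(q) ∩ Γ₀(M)`. -/
def restHom (z : cocycles (chr hD ψ) A) : Additive (deltaGrp q M) →+ A :=
  AddMonoidHom.mk'
    (fun δ => ((restOpData hqD hD ψ).opCocycle A z : Gamma0 (L * D₁) → A)
      (inclRest hN hqM (Additive.toMul δ)))
    fun δ ε => by
      rw [toMul_add, map_mul, ((restOpData hqD hD ψ).opCocycle A z).2 _ _,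
        chr_inclRest hqD hD ψ hN hqM, one_smul]

theorem restHom_apply (z : cocycles (chr hD ψ) A) (δ : deltaGrp q M) :
    restHom hqD hD ψ hN hqM z (Additive.ofMul δ) =
      ((restOpData hqD hD ψ).opCocycle A z : Gamma0 (L * D₁) → A) (inclRest hN hqM δ) := rfl

/-- The partial twist transforms by the square of the character at `q`. -/
theorem restHom_conjDelta (z : cocycles (chr hD ψ) A) (γ : Gamma0 M)
    (hγ : (((γ : SL(2, ℤ)) 0 1 : ℤ) : ZMod q) = 0) (δ : deltaGrp q M) :
    psiQ (coprime_of hqD) ψ (((γ : SL(2, ℤ)) 1 1 : ℤ) : ZMod q) ^ 2 *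
        restHom hqD hD ψ hN hqM z (Additive.ofMul (conjDelta γ δ))
      = restHom hqD hD ψ hN hqM z (Additive.ofMul δ) := by
  have hd := (ZMod.intCast_zmod_eq_zero_iff_dvd _ _).mp hγ
  let X : SL(2, ℤ) := ⟨dnMat q γ, det_dnMat hd⟩
  have hmem : X ∈ Gamma0 (L * D₁) := by
    refine Gamma0_mem.mpr ((ZMod.intCast_zmod_eq_zero_iff_dvd _ _).mpr ?_)
    show ((L * D₁ : ℕ) : ℤ) ∣ (γ : SL(2, ℤ)) 1 0 * q
    have hM : ((M * q : ℕ) : ℤ) ∣ (γ : SL(2, ℤ)) 1 0 * q := by
      push_cast
      exact mul_dvd_mul_right ((ZMod.intCast_zmod_eq_zero_iff_dvd _ _).mp (Gamma0_mem.mp γ.2)) _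
    have e : L * D₁ = M * q :=
      Nat.eq_of_mul_eq_mul_right (NeZero.pos q) (by rw [mul_dvd_qqM hN]; ring)
    rwa [e]
  set g : Gamma0 (L * D₁) := ⟨_, hmem⟩ with hg
  have hconj : inclRest hN hqM (conjDelta γ δ) = g⁻¹ * inclRest hN hqM δ * g := by
    rw [mul_assoc, eq_inv_mul_iff_mul_eq]
    refine Subtype.ext (Subtype.ext ?_)
    show dnMat q γ * dnMat q ((conjDelta γ δ : deltaGrp q M) : SL(2, ℤ)) =
      dnMat q δ * dnMat q γ
    rw [← dnMat_mul hd (dvd_01 _), ← dnMat_mul (dvd_01 _) hd]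
    congr 1
    simp [conjDelta, mul_assoc]
  have h := cocycle_conj ((restOpData hqD hD ψ).opCocycle A z) (g := g)
    (chr_inclRest hqD hD ψ hN hqM δ)
  rw [chr_apply] at h
  rw [restHom_apply, restHom_apply, hconj]
  exact h

include hN in
theorem step_twist (b : ZMod (q * D₁)) :
    ∀ (k : ZMod q) (s : ZMod D₁), (ZMod.chineseRemainder (coprime_of hqD)) b =
        (k * (D₁ : ZMod q), (q : ZMod D₁) * s) →
    ∃ t : ℤ, twistBeta (q * D₁) b =
      gamma0GL L (transl L t) * twistBeta D₁ s * transGL ((k.val : ℝ) / q) := by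
  intro k s h
  haveI : NeZero (q * D₁) := ⟨mul_ne_zero (NeZero.ne q) (NeZero.ne D₁)⟩
  obtain ⟨t, ht⟩ : ((q * D₁ : ℕ) : ℤ) ∣ (b.val : ℤ) - k.val * D₁ - q * s.val := by
    rw [← ZMod.intCast_zmod_eq_zero_iff_dvd]
    refine (ZMod.chineseRemainder (coprime_of hqD)).injective ?_
    push_cast
    simp only [map_sub, map_mul, map_natCast, map_zero]
    have hb : ((b.val : ℕ) : ZMod q × ZMod D₁) = ZMod.chineseRemainder (coprime_of hqD) b := by
      rw [← map_natCast (ZMod.chineseRemainder (coprime_of hqD)), ZMod.natCast_zmod_val]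
    rw [hb, h]
    ext <;> simp [ZMod.natCast_self, ZMod.natCast_zmod_val]
  refine ⟨t, gamma0_ext_real (N := L) rfl fun i j => ?_⟩
  have hq : (q : ℝ) ≠ 0 := Nat.cast_ne_zero.2 (NeZero.ne q)
  have hD₁ : (D₁ : ℝ) ≠ 0 := Nat.cast_ne_zero.2 (NeZero.ne D₁)
  have htR := congrArg (Int.cast : ℤ → ℝ) ht
  push_cast at htR
  rw [gamma0GL_transl]
  simp only [Units.val_mul, twistBeta, val_transGL]
  fin_cases i <;> fin_cases j <;>
    simp [Matrix.mul_apply, Fin.sum_univ_two, -ZMod.natCast_val]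
  field_simp
  linear_combination htR

include hN in
theorem transGL_down (δ : deltaGrp q M) (k : ZMod q) :
    transGL ((k.val : ℝ) / q) * gamma0GL (L * (q * D₁)) (downN hqM hN δ) =
      gamma0GL (L * D₁) (inclRest hN hqM (conjDelta (transl M (-(k.val : ℤ))) δ)) *
        transGL ((k.val : ℝ) / q) := by
  set δ' := conjDelta (transl M (-(k.val : ℤ))) δ with hδ'
  have hmul : ((transl M (-(k.val : ℤ)) : Gamma0 M) : SL(2, ℤ)) * (δ' : SL(2, ℤ))
      = (δ : SL(2, ℤ)) * ((transl M (-(k.val : ℤ)) : Gamma0 M) : SL(2, ℤ)) := by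
    simp [hδ', conjDelta, mul_assoc]
  have hm := congrArg (fun X : SL(2, ℤ) => (X : Matrix (Fin 2) (Fin 2) ℤ)) hmul
  simp only [Matrix.SpecialLinearGroup.coe_mul, coe_transl] at hm
  have hm' := fun i j => congrArg (Int.cast : ℤ → ℝ) (congrFun (congrFun hm i) j)
  have h00 := hm' 0 0
  have h01 := hm' 0 1
  have h10 := hm' 1 0
  have h11 := hm' 1 1
  obtain ⟨a, ha⟩ := dvd_01 δ
  obtain ⟨a', ha'⟩ := dvd_01 δ'
  simp [Matrix.mul_apply, Fin.sum_univ_two, ha, ha', -ZMod.natCast_val] at h00 h01 h10 h11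
  have h10R := congrArg (Int.cast : ℤ → ℝ) h10
  have hq : (q : ℝ) ≠ 0 := Nat.cast_ne_zero.2 (NeZero.ne q)
  have hqZ : (q : ℤ) ≠ 0 := by exact_mod_cast (NeZero.ne q)
  have e1 : ∀ (η : deltaGrp q M) (i j : Fin 2),
      ((downN hqM hN η : Gamma0 (L * (q * D₁))) : SL(2, ℤ)) i j = dnMat q η i j :=
    fun _ _ _ => rfl
  have e2 : ∀ (η : deltaGrp q M) (i j : Fin 2),
      ((inclRest hN hqM η : Gamma0 (L * D₁)) : SL(2, ℤ)) i j = dnMat q η i j :=
    fun _ _ _ => rfl
  refine gamma0_ext_real (N := L) rfl fun i j => ?_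
  simp only [Units.val_mul, val_transGL, Matrix.mul_apply, Fin.sum_univ_two, gamma0GL_entry, e1, e2]
  fin_cases i <;> fin_cases j <;>
    simp [dnMat, ha, ha', Int.mul_ediv_cancel_left _ hqZ, -ZMod.natCast_val] <;>
    (try field_simp)
  all_goals first
    | linear_combination h00
    | linear_combination -h11 - (k.val : ℝ) * h10R
    | linear_combination h11 + (k.val : ℝ) * h10R
    | linear_combination -h00 - (k.val : ℝ) * h10R
    | linear_combination -h01 - (k.val : ℝ) * (h00 + h11) - (k.val : ℝ) ^ 2 * h10R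
    | simp [h10]
    | linear_combination h10R
    | linear_combination -h10R
    | linear_combination -h00
    | linear_combination (q : ℝ) * h10
    | linear_combination -(q : ℝ) * h10
    | linear_combination h01
    | linear_combination -h01
    | linear_combination h11
    | linear_combination -h11
    | linear_combination (q : ℝ) * h00
    | linear_combination -(q : ℝ) * h00
    | linear_combination (q : ℝ) * h11
    | linear_combination -(q : ℝ) * h11

/-- The twisted class on `Γ(q) ∩ Γ₀(M)`. -/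
theorem twistMap_downN (z : cocycles (chr hD ψ) A) (δ : deltaGrp q M) :
    twistMap hD ψ A (Coh.mk (chr hD ψ) A z) (Additive.ofMul (downN hqM hN δ)) =
      ∑ k : ZMod q, psiQ (coprime_of hqD) ψ (k * (D₁ : ZMod q)) *
        restHom hqD hD ψ hN hqM z (Additive.ofMul (conjDelta (transl M (-(k.val : ℤ))) δ)) := by
  haveI : NeZero (q * D₁) := ⟨mul_ne_zero (NeZero.ne q) (NeZero.ne D₁)⟩
  let uD : (ZMod q)ˣ := ZMod.unitOfCoprime D₁ (coprime_of hqD).symm
  let uq : (ZMod D₁)ˣ := ZMod.unitOfCoprime q (coprime_of hqD)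
  let e : ZMod q × ZMod D₁ ≃ ZMod (q * D₁) :=
    (Equiv.prodCongr uD.mulRight uq.mulLeft).trans
      (ZMod.chineseRemainder (coprime_of hqD)).symm.toEquiv
  have he : ∀ p, ZMod.chineseRemainder (coprime_of hqD) (e p) =
      (p.1 * (D₁ : ZMod q), (q : ZMod D₁) * p.2) := fun p => by
    simp [e, uD, uq, Prod.map]
  choose t ht using fun p : ZMod q × ZMod D₁ =>
    step_twist hqD hN (e p) p.1 p.2 (he p)
  have hop := restOpData hqD hD ψ
  let η : ZMod q → Gamma0 (L * D₁) := fun k =>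
    inclRest hN hqM (conjDelta (transl M (-(k.val : ℤ))) δ)
  let σ' : ZMod q × ZMod D₁ → ZMod q × ZMod D₁ := fun p => (p.1, hop.perm (η p.1) p.2)
  let c : ZMod q × ZMod D₁ → Gamma0 L := fun p =>
    transl L (t p) * hop.step (η p.1) p.2 * (transl L (t (σ' p)))⁻¹
  have heq : ∀ b : ZMod (q * D₁), twistBeta (q * D₁) b * gamma0GL (L * (q * D₁)) (downN hqM hN δ)
      = gamma0GL L (c (e.symm b)) * twistBeta (q * D₁) (e (σ' (e.symm b))) := by
    intro b
    set p := e.symm b with hp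
    conv_lhs => rw [← e.apply_symm_apply b, ← hp, ht p, mul_assoc, transGL_down hN hqM,
      ← mul_assoc, mul_assoc (gamma0GL L _), hop.spec]
    rw [ht (σ' p)]
    simp only [c, η, σ', map_mul, map_inv, mul_assoc, inv_mul_cancel_left]
  rw [twistMap_mk hD ψ z _ (fun b => c (e.symm b)) (fun b => e (σ' (e.symm b))) heq]
  have hP : ∀ b, (twistOpData hD ψ).perm (downN hqM hN δ) b = e (σ' (e.symm b)) := fun b =>
    (twistOpData hD ψ).perm_eq (heq b)
  have hw : ∀ b, ψ b * chr hD ψ (c (e.symm b)) = ψ (e (σ' (e.symm b))) := fun b => by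
    have h := (twistOpData hD ψ).weight _ _ b _ (heq b)
    rwa [MonoidHom.one_apply, one_mul] at h
  have hz : ∀ p, (z : Gamma0 L → A) (c p) = (z : Gamma0 L → A) (transl L (t p)) +
      (z : Gamma0 L → A) (hop.step (η p.1) p.2) -
        chr hD ψ (c p) * (z : Gamma0 L → A) (transl L (t (σ' p))) := fun p => by
    simp only [c]
    rw [z.2 _ _, z.2 _ _, cocycle_inv z, map_inv_transl hD ψ, map_mul (chr hD ψ), map_mul,
      map_inv_transl hD ψ, chr_transl]
    simp only [one_mul, mul_one, smul_eq_mul, map_mul, chr_transl]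
    ring
  set Z : ZMod (q * D₁) → A := fun b => ψ b * (z : Gamma0 L → A) (transl L (t (e.symm b))) with hZ
  have hsum : ∑ b, Z (e (σ' (e.symm b))) = ∑ b, Z b := by
    simp only [← hP]
    exact (twistOpData hD ψ).sum_perm _ Z
  calc ∑ b, ψ b • (z : Gamma0 L → A) (c (e.symm b))
      = ∑ b, (ψ b * (z : Gamma0 L → A) (hop.step (η (e.symm b).1) (e.symm b).2)) +
          (∑ b, Z b - ∑ b, Z (e (σ' (e.symm b)))) := by
        rw [← Finset.sum_sub_distrib, ← Finset.sum_add_distrib]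
        refine Finset.sum_congr rfl fun b _ => ?_
        simp only [hZ, hz, smul_eq_mul, Equiv.symm_apply_apply, ← hw b]
        ring
    _ = ∑ p : ZMod q × ZMod D₁,
          ψ (e p) * (z : Gamma0 L → A) (hop.step (η p.1) p.2) := by
        rw [hsum, sub_self, add_zero, ← e.sum_comp]
        simp only [Equiv.symm_apply_apply]
    _ = _ := by
        rw [Fintype.sum_prod_type]
        refine Finset.sum_congr rfl fun k _ => ?_
        rw [restHom_apply, hop.opCocycle_apply, Finset.mul_sum]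
        refine Finset.sum_congr rfl fun s _ => ?_
        rw [psi_eq (coprime_of hqD) ψ, he, smul_eq_mul, psiRest, ← mul_assoc]

end Twist

end Cuspidal

end Fermat.Agent.Carayol

end
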