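/-
The twisted class of a system at level `q² M` and the non-vanishing of the character of the
`lop`-combination of the translates of its pullback to `X(q; M')`.
-/
import Fermat.Agent.Carayol.LCharRoot
import Fermat.Agent.Carayol.LCharTwist
import Fermat.Agent.Carayol.LCharFricke
import Fermat.Agent.Ribet.Twisted.Twist
import Fermat.Agent.Ribet.Twisted.TwistInjective
import Fermat.Agent.HeckeCohom.Action
import Fermat.Agent.Torsion.Fricke

set_option autoImplicit false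

noncomputable section

namespace Fermat.Agent.Carayol.TwistVector

open Cuspidal CongruenceSubgroup Ribet.Twisted TwistInertia
open scoped MatrixGroups
open Fermat.Agent.HeckeCohom (heckeHom heckeParEll)

attribute [-simp] ZMod.inv_coe_unit

variable {q : ℕ} [Fact q.Prime]

/-- An integral multiple of a parabolic eigenclass with values in the fraction field. -/
theorem exists_integral {O K : Type*} [CommRing O] [IsDomain O] [Field K] [Algebra O K]
    [IsFractionRing O K] {N N' : ℕ} [NeZero N] (hN : N' = N) (S : Finset ℕ) (a : ℕ → O)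
    (φK : ParHom.parEllHoms (Gamma0 N) K K)
    (heig : ∀ ℓ : Nat.Primes, (ℓ : ℕ) ∉ S →
      heckeHom N K K ℓ (φK : Additive (Gamma0 N) →+ K) = algebraMap O K (a ℓ) • φK.1) :
    ∃ (b : O) (φ : ParHom.parEllHoms (Gamma0 N') O O), b ≠ 0 ∧
      (∀ g : Gamma0 N', algebraMap O K ((φ : Additive (Gamma0 N') →+ O) (Additive.ofMul g)) =
        algebraMap O K b * (φK : Additive (Gamma0 N) →+ K)
          (Additive.ofMul (Subgroup.inclusion (le_of_eq (congrArg Gamma0 hN)) g))) ∧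
      ∀ ℓ : Nat.Primes, (ℓ : ℕ) ∉ S → heckeParEll N' O O ℓ φ = a ℓ • φ := by
  classical
  subst hN
  have hfg : Group.FG (Gamma0 N') := by
    have := ParHom.group_fg_SL2Z
    exact Subgroup.fg_of_index_ne_zero _
  obtain ⟨gens, hgens, hfin⟩ := Group.fg_iff.1 hfg
  obtain ⟨⟨b, hb⟩, hint⟩ := IsLocalization.exist_integer_multiples_of_finset (nonZeroDivisors O)
    (hfin.toFinset.image fun g => (φK : Additive (Gamma0 N') →+ K) (Additive.ofMul g))
  have hall : ∀ g : Gamma0 N', ∃ x : O,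
      algebraMap O K x = algebraMap O K b * φK.1 (Additive.ofMul g) := by
    intro g
    have hg : g ∈ Subgroup.closure gens := by rw [hgens]; trivial
    induction hg using Subgroup.closure_induction with
    | mem g h =>
      obtain ⟨x, hx⟩ := hint _ (Finset.mem_image_of_mem _ (hfin.mem_toFinset.2 h))
      exact ⟨x, hx.trans (Algebra.smul_def b _)⟩
    | one => exact ⟨0, by simp⟩
    | mul g h _ _ hg hh =>
      obtain ⟨x, hx⟩ := hg
      obtain ⟨y, hy⟩ := hh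
      exact ⟨x + y, by rw [map_add, hx, hy, ofMul_mul, map_add, mul_add]⟩
    | inv g _ hg =>
      obtain ⟨x, hx⟩ := hg
      exact ⟨-x, by rw [map_neg, hx, ofMul_inv, map_neg, mul_neg]⟩
  choose f hf using hall
  have hinj := IsFractionRing.injective O K
  let φ : Additive (Gamma0 N') →+ O := AddMonoidHom.mk' (fun g => f (Additive.toMul g)) fun g h =>
    hinj (by
      rw [hf, map_add (algebraMap O K), hf, hf, toMul_add, ofMul_mul, map_add, mul_add])
  have hφ : ∀ g, algebraMap O K (φ (Additive.ofMul g)) =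
      algebraMap O K b * φK.1 (Additive.ofMul g) := fun g => hf g
  have hpar : φ ∈ ParHom.parEllHoms (Gamma0 N') O O := fun γ hγ => hinj (by
    rw [hφ, φK.2 γ hγ, mul_zero, map_zero])
  have hcomp : (algebraMap O K).toAddMonoidHom.comp φ = algebraMap O K b • φK.1 :=
    AddMonoidHom.ext fun g => (hφ (Additive.toMul g)).trans rfl
  refine ⟨b, ⟨φ, hpar⟩, nonZeroDivisors.ne_zero hb, fun g => hφ g, fun ℓ hℓ => Subtype.ext ?_⟩
  refine AddMonoidHom.ext fun g => hinj ?_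
  have h1 : (algebraMap O K).toAddMonoidHom.comp (heckeHom N' O O ℓ φ) =
      heckeHom N' K K ℓ ((algebraMap O K).toAddMonoidHom.comp φ) :=
    HeckeCohom.comp_heckeHom _ ℓ _
  rw [hcomp, map_smul, heig ℓ hℓ, smul_comm, ← hcomp] at h1
  exact (DFunLike.congr_fun h1 g).trans (map_mul (algebraMap O K) _ _).symm

/-- A homomorphism which vanishes on the image of `Γ(q) ∩ Γ₀(M')` is zero. -/
theorem eq_zero_of_comp_down {A : Type*} [CommRing A] [IsDomain A] [CharZero A] {M' N : ℕ}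
    [NeZero M'] (hqM' : ¬ q ∣ M') (hle : Gamma0 (q * M' * q) ≤ Gamma0 N)
    (φ : Additive (Gamma0 N) →+ A)
    (h : ∀ δ : deltaGrp q M',
      φ (Additive.ofMul (Subgroup.inclusion hle (down q M' hqM' δ))) = 0) : φ = 0 := by
  haveI : NeZero (q * M' * q) :=
    ⟨mul_ne_zero (mul_ne_zero (NeZero.ne q) (NeZero.ne M')) (NeZero.ne q)⟩
  let H : Subgroup (Gamma0 N) := (Gamma (q * M' * q)).subgroupOf (Gamma0 N)
  haveI : H.FiniteIndex := inferInstance
  refine AddMonoidHom.ext fun g => ?_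
  obtain ⟨γ, rfl⟩ := Additive.ofMul.surjective g
  obtain ⟨n, hn, -, hmem⟩ := Subgroup.exists_pow_mem_of_index_ne_zero (H := H)
    Subgroup.FiniteIndex.index_ne_zero γ
  set X : SL(2, ℤ) := ((γ ^ n : Gamma0 N) : SL(2, ℤ)) with hX
  obtain ⟨h00, h01, h10, h11⟩ := Gamma_mem.mp (Subgroup.mem_subgroupOf.1 hmem)
  obtain ⟨k, hk⟩ : ((q * M' * q : ℕ) : ℤ) ∣ X 1 0 :=
    (ZMod.intCast_zmod_eq_zero_iff_dvd _ _).mp h10
  push_cast at hk
  have hq : (q : ℤ) ≠ 0 := by exact_mod_cast (NeZero.ne q)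
  let δ₀ : SL(2, ℤ) := ⟨!![X 0 0, X 0 1 * q; q * M' * k, X 1 1], by
    have hd := HeckeCohom.det_eq_one X
    rw [Matrix.det_fin_two_of]
    linear_combination hd + X 0 1 * hk⟩
  have hred : ∀ x : ℤ, (x : ZMod (q * M' * q)) = 1 → (x : ZMod q) = 1 := fun x hx => by
    simpa using congrArg (ZMod.castHom (dvd_mul_left q (q * M')) (ZMod q)) hx
  have hδ : δ₀ ∈ deltaGrp q M' := by
    refine ⟨Gamma_mem.2 ⟨hred _ h00, ?_, ?_, hred _ h11⟩, Gamma0_mem.2 ?_⟩ <;> simp [δ₀]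
  have e : Subgroup.inclusion hle (down q M' hqM' ⟨δ₀, hδ⟩) = γ ^ n := by
    refine Subtype.ext (Subtype.ext ?_)
    show !![X 0 0, X 0 1 * q / q; q * M' * k * q, X 1 1] =
      (X : Matrix (Fin 2) (Fin 2) ℤ)
    ext i j
    fin_cases i <;> fin_cases j <;> simp [Int.mul_ediv_cancel _ hq]
    rw [hk]; ring
  have h' := h ⟨δ₀, hδ⟩
  rw [e, ofMul_pow, map_nsmul, nsmul_eq_mul] at h'
  exact (mul_eq_zero.1 h').resolve_left (Nat.cast_ne_zero.2 hn.ne')

section Char

variable {O K : Type*} [CommRing O] [Field K] [Algebra O K] {D₁ : ℕ} [NeZero D₁]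

theorem psiQ_eq (hco : q.Coprime D₁) (ψ : DirichletCharacter O (q * D₁)) (ξ : MulChar (ZMod q) O)
    (hξ : ∀ d : ℤ, (d : ZMod (q * D₁ / q)) = 1 → (d : ZMod q) ≠ 0 →
      ψ (d : ZMod (q * D₁)) = ξ (d : ZMod q)) (x : ZMod q) :
    psiQ hco (ψ.ringHomComp (algebraMap O K)) x = algebraMap O K (ξ x) := by
  haveI : NeZero (q * D₁) := ⟨mul_ne_zero (NeZero.ne q) (NeZero.ne D₁)⟩
  rcases eq_or_ne x 0 with rfl | hx
  · rw [MulChar.map_zero, MulChar.map_zero, map_zero]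
  · set y := (ZMod.chineseRemainder hco).symm (x, 1) with hy
    obtain ⟨d, hd⟩ : ∃ d : ℤ, (d : ZMod (q * D₁)) = y := ⟨y.val, by simp⟩
    have h2 : ((d : ℤ) : ZMod q × ZMod D₁) = (x, 1) := by
      rw [← map_intCast (ZMod.chineseRemainder hco), hd, hy, RingEquiv.apply_symm_apply]
    have hdq : (d : ZMod q) = x := by simpa using congrArg Prod.fst h2
    have hd1 : (d : ZMod D₁) = 1 := by simpa using congrArg Prod.snd h2
    have key : ∀ n, n = D₁ → (d : ZMod n) = 1 := fun n hn => by subst hn; exact hd1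
    have h := hξ d (key _ (Nat.mul_div_cancel_left D₁ (NeZero.pos q))) (hdq ▸ hx)
    rw [hd, hdq] at h
    show (ψ.ringHomComp (algebraMap O K)) y = _
    rw [MulChar.ringHomComp_apply, h]

theorem exists_sq_ne_one (hco : q.Coprime D₁) {ψ : DirichletCharacter K (q * D₁)}
    (hψ : IsPrimitiveSq ψ) : ∃ a : (ZMod q)ˣ, psiQ hco ψ (a : ZMod q) ^ 2 ≠ 1 := by
  obtain ⟨d, hd, hu, hne⟩ := hψ q Fact.out (dvd_mul_right q D₁)
  have key : ∀ n, n = q * D₁ / q → n = D₁ → (d : ZMod D₁) = 1 := by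
    intro n h1 h2
    subst h2
    rw [h1]
    exact hd
  have hd1 := key _ (Nat.mul_div_cancel_left D₁ (NeZero.pos q)).symm rfl
  have hu' : IsUnit (d : ZMod q) := by
    have := hu.map (ZMod.castHom (dvd_mul_right q D₁) (ZMod q))
    rwa [map_intCast] at this
  refine ⟨hu'.unit, fun h => hne ?_⟩
  rw [psi_eq hco ψ, map_intCast, Prod.fst_intCast, Prod.snd_intCast, hd1,
    show ((1 : ZMod q), (1 : ZMod D₁)) = 1 from rfl, map_one, map_one, mul_one]
  exact h

end Char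

theorem exists_twist_vector {O : Type} [CommRing O] [IsDomain O] [IsDiscreteValuationRing O]
    [CharZero O] [CharZero (FractionRing O)] {L D : ℕ} [NeZero L] (hD : D ∣ L)
    (hsq : Squarefree D) (hcop : Nat.Coprime D (L / D)) (ψ : DirichletCharacter O D)
    (hψ : IsPrimitiveSq (ψ.ringHomComp (algebraMap O (FractionRing O))))
    (S : Finset ℕ) (hLS : ∀ ℓ : ℕ, ℓ.Prime → ℓ ∣ L → ℓ ∈ S) (a : ℕ → O)
    (ha : HasSystem hD (ψ.ringHomComp (algebraMap O (FractionRing O))) S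
      fun ℓ => algebraMap O (FractionRing O) (a ℓ))
    (hne : ∃ ℓ : ℕ, ℓ.Prime ∧ ℓ ∉ S ∧ (ℓ : ZMod (L * D)) = 1 ∧ a ℓ ≠ (ℓ : O) + 1)
    {q : ℕ} [Fact q.Prime] (hqD : q ∣ D) (ξ : MulChar (ZMod q) O)
    (hξ : ∀ d : ℤ, (d : ZMod (D / q)) = 1 → (d : ZMod q) ≠ 0 →
      ψ (d : ZMod D) = ξ (d : ZMod q)) :
    ∃ (M : ℕ) (_ : NeZero M) (hqM : ¬ q ∣ M) (_ : L * D = q * M * q)
      (φ : ParHom.parEllHoms (Gamma0 (q * M * q)) O O) (ξ' : MulChar (ZMod q) O),
      (ξ' = ξ ∨ ξ' = ξ⁻¹) ∧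
      (∀ ℓ : Nat.Primes, (ℓ : ℕ) ∉ S →
        HeckeCohom.heckeParEll (q * M * q) O O ℓ φ = a ℓ • φ) ∧
      ∀ (M' : ℕ) [NeZero M'] (hqM' : ¬ q ∣ M') (hMM' : M ∣ M') (u : (ZMod q)ˣ)
        (lift : ZMod q → ZMod q → Gamma0 M'),
        (∀ β γ, red (q := q) (lift β γ : SL(2, ℤ)) =
          twist u (uni β * weyl * uni γ * weyl)) →
        ∃ δ : deltaGrp q M', ∑ β : ZMod q, ∑ γ : ZMod q, ξ' γ *
          (φ : Additive (Gamma0 (q * M * q)) →+ O) (Additive.ofMul
            (Subgroup.inclusion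
              (show Gamma0 (q * M' * q) ≤ Gamma0 (q * M * q) from fun g hg => by
                rw [Gamma0_mem, ZMod.intCast_zmod_eq_zero_iff_dvd] at hg ⊢
                exact (Int.natCast_dvd_natCast.mpr
                  (mul_dvd_mul_right (mul_dvd_mul_left q hMM') q)).trans hg)
              (Torsion.frickeConj (q * M' * q)
                (down q M' hqM' (conjDelta (lift β γ) δ))))) ≠ 0 := by
  obtain ⟨D₁, rfl⟩ := hqD
  obtain ⟨L₀, rfl⟩ := hD
  have hq : q.Prime := Fact.out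
  haveI : NeZero D₁ := ⟨fun h => NeZero.ne (q * D₁ * L₀) (by simp [h])⟩
  haveI : NeZero L₀ := ⟨fun h => NeZero.ne (q * D₁ * L₀) (by simp [h])⟩
  rw [Nat.mul_div_cancel_left L₀ (Nat.pos_of_ne_zero (mul_ne_zero (NeZero.ne q) (NeZero.ne D₁)))]
    at hcop
  have hqD₁ : ¬ q ∣ D₁ := hq.coprime_iff_not_dvd.1 (Nat.coprime_of_squarefree_mul hsq)
  have hqL₀ : ¬ q ∣ L₀ := hq.coprime_iff_not_dvd.1 (hcop.coprime_dvd_left (dvd_mul_right q D₁))
  set M := D₁ * L₀ * D₁ with hMdef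
  have hqM : ¬ q ∣ M := fun h => by
    rcases hq.dvd_mul.1 h with h | h
    · rcases hq.dvd_mul.1 h with h | h
      · exact hqD₁ h
      · exact hqL₀ h
    · exact hqD₁ h
  haveI : NeZero M := ⟨by simp [hMdef, NeZero.ne D₁, NeZero.ne L₀]⟩
  have hN : q * M * q = q * D₁ * L₀ * (q * D₁) := by rw [hMdef]; ring
  haveI : NeZero (q * D₁) := ⟨mul_ne_zero (NeZero.ne q) (NeZero.ne D₁)⟩
  haveI : NeZero (q * D₁ * L₀ * (q * D₁)) := ⟨mul_ne_zero (NeZero.ne _) (NeZero.ne _)⟩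
  set K := FractionRing O
  set ψK := ψ.ringHomComp (algebraMap O K) with hψK
  have hD' : q * D₁ ∣ q * D₁ * L₀ := dvd_mul_right _ _
  have hinj := IsFractionRing.injective O K
  obtain ⟨x, hx0, hx⟩ := ha
  obtain ⟨z, hz⟩ := Coh.mk_surjective x
  obtain ⟨ℓ₀, hℓ₀, hℓ₀S, hℓ₀1, hℓ₀a⟩ := hne
  have hndvd : ∀ ℓ : ℕ, ℓ.Prime → ℓ ∉ S → ¬ ℓ ∣ q * D₁ * L₀ * (q * D₁) := fun ℓ hℓ hS h => by
    rcases hℓ.dvd_mul.1 h with h | h
    · exact hS (hLS ℓ hℓ h)
    · exact hS (hLS ℓ hℓ (h.trans hD'))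
  have hpar : twistMap hD' ψK K x ∈ ParHom.parEllHoms _ K K := by
    refine twistMap_mem_parEllHoms hD' ψK hℓ₀ hℓ₀1 (hndvd ℓ₀ hℓ₀ hℓ₀S)
      (a := algebraMap O K (a ℓ₀)) ?_ x (hx ℓ₀ hℓ₀ hℓ₀S)
    rw [← map_natCast (algebraMap O K), ← map_one (algebraMap O K), ← map_add]
    exact hinj.ne hℓ₀a
  obtain ⟨b, φ, hb, hφ, heig⟩ := exists_integral hN S a ⟨_, hpar⟩ fun ℓ hℓ => by
    show heckeHom _ K K ℓ (twistMap hD' ψK K x) = _
    rw [← twistMap_heckeT' hD' ψK ℓ (fun h => hndvd ℓ ℓ.2 hℓ (h.mul_left _)) x, hx ℓ ℓ.2 hℓ,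
      map_smul]
  refine ⟨M, inferInstance, hqM, hN.symm, φ, ξ⁻¹, Or.inr rfl, heig, ?_⟩
  intro M' _ hqM' hMM' u lift hlift
  by_contra hall
  push Not at hall
  have hle : Gamma0 (q * M' * q) ≤ Gamma0 (q * M * q) := fun g hg => by
    rw [Gamma0_mem, ZMod.intCast_zmod_eq_zero_iff_dvd] at hg ⊢
    exact (Int.natCast_dvd_natCast.mpr (mul_dvd_mul_right (mul_dvd_mul_left q hMM') q)).trans hg
  have hleM : Gamma0 M' ≤ Gamma0 M := fun g hg => by
    rw [Gamma0_mem, ZMod.intCast_zmod_eq_zero_iff_dvd] at hg ⊢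
    exact (Int.natCast_dvd_natCast.mpr hMM').trans hg
  let ι : deltaGrp q M' →* deltaGrp q M := Subgroup.inclusion (inf_le_inf_left _ hleM)
  set ζ := psiQ (coprime_of hqD₁) ψK with hζ
  have hζξ : ∀ x, ζ x = algebraMap O K (ξ x) := psiQ_eq (coprime_of hqD₁) ψ ξ hξ
  letI := homAction (A := K) hqM'
  let z' : Additive (deltaGrp q M') →+ K :=
    (restHom hqD₁ hD' ψK hN hqM z).comp (MonoidHom.toAdditive ι)
  let η : Additive (deltaGrp q M') →+ K :=
    (algebraMap O K).toAddMonoidHom.comp (φ.1.comp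
      (MonoidHom.toAdditive ((Subgroup.inclusion hle).comp (down q M' hqM'))))
  have hη : η = (algebraMap O K b * ζ (-(D₁ : ZMod q))) • twU ζ z' := by
    refine AddMonoidHom.ext fun a' => ?_
    obtain ⟨δ, rfl⟩ := Additive.ofMul.surjective a'
    have e : Subgroup.inclusion (le_of_eq (congrArg Gamma0 hN))
        (Subgroup.inclusion hle (down q M' hqM' δ)) = downN hqM hN (ι δ) :=
      Subtype.ext (Subtype.ext rfl)
    show algebraMap O K (φ.1 (Additive.ofMul _)) = _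
    rw [hφ]
    show _ * twistMap hD' ψK K x (Additive.ofMul _) = _
    rw [toMul_ofMul, MonoidHom.comp_apply, e, ← hz, twistMap_downN hqD₁ hD' ψK hN hqM z, AddMonoidHom.smul_apply,
      smul_eq_mul, mul_assoc (algebraMap O K b)]
    congr 1
    rw [twU, AddMonoidHom.finsetSum_apply, Finset.mul_sum,
      ← Equiv.sum_comp (Equiv.neg (ZMod q))]
    refine Finset.sum_congr rfl fun k _ => ?_
    rw [Equiv.neg_apply, AddMonoidHom.smul_apply, smul_eq_mul, ← mul_assoc, ← hζ, ← map_mul,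
      homAction_apply hqM' (γ := transl M' (-(((-k : ZMod q).val : ℕ) : ℤ))) (by
        ext i j
        rw [red_apply]
        fin_cases i <;> fin_cases j <;> simp [transl])]
    exact congrArg₂ (· * ·) (congrArg ζ (by ring)) rfl
  have hz' : ∀ γ : Gamma0 M', (((γ : SL(2, ℤ)) 0 1 : ℤ) : ZMod q) = 0 → ∀ δ : deltaGrp q M',
      ζ (((γ : SL(2, ℤ)) 1 1 : ℤ) : ZMod q) ^ 2 * z' (Additive.ofMul (conjDelta γ δ))
        = z' (Additive.ofMul δ) := fun γ h01 δ =>
    restHom_conjDelta hqD₁ hD' ψK hN hqM z (Subgroup.inclusion hleM γ) h01 (ι δ)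
  have hη0 : η ≠ 0 := fun h0 => by
    have h1 := eq_zero_of_comp_down hqM' hle φ.1 fun δ => hinj (by
      rw [map_zero]
      exact DFunLike.congr_fun h0 (Additive.ofMul δ))
    refine hx0 (twistMap_injective hD' hsq (by
      rwa [Nat.mul_div_cancel_left L₀ (NeZero.pos _)]) ψK hψ ?_)
    rw [map_zero]
    refine AddMonoidHom.ext fun g => ?_
    obtain ⟨γ, rfl⟩ := Additive.ofMul.surjective g
    have h2 := hφ (Subgroup.inclusion (le_of_eq (congrArg Gamma0 hN.symm)) γ)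
    rw [h1, AddMonoidHom.zero_apply, map_zero] at h2
    exact (mul_eq_zero.1 h2.symm).resolve_left
      ((map_ne_zero_iff _ hinj).2 hb)
  have hnz := lop_weyl_twist_ne_zero hqM' ζ (exists_sq_ne_one (coprime_of hqD₁) hψ) hz' _ hη hη0
  refine hnz ?_
  refine (smul_eq_zero_iff_eq (weyl : SL(2, ZMod q))).1 (AddMonoidHom.ext fun a' => ?_)
  obtain ⟨y, rfl⟩ := Additive.ofMul.surjective a'
  set δ := frDelta hqM' y
  have hs := sum_frDelta_conjDelta hqM' ζ⁻¹ η u lift hlift δ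
  rw [frDelta_frDelta] at hs
  have hsum : ∑ β : ZMod q, ∑ γ : ZMod q,
      ζ⁻¹ γ * η (Additive.ofMul (frDelta hqM' (conjDelta (lift β γ) δ))) = 0 := by
    rw [← map_zero (algebraMap O K), ← hall δ]
    simp only [map_sum, map_mul]
    refine Finset.sum_congr rfl fun β _ => Finset.sum_congr rfl fun γ _ => ?_
    rw [MulChar.inv_apply', hζξ, ← MulChar.inv_apply', frickeConj_down]
    rfl
  rw [hsum, eq_comm, mul_eq_zero] at hs
  exact hs.resolve_left (((ζ⁻¹).toUnitHom _).ne_zero ∘ fun h => by rwa [MulChar.coe_toUnitHom])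

end Fermat.Agent.Carayol.TwistVector
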