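/-
Stabilisers of places and ramification, for a finite group acting on a function field and the
intermediate fields fixed by its subgroups.
-/
import Fermat.Agent.Carayol.LTwoCompEigen
import Fermat.Agent.Carayol.CuspidalNorm
import Fermat.Agent.Bad.GluingValue

set_option autoImplicit false
set_option linter.style.haveILetI false
set_option linter.unusedSectionVars false

noncomputable section

namespace Fermat.Agent.Carayol.LTwoComp

open AlgebraicCurve Cuspidal Fermat.Agent.Curve

variable {k E : Type} [Field k] [CharZero k] [IsAlgClosed k] [Field E] [Algebra k E]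
  [IsFunctionFieldOne k E]

section Local

variable (u : Place k E)

/-- The value of a function at a fixed place does not change. -/
theorem placeValue_fixed (T : E ≃ₐ[k] E) (hT : SemilinearAut.ofAlgAut T • u = u) {x : E}
    (hx : x ∈ u.toValuationSubring) : Bad.placeValue u (T x) = Bad.placeValue u x := by
  have hord : ∀ y, u.ord (T y) = u.ord y := fun y => by
    have h := SemilinearAut.ord_smul (SemilinearAut.ofAlgAut T) u y
    rwa [hT, SemilinearAut.ofAlgAut_smul] at h
  have hmem : T x ∈ u.toValuationSubring := mem_of_ord_nonneg u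
    (by rw [hord]; exact ord_nonneg_of_mem u hx)
  set c := Bad.placeValue u x
  have h0 : Bad.placeValue u (x - algebraMap k E c) = 0 := by
    rw [Bad.placeValue_sub u hx (u.algebraMap_mem' c), Bad.placeValue_algebraMap, sub_self]
  have hmem' := sub_mem hx (u.algebraMap_mem' c)
  rw [Bad.placeValue_eq_zero_iff u hmem'] at h0
  have h1 : Bad.placeValue u (T x - algebraMap k E c) = 0 := by
    rw [Bad.placeValue_eq_zero_iff u (sub_mem hmem (u.algebraMap_mem' c))]
    rcases h0 with h | h
    · left; rw [← T.commutes c, ← map_sub, h, map_zero]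
    · right; rw [← T.commutes c, ← map_sub, hord]; exact h
  rw [Bad.placeValue_sub u hmem (u.algebraMap_mem' c), Bad.placeValue_algebraMap, sub_eq_zero] at h1
  exact h1

/-- An automorphism of finite order fixing a place and fixing a uniformiser to first order is
trivial. -/
theorem eq_one_of_character (T : E ≃ₐ[k] E) (hT : SemilinearAut.ofAlgAut T • u = u) {m : ℕ}
    (hm : 0 < m) (hTm : T ^ m = 1) {p : E} (hp : u.ord p = 1)
    (hχ : Bad.placeValue u (T p / p) = 1) : T = 1 := by
  have hord : ∀ y, u.ord (T y) = u.ord y := fun y => by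
    have h := SemilinearAut.ord_smul (SemilinearAut.ofAlgAut T) u y
    rwa [hT, SemilinearAut.ofAlgAut_smul] at h
  have hp0 : p ≠ 0 := fun h => by rw [h, Place.ord_zero] at hp; omega
  haveI : NeZero (m : k) := ⟨Nat.cast_ne_zero.2 hm.ne'⟩
  obtain ⟨ζ, hζ⟩ := IsAlgClosed.exists_root (Polynomial.cyclotomic m k)
    (Polynomial.degree_cyclotomic_pos m k hm).ne'
  have hζ' : IsPrimitiveRoot ζ m := Polynomial.isRoot_cyclotomic_iff.1 hζ
  refine AlgEquiv.ext fun f => ?_
  have hz : ∀ c : ℕ, (ζ ^ c) ^ m = 1 := fun c => by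
    rw [← pow_mul, mul_comm, pow_mul, hζ'.pow_eq_one, one_pow]
  rw [AlgEquiv.one_apply, ← sum_proj (d := T) hm (NeZero.ne _) hζ' f, map_sum]
  refine Finset.sum_congr rfl fun c _ => ?_
  have he := proj_mem_eig hTm (hz c) hm f
  set h := proj T m (ζ ^ c) f
  rcases eq_or_ne h 0 with h0 | h0
  · rw [h0, map_zero]
  rw [mem_eig] at he
  set y := h / p ^ u.ord h with hy
  have hy0 : y ≠ 0 := div_ne_zero h0 (zpow_ne_zero _ hp0)
  have hyord : u.ord y = 0 := by
    rw [hy, ord_div u h0 (zpow_ne_zero _ hp0), Place.ord_zpow, hp]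
    ring
  have hymem : y ∈ u.toValuationSubring := mem_of_ord_nonneg u hyord.ge
  have hTp0 : T p / p ≠ 0 := div_ne_zero (by simpa using hp0) hp0
  have hqord : ∀ j : ℤ, u.ord ((T p / p) ^ j) = 0 := fun j => by
    rw [Place.ord_zpow, ord_div u (by simpa using hp0) hp0, hord, sub_self, mul_zero]
  have hqmem : ∀ j : ℤ, (T p / p) ^ j ∈ u.toValuationSubring := fun j =>
    mem_of_ord_nonneg u (hqord j).ge
  have hqval : ∀ j : ℤ, Bad.placeValue u ((T p / p) ^ j) = 1 := by
    have hn : ∀ j : ℕ, Bad.placeValue u ((T p / p) ^ (j : ℤ)) = 1 := fun j => by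
      rw [zpow_natCast, Bad.placeValue_pow u (by simpa using hqmem 1), hχ, one_pow]
    intro j
    obtain ⟨a, rfl | rfl⟩ := j.eq_nat_or_neg
    · exact hn a
    · have h1 := Bad.placeValue_mul u (hqmem (-(a : ℤ))) (hqmem (a : ℤ))
      rw [← zpow_add₀ hTp0, neg_add_cancel, zpow_zero, Bad.placeValue_one, hn, mul_one] at h1
      exact h1.symm
  have hTy : T y = (ζ ^ c) • (y * (T p / p) ^ (-u.ord h)) := by
    rw [hy, map_div₀, he, map_zpow₀, Algebra.smul_def, Algebra.smul_def, zpow_neg, div_zpow,
      inv_div]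
    field_simp
  have hv := placeValue_fixed u T hT hymem
  rw [hTy, Bad.placeValue_smul u _ (mul_mem hymem (hqmem _)),
    Bad.placeValue_mul u hymem (hqmem _), hqval, mul_one] at hv
  have hne : Bad.placeValue u y ≠ 0 :=
    (Bad.placeValue_ne_zero_iff u hymem).2 ⟨hy0, by omega⟩
  rw [mul_eq_right₀ hne] at hv
  rw [he, hv, one_smul]

end Local

/-- A finite extension stays finite over a larger intermediate field. -/
theorem finite_of_le {K L : IntermediateField k E} (h : K ≤ L) [Module.Finite K E] :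
    Module.Finite L E := by
  letI := (IntermediateField.inclusion h).toRingHom.toAlgebra
  haveI : IsScalarTower K L E := IsScalarTower.of_algebraMap_eq fun _ => rfl
  exact Module.Finite.of_restrictScalars_finite K L E

theorem isFunctionFieldOne_of_le {K S : IntermediateField k E} [Module.Finite K E] (h : K ≤ S) :
    IsFunctionFieldOne k S :=
  haveI := finite_of_le h
  IsFunctionFieldOne.of_finite_subextension (F' := E)

variable {G : Type} [Group G] [Finite G] (ρ : G →* (E ≃ₐ[k] E))

theorem fixed_iff_range {H : Subgroup G} {P : IntermediateField k E}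
    (hP : ∀ y, (∀ g ∈ H, ρ g y = y) ↔ y ∈ P) (y : E) :
    (∀ h : H, (ρ.comp H.subtype) h y = y) ↔ y ∈ Set.range P.val := by
  rw [← AlgHom.coe_fieldRange, IntermediateField.fieldRange_val, SetLike.mem_coe, ← hP]
  exact ⟨fun h g hg => h ⟨g, hg⟩, fun h g => h g.1 g.2⟩

theorem base_range {B : IntermediateField k E} (hB : ∀ y, (∀ g, ρ g y = y) ↔ y ∈ B) (y : E) :
    (∀ g, ρ g y = y) ↔ y ∈ Set.range B.val := by
  rw [← AlgHom.coe_fieldRange, IntermediateField.fieldRange_val, SetLike.mem_coe, hB]

theorem resP_fixed_smul {B : IntermediateField k E} [IsFunctionFieldOne k B]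
    (hB : ∀ y, (∀ g, ρ g y = y) ↔ y ∈ B) (g : G) (u : Place k E) :
    resP B.val (SemilinearAut.ofAlgAut (ρ g) • u) = resP B.val u := by
  have h : SemilinearAut.IntertwinesAlong B.val.toRingHom
      (1 : SemilinearAut k B) (SemilinearAut.ofAlgAut (ρ g)) := fun x => by
    rw [one_smul, SemilinearAut.ofAlgAut_smul]
    exact (hB _).2 x.2 g
  have := HeckeJ.restrictAlong_smul (Curve.isIntegral_toRingHom B.val) h u
  rw [one_smul] at this
  exact this

/-- If the smaller field is unramified over the base below `u`, the stabiliser of `u` lies in the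
subgroup. -/
theorem mem_of_index_dvd (H : Subgroup G) {B P : IntermediateField k E} (hBP : B ≤ P)
    [IsFunctionFieldOne k B] [IsFunctionFieldOne k P] (hB : ∀ y, (∀ g, ρ g y = y) ↔ y ∈ B)
    (hP : ∀ y, (∀ g ∈ H, ρ g y = y) ↔ y ∈ P) (hker : ρ.ker ≤ H) (u : Place k E)
    (hunr : ∃ b : B, (resP P.val u).ord (IntermediateField.inclusion hBP b) = 1) {g : G}
    (hg : SemilinearAut.ofAlgAut (ρ g) • u = u) : g ∈ H := by
  classical
  letI := Fintype.ofFinite G
  letI : Fintype H := Fintype.ofFinite H
  obtain ⟨b, hb⟩ := hunr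
  have he : ramI B.val u ∣ ramI P.val u := by
    have h1 := ord_cov B.val u b
    have h2 := ord_cov P.val u (IntermediateField.inclusion hBP b)
    rw [hb, mul_one] at h2
    have e : P.val (IntermediateField.inclusion hBP b) = B.val b := rfl
    rw [e, h1] at h2
    exact Int.natCast_dvd_natCast.1 ⟨_, h2.symm⟩
  have hG := card_filter_smul_eq B.val ρ (base_range ρ hB)
    (Curve.isIntegral_toRingHom B.val) (w := u) (w' := u) rfl
  have hH := card_filter_smul_eq P.val (ρ.comp H.subtype) (fixed_iff_range ρ hP)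
    (Curve.isIntegral_toRingHom P.val) (w := u) (w' := u) rfl
  have hk : Nat.card (ρ.comp H.subtype).ker = Nat.card ρ.ker :=
    Nat.card_congr
      { toFun := fun z => ⟨z.1.1, z.2⟩
        invFun := fun z => ⟨⟨z.1, hker z.2⟩, z.2⟩
        left_inv := fun z => rfl
        right_inv := fun z => rfl }
  set sG := Finset.univ.filter fun g : G => SemilinearAut.ofAlgAut (ρ g) • u = u
  set sH := Finset.univ.filter fun g : H => SemilinearAut.ofAlgAut ((ρ.comp H.subtype) g) • u = u
  have hsub : sH.map ⟨Subtype.val, Subtype.val_injective⟩ ⊆ sG := by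
    intro x hx
    obtain ⟨y, hy, rfl⟩ := Finset.mem_map.1 hx
    exact Finset.mem_filter.2 ⟨Finset.mem_univ _, (Finset.mem_filter.1 hy).2⟩
  have hcard : sG.card ≤ (sH.map ⟨Subtype.val, Subtype.val_injective⟩).card := by
    rw [Finset.card_map, hG, hH, hk]
    exact Nat.mul_le_mul_left _ (Nat.le_of_dvd (ramI_pos P.val u) he)
  have hmem : g ∈ sG := Finset.mem_filter.2 ⟨Finset.mem_univ _, hg⟩
  rw [← Finset.eq_of_subset_of_card_le hsub hcard] at hmem
  obtain ⟨y, -, rfl⟩ := Finset.mem_map.1 hmem
  exact y.2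

/-- If a subgroup has twice as many places of `j`-poles as the base and never a single one over
a place, two of three given translates of such a place agree on its field. -/
theorem exists_mem_of_three (H : Subgroup G) {B P : IntermediateField k E} (hBP : B ≤ P)
    [IsFunctionFieldOne k B] [IsFunctionFieldOne k P] (hB : ∀ y, (∀ g, ρ g y = y) ↔ y ∈ B)
    (hP : ∀ y, (∀ g ∈ H, ρ g y = y) ↔ y ∈ P) (j : B)
    (hcount : {w : Place k P | w.ord (IntermediateField.inclusion hBP j) < 0}.ncard =
      2 * {v : Place k B | v.ord j < 0}.ncard)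
    (hno : ∀ w : Place k E,
      (∀ g, ∃ h ∈ H, SemilinearAut.ofAlgAut (ρ (g * h)) • w = w) → False)
    {u : Place k E} (hu : u.ord (j : E) < 0) (x y z : G) :
    ∃ c, SemilinearAut.ofAlgAut (ρ c) • u = u ∧
      (y * c * x⁻¹ ∈ H ∨ z * c * x⁻¹ ∈ H ∨ z * c * y⁻¹ ∈ H) := by
  classical
  letI : Fintype H := Fintype.ofFinite H
  set ι := IntermediateField.inclusion hBP
  let mv : G → Place k E → Place k E := fun g w => SemilinearAut.ofAlgAut (ρ g) • w
  have mv_mul : ∀ g h w, mv (g * h) w = mv g (mv h w) := fun g h w => by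
    simp only [mv, map_mul, mul_smul]
  have mv_one : ∀ w, mv 1 w = w := fun w => by simp only [mv, map_one, one_smul]
  have hsame : ∀ {g g' : G} {w : Place k E}, resP P.val (mv g w) = resP P.val (mv g' w) →
      ∃ h ∈ H, mv h (mv g' w) = mv g w := by
    intro g g' w h
    obtain ⟨⟨b, hb⟩, he⟩ := exists_smul_eq_of_restrict_eq P.val (ρ.comp H.subtype)
      (fixed_iff_range ρ hP) (Curve.isIntegral_toRingHom P.val) (w := mv g' w) (w' := mv g w) h
    exact ⟨b, hb, he⟩
  have hcomp : ∀ w : Place k E, resP ι (resP P.val w) = resP B.val w := fun w => Place.ext rfl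
  have hsign : ∀ {S : IntermediateField k E} [IsFunctionFieldOne k S] (a : S)
      (w : Place k E), w.ord (a : E) < 0 ↔ (resP S.val w).ord a < 0 := by
    intro S _ a w
    rw [show (a : E) = S.val a from rfl, ord_cov S.val w a]
    have he : (1 : ℤ) ≤ ramI S.val w := by exact_mod_cast ramI_pos S.val w
    constructor
    · intro h
      by_contra hn
      push Not at hn
      have := mul_nonneg (show (0 : ℤ) ≤ ramI S.val w by omega) hn
      omega
    · exact fun h => mul_neg_of_pos_of_neg (by omega) h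
  have hfinP : {w : Place k P | w.ord (ι j) < 0}.Finite :=
    (finite_setOf_ord_ne_zero (K := k) (ι j)).subset fun w hw => ne_of_lt hw
  have hfinB : {v : Place k B | v.ord j < 0}.Finite :=
    (finite_setOf_ord_ne_zero (K := k) j).subset fun w hw => ne_of_lt hw
  rw [Set.ncard_eq_toFinset_card _ hfinP, Set.ncard_eq_toFinset_card _ hfinB] at hcount
  have hpole : ∀ (g : G) (w : Place k E), w.ord (j : E) < 0 →
      resP P.val (mv g w) ∈ hfinP.toFinset.filter fun v => resP ι v = resP B.val w := by
    intro g w hw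
    have hres : resP B.val (mv g w) = resP B.val w := resP_fixed_smul ρ hB g w
    rw [Finset.mem_filter, Set.Finite.mem_toFinset, Set.mem_ofPred_eq, hcomp, hres,
      ← hsign (ι j)]
    refine ⟨?_, rfl⟩
    rwa [show ((ι j : P) : E) = (j : E) from rfl, hsign, hres, ← hsign]
  have hmaps : ∀ w ∈ hfinP.toFinset, resP ι w ∈ hfinB.toFinset := by
    intro w hw
    obtain ⟨w', rfl⟩ := resP_surjective P.val w
    rw [Set.Finite.mem_toFinset, Set.mem_ofPred_eq] at hw ⊢
    rw [hcomp, ← hsign j w']
    exact (hsign (ι j) w').2 hw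
  have hfib := Finset.card_eq_sum_card_fiberwise hmaps
  have htwo : ∀ v ∈ hfinB.toFinset, 2 ≤ (hfinP.toFinset.filter fun w => resP ι w = v).card := by
    intro v hv
    obtain ⟨w₀, rfl⟩ := resP_surjective B.val v
    rw [Set.Finite.mem_toFinset, Set.mem_ofPred_eq, ← hsign j w₀] at hv
    by_contra hlt
    push Not at hlt
    refine hno w₀ fun g => ?_
    have hone : resP P.val (mv g⁻¹ w₀) = resP P.val (mv 1 w₀) :=
      Finset.card_le_one.1 (by omega) _ (hpole g⁻¹ w₀ hv) _ (hpole 1 w₀ hv)
    obtain ⟨h, hh, he⟩ := hsame hone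
    refine ⟨h, hh, ?_⟩
    rw [mv_one] at he
    show mv (g * h) w₀ = w₀
    rw [mv_mul, he, ← mv_mul, mul_inv_cancel, mv_one]
  have hexact : (hfinP.toFinset.filter fun w => resP ι w = resP B.val u).card ≤ 2 := by
    have hv : resP B.val u ∈ hfinB.toFinset := by
      rw [Set.Finite.mem_toFinset, Set.mem_ofPred_eq, ← hsign j u]; exact hu
    by_contra hlt
    push Not at hlt
    have h1 : ∑ v ∈ hfinB.toFinset, 2 <
        ∑ v ∈ hfinB.toFinset, (hfinP.toFinset.filter fun w => resP ι w = v).card :=
      Finset.sum_lt_sum htwo ⟨_, hv, hlt⟩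
    rw [Finset.sum_const, smul_eq_mul, ← hfib, hcount] at h1
    omega
  have hc : ∀ g g', resP P.val (mv g u) = resP P.val (mv g' u) →
      ∃ c, SemilinearAut.ofAlgAut (ρ c) • u = u ∧ g * c * g'⁻¹ ∈ H := by
    intro g g' h
    obtain ⟨b, hb, he⟩ := hsame h
    refine ⟨g⁻¹ * (b * g'), ?_, by simpa [mul_assoc] using hb⟩
    show mv _ u = u
    rw [mv_mul, mv_mul, he, ← mv_mul, inv_mul_cancel, mv_one]
  by_contra hcon
  push Not at hcon
  have hne : ∀ g g', (∀ c, SemilinearAut.ofAlgAut (ρ c) • u = u → g * c * g'⁻¹ ∉ H) →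
      resP P.val (mv g u) ≠ resP P.val (mv g' u) := fun g g' hf h => by
    obtain ⟨c, h1, h2⟩ := hc g g' h
    exact hf c h1 h2
  have h3 : ({resP P.val (mv x u), resP P.val (mv y u), resP P.val (mv z u)} :
      Finset (Place k P)).card = 3 :=
    Finset.card_eq_three.2 ⟨_, _, _, (hne y x fun c h => (hcon c h).1).symm,
      (hne z x fun c h => (hcon c h).2.1).symm, (hne z y fun c h => (hcon c h).2.2).symm, rfl⟩
  have h4 := Finset.card_le_card (Finset.insert_subset (hpole x u hu)
    (Finset.insert_subset (hpole y u hu) (Finset.singleton_subset_iff.2 (hpole z u hu))))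
  omega

/-- If every element of the stabiliser in `H` is trivial up to `U`, the field of `U` is unramified
over that of `H`. -/
theorem exists_ord_eq_one_of_stab (H U : Subgroup G) {P F : IntermediateField k E} (hPF : P ≤ F)
    [IsFunctionFieldOne k P] [IsFunctionFieldOne k F] (hP : ∀ y, (∀ g ∈ H, ρ g y = y) ↔ y ∈ P)
    (hF : ∀ y, (∀ g ∈ U, ρ g y = y) ↔ y ∈ F) (hU : ∀ g ∈ U, ρ g = 1 → g = 1)
    (hdec : ∀ u : Place k E, ∀ g ∈ H, SemilinearAut.ofAlgAut (ρ g) • u = u →
      ∃ z ∈ H, ρ z = 1 ∧ ∃ x ∈ U, g = z * x)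
    (w : Place k F) : ∃ g : P, w.ord (IntermediateField.inclusion hPF g) = 1 := by
  classical
  obtain ⟨u, rfl⟩ := resP_surjective F.val w
  letI : Fintype H := Fintype.ofFinite H
  letI : Fintype U := Fintype.ofFinite U
  have hH := card_filter_smul_eq P.val (ρ.comp H.subtype) (fixed_iff_range ρ hP)
    (Curve.isIntegral_toRingHom P.val) (w := u) (w' := u) rfl
  have hUc := card_filter_smul_eq F.val (ρ.comp U.subtype) (fixed_iff_range ρ hF)
    (Curve.isIntegral_toRingHom F.val) (w := u) (w' := u) rfl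
  have hkU : Nat.card (ρ.comp U.subtype).ker = 1 := by
    rw [Nat.card_eq_one_iff_unique]
    refine ⟨⟨fun a b => ?_⟩, ⟨1⟩⟩
    have key : ∀ z : (ρ.comp U.subtype).ker, (z.1.1 : G) = 1 := fun z => hU _ z.1.2 z.2
    exact Subtype.ext (Subtype.ext ((key a).trans (key b).symm))
  set sH := Finset.univ.filter fun g : H => SemilinearAut.ofAlgAut ((ρ.comp H.subtype) g) • u = u
  set sU := Finset.univ.filter fun g : U => SemilinearAut.ofAlgAut ((ρ.comp U.subtype) g) • u = u
  let K := (ρ.comp H.subtype).ker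
  letI : Fintype K := Fintype.ofFinite _
  have hle : (sH.map ⟨Subtype.val, Subtype.val_injective⟩).card ≤
      Fintype.card K * sU.card := by
    rw [← Finset.card_univ, ← Finset.card_product]
    refine le_trans (Finset.card_le_card (t := (Finset.univ ×ˢ sU).image
      fun p : K × U => (p.1.1.1 : G) * p.2.1) ?_) Finset.card_image_le
    intro g hg
    obtain ⟨g, hgs, rfl⟩ := Finset.mem_map.1 hg
    have hgu := (Finset.mem_filter.1 hgs).2
    obtain ⟨z, hz, hz1, x, hx, e⟩ := hdec u g.1 g.2 hgu
    refine Finset.mem_image.2 ⟨(⟨⟨z, hz⟩, hz1⟩, ⟨x, hx⟩),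
      Finset.mem_product.2 ⟨Finset.mem_univ _, Finset.mem_filter.2 ⟨Finset.mem_univ _, ?_⟩⟩,
      e.symm⟩
    have : ρ g.1 = ρ x := by rw [e, map_mul, hz1, one_mul]
    show SemilinearAut.ofAlgAut (ρ x) • u = u
    rw [← this]
    exact hgu
  rw [Finset.card_map, hH, hUc, hkU, one_mul, ← Nat.card_eq_fintype_card] at hle
  have hram : ramI P.val u ≤ ramI F.val u := Nat.le_of_mul_le_mul_left hle Nat.card_pos
  obtain ⟨g, -, hg⟩ := exists_ord_eq (resP P.val u) 1
  refine ⟨g, ?_⟩
  have h1 := ord_cov P.val u g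
  have h2 := ord_cov F.val u (IntermediateField.inclusion hPF g)
  have e : F.val (IntermediateField.inclusion hPF g) = P.val g := rfl
  rw [hg, mul_one] at h1
  rw [e, h1] at h2
  set o := (resP F.val u).ord (IntermediateField.inclusion hPF g)
  have hP1 : (1 : ℤ) ≤ ramI P.val u := by exact_mod_cast ramI_pos P.val u
  have hF1 : (1 : ℤ) ≤ ramI F.val u := by exact_mod_cast ramI_pos F.val u
  have hle2 : (ramI P.val u : ℤ) ≤ ramI F.val u := by exact_mod_cast hram
  rcases lt_trichotomy o 1 with ho | ho | ho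
  · nlinarith
  · exact ho
  · nlinarith

end Fermat.Agent.Carayol.LTwoComp

end
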