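/-
Several valuations of a function field above the Gauss valuation of `K(x)`, possibly ramified:
if the sum of ramification index times residual degree reaches the degree, then the functions
integral at all of them are the combinations, with coefficients integral for the Gauss valuation,
of finitely many such functions.  In particular no further valuation lies above the Gauss
valuation.
-/
import Fermat.Agent.Carayol.ValuationsDegree
import Mathlib.Algebra.BigOperators.Field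
import Mathlib.LinearAlgebra.FiniteDimensional.Lemmas
import Mathlib.RingTheory.Valuation.Basic

set_option autoImplicit false

noncomputable section

namespace Fermat.Agent.Carayol.MainGauss

open Polynomial IntermediateField

variable {K : Type*} [Field K] {A : ValuationSubring K} {k : Type*} [Field k] (π : A →+* k)

/-- A finite family of polynomials, not all zero, is a constant times an integral family with
nonzero reduction. -/
theorem exists_primitive_family {κ : Type*} [Fintype κ] (p : κ → K[X]) (hp : ∃ s, p s ≠ 0) :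
    ∃ (c : K) (P : κ → A[X]), c ≠ 0 ∧ (∀ s, (P s).map A.subtype = C c⁻¹ * p s) ∧
      ∃ s, (P s).map π ≠ 0 := by
  classical
  obtain ⟨s₀, hs₀⟩ := hp
  obtain ⟨⟨s₁, n₁⟩, h₁, hmax⟩ := (Finset.univ.sigma fun s => (p s).support).exists_max_image
    (fun z : Σ _ : κ, ℕ => A.valuation ((p z.1).coeff z.2))
    ⟨⟨s₀, (p s₀).natDegree⟩, by simp [hs₀]⟩
  simp only [Finset.mem_sigma, Finset.mem_univ, true_and, Polynomial.mem_support_iff] at h₁ hmax
  set c := (p s₁).coeff n₁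
  have hmem : ∀ s n, c⁻¹ * (p s).coeff n ∈ A := by
    intro s n
    rw [← A.valuation_le_one_iff, map_mul, map_inv₀,
      inv_mul_le_one₀ (zero_lt_iff.mpr ((_root_.map_ne_zero _).mpr h₁))]
    rcases eq_or_ne ((p s).coeff n) 0 with h | h
    · simp [h]
    · exact hmax ⟨s, n⟩ h
  have hlift : ∀ s, ∃ P : A[X], P.map A.subtype = C c⁻¹ * p s := fun s => by
    refine (Polynomial.mem_lifts _).mp ?_
    rw [Polynomial.lifts_iff_coeff_lifts]
    intro n
    rw [Polynomial.coeff_C_mul]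
    exact ⟨⟨_, hmem s n⟩, rfl⟩
  choose P hP using hlift
  refine ⟨c, P, h₁, hP, s₁, fun h => ?_⟩
  have h4 : ((P s₁).coeff n₁ : A) = 1 := by
    apply Subtype.ext
    have := congrArg (fun z : K[X] => z.coeff n₁) (hP s₁)
    simpa [c, inv_mul_cancel₀ h₁] using this
  have := congrArg (fun z : k[X] => z.coeff n₁) h
  rw [Polynomial.coeff_map, h4] at this
  simp at this

variable {F : Type*} [Field F] [Algebra K F]

/-- Evaluation at `x` of a polynomial with integral coefficients. -/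
def evI (x : F) : A[X] →+* F :=
  (Polynomial.aeval x : K[X] →ₐ[K] F).toRingHom.comp (Polynomial.mapRingHom A.subtype)

theorem evI_apply (x : F) (P : A[X]) : evI x P = Polynomial.aeval x (P.map A.subtype) := rfl

variable {R : Type*} [Field R] [Algebra k R]
variable {ι : Type*} [Fintype ι] (V : ι → ValuationSubring F) (φ : ∀ i, V i →+* R)

/-- The data above the Gauss valuation of `K(x)`; `p` is a uniformiser of `A`. -/
structure GaussAbove (x : F) (p : K) : Prop where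
  ker : ∀ i, RingHom.ker (φ i) = IsLocalRing.maximalIdeal (V i)
  mem : ∀ (i : ι) (a : A), algebraMap K F a ∈ V i
  compat : ∀ (i : ι) (a : A), φ i ⟨_, mem i a⟩ = algebraMap k R (π a)
  x_mem : ∀ i, x ∈ V i
  x_transc : ∀ i, Transcendental k (φ i ⟨x, x_mem i⟩)
  kerA : RingHom.ker π = IsLocalRing.maximalIdeal A
  p_ne : p ≠ 0
  p_gen : ∀ a : A, π a = 0 → (a : K) / p ∈ A

variable {π V φ} {x : F} {p : K} (h : GaussAbove π V φ x p)
include h

theorem GaussAbove.p_ne' : algebraMap K F p ≠ 0 := (_root_.map_ne_zero _).mpr h.p_ne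

theorem GaussAbove.evI_mem (i : ι) (P : A[X]) :
    ∃ hm : evI x P ∈ V i,
      φ i ⟨_, hm⟩ = Polynomial.aeval (φ i ⟨x, h.x_mem i⟩) (P.map π) :=
  map_aeval_eq π V φ h.mem h.compat i (h.x_mem i) P

theorem GaussAbove.inv_mem_of_ne {i : ι} {f : F} (hf : f ∈ V i) (hne : φ i ⟨f, hf⟩ ≠ 0) :
    f⁻¹ ∈ V i := by
  have hu : IsUnit (⟨f, hf⟩ : V i) := by
    by_contra hu
    exact hne (RingHom.mem_ker.mp (by rw [h.ker i, IsLocalRing.mem_maximalIdeal]; exact hu))
  obtain ⟨u, hu⟩ := hu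
  have h1 : f * (((u⁻¹ : (V i)ˣ) : V i) : F) = 1 := by
    have := congrArg (fun z : V i => (z : F)) u.mul_inv
    rwa [hu] at this
  rw [inv_eq_of_mul_eq_one_right h1]
  exact SetLike.coe_mem _

theorem GaussAbove.evI_res_ne (i : ι) {P : A[X]} (hP : P.map π ≠ 0) :
    ∃ hm : evI x P ∈ V i, φ i ⟨_, hm⟩ ≠ 0 := by
  obtain ⟨hm, hv⟩ := h.evI_mem i P
  exact ⟨hm, fun h0 => h.x_transc i ⟨_, hP, hv ▸ h0⟩⟩

theorem GaussAbove.evI_div_mem (i : ι) {P : A[X]} (hP : P.map π = 0) :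
    evI x P / algebraMap K F p ∈ V i := by
  have hlift : ∃ Q : A[X], Q.map A.subtype = C p⁻¹ * P.map A.subtype := by
    refine (Polynomial.mem_lifts _).mp ?_
    rw [Polynomial.lifts_iff_coeff_lifts]
    intro n
    have h0 : π (P.coeff n) = 0 := by
      rw [← Polynomial.coeff_map, hP, Polynomial.coeff_zero]
    rw [Polynomial.coeff_C_mul, Polynomial.coeff_map]
    exact ⟨⟨_, h.p_gen _ h0⟩, div_eq_inv_mul (P.coeff n : K) p⟩
  obtain ⟨Q, hQ⟩ := hlift
  have e : evI x P / algebraMap K F p = evI x Q := by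
    rw [evI_apply, evI_apply, hQ, map_mul, Polynomial.aeval_C, map_inv₀, div_eq_inv_mul]
  rw [e]
  exact (h.evI_mem i Q).1

/-- The value of an element of `K(x)` is the value of a constant. -/
theorem GaussAbove.exists_const (i : ι) {g : F} (hg : g ∈ K⟮x⟯) (hg0 : g ≠ 0) :
    ∃ c : K, c ≠ 0 ∧ (V i).valuation g = (V i).valuation (algebraMap K F c) := by
  classical
  have key : ∀ r : K[X], Polynomial.aeval x r ≠ 0 → ∃ c : K, c ≠ 0 ∧
      (V i).valuation (Polynomial.aeval x r) = (V i).valuation (algebraMap K F c) := by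
    intro r hr
    obtain ⟨c, P, hc, hP, ⟨⟨⟩, hne⟩⟩ := exists_primitive_family π (fun _ : Unit => r)
      ⟨(), fun (h0 : r = 0) => hr (by rw [h0, map_zero])⟩
    obtain ⟨hm, hu⟩ := h.evI_res_ne i hne
    refine ⟨c, hc, ?_⟩
    have h1 : (V i).valuation (evI x (P ())) = 1 := by
      refine le_antisymm ((V i).valuation_le_one_iff _ |>.mpr hm) ?_
      have h2 := ((V i).valuation_le_one_iff _).mpr (h.inv_mem_of_ne hm hu)
      rw [map_inv₀] at h2
      have hne0 : evI x (P ()) ≠ 0 := fun h0 => hu (by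
        rw [show (⟨evI x (P ()), hm⟩ : V i) = 0 from Subtype.ext h0, map_zero])
      exact (inv_le_one₀ (zero_lt_iff.mpr ((_root_.map_ne_zero _).mpr hne0))).mp h2
    have h3 : Polynomial.aeval x r = algebraMap K F c * evI x (P ()) := by
      rw [evI_apply, hP (), map_mul, Polynomial.aeval_C, map_inv₀, ← mul_assoc,
        mul_inv_cancel₀ ((_root_.map_ne_zero _).mpr hc), one_mul]
    rw [h3, map_mul, h1, mul_one]
  obtain ⟨r, t, rfl⟩ := mem_adjoin_simple_iff (F := K) _ |>.mp hg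
  rw [div_ne_zero_iff] at hg0
  obtain ⟨a, ha, hav⟩ := key r hg0.1
  obtain ⟨b, hb, hbv⟩ := key t hg0.2
  exact ⟨a / b, div_ne_zero ha hb, by rw [map_div₀, map_div₀, map_div₀, hav, hbv]⟩

/-- Some power of a non-unit is divisible by `p`. -/
theorem GaussAbove.exists_pow_div_mem [Module.Finite K⟮x⟯ F] {i : ι} {f : F} (hf : f ∈ V i)
    (h0 : φ i ⟨f, hf⟩ = 0) : ∃ N : ℕ, 0 < N ∧ f ^ N / algebraMap K F p ∈ V i := by
  classical
  rcases eq_or_ne f 0 with rfl | hf0
  · exact ⟨1, one_pos, by simp⟩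
  set v := (V i).valuation
  have hflt : v f < 1 := by
    refine ((V i).valuation_lt_one_iff ⟨f, hf⟩).mp ?_
    rw [← h.ker i]
    exact h0
  set n := Module.finrank K⟮x⟯ F
  have hdep : ¬ LinearIndependent K⟮x⟯ fun j : Fin (n + 1) => f ^ (j : ℕ) := fun hli => by
    have := hli.fintype_card_le_finrank
    simp [n] at this
  rw [Fintype.not_linearIndependent_iff] at hdep
  obtain ⟨g, hg, j₀, hj₀⟩ := hdep
  set s := Finset.univ.filter fun j => g j ≠ 0
  obtain ⟨a, ha, hmax⟩ := s.exists_max_image (fun j => v ((g j : F) * f ^ (j : ℕ)))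
    ⟨j₀, by simp [s, hj₀]⟩
  have hga : (g a : F) ≠ 0 := by simpa [s] using ha
  have hex : ∃ b ∈ s, b ≠ a ∧ v ((g b : F) * f ^ (b : ℕ)) = v ((g a : F) * f ^ (a : ℕ)) := by
    by_contra hcon
    push Not at hcon
    have hlt : v (∑ j ∈ s, (g j : F) * f ^ (j : ℕ)) = v ((g a : F) * f ^ (a : ℕ)) := by
      refine Valuation.map_sum_eq_of_lt v ha fun b hb => ?_
      rw [Finset.mem_sdiff, Finset.mem_singleton] at hb
      exact lt_of_le_of_ne (hmax b hb.1) (hcon b hb.1 hb.2)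
    have hsum : ∑ j ∈ s, (g j : F) * f ^ (j : ℕ) = 0 := by
      have h1 : ∑ j, (g j : F) * f ^ (j : ℕ) = 0 := hg
      rw [← h1]
      refine Finset.sum_subset (Finset.filter_subset _ _) fun j _ hj => ?_
      have : g j = 0 := by simpa [s] using hj
      rw [this]; simp
    rw [hsum, map_zero] at hlt
    exact mul_ne_zero hga (pow_ne_zero _ hf0) ((_root_.map_eq_zero v).mp hlt.symm)
  obtain ⟨b, hb, hne, heq⟩ := hex
  have hgb : (g b : F) ≠ 0 := by simpa [s] using hb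
  have main : ∀ a b : Fin (n + 1), (g a : F) ≠ 0 → (g b : F) ≠ 0 → (a : ℕ) < b →
      v ((g b : F) * f ^ (b : ℕ)) = v ((g a : F) * f ^ (a : ℕ)) →
      ∃ N : ℕ, 0 < N ∧ f ^ N / algebraMap K F p ∈ V i := by
    intro a b hga hgb hab heq
    obtain ⟨ca, hca, hva⟩ := h.exists_const i (g a).2 hga
    obtain ⟨cb, hcb, hvb⟩ := h.exists_const i (g b).2 hgb
    refine ⟨b - a, Nat.sub_pos_of_lt hab, ?_⟩
    have hpow : v (f ^ ((b : ℕ) - a)) = v (algebraMap K F (ca / cb)) := by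
      have hb' : f ^ (b : ℕ) = f ^ ((b : ℕ) - a) * f ^ (a : ℕ) := by
        rw [← pow_add, Nat.sub_add_cancel hab.le]
      rw [hb', ← mul_assoc, map_mul v ((g b : F) * _), map_mul v (g a : F)] at heq
      have h1 := mul_right_cancel₀ ((_root_.map_ne_zero v).mpr (pow_ne_zero _ hf0)) heq
      rw [map_mul, hva, hvb] at h1
      rw [map_div₀, map_div₀, eq_div_iff ((_root_.map_ne_zero v).mpr
        ((_root_.map_ne_zero _).mpr hcb)), mul_comm]
      exact h1
    have hlt : v (algebraMap K F (ca / cb)) < 1 := by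
      rw [← hpow, map_pow]
      exact pow_lt_one₀ zero_le hflt (Nat.sub_pos_of_lt hab).ne'
    have hA : ca / cb ∈ A := by
      by_contra hA
      have hi := (A.mem_or_inv_mem (ca / cb)).resolve_left hA
      have := ((V i).valuation_le_one_iff _).mpr (h.mem i ⟨_, hi⟩)
      simp only [map_inv₀] at this
      exact absurd ((inv_le_one₀ (zero_lt_iff.mpr ((_root_.map_ne_zero _).mpr
        ((_root_.map_ne_zero _).mpr (div_ne_zero hca hcb))))).mp this) (not_le.mpr hlt)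
    have hπ : π ⟨_, hA⟩ = 0 := by
      have h2 : φ i ⟨_, h.mem i ⟨_, hA⟩⟩ = 0 := by
        rw [← RingHom.mem_ker, h.ker i]
        exact ((V i).valuation_lt_one_iff ⟨_, h.mem i ⟨_, hA⟩⟩).mpr hlt
      rw [h.compat i] at h2
      exact (_root_.map_eq_zero _).mp h2
    have h3 := ((V i).valuation_le_one_iff _).mpr (h.mem i ⟨_, h.p_gen _ hπ⟩)
    rw [← (V i).valuation_le_one_iff, map_div₀]
    simp only [map_div₀] at h3 hpow
    rw [hpow]
    exact h3
  rcases lt_or_gt_of_ne (fun h1 : (a : ℕ) = b => hne (Fin.ext h1.symm)) with hlt | hgt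
  · exact main a b hga hgb hlt heq
  · exact main b a hgb hga hgt heq.symm

variable {e : ι → ℕ} {ϖ : ι → F} {σ : ι → Type*} [∀ i, Fintype (σ i)]

/-- A combination divisible by `p` at every valuation has coefficients divisible by `p`. -/
theorem GaussAbove.map_eq_zero_of_div_mem (hϖ : ∀ i, ϖ i ∈ V i) (hϖ0 : ∀ i, φ i ⟨_, hϖ i⟩ = 0)
    (hϖne : ∀ i, ϖ i ≠ 0) (he : ∀ i, algebraMap K F p / ϖ i ^ e i ∈ V i)
    (u : (Σ i, Fin (e i) × σ i) → F) (c : ∀ i, σ i → V i)
    (hu : ∀ i m l, u ⟨i, (m, l)⟩ = ϖ i ^ (m : ℕ) * (c i l : F))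
    (hc : ∀ i, LinearIndependent k⟮φ i ⟨x, h.x_mem i⟩⟯ fun l => φ i (c i l))
    (hoff : ∀ (i : ι) (s : Σ i, Fin (e i) × σ i), s.1 ≠ i → u s / algebraMap K F p ∈ V i)
    (P : (Σ i, Fin (e i) × σ i) → A[X])
    (hz : ∀ i, (∑ s, evI x (P s) * u s) / algebraMap K F p ∈ V i) :
    ∀ s, (P s).map π = 0 := by
  classical
  rintro ⟨i, m₀, l₀⟩
  have hp' := h.p_ne'
  set pF := algebraMap K F p
  have hw : (∑ m : Fin (e i), ∑ l, evI x (P ⟨i, (m, l)⟩) * u ⟨i, (m, l)⟩) / pF ∈ V i := by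
    have hsplit : ∑ m : Fin (e i), ∑ l, evI x (P ⟨i, (m, l)⟩) * u ⟨i, (m, l)⟩ =
        (∑ s, evI x (P s) * u s) -
          ∑ s ∈ Finset.univ.filter (fun s => s.1 ≠ i), evI x (P s) * u s := by
      rw [eq_sub_iff_add_eq, ← Fintype.sum_prod_type' (f := fun m l =>
        evI x (P ⟨i, (m, l)⟩) * u ⟨i, (m, l)⟩)]
      have : (Finset.univ.filter fun s : Σ i, Fin (e i) × σ i => s.1 ≠ i) =
          (Finset.univ.erase i).sigma fun _ => Finset.univ := by
        ext s; simp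
      rw [this, Finset.sum_sigma, Fintype.sum_sigma, ← Finset.add_sum_erase _ _ (Finset.mem_univ i)]
    rw [hsplit, sub_div]
    refine (V i).toSubring.sub_mem (hz i) ?_
    rw [Finset.sum_div]
    refine Subring.sum_mem _ fun s hs => ?_
    rw [mul_div_assoc]
    exact (V i).mul_mem _ _ (h.evI_mem i _).1 (hoff i s (Finset.mem_filter.mp hs).2)
  suffices H : ∀ (n : ℕ) (hn : n < e i) (l : σ i), (P ⟨i, (⟨n, hn⟩, l)⟩).map π = 0 from
    H m₀ m₀.2 l₀
  intro n
  induction n using Nat.strong_induction_on with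
  | _ n ih =>
    intro hn
    -- the part of level `n`
    set S : Fin (e i) → F := fun m => ∑ l, evI x (P ⟨i, (m, l)⟩) * (c i l : F)
    have hS : ∀ m, S m ∈ V i := fun m =>
      Subring.sum_mem (V i).toSubring fun l _ => (V i).mul_mem _ _ (h.evI_mem i _).1 (c i l).2
    have hsum : ∑ m : Fin (e i), ∑ l, evI x (P ⟨i, (m, l)⟩) * u ⟨i, (m, l)⟩ =
        ∑ m : Fin (e i), ϖ i ^ (m : ℕ) * S m := by
      refine Finset.sum_congr rfl fun m _ => ?_
      rw [Finset.mul_sum]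
      refine Finset.sum_congr rfl fun l _ => ?_
      rw [hu]; ring
    rw [hsum] at hw
    -- divide by `ϖ ^ n`
    have hterm : ∀ m : Fin (e i), (m : ℕ) ≠ n →
        ∃ hm : ϖ i ^ (m : ℕ) * S m / ϖ i ^ n ∈ V i, φ i ⟨_, hm⟩ = 0 := by
      intro m hm
      rcases lt_or_gt_of_ne hm with hlt | hgt
      · have hp1 : S m / pF ∈ V i := by
          rw [Finset.sum_div]
          refine Subring.sum_mem (V i).toSubring fun l _ => ?_
          rw [mul_div_right_comm]
          exact (V i).mul_mem _ _ (h.evI_div_mem i (ih m hlt m.2 l)) (c i l).2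
        have e1 : ϖ i ^ (m : ℕ) * S m / ϖ i ^ n =
            (ϖ i * (ϖ i ^ (e i - 1 - n + m))) * (pF / ϖ i ^ e i * (S m / pF)) := by
          have h1 : ϖ i * ϖ i ^ (e i - 1 - n + m) * ϖ i ^ n = ϖ i ^ e i * ϖ i ^ (m : ℕ) := by
            rw [← pow_succ', ← pow_add, ← pow_add]; congr 1; omega
          field_simp [hϖne i, hp']
          linear_combination (-(S m)) * h1
        refine ⟨e1 ▸ (V i).mul_mem _ _ ((V i).mul_mem _ _ (hϖ i) ((V i).toSubring.pow_mem (hϖ i) _))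
          ((V i).mul_mem _ _ (he i) hp1), ?_⟩
        rw [show (⟨ϖ i ^ (m : ℕ) * S m / ϖ i ^ n, _⟩ : V i) =
            ⟨ϖ i, hϖ i⟩ * ⟨ϖ i, hϖ i⟩ ^ (e i - 1 - n + m) * (⟨_, he i⟩ * ⟨_, hp1⟩) from
          Subtype.ext (by simpa using e1), map_mul, map_mul, hϖ0, zero_mul, zero_mul]
      · have e1 : ϖ i ^ (m : ℕ) * S m / ϖ i ^ n = ϖ i * ϖ i ^ ((m : ℕ) - n - 1) * S m := by
          rw [div_eq_iff (pow_ne_zero _ (hϖne i))]
          rw [mul_right_comm _ (S m), ← pow_succ', ← pow_add]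
          congr 2; omega
        refine ⟨e1 ▸ (V i).mul_mem _ _ ((V i).mul_mem _ _ (hϖ i) ((V i).toSubring.pow_mem (hϖ i) _))
          (hS m), ?_⟩
        rw [show (⟨ϖ i ^ (m : ℕ) * S m / ϖ i ^ n, _⟩ : V i) =
            ⟨ϖ i, hϖ i⟩ * ⟨ϖ i, hϖ i⟩ ^ ((m : ℕ) - n - 1) * ⟨_, hS m⟩ from
          Subtype.ext (by simpa using e1), map_mul, map_mul, hϖ0, zero_mul, zero_mul]
    choose hm hm0 using hterm
    -- the whole sum divided by `ϖ ^ n` reduces to zero
    have hle : 0 < e i - n := Nat.sub_pos_of_lt hn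
    have e2 : (∑ m : Fin (e i), ϖ i ^ (m : ℕ) * S m) / ϖ i ^ n = ϖ i * ϖ i ^ (e i - n - 1) *
        (pF / ϖ i ^ e i * ((∑ m : Fin (e i), ϖ i ^ (m : ℕ) * S m) / pF)) := by
      have h1 : ϖ i * ϖ i ^ (e i - n - 1) * ϖ i ^ n = ϖ i ^ e i := by
        rw [← pow_succ', ← pow_add]; congr 1; omega
      generalize (∑ m : Fin (e i), ϖ i ^ (m : ℕ) * S m) = T
      field_simp [hϖne i, hp']
      linear_combination (-T) * h1
    have e3 : S ⟨n, hn⟩ = (∑ m : Fin (e i), ϖ i ^ (m : ℕ) * S m) / ϖ i ^ n -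
        ∑ m ∈ Finset.univ.erase (⟨n, hn⟩ : Fin (e i)), ϖ i ^ (m : ℕ) * S m / ϖ i ^ n := by
      rw [← Finset.add_sum_erase _ _ (Finset.mem_univ (⟨n, hn⟩ : Fin (e i))), add_div,
        Finset.sum_div, add_sub_cancel_right, mul_div_cancel_left₀ _ (pow_ne_zero _ (hϖne i))]
    have hne : ∀ m ∈ Finset.univ.erase (⟨n, hn⟩ : Fin (e i)), (m : ℕ) ≠ n := fun m hm h1 =>
      (Finset.mem_erase.mp hm).1 (Fin.ext h1)
    let T : V i := ⟨_, hw⟩
    have e4 : (⟨S ⟨n, hn⟩, hS _⟩ : V i) =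
        ⟨ϖ i, hϖ i⟩ * ⟨ϖ i, hϖ i⟩ ^ (e i - n - 1) * (⟨_, he i⟩ * T) -
          ∑ m ∈ (Finset.univ.erase (⟨n, hn⟩ : Fin (e i))).attach,
            ⟨_, hm m.1 (hne m.1 m.2)⟩ := by
      apply Subtype.ext
      push_cast
      rw [e3, e2, Finset.sum_attach _ (fun m : Fin (e i) => ϖ i ^ (m : ℕ) * S m / ϖ i ^ n)]
    have h0 : φ i ⟨S ⟨n, hn⟩, hS _⟩ = 0 := by
      rw [e4, map_sub, map_mul, map_mul, hϖ0, zero_mul, zero_mul, map_sum, zero_sub, neg_eq_zero]
      exact Finset.sum_eq_zero fun m _ => hm0 m.1 (hne m.1 m.2)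
    choose hP hPv using fun l => h.evI_mem i (P ⟨i, (⟨n, hn⟩, l)⟩)
    have h5 : ∑ l, φ i ⟨_, hP l⟩ * φ i (c i l) = 0 := by
      simp only [← map_mul]
      rw [← map_sum, ← h0]
      congr 1
      apply Subtype.ext
      simp [S]
    intro l
    have h6 := Fintype.linearIndependent_iff.mp (hc i)
      (fun l => ⟨Polynomial.aeval (φ i ⟨x, h.x_mem i⟩) ((P ⟨i, (⟨n, hn⟩, l)⟩).map π),
        algebra_adjoin_le_adjoin _ _ (Polynomial.aeval_mem_adjoin_singleton _ _)⟩)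
      (by simpa [hPv, IntermediateField.smul_def] using h5) l
    have h7 : Polynomial.aeval (φ i ⟨x, h.x_mem i⟩) ((P ⟨i, (⟨n, hn⟩, l)⟩).map π) = 0 :=
      congrArg Subtype.val h6
    by_contra h8
    exact h.x_transc i ⟨_, h8, h7⟩

/-- Functions satisfying the hypotheses of `GaussAbove.map_eq_zero_of_div_mem`. -/
theorem GaussAbove.exists_family [Module.Finite K⟮x⟯ F]
    (hinc : ∀ i j, i ≠ j → ∃ f, f ∈ V i ∧ f ∉ V j) (hϖ : ∀ i, ϖ i ∈ V i) (w : ∀ i, σ i → V i)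
    (hw : ∀ i, LinearIndependent k⟮φ i ⟨x, h.x_mem i⟩⟯ fun l => φ i (w i l)) :
    ∃ (u : (Σ i, Fin (e i) × σ i) → F) (c : ∀ i, σ i → V i),
      (∀ s i, u s ∈ V i) ∧ (∀ i m l, u ⟨i, (m, l)⟩ = ϖ i ^ (m : ℕ) * (c i l : F)) ∧
      (∀ i, LinearIndependent k⟮φ i ⟨x, h.x_mem i⟩⟯ fun l => φ i (c i l)) ∧
      ∀ (i : ι) (s : Σ i, Fin (e i) × σ i), s.1 ≠ i → u s / algebraMap K F p ∈ V i := by
  classical
  choose ε hε using exists_separator V φ h.ker hinc
  -- a high power of the separators is divisible by `p` away from its place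
  have hN : ∀ i j, ∃ N : ℕ, j ≠ i → ε i ^ N / algebraMap K F p ∈ V j := fun i j => by
    by_cases hji : j = i
    · exact ⟨0, fun h' => absurd hji h'⟩
    · obtain ⟨N, -, hN⟩ := h.exists_pow_div_mem (hε i j).1 ((hε i j).2.2 hji)
      exact ⟨N, fun _ => hN⟩
  choose N hN using hN
  set M : ι → ℕ := fun i => ∑ j, N i j
  have hεdiv : ∀ i j, j ≠ i → ε i ^ M i / algebraMap K F p ∈ V j := fun i j hji => by
    have hle : N i j ≤ M i := Finset.single_le_sum (fun a _ => Nat.zero_le (N i a)) (Finset.mem_univ j)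
    rw [show M i = (M i - N i j) + N i j from (Nat.sub_add_cancel hle).symm, pow_add, mul_div_assoc]
    exact (V j).mul_mem _ _ ((V j).toSubring.pow_mem (hε i j).1 _) (hN i j hji)
  -- a multiplier making the residual lifts and the uniformisers integral everywhere
  have hz : ∀ i, ∃ z : F, ∀ j, ∃ hz : z ∈ V j, (j = i → φ j ⟨z, hz⟩ ≠ 0) ∧
      ϖ i * z ∈ V j ∧ ∀ l, (w i l : F) * z ∈ V j := by
    intro i
    set s : Finset F := insert (ϖ i) (Finset.univ.image fun l => (w i l : F))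
    obtain ⟨y, hy⟩ := exists_multiplier V φ h.ker s
    refine ⟨∏ f ∈ s, y f, fun j => ?_⟩
    have hmem : ∀ f ∈ s, y f ∈ V j := fun f hf => (hy f hf j).1
    have hmul : ∀ f ∈ s, f * ∏ g ∈ s, y g ∈ V j := fun f hf => by
      rw [← Finset.mul_prod_erase _ _ hf, ← mul_assoc]
      exact (V j).mul_mem _ _ (hy f hf j).2.2.2
        (Subring.prod_mem (V j).toSubring fun a ha => hmem a (Finset.mem_of_mem_erase ha))
    refine ⟨Subring.prod_mem (V j).toSubring hmem, ?_, hmul _ (Finset.mem_insert_self _ _),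
      fun l => hmul _ (Finset.mem_insert_of_mem (Finset.mem_image_of_mem _ (Finset.mem_univ l)))⟩
    rintro rfl
    have hs : ∀ f ∈ s, f ∈ V j := by
      intro f hf
      rcases Finset.mem_insert.mp hf with rfl | hf
      · exact hϖ j
      · obtain ⟨l, -, rfl⟩ := Finset.mem_image.mp hf
        exact (w j l).2
    rw [show (⟨∏ f ∈ s, y f, _⟩ : V j) = ∏ f ∈ s.attach, (⟨y f.1, hmem f.1 f.2⟩ : V j) from
      Subtype.ext (by rw [SubmonoidClass.coe_finsetProd, Finset.prod_attach s y]), map_prod]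
    exact Finset.prod_ne_zero_iff.mpr fun f _ => (hy f.1 f.2 j).2.1 (hs f.1 f.2)
  choose z hz using hz
  let η : ι → F := fun i => ε i ^ M i * z i ^ (e i + 1)
  have hηw : ∀ i j l (m : ℕ), m ≤ e i →
      ϖ i ^ m * (ε i ^ M i * z i ^ (e i + 1) * (w i l : F)) =
        ε i ^ M i * ((ϖ i * z i) ^ m * ((w i l : F) * z i) * z i ^ (e i - m)) ∧
      (ϖ i * z i) ^ m * ((w i l : F) * z i) * z i ^ (e i - m) ∈ V j := fun i j l m hm =>
    ⟨by
      rw [show z i ^ (e i + 1) = z i ^ m * z i * z i ^ (e i - m) by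
        rw [← pow_succ, ← pow_add]; congr 1; omega, mul_pow]
      ring,
    (V j).mul_mem _ _ ((V j).mul_mem _ _ ((V j).toSubring.pow_mem (hz i j).2.2.1 _)
      ((hz i j).2.2.2 l)) ((V j).toSubring.pow_mem (hz i j).1 _)⟩
  let c : ∀ i, σ i → V i := fun i l => ⟨η i * (w i l : F),
    (V i).mul_mem _ _ ((V i).mul_mem _ _ ((V i).toSubring.pow_mem (hε i i).1 _)
      ((V i).toSubring.pow_mem (hz i i).1 _)) (w i l).2⟩
  refine ⟨fun s => ϖ s.1 ^ (s.2.1 : ℕ) * (c s.1 s.2.2 : F), c, fun s j => ?_, fun _ _ _ => rfl,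
    fun i => ?_, ?_⟩
  · obtain ⟨h1, h2⟩ := hηw s.1 j s.2.2 s.2.1 s.2.1.2.le
    show ϖ s.1 ^ (s.2.1 : ℕ) * (η s.1 * (w s.1 s.2.2 : F)) ∈ V j
    rw [h1]
    exact (V j).mul_mem _ _ ((V j).toSubring.pow_mem (hε s.1 j).1 _) h2
  · have hne : φ i ⟨ε i, (hε i i).1⟩ ^ M i * φ i ⟨z i, (hz i i).1⟩ ^ (e i + 1) ≠ 0 :=
      mul_ne_zero (pow_ne_zero _ ((hε i i).2.1 rfl)) (pow_ne_zero _ ((hz i i).2.1 rfl))
    have heq : ∀ l : σ i, φ i (c i l) =
        φ i ⟨ε i, (hε i i).1⟩ ^ M i * φ i ⟨z i, (hz i i).1⟩ ^ (e i + 1) * φ i (w i l) := by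
      intro l
      rw [← map_pow, ← map_pow, ← map_mul, ← map_mul]
      rfl
    simp only [heq]
    exact (hw i).map' (LinearMap.mulLeft k⟮φ i ⟨x, h.x_mem i⟩⟯
      (φ i ⟨ε i, (hε i i).1⟩ ^ M i * φ i ⟨z i, (hz i i).1⟩ ^ (e i + 1)))
      (LinearMap.ker_eq_bot.mpr (mul_right_injective₀ hne))
  · rintro j ⟨i, m, l⟩ hij
    obtain ⟨h1, h2⟩ := hηw i j l m m.2.le
    show ϖ i ^ (m : ℕ) * (η i * (w i l : F)) / algebraMap K F p ∈ V j
    rw [h1, mul_div_right_comm]
    exact (V j).mul_mem _ _ (hεdiv i j (Ne.symm hij)) h2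

theorem GaussAbove.linearIndependent_ramified (hϖ : ∀ i, ϖ i ∈ V i) (hϖ0 : ∀ i, φ i ⟨_, hϖ i⟩ = 0)
    (hϖne : ∀ i, ϖ i ≠ 0) (he : ∀ i, algebraMap K F p / ϖ i ^ e i ∈ V i)
    (u : (Σ i, Fin (e i) × σ i) → F) (c : ∀ i, σ i → V i)
    (hu : ∀ i m l, u ⟨i, (m, l)⟩ = ϖ i ^ (m : ℕ) * (c i l : F))
    (hc : ∀ i, LinearIndependent k⟮φ i ⟨x, h.x_mem i⟩⟯ fun l => φ i (c i l))
    (hoff : ∀ (i : ι) (s : Σ i, Fin (e i) × σ i), s.1 ≠ i → u s / algebraMap K F p ∈ V i) :
    LinearIndependent K⟮x⟯ u := by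
  classical
  rw [Fintype.linearIndependent_iff]
  intro g hg
  have hrs : ∀ s, ∃ r t : K[X], (g s : F) = Polynomial.aeval x r / Polynomial.aeval x t ∧
      Polynomial.aeval x t ≠ 0 := by
    intro s
    obtain ⟨r, t, h⟩ := mem_adjoin_simple_iff (F := K) _ |>.mp (g s).2
    rcases eq_or_ne (Polynomial.aeval x t) 0 with h0 | h0
    · exact ⟨0, 1, by rw [h, h0]; simp, by simp⟩
    · exact ⟨r, t, h, h0⟩
  choose r t hg' ht using hrs
  set q : (Σ i, Fin (e i) × σ i) → K[X] := fun s => r s * ∏ s' ∈ Finset.univ.erase s, t s' with hq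
  have hq0 : ∑ s, Polynomial.aeval x (q s) * u s = 0 := by
    have hT : ∀ s, Polynomial.aeval x (q s) = (g s : F) * Polynomial.aeval x (∏ s', t s') := by
      intro s
      rw [hq, ← Finset.mul_prod_erase _ t (Finset.mem_univ s), map_mul, map_mul, hg', ← mul_assoc,
        div_mul_cancel₀ _ (ht s)]
    have h1 : ∑ s, (g s : F) * u s = 0 := hg
    rw [Finset.sum_congr rfl fun s _ => by rw [hT, mul_right_comm], ← Finset.sum_mul, h1, zero_mul]
  suffices hall : ∀ s, q s = 0 by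
    intro s
    have := hall s
    simp only [hq, mul_eq_zero, Finset.prod_eq_zero_iff] at this
    rcases this with h1 | ⟨s', _, h1⟩
    · exact Subtype.ext (by rw [hg', h1]; simp)
    · exact absurd (by rw [h1]; simp) (ht s')
  by_contra hne
  push Not at hne
  obtain ⟨c', P, -, hP, s₁, hs₁⟩ := exists_primitive_family π q hne
  refine hs₁ (h.map_eq_zero_of_div_mem hϖ hϖ0 hϖne he u c hu hc hoff P (fun i => ?_) s₁)
  have : ∑ s, evI x (P s) * u s = 0 := by
    simp only [evI_apply, hP, map_mul, Polynomial.aeval_C, mul_assoc, ← Finset.mul_sum, hq0,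
      mul_zero]
  rw [this, zero_div]
  exact (V i).zero_mem

/-- The sum of ramification index times residual degree is at most the degree. -/
theorem GaussAbove.sum_mul_le_finrank [Module.Finite K⟮x⟯ F]
    (hinc : ∀ i j, i ≠ j → ∃ f, f ∈ V i ∧ f ∉ V j) (hϖ : ∀ i, ϖ i ∈ V i)
    (hϖ0 : ∀ i, φ i ⟨_, hϖ i⟩ = 0) (hϖne : ∀ i, ϖ i ≠ 0)
    (he : ∀ i, algebraMap K F p / ϖ i ^ e i ∈ V i) (w : ∀ i, σ i → V i)
    (hw : ∀ i, LinearIndependent k⟮φ i ⟨x, h.x_mem i⟩⟯ fun l => φ i (w i l)) :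
    ∑ i, e i * Fintype.card (σ i) ≤ Module.finrank K⟮x⟯ F := by
  obtain ⟨u, c, -, h2, h3, h4⟩ := h.exists_family (e := e) hinc hϖ w hw
  simpa using (h.linearIndependent_ramified hϖ hϖ0 hϖne he u c h2 h3 h4).fintype_card_le_finrank

/-- If the degree is reached, the functions integral at every place are spanned by the family
with coefficients integral for the Gauss valuation. -/
theorem GaussAbove.exists_integral_family [Module.Finite K⟮x⟯ F]
    (hinc : ∀ i j, i ≠ j → ∃ f, f ∈ V i ∧ f ∉ V j) (hϖ : ∀ i, ϖ i ∈ V i)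
    (hϖ0 : ∀ i, φ i ⟨_, hϖ i⟩ = 0) (hϖne : ∀ i, ϖ i ≠ 0)
    (he : ∀ i, algebraMap K F p / ϖ i ^ e i ∈ V i) (w : ∀ i, σ i → V i)
    (hw : ∀ i, LinearIndependent k⟮φ i ⟨x, h.x_mem i⟩⟯ fun l => φ i (w i l))
    (hn : Module.finrank K⟮x⟯ F ≤ ∑ i, e i * Fintype.card (σ i)) :
    ∃ (u : (Σ i, Fin (e i) × σ i) → F) (c : ∀ i, σ i → V i),
      (∀ s i, u s ∈ V i) ∧ (∀ i m l, u ⟨i, (m, l)⟩ = ϖ i ^ (m : ℕ) * (c i l : F)) ∧
      (∀ i, LinearIndependent k⟮φ i ⟨x, h.x_mem i⟩⟯ fun l => φ i (c i l)) ∧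
      (∀ (i : ι) (s : Σ i, Fin (e i) × σ i), s.1 ≠ i → u s / algebraMap K F p ∈ V i) ∧
      ∀ f : F, (∀ i, f ∈ V i) → ∃ (t : A[X]) (P : (Σ i, Fin (e i) × σ i) → A[X]),
        t.map π ≠ 0 ∧ evI x t * f = ∑ s, evI x (P s) * u s := by
  classical
  obtain ⟨u, c, h1, h2, h3, h4⟩ := h.exists_family (e := e) hinc hϖ w hw
  have hli := h.linearIndependent_ramified hϖ hϖ0 hϖne he u c h2 h3 h4
  have hspan : Submodule.span K⟮x⟯ (Set.range u) = ⊤ := by
    have hcard : Fintype.card (Σ i, Fin (e i) × σ i) = Module.finrank K⟮x⟯ F := by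
      have := hli.fintype_card_le_finrank
      simp only [Fintype.card_sigma, Fintype.card_prod, Fintype.card_fin] at this ⊢
      omega
    exact LinearIndependent.span_eq_top_of_card_eq_finrank' hli hcard
  refine ⟨u, c, h1, h2, h3, h4, fun f hf => ?_⟩
  obtain ⟨g, hg⟩ := (Submodule.mem_span_range_iff_exists_fun _).mp
    (show f ∈ Submodule.span K⟮x⟯ (Set.range u) by rw [hspan]; exact Submodule.mem_top)
  have hrs : ∀ s, ∃ r t : K[X], (g s : F) = Polynomial.aeval x r / Polynomial.aeval x t ∧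
      Polynomial.aeval x t ≠ 0 := by
    intro s
    obtain ⟨r, t, h⟩ := mem_adjoin_simple_iff (F := K) _ |>.mp (g s).2
    rcases eq_or_ne (Polynomial.aeval x t) 0 with h0 | h0
    · exact ⟨0, 1, by rw [h, h0]; simp, by simp⟩
    · exact ⟨r, t, h, h0⟩
  choose r t hg' ht using hrs
  set q : (Σ i, Fin (e i) × σ i) → K[X] := fun s => r s * ∏ s' ∈ Finset.univ.erase s, t s' with hq
  set T : K[X] := ∏ s', t s'
  have hT0 : Polynomial.aeval x T ≠ 0 := by
    rw [map_prod]; exact Finset.prod_ne_zero_iff.mpr fun s _ => ht s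
  have hTf : Polynomial.aeval x T * f = ∑ s, Polynomial.aeval x (q s) * u s := by
    rw [← hg, Finset.mul_sum]
    refine Finset.sum_congr rfl fun s _ => ?_
    rw [hq, IntermediateField.smul_def, smul_eq_mul, hg', map_mul,
      show T = t s * ∏ s' ∈ Finset.univ.erase s, t s' from
        (Finset.mul_prod_erase _ t (Finset.mem_univ s)).symm, map_mul]
    have := ht s
    field_simp
  -- normalise the denominator
  obtain ⟨cT, PT, hcT, hPT, ⟨⟨⟩, hPTne⟩⟩ := exists_primitive_family π (fun _ : Unit => T)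
    ⟨(), fun (h0 : T = 0) => hT0 (by rw [h0, map_zero])⟩
  set q' : (Σ i, Fin (e i) × σ i) → K[X] := fun s => C cT⁻¹ * q s
  have hTf' : evI x (PT ()) * f = ∑ s, Polynomial.aeval x (q' s) * u s := by
    simp only [evI_apply, hPT, q', map_mul, Polynomial.aeval_C, mul_assoc, ← Finset.mul_sum, hTf]
  rcases forall_or_exists_not (fun s => q' s = 0) with hz | hnz
  · refine ⟨PT (), fun _ => 0, hPTne, ?_⟩
    rw [hTf']
    simp [hz]
  obtain ⟨d, P, hd, hP, s₁, hs₁⟩ := exists_primitive_family π q' hnz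
  by_cases hdA : d ∈ A
  · refine ⟨PT (), fun s => C (⟨d, hdA⟩ : A) * P s, hPTne, ?_⟩
    rw [hTf']
    refine Finset.sum_congr rfl fun s _ => ?_
    rw [evI_apply, Polynomial.map_mul, Polynomial.map_C, hP, ← mul_assoc, ← map_mul C]
    simp [mul_inv_cancel₀ hd]
  · exfalso
    have hdi : d⁻¹ ∈ A := (A.mem_or_inv_mem d).resolve_left hdA
    have hπd : π ⟨_, hdi⟩ = 0 := by
      rw [← RingHom.mem_ker, h.kerA, IsLocalRing.mem_maximalIdeal, mem_nonunits_iff]
      rintro ⟨v, hv⟩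
      have hmul : d⁻¹ * (((v⁻¹ : Aˣ) : A) : K) = 1 := by
        have := congrArg (fun z : A => (z : K)) v.mul_inv
        rwa [hv] at this
      rw [inv_mul_eq_one₀ hd] at hmul
      exact hdA (hmul ▸ SetLike.coe_mem _)
    refine hs₁ (h.map_eq_zero_of_div_mem hϖ hϖ0 hϖne he u c h2 h3 h4 P (fun i => ?_) s₁)
    have e1 : (∑ s, evI x (P s) * u s) / algebraMap K F p =
        algebraMap K F (d⁻¹ / p) * (evI x (PT ()) * f) := by
      rw [hTf']
      simp only [evI_apply, hP, map_mul, Polynomial.aeval_C, mul_assoc, ← Finset.mul_sum,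
        map_div₀]
      ring
    rw [e1]
    exact (V i).mul_mem _ _ (h.mem i ⟨_, h.p_gen _ hπd⟩)
      ((V i).mul_mem _ _ (h.evI_mem i _).1 (hf i))

/-- If the degree is reached, the functions integral at every place are spanned by finitely many
of them with coefficients integral for the Gauss valuation. -/
theorem GaussAbove.exists_integral_basis [Module.Finite K⟮x⟯ F]
    (hinc : ∀ i j, i ≠ j → ∃ f, f ∈ V i ∧ f ∉ V j) (hϖ : ∀ i, ϖ i ∈ V i)
    (hϖ0 : ∀ i, φ i ⟨_, hϖ i⟩ = 0) (hϖne : ∀ i, ϖ i ≠ 0)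
    (he : ∀ i, algebraMap K F p / ϖ i ^ e i ∈ V i) (w : ∀ i, σ i → V i)
    (hw : ∀ i, LinearIndependent k⟮φ i ⟨x, h.x_mem i⟩⟯ fun l => φ i (w i l))
    (hn : Module.finrank K⟮x⟯ F ≤ ∑ i, e i * Fintype.card (σ i)) :
    ∃ u : (Σ i, Fin (e i) × σ i) → F, (∀ s i, u s ∈ V i) ∧
      ∀ f : F, (∀ i, f ∈ V i) → ∃ (t : A[X]) (P : (Σ i, Fin (e i) × σ i) → A[X]),
        t.map π ≠ 0 ∧ evI x t * f = ∑ s, evI x (P s) * u s := by
  obtain ⟨u, c, h1, -, -, -, h5⟩ := h.exists_integral_family hinc hϖ hϖ0 hϖne he w hw hn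
  exact ⟨u, h1, h5⟩

/-- Each valuation ring has `ϖ i` as a uniformiser. -/
theorem GaussAbove.div_mem_of_map_eq_zero [Module.Finite K⟮x⟯ F]
    (hinc : ∀ i j, i ≠ j → ∃ f, f ∈ V i ∧ f ∉ V j) (hϖ : ∀ i, ϖ i ∈ V i)
    (hϖ0 : ∀ i, φ i ⟨_, hϖ i⟩ = 0) (hϖne : ∀ i, ϖ i ≠ 0)
    (he : ∀ i, algebraMap K F p / ϖ i ^ e i ∈ V i) (w : ∀ i, σ i → V i)
    (hw : ∀ i, LinearIndependent k⟮φ i ⟨x, h.x_mem i⟩⟯ fun l => φ i (w i l))
    (hn : Module.finrank K⟮x⟯ F ≤ ∑ i, e i * Fintype.card (σ i))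
    {i : ι} (hei : 0 < e i) {f : F} (hf : f ∈ V i) (h0 : φ i ⟨f, hf⟩ = 0) :
    f / ϖ i ∈ V i := by
  classical
  obtain ⟨u, c, hu1, hu, hc, hoff, hspan⟩ := h.exists_integral_family hinc hϖ hϖ0 hϖne he w hw hn
  obtain ⟨y, hy⟩ := exists_multiplier V φ h.ker {f}
  obtain ⟨hyi, hyne, -, -⟩ := hy f (Finset.mem_singleton_self f) i
  obtain ⟨t, P, ht, htP⟩ := hspan (f * y f) fun j =>
    (hy f (Finset.mem_singleton_self f) j).2.2.2
  obtain ⟨htm, htne⟩ := h.evI_res_ne i ht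
  have hpϖ : algebraMap K F p / ϖ i ∈ V i := by
    have e1 : algebraMap K F p / ϖ i = ϖ i ^ (e i - 1) * (algebraMap K F p / ϖ i ^ e i) := by
      have h2 : ϖ i ^ (e i - 1) * ϖ i = ϖ i ^ e i := by
        rw [← pow_succ, Nat.sub_add_cancel hei]
      have := hϖne i
      field_simp
      linear_combination (-algebraMap K F p) * h2
    rw [e1]
    exact (V i).mul_mem _ _ ((V i).toSubring.pow_mem (hϖ i) _) (he i)
  have hdiv : ∀ z : F, z / algebraMap K F p ∈ V i → z / ϖ i ∈ V i := fun z hz => by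
    have e1 : z / ϖ i = z / algebraMap K F p * (algebraMap K F p / ϖ i) := by
      rw [div_mul_div_cancel₀ h.p_ne']
    rw [e1]
    exact (V i).mul_mem _ _ hz hpϖ
  set z₀ : Fin (e i) := ⟨0, hei⟩
  have hmain : (∑ s, evI x (P s) * u s - ∑ l, evI x (P ⟨i, (z₀, l)⟩) * (c i l : F)) /
      ϖ i ∈ V i := by
    rw [Fintype.sum_sigma, ← Finset.add_sum_erase _ _ (Finset.mem_univ i),
      Fintype.sum_prod_type, ← Finset.add_sum_erase _ _ (Finset.mem_univ z₀)]
    simp only [hu, z₀, pow_zero, one_mul]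
    rw [add_assoc, add_sub_cancel_left, add_div, Finset.sum_div, Finset.sum_div]
    refine (V i).add_mem _ _ (Subring.sum_mem (V i).toSubring fun m hm => ?_)
      (Subring.sum_mem (V i).toSubring fun j hj => ?_)
    · have hm0 : 0 < (m : ℕ) := Nat.pos_of_ne_zero fun h1 =>
        (Finset.mem_erase.mp hm).1 (Fin.ext h1)
      rw [Finset.sum_div]
      refine Subring.sum_mem (V i).toSubring fun l _ => ?_
      have e1 : evI x (P ⟨i, (m, l)⟩) * (ϖ i ^ (m : ℕ) * (c i l : F)) / ϖ i =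
          evI x (P ⟨i, (m, l)⟩) * (ϖ i ^ ((m : ℕ) - 1) * (c i l : F)) := by
        rw [div_eq_iff (hϖne i), show ϖ i ^ (m : ℕ) = ϖ i ^ ((m : ℕ) - 1) * ϖ i by
          rw [← pow_succ, Nat.sub_add_cancel hm0]]
        ring
      rw [e1]
      exact (V i).mul_mem _ _ (h.evI_mem i _).1
        ((V i).mul_mem _ _ ((V i).toSubring.pow_mem (hϖ i) _) (c i l).2)
    · rw [Finset.sum_div]
      refine Subring.sum_mem (V i).toSubring fun ml _ => ?_
      refine hdiv _ ?_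
      rw [mul_div_assoc]
      refine (V i).mul_mem _ _ (h.evI_mem i _).1 ?_
      have h7 := hoff i ⟨j, ml⟩ (Finset.mem_erase.mp hj).1
      rwa [hu] at h7
  rw [← htP] at hmain
  -- the part of level zero reduces to zero
  choose hPm hPv using fun l => h.evI_mem i (P ⟨i, (z₀, l)⟩)
  set S := ∑ l, evI x (P ⟨i, (z₀, l)⟩) * (c i l : F) with hSdef
  have hSm : S ∈ V i :=
    Subring.sum_mem (V i).toSubring fun l _ => (V i).mul_mem _ _ (hPm l) (c i l).2
  have hS0 : φ i ⟨S, hSm⟩ = 0 := by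
    have e1 : (⟨S, hSm⟩ : V i) =
        ⟨evI x t, htm⟩ * (⟨f, hf⟩ * ⟨y f, hyi⟩) - ⟨ϖ i, hϖ i⟩ * ⟨_, hmain⟩ := by
      apply Subtype.ext
      push_cast
      rw [mul_div_cancel₀ _ (hϖne i)]
      ring
    rw [e1, map_sub, map_mul, map_mul, map_mul, h0, hϖ0]
    ring
  have hP0 : ∀ l, (P ⟨i, (z₀, l)⟩).map π = 0 := by
    intro l
    have h5 : ∑ l, φ i ⟨_, hPm l⟩ * φ i (c i l) = 0 := by
      simp only [← map_mul]
      rw [← map_sum, ← hS0]
      congr 1
      apply Subtype.ext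
      simp [S]
    have h6 := Fintype.linearIndependent_iff.mp (hc i)
      (fun l => ⟨Polynomial.aeval (φ i ⟨x, h.x_mem i⟩) ((P ⟨i, (z₀, l)⟩).map π),
        algebra_adjoin_le_adjoin _ _ (Polynomial.aeval_mem_adjoin_singleton _ _)⟩)
      (by simpa [hPv, IntermediateField.smul_def] using h5) l
    by_contra h8
    exact h.x_transc i ⟨_, h8, congrArg Subtype.val h6⟩
  have hSdiv : S / ϖ i ∈ V i := by
    refine hdiv _ ?_
    rw [hSdef, Finset.sum_div]
    refine Subring.sum_mem (V i).toSubring fun l _ => ?_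
    rw [mul_div_right_comm]
    exact (V i).mul_mem _ _ (h.evI_div_mem i (hP0 l)) (c i l).2
  have hy0 : y f ≠ 0 := fun h1 => hyne hf (by
    rw [show (⟨y f, hyi⟩ : V i) = 0 from Subtype.ext h1, map_zero])
  have ht0 : evI x t ≠ 0 := fun h1 => htne (by
    rw [show (⟨evI x t, htm⟩ : V i) = 0 from Subtype.ext h1, map_zero])
  have e2 : f / ϖ i = (evI x t)⁻¹ * (y f)⁻¹ *
      ((evI x t * (f * y f) - S) / ϖ i + S / ϖ i) := by
    field_simp
    ring
  rw [e2]
  exact (V i).mul_mem _ _ ((V i).mul_mem _ _ (h.inv_mem_of_ne htm htne)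
    (h.inv_mem_of_ne hyi (hyne hf))) ((V i).add_mem _ _ hmain hSdiv)

/-- No further valuation ring lies above the Gauss valuation. -/
theorem GaussAbove.mem_of_forall_mem [Module.Finite K⟮x⟯ F]
    (hinc : ∀ i j, i ≠ j → ∃ f, f ∈ V i ∧ f ∉ V j) (hϖ : ∀ i, ϖ i ∈ V i)
    (hϖ0 : ∀ i, φ i ⟨_, hϖ i⟩ = 0) (hϖne : ∀ i, ϖ i ≠ 0)
    (he : ∀ i, algebraMap K F p / ϖ i ^ e i ∈ V i) (w : ∀ i, σ i → V i)
    (hw : ∀ i, LinearIndependent k⟮φ i ⟨x, h.x_mem i⟩⟯ fun l => φ i (w i l))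
    (hn : Module.finrank K⟮x⟯ F ≤ ∑ i, e i * Fintype.card (σ i))
    (W : ValuationSubring F) (hWA : ∀ a : A, algebraMap K F a ∈ W) (hWx : x ∈ W)
    (hWt : ∀ t : A[X], t.map π ≠ 0 → (evI x t)⁻¹ ∈ W) {f : F} (hf : ∀ i, f ∈ V i) : f ∈ W := by
  classical
  obtain ⟨u, hu, hspan⟩ := h.exists_integral_basis hinc hϖ hϖ0 hϖne he w hw hn
  have hev : ∀ t : A[X], evI x t ∈ W := fun t => by
    have e : evI x t = t.eval₂ ((algebraMap K F).comp A.subtype) x := by
      rw [evI_apply, Polynomial.aeval_def, Polynomial.eval₂_map]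
    rw [e, Polynomial.eval₂_eq_sum, Polynomial.sum_def]
    exact Subring.sum_mem W.toSubring fun n _ =>
      W.mul_mem _ _ (hWA _) (W.toSubring.pow_mem hWx _)
  have key : ∀ g : F, (∀ i, g ∈ V i) → ∀ B, 1 ≤ B → (∀ s, W.valuation (u s) ≤ B) →
      W.valuation g ≤ B := by
    intro g hg B hB hub
    obtain ⟨t, P, ht, htP⟩ := hspan g hg
    have ht0 : evI x t ≠ 0 := by
      intro h0
      rcases isEmpty_or_nonempty ι with hι | ⟨⟨i⟩⟩
      · have : Module.finrank K⟮x⟯ F = 0 := by simpa using hn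
        exact absurd this (Module.finrank_pos).ne'
      · obtain ⟨hm, hne⟩ := h.evI_res_ne i ht
        exact hne (by rw [show (⟨evI x t, hm⟩ : V i) = 0 from Subtype.ext h0, map_zero])
    have e : g = (evI x t)⁻¹ * ∑ s, evI x (P s) * u s := by
      rw [← htP, inv_mul_cancel_left₀ ht0]
    rw [e, map_mul]
    refine (mul_le_of_le_one_left' ((W.valuation_le_one_iff _).mpr (hWt t ht))).trans ?_
    refine Valuation.map_sum_le _ fun s _ => ?_
    rw [map_mul]
    exact (mul_le_of_le_one_left' ((W.valuation_le_one_iff _).mpr (hev _))).trans (hub s)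
  have hu1 : ∀ s, W.valuation (u s) ≤ 1 := by
    intro s₀
    obtain ⟨s, -, hmax⟩ := (Finset.univ : Finset (Σ i, Fin (e i) × σ i)).exists_max_image
      (fun s => W.valuation (u s)) ⟨s₀, Finset.mem_univ _⟩
    by_contra hcon
    have hs : 1 < W.valuation (u s) := (not_le.mp hcon).trans_le (hmax s₀ (Finset.mem_univ _))
    have h2 := key (u s * u s) (fun i => (V i).mul_mem _ _ (hu s i) (hu s i)) _ hs.le
      (fun s' => hmax s' (Finset.mem_univ _))
    rw [map_mul] at h2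
    exact absurd h2 (not_le.mpr (by
      conv_lhs => rw [← one_mul (W.valuation (u s))]
      exact mul_lt_mul_of_pos_right hs (zero_lt_one.trans hs)))
  exact (W.valuation_le_one_iff f).mp (key f hf 1 le_rfl hu1)

end Fermat.Agent.Carayol.MainGauss
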