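/-
The three Gauss valuations on level `q² M`: the Gauss valuations of the expansions after the
automorphisms `1`, `S` and a unipotent of `X(q; M)`, and their values on the generators.
-/
import Fermat.Agent.Carayol.Valuations
import Fermat.Agent.Carayol.ValuationsMonomial
import Fermat.Agent.Carayol.CGoodField

set_option autoImplicit false

noncomputable section

namespace Fermat.Agent.Carayol.MainGauss

open ModularCurve IntermediateField IsLocalRing
open scoped MatrixGroups

variable {q : ℕ} [Fact q.Prime] {M : ℕ} [NeZero M]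

local notation "F2bar" => modularFunctionFieldBar (q * q * M)

/-- The three matrices: `1`, `S`, and a lower unipotent. -/
def triMat : Fin 3 → SL(2, ZMod q)
  | 0 => 1
  | 1 => ⟨!![0, 1; -1, 0], by simp [Matrix.det_fin_two]⟩
  | 2 => ⟨!![1, 0; 1, 1], by simp [Matrix.det_fin_two]⟩

/-- Where the line `0` goes. -/
def triZero : Fin 3 → Line q
  | 0 => some 0
  | 1 => none
  | 2 => some 0

/-- Where the line `∞` goes. -/
def triInf : Fin 3 → Line q
  | 0 => none
  | 1 => some 0
  | 2 => some 1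

theorem lineMulQ_triMat_zero (i : Fin 3) :
    lineMulQ (some (0 : ZMod q)) (triMat i) = triZero i := by
  fin_cases i
  · exact lineMulQ_one _
  · simp [triMat, triZero, lineMulQ, vecLine, lineVec, Matrix.vecMul, dotProduct, Fin.sum_univ_two]
  · simp [triMat, triZero, lineMulQ, vecLine, lineVec, Matrix.vecMul, dotProduct, Fin.sum_univ_two]

theorem lineMulQ_triMat_inf (i : Fin 3) :
    lineMulQ (none : Line q) (triMat i) = triInf i := by
  fin_cases i
  · exact lineMulQ_one _
  · simp [triMat, triInf, lineMulQ, vecLine, lineVec, Matrix.vecMul, dotProduct, Fin.sum_univ_two]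
  · simp [triMat, triInf, lineMulQ, vecLine, lineVec, Matrix.vecMul, dotProduct, Fin.sum_univ_two]

variable (hqM : ¬ q ∣ M)

/-- The three embeddings of level `q² M` into `X(q; M)`. -/
def triEmb (i : Fin 3) : F2bar →ₐ[Qb] XField q M :=
  (sigmaQ hqM (triMat i)⁻¹).toAlgHom.comp
    (IntermediateField.inclusion modularFunctionFieldBar_le_xField)

theorem triEmb_apply (i : Fin 3) (f : F2bar) :
    triEmb hqM i f = sigmaQ hqM (triMat i)⁻¹ ⟨f, modularFunctionFieldBar_le_xField f.2⟩ := rfl

theorem coe_triEmb_zero (f : F2bar) :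
    ((triEmb hqM 0 f : XField q M) : LaurentSeries Qb) = f := by
  rw [triEmb_apply, show (triMat (q := q) 0)⁻¹ = 1 from inv_one, map_one]
  rfl

theorem dvd_pow_mul {b : ℕ} (hb : b ∣ M) (e : Fin 3) : q ^ (e : ℕ) * b ∣ q * q * M := by
  rw [← sq]
  exact mul_dvd_mul (pow_dvd_pow q (by omega)) hb

/-- `j (q ^ e b τ)` at level `q² M`. -/
def lvlElt {b : ℕ} [NeZero b] (hb : b ∣ M) (e : Fin 3) : F2bar :=
  haveI : NeZero (q ^ (e : ℕ) * b) :=
    ⟨mul_ne_zero (pow_ne_zero _ (Fact.out : q.Prime).ne_zero) (NeZero.ne b)⟩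
  ⟨coeffEmb Qb (qExpand ℚ (q ^ (e : ℕ) * b) jq),
    coeffEmb_mem_laurentBaseChange _ (jqd_mem_full (q * q * M) (dvd_pow_mul hb e))⟩

theorem coe_lvlElt {b : ℕ} [NeZero b] (hb : b ∣ M) (e : Fin 3) {d : ℕ} [NeZero d]
    (hd : q ^ (e : ℕ) * b = d) :
    (lvlElt (q := q) hb e : LaurentSeries Qb) = qExpand Qb d (jqModC Qb) := by
  subst hd
  show coeffEmb Qb (qExpand ℚ _ jq) = _
  rw [coeffEmb, coeffMap_qExpand, ← jqModC_rat, coeffMap_jqModC]

theorem triEmb_lvlElt_zero {b : ℕ} [NeZero b] (hb : b ∣ M) (i : Fin 3) :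
    triEmb hqM i (lvlElt hb 0) = genElt q M hb (triZero i) := by
  have e : (⟨(lvlElt (q := q) hb 0 : LaurentSeries Qb),
      modularFunctionFieldBar_le_xField (lvlElt (q := q) hb 0).2⟩ : XField q M) =
      genElt q M hb (some 0) := by
    apply Subtype.ext
    show (lvlElt (q := q) hb 0 : LaurentSeries Qb) = gen q b (some 0)
    rw [coe_lvlElt hb 0 (d := b) (by simp), gen, ZMod.val_zero, pow_zero, seriesTwist_one]
  rw [triEmb_apply, e, sigmaQ_genElt, inv_inv, lineMulQ_triMat_zero]

theorem triEmb_lvlElt_one {b : ℕ} [NeZero b] (hb : b ∣ M) (i : Fin 3) :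
    triEmb hqM i (lvlElt hb 1) = baseElt q M hb := by
  have e : (⟨(lvlElt (q := q) hb 1 : LaurentSeries Qb),
      modularFunctionFieldBar_le_xField (lvlElt (q := q) hb 1).2⟩ : XField q M) =
      baseElt q M hb := by
    apply Subtype.ext
    show (lvlElt (q := q) hb 1 : LaurentSeries Qb) = baseGen q b
    rw [coe_lvlElt hb 1 (d := b * q) (by simp [mul_comm]), baseGen]
  rw [triEmb_apply, e, sigmaQ_baseElt]

theorem triEmb_lvlElt_two {b : ℕ} [NeZero b] (hb : b ∣ M) (i : Fin 3) :
    triEmb hqM i (lvlElt hb 2) = genElt q M hb (triInf i) := by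
  have e : (⟨(lvlElt (q := q) hb 2 : LaurentSeries Qb),
      modularFunctionFieldBar_le_xField (lvlElt (q := q) hb 2).2⟩ : XField q M) =
      genElt q M hb none := by
    apply Subtype.ext
    show (lvlElt (q := q) hb 2 : LaurentSeries Qb) = gen q b none
    rw [coe_lvlElt hb 2 (d := b * q * q) (by simp; ring), gen]
  rw [triEmb_apply, e, sigmaQ_genElt, inv_inv, lineMulQ_triMat_inf]

variable (A : ValuationSubring Qb)

/-- The three valuation rings. -/
def triVal (i : Fin 3) : ValuationSubring F2bar :=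
  (infVal q M A).comap (triEmb hqM i).toRingHom

theorem mem_triVal_iff {i : Fin 3} {f : F2bar} :
    f ∈ triVal hqM A i ↔ triEmb hqM i f ∈ infVal q M A := Iff.rfl

/-- The three reductions. -/
def triRed (i : Fin 3) : triVal hqM A i →+* LaurentSeries (ResidueField A) :=
  (infRed q M A).comp
    (((triEmb hqM i).toRingHom.comp (triVal hqM A i).subtype).codRestrict _ fun x => x.2)

theorem triRed_apply (i : Fin 3) {f : F2bar} (hf : f ∈ triVal hqM A i)
    (h : triEmb hqM i f ∈ infVal q M A) :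
    triRed hqM A i ⟨f, hf⟩ = infRed q M A ⟨triEmb hqM i f, h⟩ := rfl

theorem inv_mem_triVal {i : Fin 3} {f : F2bar} (hf : f ∈ triVal hqM A i)
    (h : triRed hqM A i ⟨f, hf⟩ ≠ 0) : f⁻¹ ∈ triVal hqM A i := by
  rw [mem_triVal_iff, map_inv₀]
  obtain ⟨y, hy⟩ := exists_mul_eq_one_of_infRed_ne_zero A (x := ⟨triEmb hqM i f, hf⟩) h
  rw [inv_eq_of_mul_eq_one_right (congrArg Subtype.val hy)]
  exact y.2

theorem ker_triRed (i : Fin 3) :
    RingHom.ker (triRed hqM A i) = maximalIdeal (triVal hqM A i) := by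
  ext ⟨f, hf⟩
  rw [RingHom.mem_ker, IsLocalRing.mem_maximalIdeal, mem_nonunits_iff]
  refine ⟨fun h hu => ?_, fun h => ?_⟩
  · have := hu.map (triRed hqM A i)
    rw [h] at this
    exact not_isUnit_zero this
  · by_contra hne
    have hf0 : f ≠ 0 := fun h0 => hne (by
      rw [show (⟨f, hf⟩ : triVal hqM A i) = 0 from Subtype.ext h0, map_zero])
    exact h (IsUnit.of_mul_eq_one ⟨f⁻¹, inv_mem_triVal hqM A hf hne⟩
      (Subtype.ext (mul_inv_cancel₀ hf0)))

theorem algebraMap_mem_triVal_iff (i : Fin 3) {a : Qb} :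
    algebraMap Qb F2bar a ∈ triVal hqM A i ↔ a ∈ A := by
  rw [mem_triVal_iff, AlgHom.commutes, algebraMap_mem_infVal_iff]

theorem triRed_algebraMap (i : Fin 3) (a : A) :
    triRed hqM A i ⟨_, (algebraMap_mem_triVal_iff hqM A i).2 a.2⟩ =
      algebraMap (ResidueField A) (LaurentSeries (ResidueField A)) (residue A a) := by
  obtain ⟨h, he⟩ := gaussRed_algebraMap (π := residue A) a
  refine Eq.trans ?_ he
  show gaussRed A (residue A) ⟨_, _⟩ = gaussRed A (residue A) ⟨_, _⟩
  congr 1
  exact Subtype.ext (congrArg (fun z : XField q M => (z : LaurentSeries Qb))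
    ((triEmb hqM i).commutes (a : Qb)))

/-- An element whose image has an integral expansion. -/
theorem triRed_eq_of_series {i : Fin 3} {f : F2bar} {y : LaurentSeries A}
    (e : ((triEmb hqM i f : XField q M) : LaurentSeries Qb) = coeffMap A.subtype y) :
    ∃ h : f ∈ triVal hqM A i, triRed hqM A i ⟨f, h⟩ = coeffMap (residue A) y := by
  have h : f ∈ triVal hqM A i := by
    rw [mem_triVal_iff, mem_infVal_iff, e]
    exact coeffMap_mem_gaussSubring _
  refine ⟨h, ?_⟩
  rw [← gaussRed_coeffMap (π := residue A)]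
  show gaussRed A (residue A) ⟨_, _⟩ = _
  congr 1
  exact Subtype.ext e

variable {A} (hA : A.LiesOverPrime q)
include hA

theorem charP_residue : CharP (ResidueField A) q := by
  refine CharP.charP_iff_prime_eq_zero (Fact.out : q.Prime) |>.2 ?_
  have hq : (q : A) ∈ maximalIdeal A := by
    rw [← ValuationSubring.coe_mem_nonunits_iff]
    exact_mod_cast hA
  rw [← map_natCast (residue A), residue_eq_zero_iff]
  exact hq

theorem qExpand_mul_residue (b : ℕ) [NeZero b] :
    qExpand (ResidueField A) (b * q) (jqModC (ResidueField A)) =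
      qExpand (ResidueField A) b (jqModC (ResidueField A)) ^ q := by
  haveI := charP_residue hA
  rw [← map_pow, jqModC_pow_prime, qExpand_qExpand]

/-- The reduction of a conjugate of `j (b q τ)`. -/
theorem exists_series_gen (b : ℕ) [NeZero b] (P : Line q) :
    ∃ y : LaurentSeries A, gen q b P = coeffMap A.subtype y ∧
      coeffMap (residue A) y = qExpand (ResidueField A) b (jqModC (ResidueField A)) ^
        (if P = none then q * q else 1) := by
  rcases P with _ | c
  · refine ⟨qExpand A (b * q * q) (jqModC A), ?_, ?_⟩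
    · rw [coeffMap_qExpand, coeffMap_jqModC, gen]
    · rw [coeffMap_qExpand, coeffMap_jqModC, if_pos rfl, qExpand_mul_residue hA,
        qExpand_mul_residue hA, ← pow_mul]
  · obtain ⟨v, hv, hv1⟩ := zetaQ_residue_one hA
    refine ⟨seriesTwist (v ^ c.val) (qExpand A b (jqModC A)), ?_, ?_⟩
    · rw [coeffMap_seriesTwist, coeffMap_qExpand, coeffMap_jqModC, map_pow,
        show Units.map A.subtype.toMonoidHom v = zetaQ q from Units.ext hv, gen]
    · rw [coeffMap_seriesTwist, coeffMap_qExpand, coeffMap_jqModC, if_neg (by simp), pow_one,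
        map_pow, show Units.map (residue A).toMonoidHom v = 1 from Units.ext hv1, one_pow,
        seriesTwist_one]

theorem triRed_lvlElt_zero {b : ℕ} [NeZero b] (hb : b ∣ M) (i : Fin 3) :
    ∃ h : lvlElt hb 0 ∈ triVal hqM A i, triRed hqM A i ⟨_, h⟩ =
      qExpand (ResidueField A) b (jqModC (ResidueField A)) ^ (if i = 1 then q * q else 1) := by
  obtain ⟨y, hy, hr⟩ := exists_series_gen hA b (triZero (q := q) i)
  obtain ⟨h, e⟩ := triRed_eq_of_series hqM A (i := i) (f := lvlElt hb 0) (y := y)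
    (by rw [triEmb_lvlElt_zero]; exact hy)
  refine ⟨h, ?_⟩
  rw [e, hr]
  fin_cases i <;> simp [triZero]

theorem triRed_lvlElt_one {b : ℕ} [NeZero b] (hb : b ∣ M) (i : Fin 3) :
    ∃ h : lvlElt hb 1 ∈ triVal hqM A i, triRed hqM A i ⟨_, h⟩ =
      qExpand (ResidueField A) b (jqModC (ResidueField A)) ^ q := by
  obtain ⟨h, e⟩ := triRed_eq_of_series hqM A (i := i) (f := lvlElt hb 1)
    (y := qExpand A (b * q) (jqModC A))
    (by rw [triEmb_lvlElt_one, coeffMap_qExpand, coeffMap_jqModC]; rfl)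
  refine ⟨h, ?_⟩
  rw [e, coeffMap_qExpand, coeffMap_jqModC, qExpand_mul_residue hA]

theorem triRed_lvlElt_two {b : ℕ} [NeZero b] (hb : b ∣ M) (i : Fin 3) :
    ∃ h : lvlElt hb 2 ∈ triVal hqM A i, triRed hqM A i ⟨_, h⟩ =
      qExpand (ResidueField A) b (jqModC (ResidueField A)) ^ (if i = 0 then q * q else 1) := by
  obtain ⟨y, hy, hr⟩ := exists_series_gen hA b (triInf (q := q) i)
  obtain ⟨h, e⟩ := triRed_eq_of_series hqM A (i := i) (f := lvlElt hb 2) (y := y)
    (by rw [triEmb_lvlElt_two]; exact hy)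
  refine ⟨h, ?_⟩
  rw [e, hr]
  fin_cases i <;> simp [triInf]

omit hA

variable (q M) in
/-- `j (τ) - j (q² τ)`. -/
def midElt : modularFunctionFieldBar (q * q * M) :=
  lvlElt (one_dvd M) 0 - lvlElt (one_dvd M) 2

variable (A) in
theorem pow_sub_one_mem (n : ℤ) :
    ∃ c : A, (((zetaQ q ^ (n % (q : ℤ)).toNat : Qbˣ) : Qb) - 1) = (c : Qb) * ((zetaQ q : Qb) - 1) ∧
      c = ∑ i ∈ Finset.range (n % (q : ℤ)).toNat, (⟨(zetaQ q : Qb), CGood.zeta_mem q A⟩ : A) ^ i :=
  ⟨_, by push_cast; exact (geom_sum_mul _ _).symm, rfl⟩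

theorem zetaQ_zpow_emod (n : ℤ) : zetaQ q ^ n = zetaQ q ^ (n % (q : ℤ)).toNat := by
  have hq : (q : ℤ) ≠ 0 := by exact_mod_cast (Fact.out : q.Prime).ne_zero
  rw [← zpow_natCast _ (n % (q : ℤ)).toNat, Int.toNat_of_nonneg (Int.emod_nonneg n hq)]
  conv_lhs => rw [← Int.emod_add_mul_ediv n q, zpow_add, zpow_mul, zpow_natCast, zetaQ_pow,
    one_zpow, mul_one]

include hA

/-- On the middle component `j (τ) - j (q² τ)` has the value of `ζ - 1`. -/
theorem triRed_midElt :
    ∃ h : midElt q M * (algebraMap Qb F2bar ((zetaQ q : Qb) - 1))⁻¹ ∈ triVal hqM A 2,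
      triRed hqM A 2 ⟨_, h⟩ ≠ 0 := by
  choose c hc hcs using fun n : ℤ => pow_sub_one_mem A (q := q) n
  let y : LaurentSeries A :=
    { coeff := fun n => -(c n * (jqModC A).coeff n)
      isPWO_support' := (jqModC A).isPWO_support'.mono fun n hn h0 => hn (by simp [h0]) }
  have hw : ((zetaQ q : Qb) - 1) ≠ 0 := CGood.wQ_ne q A
  have e : ((triEmb hqM 2 (midElt q M * (algebraMap Qb F2bar ((zetaQ q : Qb) - 1))⁻¹) : XField q M)
      : LaurentSeries Qb) = coeffMap A.subtype y := by
    rw [midElt, map_mul, map_inv₀, AlgHom.commutes, map_sub, triEmb_lvlElt_zero, triEmb_lvlElt_two]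
    show (gen q 1 (some 0) - gen q 1 (some 1)) *
      (algebraMap Qb (LaurentSeries Qb) ((zetaQ q : Qb) - 1))⁻¹ = _
    rw [← map_inv₀, algebraMap_laurentSeries_eq_single, mul_comm]
    ext n
    rw [HahnSeries.coeff_single_zero_mul, coeffMap_coeff, HahnSeries.coeff_sub, gen, gen,
      seriesTwist_coeff, seriesTwist_coeff, ZMod.val_zero, pow_zero, one_zpow, Units.val_one,
      one_mul, ZMod.val_one, pow_one, qExpand_one_apply, zetaQ_zpow_emod]
    show _ = -((c n : Qb) * ((jqModC A).coeff n : Qb))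
    have hj : (((jqModC A).coeff n : A) : Qb) = (jqModC Qb).coeff n := by
      rw [← coeffMap_jqModC A.subtype, coeffMap_coeff]; rfl
    rw [hj]
    field_simp
    linear_combination (-(jqModC Qb).coeff n) * hc n
  obtain ⟨h, hr⟩ := triRed_eq_of_series hqM A (i := 2) e
  refine ⟨h, ?_⟩
  rw [hr]
  intro h0
  have h1 := congrArg (fun z : LaurentSeries (ResidueField A) => z.coeff (-1)) h0
  simp only [coeffMap_coeff, HahnSeries.coeff_zero] at h1
  have hm : (((-1 : ℤ)) % (q : ℤ)).toNat = q - 1 := by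
    have h2 := (Fact.out : q.Prime).one_lt
    have : (-1 : ℤ) % (q : ℤ) = (q : ℤ) - 1 := by
      rw [← Int.add_emod_right (-1) (q : ℤ), Int.emod_eq_of_lt (by omega) (by omega)]
      ring
    omega
  obtain ⟨v, hv, hv1⟩ := zetaQ_residue_one hA
  have hz : residue A (⟨(zetaQ q : Qb), CGood.zeta_mem q A⟩ : A) = 1 := by
    rw [← hv1]; exact congrArg _ (Subtype.ext hv.symm)
  have hy : residue A (y.coeff (-1)) = 1 := by
    show residue A (-(c (-1) * (jqModC A).coeff (-1))) = 1
    haveI := charP_residue hA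
    rw [coeff_jqModC_neg_one, mul_one, map_neg, hcs, hm, map_sum]
    simp only [map_pow, hz, one_pow, Finset.sum_const, Finset.card_range, nsmul_eq_mul, mul_one]
    rw [Nat.cast_sub (Fact.out : q.Prime).one_le, CharP.cast_eq_zero, Nat.cast_one, zero_sub,
      neg_neg]
  rw [hy] at h1
  exact one_ne_zero h1

end Fermat.Agent.Carayol.MainGauss
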