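/-
The degree of level `q² M` over the functions of `j (q τ)`, and its descent to a field of
constants containing the coefficients.
-/
import Fermat.Agent.Carayol.MainGaussTri
import Fermat.Agent.HeckeJ.Degree
import Fermat.Agent.HeckeJ.Inputs
import Fermat.Agent.Residual.Ord2Degree
import Fermat.Agent.Igusa.GaussX0
import Mathlib.LinearAlgebra.Dimension.Finite

set_option autoImplicit false
set_option linter.style.haveILetI false
set_option synthInstance.maxHeartbeats 400000

noncomputable section

namespace Fermat.Agent.Carayol.MainGauss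

open ModularCurve IntermediateField AlgebraicCurve Polynomial

variable {q : ℕ} [Fact q.Prime] {M : ℕ} [NeZero M]

local notation "F2bar" => modularFunctionFieldBar (q * q * M)

variable (q M) in
/-- `j (q τ)` at level `q² M`. -/
def baseX : modularFunctionFieldBar (q * q * M) := lvlElt (one_dvd M) 1

theorem coe_baseX : (baseX q M : LaurentSeries Qb) = qExpand Qb q (jqModC Qb) :=
  coe_lvlElt (one_dvd M) 1 (by simp)

theorem relfinrank_map_qExpand (hqM : ¬ q ∣ M) :
    relfinrank Qb⟮qExpand Qb q (jqModC Qb)⟯ (modularFunctionFieldBar (q * M * q)) ≤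
        q * ((q + 1) * dedekindPsi M) ∧
      relfinrank Qb⟮qExpand Qb q (jqModC Qb)⟯ (modularFunctionFieldBar (q * M * q)) ≠ 0 := by
  set B := (modularFunctionFieldBar (q * M)).map (qExpandAlgHomC Qb q) with hB
  have hle : B ≤ modularFunctionFieldBar (q * M * q) := by
    rintro _ ⟨y, hy, rfl⟩
    exact (heckeBetaBar Qb (q * M) q ⟨y, hy⟩).2
  have hx : Qb⟮qExpand Qb q (jqModC Qb)⟯ = Qb⟮jqModC Qb⟯.map (qExpandAlgHomC Qb q) := by
    rw [IntermediateField.adjoin_map, Set.image_singleton]
    rfl
  have hxB : Qb⟮qExpand Qb q (jqModC Qb)⟯ ≤ B := by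
    rw [hx]
    exact IntermediateField.map_mono _ (HeckeJ.adjoin_jqModC_le Qb (q * M))
  rw [← relfinrank_mul_relfinrank hxB hle]
  have h1 : relfinrank Qb⟮qExpand Qb q (jqModC Qb)⟯ B = (q + 1) * dedekindPsi M := by
    rw [hx, hB, relfinrank_map_map,
      show modularFunctionFieldBar (q * M) = modularFunctionFieldC Qb (q * M) from
        ModFun.laurentBaseChange_full_eq (q * M) Qb,
      ModFun.relfinrank_modularFunctionFieldC Qb (q * M), mul_comm q M,
      HeckeJ.dedekindPsi_mul_prime (Fact.out : q.Prime), HeckeJ.levelIndex, if_neg hqM, mul_comm]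
  have h2 : relfinrank B (modularFunctionFieldBar (q * M * q)) =
      finrankAlong Qb (heckeBetaBar Qb (q * M) q) := by
    rw [relfinrank_eq_finrank_of_le hle]
    letI := algebraAlong (heckeBetaBar Qb (q * M) q)
    refine Eq.symm ?_
    exact Algebra.finrank_eq_of_equiv_equiv
      ((modularFunctionFieldBar (q * M)).equivMap (qExpandAlgHomC Qb q)).toRingEquiv
      (RingEquiv.refl (modularFunctionFieldBar (q * M * q)))
      (RingHom.ext fun _ => rfl)
  rw [h1, h2, mul_comm _ (finrankAlong Qb _)]
  refine ⟨Nat.mul_le_mul_right _ (Residual.Ord2.finrankAlong_heckeBetaBar_le (Fact.out : q.Prime)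
    (dvd_mul_right q M)), Nat.mul_ne_zero ?_ (Nat.mul_ne_zero (by omega)
      (HeckeJ.dedekindPsi_pos M).ne')⟩
  have h3 : FiniteAlong Qb (heckeBetaBar Qb (q * M) q) :=
    HeckeJ.finiteAlong_heckeBetaBar Qb (q * M) q
  letI := algebraAlong (heckeBetaBar Qb (q * M) q)
  haveI : FiniteDimensional (modularFunctionFieldBar (q * M))
    (modularFunctionFieldBar (q * M * q)) := h3
  exact (Module.finrank_pos (R := modularFunctionFieldBar (q * M))).ne'

/-- Level `q² M` has degree at most `q (q + 1) ψ (M)` over the functions of `j (q τ)`. -/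
theorem finrank_baseX (hqM : ¬ q ∣ M) :
    Module.finrank Qb⟮baseX q M⟯ F2bar ≤ q * ((q + 1) * dedekindPsi M) ∧
      Module.Finite Qb⟮baseX q M⟯ F2bar := by
  have e : modularFunctionFieldBar (q * M * q) = F2bar := by
    rw [show q * M * q = q * q * M by ring]
  obtain ⟨h1, h2⟩ := relfinrank_map_qExpand hqM
  rw [e] at h1 h2
  have hl : IntermediateField.lift Qb⟮baseX q M⟯ = Qb⟮qExpand Qb q (jqModC Qb)⟯ := by
    rw [show IntermediateField.lift Qb⟮baseX q M⟯ = Qb⟮baseX q M⟯.map (F2bar).val from rfl,
      IntermediateField.adjoin_map, Set.image_singleton]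
    exact congrArg (fun z => Qb⟮z⟯) (coe_baseX (q := q) (M := M))
  have h3 : relfinrank Qb⟮qExpand Qb q (jqModC Qb)⟯ F2bar = Module.finrank Qb⟮baseX q M⟯ F2bar := by
    rw [← relfinrank_top_right Qb⟮baseX q M⟯,
      ← IntermediateField.relfinrank_map_map Qb⟮baseX q M⟯ ⊤ (F2bar).val,
      show Qb⟮baseX q M⟯.map (F2bar).val = IntermediateField.lift Qb⟮baseX q M⟯ from rfl, hl,
      show (⊤ : IntermediateField Qb F2bar).map (F2bar).val = IntermediateField.lift ⊤ from rfl,
      IntermediateField.lift_top]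
  rw [h3] at h1 h2
  exact ⟨h1, Module.finite_of_finrank_pos (Nat.pos_of_ne_zero h2)⟩

/-- A family of series with coefficients in a subfield which is independent over it is
independent. -/
theorem eq_zero_of_series_relation (K : Subfield Qb) {κ : Type*} [Fintype κ]
    (v : κ → LaurentSeries Qb) (hv : ∀ s n, (v s).coeff n ∈ K)
    (hK : ∀ c : κ → K, ∑ s, algebraMap Qb (LaurentSeries Qb) (c s : Qb) * v s = 0 → c = 0)
    (c : κ → Qb) (hc : ∑ s, algebraMap Qb (LaurentSeries Qb) (c s) * v s = 0) : c = 0 := by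
  classical
  let e := Module.Basis.ofVectorSpace K Qb
  have hco : ∀ (d : κ → Qb) n,
      (∑ s, algebraMap Qb (LaurentSeries Qb) (d s) * v s).coeff n = ∑ s, d s * (v s).coeff n := by
    intro d n
    rw [HahnSeries.coeff_sum]
    refine Finset.sum_congr rfl fun s _ => ?_
    rw [algebraMap_laurentSeries_eq_single, HahnSeries.coeff_single_zero_mul]
  funext s
  refine e.repr.injective (Finsupp.ext fun r => ?_)
  rw [Pi.zero_apply, map_zero, Finsupp.zero_apply]
  have := congrFun (hK (fun s => e.repr (c s) r) ?_) s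
  · exact this
  ext n
  rw [hco, HahnSeries.coeff_zero]
  have h0 : ∑ s, c s * (v s).coeff n = 0 := by rw [← hco, hc, HahnSeries.coeff_zero]
  have h1 : ∑ s, (⟨_, hv s n⟩ : K) • c s = 0 := by
    rw [← h0]
    exact Finset.sum_congr rfl fun s _ => mul_comm _ _
  have h2 := congrArg (fun z => ((e.repr z r : K) : Qb)) h1
  simp only [map_sum, map_smul, Finsupp.coe_finsetSum, Finset.sum_apply, Finsupp.smul_apply,
    smul_eq_mul, map_zero, Finsupp.zero_apply, ZeroMemClass.coe_zero] at h2
  rw [← h2]
  push_cast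
  exact Finset.sum_congr rfl fun s _ => mul_comm _ _

variable (K : Subfield Qb) {F : Type*} [Field F] [Algebra K F]
  (ι : F →+* modularFunctionFieldBar (q * q * M))
  (hι : ∀ c : K, ι (algebraMap K F c) =
    algebraMap Qb (modularFunctionFieldBar (q * q * M)) (c : Qb))
  (hcoef : ∀ f n, (ι f : LaurentSeries Qb).coeff n ∈ K)
  {x : F} (hx : ι x = baseX q M)

include hι hx in
theorem map_aeval_baseX (r : K[X]) :
    ι (aeval x r) = aeval (baseX q M) (r.map K.subtype) := by
  rw [aeval_def, aeval_def, hom_eval₂, eval₂_map, hx]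
  congr 1
  exact RingHom.ext hι

include hι hcoef hx in
/-- Independence over `K (x)` gives independence over `ℚ̄ (j (q τ))`. -/
theorem linearIndependent_map {κ : Type*} [Fintype κ] {u : κ → F}
    (hu : LinearIndependent K⟮x⟯ u) : LinearIndependent Qb⟮baseX q M⟯ fun s => ι (u s) := by
  classical
  rw [Fintype.linearIndependent_iff]
  intro g hg
  obtain ⟨S, P, -, hS, hP⟩ := Igusa.GaussX0.exists_common_denom g
  have h0 : ∑ s, aeval (baseX q M) (P s) * ι (u s) = 0 := by
    rw [Finset.sum_congr rfl (g := fun s => (g s : F2bar) * ι (u s) * aeval (baseX q M) S)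
      fun s _ => by rw [← hP]; ring, ← Finset.sum_mul,
      show ∑ s, (g s : F2bar) * ι (u s) = 0 from hg, zero_mul]
  suffices hall : ∀ s, P s = 0 by
    intro s
    have h1 := hP s
    rw [hall s, map_zero, mul_eq_zero] at h1
    exact Subtype.ext (h1.resolve_right hS)
  set N := Finset.univ.sup fun s => (P s).natDegree + 1
  have hN : ∀ s, (P s).natDegree < N := fun s =>
    Finset.le_sup (f := fun s => (P s).natDegree + 1) (Finset.mem_univ s)
  have hval : ∀ z : K⟮x⟯, ι (z : F) = ι (z : F) := fun _ => rfl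
  let v : κ × Fin N → LaurentSeries Qb := fun p =>
    ((ι (x ^ (p.2 : ℕ) * u p.1) : F2bar) : LaurentSeries Qb)
  have key : ∀ c : κ × Fin N → K,
      ∑ p, algebraMap Qb (LaurentSeries Qb) (c p : Qb) * v p = 0 → c = 0 := by
    intro c hc
    let R : κ → K[X] := fun s => ∑ m : Fin N, C (c (s, m)) * X ^ (m : ℕ)
    have h1 : ∑ s, aeval x (R s) * u s = 0 := by
      apply ι.injective
      apply Subtype.ext
      rw [map_zero, ZeroMemClass.coe_zero, ← hc, Fintype.sum_prod_type, map_sum,
        AddSubmonoidClass.coe_finsetSum]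
      refine Finset.sum_congr rfl fun s _ => ?_
      simp only [R, map_sum, map_mul, aeval_C, aeval_X_pow, aeval_X, Finset.sum_mul,
        AddSubmonoidClass.coe_finsetSum, v, hι, MulMemClass.coe_mul, map_pow, SubmonoidClass.coe_pow,
        IntermediateField.coe_algebraMap_apply, mul_assoc]
    have h2 := Fintype.linearIndependent_iff.mp hu
      (fun s => ⟨aeval x (R s), IntermediateField.algebra_adjoin_le_adjoin _ _
        (aeval_mem_adjoin_singleton _ _)⟩) h1
    funext ⟨s, m⟩
    have h3 : aeval x (R s) = 0 := congrArg Subtype.val (h2 s)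
    have h4 : R s = 0 := by
      by_contra hne
      have h5 := congrArg ι h3
      rw [map_aeval_baseX K ι hι hx, map_zero] at h5
      refine Polynomial.map_ne_zero (f := K.subtype) hne ?_
      by_contra hne'
      have h6 : IsAlgebraic Qb (baseX q M) := ⟨_, hne', h5⟩
      have h7 := h6.algHom (F2bar).val
      rw [show (F2bar).val (baseX q M) = qExpand Qb q (jqModC Qb) from coe_baseX (q := q) (M := M)] at h7
      exact ModFun.transcendental_jqModC Qb
        (isAlgebraic_algHom_iff (qExpandAlgHomC Qb q) (qExpand_injective q) |>.1 h7)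
    have h8 := congrArg (fun z : K[X] => z.coeff (m : ℕ)) h4
    simpa [R, finsetSum_coeff, coeff_C_mul, coeff_X_pow, Fin.val_inj] using h8
  have h9 := eq_zero_of_series_relation K v (fun p n => hcoef _ n) key
    (fun p => (P p.1).coeff p.2) ?_
  · intro s
    ext m
    rw [coeff_zero]
    by_cases hm : m < N
    · exact congrFun h9 (s, ⟨m, hm⟩)
    · exact coeff_eq_zero_of_natDegree_lt (lt_of_lt_of_le (hN s) (not_lt.mp hm))
  rw [Fintype.sum_prod_type]
  have h10 := congrArg (fun z : F2bar => (z : LaurentSeries Qb)) h0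
  simp only [AddSubmonoidClass.coe_finsetSum, ZeroMemClass.coe_zero] at h10
  rw [← h10]
  refine Finset.sum_congr rfl fun s _ => ?_
  rw [aeval_eq_sum_range' (hN s), MulMemClass.coe_mul, AddSubmonoidClass.coe_finsetSum,
    Finset.sum_mul, ← Fin.sum_univ_eq_sum_range]
  refine Finset.sum_congr rfl fun m _ => ?_
  simp only [v, map_mul, map_pow, hx, MulMemClass.coe_mul, SubmonoidClass.coe_pow]
  rw [IntermediateField.coe_smul, ← mul_assoc, ← Algebra.smul_def, SubmonoidClass.coe_pow]

include hι hcoef hx in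
/-- The degree bound over the smaller field of constants. -/
theorem finrank_le_of_coeff (hqM : ¬ q ∣ M) :
    Module.finrank K⟮x⟯ F ≤ q * ((q + 1) * dedekindPsi M) ∧ Module.Finite K⟮x⟯ F := by
  obtain ⟨h1, h2⟩ := finrank_baseX (M := M) hqM
  haveI := h2
  have hr : Module.rank K⟮x⟯ F ≤ ((q * ((q + 1) * dedekindPsi M) : ℕ) : Cardinal) :=
    rank_le fun s hs => by
      have := (linearIndependent_map K ι hι hcoef hx hs).fintype_card_le_finrank
      rw [Fintype.card_coe] at this
      exact this.trans h1
  exact ⟨Module.finrank_le_of_rank_le hr,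
    Module.rank_lt_aleph0_iff.mp (hr.trans_lt (Cardinal.natCast_lt_aleph0))⟩

end Fermat.Agent.Carayol.MainGauss
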