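/-
The three Gauss valuations on a form of level `q² M` over a field of constants in which `q` is a
uniformiser: they have ramification indices `1, 1, q - 1` and no further one lies above the Gauss
valuation of `K (j (q τ))`.
-/
import Fermat.Agent.Carayol.MainGaussCount
import Fermat.Agent.Carayol.MainGaussDegree

set_option autoImplicit false
set_option linter.style.haveILetI false
set_option synthInstance.maxHeartbeats 400000
set_option maxHeartbeats 1000000

noncomputable section

namespace Fermat.Agent.Carayol.MainGauss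

open ModularCurve IntermediateField IsLocalRing Polynomial
open scoped MatrixGroups

variable {q : ℕ} [Fact q.Prime] {M : ℕ} [NeZero M]

local notation "F2bar" => modularFunctionFieldBar (q * q * M)

section Residual

variable {A : ValuationSubring Qb}

local notation "kR" => ResidueField A

theorem isUnit_natCast (hqM : ¬ q ∣ M) (hA : A.LiesOverPrime q) : IsUnit (M : A) := by
  haveI := charP_residue hA
  refine isUnit_of_map_unit (residue A) _ (isUnit_iff_ne_zero.mpr ?_)
  rw [map_natCast, Ne, CharP.cast_eq_zero_iff (ResidueField A) q]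
  exact hqM

theorem jqModC_pow_ne {a b : ℕ} (h : a ≠ b) :
    jqModC (ResidueField A) ^ a ≠ jqModC (ResidueField A) ^ b := by
  intro e
  refine ModFun.transcendental_jqModC (ResidueField A) ⟨X ^ a - X ^ b, ?_, by simp [e]⟩
  intro h0
  have := congrArg (fun p : (ResidueField A)[X] => p.coeff a) h0
  simp [coeff_X_pow, h] at this

/-- The monomials `z ^ a z_M ^ l` are independent over `k (z ^ q)`. -/
theorem linearIndependent_res (hqM : ¬ q ∣ M) (hA : A.LiesOverPrime q) :
    LinearIndependent (ResidueField A)⟮jqModC (ResidueField A) ^ q⟯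
      fun p : Fin q × Fin (dedekindPsi M) =>
        jqModC (ResidueField A) ^ (p.1 : ℕ) * jqNModC (ResidueField A) M ^ (p.2 : ℕ) := by
  classical
  rw [Fintype.linearIndependent_iff]
  intro g hg
  obtain ⟨S, P, -, hS, hP⟩ := Igusa.GaussX0.exists_common_denom g
  let Q : Fin (dedekindPsi M) → (ResidueField A)[X] := fun l =>
    ∑ a : Fin q, expand _ q (P (a, l)) * X ^ (a : ℕ)
  have hQ : Q = 0 := by
    refine Igusa.GaussX0.independent_res (isUnit_natCast hqM hA) Q ?_
    have h1 : (∑ p : Fin q × Fin (dedekindPsi M),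
        (g p : LaurentSeries (ResidueField A)) *
          (jqModC (ResidueField A) ^ (p.1 : ℕ) * jqNModC (ResidueField A) M ^ (p.2 : ℕ))) * aeval (jqModC (ResidueField A) ^ q) S = 0 := by
      rw [show ∑ p : Fin q × Fin (dedekindPsi M), (g p : LaurentSeries (ResidueField A)) *
          (jqModC (ResidueField A) ^ (p.1 : ℕ) * jqNModC (ResidueField A) M ^ (p.2 : ℕ)) = 0 from hg, zero_mul]
    rw [← h1, Finset.sum_mul, Fintype.sum_prod_type, Finset.sum_comm]
    refine Finset.sum_congr rfl fun l _ => ?_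
    rw [map_sum, Finset.sum_mul]
    refine Finset.sum_congr rfl fun a _ => ?_
    rw [map_mul, expand_aeval, ← hP, aeval_X_pow]
    ring
  intro p
  obtain ⟨a, l⟩ := p
  have h2 : P (a, l) = 0 := by
    ext n
    have h3 := congrArg (fun r : (ResidueField A)[X] => r.coeff (q * n + (a : ℕ))) (congrFun hQ l)
    simp only [Q, finsetSum_coeff, coeff_mul_X_pow', Pi.zero_apply, coeff_zero] at h3
    rw [Finset.sum_eq_single a (fun b _ hb => ?_) (fun hh => (hh (Finset.mem_univ a)).elim)] at h3
    · rw [if_pos (Nat.le_add_left _ _), Nat.add_sub_cancel, mul_comm,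
        coeff_expand_mul (Fact.out : q.Prime).pos] at h3
      rwa [coeff_zero]
    · split_ifs with hle
      · rw [coeff_expand (Fact.out : q.Prime).pos, if_neg]
        intro hd
        apply hb
        obtain ⟨t, ht⟩ := hd
        have ha := a.2
        have hb' := b.2
        apply Fin.ext
        rcases lt_trichotomy t n with h | h | h
        · have := Nat.mul_le_mul_left q (Nat.succ_le_of_lt h)
          rw [Nat.mul_succ] at this
          omega
        · subst h; omega
        · have := Nat.mul_le_mul_left q (Nat.succ_le_of_lt h)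
          rw [Nat.mul_succ] at this
          omega
      · rfl
  have h4 := hP (a, l)
  rw [h2, map_zero, mul_eq_zero] at h4
  exact Subtype.ext (h4.resolve_right hS)

end Residual

/-- Ramification indices. -/
def triE (q : ℕ) : Fin 3 → ℕ
  | 2 => q - 1
  | _ => 1

theorem triE_pos (i : Fin 3) : 0 < triE q i := by
  have := (Fact.out : q.Prime).two_le
  fin_cases i <;> simp [triE] <;> omega

variable (A : ValuationSubring Qb) (K : Subfield Qb) {F : Type*} [Field F] [Algebra K F]
  (ι : F →+* modularFunctionFieldBar (q * q * M))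

/-- A form of level `q² M` over the field of constants `K`, in which `q` is a uniformiser. -/
structure LevelForm : Prop where
  compat : ∀ c : K, ι (algebraMap K F c) =
    algebraMap Qb (modularFunctionFieldBar (q * q * M)) (c : Qb)
  coeff_mem : ∀ f n, (ι f : LaurentSeries Qb).coeff n ∈ K
  gen_mem : ∀ (b : ℕ) (_ : NeZero b) (hb : b ∣ M) (e : Fin 3), ∃ f, ι f = lvlElt hb e
  uniformizer : ∀ a : K, (a : Qb) ∈ A.nonunits → (a : Qb) / q ∈ A

variable {A K ι} (hqM : ¬ q ∣ M) (hA : A.LiesOverPrime q) (h : LevelForm A K ι)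

variable (A K) in
/-- The constants' valuation ring. -/
abbrev constRing : ValuationSubring K := A.comap K.subtype

variable (A K) in
/-- The reduction of the constants. -/
def constRes : constRing A K →+* ResidueField A :=
  (residue A).comp ((K.subtype.comp (constRing A K).subtype).codRestrict _ fun a => a.2)

variable (A ι) in
/-- The three valuation rings. -/
def levelVal (i : Fin 3) : ValuationSubring F := (triVal hqM A i).comap ι

variable (A ι) in
/-- The three reductions. -/
def levelRed (i : Fin 3) : levelVal A ι hqM i →+* LaurentSeries (ResidueField A) :=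
  (triRed hqM A i).comp ((ι.comp (levelVal A ι hqM i).subtype).codRestrict _ fun x => x.2)

theorem mem_levelVal_iff {i : Fin 3} {f : F} :
    f ∈ levelVal A ι hqM i ↔ ι f ∈ triVal hqM A i := Iff.rfl

theorem levelRed_of_eq {i : Fin 3} {f : F} {g : modularFunctionFieldBar (q * q * M)}
    (e : ι f = g) (hg : g ∈ triVal hqM A i) :
    ∃ hm : f ∈ levelVal A ι hqM i, levelRed A ι hqM i ⟨f, hm⟩ = triRed hqM A i ⟨g, hg⟩ := by
  subst e
  exact ⟨hg, rfl⟩

include h

/-- A preimage of a generator. -/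
def levelElt {b : ℕ} [NeZero b] (hb : b ∣ M) (e : Fin 3) : F :=
  (h.gen_mem b ‹_› hb e).choose

theorem ι_levelElt {b : ℕ} [NeZero b] (hb : b ∣ M) (e : Fin 3) :
    ι (levelElt h hb e) = lvlElt hb e :=
  (h.gen_mem b ‹_› hb e).choose_spec

/-- `j (q τ)`. -/
def levelX : F := levelElt h (one_dvd M) 1

/-- `j (τ) - j (q² τ)`. -/
def levelMid : F := levelElt h (one_dvd M) 0 - levelElt h (one_dvd M) 2

/-- The uniformisers. -/
def levelUnif : Fin 3 → F
  | 2 => levelMid h
  | _ => algebraMap K F ⟨(q : Qb), natCast_mem K q⟩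

theorem ι_levelMid : ι (levelMid h) = midElt q M := by
  rw [levelMid, map_sub, ι_levelElt, ι_levelElt, midElt]

include hA

theorem levelRed_levelElt_zero {b : ℕ} [NeZero b] (hb : b ∣ M) (i : Fin 3) :
    ∃ hm : levelElt h hb 0 ∈ levelVal A ι hqM i, levelRed A ι hqM i ⟨_, hm⟩ =
      qExpand (ResidueField A) b (jqModC (ResidueField A)) ^ (if i = 1 then q * q else 1) := by
  obtain ⟨hm, e⟩ := triRed_lvlElt_zero hqM hA hb i
  obtain ⟨hm', e'⟩ := levelRed_of_eq hqM (ι_levelElt h hb 0) hm
  exact ⟨hm', e'.trans e⟩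

theorem levelRed_levelElt_one {b : ℕ} [NeZero b] (hb : b ∣ M) (i : Fin 3) :
    ∃ hm : levelElt h hb 1 ∈ levelVal A ι hqM i, levelRed A ι hqM i ⟨_, hm⟩ =
      qExpand (ResidueField A) b (jqModC (ResidueField A)) ^ q := by
  obtain ⟨hm, e⟩ := triRed_lvlElt_one hqM hA hb i
  obtain ⟨hm', e'⟩ := levelRed_of_eq hqM (ι_levelElt h hb 1) hm
  exact ⟨hm', e'.trans e⟩

theorem levelRed_levelElt_two {b : ℕ} [NeZero b] (hb : b ∣ M) (i : Fin 3) :
    ∃ hm : levelElt h hb 2 ∈ levelVal A ι hqM i, levelRed A ι hqM i ⟨_, hm⟩ =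
      qExpand (ResidueField A) b (jqModC (ResidueField A)) ^ (if i = 0 then q * q else 1) := by
  obtain ⟨hm, e⟩ := triRed_lvlElt_two hqM hA hb i
  obtain ⟨hm', e'⟩ := levelRed_of_eq hqM (ι_levelElt h hb 2) hm
  exact ⟨hm', e'.trans e⟩

theorem levelRed_levelX (i : Fin 3) :
    ∃ hm : levelX h ∈ levelVal A ι hqM i,
      levelRed A ι hqM i ⟨_, hm⟩ = jqModC (ResidueField A) ^ q := by
  obtain ⟨hm, e⟩ := levelRed_levelElt_one hqM hA h (one_dvd M) i
  exact ⟨hm, e.trans (by rw [qExpand_one_apply])⟩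

theorem gaussAbove :
    GaussAbove (constRes A K) (levelVal A ι hqM) (levelRed A ι hqM) (levelX h)
      ⟨(q : Qb), natCast_mem K q⟩ := by
  refine
    { ker := fun i => ?_
      mem := fun i a => ?_
      compat := fun i a => ?_
      x_mem := fun i => (levelRed_levelX hqM hA h i).1
      x_transc := fun i => ?_
      kerA := ?_
      p_ne := fun h0 => (Nat.cast_ne_zero (R := Qb)).mpr (Fact.out : q.Prime).ne_zero
        (congrArg Subtype.val h0)
      p_gen := fun a ha => ?_ }
  · ext ⟨f, hf⟩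
    rw [RingHom.mem_ker, IsLocalRing.mem_maximalIdeal, mem_nonunits_iff]
    refine ⟨fun h0 hu => ?_, fun hu => ?_⟩
    · have := hu.map (levelRed A ι hqM i)
      rw [h0] at this
      exact not_isUnit_zero this
    · by_contra hne
      have hf0 : f ≠ 0 := fun h1 => hne (by
        rw [show (⟨f, hf⟩ : levelVal A ι hqM i) = 0 from Subtype.ext h1, map_zero])
      have hinv : f⁻¹ ∈ levelVal A ι hqM i := by
        rw [mem_levelVal_iff, map_inv₀]
        exact inv_mem_triVal hqM A hf hne
      exact hu (IsUnit.of_mul_eq_one ⟨f⁻¹, hinv⟩ (Subtype.ext (mul_inv_cancel₀ hf0)))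
  · exact (levelRed_of_eq hqM (h.compat a) ((algebraMap_mem_triVal_iff hqM A i).2 a.2)).1
  · exact (levelRed_of_eq hqM (h.compat a) ((algebraMap_mem_triVal_iff hqM A i).2 a.2)).2.trans
      (triRed_algebraMap hqM A i ⟨((a : K) : Qb), a.2⟩)
  · rw [(levelRed_levelX hqM hA h i).2]
    exact (ModFun.transcendental_jqModC _).pow (Fact.out : q.Prime).pos
  · ext a
    rw [RingHom.mem_ker, IsLocalRing.mem_maximalIdeal, mem_nonunits_iff]
    refine ⟨fun h0 hu => ?_, fun hu => ?_⟩
    · have := hu.map (constRes A K)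
      rw [h0] at this
      exact not_isUnit_zero this
    · by_contra hne
      have hu' := IsLocalRing.notMem_maximalIdeal.mp (fun h1 => hne ((residue_eq_zero_iff _).mpr h1))
      obtain ⟨v, hv⟩ := hu'
      have h1 : ((a : K) : Qb) * (((v⁻¹ : Aˣ) : A) : Qb) = 1 := by
        have := congrArg (fun z : A => (z : Qb)) v.mul_inv
        rw [hv] at this
        exact this
      have hinv : ((a : K)⁻¹) ∈ constRing A K := by
        show (((a : K)⁻¹ : K) : Qb) ∈ A
        push_cast
        rw [inv_eq_of_mul_eq_one_right h1]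
        exact SetLike.coe_mem _
      have ha0 : (a : K) ≠ 0 := fun h2 => by simp [h2] at h1
      exact hu (IsUnit.of_mul_eq_one ⟨_, hinv⟩ (Subtype.ext (mul_inv_cancel₀ ha0)))
  · show (((a : K) / _ : K) : Qb) ∈ A
    push_cast
    refine h.uniformizer (a : K) ?_
    exact (ValuationSubring.coe_mem_nonunits_iff (a := ⟨((a : K) : Qb), a.2⟩)).mpr
      ((residue_eq_zero_iff _).mp ha)

theorem q_div_zeta_mem :
    (q : Qb) / ((zetaQ q : Qb) - 1) ^ (q - 1) ∈ A ∧
      ((zetaQ q : Qb) - 1) ^ (q - 1) / (q : Qb) ∈ A := by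
  have hv : A.valuation (q : Qb) = A.valuation ((zetaQ q : Qb) - 1) ^ (q - 1) :=
    (CGood.valuation_q hA).trans (by rw [CGood.coe_wQ])
  have hq : A.valuation (q : Qb) ≠ 0 :=
    (_root_.map_ne_zero _).mpr (Nat.cast_ne_zero.mpr (Fact.out : q.Prime).ne_zero)
  constructor <;>
  · rw [← A.valuation_le_one_iff, map_div₀, map_pow, ← hv, div_self hq]

theorem levelUnif_mem (i : Fin 3) :
    ∃ hm : levelUnif h i ∈ levelVal A ι hqM i, levelRed A ι hqM i ⟨_, hm⟩ = 0 ∧
      levelUnif h i ≠ 0 ∧
      algebraMap K F ⟨(q : Qb), natCast_mem K q⟩ / levelUnif h i ^ triE q i ∈ levelVal A ι hqM i ∧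
      levelUnif h i ^ triE q i / algebraMap K F ⟨(q : Qb), natCast_mem K q⟩ ∈
        levelVal A ι hqM i := by
  have g := gaussAbove hqM hA h
  set p : K := ⟨(q : Qb), natCast_mem K q⟩
  have hq : (q : Qb) ∈ A := natCast_mem A q
  by_cases hi : i = 2
  · subst hi
    obtain ⟨hw, hwne⟩ := triRed_midElt hqM hA (M := M)
    set w := ((zetaQ q : Qb) - 1)
    have hw0 : w ≠ 0 := CGood.wQ_ne q A
    set u := midElt q M * (algebraMap Qb F2bar w)⁻¹ with hu
    have hmid : midElt q M = u * algebraMap Qb F2bar w := by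
      rw [hu, inv_mul_cancel_right₀ ((_root_.map_ne_zero _).mpr hw0)]
    have hwA : algebraMap Qb F2bar w ∈ triVal hqM A 2 :=
      (algebraMap_mem_triVal_iff hqM A 2).2 (CGood.wQ q A).2
    have hu0 : u ≠ 0 := fun h0 => hwne (by
      rw [show (⟨u, hw⟩ : triVal hqM A 2) = 0 from Subtype.ext h0, map_zero])
    have hm : levelMid h ∈ levelVal A ι hqM 2 := by
      rw [mem_levelVal_iff, ι_levelMid, hmid]
      exact (triVal hqM A 2).mul_mem _ _ hw hwA
    obtain ⟨hq1, hq2⟩ := q_div_zeta_mem hA h (q := q)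
    refine ⟨hm, ?_, ?_, ?_, ?_⟩
    · obtain ⟨hm', e⟩ := levelRed_of_eq hqM ((ι_levelMid h).trans hmid)
        ((triVal hqM A 2).mul_mem _ _ hw hwA)
      show levelRed A ι hqM 2 ⟨levelMid h, hm'⟩ = 0
      have e0 : triRed hqM A 2 ⟨_, hwA⟩ = 0 :=
        (triRed_algebraMap hqM A 2 (CGood.wQ q A)).trans (by rw [CGood.π_wQ q A hA, map_zero])
      have e1 := map_mul (triRed hqM A 2) ⟨u, hw⟩ ⟨_, hwA⟩
      rw [e0, mul_zero] at e1
      exact e.trans e1
    · intro h0
      refine mul_ne_zero hu0 ((_root_.map_ne_zero (algebraMap Qb F2bar)).mpr hw0) ?_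
      rw [← hmid, ← ι_levelMid h, show levelMid h = 0 from h0, map_zero]
    · show algebraMap K F p / levelMid h ^ (q - 1) ∈ _
      rw [mem_levelVal_iff, map_div₀, map_pow, ι_levelMid, h.compat, hmid, mul_pow,
        ← map_pow, div_mul_eq_div_div_swap, ← map_div₀, div_eq_mul_inv, ← inv_pow]
      exact (triVal hqM A 2).mul_mem _ _ ((algebraMap_mem_triVal_iff hqM A 2).2 hq1)
        ((triVal hqM A 2).toSubring.pow_mem (inv_mem_triVal hqM A hw hwne) _)
    · show levelMid h ^ (q - 1) / algebraMap K F p ∈ _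
      rw [mem_levelVal_iff, map_div₀, map_pow, ι_levelMid, h.compat, hmid, mul_pow,
        ← map_pow, mul_div_assoc, ← map_div₀]
      exact (triVal hqM A 2).mul_mem _ _ ((triVal hqM A 2).toSubring.pow_mem hw _)
        ((algebraMap_mem_triVal_iff hqM A 2).2 hq2)
  · have e : levelUnif h i = algebraMap K F p ∧ triE q i = 1 := by
      fin_cases i
      · exact ⟨rfl, rfl⟩
      · exact ⟨rfl, rfl⟩
      · exact absurd rfl hi
    have hp0 : algebraMap K F p ≠ 0 := g.p_ne'
    have hm : algebraMap K F p ∈ levelVal A ι hqM i :=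
      g.mem i (⟨p, hq⟩ : constRing A K)
    refine ⟨e.1 ▸ hm, ?_, e.1 ▸ hp0, ?_, ?_⟩
    · have e1 : (⟨levelUnif h i, e.1 ▸ hm⟩ : levelVal A ι hqM i) =
          ⟨_, g.mem i (⟨p, hq⟩ : constRing A K)⟩ := Subtype.ext e.1
      rw [e1, g.compat]
      have hz : constRes A K ⟨p, hq⟩ = 0 := by
        rw [constRes, RingHom.comp_apply, residue_eq_zero_iff,
          ← ValuationSubring.coe_mem_nonunits_iff]
        exact hA
      rw [hz, map_zero]
    · rw [e.1, e.2, pow_one, div_self hp0]
      exact one_mem _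
    · rw [e.1, e.2, pow_one, div_self hp0]
      exact one_mem _

theorem exists_not_mem {i j : Fin 3} (hij : i ≠ j) :
    ∃ f, f ∈ levelVal A ι hqM i ∧ f ∉ levelVal A ι hqM j := by
  have g := gaussAbove hqM hA h
  have hinv : ∀ {i j : Fin 3} {f : F} (hi : f ∈ levelVal A ι hqM i)
      (hj : f ∈ levelVal A ι hqM j), levelRed A ι hqM i ⟨f, hi⟩ ≠ 0 →
      levelRed A ι hqM j ⟨f, hj⟩ = 0 →
      f⁻¹ ∈ levelVal A ι hqM i ∧ f⁻¹ ∉ levelVal A ι hqM j := by
    intro i j f hi hj hne h0
    have hf0 : f ≠ 0 := fun h1 => hne (by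
      rw [show (⟨f, hi⟩ : levelVal A ι hqM i) = 0 from Subtype.ext h1, map_zero])
    refine ⟨g.inv_mem_of_ne hi hne, fun hm => ?_⟩
    have := congrArg (levelRed A ι hqM j)
      (show (⟨f, hj⟩ : levelVal A ι hqM j) * ⟨_, hm⟩ = 1 from Subtype.ext (mul_inv_cancel₀ hf0))
    rw [map_mul, h0, zero_mul, map_one] at this
    exact zero_ne_one this
  have hred : ∀ i : Fin 3, ∃ (h0 : levelElt h (one_dvd M) 0 ∈ levelVal A ι hqM i)
      (h1 : levelElt h (one_dvd M) 1 ∈ levelVal A ι hqM i)
      (h2 : levelElt h (one_dvd M) 2 ∈ levelVal A ι hqM i),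
      levelRed A ι hqM i ⟨_, h0⟩ = jqModC _ ^ (if i = 1 then q * q else 1) ∧
      levelRed A ι hqM i ⟨_, h1⟩ = jqModC _ ^ q ∧
      levelRed A ι hqM i ⟨_, h2⟩ = jqModC _ ^ (if i = 0 then q * q else 1) := fun i => by
    obtain ⟨a, ha⟩ := levelRed_levelElt_zero hqM hA h (one_dvd M) i
    obtain ⟨b, hb⟩ := levelRed_levelElt_one hqM hA h (one_dvd M) i
    obtain ⟨c, hc⟩ := levelRed_levelElt_two hqM hA h (one_dvd M) i
    rw [qExpand_one_apply] at ha hb hc
    exact ⟨a, b, c, ha, hb, hc⟩
  choose m0 m1 m2 r0 r1 r2 using hred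
  have hq := (Fact.out : q.Prime).two_le
  have hqq : q * q ≠ 1 := by nlinarith
  -- the middle uniformiser is a unit away from the middle
  have hmid : ∀ i : Fin 3, i ≠ 2 → ∃ hm : levelMid h ∈ levelVal A ι hqM i,
      levelRed A ι hqM i ⟨_, hm⟩ ≠ 0 := by
    intro i hi
    refine ⟨(levelVal A ι hqM i).toSubring.sub_mem (m0 i) (m2 i), ?_⟩
    rw [show (⟨levelMid h, _⟩ : levelVal A ι hqM i) = ⟨_, m0 i⟩ - ⟨_, m2 i⟩ from rfl, map_sub,
      r0, r2, sub_ne_zero]
    refine jqModC_pow_ne ?_
    fin_cases i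
    · simpa using hqq.symm
    · simpa using hqq
    · exact absurd rfl hi
  obtain ⟨h2m, h20, h2ne, h2a, h2b⟩ := levelUnif_mem hqM hA h 2
  change levelMid h ∈ levelVal A ι hqM 2 at h2m
  by_cases hi : i = 2
  · subst hi
    obtain ⟨hm, hne⟩ := hmid j (Ne.symm hij)
    refine ⟨levelMid h ^ (q - 1) / algebraMap K F ⟨(q : Qb), natCast_mem K q⟩, h2b, fun hc => ?_⟩
    have h3 := (levelVal A ι hqM j).mul_mem _ _ hc
      ((levelVal A ι hqM j).toSubring.pow_mem (g.inv_mem_of_ne hm hne) (q - 1))
    rw [div_mul_eq_mul_div, inv_pow, mul_inv_cancel₀ (pow_ne_zero _ (show levelMid h ≠ 0 from h2ne)), one_div,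
      mem_levelVal_iff, map_inv₀, h.compat, ← map_inv₀, algebraMap_mem_triVal_iff] at h3
    have h4 := (A.valuation_le_one_iff _).mpr h3
    rw [map_inv₀, inv_le_one₀ (zero_lt_iff.mpr ((_root_.map_ne_zero _).mpr
      (Nat.cast_ne_zero.mpr (Fact.out : q.Prime).ne_zero)))] at h4
    exact absurd h4 (not_le.mpr ((show A.valuation (q : Qb) < 1 from hA)))
  by_cases hj : j = 2
  · subst hj
    obtain ⟨hm, hne⟩ := hmid i hi
    exact ⟨_, hinv hm h2m hne h20⟩
  obtain rfl | rfl : i = 0 ∨ i = 1 := by omega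
  all_goals obtain rfl | rfl : j = 0 ∨ j = 1 := by omega
  · exact absurd rfl hij
  · have hm : ∀ i, levelElt h (one_dvd M) 2 ^ q - levelElt h (one_dvd M) 1 ∈
        levelVal A ι hqM i := fun i =>
      (levelVal A ι hqM i).toSubring.sub_mem
        ((levelVal A ι hqM i).toSubring.pow_mem (m2 i) q) (m1 i)
    have hv : ∀ i, levelRed A ι hqM i ⟨_, hm i⟩ =
        (jqModC _ ^ (if i = 0 then q * q else 1)) ^ q - jqModC _ ^ q := fun i => by
      rw [show (⟨_, hm i⟩ : levelVal A ι hqM i) = ⟨_, m2 i⟩ ^ q - ⟨_, m1 i⟩ from rfl, map_sub,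
        map_pow, r2, r1]
    refine ⟨_, hinv (hm 0) (hm 1) ?_ ?_⟩
    · rw [hv, if_pos rfl, ← pow_mul, sub_ne_zero]
      exact jqModC_pow_ne (by nlinarith)
    · rw [hv, if_neg (by decide), pow_one, sub_self]
  · have hm : ∀ i, levelElt h (one_dvd M) 0 ^ q - levelElt h (one_dvd M) 1 ∈
        levelVal A ι hqM i := fun i =>
      (levelVal A ι hqM i).toSubring.sub_mem
        ((levelVal A ι hqM i).toSubring.pow_mem (m0 i) q) (m1 i)
    have hv : ∀ i, levelRed A ι hqM i ⟨_, hm i⟩ =
        (jqModC _ ^ (if i = 1 then q * q else 1)) ^ q - jqModC _ ^ q := fun i => by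
      rw [show (⟨_, hm i⟩ : levelVal A ι hqM i) = ⟨_, m0 i⟩ ^ q - ⟨_, m1 i⟩ from rfl, map_sub,
        map_pow, r0, r1]
    refine ⟨_, hinv (hm 1) (hm 0) ?_ ?_⟩
    · rw [hv, if_pos rfl, ← pow_mul, sub_ne_zero]
      exact jqModC_pow_ne (by nlinarith)
    · rw [hv, if_neg (by decide), pow_one, sub_self]
  · exact absurd rfl hij

omit hA in
include hqM in
theorem finrank_levelX_le :
    Module.finrank K⟮levelX h⟯ F ≤ q * ((q + 1) * dedekindPsi M) ∧
      Module.Finite K⟮levelX h⟯ F :=
  finrank_le_of_coeff K ι h.compat h.coeff_mem (ι_levelElt h (one_dvd M) 1) hqM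

/-- Lifts of `z ^ a z_M ^ l` at each component. -/
theorem exists_lift (i : Fin 3) :
    ∃ w : Fin q × Fin (dedekindPsi M) → levelVal A ι hqM i,
      LinearIndependent (ResidueField A)⟮levelRed A ι hqM i ⟨levelX h,
        (gaussAbove hqM hA h).x_mem i⟩⟯ fun l => levelRed A ι hqM i (w l) := by
  have key : ∀ (b : ℕ) (_ : NeZero b), b ∣ M → ∃ f : levelVal A ι hqM i,
      levelRed A ι hqM i f = qExpand (ResidueField A) b (jqModC (ResidueField A)) := by
    intro b _ hb
    by_cases hi : i = 1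
    · obtain ⟨hm, e⟩ := levelRed_levelElt_two hqM hA h hb i
      exact ⟨⟨_, hm⟩, by rw [e, if_neg (by rw [hi]; decide), pow_one]⟩
    · obtain ⟨hm, e⟩ := levelRed_levelElt_zero hqM hA h hb i
      exact ⟨⟨_, hm⟩, by rw [e, if_neg hi, pow_one]⟩
  obtain ⟨f1, hf1⟩ := key 1 ⟨one_ne_zero⟩ (one_dvd M)
  obtain ⟨fM, hfM⟩ := key M ‹_› dvd_rfl
  refine ⟨fun l => f1 ^ (l.1 : ℕ) * fM ^ (l.2 : ℕ), ?_⟩
  have e : ∀ l : Fin q × Fin (dedekindPsi M),
      levelRed A ι hqM i (f1 ^ (l.1 : ℕ) * fM ^ (l.2 : ℕ)) =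
        jqModC (ResidueField A) ^ (l.1 : ℕ) * jqNModC (ResidueField A) M ^ (l.2 : ℕ) := fun l => by
    rw [map_mul, map_pow, map_pow, hf1, hfM, qExpand_one_apply]
    rfl
  simp only [e]
  have hx : (ResidueField A)⟮levelRed A ι hqM i ⟨levelX h, (gaussAbove hqM hA h).x_mem i⟩⟯ =
      (ResidueField A)⟮jqModC (ResidueField A) ^ q⟯ :=
    congrArg (fun z : LaurentSeries (ResidueField A) => (ResidueField A)⟮z⟯)
      (levelRed_levelX hqM hA h i).2
  rw [hx]
  exact linearIndependent_res hqM hA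

omit hA in
include hqM in
theorem degree_eq_sum :
    Module.finrank K⟮levelX h⟯ F ≤
      ∑ i, triE q i * Fintype.card (Fin q × Fin (dedekindPsi M)) := by
  refine (finrank_levelX_le hqM h).1.trans (le_of_eq ?_)
  have := (Fact.out : q.Prime).one_le
  simp only [Fintype.card_prod, Fintype.card_fin, Fin.sum_univ_three, triE]
  conv_lhs => rw [show q + 1 = 1 + 1 + (q - 1) by omega]
  ring

/-- The functions integral at the three places: spanned over the Gauss ring by finitely many. -/
theorem exists_integral_basis :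
    ∃ (n : ℕ) (u : Fin n → F), (∀ s i, u s ∈ levelVal A ι hqM i) ∧
      ∀ f : F, (∀ i, f ∈ levelVal A ι hqM i) →
        ∃ (t : (constRing A K)[X]) (P : Fin n → (constRing A K)[X]),
          t.map (constRes A K) ≠ 0 ∧ evI (levelX h) t * f = ∑ s, evI (levelX h) (P s) * u s := by
  haveI := (finrank_levelX_le hqM h).2
  choose w hw using exists_lift hqM hA h
  choose hm h0 hne he _ using levelUnif_mem hqM hA h
  obtain ⟨u, hu, hs⟩ := (gaussAbove hqM hA h).exists_integral_basis
    (fun i j hij => exists_not_mem hqM hA h hij) hm h0 hne he w hw (degree_eq_sum hqM h)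
  let E := Fintype.equivFin (Σ i : Fin 3, Fin (triE q i) × (Fin q × Fin (dedekindPsi M)))
  refine ⟨_, u ∘ E.symm, fun s => hu _, fun f hf => ?_⟩
  obtain ⟨t, P, ht, he⟩ := hs f hf
  exact ⟨t, P ∘ E.symm, ht,
    he.trans (E.symm.sum_comp fun s => evI (levelX h) (P s) * u s).symm⟩

/-- No other valuation ring lies above the Gauss valuation of `K (j (q τ))`. -/
theorem mem_of_forall_levelVal (W : ValuationSubring F)
    (hWA : ∀ a : constRing A K, algebraMap K F a ∈ W) (hWx : levelX h ∈ W)
    (hWt : ∀ t : (constRing A K)[X], t.map (constRes A K) ≠ 0 → (evI (levelX h) t)⁻¹ ∈ W)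
    {f : F} (hf : ∀ i, f ∈ levelVal A ι hqM i) : f ∈ W := by
  haveI := (finrank_levelX_le hqM h).2
  choose w hw using exists_lift hqM hA h
  choose hm h0 hne he _ using levelUnif_mem hqM hA h
  exact (gaussAbove hqM hA h).mem_of_forall_mem
    (fun i j hij => exists_not_mem hqM hA h hij) hm h0 hne he w hw (degree_eq_sum hqM h)
    W hWA hWx hWt hf

/-- `levelUnif` generates each maximal ideal. -/
theorem div_levelUnif_mem {i : Fin 3} {f : F} (hf : f ∈ levelVal A ι hqM i)
    (h0 : levelRed A ι hqM i ⟨f, hf⟩ = 0) : f / levelUnif h i ∈ levelVal A ι hqM i := by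
  haveI := (finrank_levelX_le hqM h).2
  choose w hw using exists_lift hqM hA h
  choose hm hm0 hne he _ using levelUnif_mem hqM hA h
  exact (gaussAbove hqM hA h).div_mem_of_map_eq_zero
    (fun i j hij => exists_not_mem hqM hA h hij) hm hm0 hne he w hw (degree_eq_sum hqM h)
    (triE_pos i) hf h0

/-- The residual fields are no bigger than the field generated by `z` and `z_M`. -/
theorem levelRed_mem (R : IntermediateField (ResidueField A) (LaurentSeries (ResidueField A)))
    (hz : jqModC (ResidueField A) ∈ R) (hzM : jqNModC (ResidueField A) M ∈ R) {i : Fin 3} {f : F}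
    (hf : f ∈ levelVal A ι hqM i) : levelRed A ι hqM i ⟨f, hf⟩ ∈ R := by
  classical
  haveI := (finrank_levelX_le hqM h).2
  choose w hw using exists_lift hqM hA h
  choose hm hm0 hne he _ using levelUnif_mem hqM hA h
  set g := gaussAbove hqM hA h
  set k' := (ResidueField A)⟮levelRed A ι hqM i ⟨levelX h, g.x_mem i⟩⟯
  have hk' : k' ≤ R := by
    rw [IntermediateField.adjoin_le_iff, Set.singleton_subset_iff, SetLike.mem_coe,
      (levelRed_levelX hqM hA h i).2]
    exact pow_mem hz q
  -- a lift of the monomials at the component `i`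
  obtain ⟨v, hv⟩ : ∃ v : Fin q × Fin (dedekindPsi M) → levelVal A ι hqM i,
      ∀ l, levelRed A ι hqM i (v l) = jqModC (ResidueField A) ^ (l.1 : ℕ) *
        jqNModC (ResidueField A) M ^ (l.2 : ℕ) := by
    have key : ∀ (b : ℕ) (_ : NeZero b), b ∣ M → ∃ f : levelVal A ι hqM i,
        levelRed A ι hqM i f = qExpand (ResidueField A) b (jqModC (ResidueField A)) := by
      intro b _ hb
      by_cases hi : i = 1
      · obtain ⟨hm, e⟩ := levelRed_levelElt_two hqM hA h hb i
        exact ⟨⟨_, hm⟩, by rw [e, if_neg (by rw [hi]; decide), pow_one]⟩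
      · obtain ⟨hm, e⟩ := levelRed_levelElt_zero hqM hA h hb i
        exact ⟨⟨_, hm⟩, by rw [e, if_neg hi, pow_one]⟩
    obtain ⟨f1, hf1⟩ := key 1 ⟨one_ne_zero⟩ (one_dvd M)
    obtain ⟨fM, hfM⟩ := key M ‹_› dvd_rfl
    refine ⟨fun l => f1 ^ (l.1 : ℕ) * fM ^ (l.2 : ℕ), fun l => ?_⟩
    rw [map_mul, map_pow, map_pow, hf1, hfM, qExpand_one_apply]
    rfl
  have hli : LinearIndependent k' fun l => levelRed A ι hqM i (v l) := by
    simp only [hv]
    have gen : ∀ E : IntermediateField (ResidueField A) (LaurentSeries (ResidueField A)),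
        E = (ResidueField A)⟮jqModC (ResidueField A) ^ q⟯ →
        LinearIndependent E fun p : Fin q × Fin (dedekindPsi M) =>
          jqModC (ResidueField A) ^ (p.1 : ℕ) * jqNModC (ResidueField A) M ^ (p.2 : ℕ) := by
      rintro _ rfl
      exact linearIndependent_res hqM hA
    exact gen k' (congrArg (fun z : LaurentSeries (ResidueField A) => (ResidueField A)⟮z⟯)
      (levelRed_levelX hqM hA h i).2)
  by_contra hnot
  -- otherwise there is one more independent residue at `i`
  let E := Fintype.equivFin (Fin q × Fin (dedekindPsi M))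
  let c : Fin 3 → ℕ := fun j =>
    Fintype.card (Fin q × Fin (dedekindPsi M)) + if j = i then 1 else 0
  have hex : ∀ j, ∃ u : Fin (c j) → levelVal A ι hqM j,
      LinearIndependent (ResidueField A)⟮levelRed A ι hqM j ⟨levelX h, g.x_mem j⟩⟯
        fun l => levelRed A ι hqM j (u l) := by
    intro j
    by_cases hj : j = i
    · subst hj
      have hlast : levelRed A ι hqM j ⟨f, hf⟩ ∉ Submodule.span k'
          (Set.range fun l => levelRed A ι hqM j (v (E.symm l))) := by
        intro hspan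
        refine hnot ?_
        obtain ⟨d, hd⟩ := (Submodule.mem_span_range_iff_exists_fun _).mp hspan
        rw [← hd]
        refine sum_mem fun l _ => ?_
        rw [IntermediateField.smul_def, smul_eq_mul, hv]
        exact mul_mem (hk' (d l).2) (mul_mem (pow_mem hz _) (pow_mem hzM _))
      have hsn := linearIndependent_finSnoc.2 ⟨hli.comp _ E.symm.injective, hlast⟩
      let u₀ : Fin (Fintype.card (Fin q × Fin (dedekindPsi M)) + 1) → levelVal A ι hqM j :=
        Fin.snoc (fun l => v (E.symm l)) ⟨f, hf⟩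
      have hu₀ : (fun m => levelRed A ι hqM j (u₀ m)) =
          Fin.snoc (fun l => levelRed A ι hqM j (v (E.symm l))) (levelRed A ι hqM j ⟨f, hf⟩) := by
        funext m
        induction m using Fin.lastCases with
        | last => simp [u₀]
        | cast m => simp [u₀]
      have hu₁ : LinearIndependent k' fun m => levelRed A ι hqM j (u₀ m) := by
        rw [hu₀]
        exact hsn
      have hc : c j = Fintype.card (Fin q × Fin (dedekindPsi M)) + 1 := by simp [c]
      exact ⟨fun l => u₀ (Fin.cast hc l), hu₁.comp (Fin.cast hc) (Fin.cast_injective hc)⟩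
    · have hc : c j = Fintype.card (Fin q × Fin (dedekindPsi M)) := by simp [c, hj]
      exact ⟨fun l => w j (E.symm (Fin.cast hc l)),
        (hw j).comp (fun l => E.symm (Fin.cast hc l)) (E.symm.injective.comp (Fin.cast_injective hc))⟩
  choose u hu using hex
  have hle := g.sum_mul_le_finrank (fun a b hab => exists_not_mem hqM hA h hab) hm hm0 hne he u hu
  have hdeg := degree_eq_sum hqM h
  simp only [Fintype.card_fin] at hle
  have hlt : ∑ j, triE q j * Fintype.card (Fin q × Fin (dedekindPsi M)) < ∑ j, triE q j * c j := by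
    refine Finset.sum_lt_sum (fun j _ => Nat.mul_le_mul_left _ (Nat.le_add_right _ _))
      ⟨i, Finset.mem_univ i, ?_⟩
    exact Nat.mul_lt_mul_of_pos_left (by simp [c]) (triE_pos i)
  omega

end Fermat.Agent.Carayol.MainGauss
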