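/-
Theorem of Carayol at `q ^ 2 ∥ M`: common definitions.

For a place `A` of `ℚ̄` over the prime `q`, `K = inertiaField A` is the fixed field of inertia and
`Fld A N` the field of modular functions of level `N` over `K`, inside Laurent series over `ℚ̄`.
For `q ∤ M` the tower `Fld A M ⊆ Fld A (M * q) ⊆ Fld A (M * q * q)` has the three sides
`τ`, `q τ`, `q² τ`, the involutions exchanging the extreme sides, and three Gauss valuations.
-/
import Fermat.Prelude.Def_ModularCurve_HeckeOperator
import Fermat.Prelude.Def_ModularCurve_X0ModL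
import Fermat.Prelude.Def_FLTPrelim_Ramification
import Fermat.Agent.Carayol.ValuationsDefs
import Mathlib.RingTheory.IntegralClosure.IsIntegralClosure.Basic
import Mathlib.FieldTheory.Galois.Basic

set_option autoImplicit false
set_option linter.style.haveILetI false

noncomputable section

namespace Fermat.Agent.Carayol.Reg

open ModularCurve AlgebraicCurve IntermediateField

local notation "ℚbar" => AlgebraicClosure ℚ
local notation "Ser" => LaurentSeries (AlgebraicClosure ℚ)

variable (A : ValuationSubring (AlgebraicClosure ℚ))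

/-- The fixed field of the inertia group at `A`. -/
abbrev inertiaField : IntermediateField ℚ (AlgebraicClosure ℚ) :=
  IntermediateField.fixedField (A.inertiaSubgroupIn ℚ)

/-- The valuation ring of `inertiaField A`. -/
abbrev inertiaInt : ValuationSubring (inertiaField A) :=
  A.comap (algebraMap (inertiaField A) (AlgebraicClosure ℚ))

/-- The residue field. -/
abbrev Res := IsLocalRing.ResidueField A

/-- Laurent series over the residue field. -/
abbrev ResSer := LaurentSeries (Res A)

/-- Shortcut instance. -/
instance (priority := high) instAlgebraSer : Algebra (inertiaField A) Ser := inferInstance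

/-- Shortcut instance. -/
instance (priority := high) instAlgebraResSer : Algebra (Res A) (ResSer A) := inferInstance

set_option synthInstance.maxHeartbeats 400000 in
/-- Shortcut instance. -/
instance (priority := high) instFieldSub (E : IntermediateField (inertiaField A) Ser) : Field E :=
  E.toField

set_option synthInstance.maxHeartbeats 400000 in
/-- Shortcut instance. -/
instance (priority := high) instAlgebraSub (E : IntermediateField (inertiaField A) Ser) :
    Algebra (inertiaField A) E := inferInstance

set_option synthInstance.maxHeartbeats 400000 in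
/-- Shortcut instance. -/
instance (priority := high) instFieldResSub (E : IntermediateField (Res A) (ResSer A)) : Field E :=
  E.toField

set_option synthInstance.maxHeartbeats 400000 in
/-- Shortcut instance. -/
instance (priority := high) instAlgebraResSub (E : IntermediateField (Res A) (ResSer A)) :
    Algebra (Res A) E := inferInstance

/-- The field of modular functions of level `N` over `inertiaField A`. -/
def Fld (N : ℕ) : IntermediateField (inertiaField A) Ser :=
  IntermediateField.adjoin (inertiaField A) (divisorExpansionsC (AlgebraicClosure ℚ) N)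

/-- The residual field of modular functions of level `N`. -/
abbrev RFld (N : ℕ) [NeZero N] : IntermediateField (Res A) (ResSer A) :=
  modularFunctionFieldFullC (Res A) N

variable {A}

theorem jd_mem_fld {N d : ℕ} [NeZero d] (hd : d ∣ N) :
    qExpand (AlgebraicClosure ℚ) d (jqModC (AlgebraicClosure ℚ)) ∈ Fld A N :=
  IntermediateField.subset_adjoin _ _ (mem_divisorExpansionsC _ N hd)

theorem fld_mono {N N' : ℕ} (h : N ∣ N') : Fld A N ≤ Fld A N' := by
  refine IntermediateField.adjoin.mono _ _ _ ?_
  rintro x ⟨d, hne, hd, rfl⟩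
  exact ⟨d, hne, hd.trans h, rfl⟩

theorem jqModC_mem_fld (N : ℕ) : jqModC (AlgebraicClosure ℚ) ∈ Fld A N := by
  have h := jd_mem_fld (A := A) (N := N) (d := 1) (one_dvd N)
  rwa [qExpand_one_apply] at h

variable (A)

/-- The inclusion of levels (`τ`-side). -/
def incl (N N' : ℕ) (h : N ∣ N') : Fld A N →ₐ[inertiaField A] Fld A N' :=
  IntermediateField.inclusion (fld_mono h)

@[simp] theorem coe_incl {N N' : ℕ} (h : N ∣ N') (g : Fld A N) :
    (incl A N N' h g : Ser) = (g : Ser) := IntermediateField.coe_inclusion _ g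

theorem qExpand_algebraMap (d : ℕ) [NeZero d] (c : inertiaField A) :
    qExpand (AlgebraicClosure ℚ) d (algebraMap (inertiaField A) Ser c) =
      algebraMap (inertiaField A) Ser c := by
  rw [IsScalarTower.algebraMap_apply (inertiaField A) (AlgebraicClosure ℚ) Ser,
    algebraMap_laurentSeries_eq_single, qExpand_single, mul_zero]

theorem qExpand_mem_fld (N d : ℕ) [NeZero d] {x : Ser} (hx : x ∈ Fld A N) :
    qExpand (AlgebraicClosure ℚ) d x ∈ Fld A (N * d) := by
  induction hx using IntermediateField.adjoin_induction with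
  | mem y hy =>
    obtain ⟨e, hne, he, rfl⟩ := hy
    haveI := hne
    haveI : NeZero (e * d) := ⟨mul_ne_zero hne.ne (NeZero.ne d)⟩
    rw [qExpand_qExpand]
    exact jd_mem_fld (by rw [Nat.mul_comm]; exact mul_dvd_mul he dvd_rfl)
  | algebraMap c => rw [qExpand_algebraMap]; exact (Fld A (N * d)).algebraMap_mem c
  | add x y _ _ hx hy => rw [map_add]; exact add_mem hx hy
  | inv x _ hx => rw [map_inv₀]; exact inv_mem hx
  | mul x y _ _ hx hy => rw [map_mul]; exact mul_mem hx hy

/-- The map `g (τ) ↦ g (d τ)`. -/
def scale (N d : ℕ) [NeZero d] : Fld A N →ₐ[inertiaField A] Fld A (N * d) where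
  toFun g := ⟨qExpand (AlgebraicClosure ℚ) d g, qExpand_mem_fld A N d g.2⟩
  map_one' := Subtype.ext (map_one _)
  map_mul' _ _ := Subtype.ext (map_mul (qExpand (AlgebraicClosure ℚ) d) _ _)
  map_zero' := Subtype.ext (map_zero _)
  map_add' _ _ := Subtype.ext (map_add (qExpand (AlgebraicClosure ℚ) d) _ _)
  commutes' c := Subtype.ext (qExpand_algebraMap A d c)

@[simp] theorem coe_scale {N d : ℕ} [NeZero d] (g : Fld A N) :
    (scale A N d g : Ser) = qExpand (AlgebraicClosure ℚ) d g := rfl

variable (M q : ℕ) [NeZero M] [NeZero q]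

/-- The base level. -/
abbrev F₀ := Fld A M
/-- The middle level. -/
abbrev F₁ := Fld A (M * q)
/-- The top level. -/
abbrev F₂ := Fld A (M * q * q)

/-- `g ↦ g (τ)` from `F₀` to `F₁`. -/
abbrev x₁ : F₀ A M →ₐ[inertiaField A] F₁ A M q := incl A M (M * q) (dvd_mul_right M q)
/-- `g ↦ g (q τ)` from `F₀` to `F₁`. -/
abbrev y₁ : F₀ A M →ₐ[inertiaField A] F₁ A M q := scale A M q
/-- `g ↦ g (τ)` from `F₁` to `F₂`. -/
abbrev p₀₁ : F₁ A M q →ₐ[inertiaField A] F₂ A M q :=
  incl A (M * q) (M * q * q) (dvd_mul_right (M * q) q)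
/-- `g ↦ g (q τ)` from `F₁` to `F₂`. -/
abbrev p₁₂ : F₁ A M q →ₐ[inertiaField A] F₂ A M q := scale A (M * q) q

/-- `g ↦ g (τ)` from `F₀` to `F₂`. -/
def x₂ : F₀ A M →ₐ[inertiaField A] F₂ A M q := (p₀₁ A M q).comp (x₁ A M q)
/-- `g ↦ g (q τ)` from `F₀` to `F₂`. -/
def y₂ : F₀ A M →ₐ[inertiaField A] F₂ A M q := (p₀₁ A M q).comp (y₁ A M q)
/-- `g ↦ g (q² τ)` from `F₀` to `F₂`. -/
def z₂ : F₀ A M →ₐ[inertiaField A] F₂ A M q := (p₁₂ A M q).comp (y₁ A M q)

/-- The norm along `p₀₁`. -/
def norm₀₁ : F₂ A M q →* F₁ A M q :=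
  letI := (p₀₁ A M q).toRingHom.toAlgebra
  Algebra.norm (F₁ A M q)

/-- The norm along `p₁₂`. -/
def norm₁₂ : F₂ A M q →* F₁ A M q :=
  letI := (p₁₂ A M q).toRingHom.toAlgebra
  Algebra.norm (F₁ A M q)

/-- The norm along `x₁`. -/
def norm₁₀ : F₁ A M q →* F₀ A M :=
  letI := (x₁ A M q).toRingHom.toAlgebra
  Algebra.norm (F₀ A M)

/-- Gauss integral series. -/
def GaussInt : Subring Ser := gaussSubring A (IsLocalRing.residue A)

open scoped Classical in
/-- The reduction of a Gauss integral series (junk `0` otherwise). -/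
def red (g : Ser) : ResSer A :=
  if h : g ∈ GaussInt A then gaussRed A (IsLocalRing.residue A) ⟨g, h⟩ else 0

/-- Gauss units. -/
def IsGaussUnit (g : Ser) : Prop := g ∈ GaussInt A ∧ red A g ≠ 0

open scoped Classical in
/-- The Gauss valuation normalised at `q` (junk `0` if it is not an integer). -/
def val (g : Ser) : ℤ :=
  if h : ∃ m : ℤ, IsGaussUnit A (((q : Ser) ^ m)⁻¹ * g) then h.choose else 0

/-- The valuation attached to the middle component, with `val₁₁ q = q - 1`. -/
def val₁₁ (f : F₂ A M q) : ℤ := val A q (norm₀₁ A M q f : Ser) - val A q (f : Ser)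

/-- The constants `𝒪` inside `Fld A N`. -/
def constInt (N : ℕ) : Subring (Fld A N) :=
  (inertiaInt A).toSubring.map (algebraMap (inertiaField A) (Fld A N))

/-- The ring `𝒪[T]`. -/
def chartBase {N : ℕ} (T : Fld A N) : Subring (Fld A N) :=
  constInt A N ⊔ Subring.closure {T}

/-- The chart ring: functions integral over `𝒪[T]`. -/
def chart {N : ℕ} (T : Fld A N) : Subring (Fld A N) :=
  letI : Algebra (chartBase A T) (Fld A N) := (chartBase A T).subtype.toAlgebra
  (integralClosure (chartBase A T) (Fld A N)).toSubring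

/-- `j` as an element of `Fld A N`. -/
def jElt (N : ℕ) : Fld A N := ⟨jqModC (AlgebraicClosure ℚ), jqModC_mem_fld N⟩

/-- The residual `j`. -/
def jRes (N : ℕ) [NeZero N] : RFld A N :=
  ⟨jqModC (Res A), by
    exact jqModC_mem_full (Res A) N⟩

/-- Places of the residual curve. -/
abbrev Pt := AlgebraicCurve.Place (Res A) (RFld A M)

/-- The function `j` (for `false`) or `1 / j` (for `true`): the coordinates of the two charts. -/
def jCoord (N : ℕ) : Bool → Fld A N
  | false => jElt A N
  | true => (jElt A N)⁻¹

/-- The hypotheses on the level: prime to `q`, with enough level at `2`, `3`. -/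
def Admissible (q M : ℕ) : Prop :=
  ¬ q ∣ M ∧ (q = 2 → 9 ∣ M) ∧ (q = 3 → 4 ∣ M) ∧ (5 ≤ q → 6 ∣ M)

/-- The three components at the top level. -/
inductive Side
  | s20
  | s11
  | s02
  deriving DecidableEq, Fintype

end Fermat.Agent.Carayol.Reg

end
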