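/-
Theorem of Carayol at `q ^ 2 ∥ M`: the algebra of the normalised Gauss valuation on Laurent series
over `ℚ̄`,
its behaviour under `g ↦ g (d τ)` and twists, and the scaling of series with coefficients in a
discretely valued field of constants.
-/
import Fermat.Agent.Carayol.MainSetup
import Fermat.Agent.Carayol.ValuationsSeries
import Fermat.Agent.Carayol.ValuationsMonomial
import Fermat.Agent.Carayol.CGoodField
import Fermat.Agent.Galois.QbarInstances

set_option autoImplicit false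
set_option linter.style.haveILetI false

noncomputable section

namespace Fermat.Agent.Carayol.Reg

open ModularCurve IntermediateField IsLocalRing

local notation "Ser" => LaurentSeries (AlgebraicClosure ℚ)

variable {A : ValuationSubring (AlgebraicClosure ℚ)}

/-! ### Reductions -/

theorem red_of_mem {g : Ser} (h : g ∈ GaussInt A) :
    red A g = gaussRed A (residue A) ⟨g, h⟩ := dif_pos h

theorem red_of_not_mem {g : Ser} (h : g ∉ GaussInt A) : red A g = 0 := dif_neg h

theorem red_mul {g h : Ser} (hg : g ∈ GaussInt A) (hh : h ∈ GaussInt A) :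
    red A (g * h) = red A g * red A h := by
  rw [red_of_mem hg, red_of_mem hh, red_of_mem (mul_mem hg hh), ← map_mul]
  rfl

theorem red_add {g h : Ser} (hg : g ∈ GaussInt A) (hh : h ∈ GaussInt A) :
    red A (g + h) = red A g + red A h := by
  rw [red_of_mem hg, red_of_mem hh, red_of_mem (add_mem hg hh), ← map_add]
  rfl

theorem red_one : red A (1 : Ser) = 1 := by
  rw [red_of_mem (one_mem _), ← map_one (gaussRed A (residue A))]
  rfl

theorem red_algebraMap {a : AlgebraicClosure ℚ} (ha : a ∈ A) :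
    algebraMap (AlgebraicClosure ℚ) Ser a ∈ GaussInt A ∧
      red A (algebraMap (AlgebraicClosure ℚ) Ser a) =
        algebraMap (Res A) (ResSer A) (residue A ⟨a, ha⟩) := by
  obtain ⟨h, e⟩ := gaussRed_algebraMap (π := residue A) (⟨a, ha⟩ : A)
  exact ⟨h, (red_of_mem h).trans e⟩

theorem red_coeffMap (y : LaurentSeries A) :
    coeffMap A.subtype y ∈ GaussInt A ∧
      red A (coeffMap A.subtype y) = coeffMap (residue A) y :=
  ⟨coeffMap_mem_gaussSubring y,
    (red_of_mem (coeffMap_mem_gaussSubring y)).trans (gaussRed_coeffMap y)⟩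

theorem mem_of_algebraMap_mem {a : AlgebraicClosure ℚ}
    (h : algebraMap (AlgebraicClosure ℚ) Ser a ∈ GaussInt A) : a ∈ A :=
  algebraMap_mem_gaussSubring_iff.1 h

/-! ### Units -/

theorem IsGaussUnit.ne_zero {g : Ser} (h : IsGaussUnit A g) : g ≠ 0 := by
  rintro rfl
  exact h.2 ((red_of_mem h.1).trans (map_zero (gaussRed A (residue A))))

theorem isGaussUnit_one : IsGaussUnit A (1 : Ser) :=
  ⟨one_mem _, by rw [red_one]; exact one_ne_zero⟩

theorem IsGaussUnit.mul {g h : Ser} (hg : IsGaussUnit A g) (hh : IsGaussUnit A h) :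
    IsGaussUnit A (g * h) :=
  ⟨mul_mem hg.1 hh.1, by rw [red_mul hg.1 hh.1]; exact mul_ne_zero hg.2 hh.2⟩

theorem IsGaussUnit.inv {g : Ser} (hg : IsGaussUnit A g) : IsGaussUnit A g⁻¹ := by
  have h : g⁻¹ ∈ GaussInt A :=
    inv_mem_gaussSubring_of_red_ne_zero (f := ⟨g, hg.1⟩) (by rw [← red_of_mem hg.1]; exact hg.2)
  refine ⟨h, fun h0 => ?_⟩
  have := red_mul hg.1 h
  rw [mul_inv_cancel₀ hg.ne_zero, red_one, h0, mul_zero] at this
  exact one_ne_zero this

theorem IsGaussUnit.pow {g : Ser} (hg : IsGaussUnit A g) (n : ℕ) : IsGaussUnit A (g ^ n) := by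
  induction n with
  | zero => rw [pow_zero]; exact isGaussUnit_one
  | succ n ih => rw [pow_succ]; exact ih.mul hg

theorem isGaussUnit_prod {κ : Type*} (s : Finset κ) {g : κ → Ser}
    (hg : ∀ i ∈ s, IsGaussUnit A (g i)) : IsGaussUnit A (∏ i ∈ s, g i) := by
  classical
  induction s using Finset.induction with
  | empty => rw [Finset.prod_empty]; exact isGaussUnit_one
  | insert a s ha ih =>
    rw [Finset.prod_insert ha]
    exact (hg a (Finset.mem_insert_self a s)).mul
      (ih fun i hi => hg i (Finset.mem_insert_of_mem hi))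

theorem isGaussUnit_algebraMap {c : AlgebraicClosure ℚ} (hc : A.valuation c = 1) :
    IsGaussUnit A (algebraMap (AlgebraicClosure ℚ) Ser c) := by
  have hcA : c ∈ A := (A.valuation_le_one_iff c).1 hc.le
  obtain ⟨h, e⟩ := red_algebraMap hcA
  refine ⟨h, ?_⟩
  rw [e]
  refine fun h0 => ?_
  have h1 := (residue_eq_zero_iff _).1 ((_root_.map_eq_zero _).1 h0)
  exact absurd hc ((A.valuation_lt_one_iff ⟨c, hcA⟩).1 h1).ne

theorem red_eq_zero_of_mul {g u : Ser} {a : AlgebraicClosure ℚ} (ha : A.valuation a < 1)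
    (hu : u ∈ GaussInt A) (e : g = algebraMap (AlgebraicClosure ℚ) Ser a * u) :
    g ∈ GaussInt A ∧ red A g = 0 := by
  have haA : a ∈ A := (A.valuation_le_one_iff a).1 ha.le
  obtain ⟨h, hr⟩ := red_algebraMap haA
  subst e
  refine ⟨mul_mem h hu, ?_⟩
  rw [red_mul h hu, hr, (residue_eq_zero_iff _).2 ((A.valuation_lt_one_iff ⟨a, haA⟩).2 ha),
    map_zero, zero_mul]

/-! ### The normalised valuation -/

variable {q : ℕ} [Fact q.Prime] (hA : A.LiesOverPrime q)

theorem natCast_ser : (q : Ser) = algebraMap (AlgebraicClosure ℚ) Ser q :=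
  (map_natCast (algebraMap (AlgebraicClosure ℚ) Ser) q).symm

theorem natCast_zpow_ser (m : ℤ) :
    (q : Ser) ^ m = algebraMap (AlgebraicClosure ℚ) Ser ((q : AlgebraicClosure ℚ) ^ m) := by
  rw [natCast_ser, map_zpow₀]

theorem natCast_ser_ne : (q : Ser) ≠ 0 := by
  rw [natCast_ser]
  exact (_root_.map_ne_zero _).2 (Nat.cast_ne_zero.2 (Fact.out : q.Prime).ne_zero)

include hA

theorem valuation_q_lt : A.valuation (q : AlgebraicClosure ℚ) < 1 := hA

theorem valuation_q_pos : 0 < A.valuation (q : AlgebraicClosure ℚ) :=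
  zero_lt_iff.2 ((_root_.map_ne_zero _).2 (Nat.cast_ne_zero.2 (Fact.out : q.Prime).ne_zero))

theorem eq_zero_of_isGaussUnit_zpow {m : ℤ} (h : IsGaussUnit A ((q : Ser) ^ m)) : m = 0 := by
  have key : ∀ n : ℕ, 0 < n → ¬ IsGaussUnit A ((q : Ser) ^ n) := by
    intro n hn h
    refine h.2 (red_eq_zero_of_mul (a := (q : AlgebraicClosure ℚ) ^ n) ?_ (one_mem _) ?_).2
    · rw [map_pow]; exact pow_lt_one₀ zero_le (valuation_q_lt hA) hn.ne'
    · rw [mul_one, map_pow, natCast_ser]
  rcases lt_trichotomy m 0 with hm | hm | hm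
  · exfalso
    obtain ⟨n, rfl⟩ : ∃ n : ℕ, m = -(n : ℤ) := ⟨m.natAbs, by omega⟩
    have h' := h.inv
    rw [zpow_neg, inv_inv, zpow_natCast] at h'
    exact key n (by omega) h'
  · exact hm
  · exfalso
    obtain ⟨n, rfl⟩ : ∃ n : ℕ, m = (n : ℤ) := ⟨m.natAbs, by omega⟩
    rw [zpow_natCast] at h
    exact key n (by omega) h

theorem unique_val {g : Ser} {m m' : ℤ} (h : IsGaussUnit A (((q : Ser) ^ m)⁻¹ * g))
    (h' : IsGaussUnit A (((q : Ser) ^ m')⁻¹ * g)) : m = m' := by
  have hg : g ≠ 0 := right_ne_zero_of_mul h.ne_zero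
  have hu := h.mul h'.inv
  rw [show ((q : Ser) ^ m)⁻¹ * g * (((q : Ser) ^ m')⁻¹ * g)⁻¹ = (q : Ser) ^ (m' - m) by
    rw [zpow_sub₀ (natCast_ser_ne (q := q))]; field_simp] at hu
  have := eq_zero_of_isGaussUnit_zpow hA hu
  omega

theorem val_eq {g : Ser} {m : ℤ} (h : IsGaussUnit A (((q : Ser) ^ m)⁻¹ * g)) : val A q g = m := by
  have hex : ∃ m : ℤ, IsGaussUnit A (((q : Ser) ^ m)⁻¹ * g) := ⟨m, h⟩
  rw [val, dif_pos hex]
  exact unique_val hA hex.choose_spec h

theorem isGaussUnit_val {g : Ser} (h : ∃ m : ℤ, IsGaussUnit A (((q : Ser) ^ m)⁻¹ * g)) :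
    IsGaussUnit A (((q : Ser) ^ val A q g)⁻¹ * g) := by
  obtain ⟨m, hm⟩ := h
  rwa [val_eq hA hm]

/-- Integrality and vanishing of the reduction from the valuation. -/
theorem gauss_of_unit {g : Ser} {m : ℤ} (h : IsGaussUnit A (((q : Ser) ^ m)⁻¹ * g)) :
    (g ∈ GaussInt A ↔ 0 ≤ m) ∧ (0 ≤ m → (red A g ≠ 0 ↔ m = 0)) := by
  set u := ((q : Ser) ^ m)⁻¹ * g
  have hg : g = (q : Ser) ^ m * u := by
    rw [mul_inv_cancel_left₀ (zpow_ne_zero _ (natCast_ser_ne (q := q)))]
  have hpos : 0 < m → g ∈ GaussInt A ∧ red A g = 0 := fun hm => by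
    refine red_eq_zero_of_mul (a := (q : AlgebraicClosure ℚ) ^ m) ?_ h.1 (by
      rw [← natCast_zpow_ser]; exact hg)
    rw [map_zpow₀]
    exact zpow_lt_one₀ (valuation_q_pos hA) (valuation_q_lt hA) hm
  refine ⟨⟨fun hgm => ?_, fun hm => ?_⟩, fun hm => ⟨fun hne => ?_, fun h0 => ?_⟩⟩
  · by_contra hm
    refine h.2 (red_eq_zero_of_mul (a := (q : AlgebraicClosure ℚ) ^ (-m)) ?_ hgm ?_).2
    · rw [map_zpow₀]
      exact zpow_lt_one₀ (valuation_q_pos hA) (valuation_q_lt hA) (by omega)
    · rw [← natCast_zpow_ser, zpow_neg]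
  · rcases hm.lt_or_eq with hm | hm
    · exact (hpos hm).1
    · rw [hg, ← hm, zpow_zero, one_mul]; exact h.1
  · by_contra hm0
    exact hne (hpos (by omega)).2
  · rw [hg, h0, zpow_zero, one_mul]; exact h.2

omit hA

/-! ### Scaling -/

variable (L : Subfield (AlgebraicClosure ℚ))

/-- Series with finitely generated coefficient module and coefficients in `L`. -/
def coeffRing : Subring Ser where
  carrier := {f | IsFinCoeff f ∧ ∀ n, f.coeff n ∈ L}
  one_mem' := ⟨(finCoeff (AlgebraicClosure ℚ)).one_mem, fun n => by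
    rw [HahnSeries.coeff_one]; split_ifs
    · exact L.one_mem
    · exact L.zero_mem⟩
  zero_mem' := ⟨(finCoeff (AlgebraicClosure ℚ)).zero_mem, fun n => by
    rw [HahnSeries.coeff_zero]; exact L.zero_mem⟩
  neg_mem' {f} h := ⟨neg_mem (s := (finCoeff (AlgebraicClosure ℚ)).toSubring) h.1, fun n => by
    rw [HahnSeries.coeff_neg]; exact L.neg_mem (h.2 n)⟩
  add_mem' {f g} hf hg := ⟨(finCoeff (AlgebraicClosure ℚ)).add_mem hf.1 hg.1, fun n => by
    rw [HahnSeries.coeff_add]; exact L.add_mem (hf.2 n) (hg.2 n)⟩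
  mul_mem' {f g} hf hg := ⟨(finCoeff (AlgebraicClosure ℚ)).mul_mem hf.1 hg.1, fun n => by
    rw [HahnSeries.coeff_mul]
    exact Subring.sum_mem L.toSubring fun ij _ => L.mul_mem (hf.2 _) (hg.2 _)⟩

/-- The field generated by `coeffRing L`. -/
def coeffField : Subfield Ser := Subfield.closure (coeffRing L : Set Ser)

theorem mem_coeffField_of_mem {f : Ser} (h : IsFinCoeff f) (h' : ∀ n, f.coeff n ∈ L) :
    f ∈ coeffField L :=
  Subfield.subset_closure (show f ∈ coeffRing L from ⟨h, h'⟩)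

theorem algebraMap_mem_coeffField {c : AlgebraicClosure ℚ} (hc : c ∈ L) :
    algebraMap (AlgebraicClosure ℚ) Ser c ∈ coeffField L := by
  rw [algebraMap_laurentSeries_eq_single]
  refine mem_coeffField_of_mem L (isFinCoeff_single 0 c) fun n => ?_
  rw [HahnSeries.coeff_single]
  split_ifs
  · exact hc
  · exact L.zero_mem

theorem coeff_qExpand_jqModC_mem (d : ℕ) [NeZero d] (n : ℤ) :
    (qExpand (AlgebraicClosure ℚ) d (jqModC (AlgebraicClosure ℚ))).coeff n ∈ L := by
  by_cases h : (d : ℤ) ∣ n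
  · obtain ⟨m, rfl⟩ := h
    rw [qExpand_coeff_mul, coeff_jqModC_eq_intCast]
    exact intCast_mem L _
  · rw [qExpand_coeff_of_not_dvd d _ h]
    exact L.zero_mem

theorem qExpand_jqModC_mem_coeffField (d : ℕ) [NeZero d] :
    qExpand (AlgebraicClosure ℚ) d (jqModC (AlgebraicClosure ℚ)) ∈ coeffField L :=
  mem_coeffField_of_mem L (isFinCoeff_qExpand_jqModC d) (coeff_qExpand_jqModC_mem L d)

theorem seriesTwist_qExpand_jqModC_mem_coeffField {u : (AlgebraicClosure ℚ)ˣ} {m : ℕ}
    (hm : 0 < m) (hu : u ^ m = 1) (huL : (u : AlgebraicClosure ℚ) ∈ L) (d : ℕ) [NeZero d] :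
    seriesTwist u (qExpand (AlgebraicClosure ℚ) d (jqModC (AlgebraicClosure ℚ))) ∈
      coeffField L := by
  refine mem_coeffField_of_mem L (isFinCoeff_seriesTwist hm hu (isFinCoeff_qExpand_jqModC d))
    fun n => ?_
  rw [seriesTwist_coeff, Units.val_zpow_eq_zpow_val]
  exact L.mul_mem (zpow_mem huL n) (coeff_qExpand_jqModC_mem L d n)

/-- A nonzero element of `coeffField L` is a power of `w` times a Gauss unit. -/
theorem exists_const_scale {w : AlgebraicClosure ℚ} (hw : w ≠ 0)
    (hL : ∀ c ∈ L, c ≠ 0 → ∃ m : ℤ, A.valuation c = A.valuation w ^ m) {g : Ser}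
    (hg : g ∈ coeffField L) (hg0 : g ≠ 0) :
    ∃ m : ℤ, IsGaussUnit A ((algebraMap (AlgebraicClosure ℚ) Ser (w ^ m))⁻¹ * g) := by
  have key : ∀ f ∈ coeffRing L, f ≠ 0 →
      ∃ m : ℤ, IsGaussUnit A ((algebraMap (AlgebraicClosure ℚ) Ser (w ^ m))⁻¹ * f) := by
    intro f hf hf0
    obtain ⟨n₀, hn₀, hmax⟩ := hf.1.exists_max A hf0
    obtain ⟨m, hm⟩ := hL _ (hf.2 n₀) hn₀
    have hwm : A.valuation (w ^ m) ≠ 0 := (_root_.map_ne_zero _).2 (zpow_ne_zero _ hw)
    have hint : ∀ n, (HahnSeries.single (0 : ℤ) (w ^ m)⁻¹ * f).coeff n ∈ A := fun n => by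
      rw [HahnSeries.coeff_single_zero_mul, ← A.valuation_le_one_iff, map_mul, map_inv₀,
        inv_mul_le_one₀ (zero_lt_iff.2 hwm), map_zpow₀, ← hm]
      exact hmax n
    have e : (algebraMap (AlgebraicClosure ℚ) Ser (w ^ m))⁻¹ * f =
        coeffMap A.subtype (integralSeries A _ hint) := by
      rw [coeffMap_integralSeries, ← map_inv₀, algebraMap_laurentSeries_eq_single]
    refine ⟨m, ?_⟩
    rw [e]
    obtain ⟨h1, h2⟩ := red_coeffMap (integralSeries A _ hint)
    refine ⟨h1, fun h0 => ?_⟩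
    rw [h2] at h0
    have h3 := congrArg (fun z : ResSer A => z.coeff n₀) h0
    simp only [coeffMap_coeff, HahnSeries.coeff_zero] at h3
    have h4 := (A.valuation_lt_one_iff _).1 ((residue_eq_zero_iff _).1 h3)
    have h5 : A.valuation ((integralSeries A _ hint).coeff n₀ : AlgebraicClosure ℚ) = 1 := by
      show A.valuation ((HahnSeries.single (0 : ℤ) (w ^ m)⁻¹ * f).coeff n₀) = 1
      rw [HahnSeries.coeff_single_zero_mul, map_mul, map_inv₀, map_zpow₀, ← hm,
        inv_mul_cancel₀ ((_root_.map_ne_zero _).2 hn₀)]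
    rw [h5] at h4
    exact lt_irrefl _ h4
  obtain ⟨y, hy, z, hz, rfl⟩ := Subfield.mem_closure_iff.1 hg
  rw [Subring.closure_eq] at hy hz
  rw [div_ne_zero_iff] at hg0
  obtain ⟨a, ha⟩ := key y hy hg0.1
  obtain ⟨b, hb⟩ := key z hz hg0.2
  refine ⟨a - b, ?_⟩
  have := ha.mul hb.inv
  rw [zpow_sub₀ hw, map_div₀]
  convert this using 1
  field_simp

/-- The constants of the inertia field are powers of `q` up to units. -/
theorem valuation_inertiaField (hA : A.LiesOverPrime q) {c : AlgebraicClosure ℚ}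
    (hc : c ∈ inertiaField A) (hc0 : c ≠ 0) :
    ∃ m : ℤ, A.valuation c = A.valuation (q : AlgebraicClosure ℚ) ^ m :=
  CGood.exists_valuation_eq_zpow hA hc0 fun σ hσ => hc ⟨σ, hσ⟩

theorem inertiaField_le_fixK {c : AlgebraicClosure ℚ} (hc : c ∈ inertiaField A) :
    c ∈ CGood.fixK q A :=
  (CGood.mem_fixK q A).2 fun σ hσ => hc ⟨σ, ((CGood.mem_I1 q A).1 hσ).1⟩

theorem fld_le_coeffField (hL : ∀ c ∈ inertiaField A, c ∈ L) {N : ℕ} {g : Ser}
    (hg : g ∈ Fld A N) : g ∈ coeffField L := by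
  induction hg using IntermediateField.adjoin_induction with
  | mem y hy =>
    obtain ⟨d, hne, hd, rfl⟩ := hy
    haveI := hne
    exact qExpand_jqModC_mem_coeffField L d
  | algebraMap c =>
    rw [IsScalarTower.algebraMap_apply (inertiaField A) (AlgebraicClosure ℚ) Ser]
    exact algebraMap_mem_coeffField L (hL _ c.2)
  | add x y _ _ hx hy => exact add_mem hx hy
  | inv x _ hx => exact inv_mem hx
  | mul x y _ _ hx hy => exact mul_mem hx hy

/-! ### Twists and expansions -/

theorem exists_unit_of_pow_eq_one (hA : A.LiesOverPrime q) {u : (AlgebraicClosure ℚ)ˣ} {k : ℕ}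
    (hu : u ^ (q ^ k) = 1) :
    ∃ v : Aˣ, ((v : A) : AlgebraicClosure ℚ) = u ∧ residue A v = 1 := by
  have hpos : q ^ k ≠ 0 := pow_ne_zero _ (Fact.out : q.Prime).ne_zero
  have hval : A.valuation (u : AlgebraicClosure ℚ) = 1 := by
    have h := congrArg (fun z : (AlgebraicClosure ℚ)ˣ => A.valuation (z : AlgebraicClosure ℚ)) hu
    simp only [Units.val_pow_eq_pow_val, map_pow, Units.val_one, map_one] at h
    exact (pow_eq_one_iff_of_nonneg zero_le hpos).1 h
  let a : A := ⟨u, (A.valuation_le_one_iff _).1 hval.le⟩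
  obtain ⟨v, hv⟩ := (A.valuation_eq_one_iff a).2 hval
  refine ⟨v, congrArg Subtype.val hv, ?_⟩
  haveI : CharP (ResidueField A) q := by
    refine CharP.charP_iff_prime_eq_zero (Fact.out : q.Prime) |>.2 ?_
    have hq : (q : A) ∈ maximalIdeal A := by
      rw [← ValuationSubring.coe_mem_nonunits_iff]
      exact_mod_cast hA
    rw [← map_natCast (residue A), residue_eq_zero_iff]
    exact hq
  have h1 : residue A (v : A) ^ (q ^ k) = 1 := by
    rw [← map_pow, ← map_one (residue A)]
    congr 1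
    apply Subtype.ext
    rw [hv]
    push_cast
    rw [← Units.val_pow_eq_pow_val, hu, Units.val_one]
  exact iterateFrobenius_inj (ResidueField A) q k (by
    rw [iterateFrobenius_def, iterateFrobenius_def, h1, one_pow])

theorem red_seriesTwist_of_mem {u : (AlgebraicClosure ℚ)ˣ} {v : Aˣ}
    (hv : ((v : A) : AlgebraicClosure ℚ) = u) (hv1 : residue A v = 1) {g : Ser}
    (hg : g ∈ GaussInt A) :
    seriesTwist u g ∈ GaussInt A ∧ red A (seriesTwist u g) = red A g := by
  obtain ⟨h, e⟩ := gaussRed_seriesTwist (π := residue A) hv hv1 hg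
  refine ⟨h, ?_⟩
  rw [red_of_mem hg, red_of_mem h]
  exact e

/-- The coefficients in one residue class modulo `d`. -/
def contract {R : Type*} [CommRing R] (d : ℕ) [NeZero d] (r : ℤ) (y : LaurentSeries R) :
    LaurentSeries R :=
  HahnSeries.ofSuppBddBelow (fun m => y.coeff ((d : ℤ) * m + r)) (by
    have hd : (0 : ℤ) < d := by exact_mod_cast Nat.pos_of_ne_zero (NeZero.ne d)
    refine ⟨-(|y.order| + |r|), fun m hm => ?_⟩
    by_contra hlt
    push Not at hlt
    refine hm (HahnSeries.coeff_eq_zero_of_lt_order ?_)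
    have h1 : (d : ℤ) * m ≤ 1 * m := by
      have : m ≤ 0 := by have := abs_nonneg y.order; have := abs_nonneg r; omega
      nlinarith
    have h2 := neg_abs_le y.order
    have h3 := le_abs_self r
    omega)

@[simp]
theorem contract_coeff {R : Type*} [CommRing R] (d : ℕ) [NeZero d] (r : ℤ) (y : LaurentSeries R)
    (m : ℤ) : (contract d r y).coeff m = y.coeff ((d : ℤ) * m + r) := by
  simp [contract]

theorem sum_single_mul_qExpand_contract {R : Type*} [CommRing R] (d : ℕ) [NeZero d]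
    (y : LaurentSeries R) :
    ∑ s ∈ Finset.range d, HahnSeries.single (s : ℤ) (1 : R) * qExpand R d (contract d s y) = y := by
  have hd : (d : ℤ) ≠ 0 := by exact_mod_cast NeZero.ne d
  ext n
  rw [HahnSeries.coeff_sum]
  have hr0 := Int.emod_nonneg n hd
  have hr1 := Int.emod_lt_of_pos n (lt_of_le_of_ne (Int.natCast_nonneg d) (Ne.symm hd))
  rw [Finset.sum_eq_single (n % (d : ℤ)).toNat]
  · rw [HahnSeries.coeff_single_mul, one_mul, Int.toNat_of_nonneg hr0,
      show n - n % (d : ℤ) = (d : ℤ) * (n / d) by rw [Int.emod_def]; ring, qExpand_coeff_mul,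
      contract_coeff, Int.mul_ediv_add_emod]
  · intro s hs hne
    rw [HahnSeries.coeff_single_mul, one_mul]
    refine qExpand_coeff_of_not_dvd d _ fun ⟨c, hc⟩ => hne ?_
    rw [Finset.mem_range] at hs
    have : n % (d : ℤ) = (s : ℤ) := by
      rw [show n = (s : ℤ) + (d : ℤ) * c by omega, Int.add_mul_emod_self_left,
        Int.emod_eq_of_lt (Int.natCast_nonneg s) (by exact_mod_cast hs)]
    omega
  · intro h
    exact absurd (Finset.mem_range.2 (by omega)) h

theorem contract_qExpand_mul {R : Type*} [CommRing R] (d : ℕ) [NeZero d] (g y : LaurentSeries R)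
    {r : ℕ} (hr : r < d) : contract d r (qExpand R d g * y) = g * contract d r y := by
  ext m
  rw [contract_coeff]
  conv_lhs => rw [← sum_single_mul_qExpand_contract d y, Finset.mul_sum]
  rw [HahnSeries.coeff_sum, Finset.sum_eq_single r]
  · rw [mul_left_comm, ← map_mul, HahnSeries.coeff_single_mul, one_mul, add_sub_cancel_right,
      qExpand_coeff_mul]
  · intro s hs hne
    rw [mul_left_comm, ← map_mul, HahnSeries.coeff_single_mul, one_mul]
    refine qExpand_coeff_of_not_dvd d _ fun ⟨c, hc⟩ => hne ?_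
    rw [Finset.mem_range] at hs
    have h1 : ((r : ℤ) - s) % d = 0 := by
      rw [show (r : ℤ) - s = (d : ℤ) * (c - m) by linarith, Int.mul_emod_right]
    have h2 : (d : ℤ) ∣ (r : ℤ) - s := Int.dvd_of_emod_eq_zero h1
    have h3 := Int.eq_zero_of_dvd_of_natAbs_lt_natAbs h2 (by omega)
    omega
  · intro h
    exact absurd (Finset.mem_range.2 hr) h

theorem coeffMap_contract {R S : Type*} [CommRing R] [CommRing S] (f : R →+* S) (d : ℕ) [NeZero d]
    (r : ℤ) (y : LaurentSeries R) : coeffMap f (contract d r y) = contract d r (coeffMap f y) := by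
  ext m; simp

theorem qExpand_mem_and_red (d : ℕ) [NeZero d] {g : Ser} (hg : g ∈ GaussInt A) :
    qExpand (AlgebraicClosure ℚ) d g ∈ GaussInt A ∧
      red A (qExpand (AlgebraicClosure ℚ) d g) = qExpand (Res A) d (red A g) := by
  obtain ⟨y₁, y₂, h2, e⟩ := hg
  have e' : qExpand (AlgebraicClosure ℚ) d g * coeffMap A.subtype (qExpand A d y₂) =
      coeffMap A.subtype (qExpand A d y₁) := by
    rw [coeffMap_qExpand, coeffMap_qExpand, ← map_mul, e]
  have h2' : coeffMap (residue A) (qExpand A d y₂) ≠ 0 := by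
    rw [coeffMap_qExpand]
    exact fun h0 => h2 (qExpand_injective d (h0.trans (map_zero _).symm))
  have hg : g ∈ GaussInt A := show IsGaussIntegral A _ g from ⟨y₁, y₂, h2, e⟩
  have hmem : qExpand (AlgebraicClosure ℚ) d g ∈ GaussInt A :=
    show IsGaussIntegral A _ _ from ⟨_, _, h2', e'⟩
  refine ⟨hmem, ?_⟩
  rw [red_of_mem hmem, red_of_mem hg]
  show gaussRedFun A _ ⟨_, hmem⟩ = qExpand (Res A) d (gaussRedFun A _ ⟨g, hg⟩)
  rw [gaussRedFun_eq (⟨_, hmem⟩ : gaussSubring A (residue A)) h2' e',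
    gaussRedFun_eq (⟨g, hg⟩ : gaussSubring A (residue A)) h2 e, coeffMap_qExpand, coeffMap_qExpand,
    map_div₀]

theorem mem_of_qExpand_mem (d : ℕ) [NeZero d] {g : Ser}
    (hg : qExpand (AlgebraicClosure ℚ) d g ∈ GaussInt A) : g ∈ GaussInt A := by
  obtain ⟨y₁, y₂, h2, e⟩ := hg
  have hd : (d : ℤ) ≠ 0 := by exact_mod_cast NeZero.ne d
  obtain ⟨n₀, hn₀⟩ : ∃ n₀, (coeffMap (residue A) y₂).coeff n₀ ≠ 0 := by
    by_contra hcon
    push Not at hcon
    exact h2 (HahnSeries.ext (funext hcon))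
  have hr0 := Int.emod_nonneg n₀ hd
  have hr1 := Int.emod_lt_of_pos n₀ (lt_of_le_of_ne (Int.natCast_nonneg d) (Ne.symm hd))
  set r := (n₀ % (d : ℤ)).toNat
  refine show IsGaussIntegral A _ g from ⟨contract d r y₁, contract d r y₂, fun h0 => hn₀ ?_, ?_⟩
  · have := congrArg (fun z : ResSer A => z.coeff (n₀ / d)) h0
    simp only [coeffMap_contract, contract_coeff, HahnSeries.coeff_zero] at this
    rwa [show (r : ℤ) = n₀ % d from Int.toNat_of_nonneg hr0, Int.mul_ediv_add_emod] at this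
  · rw [coeffMap_contract, coeffMap_contract, ← contract_qExpand_mul d g _ (by omega : r < d), e]

/-! ### The residual field -/

variable {M : ℕ} [NeZero M]

theorem qExpand_mem_rfld' (hA : A.LiesOverPrime q) {g : ResSer A} (hg : g ∈ RFld A M) :
    qExpand (Res A) q g ∈ RFld A M := by
  haveI : CharP (Res A) q := by
    refine CharP.charP_iff_prime_eq_zero (Fact.out : q.Prime) |>.2 ?_
    have hq : (q : A) ∈ maximalIdeal A := by
      rw [← ValuationSubring.coe_mem_nonunits_iff]
      exact_mod_cast hA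
    rw [← map_natCast (residue A), residue_eq_zero_iff]
    exact hq
  induction hg using IntermediateField.adjoin_induction with
  | mem y hy =>
    obtain ⟨d, hne, hd, rfl⟩ := hy
    haveI := hne
    rw [qExpand_qExpand, qExpand_congr (Nat.mul_comm q d), ← qExpand_qExpand, ← jqModC_pow_prime,
      map_pow]
    exact pow_mem (IntermediateField.subset_adjoin _ _ (mem_divisorExpansionsC _ M hd)) q
  | algebraMap c =>
    rw [algebraMap_laurentSeries_eq_single, qExpand_single, mul_zero,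
      ← algebraMap_laurentSeries_eq_single]
    exact IntermediateField.algebraMap_mem _ c
  | add x y _ _ hx hy => rw [map_add]; exact add_mem hx hy
  | inv x _ hx => rw [map_inv₀]; exact inv_mem hx
  | mul x y _ _ hx hy => rw [map_mul]; exact mul_mem hx hy

theorem exists_qExpand_eq_pow' (hA : A.LiesOverPrime q) {g : ResSer A} (hg : g ∈ RFld A M) :
    ∃ h : RFld A M, qExpand (Res A) q (h : ResSer A) = g ^ q := by
  haveI : CharP (Res A) q := by
    refine CharP.charP_iff_prime_eq_zero (Fact.out : q.Prime) |>.2 ?_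
    have hq : (q : A) ∈ maximalIdeal A := by
      rw [← ValuationSubring.coe_mem_nonunits_iff]
      exact_mod_cast hA
    rw [← map_natCast (residue A), residue_eq_zero_iff]
    exact hq
  haveI : CharP (ResSer A) q := charP_of_injective_algebraMap' (Res A) q
  induction hg using IntermediateField.adjoin_induction with
  | mem y hy =>
    obtain ⟨d, hne, hd, rfl⟩ := hy
    haveI := hne
    refine ⟨⟨_, IntermediateField.subset_adjoin _ _ (mem_divisorExpansionsC _ M hd)⟩, ?_⟩
    show qExpand (Res A) q (qExpand (Res A) d (jqModC (Res A))) = _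
    rw [qExpand_qExpand, qExpand_congr (Nat.mul_comm q d), ← qExpand_qExpand, ← jqModC_pow_prime,
      map_pow]
  | algebraMap c =>
    refine ⟨algebraMap (Res A) (RFld A M) (c ^ q), ?_⟩
    show qExpand (Res A) q (algebraMap (Res A) (ResSer A) (c ^ q)) = _
    rw [algebraMap_laurentSeries_eq_single, qExpand_single, mul_zero,
      ← algebraMap_laurentSeries_eq_single, map_pow]
  | add x y _ _ hx hy =>
    obtain ⟨a, ha⟩ := hx
    obtain ⟨b, hb⟩ := hy
    refine ⟨a + b, ?_⟩
    rw [add_pow_char]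
    show qExpand (Res A) q ((a : ResSer A) + (b : ResSer A)) = _
    rw [map_add, ha, hb]
  | inv x _ hx =>
    obtain ⟨a, ha⟩ := hx
    refine ⟨a⁻¹, ?_⟩
    show qExpand (Res A) q (a : ResSer A)⁻¹ = _
    rw [map_inv₀, ha, inv_pow]
  | mul x y _ _ hx hy =>
    obtain ⟨a, ha⟩ := hx
    obtain ⟨b, hb⟩ := hy
    refine ⟨a * b, ?_⟩
    show qExpand (Res A) q ((a : ResSer A) * (b : ResSer A)) = _
    rw [map_mul, ha, hb, mul_pow]

end Fermat.Agent.Carayol.Reg
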