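/-
Theorem of Carayol at `q ^ 2 ∥ M`: lemmas for the tower: norms and characteristic
polynomials from complete sets of embeddings, degrees, and the embeddings coming from `X(q; M)`.
-/
import Fermat.Agent.Carayol.MainSetup
import Fermat.Agent.Carayol.ValuationsAction
import Fermat.Agent.Gamma0.PsiIdentity
import Fermat.Prelude.Thm_ModularCurve_coeff_jqModC_neg_one
import Fermat.Prelude.Thm_ModularCurve_coeffMap_qExpand
import Mathlib.RingTheory.Norm.Transitivity
import Mathlib.FieldTheory.PrimitiveElement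
import Mathlib.LinearAlgebra.Charpoly.Basic

set_option autoImplicit false
set_option linter.style.haveILetI false

noncomputable section

namespace Fermat.Agent.Carayol.Reg

open ModularCurve IntermediateField CongruenceSubgroup
open scoped MatrixGroups

local notation "Qbar" => AlgebraicClosure ℚ
local notation "Ser" => LaurentSeries (AlgebraicClosure ℚ)

/-! ### Complete sets of embeddings -/

section Embeddings

variable {F E Ω : Type*} [Field F] [Field E] [Field Ω] [CharZero F] [Algebra F E]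
  [FiniteDimensional F E] [Algebra F Ω] {ι : Type*} [Fintype ι]

theorem algebraMap_norm_eq_prod (σ : ι → E →ₐ[F] Ω) (hσ : Function.Injective σ)
    (hcard : Module.finrank F E ≤ Fintype.card ι) (x : E) :
    algebraMap F Ω (Algebra.norm F x) = ∏ i, σ i x := by
  classical
  let τ : ι → E →ₐ[F] AlgebraicClosure Ω :=
    fun i => (IsScalarTower.toAlgHom F Ω (AlgebraicClosure Ω)).comp (σ i)
  have hτ : Function.Injective τ := fun i j h => hσ (AlgHom.ext fun y =>
    (algebraMap Ω (AlgebraicClosure Ω)).injective (DFunLike.congr_fun h y))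
  have hle := Fintype.card_le_of_injective τ hτ
  have hb : Function.Bijective τ := (Fintype.bijective_iff_injective_and_card τ).mpr
    ⟨hτ, le_antisymm hle (by rw [AlgHom.card]; exact hcard)⟩
  apply (algebraMap Ω (AlgebraicClosure Ω)).injective
  rw [map_prod, ← IsScalarTower.algebraMap_apply,
    Algebra.norm_eq_prod_embeddings F (AlgebraicClosure Ω)]
  exact (Equiv.prod_comp (Equiv.ofBijective τ hb) fun s => s x).symm

theorem charpoly_map_eq_prod (σ : ι → E →ₐ[F] Ω) (hσ : Function.Injective σ)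
    (hcard : Module.finrank F E ≤ Fintype.card ι) (x : E) :
    (LinearMap.charpoly (Algebra.lmul F E x)).map (algebraMap F Ω) =
      ∏ i, (Polynomial.X - Polynomial.C (σ i x)) := by
  haveI : Infinite F := Infinite.of_injective (Nat.cast : ℕ → F) Nat.cast_injective
  refine Polynomial.eq_of_infinite_eval_eq _ _ (Set.Infinite.mono ?_
    (Set.infinite_range_of_injective (algebraMap F Ω).injective))
  rintro _ ⟨c, rfl⟩
  show Polynomial.eval (algebraMap F Ω c) _ = Polynomial.eval (algebraMap F Ω c) _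
  rw [Polynomial.eval_map, Polynomial.eval₂_at_apply, LinearMap.eval_charpoly]
  have h : algebraMap F (Module.End F E) c - Algebra.lmul F E x =
      Algebra.lmul F E (algebraMap F E c - x) := by
    rw [map_sub, AlgHom.commutes]
  rw [h, show LinearMap.det (Algebra.lmul F E (algebraMap F E c - x)) =
      Algebra.norm F (algebraMap F E c - x) from rfl,
    algebraMap_norm_eq_prod σ hσ hcard, Polynomial.eval_prod]
  refine Finset.prod_congr rfl fun i _ => ?_
  simp [map_sub, AlgHom.commutes]

theorem eval₂_charpoly_lmul (x : E) :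
    (LinearMap.charpoly (Algebra.lmul F E x)).eval₂ (algebraMap F E) x = 0 := by
  have h := LinearMap.aeval_self_charpoly (Algebra.lmul F E x)
  rw [Polynomial.aeval_algHom_apply (Algebra.lmul F E) x] at h
  exact Algebra.lmul_injective (h.trans (map_zero _).symm)

end Embeddings

section EmbeddingsRingHom

variable {F E Ω : Type*} [Field F] [Field E] [Field Ω] [CharZero F] {ι : Type*} [Fintype ι]
  [Nonempty ι] (inc : F →+* E) (τ : F →+* Ω) (σ : ι → E →+* Ω)

theorem norm_eq_prod_of_embeddings (hτ : ∀ i a, σ i (inc a) = τ a) (hσ : Function.Injective σ)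
    (hfin : letI := inc.toAlgebra; Module.finrank F E = Fintype.card ι) (x : E) :
    letI := inc.toAlgebra
    τ (Algebra.norm F x) = ∏ i, σ i x := by
  letI := inc.toAlgebra
  letI := τ.toAlgebra
  haveI : FiniteDimensional F E :=
    FiniteDimensional.of_finrank_pos (hfin.symm ▸ Fintype.card_pos)
  exact algebraMap_norm_eq_prod (F := F) (fun i => ({ σ i with commutes' := hτ i } : E →ₐ[F] Ω))
    (fun i j h => hσ (RingHom.ext fun y => DFunLike.congr_fun h y)) hfin.le x

theorem exists_poly_of_embeddings (hτ : ∀ i a, σ i (inc a) = τ a) (hσ : Function.Injective σ)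
    (hfin : letI := inc.toAlgebra; Module.finrank F E = Fintype.card ι) (x : E) :
    ∃ P : Polynomial F, P.Monic ∧ P.eval₂ inc x = 0 ∧
      P.map τ = ∏ i, (Polynomial.X - Polynomial.C (σ i x)) := by
  letI := inc.toAlgebra
  letI := τ.toAlgebra
  haveI : FiniteDimensional F E :=
    FiniteDimensional.of_finrank_pos (hfin.symm ▸ Fintype.card_pos)
  exact ⟨_, LinearMap.charpoly_monic _, eval₂_charpoly_lmul x,
    charpoly_map_eq_prod (F := F) (fun i => ({ σ i with commutes' := hτ i } : E →ₐ[F] Ω))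
      (fun i j h => hσ (RingHom.ext fun y => DFunLike.congr_fun h y)) hfin.le x⟩

end EmbeddingsRingHom

/-! ### Series -/

theorem seriesTwist_qExpand {R : Type*} [CommRing R] (u : Rˣ) {d : ℕ} [NeZero d] (h : u ^ d = 1)
    (x : LaurentSeries R) : seriesTwist u (qExpand R d x) = qExpand R d x := by
  ext n
  rw [seriesTwist_coeff]
  by_cases hn : (d : ℤ) ∣ n
  · obtain ⟨m, rfl⟩ := hn
    rw [zpow_mul, zpow_natCast, h, one_zpow, Units.val_one, one_mul]
  · rw [qExpand_coeff_of_not_dvd d x hn, mul_zero]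

theorem seriesTwist_single_zero {R : Type*} [CommRing R] (u : Rˣ) (c : R) :
    seriesTwist u (HahnSeries.single (0 : ℤ) c) = HahnSeries.single (0 : ℤ) c := by
  ext n
  rw [seriesTwist_coeff]
  rcases eq_or_ne n 0 with rfl | hn
  · simp
  · simp [HahnSeries.coeff_single_of_ne hn]

theorem coeff_qExpand_jqModC (d : ℕ) [NeZero d] :
    (qExpand Qbar d (jqModC Qbar)).coeff (-(d : ℤ)) = 1 := by
  rw [show -(d : ℤ) = (d : ℤ) * (-1) by ring, qExpand_coeff_mul, coeff_jqModC_neg_one]

theorem coeff_qExpand_eq_zero {m d : ℕ} [NeZero d] (hm : 0 < m) (h : m < d) (x : Ser) :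
    (qExpand Qbar d x).coeff (-(m : ℤ)) = 0 := by
  refine qExpand_coeff_of_not_dvd d x fun hd => ?_
  rw [dvd_neg, Int.natCast_dvd_natCast] at hd
  exact absurd (Nat.le_of_dvd hm hd) (by omega)

theorem coeff_seriesTwist_jqModC (u : Qbarˣ) :
    (seriesTwist u (jqModC Qbar)).coeff (-1 : ℤ) = ((u⁻¹ : Qbarˣ) : Qbar) := by
  rw [seriesTwist_coeff, coeff_jqModC_neg_one, mul_one, zpow_neg, zpow_one]

variable (A : ValuationSubring (AlgebraicClosure ℚ))

theorem algebraMap_ser (c : inertiaField A) :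
    algebraMap (inertiaField A) Ser c = HahnSeries.single (0 : ℤ) (c : Qbar) := by
  rw [IsScalarTower.algebraMap_apply (inertiaField A) Qbar Ser,
    algebraMap_laurentSeries_eq_single]
  rfl

theorem seriesTwist_algebraMap' (u : Qbarˣ) (c : inertiaField A) :
    seriesTwist u (algebraMap (inertiaField A) Ser c) = algebraMap (inertiaField A) Ser c := by
  rw [algebraMap_ser, seriesTwist_single_zero]

/-- A twist as a map of algebras. -/
def twistHom (u : Qbarˣ) : Ser →ₐ[inertiaField A] Ser :=
  { seriesTwist u with commutes' := seriesTwist_algebraMap' A u }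

@[simp] theorem twistHom_apply (u : Qbarˣ) (x : Ser) : twistHom A u x = seriesTwist u x := rfl

/-- A dilation as a map of algebras. -/
def expandHom (d : ℕ) [NeZero d] : Ser →ₐ[inertiaField A] Ser :=
  { qExpand Qbar d with commutes' := qExpand_algebraMap A d }

@[simp] theorem expandHom_apply (d : ℕ) [NeZero d] (x : Ser) :
    expandHom A d x = qExpand Qbar d x := rfl

/-! ### Generators -/

/-- `j (d τ)` as an element of the field. -/
def jd {N : ℕ} (d : ℕ) [NeZero d] (hd : d ∣ N) : Fld A N :=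
  ⟨qExpand Qbar d (jqModC Qbar), jd_mem_fld hd⟩

@[simp] theorem coe_jd {N : ℕ} (d : ℕ) [NeZero d] (hd : d ∣ N) :
    (jd A d hd : Ser) = qExpand Qbar d (jqModC Qbar) := rfl

theorem jd_congr {N : ℕ} {d d' : ℕ} [NeZero d] [NeZero d'] (h : d = d') (hd : d ∣ N)
    (hd' : d' ∣ N) : jd A d hd = jd A d' hd' := by
  subst h; rfl

theorem fld_algHom_ext {N : ℕ} {L : Type*} [Semiring L] [Algebra (inertiaField A) L]
    {f g : Fld A N →ₐ[inertiaField A] L}
    (h : ∀ (d : ℕ) (_ : NeZero d) (hd : d ∣ N), f (jd A d hd) = g (jd A d hd)) : f = g := by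
  refine IntermediateField.algHom_ext_of_eq_adjoin _
    (rfl : Fld A N = IntermediateField.adjoin (inertiaField A) (divisorExpansionsC Qbar N)) ?_
  rintro x ⟨d, hne, hd, rfl⟩
  exact h d hne hd

theorem fld_adjoin_le {N : ℕ} (F : IntermediateField (inertiaField A) (Fld A N))
    (h : ∀ (d : ℕ) (_ : NeZero d) (hd : d ∣ N), jd A d hd ∈ F) : F = ⊤ := by
  rw [eq_top_iff]
  rintro ⟨x, hx⟩ -
  have : x ∈ F.map (Fld A N).val := by
    induction hx using IntermediateField.adjoin_induction with
    | mem y hy =>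
      obtain ⟨d, hne, hd, rfl⟩ := hy
      exact ⟨jd A d hd, h d hne hd, rfl⟩
    | algebraMap c => exact IntermediateField.algebraMap_mem _ c
    | add u v _ _ hu hv => exact add_mem hu hv
    | inv u _ hu => exact inv_mem hu
    | mul u v _ _ hu hv => exact mul_mem hu hv
  obtain ⟨y, hy, rfl⟩ := this
  exact hy

theorem incl_jd {N N' : ℕ} (h : N ∣ N') (d : ℕ) [NeZero d] (hd : d ∣ N) :
    incl A N N' h (jd A d hd) = jd A d (hd.trans h) := Subtype.ext (coe_incl A h _)

theorem scale_jd {N : ℕ} (e d : ℕ) [NeZero e] [NeZero d] (hd : d ∣ N) :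
    haveI : NeZero (d * e) := ⟨mul_ne_zero (NeZero.ne d) (NeZero.ne e)⟩
    scale A N e (jd A d hd) = jd A (d * e) (mul_dvd_mul_right hd e) := by
  refine Subtype.ext ?_
  haveI : NeZero (e * d) := ⟨mul_ne_zero (NeZero.ne e) (NeZero.ne d)⟩
  rw [coe_scale, coe_jd, coe_jd, qExpand_qExpand]
  exact qExpand_congr (mul_comm _ _) _

/-! ### Degrees -/

theorem finrank_eq_relfinrank {N N' : ℕ} (h : Fld A N ≤ Fld A N')
    (f : Fld A N →ₐ[inertiaField A] Fld A N') (hf : ∀ g, (f g : Ser) = (g : Ser)) :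
    (letI := f.toRingHom.toAlgebra; Module.finrank (Fld A N) (Fld A N')) =
      IntermediateField.relfinrank (Fld A N) (Fld A N') := by
  letI := f.toRingHom.toAlgebra
  rw [IntermediateField.relfinrank_eq_finrank_of_le h]
  refine Algebra.finrank_eq_of_equiv_equiv (RingEquiv.refl _)
    ({ toFun := fun g => ⟨g.1, g.2⟩, invFun := fun g => ⟨g.1, g.2⟩,
       left_inv := fun _ => rfl, right_inv := fun _ => rfl,
       map_mul' := fun _ _ => rfl, map_add' := fun _ _ => rfl } :
      Fld A N' ≃+* IntermediateField.extendScalars h) ?_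
  exact RingHom.ext fun g => Subtype.ext (hf g).symm

/-- Extension of coefficients from the inertia field. -/
def coeffHom : LaurentSeries (inertiaField A) →ₐ[inertiaField A] Ser :=
  { coeffMap (algebraMap (inertiaField A) Qbar) with
    commutes' := fun c => by
      show coeffMap _ (algebraMap (inertiaField A) (LaurentSeries (inertiaField A)) c) = _
      rw [algebraMap_laurentSeries_eq_single, coeffMap_single, algebraMap_ser]
      rfl }

theorem coeffHom_jd (d : ℕ) [NeZero d] :
    coeffHom A (qExpand (inertiaField A) d (jqModC (inertiaField A))) =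
      qExpand Qbar d (jqModC Qbar) := by
  show coeffMap _ _ = _
  rw [coeffMap_qExpand, ModFun.coeffMap_jqModC]

theorem fld_eq_map (N : ℕ) [NeZero N] :
    Fld A N = (modularFunctionFieldC (inertiaField A) N).map (coeffHom A) := by
  rw [← ModFun.modularFunctionFieldFullC_eq, modularFunctionFieldFullC, IntermediateField.adjoin_map,
    Fld]
  congr 1
  ext x
  constructor
  · rintro ⟨d, hne, hd, rfl⟩
    exact ⟨_, ⟨d, hne, hd, rfl⟩, coeffHom_jd A d⟩
  · rintro ⟨_, ⟨d, hne, hd, rfl⟩, rfl⟩
    exact ⟨d, hne, hd, coeffHom_jd A d⟩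

theorem relfinrank_jq_fld (N : ℕ) [NeZero N] :
    IntermediateField.relfinrank (IntermediateField.adjoin (inertiaField A) {jqModC Qbar})
      (Fld A N) = dedekindPsi N := by
  have hj : IntermediateField.adjoin (inertiaField A) {jqModC Qbar} =
      (IntermediateField.adjoin (inertiaField A) {jqModC (inertiaField A)}).map (coeffHom A) := by
    rw [IntermediateField.adjoin_map, Set.image_singleton]
    congr 2
    exact (ModFun.coeffMap_jqModC _).symm
  rw [hj, fld_eq_map, IntermediateField.relfinrank_map_map,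
    ModFun.relfinrank_modularFunctionFieldC]

theorem psi_mul_relfinrank {N N' : ℕ} [NeZero N] [NeZero N'] (h : N ∣ N') :
    dedekindPsi N * IntermediateField.relfinrank (Fld A N) (Fld A N') = dedekindPsi N' := by
  rw [← relfinrank_jq_fld A N, ← relfinrank_jq_fld A N']
  refine IntermediateField.relfinrank_mul_relfinrank ?_ (fld_mono h)
  rw [IntermediateField.adjoin_simple_le_iff]
  exact jqModC_mem_fld N

variable (M q : ℕ) [NeZero M] [Fact q.Prime]

omit [NeZero M] in
theorem dedekindPsi_level₁ (hqM : ¬ q ∣ M) : dedekindPsi (M * q) = dedekindPsi M * (q + 1) := by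
  have hq : q.Prime := Fact.out
  rw [Gamma0.dedekindPsi_mul ((Nat.Prime.coprime_iff_not_dvd hq).mpr hqM).symm]
  congr 1
  simpa using Gamma0.dedekindPsi_prime_pow hq 0

omit [NeZero M] in
theorem dedekindPsi_level₂ (hqM : ¬ q ∣ M) :
    dedekindPsi (M * q * q) = dedekindPsi M * (q * (q + 1)) := by
  have hq : q.Prime := Fact.out
  rw [mul_assoc, Gamma0.dedekindPsi_mul (((Nat.Prime.coprime_iff_not_dvd hq).mpr hqM).symm.mul_right
    ((Nat.Prime.coprime_iff_not_dvd hq).mpr hqM).symm)]
  congr 1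
  rw [show q * q = q ^ (1 + 1) by ring, Gamma0.dedekindPsi_prime_pow hq 1]
  ring

theorem relfinrank_levels (hqM : ¬ q ∣ M) :
    IntermediateField.relfinrank (Fld A M) (Fld A (M * q)) = q + 1 ∧
    IntermediateField.relfinrank (Fld A (M * q)) (Fld A (M * q * q)) = q ∧
    IntermediateField.relfinrank (Fld A M) (Fld A (M * q * q)) = q * (q + 1) := by
  have h0 : 0 < dedekindPsi M := Nat.pos_of_ne_zero (Gamma0.dedekindPsi_ne_zero (NeZero.ne M))
  have h01 := psi_mul_relfinrank A (N := M) (N' := M * q) (dvd_mul_right M q)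
  have h12 := psi_mul_relfinrank A (N := M * q) (N' := M * q * q) (dvd_mul_right _ q)
  have h02 := psi_mul_relfinrank A (N := M) (N' := M * q * q)
    ((dvd_mul_right M q).trans (dvd_mul_right _ q))
  rw [dedekindPsi_level₁ M q hqM] at h01 h12
  rw [dedekindPsi_level₂ M q hqM] at h12 h02
  refine ⟨Nat.eq_of_mul_eq_mul_left h0 h01, ?_, Nat.eq_of_mul_eq_mul_left h0 h02⟩
  refine Nat.eq_of_mul_eq_mul_left (show 0 < dedekindPsi M * (q + 1) by positivity) (h12.trans ?_)
  ring

theorem finrank_x₁ (hqM : ¬ q ∣ M) :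
    (letI := (x₁ A M q).toRingHom.toAlgebra; Module.finrank (F₀ A M) (F₁ A M q)) = q + 1 :=
  (finrank_eq_relfinrank A (fld_mono (dvd_mul_right M q)) (x₁ A M q) fun g =>
    coe_incl A _ g).trans (relfinrank_levels A M q hqM).1

theorem finrank_p₀₁ (hqM : ¬ q ∣ M) :
    (letI := (p₀₁ A M q).toRingHom.toAlgebra; Module.finrank (F₁ A M q) (F₂ A M q)) = q :=
  (finrank_eq_relfinrank A (fld_mono (dvd_mul_right _ q)) (p₀₁ A M q) fun g =>
    coe_incl A _ g).trans (relfinrank_levels A M q hqM).2.1

theorem finrank_x₂ (hqM : ¬ q ∣ M) :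
    (letI := (x₂ A M q).toRingHom.toAlgebra; Module.finrank (F₀ A M) (F₂ A M q)) = q * (q + 1) :=
  (finrank_eq_relfinrank A (fld_mono ((dvd_mul_right M q).trans (dvd_mul_right _ q))) (x₂ A M q)
    fun g => by simp [x₂, x₁, p₀₁]).trans (relfinrank_levels A M q hqM).2.2

/-! ### The embeddings coming from `X(q; M)` -/

omit [NeZero M] in
/-- The three kinds of divisors of `M q²`. -/
theorem divisor_cases {d : ℕ} (hd : d ∣ M * q * q) :
    d ∣ M ∨ (∃ d', d' ∣ M ∧ d = d' * q) ∨ ∃ d', d' ∣ M ∧ d = d' * (q * q) := by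
  have hq : q.Prime := Fact.out
  rw [mul_assoc] at hd
  obtain ⟨a, b, ha, hb, rfl⟩ := (Nat.dvd_mul).mp hd
  rw [← pow_two] at hb
  obtain ⟨i, hi, rfl⟩ := (Nat.dvd_prime_pow hq).mp hb
  interval_cases i
  · exact Or.inl (by simpa using ha)
  · exact Or.inr (Or.inl ⟨a, ha, by rw [pow_one]⟩)
  · exact Or.inr (Or.inr ⟨a, ha, by rw [pow_two]⟩)

omit [NeZero M] in
/-- The two kinds of divisors of `M q`. -/
theorem divisor_cases₁ {d : ℕ} (hd : d ∣ M * q) :
    d ∣ M ∨ ∃ d', d' ∣ M ∧ d = d' * q := by
  have hq : q.Prime := Fact.out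
  obtain ⟨a, b, ha, hb, rfl⟩ := (Nat.dvd_mul).mp hd
  rcases (Nat.dvd_prime hq).mp hb with rfl | rfl
  · exact Or.inl (by simpa using ha)
  · exact Or.inr ⟨a, ha, rfl⟩

theorem gen_some_zero {d : ℕ} [NeZero d] :
    gen q d (some 0) = qExpand Qbar d (jqModC Qbar) := by
  show seriesTwist (zetaQ q ^ (0 : ZMod q).val) _ = _
  rw [ZMod.val_zero, pow_zero, seriesTwist_one]

theorem fld_le_xField {x : Ser} (hx : x ∈ Fld A (M * q * q)) :
    x ∈ XField q M := by
  induction hx using IntermediateField.adjoin_induction with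
  | mem y hy =>
    obtain ⟨d, hne, hd, rfl⟩ := hy
    rcases divisor_cases M q hd with h | ⟨d', h, rfl⟩ | ⟨d', h, rfl⟩
    · exact gen_some_zero q (d := d) ▸ gen_mem q M h (some 0)
    · haveI : NeZero d' := ⟨left_ne_zero_of_mul hne.ne⟩
      exact baseGen_mem q M h
    · haveI : NeZero d' := ⟨left_ne_zero_of_mul hne.ne⟩
      convert gen_mem q M h none using 1
      exact qExpand_congr (mul_assoc d' q q).symm _
  | algebraMap c =>
    rw [IsScalarTower.algebraMap_apply (inertiaField A) Qbar Ser]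
    exact IntermediateField.algebraMap_mem _ _
  | add u v _ _ hu hv => exact add_mem hu hv
  | inv u _ hu => exact inv_mem hu
  | mul u v _ _ hu hv => exact mul_mem hu hv

/-- The embedding of `F₂` attached to a matrix modulo `q`. -/
def lineEmb (hqM : ¬ q ∣ M) (g : SL(2, ZMod q)) : F₂ A M q →ₐ[inertiaField A] Ser where
  toFun f := ((sigmaQ hqM g ⟨(f : Ser), fld_le_xField A M q f.2⟩ : XField q M) : Ser)
  map_one' := (congrArg Subtype.val (map_one (sigmaQ (M := M) hqM g)) :)
  map_mul' x y := (congrArg Subtype.val (map_mul (sigmaQ (M := M) hqM g)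
    ⟨(x : Ser), fld_le_xField A M q x.2⟩ ⟨(y : Ser), fld_le_xField A M q y.2⟩) :)
  map_zero' := (congrArg Subtype.val (map_zero (sigmaQ (M := M) hqM g)) :)
  map_add' x y := (congrArg Subtype.val (map_add (sigmaQ (M := M) hqM g)
    ⟨(x : Ser), fld_le_xField A M q x.2⟩ ⟨(y : Ser), fld_le_xField A M q y.2⟩) :)
  commutes' c := by
    have h := (sigmaQ (M := M) hqM g).commutes (c : Qbar)
    refine Eq.trans ?_ ((congrArg Subtype.val h).trans ?_)
    · congr 2
    · show algebraMap Qbar Ser (c : Qbar) = algebraMap (inertiaField A) Ser c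
      exact (IsScalarTower.algebraMap_apply (inertiaField A) Qbar Ser c).symm

theorem lineEmb_x (hqM : ¬ q ∣ M) (g : SL(2, ZMod q)) {d : ℕ} [NeZero d] (hd : d ∣ M)
    (h : d ∣ M * q * q) :
    lineEmb A M q hqM g (jd A d h) = gen q d (lineMulQ (some 0) g⁻¹) := by
  show ((sigmaQ hqM g ⟨_, _⟩ : XField q M) : Ser) = _
  rw [show (⟨_, fld_le_xField A M q (jd A d h).2⟩ : XField q M) = genElt q M hd (some 0) from
    Subtype.ext (gen_some_zero q).symm, sigmaQ_genElt]
  rfl

theorem lineEmb_y (hqM : ¬ q ∣ M) (g : SL(2, ZMod q)) {d : ℕ} [NeZero d] (hd : d ∣ M)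
    [NeZero (d * q)] (h : d * q ∣ M * q * q) :
    lineEmb A M q hqM g (jd A (d * q) h) = baseGen q d := by
  show ((sigmaQ hqM g ⟨_, _⟩ : XField q M) : Ser) = _
  rw [show (⟨_, fld_le_xField A M q (jd A (d * q) h).2⟩ : XField q M) = baseElt q M hd from
    rfl, sigmaQ_baseElt]
  rfl

theorem lineEmb_z (hqM : ¬ q ∣ M) (g : SL(2, ZMod q)) {d : ℕ} [NeZero d] (hd : d ∣ M)
    [NeZero (d * (q * q))] (h : d * (q * q) ∣ M * q * q) :
    lineEmb A M q hqM g (jd A (d * (q * q)) h) = gen q d (lineMulQ none g⁻¹) := by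
  show ((sigmaQ hqM g ⟨_, _⟩ : XField q M) : Ser) = _
  rw [show (⟨_, fld_le_xField A M q (jd A (d * (q * q)) h).2⟩ : XField q M) =
    genElt q M hd none from Subtype.ext (qExpand_congr (mul_assoc d q q).symm _), sigmaQ_genElt]
  rfl

end Fermat.Agent.Carayol.Reg

end
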