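/-
Theorem of Carayol at `q ^ 2 ∥ M`: the tower `F₀ ⊆ F₁ ⊆ F₂`, its embeddings into
Laurent series, and the norms as products of series.
-/
import Fermat.Agent.Carayol.MainSetup
import Fermat.Agent.Carayol.MainTowerBase
import Fermat.Agent.Carayol.ValuationsSeries

set_option autoImplicit false
set_option linter.style.haveILetI false

noncomputable section

namespace Fermat.Agent.Carayol.Reg

open ModularCurve IntermediateField CongruenceSubgroup
open scoped MatrixGroups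

local notation "Qbar" => AlgebraicClosure ℚ
local notation "Ser" => LaurentSeries (AlgebraicClosure ℚ)

variable (A : ValuationSubring (AlgebraicClosure ℚ)) (M q : ℕ) [NeZero M] [Fact q.Prime]

theorem coeff_mem_inertiaField {N : ℕ} (g : Fld A N) (n : ℤ) :
    (g : Ser).coeff n ∈ inertiaField A := by
  have hle : Fld A N ≤ (coeffHom A).fieldRange := by
    rw [Fld, IntermediateField.adjoin_le_iff]
    rintro x ⟨d, hne, hd, rfl⟩
    exact ⟨_, coeffHom_jd A d⟩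
  obtain ⟨y, hy⟩ := hle g.2
  rw [show (g : Ser) = coeffHom A y from hy.symm]
  exact (y.coeff n).2

theorem finrank_fld (N : ℕ) [NeZero N] :
    Module.finrank (IntermediateField.adjoin (inertiaField A) {jElt A N}) (Fld A N) =
      dedekindPsi N := by
  rw [← relfinrank_jq_fld A N, ← IntermediateField.relfinrank_top_right,
    ← IntermediateField.relfinrank_map_map _ _ (Fld A N).val, IntermediateField.adjoin_map,
    Set.image_singleton, ← AlgHom.fieldRange_eq_map, IntermediateField.fieldRange_val]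
  rfl

/-! ### Generators in the tower -/

omit [NeZero M] [Fact q.Prime] in
theorem coe_x₁ (g : F₀ A M) : (x₁ A M q g : Ser) = (g : Ser) := coe_incl A _ g

omit [NeZero M] [Fact q.Prime] in
theorem x₂_coe (g : F₀ A M) : (x₂ A M q g : Ser) = (g : Ser) :=
  (coe_incl A (dvd_mul_right (M * q) q) _).trans (coe_incl A (dvd_mul_right M q) g)

theorem y₂_coe (g : F₀ A M) : (y₂ A M q g : Ser) = qExpand Qbar q (g : Ser) :=
  (coe_incl A (dvd_mul_right (M * q) q) _).trans (coe_scale A g)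

theorem z₂_coe (g : F₀ A M) : (z₂ A M q g : Ser) = qExpand Qbar (q * q) (g : Ser) := by
  show (scale A (M * q) q (scale A M q g) : Ser) = _
  rw [coe_scale, coe_scale, qExpand_qExpand]

theorem jd_eq_x₁ {d : ℕ} [NeZero d] (hd : d ∣ M) (h : d ∣ M * q) :
    jd A d h = x₁ A M q (jd A d hd) := Subtype.ext (by rw [coe_x₁, coe_jd, coe_jd])

theorem jd_eq_y₁ {d : ℕ} [NeZero d] [NeZero (d * q)] (hd : d ∣ M) (h : d * q ∣ M * q) :
    jd A (d * q) h = y₁ A M q (jd A d hd) := by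
  refine Subtype.ext ?_
  haveI : NeZero (q * d) := ⟨mul_ne_zero (NeZero.ne q) (NeZero.ne d)⟩
  rw [coe_jd, coe_scale, coe_jd, qExpand_qExpand]
  exact qExpand_congr (mul_comm _ _) _

theorem jd_eq_x₂ {d : ℕ} [NeZero d] (hd : d ∣ M) (h : d ∣ M * q * q) :
    jd A d h = x₂ A M q (jd A d hd) := Subtype.ext (by rw [x₂_coe, coe_jd, coe_jd])

theorem jd_eq_y₂ {d : ℕ} [NeZero d] [NeZero (d * q)] (hd : d ∣ M) (h : d * q ∣ M * q * q) :
    jd A (d * q) h = y₂ A M q (jd A d hd) := by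
  refine Subtype.ext ?_
  haveI : NeZero (q * d) := ⟨mul_ne_zero (NeZero.ne q) (NeZero.ne d)⟩
  rw [coe_jd, y₂_coe, coe_jd, qExpand_qExpand]
  exact qExpand_congr (mul_comm _ _) _

theorem jd_eq_z₂ {d : ℕ} [NeZero d] [NeZero (d * (q * q))] (hd : d ∣ M)
    (h : d * (q * q) ∣ M * q * q) : jd A (d * (q * q)) h = z₂ A M q (jd A d hd) := by
  refine Subtype.ext ?_
  haveI : NeZero (q * q * d) := ⟨mul_ne_zero (mul_ne_zero (NeZero.ne q) (NeZero.ne q)) (NeZero.ne d)⟩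
  rw [coe_jd, z₂_coe, coe_jd, qExpand_qExpand]
  exact qExpand_congr (mul_comm _ _) _

theorem f₁_algHom_ext {L : Type*} [Semiring L] [Algebra (inertiaField A) L]
    {f g : F₁ A M q →ₐ[inertiaField A] L} (hx : ∀ h, f (x₁ A M q h) = g (x₁ A M q h))
    (hy : ∀ h, f (y₁ A M q h) = g (y₁ A M q h)) : f = g := by
  refine fld_algHom_ext A fun d hne hd => ?_
  rcases divisor_cases₁ M q hd with h | ⟨d', h, rfl⟩
  · rw [jd_eq_x₁ A M q h]; exact hx _
  · haveI : NeZero d' := ⟨left_ne_zero_of_mul hne.ne⟩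
    rw [jd_eq_y₁ A M q h]; exact hy _

theorem f₂_algHom_ext {L : Type*} [Semiring L] [Algebra (inertiaField A) L]
    {f g : F₂ A M q →ₐ[inertiaField A] L} (hx : ∀ h, f (x₂ A M q h) = g (x₂ A M q h))
    (hy : ∀ h, f (y₂ A M q h) = g (y₂ A M q h))
    (hz : ∀ h, f (z₂ A M q h) = g (z₂ A M q h)) : f = g := by
  refine fld_algHom_ext A fun d hne hd => ?_
  rcases divisor_cases M q hd with h | ⟨d', h, rfl⟩ | ⟨d', h, rfl⟩
  · rw [jd_eq_x₂ A M q h]; exact hx _
  · haveI : NeZero d' := ⟨left_ne_zero_of_mul hne.ne⟩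
    rw [jd_eq_y₂ A M q h]; exact hy _
  · haveI : NeZero d' := ⟨left_ne_zero_of_mul hne.ne⟩
    rw [jd_eq_z₂ A M q h]; exact hz _

/-- Corestriction to a field of modular functions. -/
theorem exists_fld_lift {N N' : ℕ} (e : Fld A N' →ₐ[inertiaField A] Ser)
    (f : Fld A N →ₐ[inertiaField A] Ser)
    (h : ∀ (d : ℕ) (_ : NeZero d) (hd : d ∣ N), ∃ y, e y = f (jd A d hd)) :
    ∃ w : Fld A N →ₐ[inertiaField A] Fld A N', ∀ g, e (w g) = f g := by
  have h' : ∀ g, ∃ y, e y = f g := fun g => by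
    have hg : g ∈ (e.fieldRange).comap f := by
      rw [fld_adjoin_le A ((e.fieldRange).comap f) fun d hne hd => h d hne hd]
      trivial
    exact hg
  choose w hw using h'
  have inj : Function.Injective e := e.toRingHom.injective
  exact ⟨{ toFun := w
           map_one' := inj (by simp [hw])
           map_mul' := fun a b => inj (by simp [hw])
           map_zero' := inj (by simp [hw])
           map_add' := fun a b => inj (by simp [hw])
           commutes' := fun c => inj (by simp [hw]) }, hw⟩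

theorem adjoin_sides₁ (hqM : ¬ q ∣ M) :
    IntermediateField.adjoin (inertiaField A) (Set.range (x₁ A M q) ∪ Set.range (y₁ A M q)) =
      ⊤ := by
  refine fld_adjoin_le A _ fun d hne hd => ?_
  rcases divisor_cases₁ M q hd with h | ⟨d', h, rfl⟩
  · exact IntermediateField.subset_adjoin _ _ (Or.inl ⟨_, (jd_eq_x₁ A M q h hd).symm⟩)
  · haveI : NeZero d' := ⟨left_ne_zero_of_mul hne.ne⟩
    exact IntermediateField.subset_adjoin _ _ (Or.inr ⟨_, (jd_eq_y₁ A M q h hd).symm⟩)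

theorem adjoin_sides₂ (hqM : ¬ q ∣ M) :
    IntermediateField.adjoin (inertiaField A)
      (Set.range (x₂ A M q) ∪ Set.range (y₂ A M q) ∪ Set.range (z₂ A M q)) = ⊤ := by
  refine fld_adjoin_le A _ fun d hne hd => ?_
  rcases divisor_cases M q hd with h | ⟨d', h, rfl⟩ | ⟨d', h, rfl⟩
  · exact IntermediateField.subset_adjoin _ _ (Or.inl (Or.inl ⟨_, (jd_eq_x₂ A M q h hd).symm⟩))
  · haveI : NeZero d' := ⟨left_ne_zero_of_mul hne.ne⟩
    exact IntermediateField.subset_adjoin _ _ (Or.inl (Or.inr ⟨_, (jd_eq_y₂ A M q h hd).symm⟩))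
  · haveI : NeZero d' := ⟨left_ne_zero_of_mul hne.ne⟩
    exact IntermediateField.subset_adjoin _ _ (Or.inr ⟨_, (jd_eq_z₂ A M q h hd).symm⟩)

/-- The matrix exchanging the extreme sides. -/
def swapMat : SL(2, ZMod q) := ⟨!![0, 1; -1, 0], by simp [Matrix.det_fin_two]⟩

theorem lineMulQ_swapMat :
    lineMulQ (some 0) (swapMat q) = none ∧ lineMulQ none (swapMat q) = some 0 := by
  constructor <;>
    simp [swapMat, lineMulQ, vecLine, lineVec, Matrix.vecMul, dotProduct, Fin.sum_univ_two]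

/-- The embedding exchanging the extreme sides. -/
def swapEmb (hqM : ¬ q ∣ M) : F₂ A M q →ₐ[inertiaField A] Ser :=
  lineEmb A M q hqM (swapMat q)⁻¹

theorem swapEmb_jd (hqM : ¬ q ∣ M) {d : ℕ} [NeZero d] (hd : d ∣ M) :
    (∀ h : d ∣ M * q * q,
      swapEmb A M q hqM (jd A d h) = qExpand Qbar (q * q) (qExpand Qbar d (jqModC Qbar))) ∧
    (∀ [NeZero (d * q)] (h : d * q ∣ M * q * q),
      swapEmb A M q hqM (jd A (d * q) h) = qExpand Qbar q (qExpand Qbar d (jqModC Qbar))) ∧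
    ∀ [NeZero (d * (q * q))] (h : d * (q * q) ∣ M * q * q),
      swapEmb A M q hqM (jd A (d * (q * q)) h) = qExpand Qbar d (jqModC Qbar) := by
  haveI : NeZero (q * d) := ⟨mul_ne_zero (NeZero.ne q) (NeZero.ne d)⟩
  haveI : NeZero (q * q * d) :=
    ⟨mul_ne_zero (mul_ne_zero (NeZero.ne q) (NeZero.ne q)) (NeZero.ne d)⟩
  refine ⟨fun h => ?_, fun h => ?_, fun h => ?_⟩
  · rw [swapEmb, lineEmb_x A M q hqM _ hd h, inv_inv, (lineMulQ_swapMat q).1, qExpand_qExpand]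
    exact qExpand_congr (by ring) _
  · rw [swapEmb, lineEmb_y A M q hqM _ hd h, qExpand_qExpand]
    exact qExpand_congr (mul_comm _ _) _
  · rw [swapEmb, lineEmb_z A M q hqM _ hd h, inv_inv, (lineMulQ_swapMat q).2, gen_some_zero]

theorem exists_w₁ : ∃ w : F₁ A M q ≃ₐ[inertiaField A] F₁ A M q, ¬ q ∣ M →
    (∀ g, w (x₁ A M q g) = y₁ A M q g) ∧ ∀ g, w (y₁ A M q g) = x₁ A M q g := by
  by_cases hqM : q ∣ M
  · exact ⟨AlgEquiv.refl, fun h => absurd hqM h⟩
  let e : F₁ A M q →ₐ[inertiaField A] Ser := (expandHom A q).comp (Fld A (M * q)).val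
  let f : F₁ A M q →ₐ[inertiaField A] Ser := (swapEmb A M q hqM).comp (p₀₁ A M q)
  obtain ⟨w, hw⟩ := exists_fld_lift A e f fun d hne hd => by
    rcases divisor_cases₁ M q hd with h | ⟨d', h, rfl⟩
    · refine ⟨y₁ A M q (jd A d h), ?_⟩
      show qExpand Qbar q (scale A M q (jd A d h) : Ser) =
        swapEmb A M q hqM (p₀₁ A M q (jd A d hd))
      rw [p₀₁, incl_jd, (swapEmb_jd A M q hqM h).1, coe_scale, coe_jd, qExpand_qExpand]
    · haveI : NeZero d' := ⟨left_ne_zero_of_mul hne.ne⟩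
      refine ⟨x₁ A M q (jd A d' h), ?_⟩
      show qExpand Qbar q (x₁ A M q (jd A d' h) : Ser) =
        swapEmb A M q hqM (p₀₁ A M q (jd A (d' * q) hd))
      rw [coe_x₁, p₀₁, incl_jd, (swapEmb_jd A M q hqM h).2.1, coe_jd]
  have hinj : Function.Injective e := e.toRingHom.injective
  have hwx : w.comp (x₁ A M q) = y₁ A M q := fld_algHom_ext A fun d hne hd => hinj <| by
    show e (w _) = _
    rw [hw]
    show swapEmb A M q hqM (p₀₁ A M q (x₁ A M q (jd A d hd))) =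
      qExpand Qbar q (scale A M q (jd A d hd) : Ser)
    rw [p₀₁, x₁, incl_jd, incl_jd, (swapEmb_jd A M q hqM hd).1, coe_scale, coe_jd]
    simp only [qExpand_qExpand, mul_assoc]
  have hwy : w.comp (y₁ A M q) = x₁ A M q := fld_algHom_ext A fun d hne hd => hinj <| by
    show e (w _) = _
    rw [hw]
    haveI : NeZero (d * q) := ⟨mul_ne_zero hne.ne (NeZero.ne q)⟩
    show swapEmb A M q hqM (p₀₁ A M q (scale A M q (jd A d hd))) =
      qExpand Qbar q (x₁ A M q (jd A d hd) : Ser)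
    rw [p₀₁, scale_jd, incl_jd, (swapEmb_jd A M q hqM hd).2.1, coe_x₁, coe_jd]
  have hww : w.comp w = AlgHom.id _ _ := f₁_algHom_ext A M q
    (fun g => by
      show w (w _) = _
      rw [show w (x₁ A M q g) = y₁ A M q g from DFunLike.congr_fun hwx g,
        show w (y₁ A M q g) = x₁ A M q g from DFunLike.congr_fun hwy g]; rfl)
    (fun g => by
      show w (w _) = _
      rw [show w (y₁ A M q g) = x₁ A M q g from DFunLike.congr_fun hwy g,
        show w (x₁ A M q g) = y₁ A M q g from DFunLike.congr_fun hwx g]; rfl)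
  exact ⟨AlgEquiv.ofAlgHom w w hww hww, fun _ =>
    ⟨fun g => DFunLike.congr_fun hwx g, fun g => DFunLike.congr_fun hwy g⟩⟩

/-- The involution of `F₁` exchanging the two sides. -/
def w₁ : F₁ A M q ≃ₐ[inertiaField A] F₁ A M q := (exists_w₁ A M q).choose

theorem exists_w₂ : ∃ w : F₂ A M q ≃ₐ[inertiaField A] F₂ A M q, ¬ q ∣ M →
    (∀ g, w (x₂ A M q g) = z₂ A M q g) ∧ (∀ g, w (z₂ A M q g) = x₂ A M q g) ∧
      ∀ g, w (y₂ A M q g) = y₂ A M q g := by
  by_cases hqM : q ∣ M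
  · exact ⟨AlgEquiv.refl, fun h => absurd hqM h⟩
  let e : F₂ A M q →ₐ[inertiaField A] Ser := (Fld A (M * q * q)).val
  let f : F₂ A M q →ₐ[inertiaField A] Ser := swapEmb A M q hqM
  have hfx : ∀ g, f (x₂ A M q g) = (z₂ A M q g : Ser) := fun g => DFunLike.congr_fun
    (fld_algHom_ext A (f := f.comp (x₂ A M q)) (g := e.comp (z₂ A M q)) fun d hne hd => by
      show swapEmb A M q hqM (x₂ A M q (jd A d hd)) = (z₂ A M q (jd A d hd) : Ser)
      rw [← jd_eq_x₂ A M q hd ((hd.trans (dvd_mul_right M q)).trans (dvd_mul_right _ q)),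
        (swapEmb_jd A M q hqM hd).1, z₂_coe, coe_jd]) g
  have hfy : ∀ g, f (y₂ A M q g) = (y₂ A M q g : Ser) := fun g => DFunLike.congr_fun
    (fld_algHom_ext A (f := f.comp (y₂ A M q)) (g := e.comp (y₂ A M q)) fun d hne hd => by
      haveI : NeZero (d * q) := ⟨mul_ne_zero hne.ne (NeZero.ne q)⟩
      show swapEmb A M q hqM (y₂ A M q (jd A d hd)) = (y₂ A M q (jd A d hd) : Ser)
      rw [← jd_eq_y₂ A M q hd ((mul_dvd_mul_right hd q).trans (dvd_mul_right _ q)),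
        (swapEmb_jd A M q hqM hd).2.1, coe_jd, qExpand_qExpand]
      exact qExpand_congr (mul_comm _ _) _) g
  have hfz : ∀ g, f (z₂ A M q g) = (x₂ A M q g : Ser) := fun g => DFunLike.congr_fun
    (fld_algHom_ext A (f := f.comp (z₂ A M q)) (g := e.comp (x₂ A M q)) fun d hne hd => by
      haveI : NeZero (d * (q * q)) :=
        ⟨mul_ne_zero hne.ne (mul_ne_zero (NeZero.ne q) (NeZero.ne q))⟩
      show swapEmb A M q hqM (z₂ A M q (jd A d hd)) = (x₂ A M q (jd A d hd) : Ser)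
      rw [← jd_eq_z₂ A M q hd (mul_assoc M q q ▸ mul_dvd_mul_right hd (q * q)),
        (swapEmb_jd A M q hqM hd).2.2, x₂_coe, coe_jd]) g
  obtain ⟨w, hw⟩ := exists_fld_lift A e f fun d hne hd => by
    rcases divisor_cases M q hd with h | ⟨d', h, rfl⟩ | ⟨d', h, rfl⟩
    · exact ⟨z₂ A M q (jd A d h), (show f (jd A d hd) = _ by rw [jd_eq_x₂ A M q h]; exact hfx _).symm⟩
    · haveI : NeZero d' := ⟨left_ne_zero_of_mul hne.ne⟩
      exact ⟨y₂ A M q (jd A d' h), (show f (jd A (d' * q) hd) = _ by rw [jd_eq_y₂ A M q h]; exact hfy _).symm⟩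
    · haveI : NeZero d' := ⟨left_ne_zero_of_mul hne.ne⟩
      exact ⟨x₂ A M q (jd A d' h), (show f (jd A (d' * (q * q)) hd) = _ by
        rw [jd_eq_z₂ A M q h]; exact hfz _).symm⟩
  have hwx : ∀ g, w (x₂ A M q g) = z₂ A M q g := fun g => Subtype.ext ((hw _).trans (hfx g))
  have hwy : ∀ g, w (y₂ A M q g) = y₂ A M q g := fun g => Subtype.ext ((hw _).trans (hfy g))
  have hwz : ∀ g, w (z₂ A M q g) = x₂ A M q g := fun g => Subtype.ext ((hw _).trans (hfz g))
  have hww : w.comp w = AlgHom.id _ _ := f₂_algHom_ext A M q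
    (fun g => by show w (w _) = _; rw [hwx, hwz]; rfl)
    (fun g => by show w (w _) = _; rw [hwy, hwy]; rfl)
    (fun g => by show w (w _) = _; rw [hwz, hwx]; rfl)
  exact ⟨AlgEquiv.ofAlgHom w w hww hww, fun _ => ⟨hwx, hwz, hwy⟩⟩

/-- The involution of `F₂` exchanging the two extreme sides. -/
def w₂ : F₂ A M q ≃ₐ[inertiaField A] F₂ A M q := (exists_w₂ A M q).choose

/-- The series `g (ζ ^ (i + 1) t)` for the middle embeddings. -/
def midTwist (i : Fin (q - 1)) : Ser →+* Ser := seriesTwist (zetaQ q ^ ((i : ℕ) + 1))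

theorem exists_e₁₁ (i : Fin (q - 1)) : ∃ e : F₂ A M q →ₐ[inertiaField A] Ser, ¬ q ∣ M →
    (∀ g, e (p₀₁ A M q g) = (g : Ser)) ∧
      ∀ g, e (z₂ A M q g) = midTwist q i (g : Ser) := by
  by_cases hqM : q ∣ M
  · exact ⟨(Fld A (M * q * q)).val, fun h => absurd hqM h⟩
  have hlt : (i : ℕ) + 1 < q := by omega
  have hc : ((((i : ℕ) + 1 : ℕ)) : ZMod q) ≠ 0 := by
    rw [Ne, CharP.cast_eq_zero_iff (ZMod q) q]
    exact Nat.not_dvd_of_pos_of_lt (by omega) hlt
  set c : ZMod q := (((i : ℕ) + 1 : ℕ) : ZMod q) with hc'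
  let h : SL(2, ZMod q) := ⟨!![c⁻¹, 0; 1, c], by simp [Matrix.det_fin_two, hc]⟩
  have h0 : lineMulQ (some 0) h = some 0 := by
    simp [h, lineMulQ, vecLine, lineVec, Matrix.vecMul, dotProduct, Fin.sum_univ_two, hc]
  have h1 : lineMulQ none h = some c := by
    simp [h, lineMulQ, vecLine, lineVec, Matrix.vecMul, dotProduct, Fin.sum_univ_two]
  let e := lineEmb A M q hqM h⁻¹
  have hp : e.comp (p₀₁ A M q) = (Fld A (M * q)).val := fld_algHom_ext A fun d hne hd => by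
    show lineEmb A M q hqM h⁻¹ (p₀₁ A M q (jd A d hd)) = (jd A d hd : Ser)
    rw [p₀₁, incl_jd, coe_jd]
    rcases divisor_cases₁ M q hd with hd' | ⟨d', hd', rfl⟩
    · rw [lineEmb_x A M q hqM _ hd', inv_inv, h0, gen_some_zero]
    · haveI : NeZero d' := ⟨left_ne_zero_of_mul hne.ne⟩
      rw [lineEmb_y A M q hqM _ hd']
      rfl
  have hz : e.comp (z₂ A M q) =
      (twistHom A (zetaQ q ^ ((i : ℕ) + 1))).comp (Fld A M).val :=
    fld_algHom_ext A fun d hne hd => by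
      haveI : NeZero (d * (q * q)) :=
        ⟨mul_ne_zero hne.ne (mul_ne_zero (NeZero.ne q) (NeZero.ne q))⟩
      show lineEmb A M q hqM h⁻¹ (z₂ A M q (jd A d hd)) = seriesTwist _ (jd A d hd : Ser)
      rw [← jd_eq_z₂ A M q hd (mul_assoc M q q ▸ mul_dvd_mul_right hd (q * q)),
        lineEmb_z A M q hqM _ hd, inv_inv, h1, coe_jd, hc']
      show seriesTwist (zetaQ q ^ (((i : ℕ) + 1 : ℕ) : ZMod q).val) _ = _
      rw [ZMod.val_natCast_of_lt hlt]
  exact ⟨e, fun _ => ⟨fun g => DFunLike.congr_fun hp g, fun g => DFunLike.congr_fun hz g⟩⟩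

/-- The embeddings of `F₂` conjugate to the inclusion over `F₁`. -/
def e₁₁ (i : Fin (q - 1)) : F₂ A M q →ₐ[inertiaField A] Ser := (exists_e₁₁ A M q i).choose

variable {A M q}

theorem w₁_x₁ (hqM : ¬ q ∣ M) (g : F₀ A M) : w₁ A M q (x₁ A M q g) = y₁ A M q g :=
  ((exists_w₁ A M q).choose_spec hqM).1 g

theorem w₁_y₁ (hqM : ¬ q ∣ M) (g : F₀ A M) : w₁ A M q (y₁ A M q g) = x₁ A M q g :=
  ((exists_w₁ A M q).choose_spec hqM).2 g

theorem w₂_x₂ (hqM : ¬ q ∣ M) (g : F₀ A M) : w₂ A M q (x₂ A M q g) = z₂ A M q g :=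
  ((exists_w₂ A M q).choose_spec hqM).1 g

theorem w₂_z₂ (hqM : ¬ q ∣ M) (g : F₀ A M) : w₂ A M q (z₂ A M q g) = x₂ A M q g :=
  ((exists_w₂ A M q).choose_spec hqM).2.1 g

theorem w₂_y₂ (hqM : ¬ q ∣ M) (g : F₀ A M) : w₂ A M q (y₂ A M q g) = y₂ A M q g :=
  ((exists_w₂ A M q).choose_spec hqM).2.2 g

theorem e₁₁_p₀₁ (hqM : ¬ q ∣ M) (i : Fin (q - 1)) (g : F₁ A M q) :
    e₁₁ A M q i (p₀₁ A M q g) = (g : Ser) :=
  ((exists_e₁₁ A M q i).choose_spec hqM).1 g

theorem e₁₁_z₂ (hqM : ¬ q ∣ M) (i : Fin (q - 1)) (g : F₀ A M) :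
    e₁₁ A M q i (z₂ A M q g) = midTwist q i (g : Ser) :=
  ((exists_e₁₁ A M q i).choose_spec hqM).2 g

theorem w₁_w₁ (hqM : ¬ q ∣ M) (g : F₁ A M q) : w₁ A M q (w₁ A M q g) = g :=
  DFunLike.congr_fun (f₁_algHom_ext A M q
    (f := (w₁ A M q).toAlgHom.comp (w₁ A M q).toAlgHom) (g := AlgHom.id _ _)
    (fun h => by show w₁ A M q (w₁ A M q _) = _; rw [w₁_x₁ hqM, w₁_y₁ hqM]; rfl)
    (fun h => by show w₁ A M q (w₁ A M q _) = _; rw [w₁_y₁ hqM, w₁_x₁ hqM]; rfl)) g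

theorem w₂_w₂ (hqM : ¬ q ∣ M) (g : F₂ A M q) : w₂ A M q (w₂ A M q g) = g :=
  DFunLike.congr_fun (f₂_algHom_ext A M q
    (f := (w₂ A M q).toAlgHom.comp (w₂ A M q).toAlgHom) (g := AlgHom.id _ _)
    (fun h => by show w₂ A M q (w₂ A M q _) = _; rw [w₂_x₂ hqM, w₂_z₂ hqM]; rfl)
    (fun h => by show w₂ A M q (w₂ A M q _) = _; rw [w₂_y₂ hqM, w₂_y₂ hqM]; rfl)
    (fun h => by show w₂ A M q (w₂ A M q _) = _; rw [w₂_z₂ hqM, w₂_x₂ hqM]; rfl)) g

theorem p₁₂_x₁ (g : F₀ A M) : p₁₂ A M q (x₁ A M q g) = y₂ A M q g :=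
  Subtype.ext (by rw [coe_scale, coe_x₁, y₂_coe])

theorem w₂_p₀₁ (hqM : ¬ q ∣ M) (g : F₁ A M q) :
    w₂ A M q (p₀₁ A M q g) = p₁₂ A M q (w₁ A M q g) :=
  DFunLike.congr_fun (f₁_algHom_ext A M q (f := (w₂ A M q).toAlgHom.comp (p₀₁ A M q))
    (g := (p₁₂ A M q).comp (w₁ A M q).toAlgHom)
    (fun h => by
      show w₂ A M q (x₂ A M q h) = p₁₂ A M q (w₁ A M q (x₁ A M q h))
      rw [w₂_x₂ hqM, w₁_x₁ hqM]; rfl)
    (fun h => by
      show w₂ A M q (y₂ A M q h) = p₁₂ A M q (w₁ A M q (y₁ A M q h))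
      rw [w₂_y₂ hqM, w₁_y₁ hqM, p₁₂_x₁])) g

theorem e₁₁_comp_x₂ (hqM : ¬ q ∣ M) (i : Fin (q - 1)) (g : F₀ A M) :
    e₁₁ A M q i (x₂ A M q g) = (g : Ser) :=
  (e₁₁_p₀₁ hqM i (x₁ A M q g)).trans (coe_x₁ A M q g)

theorem e₁₁_comp_y₂ (hqM : ¬ q ∣ M) (i : Fin (q - 1)) (g : F₀ A M) :
    e₁₁ A M q i (y₂ A M q g) = qExpand Qbar q (g : Ser) :=
  (e₁₁_p₀₁ hqM i (y₁ A M q g)).trans (coe_scale A g)

theorem zetaQ_pow_pow (i : ℕ) : (zetaQ q ^ i) ^ q = 1 := by
  rw [← pow_mul, mul_comm, pow_mul, zetaQ_pow, one_pow]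

theorem e₁₁_w₂ (hqM : ¬ q ∣ M) (i : Fin (q - 1)) :
    ∃ j : Fin (q - 1), ∀ f : F₂ A M q,
      e₁₁ A M q i (w₂ A M q f) = midTwist q i (e₁₁ A M q j f) := by
  have hi : (i : ℕ) + 1 < q := by omega
  let j : Fin (q - 1) := ⟨q - 2 - i, by omega⟩
  have hinv : zetaQ q ^ ((i : ℕ) + 1) * zetaQ q ^ ((j : ℕ) + 1) = 1 := by
    rw [← pow_add, show (i : ℕ) + 1 + ((j : ℕ) + 1) = q by simp only [j]; omega, zetaQ_pow]
  refine ⟨j, fun f => DFunLike.congr_fun (f₂_algHom_ext A M q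
    (f := (e₁₁ A M q i).comp (w₂ A M q).toAlgHom)
    (g := (twistHom A (zetaQ q ^ ((i : ℕ) + 1))).comp (e₁₁ A M q j)) ?_ ?_ ?_) f⟩ <;> intro g
  · show e₁₁ A M q i (w₂ A M q _) = seriesTwist _ (e₁₁ A M q j _)
    rw [w₂_x₂ hqM, e₁₁_z₂ hqM, e₁₁_comp_x₂ hqM]
    rfl
  · show e₁₁ A M q i (w₂ A M q _) = seriesTwist _ (e₁₁ A M q j _)
    rw [w₂_y₂ hqM, e₁₁_comp_y₂ hqM, e₁₁_comp_y₂ hqM, seriesTwist_qExpand _ (zetaQ_pow_pow _)]
  · show e₁₁ A M q i (w₂ A M q _) = seriesTwist _ (e₁₁ A M q j _)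
    rw [w₂_z₂ hqM, e₁₁_comp_x₂ hqM, e₁₁_z₂ hqM]
    show _ = seriesTwist _ (seriesTwist _ _)
    rw [seriesTwist_seriesTwist, hinv, seriesTwist_one]

theorem zetaQ_pow_inj {a b : ℕ} (ha : a < q) (hb : b < q) (h : zetaQ q ^ a = zetaQ q ^ b) :
    a = b :=
  (isPrimitiveRoot_zetaQ q).pow_inj ha hb (by simpa using congrArg Units.val h)

theorem coeff_z₂_jElt : (z₂ A M q (jElt A M) : Ser).coeff (-1 : ℤ) = 0 := by
  have hq : 1 < q := (Fact.out : q.Prime).one_lt
  rw [z₂_coe]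
  exact coeff_qExpand_eq_zero one_pos (lt_of_lt_of_le hq (Nat.le_mul_self q)) _

/-- The embeddings of `F₂` over `F₁`. -/
def emb₀₁ : Option (Fin (q - 1)) → F₂ A M q →+* Ser
  | none => (Fld A (M * q * q)).val.toRingHom
  | some i => (e₁₁ A M q i).toRingHom

theorem emb₀₁_p₀₁ (hqM : ¬ q ∣ M) (i : Option (Fin (q - 1))) (g : F₁ A M q) :
    emb₀₁ i (p₀₁ A M q g) = (g : Ser) := by
  rcases i with _ | i
  · show (p₀₁ A M q g : Ser) = _
    rw [p₀₁, coe_incl]
  · show e₁₁ A M q i (p₀₁ A M q g) = _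
    rw [e₁₁_p₀₁ hqM]

theorem emb₀₁_injective (hqM : ¬ q ∣ M) :
    Function.Injective (emb₀₁ (A := A) (M := M) (q := q)) := by
  have hn : (emb₀₁ none (z₂ A M q (jElt A M))).coeff (-1 : ℤ) = 0 := coeff_z₂_jElt
  have hs : ∀ i : Fin (q - 1), (emb₀₁ (some i) (z₂ A M q (jElt A M))).coeff (-1 : ℤ) =
      (((zetaQ q ^ ((i : ℕ) + 1))⁻¹ : Qbarˣ) : Qbar) := fun i => by
    show (e₁₁ A M q i (z₂ A M q (jElt A M))).coeff (-1 : ℤ) = _
    rw [e₁₁_z₂ hqM]
    exact coeff_seriesTwist_jqModC _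
  intro a b hab
  have hz := congrArg (fun x : Ser => x.coeff (-1 : ℤ))
    (DFunLike.congr_fun hab (z₂ A M q (jElt A M)))
  rcases a with _ | a <;> rcases b with _ | b
  · rfl
  · exact absurd ((hn.symm.trans hz).trans (hs b)).symm (Units.ne_zero _)
  · exact absurd (((hs a).symm.trans hz).trans hn) (Units.ne_zero _)
  · have := zetaQ_pow_inj (q := q) (by omega) (by omega)
      (inv_injective (Units.ext (((hs a).symm.trans hz).trans (hs b))))
    exact congrArg some (Fin.ext (by omega))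

theorem coe_norm₀₁ (hqM : ¬ q ∣ M) (f : F₂ A M q) :
    (norm₀₁ A M q f : Ser) = (f : Ser) * ∏ i : Fin (q - 1), e₁₁ A M q i f := by
  have hq : 1 < q := (Fact.out : q.Prime).one_lt
  have h := norm_eq_prod_of_embeddings (p₀₁ A M q).toRingHom (Fld A (M * q)).val.toRingHom emb₀₁
    (fun i a => emb₀₁_p₀₁ hqM i a) (emb₀₁_injective hqM)
    ((finrank_p₀₁ A M q hqM).trans (by simp; omega)) f
  rw [Fintype.prod_option] at h
  exact h

theorem qExpand_w₁_norm₀₁ (hqM : ¬ q ∣ M) (f : F₂ A M q) :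
    qExpand (AlgebraicClosure ℚ) q (w₁ A M q (norm₀₁ A M q f) : Ser) =
      ∏ i : Fin q, seriesTwist (zetaQ q ^ (i : ℕ)) (w₂ A M q f : Ser) := by
  let σ : Fin q → F₂ A M q →+* Ser := fun i =>
    (seriesTwist (zetaQ q ^ (i : ℕ))).comp
      (((Fld A (M * q * q)).val.comp (w₂ A M q).toAlgHom).toRingHom)
  have hσ : Function.Injective σ := by
    intro a b hab
    have hz : (seriesTwist (zetaQ q ^ (a : ℕ)) (w₂ A M q (z₂ A M q (jElt A M)) : Ser)).coeff
        (-1 : ℤ) = (seriesTwist (zetaQ q ^ (b : ℕ)) (w₂ A M q (z₂ A M q (jElt A M)) : Ser)).coeff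
        (-1 : ℤ) := congrArg (fun x : Ser => x.coeff (-1 : ℤ)) (DFunLike.congr_fun hab _)
    rw [w₂_z₂ hqM, x₂_coe] at hz
    replace hz : (seriesTwist (zetaQ q ^ (a : ℕ)) (jqModC Qbar)).coeff (-1 : ℤ) =
      (seriesTwist (zetaQ q ^ (b : ℕ)) (jqModC Qbar)).coeff (-1 : ℤ) := hz
    rw [coeff_seriesTwist_jqModC, coeff_seriesTwist_jqModC] at hz
    exact Fin.ext (zetaQ_pow_inj a.2 b.2 (inv_injective (Units.ext hz)))
  exact norm_eq_prod_of_embeddings (p₀₁ A M q).toRingHom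
    ((qExpand Qbar q).comp ((Fld A (M * q)).val.comp (w₁ A M q).toAlgHom).toRingHom) σ
    (fun i a => by
      show seriesTwist _ (w₂ A M q (p₀₁ A M q a) : Ser) = qExpand Qbar q (w₁ A M q a : Ser)
      rw [w₂_p₀₁ hqM, coe_scale, seriesTwist_qExpand _ (zetaQ_pow_pow _)])
    hσ ((finrank_p₀₁ A M q hqM).trans (by simp)) f

/-- The embeddings of `F₁` over the `τ`-side, after a dilation. -/
def emb₁₀ : Option (Fin q) → F₁ A M q →+* Ser
  | none => (qExpand Qbar q).comp (Fld A (M * q)).val.toRingHom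
  | some i => (seriesTwist (zetaQ q ^ (i : ℕ))).comp
      (((Fld A (M * q)).val.comp (w₁ A M q).toAlgHom).toRingHom)

theorem emb₁₀_x₁ (hqM : ¬ q ∣ M) (i : Option (Fin q)) (g : F₀ A M) :
    emb₁₀ i (x₁ A M q g) = qExpand Qbar q (g : Ser) := by
  rcases i with _ | i
  · show qExpand Qbar q (x₁ A M q g : Ser) = _
    rw [coe_x₁]
  · show seriesTwist _ (w₁ A M q (x₁ A M q g) : Ser) = _
    rw [w₁_x₁ hqM, coe_scale, seriesTwist_qExpand _ (zetaQ_pow_pow _)]

theorem emb₁₀_injective (hqM : ¬ q ∣ M) : Function.Injective (emb₁₀ (A := A) (M := M) (q := q)) := by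
  have hq : 1 < q := (Fact.out : q.Prime).one_lt
  have hn : (qExpand Qbar q (y₁ A M q (jElt A M) : Ser)).coeff (-1 : ℤ) = 0 :=
    coeff_qExpand_eq_zero one_pos hq _
  have hs : ∀ i : Fin q, (emb₁₀ (some i) (y₁ A M q (jElt A M))).coeff (-1 : ℤ) =
      (((zetaQ q ^ (i : ℕ))⁻¹ : Qbarˣ) : Qbar) := fun i => by
    show (seriesTwist _ (w₁ A M q (y₁ A M q (jElt A M)) : Ser)).coeff _ = _
    rw [w₁_y₁ hqM, coe_x₁]
    exact coeff_seriesTwist_jqModC _
  intro a b hab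
  have hz := congrArg (fun x : Ser => x.coeff (-1 : ℤ))
    (DFunLike.congr_fun hab (y₁ A M q (jElt A M)))
  rcases a with _ | a <;> rcases b with _ | b
  · rfl
  · exact absurd ((hn.symm.trans hz).trans (hs b)).symm (Units.ne_zero _)
  · exact absurd (((hs a).symm.trans hz).trans hn) (Units.ne_zero _)
  · exact congrArg some (Fin.ext (zetaQ_pow_inj a.2 b.2
      (inv_injective (Units.ext (((hs a).symm.trans hz).trans (hs b))))))

theorem qExpand_norm₁₀ (hqM : ¬ q ∣ M) (g : F₁ A M q) :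
    qExpand (AlgebraicClosure ℚ) q (norm₁₀ A M q g : Ser) =
      qExpand (AlgebraicClosure ℚ) q (g : Ser) *
        ∏ i : Fin q, seriesTwist (zetaQ q ^ (i : ℕ)) (w₁ A M q g : Ser) := by
  have h := norm_eq_prod_of_embeddings (x₁ A M q).toRingHom
    ((qExpand Qbar q).comp (Fld A M).val.toRingHom) emb₁₀ (fun i a => emb₁₀_x₁ hqM i a)
    (emb₁₀_injective hqM) ((finrank_x₁ A M q hqM).trans (by simp)) g
  rw [Fintype.prod_option] at h
  exact h

theorem p₀₁_w₁ (hqM : ¬ q ∣ M) (g : F₁ A M q) :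
    p₀₁ A M q (w₁ A M q g) = w₂ A M q (p₁₂ A M q g) := by
  conv_rhs => rw [← w₁_w₁ hqM g, ← w₂_p₀₁ hqM, w₂_w₂ hqM]

theorem norm₁₂_eq (hqM : ¬ q ∣ M) (f : F₂ A M q) :
    norm₁₂ A M q f = w₁ A M q (norm₀₁ A M q (w₂ A M q f)) := by
  have h := @Algebra.norm_eq_of_equiv_equiv (F₁ A M q) (F₂ A M q) (F₁ A M q) (F₂ A M q) _ _ _ _
    (p₁₂ A M q).toRingHom.toAlgebra (p₀₁ A M q).toRingHom.toAlgebra
    (w₁ A M q).toRingEquiv (w₂ A M q).toRingEquiv (RingHom.ext fun g => p₀₁_w₁ hqM g) f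
  refine h.trans ?_
  apply (w₁ A M q).injective
  rw [w₁_w₁ hqM]
  exact (w₁ A M q).apply_symm_apply _

theorem qExpand_norm₁₂ (hqM : ¬ q ∣ M) (f : F₂ A M q) :
    qExpand (AlgebraicClosure ℚ) q (norm₁₂ A M q f : Ser) =
      ∏ i : Fin q, seriesTwist (zetaQ q ^ (i : ℕ)) (f : Ser) := by
  rw [norm₁₂_eq hqM, qExpand_w₁_norm₀₁ hqM, w₂_w₂ hqM]

/-- The norms commute with a change of the level prime to `q`. -/
theorem norm₀₁_incl {M' : ℕ} [NeZero M'] (hqM : ¬ q ∣ M) (h : M' ∣ M)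
    (h' : M' * q * q ∣ M * q * q) (f : F₂ A M' q) :
    (norm₀₁ A M q (incl A (M' * q * q) (M * q * q) h' f) : Ser) = (norm₀₁ A M' q f : Ser) := by
  have hqM' : ¬ q ∣ M' := fun h0 => hqM (h0.trans h)
  rw [coe_norm₀₁ hqM, coe_norm₀₁ hqM', coe_incl]
  refine congrArg _ (Finset.prod_congr rfl fun i _ => DFunLike.congr_fun (f₂_algHom_ext A M' q
    (f := (e₁₁ A M q i).comp (incl A (M' * q * q) (M * q * q) h')) (g := e₁₁ A M' q i)
    ?_ ?_ ?_) f) <;> intro g
  · have hg : incl A (M' * q * q) (M * q * q) h' (x₂ A M' q g) = x₂ A M q (incl A M' M h g) :=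
      Subtype.ext (by simp [x₂_coe])
    show e₁₁ A M q i (incl A _ _ h' _) = _
    rw [hg, e₁₁_comp_x₂ hqM, e₁₁_comp_x₂ hqM', coe_incl]
  · have hg : incl A (M' * q * q) (M * q * q) h' (y₂ A M' q g) = y₂ A M q (incl A M' M h g) :=
      Subtype.ext (by simp [y₂_coe])
    show e₁₁ A M q i (incl A _ _ h' _) = _
    rw [hg, e₁₁_comp_y₂ hqM, e₁₁_comp_y₂ hqM', coe_incl]
  · have hg : incl A (M' * q * q) (M * q * q) h' (z₂ A M' q g) = z₂ A M q (incl A M' M h g) :=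
      Subtype.ext (by simp [z₂_coe])
    show e₁₁ A M q i (incl A _ _ h' _) = _
    rw [hg, e₁₁_z₂ hqM, e₁₁_z₂ hqM', coe_incl]

theorem norm₁₂_incl {M' : ℕ} [NeZero M'] (hqM : ¬ q ∣ M) (h : M' ∣ M)
    (h' : M' * q * q ∣ M * q * q) (f : F₂ A M' q) :
    (norm₁₂ A M q (incl A (M' * q * q) (M * q * q) h' f) : Ser) = (norm₁₂ A M' q f : Ser) := by
  apply qExpand_injective q
  rw [qExpand_norm₁₂ hqM, qExpand_norm₁₂ fun h0 => hqM (h0.trans h), coe_incl]

/-- The characteristic polynomial over the `τ`-side and its roots as series. -/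
theorem exists_charpoly_x₁ (hqM : ¬ q ∣ M) (f : F₁ A M q) :
    ∃ P : Polynomial (F₀ A M), P.Monic ∧ P.eval₂ (x₁ A M q).toRingHom f = 0 ∧
      P.map ((qExpand (AlgebraicClosure ℚ) q).comp (Fld A M).val.toRingHom) =
        (Polynomial.X - Polynomial.C (qExpand (AlgebraicClosure ℚ) q (f : Ser))) *
          ∏ i : Fin q, (Polynomial.X -
            Polynomial.C (seriesTwist (zetaQ q ^ (i : ℕ)) (w₁ A M q f : Ser))) := by
  obtain ⟨P, hP, h1, h2⟩ := exists_poly_of_embeddings (x₁ A M q).toRingHom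
    ((qExpand Qbar q).comp (Fld A M).val.toRingHom) emb₁₀ (fun i a => emb₁₀_x₁ hqM i a)
    (emb₁₀_injective hqM) ((finrank_x₁ A M q hqM).trans (by simp)) f
  rw [Fintype.prod_option] at h2
  exact ⟨P, hP, h1, h2⟩

/-- The characteristic polynomial over the `τ`-side at the top level and its roots as series. -/
theorem exists_charpoly_x₂ (hqM : ¬ q ∣ M) (ξ : (AlgebraicClosure ℚ)ˣ)
    (hξ : IsPrimitiveRoot (ξ : AlgebraicClosure ℚ) (q * q)) (f : F₂ A M q) :
    ∃ P : Polynomial (F₀ A M), P.Monic ∧ P.eval₂ (x₂ A M q).toRingHom f = 0 ∧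
      P.map ((qExpand (AlgebraicClosure ℚ) (q * q)).comp (Fld A M).val.toRingHom) =
        (Polynomial.X - Polynomial.C (qExpand (AlgebraicClosure ℚ) (q * q) (f : Ser))) *
          (∏ i : Fin (q - 1),
            (Polynomial.X - Polynomial.C (qExpand (AlgebraicClosure ℚ) (q * q) (e₁₁ A M q i f)))) *
          ∏ i : Fin (q * q), (Polynomial.X -
            Polynomial.C (seriesTwist (ξ ^ (i : ℕ)) (w₂ A M q f : Ser))) := by
  have hq : 1 < q := (Fact.out : q.Prime).one_lt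
  have hqq : 1 < q * q := lt_of_lt_of_le hq (Nat.le_mul_self q)
  let σ : Option (Fin (q - 1)) ⊕ Fin (q * q) → F₂ A M q →+* Ser
    | Sum.inl none => (qExpand Qbar (q * q)).comp (Fld A (M * q * q)).val.toRingHom
    | Sum.inl (some i) => (qExpand Qbar (q * q)).comp (e₁₁ A M q i).toRingHom
    | Sum.inr i => (seriesTwist (ξ ^ (i : ℕ))).comp
        (((Fld A (M * q * q)).val.comp (w₂ A M q).toAlgHom).toRingHom)
  have hξu : ∀ i : ℕ, (ξ ^ i) ^ (q * q) = 1 := fun i => Units.ext (by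
    rw [← pow_mul, mul_comm, pow_mul, Units.val_pow_eq_pow_val, Units.val_pow_eq_pow_val,
      hξ.pow_eq_one, one_pow, Units.val_one])
  have hinc : ∀ i a, σ i ((x₂ A M q).toRingHom a) =
      ((qExpand Qbar (q * q)).comp (Fld A M).val.toRingHom) a := by
    intro i a
    rcases i with (_ | i) | i
    · exact congrArg (qExpand Qbar (q * q)) (x₂_coe A M q a)
    · exact congrArg (qExpand Qbar (q * q)) (e₁₁_comp_x₂ hqM i a)
    · show seriesTwist _ (w₂ A M q (x₂ A M q a) : Ser) = _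
      rw [w₂_x₂ hqM, z₂_coe, seriesTwist_qExpand _ (hξu _)]
      rfl
  let t : F₂ A M q := z₂ A M q (jElt A M)
  let key : (F₂ A M q →+* Ser) → Qbar × Qbar := fun s =>
    ((s t).coeff (-1 : ℤ), (s t).coeff ((↑(q * q) : ℤ) * (-1)))
  have k0 : key (σ (Sum.inl none)) = (0, 0) := by
    refine Prod.ext (coeff_qExpand_eq_zero one_pos hqq _) ?_
    show (qExpand Qbar (q * q) (t : Ser)).coeff _ = 0
    rw [qExpand_coeff_mul]
    exact coeff_z₂_jElt
  have k1 : ∀ i, key (σ (Sum.inl (some i))) =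
      (0, (((zetaQ q ^ ((i : ℕ) + 1))⁻¹ : Qbarˣ) : Qbar)) := fun i => by
    refine Prod.ext (coeff_qExpand_eq_zero one_pos hqq _) ?_
    show (qExpand Qbar (q * q) (e₁₁ A M q i (z₂ A M q (jElt A M)))).coeff _ = _
    rw [qExpand_coeff_mul, e₁₁_z₂ hqM]
    exact coeff_seriesTwist_jqModC _
  have k2 : ∀ i : Fin (q * q), (key (σ (Sum.inr i))).1 =
      (((ξ ^ (i : ℕ))⁻¹ : Qbarˣ) : Qbar) := fun i => by
    show (seriesTwist _ (w₂ A M q (z₂ A M q (jElt A M)) : Ser)).coeff _ = _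
    rw [w₂_z₂ hqM, x₂_coe]
    exact coeff_seriesTwist_jqModC _
  have hσ : Function.Injective σ := by
    intro a b hab
    have hk := congrArg key hab
    rcases a with (_ | a) | a <;> rcases b with (_ | b) | b
    · rfl
    · rw [k0, k1, Prod.mk.injEq] at hk
      exact absurd hk.2.symm (Units.ne_zero _)
    · have := congrArg Prod.fst hk
      rw [k0, k2] at this
      exact absurd this.symm (Units.ne_zero _)
    · rw [k0, k1, Prod.mk.injEq] at hk
      exact absurd hk.2 (Units.ne_zero _)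
    · rw [k1, k1] at hk
      have := zetaQ_pow_inj (q := q) (by omega) (by omega)
        (inv_injective (Units.ext (congrArg Prod.snd hk)))
      exact congrArg (Sum.inl ∘ some) (Fin.ext (by omega))
    · have := congrArg Prod.fst hk
      rw [k1, k2] at this
      exact absurd this.symm (Units.ne_zero _)
    · have := congrArg Prod.fst hk
      rw [k0, k2] at this
      exact absurd this (Units.ne_zero _)
    · have := congrArg Prod.fst hk
      rw [k1, k2] at this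
      exact absurd this (Units.ne_zero _)
    · have := congrArg Prod.fst hk
      rw [k2, k2] at this
      have h2 := congrArg Units.val (inv_injective (Units.ext this))
      rw [Units.val_pow_eq_pow_val, Units.val_pow_eq_pow_val] at h2
      exact congrArg Sum.inr (Fin.ext (hξ.pow_inj a.2 b.2 h2))
  have hcard : q * (q + 1) = Fintype.card (Option (Fin (q - 1)) ⊕ Fin (q * q)) := by
    rw [Fintype.card_sum, Fintype.card_option, Fintype.card_fin, Fintype.card_fin,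
      Nat.sub_add_cancel hq.le]
    ring
  obtain ⟨P, hP, h1, h2⟩ := exists_poly_of_embeddings (x₂ A M q).toRingHom
    ((qExpand Qbar (q * q)).comp (Fld A M).val.toRingHom) σ hinc hσ
    ((finrank_x₂ A M q hqM).trans hcard) f
  rw [Fintype.prod_sum_type, Fintype.prod_option] at h2
  exact ⟨P, hP, h1, h2⟩

end Fermat.Agent.Carayol.Reg

end
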