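/-
Theorem of Carayol at `q ^ 2 ∥ M`: the integrality criterion.  A function which is integral over
`K[T]` and
Gauss integral at every component is integral over `𝒪[T]`.
-/
import Fermat.Agent.Carayol.MainTower
import Fermat.Agent.Carayol.MainGaussVal
import Fermat.Agent.Carayol.MainGaussAbove
import Mathlib.RingTheory.Polynomial.IsIntegral
import Mathlib.FieldTheory.Minpoly.IsIntegrallyClosed
import Mathlib.FieldTheory.RatFunc.Basic

set_option autoImplicit false
set_option linter.style.haveILetI false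

noncomputable section

namespace Fermat.Agent.Carayol.Reg

open ModularCurve IntermediateField Polynomial

local notation "Qbar" => AlgebraicClosure ℚ
local notation "Ser" => LaurentSeries (AlgebraicClosure ℚ)

/-! ### Integral elements -/

/-- Integrality is carried along a ring homomorphism compatible with the two base maps. -/
theorem isIntegralElem_transfer {R R' E E' : Type*} [CommRing R] [CommRing R'] [CommRing E]
    [CommRing E'] [Nontrivial E'] {f : R →+* E} {g : R' →+* E'} (σ : E →+* E')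
    (h : ∀ a, σ (f a) ∈ g.range) {r : E} (hr : f.IsIntegralElem r) :
    g.IsIntegralElem (σ r) := by
  obtain ⟨p, hp, hpr⟩ := hr
  have hl : p.map (σ.comp f) ∈ Polynomial.lifts g := by
    rw [lifts_iff_coeff_lifts]
    intro n
    rw [coeff_map]
    exact h _
  obtain ⟨p', hp', -, hmon⟩ := lifts_and_degree_eq_and_monic hl (hp.map _)
  refine ⟨p', hmon, ?_⟩
  rw [← eval_map, hp', eval_map, ← hom_eval₂, hpr, map_zero]

/-- The elements integral along a ring homomorphism. -/
def integralElems {R E : Type*} [CommRing R] [CommRing E] (f : R →+* E) : Subring E :=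
  letI : Algebra R E := f.toAlgebra
  (integralClosure R E).toSubring

theorem mem_integralElems {R E : Type*} [CommRing R] [CommRing E] {f : R →+* E} {r : E} :
    r ∈ integralElems f ↔ f.IsIntegralElem r := Iff.rfl

theorem X_sub_C_mem_lifts {E : Type*} [CommRing E] {S : Subring E} {r : E} (hr : r ∈ S) :
    X - C r ∈ Polynomial.lifts S.subtype :=
  ⟨X - C (⟨r, hr⟩ : S), by simp⟩

/-- In `K(T)`, an element integral over `K[T]` is a polynomial in `T`. -/
theorem exists_aeval_of_isIntegralElem {K F : Type*} [Field K] [Field F] [Algebra K F] {T : F}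
    (hT : Transcendental K T) {c : F} (hc : c ∈ K⟮T⟯)
    (hint : (aeval T : K[X] →ₐ[K] F).toRingHom.IsIntegralElem c) :
    ∃ r : K[X], aeval T r = c := by
  set f : K[X] →+* F := (aeval T : K[X] →ₐ[K] F).toRingHom
  have hf : Function.Injective f := transcendental_iff_injective.1 hT
  obtain ⟨r, s, rfl⟩ := (mem_adjoin_simple_iff (F := K) _).1 hc
  let φ : RatFunc K →+* F := IsFractionRing.lift hf
  set c' : RatFunc K := algebraMap K[X] (RatFunc K) r / algebraMap K[X] (RatFunc K) s
  have hc' : φ c' = aeval T r / aeval T s := by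
    simp only [φ, c', map_div₀, IsFractionRing.lift_algebraMap]
    rfl
  obtain ⟨p, hp, hpe⟩ := hint
  have hi : IsIntegral K[X] c' := by
    refine ⟨p, hp, φ.injective ?_⟩
    rw [hom_eval₂, map_zero, hc', show φ.comp (algebraMap K[X] (RatFunc K)) = f from
      RingHom.ext fun a => IsFractionRing.lift_algebraMap hf a]
    exact hpe
  obtain ⟨y, hy⟩ := IsIntegrallyClosed.isIntegral_iff.1 hi
  refine ⟨y, ?_⟩
  rw [← hc', ← hy]
  exact (IsFractionRing.lift_algebraMap hf y).symm

variable {A : ValuationSubring (AlgebraicClosure ℚ)} {M q : ℕ} [NeZero M] [Fact q.Prime]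

/-! ### Charts -/

theorem mem_chart_iff_integralElem {N : ℕ} {T f : Fld A N} :
    f ∈ chart A T ↔ (chartBase A T).subtype.IsIntegralElem f := Iff.rfl

theorem algebraMap_mem_chartBase {N : ℕ} (T : Fld A N) {c : inertiaField A}
    (hc : c ∈ inertiaInt A) : algebraMap (inertiaField A) (Fld A N) c ∈ chartBase A T :=
  (le_sup_left : constInt A N ≤ chartBase A T) ⟨c, hc, rfl⟩

theorem evI_mem_chartBase {N : ℕ} (T : Fld A N) (P : (inertiaInt A)[X]) :
    MainGauss.evI (A := inertiaInt A) T P ∈ chartBase A T := by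
  induction P using Polynomial.induction_on' with
  | add p r hp hr => rw [map_add]; exact add_mem hp hr
  | monomial n a =>
    rw [MainGauss.evI_apply, map_monomial, aeval_monomial]
    exact mul_mem (algebraMap_mem_chartBase T a.2)
      (pow_mem ((le_sup_right : Subring.closure {T} ≤ chartBase A T)
        (Subring.subset_closure rfl)) n)

/-- A chart lies in every subring with a reduction which contains its base and outside of which
the inverse reduces to zero. -/
theorem chart_le_of_red {N : ℕ} (T : Fld A N) (S : Subring (Fld A N)) {k : Type*} [CommRing k]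
    [Nontrivial k] (φ : S →+* k) (hbase : chartBase A T ≤ S)
    (hinv : ∀ f : Fld A N, f ∉ S → ∃ h : f⁻¹ ∈ S, φ ⟨_, h⟩ = 0) : chart A T ≤ S := by
  intro f hf
  by_contra hfS
  obtain ⟨h, h0⟩ := hinv f hfS
  obtain ⟨p, hp, hpf⟩ := mem_chart_iff_integralElem.1 hf
  have hf0 : f ≠ 0 := fun e => hfS (e ▸ S.zero_mem)
  set n := p.natDegree
  let a : ℕ → S := fun i => ⟨(p.coeff i : Fld A N), hbase (p.coeff i).2⟩
  let g : S := ⟨f⁻¹, h⟩
  have hrel : (1 : S) + ∑ i ∈ Finset.range n, a i * g ^ (n - i) = 0 := by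
    refine Subtype.ext ?_
    push_cast
    rw [eval₂_eq_sum_range, Finset.sum_range_succ, hp.coeff_natDegree, map_one, one_mul] at hpf
    have e := congrArg (· * f⁻¹ ^ n) hpf
    simp only [add_mul, zero_mul, Finset.sum_mul] at e
    rw [inv_pow, mul_inv_cancel₀ (pow_ne_zero _ hf0), add_comm] at e
    rw [← e]
    refine congrArg ((1 : Fld A N) + ·) (Finset.sum_congr rfl fun i hi => ?_)
    rw [Finset.mem_range] at hi
    show (p.coeff i : Fld A N) * f⁻¹ ^ (n - i) = (p.coeff i : Fld A N) * f ^ i * (f ^ n)⁻¹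
    rw [mul_assoc, inv_pow]
    congr 1
    rw [← mul_inv_eq_one₀ (mul_ne_zero (pow_ne_zero _ hf0) (inv_ne_zero (pow_ne_zero _ hf0))),
      mul_inv, inv_inv]
    rw [show f ^ n = f ^ i * f ^ (n - i) by rw [← pow_add, Nat.add_sub_cancel' hi.le]]
    field_simp
  have e := congrArg φ hrel
  rw [map_add, map_one, map_zero, map_sum] at e
  rw [Finset.sum_eq_zero fun i hi => ?_, add_zero] at e
  · exact one_ne_zero e
  · rw [map_mul, map_pow, h0, zero_pow (Nat.sub_ne_zero_of_lt (Finset.mem_range.1 hi)), mul_zero]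

/-! ### The level prime to `q` -/

theorem hasVal_fld' (hA : A.LiesOverPrime q) {N : ℕ} {g : Ser} (hg : g ∈ Fld A N) (hg0 : g ≠ 0) :
    ∃ m : ℤ, IsGaussUnit A (((q : Ser) ^ m)⁻¹ * g) := by
  obtain ⟨m, hm⟩ := exists_const_scale (inertiaField A).toSubfield
    (Nat.cast_ne_zero.2 (Fact.out : q.Prime).ne_zero)
    (fun c hc hc0 => valuation_inertiaField hA hc hc0)
    (fld_le_coeffField (inertiaField A).toSubfield (fun _ h => h) hg) hg0
  exact ⟨m, by rwa [← natCast_zpow_ser] at hm⟩

theorem fld_mem_or_inv (hA : A.LiesOverPrime q) {N : ℕ} {g : Ser} (hg : g ∈ Fld A N) :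
    g ∈ GaussInt A ∨ g⁻¹ ∈ GaussInt A := by
  rcases eq_or_ne g 0 with rfl | h0
  · exact Or.inl (zero_mem _)
  obtain ⟨m, hm⟩ := hasVal_fld' hA hg h0
  rcases le_total 0 m with hm0 | hm0
  · obtain ⟨n, rfl⟩ := Int.eq_ofNat_of_zero_le hm0
    refine Or.inl ?_
    rw [show g = (q : Ser) ^ n * (((q : Ser) ^ (n : ℤ))⁻¹ * g) by
      rw [zpow_natCast, mul_inv_cancel_left₀ (pow_ne_zero _ natCast_ser_ne)]]
    exact mul_mem (pow_mem (_root_.natCast_mem _ q) n) hm.1
  · obtain ⟨n, rfl⟩ : ∃ n : ℕ, m = -(n : ℤ) := ⟨(-m).toNat, by omega⟩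
    refine Or.inr ?_
    rw [show g⁻¹ = (q : Ser) ^ n * (((q : Ser) ^ (-(n : ℤ)))⁻¹ * g)⁻¹ by
      rw [zpow_neg, zpow_natCast, inv_inv, mul_inv,
        mul_inv_cancel_left₀ (pow_ne_zero _ natCast_ser_ne)]]
    exact mul_mem (pow_mem (_root_.natCast_mem _ q) n) hm.inv.1

/-- The Gauss valuation ring of `Fld A N`. -/
def gaussVal (hA : A.LiesOverPrime q) (N : ℕ) : ValuationSubring (Fld A N) :=
  { (GaussInt A).comap (Fld A N).val.toRingHom with
    mem_or_inv_mem' := fun x => by
      rcases fld_mem_or_inv hA x.2 with h | h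
      · exact Or.inl h
      · refine Or.inr ?_
        show ((x⁻¹ : Fld A N) : Ser) ∈ GaussInt A
        push_cast
        exact h }

theorem mem_gaussVal {hA : A.LiesOverPrime q} {N : ℕ} {x : Fld A N} :
    x ∈ gaussVal hA N ↔ (x : Ser) ∈ GaussInt A := Iff.rfl

/-- The reduction on the Gauss valuation ring. -/
def gaussPhi (hA : A.LiesOverPrime q) (N : ℕ) : gaussVal hA N →+* ResSer A :=
  (gaussRed A (IsLocalRing.residue A)).comp
    (((Fld A N).val.toRingHom.comp (gaussVal hA N).subtype).codRestrict _ fun x => x.2)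

theorem gaussPhi_apply (hA : A.LiesOverPrime q) {N : ℕ} (x : gaussVal hA N) :
    gaussPhi hA N x = red A ((x : Fld A N) : Ser) := (red_of_mem x.2).symm

/-- The reduction of the constants. -/
def inertiaRes (A : ValuationSubring (AlgebraicClosure ℚ)) : inertiaInt A →+* Res A :=
  (IsLocalRing.residue A).comp
    (((algebraMap (inertiaField A) (AlgebraicClosure ℚ)).comp (inertiaInt A).subtype).codRestrict _
      fun a => a.2)

theorem red_jd (d : ℕ) [NeZero d] :
    qExpand (AlgebraicClosure ℚ) d (jqModC (AlgebraicClosure ℚ)) ∈ GaussInt A ∧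
      red A (qExpand (AlgebraicClosure ℚ) d (jqModC (AlgebraicClosure ℚ))) =
        qExpand (Res A) d (jqModC (Res A)) := by
  have h := red_coeffMap (A := A) (qExpand A d (jqModC A))
  rwa [coeffMap_qExpand, coeffMap_qExpand, coeffMap_jqModC, coeffMap_jqModC] at h

theorem isGaussUnit_jqModC : IsGaussUnit A (jqModC (AlgebraicClosure ℚ)) := by
  have h := red_jd (A := A) 1
  rw [qExpand_one_apply, qExpand_one_apply] at h
  exact ⟨h.1, fun h0 => ModFun.transcendental_jqModC (Res A)
    ⟨X, X_ne_zero, by rw [aeval_X, ← h.2, h0]⟩⟩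

theorem jCoord_mem_gaussInt_red (N : ℕ) (b : Bool) :
    (jCoord A N b : Ser) ∈ GaussInt A ∧
      red A (jCoord A N b : Ser) = bif b then (jqModC (Res A))⁻¹ else jqModC (Res A) := by
  have hu := isGaussUnit_jqModC (A := A)
  have hr : red A (jqModC (AlgebraicClosure ℚ)) = jqModC (Res A) := by
    have h := (red_jd (A := A) 1).2
    rwa [qExpand_one_apply, qExpand_one_apply] at h
  cases b
  · exact ⟨hu.1, hr⟩
  · show ((jElt A N)⁻¹ : Fld A N).1 ∈ GaussInt A ∧ red A ((jElt A N)⁻¹ : Fld A N).1 = _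
    have e : (((jElt A N)⁻¹ : Fld A N) : Ser) = (jqModC (AlgebraicClosure ℚ))⁻¹ := by
      push_cast; rfl
    rw [e]
    refine ⟨hu.inv.1, ?_⟩
    have h1 := red_mul hu.1 hu.inv.1
    rw [mul_inv_cancel₀ hu.ne_zero, red_one, hr] at h1
    exact (inv_eq_of_mul_eq_one_right h1.symm).symm

theorem adjoin_jCoord_eq (N : ℕ) (b : Bool) :
    (inertiaField A)⟮jCoord A N b⟯ = (inertiaField A)⟮jElt A N⟯ := by
  cases b
  · rfl
  · refine le_antisymm (adjoin_simple_le_iff.2 (inv_mem (mem_adjoin_simple_self _ _))) ?_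
    refine adjoin_simple_le_iff.2 ?_
    have h := inv_mem (mem_adjoin_simple_self (inertiaField A) ((jElt A N)⁻¹))
    rwa [inv_inv] at h

/-- The Gauss valuation above that of `K (T)`. -/
theorem gaussAbove₀ (hA : A.LiesOverPrime q) (N : ℕ) (b : Bool) :
    MainGauss.GaussAbove (inertiaRes A) (fun _ : Unit => gaussVal hA N) (fun _ => gaussPhi hA N)
      (jCoord A N b) (q : inertiaField A) := by
  have hcoe : ∀ a : inertiaField A, ((algebraMap (inertiaField A) (Fld A N) a : Fld A N) : Ser) =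
      algebraMap (AlgebraicClosure ℚ) Ser (a : AlgebraicClosure ℚ) := fun a => rfl
  refine
    { ker := fun _ => ?_
      mem := fun _ a => ?_
      compat := fun _ a => ?_
      x_mem := fun _ => (jCoord_mem_gaussInt_red N b).1
      x_transc := fun _ => ?_
      kerA := ?_
      p_ne := Nat.cast_ne_zero.2 (Fact.out : q.Prime).ne_zero
      p_gen := fun a ha => ?_ }
  · ext ⟨f, hf⟩
    rw [RingHom.mem_ker, IsLocalRing.mem_maximalIdeal, mem_nonunits_iff]
    refine ⟨fun h0 hu => ?_, fun hu => ?_⟩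
    · have := hu.map (gaussPhi hA N)
      rw [h0] at this
      exact not_isUnit_zero this
    · by_contra hne
      rw [gaussPhi_apply] at hne
      have hu' : IsGaussUnit A (f : Ser) := ⟨hf, hne⟩
      have hinv : f⁻¹ ∈ gaussVal hA N := by
        show ((f⁻¹ : Fld A N) : Ser) ∈ GaussInt A
        push_cast
        exact hu'.inv.1
      exact hu (IsUnit.of_mul_eq_one ⟨f⁻¹, hinv⟩ (Subtype.ext (mul_inv_cancel₀
        (fun h0 => hu'.ne_zero (congrArg Subtype.val (show f = 0 from h0))))))
  · refine mem_gaussVal.2 ?_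
    rw [hcoe]
    exact (red_algebraMap (a := ((a : inertiaField A) : AlgebraicClosure ℚ)) a.2).1
  · rw [gaussPhi_apply]
    show red A _ = _
    rw [hcoe]
    exact (red_algebraMap (a := ((a : inertiaField A) : AlgebraicClosure ℚ)) a.2).2
  · rw [gaussPhi_apply]
    show Transcendental (Res A) (red A (jCoord A N b : Ser))
    rw [(jCoord_mem_gaussInt_red N b).2]
    cases b
    · exact ModFun.transcendental_jqModC _
    · intro h
      exact ModFun.transcendental_jqModC (Res A) (by simpa using h.inv)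
  · ext a
    rw [RingHom.mem_ker, IsLocalRing.mem_maximalIdeal, mem_nonunits_iff]
    refine ⟨fun h0 hu => ?_, fun hu => ?_⟩
    · have := hu.map (inertiaRes A)
      rw [h0] at this
      exact not_isUnit_zero this
    · by_contra hne
      have hu' := IsLocalRing.notMem_maximalIdeal.mp
        (fun h1 => hne ((IsLocalRing.residue_eq_zero_iff _).mpr h1))
      obtain ⟨v, hv⟩ := hu'
      have h1 : ((a : inertiaField A) : AlgebraicClosure ℚ) * (((v⁻¹ : Aˣ) : A) : AlgebraicClosure ℚ)
          = 1 := by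
        have := congrArg (fun z : A => (z : AlgebraicClosure ℚ)) v.mul_inv
        rw [hv] at this
        exact this
      have hinv : ((a : inertiaField A)⁻¹) ∈ inertiaInt A := by
        show (((a : inertiaField A)⁻¹ : inertiaField A) : AlgebraicClosure ℚ) ∈ A
        push_cast
        rw [inv_eq_of_mul_eq_one_right h1]
        exact SetLike.coe_mem _
      have ha0 : (a : inertiaField A) ≠ 0 := fun h2 => by simp [h2] at h1
      exact hu (IsUnit.of_mul_eq_one ⟨_, hinv⟩ (Subtype.ext (mul_inv_cancel₀ ha0)))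
  · show (((a : inertiaField A) / (q : inertiaField A) : inertiaField A) : AlgebraicClosure ℚ) ∈ A
    push_cast
    rcases eq_or_ne ((a : inertiaField A) : AlgebraicClosure ℚ) 0 with h0 | h0
    · rw [h0, zero_div]; exact A.zero_mem
    obtain ⟨m, hm⟩ := valuation_inertiaField hA (a : inertiaField A).2 h0
    have hlt : A.valuation ((a : inertiaField A) : AlgebraicClosure ℚ) < 1 :=
      (A.valuation_lt_one_iff ⟨_, a.2⟩).1 ((IsLocalRing.residue_eq_zero_iff _).1 ha)
    rw [hm, zpow_lt_one_iff_right_of_lt_one₀ (valuation_q_pos hA) (valuation_q_lt hA)] at hlt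
    rw [← A.valuation_le_one_iff, map_div₀, hm, div_le_one₀ (valuation_q_pos hA)]
    conv_rhs => rw [← zpow_one (A.valuation (q : AlgebraicClosure ℚ))]
    exact (zpow_le_zpow_iff_right_of_lt_one₀ (valuation_q_pos hA) (valuation_q_lt hA)).2
      (by omega)

/-- A function of level prime to `q` which is integral over `K[T]` and Gauss integral is in the
chart. -/
theorem mem_chart_of_gauss (hA : A.LiesOverPrime q) (hqM : ¬ q ∣ M) (b : Bool) (g : Fld A M)
    (hint : IsIntegral (Algebra.adjoin (inertiaField A) {jCoord A M b}) g)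
    (hg : (g : Ser) ∈ GaussInt A) : g ∈ chart A (jCoord A M b) := by
  classical
  set K := inertiaField A
  set T := jCoord A M b
  have G := gaussAbove₀ hA M b
  set E := K⟮T⟯
  have hfr : Module.finrank E (Fld A M) = dedekindPsi M := by
    have hE : E = K⟮jElt A M⟯ := adjoin_jCoord_eq M b
    rw [hE]
    exact finrank_fld A M
  have hpsi : 0 < dedekindPsi M := Gamma0.dedekindPsi_pos M
  haveI : Module.Finite E (Fld A M) := Module.finite_of_finrank_pos (hfr ▸ hpsi)
  -- the residual basis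
  let jM : Fld A M := ⟨_, jd_mem_fld (A := A) (dvd_refl M)⟩
  have hjM : jM ∈ gaussVal hA M := (red_jd M).1
  let w : Fin (dedekindPsi M) → gaussVal hA M := fun l => ⟨jM, hjM⟩ ^ (l : ℕ)
  have hw : LinearIndependent (Res A)⟮gaussPhi hA M ⟨T, G.x_mem ()⟩⟯
      fun l => gaussPhi hA M (w l) := by
    have hw0 : LinearIndependent (Res A)⟮jqModC (Res A)⟯
        fun l : Fin (dedekindPsi M) => jqNModC (Res A) M ^ (l : ℕ) := by
      refine linearIndependent_adjoin_simple_of_poly _ _ fun P hP => ?_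
      refine Igusa.GaussX0.independent_res (MainGauss.isUnit_natCast hqM hA) P ?_
      rw [← hP]
      exact Finset.sum_congr rfl fun i _ => rfl
    have e : ∀ l, gaussPhi hA M (w l) = jqNModC (Res A) M ^ (l : ℕ) := fun l => by
      rw [map_pow, gaussPhi_apply]
      exact congrArg (· ^ (l : ℕ)) (red_jd M).2
    have hT : gaussPhi hA M ⟨T, G.x_mem ()⟩ = red A (T : Ser) := gaussPhi_apply hA _
    have hadj : (Res A)⟮gaussPhi hA M ⟨T, G.x_mem ()⟩⟯ = (Res A)⟮jqModC (Res A)⟯ := by
      rw [hT, (jCoord_mem_gaussInt_red M b).2]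
      cases b
      · rfl
      · refine le_antisymm (adjoin_simple_le_iff.2 (inv_mem (mem_adjoin_simple_self _ _)))
          (adjoin_simple_le_iff.2 ?_)
        have h := inv_mem (mem_adjoin_simple_self (Res A) ((jqModC (Res A))⁻¹))
        rwa [inv_inv] at h
    simp only [e]
    rw [hadj]
    exact hw0
  have hq0 : (q : inertiaField A) ≠ 0 := G.p_ne
  have hqv : algebraMap K (Fld A M) (q : K) ∈ gaussVal hA M :=
    G.mem () ⟨(q : K), natCast_mem (inertiaInt A) q⟩
  have hq1 : gaussPhi hA M ⟨_, hqv⟩ = 0 := by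
    refine (G.compat () ⟨(q : K), natCast_mem (inertiaInt A) q⟩).trans ?_
    rw [show inertiaRes A ⟨(q : K), natCast_mem (inertiaInt A) q⟩ = 0 from
      (IsLocalRing.residue_eq_zero_iff _).2 ((A.valuation_lt_one_iff _).2 (by
        show A.valuation (((q : K) : K) : AlgebraicClosure ℚ) < 1
        push_cast
        exact valuation_q_lt hA)), map_zero]
  obtain ⟨u, hu, hspan⟩ := G.exists_integral_basis (e := fun _ => 1)
    (ϖ := fun _ => algebraMap K (Fld A M) (q : K)) (σ := fun _ => Fin (dedekindPsi M))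
    (fun i j hij => absurd (Subsingleton.elim i j) hij) (fun _ => hqv) (fun _ => hq1)
    (fun _ => G.p_ne') (fun _ => by rw [pow_one, div_self G.p_ne']; exact one_mem _)
    (fun _ => w) (fun _ => hw) (hfr.le.trans_eq (by simp))
  -- the Gauss valuation ring of `K (T)`
  let R : ValuationSubring E := (gaussVal hA M).comap (algebraMap E (Fld A M))
  letI : Algebra R (Fld A M) := ((algebraMap E (Fld A M)).comp R.subtype).toAlgebra
  haveI : IsScalarTower R E (Fld A M) := IsScalarTower.of_algebraMap_eq fun _ => rfl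
  haveI : FaithfulSMul R (Fld A M) := (faithfulSMul_iff_algebraMap_injective _ _).2
    ((algebraMap E (Fld A M)).injective.comp Subtype.val_injective)
  have hcomb : ∀ f : Fld A M, f ∈ gaussVal hA M → f ∈ Submodule.span R (Set.range u) := by
    intro f hf
    obtain ⟨t, P, ht, htP⟩ := hspan f fun _ => hf
    obtain ⟨htm, htne⟩ := G.evI_res_ne () ht
    have hmemE : ∀ p : (inertiaInt A)[X], MainGauss.evI (A := inertiaInt A) T p ∈ E := fun p =>
      algebra_adjoin_le_adjoin _ _ (aeval_mem_adjoin_singleton _ _)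
    have hinv : (MainGauss.evI (A := inertiaInt A) T t)⁻¹ ∈ gaussVal hA M := G.inv_mem_of_ne (i := ()) htm htne
    have hf' : f = ∑ s, ((MainGauss.evI (A := inertiaInt A) T t)⁻¹ *
        MainGauss.evI (A := inertiaInt A) T (P s)) * u s := by
      rw [← inv_mul_cancel_left₀ (fun h0 => htne (by
        rw [show (⟨_, htm⟩ : gaussVal hA M) = 0 from Subtype.ext h0, map_zero])) f, htP,
        Finset.mul_sum]
      exact Finset.sum_congr rfl fun s _ => (mul_assoc _ _ _).symm
    rw [hf']
    refine Submodule.sum_mem _ fun s _ => ?_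
    let r : R := ⟨⟨_, mul_mem (inv_mem (hmemE t)) (hmemE (P s))⟩,
      (gaussVal hA M).mul_mem _ _ hinv (G.evI_mem () (P s)).1⟩
    exact (Submodule.span R (Set.range u)).smul_mem r (Submodule.subset_span ⟨s, rfl⟩)
  have hspanle : ∀ f ∈ Submodule.span R (Set.range u), f ∈ gaussVal hA M := by
    intro f hf
    induction hf using Submodule.span_induction with
    | mem y hy => obtain ⟨s, rfl⟩ := hy; exact hu s ()
    | zero => exact zero_mem _
    | add y z _ _ hy hz => exact add_mem hy hz
    | smul r y _ hy => exact (gaussVal hA M).mul_mem _ _ r.2 hy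
  have hgR : IsIntegral R g := isIntegral_of_smul_mem_submodule (Submodule.span R (Set.range u))
    (fun h0 => one_ne_zero ((Submodule.eq_bot_iff _).1 h0 1 (hcomb 1 (one_mem _))))
    (Submodule.fg_span (Set.finite_range u)) g
    fun n hn => hcomb _ ((gaussVal hA M).mul_mem _ _ hg (hspanle n hn))
  -- the coefficients of the minimal polynomial
  set m := minpoly E g
  have hm1 : m = (minpoly R g).map (algebraMap R E) :=
    minpoly.isIntegrallyClosed_eq_field_fractions' E hgR
  have hgE : IsIntegral E g := Algebra.IsIntegral.isIntegral g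
  obtain ⟨p, hp, hpg⟩ := hint
  let S := Algebra.adjoin K {T}
  let iS : S →+* E := (S.val.toRingHom).codRestrict E.toSubfield.toSubring fun a =>
    algebra_adjoin_le_adjoin K _ a.2
  have hcoef : ∀ i, ∃ r : (inertiaInt A)[X], ((m.coeff i : E) : Fld A M) =
      MainGauss.evI (A := inertiaInt A) T r := by
    intro i
    have hV : ((m.coeff i : E) : Fld A M) ∈ gaussVal hA M := by
      rw [hm1, coeff_map]
      exact ((minpoly R g).coeff i).2
    have hiS : iS.IsIntegralElem (m.coeff i) := by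
      letI : Algebra S E := iS.toAlgebra
      refine Polynomial.isIntegral_coeff_of_dvd p m hp (minpoly.monic hgE) (minpoly.dvd E g ?_) i
      rw [aeval_def, eval₂_map]
      exact hpg
    have hTt : Transcendental K T := fun ⟨P, hP, hPT⟩ => by
      obtain ⟨c, Q, hc, hQ, ⟨⟨⟩, hQne⟩⟩ := MainGauss.exists_primitive_family (inertiaRes A)
        (fun _ : Unit => P) ⟨(), hP⟩
      obtain ⟨hm, hne⟩ := G.evI_res_ne () hQne
      refine hne ?_
      have h0 : MainGauss.evI (A := inertiaInt A) T (Q ()) = 0 := by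
        rw [MainGauss.evI_apply, hQ, map_mul, hPT, mul_zero]
      rw [show (⟨_, hm⟩ : gaussVal hA M) = 0 from Subtype.ext h0, map_zero]
    have hpol : (aeval T : K[X] →ₐ[K] Fld A M).toRingHom.IsIntegralElem
        ((m.coeff i : E) : Fld A M) := by
      refine isIntegralElem_transfer E.val.toRingHom (fun a => ?_) hiS
      obtain ⟨r, hr⟩ := (Algebra.adjoin_singleton_eq_range_aeval K T).le a.2
      exact ⟨r, hr⟩
    obtain ⟨r, hr⟩ := exists_aeval_of_isIntegralElem hTt (m.coeff i : E).2 hpol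
    rcases eq_or_ne r 0 with hr0 | hr0
    · exact ⟨0, by rw [← hr, hr0, map_zero, map_zero]⟩
    obtain ⟨c, Q, hc, hQ, ⟨⟨⟩, hQne⟩⟩ := MainGauss.exists_primitive_family (inertiaRes A)
      (fun _ : Unit => r) ⟨(), hr0⟩
    have e : ((m.coeff i : E) : Fld A M) =
        algebraMap K (Fld A M) c * MainGauss.evI (A := inertiaInt A) T (Q ()) := by
      rw [← hr, MainGauss.evI_apply, hQ, map_mul, aeval_C, map_inv₀,
        mul_inv_cancel_left₀ ((_root_.map_ne_zero _).2 hc)]
    by_cases hcA : c ∈ inertiaInt A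
    · refine ⟨C ⟨c, hcA⟩ * Q (), ?_⟩
      rw [e, map_mul]
      congr 1
      rw [MainGauss.evI_apply, map_C, aeval_C]
      rfl
    exfalso
    have hci : c⁻¹ ∈ inertiaInt A := ((inertiaInt A).mem_or_inv_mem c).resolve_left hcA
    have hπ : inertiaRes A ⟨_, hci⟩ = 0 := by
      rw [← RingHom.mem_ker, G.kerA, IsLocalRing.mem_maximalIdeal, mem_nonunits_iff]
      rintro ⟨v, hv⟩
      have hmul : c⁻¹ * (((v⁻¹ : (inertiaInt A)ˣ) : inertiaInt A) : K) = 1 := by
        have := congrArg (fun z : inertiaInt A => (z : K)) v.mul_inv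
        rwa [hv] at this
      rw [inv_mul_eq_one₀ hc] at hmul
      exact hcA (hmul ▸ SetLike.coe_mem _)
    obtain ⟨hQm, hQn⟩ := G.evI_res_ne () hQne
    refine hQn ?_
    rw [show (⟨_, hQm⟩ : gaussVal hA M) = ⟨_, G.mem () ⟨_, hci⟩⟩ * ⟨_, hV⟩ from Subtype.ext (by
      show _ = algebraMap K (Fld A M) c⁻¹ * _
      rw [e, map_inv₀, inv_mul_cancel_left₀ ((_root_.map_ne_zero _).2 hc)]), map_mul]
    rw [G.compat () ⟨_, hci⟩, hπ, map_zero, zero_mul]
  refine mem_chart_iff_integralElem.2 ?_
  have hl : m.map (algebraMap E (Fld A M)) ∈ Polynomial.lifts (chartBase A T).subtype := by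
    rw [lifts_iff_coeff_lifts]
    intro i
    obtain ⟨r, hr⟩ := hcoef i
    rw [coeff_map]
    exact ⟨⟨_, evI_mem_chartBase T r⟩, hr.symm⟩
  obtain ⟨p', hp', -, hmon⟩ := lifts_and_degree_eq_and_monic hl ((minpoly.monic hgE).map _)
  refine ⟨p', hmon, ?_⟩
  rw [← eval_map, hp', eval_map]
  exact minpoly.aeval E g

/-! ### Lifting to the upper levels -/

/-- The series which are Gauss integral and integral over `K[T]`, read through `ψ`. -/
def rootRing {N : ℕ} (b : Bool) (ψ : Fld A N →+* Ser) : Subring Ser :=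
  GaussInt A ⊓ integralElems
    (ψ.comp (aeval (jCoord A N b) : (inertiaField A)[X] →ₐ[_] Fld A N).toRingHom)

theorem isIntegralElem_aeval {N : ℕ} {T : Fld A N} {g : Fld A N}
    (h : IsIntegral (Algebra.adjoin (inertiaField A) {T}) g) :
    (aeval T : (inertiaField A)[X] →ₐ[_] Fld A N).toRingHom.IsIntegralElem g :=
  isIntegralElem_transfer (RingHom.id _) (fun a => by
    obtain ⟨r, hr⟩ := (Algebra.adjoin_singleton_eq_range_aeval _ T).le a.2
    exact ⟨r, hr⟩) h

/-- The image of an element integral over `K[T]` under a compatible embedding. -/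
theorem mem_rootRing {N N' : ℕ} {b : Bool} {ψ : Fld A N →+* Ser} (σ : Fld A N' →+* Ser)
    (hc : ∀ c, σ (algebraMap (inertiaField A) (Fld A N') c) =
      ψ (algebraMap (inertiaField A) (Fld A N) c))
    (hT : σ (jCoord A N' b) = ψ (jCoord A N b)) {g : Fld A N'}
    (hint : IsIntegral (Algebra.adjoin (inertiaField A) {jCoord A N' b}) g)
    (hg : σ g ∈ GaussInt A) : σ g ∈ rootRing b ψ := by
  refine Subring.mem_inf.2 ⟨hg, mem_integralElems.2 ?_⟩
  refine isIntegralElem_transfer σ (fun a => ⟨a, ?_⟩) (isIntegralElem_aeval hint)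
  have e : σ.comp (aeval (jCoord A N' b) : (inertiaField A)[X] →ₐ[_] Fld A N').toRingHom =
      ψ.comp (aeval (jCoord A N b) : (inertiaField A)[X] →ₐ[_] Fld A N).toRingHom :=
    Polynomial.ringHom_ext (fun c => by simp [hc]) (by simp [hT])
  exact (RingHom.congr_fun e a).symm

/-- An element whose characteristic polynomial has good roots is in the chart. -/
theorem mem_chart_of_charpoly (hA : A.LiesOverPrime q) (hqM : ¬ q ∣ M) (b : Bool) {N : ℕ}
    (x : Fld A M →ₐ[inertiaField A] Fld A N) (hT : x (jCoord A M b) = jCoord A N b)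
    (ψ : Fld A M →+* Ser) (hψ : ∀ c, ψ c ∈ GaussInt A → (c : Ser) ∈ GaussInt A)
    (P : (Fld A M)[X]) (hP : P.Monic) (hroots : P.map ψ ∈ Polynomial.lifts (rootRing b ψ).subtype)
    (g : Fld A N) (hPg : P.eval₂ x.toRingHom g = 0) : g ∈ chart A (jCoord A N b) := by
  set T₀ := jCoord A M b
  set S := Algebra.adjoin (inertiaField A) {T₀}
  have hc : ∀ i, P.coeff i ∈ chart A T₀ := by
    intro i
    obtain ⟨⟨z, hz⟩, hz'⟩ := (lifts_iff_coeff_lifts _).1 hroots i
    rw [coeff_map] at hz'
    obtain ⟨hgz, hiz⟩ := Subring.mem_inf.1 hz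
    rw [show z = ψ (P.coeff i) from hz'] at hgz hiz
    refine mem_chart_of_gauss hA hqM b _ ?_ (hψ _ hgz)
    obtain ⟨p, hp, hpe⟩ := mem_integralElems.1 hiz
    set θ : (inertiaField A)[X] →+* S := (aeval (⟨T₀, Algebra.self_mem_adjoin_singleton _ T₀⟩ : S) :
          (inertiaField A)[X] →ₐ[_] S).toRingHom
    have e : (algebraMap S (Fld A M)).comp θ =
        (aeval T₀ : (inertiaField A)[X] →ₐ[_] Fld A M).toRingHom :=
      Polynomial.ringHom_ext (fun c => by simp [θ, ← IsScalarTower.algebraMap_apply])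
        (by simp [θ])
    refine ⟨p.map θ, hp.map θ, ψ.injective ?_⟩
    rw [eval₂_map, e, hom_eval₂, map_zero]
    exact hpe
  have hle : (chartBase A T₀).map x.toRingHom ≤ chartBase A (jCoord A N b) := by
    rw [chartBase, Subring.map_sup, RingHom.map_closure, Set.image_singleton]
    refine sup_le ?_ ((Subring.closure_le).2 (Set.singleton_subset_iff.2 ?_))
    · rintro _ ⟨_, ⟨c, hc, rfl⟩, rfl⟩
      rw [show x.toRingHom (algebraMap _ _ c) = algebraMap _ _ c from x.commutes c]
      exact algebraMap_mem_chartBase _ hc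
    · rw [show x.toRingHom T₀ = jCoord A N b from hT]
      exact (le_sup_right : Subring.closure {jCoord A N b} ≤ chartBase A (jCoord A N b))
        (Subring.subset_closure rfl)
  have hx : ∀ a ∈ chart A T₀, x a ∈ chart A (jCoord A N b) := fun a ha =>
    mem_chart_iff_integralElem.2 (isIntegralElem_transfer x.toRingHom
      (fun c => ⟨⟨x c, hle ⟨c, c.2, rfl⟩⟩, rfl⟩) (mem_chart_iff_integralElem.1 ha))
  letI : Algebra (chartBase A (jCoord A N b)) (Fld A N) :=
    (chartBase A (jCoord A N b)).subtype.toAlgebra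
  have hlift : P.map x.toRingHom ∈
      Polynomial.lifts (algebraMap (integralClosure (chartBase A (jCoord A N b)) (Fld A N))
        (Fld A N)) := by
    rw [lifts_iff_coeff_lifts]
    intro i
    rw [coeff_map]
    exact ⟨⟨_, hx _ (hc i)⟩, rfl⟩
  obtain ⟨p', hp', -, hmon⟩ := lifts_and_degree_eq_and_monic hlift (hP.map _)
  refine isIntegral_trans (R := chartBase A (jCoord A N b))
    (A := integralClosure (chartBase A (jCoord A N b)) (Fld A N)) g ⟨p', hmon, ?_⟩
  rw [← eval_map, hp', eval_map]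
  exact hPg

/-- A twist fixes the series in `t ^ d` when the root of unity has order dividing `d`. -/
theorem seriesTwist_qExpand_of_pow {d : ℕ} [NeZero d] {u : (AlgebraicClosure ℚ)ˣ} (hu : u ^ d = 1)
    (y : Ser) : seriesTwist u (qExpand (AlgebraicClosure ℚ) d y) = qExpand _ d y := by
  ext n
  rw [seriesTwist_coeff]
  by_cases h : (d : ℤ) ∣ n
  · obtain ⟨m, rfl⟩ := h
    rw [zpow_mul, zpow_natCast, hu, one_zpow, Units.val_one, one_mul]
  · rw [qExpand_coeff_of_not_dvd d _ h, mul_zero]

theorem seriesTwist_algebraMap_const (u : (AlgebraicClosure ℚ)ˣ) (c : inertiaField A) :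
    seriesTwist u (algebraMap (inertiaField A) Ser c) = algebraMap (inertiaField A) Ser c := by
  rw [IsScalarTower.algebraMap_apply (inertiaField A) (AlgebraicClosure ℚ) Ser,
    algebraMap_laurentSeries_eq_single]
  ext n
  rw [seriesTwist_coeff, HahnSeries.coeff_single]
  split_ifs with h
  · rw [h, zpow_zero, Units.val_one, one_mul]
  · rw [mul_zero]

theorem map_jCoord_incl {N N' : ℕ} (h : N ∣ N') (b : Bool) :
    incl A N N' h (jCoord A N b) = jCoord A N' b := by
  have e : incl A N N' h (jElt A N) = jElt A N' := Subtype.ext rfl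
  cases b
  · exact e
  · show incl A N N' h (jElt A N)⁻¹ = (jElt A N')⁻¹
    rw [map_inv₀, e]

theorem coe_algebraMap_fldSer (N : ℕ) (c : inertiaField A) :
    ((algebraMap (inertiaField A) (Fld A N) c : Fld A N) : Ser) =
      algebraMap (inertiaField A) Ser c := rfl

/-- The middle level. -/
theorem mem_chart₁_of_gauss (hA : A.LiesOverPrime q) (hqM : ¬ q ∣ M) (b : Bool) (g : F₁ A M q)
    (hint : IsIntegral (Algebra.adjoin (inertiaField A) {jCoord A (M * q) b}) g)
    (hg : (g : Ser) ∈ GaussInt A) (hg' : (w₁ A M q g : Ser) ∈ GaussInt A) :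
    g ∈ chart A (jCoord A (M * q) b) := by
  obtain ⟨P, hP, hPg, hPmap⟩ := exists_charpoly_x₁ hqM g
  have hT : x₁ A M q (jCoord A M b) = jCoord A (M * q) b := map_jCoord_incl _ b
  have hTs : (jCoord A (M * q) b : Ser) = (jCoord A M b : Ser) := by
    rw [← hT]; exact coe_incl A _ _
  set ψ : Fld A M →+* Ser := (qExpand (AlgebraicClosure ℚ) q).comp (Fld A M).val.toRingHom
  have hψ : ∀ x, ψ x = qExpand (AlgebraicClosure ℚ) q (x : Ser) := fun x => rfl
  have hψ' : ∀ c : Fld A M, ψ c ∈ GaussInt A → (c : Ser) ∈ GaussInt A := fun c hc => by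
    rw [hψ] at hc
    exact mem_of_qExpand_mem q hc
  have h1 : qExpand (AlgebraicClosure ℚ) q (g : Ser) ∈ rootRing (A := A) b ψ := by
    let σ : Fld A (M * q) →+* Ser :=
      (qExpand (AlgebraicClosure ℚ) q).comp (Fld A (M * q)).val.toRingHom
    have hσ : ∀ x, σ x = qExpand (AlgebraicClosure ℚ) q (x : Ser) := fun x => rfl
    have h := mem_rootRing (b := b) (ψ := ψ) σ
      (fun c => by rw [hσ, hψ, coe_algebraMap_fldSer, coe_algebraMap_fldSer])
      (by rw [hσ, hψ, hTs]) hint (by rw [hσ]; exact (qExpand_mem_and_red q hg).1)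
    rwa [hσ] at h
  have h2 : ∀ i : Fin q, seriesTwist (zetaQ q ^ (i : ℕ)) (w₁ A M q g : Ser) ∈
      rootRing (A := A) b ψ := by
    intro i
    have hu : (zetaQ q ^ (i : ℕ)) ^ q = 1 := by
      rw [← pow_mul, mul_comm, pow_mul, zetaQ_pow, one_pow]
    obtain ⟨v, hv, hv1⟩ := exists_unit_of_pow_eq_one (k := 1) hA (by rwa [pow_one])
    let σ : Fld A (M * q) →+* Ser := (seriesTwist (zetaQ q ^ (i : ℕ))).comp
      ((Fld A (M * q)).val.toRingHom.comp (w₁ A M q).toAlgHom.toRingHom)
    have hσ : ∀ x, σ x = seriesTwist (zetaQ q ^ (i : ℕ)) (w₁ A M q x : Ser) := fun x => rfl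
    have h := mem_rootRing (b := b) (ψ := ψ) σ
      (fun c => by
        rw [hσ, hψ, AlgEquiv.commutes, coe_algebraMap_fldSer, coe_algebraMap_fldSer, qExpand_algebraMap]
        exact seriesTwist_algebraMap_const _ c)
      (by
        rw [hσ, hψ, ← hT, w₁_x₁ hqM, coe_scale]
        exact seriesTwist_qExpand_of_pow hu _) hint
      (by rw [hσ]; exact (red_seriesTwist_of_mem hv hv1 hg').1)
    rwa [hσ] at h
  have hroots : P.map ψ ∈ Polynomial.lifts (rootRing (A := A) b ψ).subtype := by
    rw [hPmap]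
    exact Subsemiring.mul_mem _ (X_sub_C_mem_lifts h1)
      (Subsemiring.prod_mem _ fun i _ => X_sub_C_mem_lifts (h2 i))
  exact mem_chart_of_charpoly hA hqM b (x₁ A M q) hT ψ hψ' P hP hroots g hPg

/-- The top level, in terms of the three kinds of embeddings. -/
theorem mem_chart₂_of_gauss (hA : A.LiesOverPrime q) (hqM : ¬ q ∣ M) (b : Bool) (g : F₂ A M q)
    (hint : IsIntegral (Algebra.adjoin (inertiaField A) {jCoord A (M * q * q) b}) g)
    (hg : (g : Ser) ∈ GaussInt A) (hg' : (w₂ A M q g : Ser) ∈ GaussInt A)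
    (hg'' : ∀ i, e₁₁ A M q i g ∈ GaussInt A) :
    g ∈ chart A (jCoord A (M * q * q) b) := by
  haveI : NeZero (q * q) := ⟨mul_ne_zero (NeZero.ne q) (NeZero.ne q)⟩
  obtain ⟨z, hz⟩ := HasEnoughRootsOfUnity.exists_primitiveRoot (AlgebraicClosure ℚ) (q * q)
  set ξ : (AlgebraicClosure ℚ)ˣ := Units.mk0 z (hz.ne_zero (NeZero.ne _))
  obtain ⟨P, hP, hPg, hPmap⟩ := exists_charpoly_x₂ hqM ξ hz g
  have hT₁ : x₁ A M q (jCoord A M b) = jCoord A (M * q) b := map_jCoord_incl _ b
  have hT₂ : p₀₁ A M q (jCoord A (M * q) b) = jCoord A (M * q * q) b := map_jCoord_incl _ b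
  have hT : x₂ A M q (jCoord A M b) = jCoord A (M * q * q) b := by
    rw [x₂, AlgHom.comp_apply, hT₁, hT₂]
  have hTs₁ : (jCoord A (M * q) b : Ser) = (jCoord A M b : Ser) := by
    rw [← hT₁]; exact coe_incl A _ _
  have hTs : (jCoord A (M * q * q) b : Ser) = (jCoord A M b : Ser) := by
    rw [← hT₂, ← hTs₁]; exact coe_incl A _ _
  set ψ : Fld A M →+* Ser := (qExpand (AlgebraicClosure ℚ) (q * q)).comp (Fld A M).val.toRingHom
  have hψ : ∀ x, ψ x = qExpand (AlgebraicClosure ℚ) (q * q) (x : Ser) := fun x => rfl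
  have hψ' : ∀ c : Fld A M, ψ c ∈ GaussInt A → (c : Ser) ∈ GaussInt A := fun c hc => by
    rw [hψ] at hc
    exact mem_of_qExpand_mem (q * q) hc
  have h1 : qExpand (AlgebraicClosure ℚ) (q * q) (g : Ser) ∈ rootRing (A := A) b ψ := by
    let σ : Fld A (M * q * q) →+* Ser :=
      (qExpand (AlgebraicClosure ℚ) (q * q)).comp (Fld A (M * q * q)).val.toRingHom
    have hσ : ∀ x, σ x = qExpand (AlgebraicClosure ℚ) (q * q) (x : Ser) := fun x => rfl
    have h := mem_rootRing (b := b) (ψ := ψ) σ
      (fun c => by rw [hσ, hψ, coe_algebraMap_fldSer, coe_algebraMap_fldSer])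
      (by rw [hσ, hψ, hTs]) hint (by rw [hσ]; exact (qExpand_mem_and_red (q * q) hg).1)
    rwa [hσ] at h
  have h2 : ∀ i, qExpand (AlgebraicClosure ℚ) (q * q) (e₁₁ A M q i g) ∈
      rootRing (A := A) b ψ := by
    intro i
    let σ : Fld A (M * q * q) →+* Ser :=
      (qExpand (AlgebraicClosure ℚ) (q * q)).comp (e₁₁ A M q i).toRingHom
    have hσ : ∀ x, σ x = qExpand (AlgebraicClosure ℚ) (q * q) (e₁₁ A M q i x) := fun x => rfl
    have h := mem_rootRing (b := b) (ψ := ψ) σ
      (fun c => by rw [hσ, hψ, AlgHom.commutes, coe_algebraMap_fldSer])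
      (by rw [hσ, hψ, ← hT₂, e₁₁_p₀₁ hqM, hTs₁]) hint
      (by rw [hσ]; exact (qExpand_mem_and_red (q * q) (hg'' i)).1)
    rwa [hσ] at h
  have h3 : ∀ i : Fin (q * q), seriesTwist (ξ ^ (i : ℕ)) (w₂ A M q g : Ser) ∈
      rootRing (A := A) b ψ := by
    intro i
    have hu : (ξ ^ (i : ℕ)) ^ (q * q) = 1 := by
      rw [← pow_mul, mul_comm, pow_mul, show ξ ^ (q * q) = 1 from Units.ext hz.pow_eq_one, one_pow]
    obtain ⟨v, hv, hv1⟩ := exists_unit_of_pow_eq_one (k := 2) hA (by rwa [sq])
    let σ : Fld A (M * q * q) →+* Ser := (seriesTwist (ξ ^ (i : ℕ))).comp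
      ((Fld A (M * q * q)).val.toRingHom.comp (w₂ A M q).toAlgHom.toRingHom)
    have hσ : ∀ x, σ x = seriesTwist (ξ ^ (i : ℕ)) (w₂ A M q x : Ser) := fun x => rfl
    have hz₂ : ((z₂ A M q (jCoord A M b) : Fld A (M * q * q)) : Ser) =
        qExpand (AlgebraicClosure ℚ) q (qExpand (AlgebraicClosure ℚ) q (jCoord A M b : Ser)) := by
      rw [z₂, AlgHom.comp_apply, coe_scale, coe_scale]
    have h := mem_rootRing (b := b) (ψ := ψ) σ
      (fun c => by
        rw [hσ, hψ, AlgEquiv.commutes, coe_algebraMap_fldSer, coe_algebraMap_fldSer, qExpand_algebraMap]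
        exact seriesTwist_algebraMap_const _ c)
      (by
        rw [hσ, hψ, ← hT, w₂_x₂ hqM, hz₂, qExpand_qExpand]
        exact seriesTwist_qExpand_of_pow hu _) hint
      (by rw [hσ]; exact (red_seriesTwist_of_mem hv hv1 hg').1)
    rwa [hσ] at h
  have hroots : P.map ψ ∈ Polynomial.lifts (rootRing (A := A) b ψ).subtype := by
    rw [hPmap]
    exact Subsemiring.mul_mem _ (Subsemiring.mul_mem _ (X_sub_C_mem_lifts h1)
      (Subsemiring.prod_mem _ fun i _ => X_sub_C_mem_lifts (h2 i)))
      (Subsemiring.prod_mem _ fun i _ => X_sub_C_mem_lifts (h3 i))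
  exact mem_chart_of_charpoly hA hqM b (x₂ A M q) hT ψ hψ' P hP hroots g hPg

end Fermat.Agent.Carayol.Reg

end
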