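/-
Theorem of Carayol at `q ^ 2 ∥ M`: the three embeddings of the top level are the three Gauss
embeddings of
`MainGaussTri`, their residual fields, and the values and reductions of the middle conjugates.
-/
import Fermat.Agent.Carayol.MainTower
import Fermat.Agent.Carayol.MainGaussVal
import Fermat.Agent.Carayol.MainGaussAbove
import Fermat.Agent.Carayol.CuspidalInertia

set_option autoImplicit false
set_option linter.style.haveILetI false
set_option synthInstance.maxHeartbeats 400000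

noncomputable section

namespace Fermat.Agent.Carayol.Reg

open ModularCurve IntermediateField IsLocalRing

local notation "Ser" => LaurentSeries (AlgebraicClosure ℚ)

variable {A : ValuationSubring (AlgebraicClosure ℚ)} {M q : ℕ} [NeZero M] [Fact q.Prime]

theorem natCast_ne_zero_of_prime : (q : AlgebraicClosure ℚ) ≠ 0 :=
  Nat.cast_ne_zero.2 (Fact.out : q.Prime).ne_zero

/-! ### Generators of the top level -/

variable (A) in
/-- `j (b τ)` in the base level. -/
def baseJ {b : ℕ} [NeZero b] (hb : b ∣ M) : F₀ A M :=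
  ⟨qExpand (AlgebraicClosure ℚ) b (jqModC (AlgebraicClosure ℚ)), jd_mem_fld hb⟩

theorem coe_baseJ {b : ℕ} [NeZero b] (hb : b ∣ M) :
    ((baseJ A hb : F₀ A M) : Ser) =
      qExpand (AlgebraicClosure ℚ) b (jqModC (AlgebraicClosure ℚ)) := by
  rw [baseJ]

theorem coe_algebraMap_fld (N : ℕ) (c : inertiaField A) :
    ((algebraMap (inertiaField A) (Fld A N) c : Fld A N) : Ser) =
      algebraMap (AlgebraicClosure ℚ) Ser (c : AlgebraicClosure ℚ) := by
  rw [IntermediateField.coe_algebraMap_apply,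
    IsScalarTower.algebraMap_apply (inertiaField A) (AlgebraicClosure ℚ) Ser]
  rfl

theorem coe_x₂ (g : F₀ A M) : ((x₂ A M q g : F₂ A M q) : Ser) = (g : Ser) := by
  rw [x₂, AlgHom.comp_apply, coe_incl, coe_incl]

theorem coe_y₂ (g : F₀ A M) :
    ((y₂ A M q g : F₂ A M q) : Ser) = qExpand (AlgebraicClosure ℚ) q (g : Ser) := by
  rw [y₂, AlgHom.comp_apply, coe_incl, coe_scale]

theorem coe_z₂ (g : F₀ A M) :
    ((z₂ A M q g : F₂ A M q) : Ser) =
      qExpand (AlgebraicClosure ℚ) q (qExpand (AlgebraicClosure ℚ) q (g : Ser)) := by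
  rw [z₂, AlgHom.comp_apply, coe_scale, coe_scale]

theorem exists_side_decomp (hqM : ¬ q ∣ M) {d : ℕ} [NeZero d] (hd : d ∣ M * q * q) :
    ∃ (b : ℕ) (_ : NeZero b), b ∣ M ∧ (d = b ∨ d = q * b ∨ d = q * q * b) := by
  rw [mul_assoc, mul_comm M] at hd
  obtain ⟨a, b, ha, hb, rfl⟩ := exists_dvd_and_dvd_of_dvd_mul hd
  haveI : NeZero b := ⟨right_ne_zero_of_mul (NeZero.ne (a * b))⟩
  obtain ⟨i, hi, rfl⟩ := (Nat.dvd_prime_pow (Fact.out : q.Prime)).mp (show a ∣ q ^ 2 by rwa [sq])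
  refine ⟨b, ‹_›, hb, ?_⟩
  interval_cases i
  · exact Or.inl (by simp)
  · exact Or.inr (Or.inl (by simp))
  · exact Or.inr (Or.inr (by rw [sq]))

/-- The top level is generated, as a field, by constants and the three sides of the `j (b τ)`. -/
theorem mem_of_sides (hqM : ¬ q ∣ M) (S : Subfield (F₂ A M q))
    (hc : ∀ c, algebraMap (inertiaField A) (F₂ A M q) c ∈ S)
    (hx : ∀ (b : ℕ) (_ : NeZero b) (hb : b ∣ M), x₂ A M q (baseJ A hb) ∈ S)
    (hy : ∀ (b : ℕ) (_ : NeZero b) (hb : b ∣ M), y₂ A M q (baseJ A hb) ∈ S)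
    (hz : ∀ (b : ℕ) (_ : NeZero b) (hb : b ∣ M), z₂ A M q (baseJ A hb) ∈ S)
    (f : F₂ A M q) : f ∈ S := by
  suffices H : ∀ y (hy' : y ∈ Fld A (M * q * q)), (⟨y, hy'⟩ : F₂ A M q) ∈ S from H f f.2
  intro y hy'
  induction hy' using IntermediateField.adjoin_induction with
  | mem y hgen =>
    obtain ⟨d, hne, hd, rfl⟩ := hgen
    haveI := hne
    have key : ∀ (g : F₂ A M q) (hg : g ∈ S), (g : Ser) = qExpand (AlgebraicClosure ℚ) d
        (jqModC (AlgebraicClosure ℚ)) →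
        ∀ h : qExpand (AlgebraicClosure ℚ) d (jqModC (AlgebraicClosure ℚ)) ∈ Fld A (M * q * q),
          (⟨_, h⟩ : F₂ A M q) ∈ S := by
      intro g hg e h
      have e' : (⟨_, h⟩ : F₂ A M q) = g := Subtype.ext e.symm
      rw [e']
      exact hg
    obtain ⟨b, hb0, hb, h | h | h⟩ := exists_side_decomp hqM hd
    · exact key _ (hx b hb0 hb) (by rw [coe_x₂, coe_baseJ]; exact qExpand_congr h.symm _) _
    · exact key _ (hy b hb0 hb)
        (by rw [coe_y₂, coe_baseJ, qExpand_qExpand]; exact qExpand_congr h.symm _) _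
    · exact key _ (hz b hb0 hb)
        (by rw [coe_z₂, coe_baseJ, qExpand_qExpand, qExpand_qExpand]
            exact qExpand_congr (by rw [h]) _) _
  | algebraMap c =>
    have e : (⟨algebraMap (inertiaField A) Ser c, IntermediateField.algebraMap_mem _ c⟩ :
        F₂ A M q) = algebraMap (inertiaField A) (F₂ A M q) c :=
      Subtype.ext (IntermediateField.coe_algebraMap_apply _ c).symm
    rw [e]
    exact hc c
  | add x y hx' hy' h1 h2 =>
    have e : (⟨x + y, add_mem hx' hy'⟩ : F₂ A M q) = ⟨x, hx'⟩ + ⟨y, hy'⟩ :=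
      Subtype.ext (IntermediateField.coe_add _ ⟨x, hx'⟩ ⟨y, hy'⟩).symm
    rw [e]
    exact S.add_mem h1 h2
  | inv x hx' h1 =>
    have e : (⟨x⁻¹, inv_mem hx'⟩ : F₂ A M q) = (⟨x, hx'⟩ : F₂ A M q)⁻¹ :=
      Subtype.ext (IntermediateField.coe_inv _ ⟨x, hx'⟩).symm
    rw [e]
    exact S.inv_mem h1
  | mul x y hx' hy' h1 h2 =>
    have e : (⟨x * y, mul_mem hx' hy'⟩ : F₂ A M q) = ⟨x, hx'⟩ * ⟨y, hy'⟩ :=
      Subtype.ext (IntermediateField.coe_mul _ ⟨x, hx'⟩ ⟨y, hy'⟩).symm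
    rw [e]
    exact S.mul_mem h1 h2

/-- Ring homomorphisms out of the top level agreeing on constants and sides are equal. -/
theorem sides_ext (hqM : ¬ q ∣ M) {T : Type*} [Field T] (φ ψ : F₂ A M q →+* T)
    (hc : ∀ c, φ (algebraMap (inertiaField A) (F₂ A M q) c) =
      ψ (algebraMap (inertiaField A) (F₂ A M q) c))
    (hx : ∀ (b : ℕ) (_ : NeZero b) (hb : b ∣ M),
      φ (x₂ A M q (baseJ A hb)) = ψ (x₂ A M q (baseJ A hb)))
    (hy : ∀ (b : ℕ) (_ : NeZero b) (hb : b ∣ M),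
      φ (y₂ A M q (baseJ A hb)) = ψ (y₂ A M q (baseJ A hb)))
    (hz : ∀ (b : ℕ) (_ : NeZero b) (hb : b ∣ M),
      φ (z₂ A M q (baseJ A hb)) = ψ (z₂ A M q (baseJ A hb)))
    (f : F₂ A M q) : φ f = ψ f :=
  mem_of_sides hqM (φ.eqLocusField ψ) hc hx hy hz f

/-! ### Comparison with level `q² M` over `ℚ̄` -/

theorem mem_bar {y : Ser} (hy : y ∈ Fld A (M * q * q)) :
    y ∈ modularFunctionFieldBar (q * q * M) := by
  induction hy using IntermediateField.adjoin_induction with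
  | mem y hy =>
    obtain ⟨d, hne, hd, rfl⟩ := hy
    haveI := hne
    have hd' : d ∣ q * q * M := by rwa [show q * q * M = M * q * q by ring]
    rw [show qExpand (AlgebraicClosure ℚ) d (jqModC (AlgebraicClosure ℚ)) =
      coeffEmb (AlgebraicClosure ℚ) (qExpand ℚ d jq) by
        rw [coeffEmb, coeffMap_qExpand, ← jqModC_rat, coeffMap_jqModC]]
    exact coeffEmb_mem_laurentBaseChange _ (jqd_mem_full (q * q * M) hd')
  | algebraMap c =>
    rw [IsScalarTower.algebraMap_apply (inertiaField A) (AlgebraicClosure ℚ) Ser]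
    exact IntermediateField.algebraMap_mem _ _
  | add x y _ _ hx hy => exact add_mem hx hy
  | inv x _ hx => exact inv_mem hx
  | mul x y _ _ hx hy => exact mul_mem hx hy

theorem val_mkBar {y : Ser} (h : y ∈ modularFunctionFieldBar (q * q * M)) :
    ((⟨y, h⟩ : modularFunctionFieldBar (q * q * M)) : Ser) = y := rfl

variable (A M q) in
/-- The top level inside level `q² M` over `ℚ̄`. -/
def toBar : F₂ A M q →+* modularFunctionFieldBar (q * q * M) where
  toFun f := ⟨(f : Ser), mem_bar f.2⟩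
  map_one' := Subtype.ext (by rw [val_mkBar, OneMemClass.coe_one, OneMemClass.coe_one])
  map_mul' f g := Subtype.ext (by
    rw [val_mkBar, MulMemClass.coe_mul, MulMemClass.coe_mul, val_mkBar, val_mkBar])
  map_zero' := Subtype.ext (by rw [val_mkBar, ZeroMemClass.coe_zero, ZeroMemClass.coe_zero])
  map_add' f g := Subtype.ext (by
    rw [val_mkBar, AddMemClass.coe_add, AddMemClass.coe_add, val_mkBar, val_mkBar])

theorem coe_toBar (f : F₂ A M q) : (toBar A M q f : Ser) = (f : Ser) :=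
  val_mkBar (mem_bar f.2)

theorem toBar_algebraMap (c : inertiaField A) :
    toBar A M q (algebraMap (inertiaField A) (F₂ A M q) c) =
      algebraMap (AlgebraicClosure ℚ) (modularFunctionFieldBar (q * q * M))
        (c : AlgebraicClosure ℚ) :=
  Subtype.ext (by rw [coe_toBar, coe_algebraMap_fld, IntermediateField.coe_algebraMap_apply])

theorem toBar_x₂ {b : ℕ} [NeZero b] (hb : b ∣ M) :
    toBar A M q (x₂ A M q (baseJ A hb)) = MainGauss.lvlElt hb 0 := by
  refine Subtype.ext ?_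
  rw [coe_toBar, coe_x₂, coe_baseJ, MainGauss.coe_lvlElt hb 0 (d := b) (by simp)]

theorem toBar_y₂ {b : ℕ} [NeZero b] (hb : b ∣ M) :
    toBar A M q (y₂ A M q (baseJ A hb)) = MainGauss.lvlElt hb 1 := by
  refine Subtype.ext ?_
  rw [coe_toBar, coe_y₂, coe_baseJ, MainGauss.coe_lvlElt hb 1 (d := q * b) (by simp),
    qExpand_qExpand]

theorem toBar_z₂ {b : ℕ} [NeZero b] (hb : b ∣ M) :
    toBar A M q (z₂ A M q (baseJ A hb)) = MainGauss.lvlElt hb 2 := by
  refine Subtype.ext ?_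
  rw [coe_toBar, coe_z₂, coe_baseJ,
    MainGauss.coe_lvlElt hb 2 (d := q * (q * b)) (by simp; ring), qExpand_qExpand, qExpand_qExpand]
  exact qExpand_congr (mul_assoc q q b) _

/-- The matching of components. -/
def sideIdx : Side → Fin 3
  | .s20 => 0
  | .s11 => 2
  | .s02 => 1

theorem two_le_prime : 2 ≤ q := (Fact.out : q.Prime).two_le

theorem triEmb_toBar_s20 (hqM : ¬ q ∣ M) (f : F₂ A M q) :
    ((MainGauss.triEmb hqM 0 (toBar A M q f) : XField q M) : Ser) = (f : Ser) :=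
  (MainGauss.coe_triEmb_zero hqM _).trans (coe_toBar f)

theorem triEmb_toBar_algebraMap (hqM : ¬ q ∣ M) (i : Fin 3) (c : inertiaField A) :
    ((MainGauss.triEmb hqM i (toBar A M q (algebraMap _ (F₂ A M q) c)) : XField q M) : Ser) =
      algebraMap (AlgebraicClosure ℚ) Ser (c : AlgebraicClosure ℚ) := by
  rw [toBar_algebraMap, AlgHom.commutes, IntermediateField.coe_algebraMap_apply]

theorem triEmb_toBar_s02 (hqM : ¬ q ∣ M) (f : F₂ A M q) :
    ((MainGauss.triEmb hqM 1 (toBar A M q f) : XField q M) : Ser) = (w₂ A M q f : Ser) := by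
  refine sides_ext hqM
    (((XField q M).val.toRingHom.comp (MainGauss.triEmb hqM 1).toRingHom).comp (toBar A M q))
    ((Fld A (M * q * q)).val.toRingHom.comp (w₂ A M q).toAlgHom.toRingHom)
    (fun c => ?_) ?_ ?_ ?_ f
  · refine (triEmb_toBar_algebraMap hqM 1 c).trans ?_
    show _ = ((w₂ A M q (algebraMap _ _ c) : F₂ A M q) : Ser)
    rw [AlgEquiv.commutes, coe_algebraMap_fld]
  all_goals intro b hb0 hb
  · show ((MainGauss.triEmb hqM 1 (toBar A M q (x₂ A M q (baseJ A hb))) : XField q M) : Ser) =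
      ((w₂ A M q (x₂ A M q (baseJ A hb)) : F₂ A M q) : Ser)
    rw [toBar_x₂, MainGauss.triEmb_lvlElt_zero, w₂_x₂ hqM, coe_z₂, coe_baseJ]
    show gen q b none = qExpand _ q (qExpand _ q (qExpand _ b _))
    rw [gen, qExpand_qExpand, qExpand_qExpand]
    exact qExpand_congr (by ring) _
  · show ((MainGauss.triEmb hqM 1 (toBar A M q (y₂ A M q (baseJ A hb))) : XField q M) : Ser) =
      ((w₂ A M q (y₂ A M q (baseJ A hb)) : F₂ A M q) : Ser)
    rw [toBar_y₂, MainGauss.triEmb_lvlElt_one, w₂_y₂ hqM, coe_y₂, coe_baseJ]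
    show baseGen q b = qExpand _ q (qExpand _ b _)
    rw [baseGen, qExpand_qExpand]
    exact qExpand_congr (by ring) _
  · show ((MainGauss.triEmb hqM 1 (toBar A M q (z₂ A M q (baseJ A hb))) : XField q M) : Ser) =
      ((w₂ A M q (z₂ A M q (baseJ A hb)) : F₂ A M q) : Ser)
    rw [toBar_z₂, MainGauss.triEmb_lvlElt_two, w₂_z₂ hqM, coe_x₂, coe_baseJ]
    show gen q b (some 0) = qExpand _ b _
    rw [gen, ZMod.val_zero, pow_zero, seriesTwist_one]

theorem e₁₁_x₂ (hqM : ¬ q ∣ M) (i : Fin (q - 1)) (g : F₀ A M) :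
    e₁₁ A M q i (x₂ A M q g) = (g : Ser) := by
  rw [x₂, AlgHom.comp_apply, e₁₁_p₀₁ hqM, coe_incl]

theorem e₁₁_y₂ (hqM : ¬ q ∣ M) (i : Fin (q - 1)) (g : F₀ A M) :
    e₁₁ A M q i (y₂ A M q g) = qExpand (AlgebraicClosure ℚ) q (g : Ser) := by
  rw [y₂, AlgHom.comp_apply, e₁₁_p₀₁ hqM, coe_scale]

theorem triEmb_toBar_s11 (hqM : ¬ q ∣ M) (h0 : 0 < q - 1) (f : F₂ A M q) :
    ((MainGauss.triEmb hqM 2 (toBar A M q f) : XField q M) : Ser) = e₁₁ A M q ⟨0, h0⟩ f := by
  refine sides_ext hqM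
    (((XField q M).val.toRingHom.comp (MainGauss.triEmb hqM 2).toRingHom).comp (toBar A M q))
    (e₁₁ A M q ⟨0, h0⟩).toRingHom (fun c => ?_) ?_ ?_ ?_ f
  · refine (triEmb_toBar_algebraMap hqM 2 c).trans ?_
    show _ = e₁₁ A M q ⟨0, h0⟩ (algebraMap _ _ c)
    rw [AlgHom.commutes, IsScalarTower.algebraMap_apply (inertiaField A) (AlgebraicClosure ℚ) Ser]
    rfl
  all_goals intro b hb0 hb
  · show ((MainGauss.triEmb hqM 2 (toBar A M q (x₂ A M q (baseJ A hb))) : XField q M) : Ser) =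
      e₁₁ A M q ⟨0, h0⟩ (x₂ A M q (baseJ A hb))
    rw [toBar_x₂, MainGauss.triEmb_lvlElt_zero, e₁₁_x₂ hqM, coe_baseJ]
    show gen q b (some 0) = qExpand _ b _
    rw [gen, ZMod.val_zero, pow_zero, seriesTwist_one]
  · show ((MainGauss.triEmb hqM 2 (toBar A M q (y₂ A M q (baseJ A hb))) : XField q M) : Ser) =
      e₁₁ A M q ⟨0, h0⟩ (y₂ A M q (baseJ A hb))
    rw [toBar_y₂, MainGauss.triEmb_lvlElt_one, e₁₁_y₂ hqM, coe_baseJ]
    show baseGen q b = qExpand _ q (qExpand _ b _)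
    rw [baseGen, qExpand_qExpand]
    exact qExpand_congr (by ring) _
  · show ((MainGauss.triEmb hqM 2 (toBar A M q (z₂ A M q (baseJ A hb))) : XField q M) : Ser) =
      e₁₁ A M q ⟨0, h0⟩ (z₂ A M q (baseJ A hb))
    rw [toBar_z₂, MainGauss.triEmb_lvlElt_two, e₁₁_z₂ hqM, coe_baseJ]
    show gen q b (some 1) = midTwist q ⟨0, h0⟩ (qExpand _ b _)
    haveI : Fact (1 < q) := ⟨(Fact.out : q.Prime).one_lt⟩
    rw [gen, midTwist, ZMod.val_one]

/-! ### Residual fields -/

theorem levelForm (hA : A.LiesOverPrime q) :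
    @MainGauss.LevelForm q _ M _ A (inertiaField A).toSubfield (F₂ A M q) _
      (instAlgebraSub A (Fld A (M * q * q))) (toBar A M q) := by
  letI : Algebra (inertiaField A).toSubfield (F₂ A M q) := instAlgebraSub A (Fld A (M * q * q))
  refine
    { compat := fun c => Subtype.ext ?_
      coeff_mem := fun f n => by rw [coe_toBar]; exact coeff_mem_inertiaField A f n
      gen_mem := fun b hb0 hb e => ?_
      uniformizer := fun a ha => ?_ }
  · exact congrArg Subtype.val (toBar_algebraMap c)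
  · fin_cases e
    · exact ⟨_, toBar_x₂ hb⟩
    · exact ⟨_, toBar_y₂ hb⟩
    · exact ⟨_, toBar_z₂ hb⟩
  · rcases eq_or_ne (a : AlgebraicClosure ℚ) 0 with h0 | h0
    · rw [h0, zero_div]; exact A.zero_mem
    obtain ⟨m, hm⟩ := valuation_inertiaField hA a.2 h0
    have hlt : A.valuation (a : AlgebraicClosure ℚ) < 1 := ha
    have hm1 : 1 ≤ m := by
      by_contra hcon
      push Not at hcon
      rw [hm] at hlt
      exact absurd hlt (not_lt.2 (one_le_zpow_of_nonpos₀ (valuation_q_pos hA)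
        (valuation_q_lt hA).le (by omega)))
    rw [← A.valuation_le_one_iff, map_div₀, hm,
      div_eq_mul_inv, ← zpow_neg_one, ← zpow_add₀ (valuation_q_pos hA).ne']
    rcases (show 0 < m + -1 ∨ m + -1 = 0 by omega) with h1 | h1
    · exact (zpow_lt_one₀ (valuation_q_pos hA) (valuation_q_lt hA) h1).le
    · rw [h1, zpow_zero]

/-- Gauss integral values of the three embeddings reduce into the residual field of level `M`. -/
theorem red_triEmb_mem (hA : A.LiesOverPrime q) (hqM : ¬ q ∣ M) (i : Fin 3) (f : F₂ A M q)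
    (hf : ((MainGauss.triEmb hqM i (toBar A M q f) : XField q M) : Ser) ∈ GaussInt A) :
    red A ((MainGauss.triEmb hqM i (toBar A M q f) : XField q M) : Ser) ∈ RFld A M := by
  letI : Algebra (inertiaField A).toSubfield (F₂ A M q) := instAlgebraSub A (Fld A (M * q * q))
  have hf' : f ∈ MainGauss.levelVal A (toBar A M q) hqM i :=
    (MainGauss.mem_levelVal_iff hqM).2 ((MainGauss.mem_triVal_iff hqM A).2 ((mem_infVal_iff A).2 hf))
  rw [red_of_mem hf]
  exact MainGauss.levelRed_mem hqM hA (levelForm hA) (RFld A M) (jqModC_mem_full (Res A) M)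
    (jqModCd_mem_full (Res A) M dvd_rfl) hf'

/-! ### The middle conjugates -/

/-- `ζ - 1`. -/
abbrev midUnif (q : ℕ) [Fact q.Prime] : AlgebraicClosure ℚ := (zetaQ q : AlgebraicClosure ℚ) - 1

theorem midUnif_ne : midUnif q ≠ 0 :=
  sub_ne_zero.2 ((isPrimitiveRoot_zetaQ q).ne_one (Fact.out : q.Prime).one_lt)

/-- Every middle conjugate is a power of `ζ - 1` times a Gauss unit. -/
theorem exists_mid_scale (hA : A.LiesOverPrime q) (hqM : ¬ q ∣ M) (i : Fin (q - 1))
    {f : F₂ A M q} (hf : f ≠ 0) :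
    ∃ m : ℤ, IsGaussUnit A
      ((algebraMap (AlgebraicClosure ℚ) Ser (midUnif q ^ m))⁻¹ * e₁₁ A M q i f) := by
  refine exists_const_scale (CGood.fixK q A) midUnif_ne
    (fun c hc hc0 => CGood.exists_valuation_fixK hA hc hc0) ?_
    ((_root_.map_ne_zero (e₁₁ A M q i).toRingHom).2 hf)
  have hL : ∀ c ∈ inertiaField A, c ∈ CGood.fixK q A := fun c hc => inertiaField_le_fixK hc
  refine mem_of_sides hqM ((coeffField (CGood.fixK q A)).comap (e₁₁ A M q i).toRingHom)
    (fun c => ?_) ?_ ?_ ?_ f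
  · show e₁₁ A M q i (algebraMap _ _ c) ∈ coeffField (CGood.fixK q A)
    rw [AlgHom.commutes, IsScalarTower.algebraMap_apply (inertiaField A) (AlgebraicClosure ℚ) Ser]
    exact algebraMap_mem_coeffField _ (hL _ c.2)
  all_goals intro b hb0 hb
  · show e₁₁ A M q i (x₂ A M q (baseJ A hb)) ∈ coeffField (CGood.fixK q A)
    rw [e₁₁_x₂ hqM, coe_baseJ]
    exact qExpand_jqModC_mem_coeffField _ b
  · show e₁₁ A M q i (y₂ A M q (baseJ A hb)) ∈ coeffField (CGood.fixK q A)
    rw [e₁₁_y₂ hqM, coe_baseJ]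
    show qExpand _ q (qExpand _ b _) ∈ _
    rw [qExpand_qExpand]
    exact qExpand_jqModC_mem_coeffField _ _
  · show e₁₁ A M q i (z₂ A M q (baseJ A hb)) ∈ coeffField (CGood.fixK q A)
    rw [e₁₁_z₂ hqM, coe_baseJ]
    refine seriesTwist_qExpand_jqModC_mem_coeffField _ (m := q) (NeZero.pos q) ?_ ?_ b
    · rw [← pow_mul, mul_comm, pow_mul, zetaQ_pow, one_pow]
    · rw [Units.val_pow_eq_pow_val]
      exact pow_mem (CGood.zeta_mem_fixK q A) _

/-- The middle conjugates are Galois conjugates by inertia. -/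
theorem exists_inertia_e₁₁ (hA : A.LiesOverPrime q) (hqM : ¬ q ∣ M) (h0 : 0 < q - 1)
    (i : Fin (q - 1)) :
    ∃ σ ∈ A.inertiaSubgroupIn ℚ, ∀ f : F₂ A M q,
      coeffMap (σ : AlgebraicClosure ℚ →+* AlgebraicClosure ℚ) (e₁₁ A M q ⟨0, h0⟩ f) =
        e₁₁ A M q i f := by
  have hne : (((i : ℕ) + 1 : ℕ) : ZMod q) ≠ 0 := by
    rw [Ne, ZMod.natCast_eq_zero_iff]
    intro hd
    have := Nat.le_of_dvd (by omega) hd
    have := i.2
    omega
  obtain ⟨σ, hσ, hσζ⟩ := Cuspidal.exists_inertia_apply_root hA (Units.mk0 _ hne)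
  have hz : σ (zetaQ q : AlgebraicClosure ℚ) = (zetaQ q : AlgebraicClosure ℚ) ^ ((i : ℕ) + 1) := by
    rw [hσζ _ (isPrimitiveRoot_zetaQ q).pow_eq_one, Units.val_mk0,
      ZMod.val_natCast_of_lt (by have := i.2; omega)]
  have hj : ∀ (d : ℕ) [NeZero d],
      coeffMap (σ : AlgebraicClosure ℚ →+* AlgebraicClosure ℚ)
        (qExpand (AlgebraicClosure ℚ) d (jqModC (AlgebraicClosure ℚ))) =
      qExpand (AlgebraicClosure ℚ) d (jqModC (AlgebraicClosure ℚ)) := fun d _ => by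
    rw [coeffMap_qExpand, coeffMap_jqModC]
  refine ⟨σ, hσ, sides_ext hqM
    ((coeffMap (σ : AlgebraicClosure ℚ →+* AlgebraicClosure ℚ)).comp
      (e₁₁ A M q ⟨0, h0⟩).toRingHom) (e₁₁ A M q i).toRingHom (fun c => ?_) ?_ ?_ ?_⟩
  · show coeffMap _ (e₁₁ A M q ⟨0, h0⟩ (algebraMap _ _ c)) = e₁₁ A M q i (algebraMap _ _ c)
    rw [AlgHom.commutes, AlgHom.commutes,
      IsScalarTower.algebraMap_apply (inertiaField A) (AlgebraicClosure ℚ) Ser,
      coeffMap_algebraMap]
    exact congrArg _ (c.2 ⟨σ, hσ⟩)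
  all_goals intro b hb0 hb
  · show coeffMap _ (e₁₁ A M q ⟨0, h0⟩ (x₂ A M q (baseJ A hb))) = e₁₁ A M q i (x₂ A M q (baseJ A hb))
    rw [e₁₁_x₂ hqM, e₁₁_x₂ hqM, coe_baseJ]
    exact hj b
  · show coeffMap _ (e₁₁ A M q ⟨0, h0⟩ (y₂ A M q (baseJ A hb))) = e₁₁ A M q i (y₂ A M q (baseJ A hb))
    rw [e₁₁_y₂ hqM, e₁₁_y₂ hqM, coe_baseJ]
    show coeffMap _ (qExpand _ q (qExpand _ b _)) = qExpand _ q (qExpand _ b _)
    rw [coeffMap_qExpand, hj b]
  · show coeffMap _ (e₁₁ A M q ⟨0, h0⟩ (z₂ A M q (baseJ A hb))) = e₁₁ A M q i (z₂ A M q (baseJ A hb))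
    rw [e₁₁_z₂ hqM, e₁₁_z₂ hqM, coe_baseJ, midTwist, midTwist, zero_add, pow_one, coeffMap_seriesTwist]
    show seriesTwist _ (coeffMap _ (qExpand _ b _)) = seriesTwist _ (qExpand _ b _)
    rw [hj b]
    congr 2
    exact Units.ext (by simpa using hz)

/-- Inertia preserves Gauss integrality and reductions. -/
theorem red_coeffMap_inertia {σ : AlgebraicClosure ℚ ≃ₐ[ℚ] AlgebraicClosure ℚ}
    (hσ : σ ∈ A.inertiaSubgroupIn ℚ) {g : Ser} (hg : g ∈ GaussInt A) :
    coeffMap (σ : AlgebraicClosure ℚ →+* AlgebraicClosure ℚ) g ∈ GaussInt A ∧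
      red A (coeffMap (σ : AlgebraicClosure ℚ →+* AlgebraicClosure ℚ) g) = red A g := by
  obtain ⟨⟨τ, hτ⟩, hker, rfl⟩ := hσ
  have hres : ∀ a ∈ A, τ a - a ∈ A.nonunits := fun a ha => by
    have h := RingEquiv.congr_fun (MonoidHom.mem_ker.1 hker) (residue A ⟨a, ha⟩)
    change (⟨τ, hτ⟩ : A.decompositionSubgroup ℚ) • residue A ⟨a, ha⟩ = residue A ⟨a, ha⟩ at h
    rw [← ResidueField.residue_smul, ← sub_eq_zero, ← map_sub, residue_eq_zero_iff] at h
    exact ValuationSubring.coe_mem_nonunits_iff.2 h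
  obtain ⟨h, e⟩ := gaussRed_coeffMap_aut (π := residue A) (σ := (τ : AlgebraicClosure ℚ →+* _))
    (τ := MulSemiringAction.toRingHom (A.decompositionSubgroup ℚ) A ⟨τ, hτ⟩) (fun a => rfl)
    (fun a => by
      rw [← sub_eq_zero, ← map_sub, residue_eq_zero_iff, ← ValuationSubring.coe_mem_nonunits_iff]
      exact hres (a : AlgebraicClosure ℚ) a.2) hg
  refine ⟨h, ?_⟩
  rw [red_of_mem hg]
  exact (red_of_mem h).trans e

end Fermat.Agent.Carayol.Reg
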