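/-
Theorem of Carayol at `q ^ 2 ∥ M`: the Gauss valuations of the tower, their residual
fields and the integrality criterion.
-/
import Fermat.Agent.Carayol.MainTower
import Fermat.Agent.Carayol.MainGaussSides
import Fermat.Agent.Carayol.MainGaussIntegral
import Fermat.Agent.Galois.QbarInstances

set_option autoImplicit false
set_option linter.style.haveILetI false

noncomputable section

namespace Fermat.Agent.Carayol.Reg

open ModularCurve IntermediateField IsLocalRing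

local notation "Qbar" => AlgebraicClosure ℚ
local notation "Ser" => LaurentSeries (AlgebraicClosure ℚ)

variable (A : ValuationSubring (AlgebraicClosure ℚ)) (M q : ℕ) [NeZero M] [Fact q.Prime]

/-! ### The Gauss valuation -/

/-- A series whose Gauss valuation is an integral multiple of that of `q`. -/
def HasVal (g : Ser) : Prop := ∃ m : ℤ, IsGaussUnit A (((q : Ser) ^ m)⁻¹ * g)

variable {A M q}

theorem hasVal_fld (hA : A.LiesOverPrime q) {N : ℕ} (g : Fld A N) (hg : g ≠ 0) :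
    HasVal A q (g : Ser) := by
  obtain ⟨m, hm⟩ := exists_const_scale (A := A) (inertiaField A).toSubfield
    (natCast_ne_zero_of_prime (q := q)) (fun c hc hc0 => valuation_inertiaField hA hc hc0)
    (fld_le_coeffField (inertiaField A).toSubfield (fun c hc => hc) g.2)
    (fun h0 => hg (Subtype.ext h0))
  exact ⟨m, by rwa [natCast_zpow_ser]⟩

theorem hasVal_mul (hA : A.LiesOverPrime q) {g h : Ser} (hg : HasVal A q g) (hh : HasVal A q h) :
    HasVal A q (g * h) ∧ val A q (g * h) = val A q g + val A q h := by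
  have e : IsGaussUnit A (((q : Ser) ^ (val A q g + val A q h))⁻¹ * (g * h)) := by
    have h1 := (isGaussUnit_val hA hg).mul (isGaussUnit_val hA hh)
    rwa [mul_mul_mul_comm, ← mul_inv, ← zpow_add₀ (natCast_ser_ne (q := q))] at h1
  exact ⟨⟨_, e⟩, val_eq hA e⟩

theorem val_natCast_zpow (hA : A.LiesOverPrime q) (m : ℤ) : val A q ((q : Ser) ^ m) = m :=
  val_eq hA (by
    rw [inv_mul_cancel₀ (zpow_ne_zero _ (natCast_ser_ne (q := q)))]
    exact isGaussUnit_one)

theorem mem_gaussInt_iff (hA : A.LiesOverPrime q) {g : Ser} (hg : HasVal A q g) :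
    g ∈ GaussInt A ↔ 0 ≤ val A q g :=
  (gauss_of_unit hA (isGaussUnit_val hA hg)).1

theorem red_ne_zero_iff (hA : A.LiesOverPrime q) {g : Ser} (hg : HasVal A q g)
    (h0 : 0 ≤ val A q g) : red A g ≠ 0 ↔ val A q g = 0 :=
  (gauss_of_unit hA (isGaussUnit_val hA hg)).2 h0

/-- A root of unity of `q`-power order does not change integrality or reductions. -/
theorem red_seriesTwist (hA : A.LiesOverPrime q) {u : (AlgebraicClosure ℚ)ˣ} {k : ℕ}
    (hu : u ^ (q ^ k) = 1) (g : Ser) :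
    (seriesTwist u g ∈ GaussInt A ↔ g ∈ GaussInt A) ∧ red A (seriesTwist u g) = red A g := by
  obtain ⟨v, hv, hv1⟩ := exists_unit_of_pow_eq_one hA hu
  obtain ⟨w, hw, hw1⟩ := exists_unit_of_pow_eq_one hA
    (show u⁻¹ ^ (q ^ k) = 1 by rw [inv_pow, hu, inv_one])
  have hiff : seriesTwist u g ∈ GaussInt A ↔ g ∈ GaussInt A := by
    refine ⟨fun h => ?_, fun h => (red_seriesTwist_of_mem hv hv1 h).1⟩
    have h2 := (red_seriesTwist_of_mem hw hw1 h).1
    rwa [seriesTwist_seriesTwist, inv_mul_cancel, seriesTwist_one] at h2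
  refine ⟨hiff, ?_⟩
  by_cases hg : g ∈ GaussInt A
  · exact (red_seriesTwist_of_mem hv hv1 hg).2
  · rw [red_of_not_mem hg, red_of_not_mem (hiff.not.2 hg)]

theorem red_qExpand (d : ℕ) [NeZero d] {g : Ser} (hg : g ∈ GaussInt A) :
    qExpand (AlgebraicClosure ℚ) d g ∈ GaussInt A ∧
      red A (qExpand (AlgebraicClosure ℚ) d g) = qExpand (Res A) d (red A g) :=
  qExpand_mem_and_red d hg

theorem qExpand_mem_gaussInt_iff (d : ℕ) [NeZero d] (g : Ser) :
    qExpand (AlgebraicClosure ℚ) d g ∈ GaussInt A ↔ g ∈ GaussInt A :=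
  ⟨mem_of_qExpand_mem d, fun h => (qExpand_mem_and_red d h).1⟩

theorem qExpand_mem_rfld (hA : A.LiesOverPrime q) {g : ResSer A} (hg : g ∈ RFld A M) :
    qExpand (Res A) q g ∈ RFld A M :=
  qExpand_mem_rfld' hA hg

/-- `g ↦ g (q τ)` is surjective on the residual field up to `q`-th roots. -/
theorem exists_qExpand_eq_pow (hA : A.LiesOverPrime q) (g : RFld A M) :
    ∃ h : RFld A M, qExpand (Res A) q (h : ResSer A) = ((g : ResSer A)) ^ q :=
  exists_qExpand_eq_pow' hA g.2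

/-- A power of a constant of positive value times a unit. -/
theorem gauss_of_scale {w : AlgebraicClosure ℚ} (hw0 : w ≠ 0) (hw : A.valuation w < 1) {g : Ser}
    {m : ℤ} (h : IsGaussUnit A ((algebraMap (AlgebraicClosure ℚ) Ser (w ^ m))⁻¹ * g)) :
    (g ∈ GaussInt A ↔ 0 ≤ m) ∧ (0 ≤ m → (red A g ≠ 0 ↔ m = 0)) := by
  set c := algebraMap (AlgebraicClosure ℚ) Ser (w ^ m)
  have hc : c ≠ 0 := (_root_.map_ne_zero _).2 (zpow_ne_zero _ hw0)
  have hg : g = c * (c⁻¹ * g) := by rw [mul_inv_cancel_left₀ hc]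
  have hpos : 0 < A.valuation w := zero_lt_iff.2 ((_root_.map_ne_zero _).2 hw0)
  have key : 0 < m → g ∈ GaussInt A ∧ red A g = 0 := fun hm =>
    red_eq_zero_of_mul (by rw [map_zpow₀]; exact zpow_lt_one₀ hpos hw hm) h.1 hg
  refine ⟨⟨fun hgm => ?_, fun hm => ?_⟩, fun hm => ⟨fun hne => ?_, fun h0 => ?_⟩⟩
  · by_contra hm
    refine h.2 (red_eq_zero_of_mul (a := w ^ (-m)) ?_ hgm ?_).2
    · rw [map_zpow₀]; exact zpow_lt_one₀ hpos hw (by omega)
    · rw [zpow_neg, map_inv₀]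
  · rcases hm.lt_or_eq with hm | hm
    · exact (key hm).1
    · have e : c = 1 := by simp [c, ← hm]
      rw [e, inv_one, one_mul] at h
      exact h.1
  · by_contra hm0
    exact hne (key (by omega)).2
  · have e : c = 1 := by simp [c, h0]
    rw [e, inv_one, one_mul] at h
    exact h.2

theorem unique_scale {w : AlgebraicClosure ℚ} (hw0 : w ≠ 0) (hw : A.valuation w < 1) {g : Ser}
    {m m' : ℤ} (h : IsGaussUnit A ((algebraMap (AlgebraicClosure ℚ) Ser (w ^ m))⁻¹ * g))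
    (h' : IsGaussUnit A ((algebraMap (AlgebraicClosure ℚ) Ser (w ^ m'))⁻¹ * g)) : m = m' := by
  have hg : g ≠ 0 := right_ne_zero_of_mul h.ne_zero
  have hu := h.mul h'.inv
  have e : (algebraMap (AlgebraicClosure ℚ) Ser (w ^ m))⁻¹ * g *
      ((algebraMap (AlgebraicClosure ℚ) Ser (w ^ m'))⁻¹ * g)⁻¹ =
      algebraMap (AlgebraicClosure ℚ) Ser (w ^ (m' - m)) := by
    rw [zpow_sub₀ hw0, map_div₀, mul_inv_rev, inv_inv, ← mul_assoc, mul_assoc _ g,
      mul_inv_cancel₀ hg, mul_one, div_eq_inv_mul]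
  rw [e] at hu
  have h1 : IsGaussUnit A ((algebraMap (AlgebraicClosure ℚ) Ser (w ^ (m' - m)))⁻¹ *
      algebraMap (AlgebraicClosure ℚ) Ser (w ^ (m' - m))) := by
    rw [inv_mul_cancel₀ hu.ne_zero]
    exact isGaussUnit_one
  obtain ⟨h2, h3⟩ := gauss_of_scale hw0 hw h1
  have h4 := (h3 (h2.1 hu.1)).1 hu.2
  omega

theorem seriesTwist_algebraMap (u : (AlgebraicClosure ℚ)ˣ) (c : AlgebraicClosure ℚ) :
    seriesTwist u (algebraMap (AlgebraicClosure ℚ) Ser c) =
      algebraMap (AlgebraicClosure ℚ) Ser c := by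
  rw [algebraMap_laurentSeries_eq_single]
  ext n
  rw [seriesTwist_coeff, HahnSeries.coeff_single]
  split_ifs with h
  · subst h; simp
  · simp

theorem isGaussUnit_qExpand (d : ℕ) [NeZero d] {g : Ser} (hg : IsGaussUnit A g) :
    IsGaussUnit A (qExpand (AlgebraicClosure ℚ) d g) := by
  obtain ⟨h, e⟩ := qExpand_mem_and_red d hg.1
  refine ⟨h, ?_⟩
  rw [e]
  exact fun h0 => hg.2 (qExpand_injective d (h0.trans (map_zero _).symm))

theorem isGaussUnit_seriesTwist (hA : A.LiesOverPrime q) {u : (AlgebraicClosure ℚ)ˣ} {k : ℕ}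
    (hu : u ^ (q ^ k) = 1) {g : Ser} (hg : IsGaussUnit A g) :
    IsGaussUnit A (seriesTwist u g) := by
  obtain ⟨h, e⟩ := red_seriesTwist hA hu g
  exact ⟨h.2 hg.1, by rw [e]; exact hg.2⟩

theorem isGaussUnit_coeffMap {σ : AlgebraicClosure ℚ ≃ₐ[ℚ] AlgebraicClosure ℚ}
    (hσ : σ ∈ A.inertiaSubgroupIn ℚ) {g : Ser} (hg : IsGaussUnit A g) :
    IsGaussUnit A (coeffMap (σ : AlgebraicClosure ℚ →+* AlgebraicClosure ℚ) g) := by
  obtain ⟨h, e⟩ := red_coeffMap_inertia hσ hg.1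
  exact ⟨h, by rw [e]; exact hg.2⟩

theorem zetaQ_pow_qpow (n : ℕ) : ((zetaQ q : (AlgebraicClosure ℚ)ˣ) ^ n) ^ (q ^ 1) = 1 := by
  rw [pow_one, ← pow_mul, mul_comm, pow_mul, zetaQ_pow, one_pow]

/-! ### The three components -/

variable (A M q)

theorem two_le_q : 2 ≤ q := (Fact.out : q.Prime).two_le

/-- The embedding attached to a component. -/
def sideEmb : Side → (F₂ A M q →ₐ[inertiaField A] Ser)
  | .s20 => (Fld A (M * q * q)).val
  | .s11 => e₁₁ A M q ⟨0, by have := two_le_q q; omega⟩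
  | .s02 => ((Fld A (M * q * q)).val).comp (w₂ A M q).toAlgHom

/-- The valuation ring of a component: integral expansions reducing to the residual field (the
second condition is automatic at a place over `q ∤ M`, see `mem_sideInt`). -/
def sideInt (s : Side) : Subring (F₂ A M q) :=
  (((RFld A M).toSubfield.toSubring.comap (gaussRed A (residue A))).map
    (gaussSubring A (residue A)).subtype).comap (sideEmb A M q s).toRingHom

/-- The normalised valuation of a component. -/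
def sideVal : Side → F₂ A M q → ℤ
  | .s20, f => val A q (f : Ser)
  | .s11, f => val₁₁ A M q f
  | .s02, f => val A q (w₂ A M q f : Ser)

theorem mem_gaussInt_of_mem_sideInt (s : Side) {f : F₂ A M q} (hf : f ∈ sideInt A M q s) :
    sideEmb A M q s f ∈ GaussInt A ∧ red A (sideEmb A M q s f) ∈ RFld A M := by
  obtain ⟨g, hg, e⟩ := Subring.mem_map.1 (Subring.mem_comap.1 hf)
  have e' : (g : Ser) = sideEmb A M q s f := e
  rw [← e']
  refine ⟨g.2, ?_⟩
  rw [red_of_mem g.2]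
  exact hg

theorem gaussRed_sideEmb_mem (s : Side) (f : sideInt A M q s) :
    gaussRed A (IsLocalRing.residue A)
      ⟨sideEmb A M q s f, (mem_gaussInt_of_mem_sideInt A M q s f.2).1⟩ ∈ RFld A M := by
  obtain ⟨h1, h2⟩ := mem_gaussInt_of_mem_sideInt A M q s f.2
  rwa [red_of_mem h1] at h2

/-- The reduction on a component, with values in the residual field of level `M`. -/
def sideRes (s : Side) : sideInt A M q s →+* RFld A M :=
  RingHom.codRestrict
    ((gaussRed A (IsLocalRing.residue A)).comp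
      (((sideEmb A M q s).toRingHom.comp (sideInt A M q s).subtype).codRestrict _
        fun f => (mem_gaussInt_of_mem_sideInt A M q s f.2).1))
    (RFld A M).toSubring (gaussRed_sideEmb_mem A M q s)

variable {A M q}

theorem sideEmb_eq_triEmb (hqM : ¬ q ∣ M) (s : Side) (f : F₂ A M q) :
    sideEmb A M q s f =
      ((MainGauss.triEmb hqM (sideIdx s) (toBar A M q f) : XField q M) : Ser) := by
  cases s
  · exact (triEmb_toBar_s20 hqM f).symm
  · exact (triEmb_toBar_s11 hqM (by have := two_le_q q; omega) f).symm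
  · exact (triEmb_toBar_s02 hqM f).symm

theorem mem_sideInt (hA : A.LiesOverPrime q) (hqM : ¬ q ∣ M) (s : Side) {f : F₂ A M q} :
    f ∈ sideInt A M q s ↔ sideEmb A M q s f ∈ GaussInt A := by
  refine ⟨fun h => (mem_gaussInt_of_mem_sideInt A M q s h).1, fun h => ?_⟩
  refine Subring.mem_comap.2 (Subring.mem_map.2 ⟨⟨_, h⟩, Subring.mem_comap.2 ?_, rfl⟩)
  have h' : red A (sideEmb A M q s f) ∈ RFld A M := by
    rw [sideEmb_eq_triEmb hqM] at h ⊢
    exact red_triEmb_mem hA hqM _ f h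
  rwa [red_of_mem h] at h'

theorem red_mem_rfld₁ (hA : A.LiesOverPrime q) (hqM : ¬ q ∣ M) (g : F₁ A M q)
    (hg : (g : Ser) ∈ GaussInt A) : red A (g : Ser) ∈ RFld A M := by
  have h := red_triEmb_mem hA hqM 0 (p₀₁ A M q g)
  rw [triEmb_toBar_s20, coe_incl] at h
  exact h hg

theorem coe_sideRes (s : Side) (f : sideInt A M q s) :
    (sideRes A M q s f : ResSer A) = red A (sideEmb A M q s f) :=
  (red_of_mem (mem_gaussInt_of_mem_sideInt A M q s f.2).1).symm

theorem valuation_midUnif_lt (hA : A.LiesOverPrime q) : A.valuation (midUnif q) < 1 :=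
  (A.valuation_lt_one_iff (CGood.wQ q A)).1 ((residue_eq_zero_iff _).1 (CGood.π_wQ q A hA))

theorem val₁₁_spec (hA : A.LiesOverPrime q) (hqM : ¬ q ∣ M) {f : F₂ A M q} (hf : f ≠ 0) :
    ∀ i : Fin (q - 1), IsGaussUnit A
      ((algebraMap (AlgebraicClosure ℚ) Ser (midUnif q ^ val₁₁ A M q f))⁻¹ *
        e₁₁ A M q i f) := by
  have h0 : 0 < q - 1 := by have := two_le_q q; omega
  obtain ⟨m, hm⟩ := exists_mid_scale hA hqM ⟨0, h0⟩ hf
  have hω : A.valuation (midUnif q) ≠ 0 := (_root_.map_ne_zero _).2 midUnif_ne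
  have hall : ∀ i : Fin (q - 1), IsGaussUnit A
      ((algebraMap (AlgebraicClosure ℚ) Ser (midUnif q ^ m))⁻¹ * e₁₁ A M q i f) := by
    intro i
    obtain ⟨σ, hσ, hσe⟩ := exists_inertia_e₁₁ hA hqM h0 i
    have h1 := isGaussUnit_coeffMap hσ hm
    rw [map_mul, map_inv₀, coeffMap_algebraMap, hσe] at h1
    have hc : A.valuation (σ (midUnif q ^ m) / midUnif q ^ m) = 1 := by
      rw [map_div₀, CGood.valuation_eq_of_inertia hσ, div_self]
      exact (_root_.map_ne_zero _).2 (zpow_ne_zero _ midUnif_ne)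
    have h2 := (isGaussUnit_algebraMap hc).mul h1
    have hσ0 : algebraMap (AlgebraicClosure ℚ) Ser (σ (midUnif q ^ m)) ≠ 0 :=
      (_root_.map_ne_zero _).2 ((_root_.map_ne_zero σ.toRingEquiv.toRingHom).2
        (zpow_ne_zero _ midUnif_ne))
    rwa [map_div₀, div_eq_inv_mul, mul_assoc,
      show ((σ : AlgebraicClosure ℚ →+* AlgebraicClosure ℚ) (midUnif q ^ m)) =
        σ (midUnif q ^ m) from rfl, mul_inv_cancel_left₀ hσ0] at h2
  suffices h : val₁₁ A M q f = m by rw [h]; exact hall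
  obtain ⟨n, hn⟩ := hasVal_fld hA f hf
  have hprod := isGaussUnit_prod Finset.univ fun i _ => hall i
  rw [Finset.prod_mul_distrib, Finset.prod_const, Finset.card_univ, Fintype.card_fin, inv_pow,
    ← map_pow] at hprod
  have hc : A.valuation ((midUnif q ^ m) ^ (q - 1) / (q : AlgebraicClosure ℚ) ^ m) = 1 := by
    rw [map_div₀, map_pow, map_zpow₀, map_zpow₀, CGood.valuation_q hA, CGood.coe_wQ,
      ← zpow_natCast, ← zpow_natCast, ← zpow_mul, ← zpow_mul, mul_comm m, div_self]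
    exact zpow_ne_zero _ hω
  have h1 := ((isGaussUnit_algebraMap hc).mul hprod).mul hn
  have e : IsGaussUnit A (((q : Ser) ^ (n + m))⁻¹ * (norm₀₁ A M q f : Ser)) := by
    rw [coe_norm₀₁ hqM]
    convert h1 using 1
    rw [map_div₀, ← natCast_zpow_ser, zpow_add₀ (natCast_ser_ne (q := q))]
    have h2 : algebraMap (AlgebraicClosure ℚ) Ser ((midUnif q ^ m) ^ (q - 1)) ≠ 0 :=
      (_root_.map_ne_zero _).2 (pow_ne_zero _ (zpow_ne_zero _ midUnif_ne))
    have h3 := zpow_ne_zero m (natCast_ser_ne (q := q))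
    have h4 := zpow_ne_zero n (natCast_ser_ne (q := q))
    field_simp
  rw [val₁₁, val_eq hA e, val_eq hA hn]
  ring

/-- Each component value is the exponent of a constant of positive value. -/
theorem exists_side_scale (hA : A.LiesOverPrime q) (hqM : ¬ q ∣ M) (s : Side) :
    ∃ w : AlgebraicClosure ℚ, w ≠ 0 ∧ A.valuation w < 1 ∧ ∀ f : F₂ A M q, f ≠ 0 →
      IsGaussUnit A ((algebraMap (AlgebraicClosure ℚ) Ser (w ^ sideVal A M q s f))⁻¹ *
        sideEmb A M q s f) := by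
  cases s
  · refine ⟨q, natCast_ne_zero_of_prime, hA, fun f hf => ?_⟩
    rw [← natCast_zpow_ser]
    exact isGaussUnit_val hA (hasVal_fld hA f hf)
  · exact ⟨midUnif q, midUnif_ne, valuation_midUnif_lt hA, fun f hf => val₁₁_spec hA hqM hf _⟩
  · refine ⟨q, natCast_ne_zero_of_prime, hA, fun f hf => ?_⟩
    rw [← natCast_zpow_ser]
    exact isGaussUnit_val hA (hasVal_fld hA (w₂ A M q f) (by simpa using hf))

theorem mem_sideInt_iff (hA : A.LiesOverPrime q) (hqM : ¬ q ∣ M) (s : Side) {f : F₂ A M q}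
    (hf : f ≠ 0) : f ∈ sideInt A M q s ↔ 0 ≤ sideVal A M q s f := by
  obtain ⟨w, hw0, hw, h⟩ := exists_side_scale hA hqM s
  rw [mem_sideInt hA hqM]
  exact (gauss_of_scale hw0 hw (h f hf)).1

theorem sideRes_eq_zero_iff (hA : A.LiesOverPrime q) (hqM : ¬ q ∣ M) (s : Side)
    {f : sideInt A M q s} (hf : (f : F₂ A M q) ≠ 0) :
    sideRes A M q s f = 0 ↔ 0 < sideVal A M q s f := by
  obtain ⟨w, hw0, hw, h⟩ := exists_side_scale hA hqM s
  obtain ⟨h1, h2⟩ := gauss_of_scale hw0 hw (h _ hf)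
  have h3 := h1.1 ((mem_sideInt hA hqM s).1 f.2)
  have h4 := h2 h3
  rw [← not_iff_not, not_lt]
  refine ⟨fun hne => le_of_eq (h4.1 fun h0 => hne (Subtype.ext ?_)), fun hle h0 => ?_⟩
  · rw [coe_sideRes, h0, ZeroMemClass.coe_zero]
  · refine h4.2 (le_antisymm hle h3) ?_
    rw [← coe_sideRes, h0, ZeroMemClass.coe_zero]

theorem sideVal_mul (hA : A.LiesOverPrime q) (hqM : ¬ q ∣ M) (s : Side) {f g : F₂ A M q}
    (hf : f ≠ 0) (hg : g ≠ 0) :
    sideVal A M q s (f * g) = sideVal A M q s f + sideVal A M q s g := by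
  obtain ⟨w, hw0, hw, h⟩ := exists_side_scale hA hqM s
  refine unique_scale hw0 hw (h _ (mul_ne_zero hf hg)) ?_
  have h1 := (h f hf).mul (h g hg)
  rwa [mul_mul_mul_comm, ← mul_inv, ← map_mul, ← zpow_add₀ hw0, ← map_mul] at h1

theorem sideVal_algebraMap_natCast (hA : A.LiesOverPrime q) (hqM : ¬ q ∣ M) :
    sideVal A M q .s20 (q : F₂ A M q) = 1 ∧ sideVal A M q .s02 (q : F₂ A M q) = 1 ∧
      sideVal A M q .s11 (q : F₂ A M q) = (q : ℤ) - 1 := by
  have h1 := val_natCast_zpow (A := A) hA 1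
  rw [zpow_one] at h1
  have e : ((q : F₂ A M q) : Ser) = (q : Ser) := map_natCast (Fld A (M * q * q)).val q
  have hne : (q : F₂ A M q) ≠ 0 := fun h0 => natCast_ser_ne (q := q) (by rw [← e, h0]; rfl)
  refine ⟨?_, ?_, ?_⟩
  · show val A q ((q : F₂ A M q) : Ser) = 1
    rw [e, h1]
  · show val A q ((w₂ A M q (q : F₂ A M q) : F₂ A M q) : Ser) = 1
    rw [map_natCast, e, h1]
  · have h0 : 0 < q - 1 := by have := two_le_q q; omega
    refine unique_scale midUnif_ne (valuation_midUnif_lt hA) (val₁₁_spec hA hqM hne ⟨0, h0⟩) ?_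
    rw [map_natCast, natCast_ser, ← map_inv₀, ← map_mul]
    refine isGaussUnit_algebraMap ?_
    have hq : ((q : ℤ) - 1) = ((q - 1 : ℕ) : ℤ) := by omega
    rw [map_mul, map_inv₀, map_zpow₀, hq, zpow_natCast, CGood.valuation_q hA, CGood.coe_wQ]
    exact inv_mul_cancel₀ (pow_ne_zero _ ((_root_.map_ne_zero _).2 midUnif_ne))

/-- All middle embeddings have the same integral elements and the same reduction. -/
theorem red_e₁₁ (hA : A.LiesOverPrime q) (hqM : ¬ q ∣ M) (i : Fin (q - 1))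
    (f : sideInt A M q .s11) :
    e₁₁ A M q i (f : F₂ A M q) ∈ GaussInt A ∧
      red A (e₁₁ A M q i (f : F₂ A M q)) = sideRes A M q .s11 f := by
  have h0 : 0 < q - 1 := by have := two_le_q q; omega
  obtain ⟨σ, hσ, hσe⟩ := exists_inertia_e₁₁ hA hqM h0 i
  have hmem : e₁₁ A M q ⟨0, h0⟩ (f : F₂ A M q) ∈ GaussInt A := (mem_sideInt hA hqM .s11).1 f.2
  obtain ⟨h, e⟩ := red_coeffMap_inertia hσ hmem
  rw [hσe] at h e
  exact ⟨h, e.trans (coe_sideRes .s11 f).symm⟩

theorem sideVal_norm₀₁ (hA : A.LiesOverPrime q) (hqM : ¬ q ∣ M) {f : F₂ A M q} (hf : f ≠ 0) :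
    val A q (norm₀₁ A M q f : Ser) = sideVal A M q .s20 f + sideVal A M q .s11 f ∧
      val A q (w₁ A M q (norm₀₁ A M q f) : Ser) = (q : ℤ) * sideVal A M q .s02 f := by
  refine ⟨by simp only [sideVal, val₁₁]; ring, ?_⟩
  set v := sideVal A M q .s02 f
  have hv : IsGaussUnit A (((q : Ser) ^ v)⁻¹ * (w₂ A M q f : Ser)) :=
    isGaussUnit_val hA (hasVal_fld hA (w₂ A M q f) (by simpa using hf))
  have hq : qExpand (AlgebraicClosure ℚ) q (q : Ser) = (q : Ser) := map_natCast _ q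
  have hfac : ∀ i : Fin q, IsGaussUnit A
      (((q : Ser) ^ v)⁻¹ * seriesTwist (zetaQ q ^ (i : ℕ)) (w₂ A M q f : Ser)) := fun i => by
    have := isGaussUnit_seriesTwist hA (zetaQ_pow_qpow (q := q) (i : ℕ)) hv
    rwa [map_mul, map_inv₀, map_zpow₀, map_natCast] at this
  have hprod := isGaussUnit_prod Finset.univ fun i _ => hfac i
  rw [Finset.prod_mul_distrib, Finset.prod_const, Finset.card_univ, Fintype.card_fin, inv_pow,
    ← zpow_natCast ((q : Ser) ^ v), ← zpow_mul, mul_comm v, ← qExpand_w₁_norm₀₁ hqM] at hprod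
  refine val_eq hA ?_
  refine ⟨(qExpand_mem_gaussInt_iff q _).1 ?_, fun h0 => hprod.2 ?_⟩
  · rw [map_mul, map_inv₀, map_zpow₀, hq]
    exact hprod.1
  · have hm : ((q : Ser) ^ ((q : ℤ) * v))⁻¹ * (w₁ A M q (norm₀₁ A M q f) : Ser) ∈ GaussInt A := by
      refine (qExpand_mem_gaussInt_iff q _).1 ?_
      rw [map_mul, map_inv₀, map_zpow₀, hq]
      exact hprod.1
    have e := (red_qExpand q hm).2
    rw [map_mul, map_inv₀, map_zpow₀, hq, h0, map_zero] at e
    exact e

theorem sideVal_w₂ (hA : A.LiesOverPrime q) (hqM : ¬ q ∣ M) (f : F₂ A M q) :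
    sideVal A M q .s20 (w₂ A M q f) = sideVal A M q .s02 f ∧
      sideVal A M q .s02 (w₂ A M q f) = sideVal A M q .s20 f ∧
        sideVal A M q .s11 (w₂ A M q f) = sideVal A M q .s11 f := by
  refine ⟨rfl, by simp only [sideVal, w₂_w₂ hqM], ?_⟩
  rcases eq_or_ne f 0 with rfl | hf
  · rw [map_zero]
  have hf' : w₂ A M q f ≠ 0 := by simpa using hf
  have h0 : 0 < q - 1 := by have := two_le_q q; omega
  obtain ⟨j, hj⟩ := e₁₁_w₂ (A := A) hqM ⟨0, h0⟩
  refine unique_scale midUnif_ne (valuation_midUnif_lt hA) (val₁₁_spec hA hqM hf' ⟨0, h0⟩) ?_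
  have h1 := isGaussUnit_seriesTwist hA (zetaQ_pow_qpow (q := q) ((⟨0, h0⟩ : Fin (q - 1)) + 1 : ℕ))
    (val₁₁_spec hA hqM hf j)
  rwa [map_mul, map_inv₀, seriesTwist_algebraMap, ← midTwist, ← hj] at h1

theorem sideRes_w₂_s11 (hA : A.LiesOverPrime q) (hqM : ¬ q ∣ M) (f g : sideInt A M q .s11)
    (h : (g : F₂ A M q) = w₂ A M q f) : sideRes A M q .s11 g = sideRes A M q .s11 f := by
  have h0 : 0 < q - 1 := by have := two_le_q q; omega
  obtain ⟨j, hj⟩ := e₁₁_w₂ (A := A) hqM ⟨0, h0⟩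
  apply Subtype.ext
  rw [coe_sideRes, show sideEmb A M q .s11 g = e₁₁ A M q ⟨0, h0⟩ (g : F₂ A M q) from rfl, h, hj,
    midTwist, (red_seriesTwist hA (zetaQ_pow_qpow (q := q) _) _).2]
  exact (red_e₁₁ hA hqM j f).2

/-- `g ↦ g (q τ)` on the residual series. -/
abbrev frobRes (g : ResSer A) : ResSer A := qExpand (Res A) q g

theorem sideEmb_x₂ (hqM : ¬ q ∣ M) (g : F₀ A M) :
    sideEmb A M q .s20 (x₂ A M q g) = (g : Ser) ∧
      sideEmb A M q .s11 (x₂ A M q g) = (g : Ser) ∧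
        sideEmb A M q .s02 (x₂ A M q g) =
          qExpand (AlgebraicClosure ℚ) q (qExpand (AlgebraicClosure ℚ) q (g : Ser)) :=
  ⟨coe_x₂ (q := q) g, e₁₁_x₂ (q := q) hqM _ g, by
    show ((w₂ A M q (x₂ A M q g) : F₂ A M q) : Ser) = _
    rw [w₂_x₂ hqM, coe_z₂]⟩

theorem sideEmb_y₂ (hqM : ¬ q ∣ M) (g : F₀ A M) (s : Side) :
    sideEmb A M q s (y₂ A M q g) = qExpand (AlgebraicClosure ℚ) q (g : Ser) := by
  cases s
  · exact coe_y₂ g
  · exact e₁₁_y₂ hqM _ g
  · show ((w₂ A M q (y₂ A M q g) : F₂ A M q) : Ser) = _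
    rw [w₂_y₂ hqM, coe_y₂]

theorem sideEmb_z₂ (hqM : ¬ q ∣ M) (g : F₀ A M) :
    sideEmb A M q .s20 (z₂ A M q g) =
        qExpand (AlgebraicClosure ℚ) q (qExpand (AlgebraicClosure ℚ) q (g : Ser)) ∧
      sideEmb A M q .s11 (z₂ A M q g) = seriesTwist (zetaQ q ^ 1) (g : Ser) ∧
        sideEmb A M q .s02 (z₂ A M q g) = (g : Ser) :=
  ⟨coe_z₂ (q := q) g, e₁₁_z₂ (q := q) hqM _ g, by
    show ((w₂ A M q (z₂ A M q g) : F₂ A M q) : Ser) = _
    rw [w₂_z₂ hqM, coe_x₂]⟩

theorem sideEmb_base_mem (hA : A.LiesOverPrime q) (hqM : ¬ q ∣ M) (g : F₀ A M)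
    (hg : (g : Ser) ∈ GaussInt A) (s : Side) :
    x₂ A M q g ∈ sideInt A M q s ∧ y₂ A M q g ∈ sideInt A M q s ∧
      z₂ A M q g ∈ sideInt A M q s := by
  have hy := (red_qExpand q hg).1
  have hz := (red_qExpand q hy).1
  obtain ⟨x1, x2, x3⟩ := sideEmb_x₂ (q := q) hqM g
  obtain ⟨z1, z2, z3⟩ := sideEmb_z₂ (q := q) hqM g
  have ht := (red_seriesTwist hA (zetaQ_pow_qpow (q := q) 1) (g : Ser)).1.2 hg
  rw [mem_sideInt hA hqM, mem_sideInt hA hqM, mem_sideInt hA hqM, sideEmb_y₂ hqM]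
  cases s
  · rw [x1, z1]; exact ⟨hg, hy, hz⟩
  · rw [x2, z2]; exact ⟨hg, hy, ht⟩
  · rw [x3, z3]; exact ⟨hz, hy, hg⟩

theorem red_y₂ (hA : A.LiesOverPrime q) (hqM : ¬ q ∣ M) (g : F₀ A M)
    (hg : (g : Ser) ∈ GaussInt A) (s : Side) :
    red A (sideEmb A M q s (y₂ A M q g)) = frobRes (q := q) (red A (g : Ser)) := by
  rw [sideEmb_y₂ hqM, (red_qExpand q hg).2]

theorem red_x₂ (hA : A.LiesOverPrime q) (hqM : ¬ q ∣ M) (g : F₀ A M)
    (hg : (g : Ser) ∈ GaussInt A) :
    red A (sideEmb A M q .s20 (x₂ A M q g)) = red A (g : Ser) ∧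
      red A (sideEmb A M q .s11 (x₂ A M q g)) = red A (g : Ser) ∧
        red A (sideEmb A M q .s02 (x₂ A M q g)) =
          frobRes (q := q) (frobRes (q := q) (red A (g : Ser))) := by
  obtain ⟨x1, x2, x3⟩ := sideEmb_x₂ (q := q) hqM g
  rw [x1, x2, x3, (red_qExpand q (red_qExpand q hg).1).2, (red_qExpand q hg).2]
  exact ⟨rfl, rfl, rfl⟩

theorem red_z₂ (hA : A.LiesOverPrime q) (hqM : ¬ q ∣ M) (g : F₀ A M)
    (hg : (g : Ser) ∈ GaussInt A) :
    red A (sideEmb A M q .s20 (z₂ A M q g)) =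
        frobRes (q := q) (frobRes (q := q) (red A (g : Ser))) ∧
      red A (sideEmb A M q .s11 (z₂ A M q g)) = red A (g : Ser) ∧
        red A (sideEmb A M q .s02 (z₂ A M q g)) = red A (g : Ser) := by
  obtain ⟨z1, z2, z3⟩ := sideEmb_z₂ (q := q) hqM g
  rw [z1, z2, z3, (red_qExpand q (red_qExpand q hg).1).2, (red_qExpand q hg).2,
    (red_seriesTwist hA (zetaQ_pow_qpow (q := q) 1) (g : Ser)).2]
  exact ⟨rfl, rfl, rfl⟩

/-! ### The integrality criterion -/

theorem mem_chart₀_of (hA : A.LiesOverPrime q) (hqM : ¬ q ∣ M) (b : Bool) (g : F₀ A M)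
    (hint : IsIntegral (Algebra.adjoin (inertiaField A) {jCoord A M b}) g)
    (hg : (g : Ser) ∈ GaussInt A) : g ∈ chart A (jCoord A M b) :=
  mem_chart_of_gauss hA hqM b g hint hg

theorem mem_chart₁_of (hA : A.LiesOverPrime q) (hqM : ¬ q ∣ M) (b : Bool) (g : F₁ A M q)
    (hint : IsIntegral (Algebra.adjoin (inertiaField A) {jCoord A (M * q) b}) g)
    (hg : (g : Ser) ∈ GaussInt A) (hg' : (w₁ A M q g : Ser) ∈ GaussInt A) :
    g ∈ chart A (jCoord A (M * q) b) :=
  mem_chart₁_of_gauss hA hqM b g hint hg hg'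

theorem mem_chart₂_of (hA : A.LiesOverPrime q) (hqM : ¬ q ∣ M) (b : Bool) (g : F₂ A M q)
    (hint : IsIntegral (Algebra.adjoin (inertiaField A) {jCoord A (M * q * q) b}) g)
    (hg : ∀ s, g ∈ sideInt A M q s) : g ∈ chart A (jCoord A (M * q * q) b) :=
  mem_chart₂_of_gauss hA hqM b g hint ((mem_sideInt hA hqM .s20).1 (hg .s20))
    ((mem_sideInt hA hqM .s02).1 (hg .s02)) fun i => (red_e₁₁ hA hqM i ⟨g, hg .s11⟩).1

theorem sideVal_inv_aux (hA : A.LiesOverPrime q) (hqM : ¬ q ∣ M) (s : Side) {f : F₂ A M q}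
    (hf : f ≠ 0) : sideVal A M q s f⁻¹ = -sideVal A M q s f := by
  have h := sideVal_mul hA hqM s hf (inv_ne_zero hf)
  have h1 := sideVal_mul hA hqM s (one_ne_zero (α := F₂ A M q)) (one_ne_zero (α := F₂ A M q))
  rw [mul_one] at h1
  rw [mul_inv_cancel₀ hf] at h
  omega

theorem sideVal_pow_aux (hA : A.LiesOverPrime q) (hqM : ¬ q ∣ M) (s : Side) {f : F₂ A M q}
    (hf : f ≠ 0) (n : ℕ) : sideVal A M q s (f ^ n) = (n : ℤ) * sideVal A M q s f := by
  induction n with
  | zero =>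
    have h1 := sideVal_mul hA hqM s (one_ne_zero (α := F₂ A M q)) (one_ne_zero (α := F₂ A M q))
    rw [mul_one] at h1
    rw [pow_zero, Nat.cast_zero, zero_mul]
    omega
  | succ n ih =>
    rw [pow_succ, sideVal_mul hA hqM s (pow_ne_zero n hf) hf, ih]
    push_cast
    ring

theorem chart_le_sideInt (hA : A.LiesOverPrime q) (hqM : ¬ q ∣ M) (b : Bool) (s : Side) :
    chart A (jCoord A (M * q * q) b) ≤ sideInt A M q s := by
  have hT : x₂ A M q (jCoord A M b) = jCoord A (M * q * q) b := by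
    rw [x₂, AlgHom.comp_apply]
    exact (congrArg _ (map_jCoord_incl _ b)).trans (map_jCoord_incl _ b)
  refine chart_le_of_red _ _ (sideRes A M q s) ?_ fun f hf => ?_
  · refine sup_le ?_ ((Subring.closure_le).2 (Set.singleton_subset_iff.2 ?_))
    · rintro _ ⟨c, hc, rfl⟩
      rw [mem_sideInt hA hqM, AlgHom.commutes,
        IsScalarTower.algebraMap_apply (inertiaField A) (AlgebraicClosure ℚ) Ser]
      exact (red_algebraMap (a := (c : AlgebraicClosure ℚ)) hc).1
    · rw [← hT]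
      exact (sideEmb_base_mem hA hqM _ (jCoord_mem_gaussInt_red M b).1 s).1
  · have hf0 : f ≠ 0 := fun e => hf (e ▸ zero_mem _)
    have hv : sideVal A M q s f < 0 := not_le.1 fun h => hf ((mem_sideInt_iff hA hqM s hf0).2 h)
    have hi := sideVal_inv_aux hA hqM s hf0
    have hm : f⁻¹ ∈ sideInt A M q s := (mem_sideInt_iff hA hqM s (inv_ne_zero hf0)).2 (by omega)
    exact ⟨hm, (sideRes_eq_zero_iff hA hqM s (f := ⟨f⁻¹, hm⟩) (inv_ne_zero hf0)).2
      (by show 0 < sideVal A M q s f⁻¹; omega)⟩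

theorem isIntegral_adjoin_of_mem_chart {N : ℕ} (b : Bool) {g : Fld A N}
    (hg : g ∈ chart A (jCoord A N b)) :
    IsIntegral (Algebra.adjoin (inertiaField A) {jCoord A N b}) g := by
  refine isIntegralElem_transfer (RingHom.id _) (fun a => ?_) (mem_chart_iff_integralElem.1 hg)
  have hle : chartBase A (jCoord A N b) ≤
      (Algebra.adjoin (inertiaField A) {jCoord A N b}).toSubring := by
    refine sup_le ?_ ((Subring.closure_le).2 (Set.singleton_subset_iff.2 ?_))
    · rintro _ ⟨c, _, rfl⟩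
      exact Subalgebra.algebraMap_mem _ c
    · exact Algebra.self_mem_adjoin_singleton _ _
  exact ⟨⟨_, hle a.2⟩, rfl⟩

/-- Elements with vanishing residues are, up to a bounded power, divisible by `q`. -/
theorem exists_pow_eq_natCast_mul (hA : A.LiesOverPrime q) (hqM : ¬ q ∣ M) (b : Bool)
    (g : chart A (jCoord A (M * q * q) b))
    (hg : ∀ s, sideRes A M q s ⟨g, chart_le_sideInt hA hqM b s g.2⟩ = 0) :
    ∃ h : chart A (jCoord A (M * q * q) b), g ^ (q - 1) = (q : chart A _) * h := by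
  have hq2 := two_le_q q
  rcases eq_or_ne (g : F₂ A M q) 0 with h0 | h0
  · refine ⟨0, Subtype.ext ?_⟩
    rw [SubmonoidClass.coe_pow, h0, zero_pow (by omega), mul_zero]
    rfl
  set gv : F₂ A M q := (g : F₂ A M q)
  have hqne : (q : F₂ A M q) ≠ 0 := fun h => natCast_ser_ne (q := q) (by
    rw [← map_natCast (Fld A (M * q * q)).val q, h, map_zero])
  set e : F₂ A M q := gv ^ (q - 1) * (q : F₂ A M q)⁻¹ with he
  have hpow : gv ^ (q - 1) ≠ 0 := pow_ne_zero _ h0
  have hne : e ≠ 0 := mul_ne_zero hpow (inv_ne_zero hqne)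
  have hside : ∀ s, e ∈ sideInt A M q s := by
    intro s
    refine (mem_sideInt_iff hA hqM s hne).2 ?_
    have hv : 0 < sideVal A M q s gv := (sideRes_eq_zero_iff hA hqM s
      (f := ⟨gv, chart_le_sideInt hA hqM b s g.2⟩) h0).1 (hg s)
    rw [he, sideVal_mul hA hqM s hpow (inv_ne_zero hqne), sideVal_inv_aux hA hqM s hqne,
      sideVal_pow_aux hA hqM s h0]
    obtain ⟨v20, v02, v11⟩ := sideVal_algebraMap_natCast (A := A) (M := M) hA hqM
    have hc : ((q - 1 : ℕ) : ℤ) = (q : ℤ) - 1 := by omega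
    have h1 : (q : ℤ) - 1 ≤ ((q - 1 : ℕ) : ℤ) * sideVal A M q s gv := by
      rw [hc]; exact le_mul_of_one_le_right (by omega) (by omega)
    cases s
    · rw [v20]; omega
    · rw [v11]; omega
    · rw [v02]; omega
  have hint : IsIntegral (Algebra.adjoin (inertiaField A) {jCoord A (M * q * q) b}) e := by
    refine ((isIntegral_adjoin_of_mem_chart b g.2).pow _).mul ?_
    have hc : algebraMap (inertiaField A) (F₂ A M q) ((q : inertiaField A)⁻¹) =
        (q : F₂ A M q)⁻¹ := by rw [map_inv₀, map_natCast]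
    rw [← hc]
    exact isIntegral_algebraMap
      (x := (⟨_, Subalgebra.algebraMap_mem _ ((q : inertiaField A)⁻¹)⟩ :
        Algebra.adjoin (inertiaField A) {jCoord A (M * q * q) b}))
  refine ⟨⟨e, mem_chart₂_of hA hqM b e hint hside⟩, Subtype.ext ?_⟩
  push_cast
  rw [he, mul_comm (gv ^ (q - 1)), mul_inv_cancel_left₀ hqne]

end Fermat.Agent.Carayol.Reg

end
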