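/-
Theorem of Carayol at `q ^ 2 ∥ M`: the charts reduce onto the charts of the residual
curve.
-/
import Fermat.Agent.Carayol.MainGauss
import Fermat.Agent.Curve.BasicPlace
import Fermat.Agent.Flat.BModularSetting
import Fermat.Agent.Flat.JacobianBase
import Fermat.Agent.ModFun.FieldDescent
import Fermat.Agent.Igusa.GaussX0
import Fermat.Agent.ECRed.ResidueField

set_option autoImplicit false
set_option linter.style.haveILetI false
set_option synthInstance.maxHeartbeats 400000

noncomputable section

namespace Fermat.Agent.Carayol.Reg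

open ModularCurve IntermediateField AlgebraicCurve

variable (A : ValuationSubring (AlgebraicClosure ℚ)) (M q : ℕ) [NeZero M] [Fact q.Prime]

/-- The coordinates on the residual curve. -/
def jResCoord : Bool → RFld A M
  | false => jRes A M
  | true => (jRes A M)⁻¹

variable {A M q}

theorem isUnit_natCast_level (hA : A.LiesOverPrime q) (hqM : ¬ q ∣ M) : IsUnit (M : A) := by
  obtain ⟨a, b, hab⟩ := Nat.isCoprime_iff_coprime.2
    ((Fact.out : q.Prime).coprime_iff_not_dvd.2 hqM)
  have h1 : (q : A) ∈ IsLocalRing.maximalIdeal A := by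
    have h : ((q : A) : AlgebraicClosure ℚ) ∈ A.nonunits := by
      simpa [ValuationSubring.LiesOverPrime] using hA
    exact ValuationSubring.coe_mem_nonunits_iff.mp h
  by_contra hnu
  have h2 : (M : A) ∈ IsLocalRing.maximalIdeal A := (IsLocalRing.mem_maximalIdeal _).2 hnu
  have h3 : ((a : A) * (q : A) + (b : A) * (M : A)) ∈ IsLocalRing.maximalIdeal A :=
    add_mem (Ideal.mul_mem_left _ _ h1) (Ideal.mul_mem_left _ _ h2)
  have h4 : (a : A) * (q : A) + (b : A) * (M : A) = 1 := by
    exact_mod_cast congrArg (Int.cast : ℤ → A) hab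
  rw [h4] at h3
  exact (IsLocalRing.maximalIdeal.isMaximal A).ne_top ((Ideal.eq_top_iff_one _).2 h3)

theorem finrank_rfld (hA : A.LiesOverPrime q) (hqM : ¬ q ∣ M) :
    Module.finrank (IntermediateField.adjoin (Res A) {jRes A M}) (RFld A M) = dedekindPsi M := by
  have hM := isUnit_natCast_level hA hqM
  have e : jRes A M = Igusa.GaussX0.jRed hM := Subtype.ext (Igusa.GaussX0.coe_φ_jBar hM).symm
  rw [e]
  exact Igusa.GaussX0.finrank_res hM

theorem isAlgClosed_res (A : ValuationSubring (AlgebraicClosure ℚ)) : IsAlgClosed (Res A) :=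
  ECRed.isAlgClosed_residueField A

/-- Functions with rational expansions lie in the field over the inertia field. -/
theorem mem_fld_of_isRat {f : modularFunctionFieldBar M}
    (hf : ∀ σ : AlgebraicClosure ℚ ≃ₐ[ℚ] AlgebraicClosure ℚ,
      coeffMap (σ : AlgebraicClosure ℚ →+* AlgebraicClosure ℚ)
        (f : LaurentSeries (AlgebraicClosure ℚ)) = (f : LaurentSeries (AlgebraicClosure ℚ))) :
    ((f : modularFunctionFieldBar M) : LaurentSeries (AlgebraicClosure ℚ)) ∈ Fld A M := by
  obtain ⟨g₀, hmem, hg₀⟩ := FlatModel.BModular.exists_coeffEmb_eq_of_fixed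
    (modularFunctionFieldFull M) f.2 hf
  rw [← hg₀]
  clear hg₀ hf
  unfold modularFunctionFieldFull at hmem
  induction hmem using IntermediateField.adjoin_induction with
  | mem x hx =>
    obtain ⟨d, hne, hd, rfl⟩ := hx
    haveI := hne
    rw [show coeffEmb (AlgebraicClosure ℚ) (qExpand ℚ d jq) =
      jqNModC (AlgebraicClosure ℚ) d from Igusa.coeffEmb_qExpand_jq d]
    exact jd_mem_fld hd
  | algebraMap c =>
    rw [show coeffEmb (AlgebraicClosure ℚ) (algebraMap ℚ (LaurentSeries ℚ) c) =
      algebraMap (inertiaField A) (LaurentSeries (AlgebraicClosure ℚ))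
        (algebraMap ℚ (inertiaField A) c) by
      rw [IsScalarTower.algebraMap_apply (inertiaField A) (AlgebraicClosure ℚ)
          (LaurentSeries (AlgebraicClosure ℚ)), ← IsScalarTower.algebraMap_apply ℚ (inertiaField A)]
      exact ModFun.coeffMap_algebraMap' c]
    exact (Fld A M).algebraMap_mem _
  | add x y _ _ hx hy => rw [map_add]; exact add_mem hx hy
  | inv x _ hx => rw [map_inv₀]; exact inv_mem hx
  | mul x y _ _ hx hy => rw [map_mul]; exact mul_mem hx hy

/-- Integrality over `ℚ̄ [T]` descends to `K [T]`. -/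
theorem isIntegral_fld_of_series {N : ℕ} (T g : Fld A N)
    (h : IsIntegral (Algebra.adjoin (AlgebraicClosure ℚ)
      ({(T : LaurentSeries (AlgebraicClosure ℚ))} : Set (LaurentSeries (AlgebraicClosure ℚ))))
      (g : LaurentSeries (AlgebraicClosure ℚ))) :
    IsIntegral (Algebra.adjoin (inertiaField A) {T}) g := by
  haveI : Algebra.IsAlgebraic ℚ (AlgebraicClosure ℚ) := AlgebraicClosure.isAlgebraic ℚ
  haveI : Algebra.IsAlgebraic (inertiaField A) (AlgebraicClosure ℚ) :=
    Algebra.IsAlgebraic.tower_top (K := ℚ) _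
  set R := Algebra.adjoin (inertiaField A)
    ({(T : LaurentSeries (AlgebraicClosure ℚ))} : Set (LaurentSeries (AlgebraicClosure ℚ))) with hR
  set C := integralClosure R (LaurentSeries (AlgebraicClosure ℚ)) with hC
  have hsub : ∀ x ∈ Algebra.adjoin (AlgebraicClosure ℚ)
      ({(T : LaurentSeries (AlgebraicClosure ℚ))} : Set (LaurentSeries (AlgebraicClosure ℚ))),
      x ∈ C := by
    intro x hx
    induction hx using Algebra.adjoin_induction with
    | mem y hy =>
      rw [Set.mem_singleton_iff] at hy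
      subst hy
      exact isIntegral_algebraMap (x := (⟨_, Algebra.self_mem_adjoin_singleton _ _⟩ : R))
    | algebraMap c =>
      obtain ⟨p, hp, hp0⟩ := Algebra.IsIntegral.isIntegral (R := inertiaField A) c
      refine ⟨p.map (algebraMap (inertiaField A) R), hp.map _, ?_⟩
      rw [Polynomial.eval₂_map,
        show (algebraMap R (LaurentSeries (AlgebraicClosure ℚ))).comp
            (algebraMap (inertiaField A) R) =
          (algebraMap (AlgebraicClosure ℚ) (LaurentSeries (AlgebraicClosure ℚ))).comp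
            (algebraMap (inertiaField A) (AlgebraicClosure ℚ)) from
          RingHom.ext fun z => IsScalarTower.algebraMap_apply (inertiaField A) (AlgebraicClosure ℚ)
            (LaurentSeries (AlgebraicClosure ℚ)) z,
        ← Polynomial.hom_eval₂, hp0, map_zero]
    | add x y _ _ hx hy => exact add_mem hx hy
    | mul x y _ _ hx hy => exact mul_mem hx hy
  obtain ⟨p, hp, hp0⟩ := h
  let ι : Algebra.adjoin (AlgebraicClosure ℚ)
      ({(T : LaurentSeries (AlgebraicClosure ℚ))} : Set (LaurentSeries (AlgebraicClosure ℚ))) →+*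
        C :=
    { toFun := fun x => ⟨x, hsub x x.2⟩
      map_one' := rfl
      map_zero' := rfl
      map_add' := fun _ _ => rfl
      map_mul' := fun _ _ => rfl }
  have h1 : IsIntegral C (g : LaurentSeries (AlgebraicClosure ℚ)) :=
    ⟨p.map ι, hp.map ι, by rw [Polynomial.eval₂_map]; exact hp0⟩
  haveI : Algebra.IsIntegral R C := integralClosure.AlgebraIsIntegral
  obtain ⟨P, hP, hP0⟩ : IsIntegral R (g : LaurentSeries (AlgebraicClosure ℚ)) := isIntegral_trans _ h1
  have hmap : (Algebra.adjoin (inertiaField A) ({T} : Set (Fld A N))).map (Fld A N).val = R := by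
    rw [AlgHom.map_adjoin, Set.image_singleton]
    rfl
  let ψ : Algebra.adjoin (inertiaField A) ({T} : Set (Fld A N)) →+* R :=
    { toFun := fun x => ⟨((x : Fld A N) : LaurentSeries (AlgebraicClosure ℚ)),
        hmap ▸ ⟨(x : Fld A N), x.2, rfl⟩⟩
      map_one' := rfl
      map_zero' := rfl
      map_add' := fun _ _ => rfl
      map_mul' := fun _ _ => rfl }
  have hψ : Function.Surjective ψ := by
    rintro ⟨y, hy⟩
    rw [← hmap] at hy
    obtain ⟨z, hz, rfl⟩ := hy
    exact ⟨⟨z, hz⟩, rfl⟩
  obtain ⟨Q, hQ, -, hQm⟩ := Polynomial.lifts_and_degree_eq_and_monic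
    (show P ∈ Polynomial.lifts ψ from (Polynomial.mem_lifts _).2
      (Polynomial.map_surjective ψ hψ P)) hP
  refine ⟨Q, hQm, ?_⟩
  apply (Fld A N).val.toRingHom.injective
  rw [map_zero, Polynomial.hom_eval₂, ← hP0, ← hQ, Polynomial.eval₂_map]
  rfl

/-- Every residual function integral over `k[j]` lifts to the chart. -/
theorem exists_chart₀_lift (hA : A.LiesOverPrime q) (hqM : ¬ q ∣ M) (b : Bool) (c : RFld A M)
    (hc : IsIntegral (Algebra.adjoin (Res A) {jResCoord A M b}) c) :
    ∃ g : F₀ A M, g ∈ chart A (jCoord A M b) ∧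
      ((g : LaurentSeries (AlgebraicClosure ℚ)) ∈ GaussInt A) ∧
      red A (g : LaurentSeries (AlgebraicClosure ℚ)) = (c : ResSer A) := by
  haveI := isAlgClosed_res A
  haveI : CharP (IsLocalRing.ResidueField A) q := FlatModel.BModular.charP_residue hA
  set G := Igusa.x0GoodReduction hqM hA with hG
  haveI := G.isFunctionFieldOne
  haveI := G.isFunctionFieldOne_special
  -- the coordinate upstairs
  obtain ⟨hjV, hjφ⟩ := Igusa.x0GoodReduction_φ_coeffMap hqM hA (jqModC A)
    (by rw [coeffMap_jqModC, ← Igusa.coe_jBar' M]; exact (Igusa.jBar M).2)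
  set jV : G.V := ⟨_, hjV⟩ with hjVdef
  have hjV' : ((jV : modularFunctionFieldBar M) : LaurentSeries (AlgebraicClosure ℚ)) =
      jqModC (AlgebraicClosure ℚ) := coeffMap_jqModC _
  have hjR : G.φ jV = jRes A M := Subtype.ext (hjφ.trans (coeffMap_jqModC _))
  have hj0 : G.φ jV ≠ 0 := by
    rw [hjR]
    intro h
    exact Igusa.transcendental_jqModC (Res A) (by
      rw [show jqModC (Res A) = 0 from congrArg Subtype.val h]; exact isAlgebraic_zero)
  have hju : IsUnit jV := by
    by_contra hu
    exact hj0 (RingHom.mem_ker.1 (by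
      rw [IsLocalRing.eq_maximalIdeal (RingHom.ker_isMaximal_of_surjective G.φ G.φ_surjective)]
      exact hu))
  obtain ⟨u, hu⟩ := hju
  have hgal : ∀ σ : AlgebraicClosure ℚ ≃ₐ[ℚ] AlgebraicClosure ℚ, SemilinearAut.toRingAut (arithmeticGalois (modularFunctionFieldFull M) σ)
      (jV : modularFunctionFieldBar M) = jV := fun σ => Subtype.ext (by
    show coeffMap _ ((jV : modularFunctionFieldBar M) : LaurentSeries (AlgebraicClosure ℚ)) = _
    rw [hjV', coeffMap_jqModC])
  obtain ⟨Tv, hTφ, hTgal, hTcoe⟩ : ∃ Tv : G.V, G.φ Tv = jResCoord A M b ∧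
      (∀ σ : AlgebraicClosure ℚ ≃ₐ[ℚ] AlgebraicClosure ℚ, SemilinearAut.toRingAut (arithmeticGalois (modularFunctionFieldFull M) σ)
        (Tv : modularFunctionFieldBar M) = Tv) ∧
      ((Tv : modularFunctionFieldBar M) : LaurentSeries (AlgebraicClosure ℚ)) =
        ((jCoord A M b : Fld A M) : LaurentSeries (AlgebraicClosure ℚ)) := by
    cases b with
    | false => exact ⟨jV, hjR, hgal, hjV'⟩
    | true =>
      have hinv : ((↑u⁻¹ : G.V) : modularFunctionFieldBar M) = (jV : modularFunctionFieldBar M)⁻¹ :=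
        eq_inv_of_mul_eq_one_left (by
          rw [← hu, ← MulMemClass.coe_mul, Units.inv_mul]; rfl)
      refine ⟨(↑u⁻¹ : G.V), ?_, fun σ => ?_, ?_⟩
      · refine eq_inv_of_mul_eq_one_left ?_
        rw [← hjR, ← hu, ← map_mul, Units.inv_mul, map_one]
      · rw [hinv, map_inv₀, hgal σ]
      · rw [hinv]
        show ((jV : modularFunctionFieldBar M) : LaurentSeries (AlgebraicClosure ℚ))⁻¹ = _
        rw [hjV']
        rfl
  -- a large multiple of the pole divisor
  have hTtr : Transcendental (Res A) (G.φ Tv) := by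
    have h : Transcendental (Res A) (jRes A M) := fun h =>
      Igusa.transcendental_jqModC (Res A) (h.algHom (RFld A M).val)
    rw [hTφ]
    cases b with
    | false => exact h
    | true => exact fun h' => h (by simpa [jResCoord] using h'.inv)
  have hTQ : Transcendental (AlgebraicClosure ℚ) (Tv : modularFunctionFieldBar M) := fun h => by
    have h' := h.algHom (modularFunctionFieldBar M).val
    rw [IntermediateField.coe_val, hTcoe] at h'
    cases b with
    | false => exact Igusa.transcendental_jqModC _ h'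
    | true =>
      refine Igusa.transcendental_jqModC (AlgebraicClosure ℚ) ?_
      have h'' := h'.inv
      simpa [jCoord, jElt] using h''
  have hT0 : (Tv : modularFunctionFieldBar M) ≠ 0 := fun h0 => hTQ (by rw [h0]; exact isAlgebraic_zero)
  set D₀ := Curve.poleDivisor (AlgebraicClosure ℚ) (Tv : modularFunctionFieldBar M) with hD₀
  have hD₀0 : 0 ≤ D₀ := Finsupp.le_def.2 fun v => by simp [D₀]
  have hdeg0 : 0 < Divisor.degree D₀ := by
    rw [hD₀, Curve.degree_poleDivisor hTQ]
    exact_mod_cast Curve.finrank_adjoin_pos hTQ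
  have hinv : ∀ σ : AlgebraicClosure ℚ ≃ₐ[ℚ] AlgebraicClosure ℚ, arithmeticGalois (modularFunctionFieldFull M) σ • D₀ = D₀ := by
    intro σ
    ext P
    rw [SemilinearAut.divisor_smul_apply, hD₀, Curve.poleDivisor_apply, Curve.poleDivisor_apply]
    congr 2
    have h := SemilinearAut.ord_smul (arithmeticGalois (modularFunctionFieldFull M) σ)
      ((arithmeticGalois (modularFunctionFieldFull M) σ)⁻¹ • P) (Tv : modularFunctionFieldBar M)
    rw [smul_inv_smul, SemilinearAut.smul_def] at h
    rw [← h, hTgal σ]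
  obtain ⟨a₀, ha₀⟩ := Curve.ModelAux.exists_mem_L_poleDivisor
    (x := G.φ Tv) (f := c) (by rw [hTφ]; exact hc)
  set m : ℕ := max a₀ (2 * genusFF (AlgebraicClosure ℚ) (modularFunctionFieldBar M)) with hm
  have hdeg : 2 * (genusFF (AlgebraicClosure ℚ) (modularFunctionFieldBar M) : ℤ) - 1 ≤
      Divisor.degree ((m : ℤ) • D₀) := by
    rw [map_zsmul, smul_eq_mul]
    have h1 : (2 * genusFF (AlgebraicClosure ℚ) (modularFunctionFieldBar M) : ℕ) ≤ m :=
      le_max_right _ _
    have h2 : (2 * (genusFF (AlgebraicClosure ℚ) (modularFunctionFieldBar M) : ℤ)) ≤ (m : ℤ) := by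
      exact_mod_cast h1
    nlinarith
  obtain ⟨ι, _, Λ, hΛ⟩ := FlatModel.BModular.exists_fixed_lat G
    (Igusa.x0GoodReduction_π hqM hA) (Igusa.x0GoodReduction_φ_coeffMap hqM hA) hA ((m : ℤ) • D₀)
    (fun σ => by
      rw [show arithmeticGalois (modularFunctionFieldFull M) σ • ((m : ℤ) • D₀) =
        (m : ℤ) • arithmeticGalois (modularFunctionFieldFull M) σ • D₀ from smul_comm _ _ _, hinv])
    hdeg
  have hpole : Curve.poleDivisor (Res A) (G.φ Tv) ≤ G.divMap D₀ :=
    (Curve.RedAux.poleDivisor_le_iff (by simpa using G.divMap_mono hD₀0)).2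
      (G.φ_mem_riemannRochSpace Tv ((Curve.RedAux.poleDivisor_le_iff hD₀0).1 le_rfl))
  have hcL : c ∈ Submodule.span (Res A) (Set.range fun i => G.φ (Λ.e i)) := by
    rw [Λ.spanb]
    refine Curve.RedAux.L_mono ?_ (ha₀ m (le_max_left _ _))
    rw [map_zsmul]
    exact zsmul_le_zsmul_right (Int.natCast_nonneg m) hpole
  obtain ⟨a, ha⟩ := (Submodule.mem_span_range_iff_exists_fun _).1 hcL
  choose z hz hzfix using fun i => FlatModel.JacBase.exists_lift_fixed (ℓ := q) hA (a i)
  set f : G.V := ∑ i, ⟨algebraMap _ (modularFunctionFieldBar M) (z i : AlgebraicClosure ℚ),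
    (G.mem_V_iff _).2 (z i).2⟩ * Λ.e i with hf
  have hfφ : G.φ f = c := by
    rw [hf, map_sum, ← ha]
    refine Finset.sum_congr rfl fun i _ => ?_
    rw [map_mul, G.φ_algebraMap, Igusa.x0GoodReduction_π, hz, Algebra.smul_def]
  have hfcoe : (f : modularFunctionFieldBar M) = ∑ i,
      (z i : AlgebraicClosure ℚ) • (Λ.e i : modularFunctionFieldBar M) := by
    rw [hf, AddSubmonoidClass.coe_finsetSum]
    refine Finset.sum_congr rfl fun i _ => ?_
    rw [MulMemClass.coe_mul, Algebra.smul_def]
  have hfL : (f : modularFunctionFieldBar M) ∈ riemannRochSpace ((m : ℤ) • D₀) := by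
    rw [hfcoe]
    exact Submodule.sum_mem _ fun i _ => Submodule.smul_mem _ _ (Λ.mem i)
  have hint := ((Curve.ModelAux.mem_L_poleDivisor_iff hT0 m).1 hfL).1
  have hmem : ((f : modularFunctionFieldBar M) : LaurentSeries (AlgebraicClosure ℚ)) ∈ Fld A M := by
    rw [hfcoe, AddSubmonoidClass.coe_finsetSum]
    refine sum_mem fun i _ => ?_
    rw [Algebra.smul_def, MulMemClass.coe_mul]
    refine mul_mem ?_ (mem_fld_of_isRat fun σ => congrArg Subtype.val (hΛ σ i))
    exact (Fld A M).algebraMap_mem (⟨(z i : AlgebraicClosure ℚ),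
      (IntermediateField.mem_fixedField_iff _ _).2 (hzfix i)⟩ : inertiaField A)
  obtain ⟨u₀, v₀, hv₀, huv, hu₀, hv₀'⟩ := Igusa.x0GoodReduction_exists_quotient hqM hA f
  have hgauss : ((f : modularFunctionFieldBar M) : LaurentSeries (AlgebraicClosure ℚ)) ∈
      GaussInt A := ⟨u₀, v₀, hv₀, huv⟩
  refine ⟨⟨_, hmem⟩, mem_chart₀_of hA hqM b _ (isIntegral_fld_of_series _ _ ?_) hgauss, hgauss, ?_⟩
  · rw [← hTcoe]
    obtain ⟨p, hp, hp0⟩ := hint
    have hmapT : ∀ x ∈ Algebra.adjoin (AlgebraicClosure ℚ)
        ({(Tv : modularFunctionFieldBar M)} : Set (modularFunctionFieldBar M)),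
        ((x : modularFunctionFieldBar M) : LaurentSeries (AlgebraicClosure ℚ)) ∈
          Algebra.adjoin (AlgebraicClosure ℚ)
            ({((Tv : modularFunctionFieldBar M) : LaurentSeries (AlgebraicClosure ℚ))} :
              Set (LaurentSeries (AlgebraicClosure ℚ))) := fun x hx => by
      have h : (modularFunctionFieldBar M).val x ∈ (Algebra.adjoin (AlgebraicClosure ℚ)
          ({(Tv : modularFunctionFieldBar M)} : Set (modularFunctionFieldBar M))).map
            (modularFunctionFieldBar M).val := ⟨x, hx, rfl⟩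
      rwa [AlgHom.map_adjoin, Set.image_singleton] at h
    let κ : Algebra.adjoin (AlgebraicClosure ℚ)
        ({(Tv : modularFunctionFieldBar M)} : Set (modularFunctionFieldBar M)) →+*
        Algebra.adjoin (AlgebraicClosure ℚ)
          ({((Tv : modularFunctionFieldBar M) : LaurentSeries (AlgebraicClosure ℚ))} :
            Set (LaurentSeries (AlgebraicClosure ℚ))) :=
      { toFun := fun x => ⟨_, hmapT x x.2⟩
        map_one' := rfl
        map_zero' := rfl
        map_add' := fun _ _ => rfl
        map_mul' := fun _ _ => rfl }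
    refine ⟨p.map κ, hp.map κ, ?_⟩
    have h := congrArg (modularFunctionFieldBar M).val.toRingHom hp0
    rw [map_zero, Polynomial.hom_eval₂] at h
    rw [Polynomial.eval₂_map]
    exact h
  · obtain ⟨huV, huφ⟩ := Igusa.x0GoodReduction_φ_coeffMap hqM hA u₀ hu₀
    obtain ⟨hvV, hvφ⟩ := Igusa.x0GoodReduction_φ_coeffMap hqM hA v₀ hv₀'
    have hprod : f * ⟨_, hvV⟩ = (⟨_, huV⟩ : G.V) := Subtype.ext (Subtype.ext huv)
    have h : ((G.φ (f * ⟨_, hvV⟩) : RFld A M) : ResSer A) = coeffMap (IsLocalRing.residue A) u₀ :=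
      (congrArg (fun x => ((G.φ x : RFld A M) : ResSer A)) hprod).trans huφ
    have h2 : (c : ResSer A) * coeffMap (IsLocalRing.residue A) v₀ =
        coeffMap (IsLocalRing.residue A) u₀ := by
      rw [← h, map_mul, hfφ]
      exact (congrArg (fun x => (c : ResSer A) * x) hvφ).symm
    simp only [red]
    rw [dif_pos hgauss]
    refine (gaussRedFun_eq (⟨_, hgauss⟩ : gaussSubring A (IsLocalRing.residue A)) hv₀ huv).trans ?_
    rw [← h2, mul_div_cancel_right₀ _ hv₀]

end Fermat.Agent.Carayol.Reg

end
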