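/-
Theorem of Carayol at `q ^ 2 ∥ M`: ring-theoretic facts about the charts.
-/
import Fermat.Agent.Carayol.MainTower
import Fermat.Agent.Carayol.MainGaussVal
import Fermat.Agent.Curve.BasicModular
import Fermat.Agent.Gamma0.PsiIdentity
import Mathlib.RingTheory.Polynomial.UniqueFactorization
import Mathlib.RingTheory.DedekindDomain.IntegralClosure
import Mathlib.RingTheory.Valuation.LocalSubring
import Mathlib.FieldTheory.IntermediateField.Adjoin.Basic

set_option autoImplicit false
set_option linter.style.haveILetI false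

noncomputable section

namespace Fermat.Agent.Carayol.Reg

set_option synthInstance.maxHeartbeats 400000
set_option maxHeartbeats 1000000

open ModularCurve IntermediateField Polynomial

section Abstract

variable {K F : Type} [Field K] [Field F] [Algebra K F]

/-- The polynomials in `T` with coefficients in `O`. -/
def polyRing (O : Subring K) (T : F) : Subring F :=
  O.map (algebraMap K F) ⊔ Subring.closure {T}

theorem range_eval_eq_polyRing (O : Subring K) (T : F) :
    (eval₂RingHom ((algebraMap K F).comp O.subtype) T).range = polyRing O T := by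
  refine le_antisymm ?_ (sup_le ?_ ?_)
  · rintro _ ⟨P, rfl⟩
    induction P using Polynomial.induction_on' with
    | add a b ha hb => rw [map_add]; exact add_mem ha hb
    | monomial n c =>
      simp only [coe_eval₂RingHom, eval₂_monomial]
      exact mul_mem ((le_sup_left : _ ≤ polyRing O T) ⟨c, c.2, rfl⟩)
        (pow_mem ((le_sup_right : _ ≤ polyRing O T) (Subring.subset_closure rfl)) n)
  · rintro _ ⟨c, hc, rfl⟩
    exact ⟨C ⟨c, hc⟩, by simp⟩
  · rw [Subring.closure_le, Set.singleton_subset_iff]
    exact ⟨X, by simp⟩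

theorem eval_injective (O : Subring K) {T : F} (hT : Transcendental K T) :
    Function.Injective (eval₂RingHom ((algebraMap K F).comp O.subtype) T) := by
  intro P Q h
  refine Polynomial.map_injective O.subtype Subtype.val_injective ?_
  refine transcendental_iff_injective.1 hT ?_
  rw [aeval_def, aeval_def, eval₂_map, eval₂_map]
  exact h

/-- Elements integral over `O[T]` form a finite module over it. -/
theorem exists_span_of_isIntegral [CharZero K] (O : ValuationSubring K) [IsPrincipalIdealRing O]
    (T : F) (hT : Transcendental K T)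
    [FiniteDimensional (IntermediateField.adjoin K {T}) F] :
    letI : Algebra (polyRing O.toSubring T) F := (polyRing O.toSubring T).subtype.toAlgebra
    ∃ S : Finset F, (∀ s ∈ S, IsIntegral (polyRing O.toSubring T) s) ∧
      ∀ x : F, IsIntegral (polyRing O.toSubring T) x →
        x ∈ Submodule.span (polyRing O.toSubring T) (S : Set F) := by
  classical
  set B := polyRing O.toSubring T
  letI : Algebra B F := B.subtype.toAlgebra
  set φ := eval₂RingHom ((algebraMap K F).comp O.toSubring.subtype) T
  have hrange : φ.range = B := range_eval_eq_polyRing O.toSubring T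
  have hinj : Function.Injective φ := eval_injective O.toSubring hT
  let e : O[X] ≃+* B := (RingEquiv.ofBijective φ.rangeRestrict
    ⟨fun a b h => hinj (congrArg Subtype.val h), φ.rangeRestrict_surjective⟩).trans
      (RingEquiv.subringCongr hrange)
  haveI : IsNoetherianRing B := isNoetherianRing_of_ringEquiv O[X] e
  haveI : IsIntegrallyClosed O[X] := inferInstance
  haveI : IsIntegrallyClosed B := IsIntegrallyClosed.of_equiv e
  set L := IntermediateField.adjoin K {T}
  have hBL : ∀ b : B, (b : F) ∈ L := by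
    rintro ⟨b, hb⟩
    have hle : B ≤ L.toSubfield.toSubring := by
      refine sup_le ?_ ?_
      · rintro _ ⟨c, -, rfl⟩; exact L.algebraMap_mem c
      · rw [Subring.closure_le, Set.singleton_subset_iff]
        exact IntermediateField.mem_adjoin_simple_self K T
    exact hle hb
  letI : Algebra B L := ((B.subtype).codRestrict L.toSubfield.toSubring hBL).toAlgebra
  haveI : IsScalarTower B L F := IsScalarTower.of_algebraMap_eq fun b => rfl
  haveI : FaithfulSMul B L := (faithfulSMul_iff_algebraMap_injective B L).2 fun a b h =>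
    Subtype.ext (congrArg (fun z : L => (z : F)) h)
  haveI : IsFractionRing B L := IsFractionRing.of_field _ _ fun z => by
    obtain ⟨r, s, hrs⟩ := (IntermediateField.mem_adjoin_simple_iff K (z : F)).1 z.2
    have hint : ∀ P : K[X], ∃ (d : O) (Q : O[X]), d ≠ 0 ∧
        φ Q = algebraMap K F (d : K) * aeval T P := fun P => by
      obtain ⟨d, hd0, hd⟩ := IsLocalization.integerNormalization_spec (nonZeroDivisors O) P
      refine ⟨d, IsLocalization.integerNormalization (nonZeroDivisors O) P,
        nonZeroDivisors.ne_zero hd0, ?_⟩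
      have h := congrArg (aeval T) hd
      rw [← algebraMap_smul K d P, map_smul, Algebra.smul_def, aeval_def, eval₂_map] at h
      exact h
    obtain ⟨d, R, hd, hR⟩ := hint r
    obtain ⟨d', S, hd', hS⟩ := hint s
    refine ⟨e (C d' * R), e (C d * S), ?_⟩
    apply Subtype.ext
    rw [IntermediateField.coe_div]
    show (z : F) = φ (C d' * R) / φ (C d * S)
    have hC : ∀ a : O, φ (C a) = algebraMap K F (a : K) := fun a => eval₂_C _ _
    have hne : ∀ {a : O}, a ≠ 0 → algebraMap K F (a : K) ≠ 0 := fun {a} ha => by simpa using ha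
    rw [map_mul, map_mul, hC, hC, hR, hS, hrs, mul_left_comm (algebraMap K F (d' : K)),
      mul_div_mul_left _ _ (hne hd), mul_div_mul_left _ _ (hne hd')]
  haveI : CharZero L := charZero_of_injective_algebraMap (algebraMap K L).injective
  haveI : Algebra.IsSeparable L F := inferInstance
  haveI : Module.Finite B (integralClosure B F) := IsIntegralClosure.finite B L F (integralClosure B F)
  obtain ⟨S, hS⟩ := (Module.Finite.fg_top : (⊤ : Submodule B (integralClosure B F)).FG)
  refine ⟨S.image Subtype.val, fun s hs => ?_, fun x hx => ?_⟩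
  · obtain ⟨t, -, rfl⟩ := Finset.mem_image.1 hs
    exact t.2
  · have h : (⟨x, hx⟩ : integralClosure B F) ∈ Submodule.span B (S : Set (integralClosure B F)) := by
      rw [hS]; trivial
    have h2 := Submodule.apply_mem_span_image_of_mem_span
      ((integralClosure B F).val.toLinearMap) h
    rw [Finset.coe_image]
    exact h2

/-- A function integral over `O[T]` becomes integral over `O[T⁻¹]` after multiplication by a
power of `T⁻¹`. -/
theorem exists_isIntegral_mul_pow (O : Subring K) {T : F} (hT0 : T ≠ 0) {x : F}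
    (hx : ∃ P : Polynomial F, P.Monic ∧ (∀ i, P.coeff i ∈ polyRing O T) ∧ P.eval x = 0) :
    ∃ (k : ℕ) (P : Polynomial F), P.Monic ∧ (∀ i, P.coeff i ∈ polyRing O T⁻¹) ∧
      P.eval (x * T⁻¹ ^ k) = 0 := by
  obtain ⟨P, hP, hcoeff, hroot⟩ := hx
  have hlift : ∀ c ∈ polyRing O T, ∃ D : ℕ, ∀ k, D ≤ k → c * T⁻¹ ^ k ∈ polyRing O T⁻¹ := by
    intro c hc
    rw [← range_eval_eq_polyRing] at hc
    obtain ⟨Q, rfl⟩ := hc
    refine ⟨Q.natDegree, fun k hk => ?_⟩
    rw [coe_eval₂RingHom, eval₂_eq_sum_range, Finset.sum_mul]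
    refine sum_mem fun i hi => ?_
    rw [Finset.mem_range] at hi
    rw [mul_assoc, show T ^ i * T⁻¹ ^ k = T⁻¹ ^ (k - i) by
      conv_lhs => rw [show k = (k - i) + i by omega, pow_add, mul_left_comm, ← mul_pow,
        mul_inv_cancel₀ hT0, one_pow, mul_one]]
    exact mul_mem ((le_sup_left : _ ≤ polyRing O T⁻¹) ⟨_, (Q.coeff i).2, rfl⟩)
      (pow_mem ((le_sup_right : _ ≤ polyRing O T⁻¹) (Subring.subset_closure rfl)) _)
  choose D hD using fun i : ℕ => hlift _ (hcoeff i)
  let k := (Finset.range (P.natDegree + 1)).sup D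
  refine ⟨k, P.scaleRoots (T⁻¹ ^ k), (Polynomial.monic_scaleRoots_iff _).2 hP, fun i => ?_, ?_⟩
  · rw [Polynomial.coeff_scaleRoots]
    rcases lt_trichotomy i P.natDegree with h | h | h
    · rw [← pow_mul]
      refine hD i _ ((Finset.le_sup (f := D) (s := Finset.range (P.natDegree + 1))
        (Finset.mem_range.2 (by omega))).trans ?_)
      exact Nat.le_mul_of_pos_right _ (by omega)
    · subst h
      rw [hP.coeff_natDegree, Nat.sub_self, pow_zero, mul_one]
      exact one_mem _
    · rw [Polynomial.coeff_eq_zero_of_natDegree_lt h, zero_mul]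
      exact zero_mem _
  · rw [mul_comm x]
    exact Polynomial.scaleRoots_eval₂_eq_zero (RingHom.id F) hroot

end Abstract

variable (A : ValuationSubring (AlgebraicClosure ℚ))

variable {A}

theorem chartBase_eq_polyRing {N : ℕ} (T : Fld A N) :
    chartBase A T = polyRing (inertiaInt A).toSubring T := rfl

theorem mem_chart_iff {N : ℕ} (T x : Fld A N) :
    x ∈ chart A T ↔
      ∃ P : Polynomial (Fld A N), P.Monic ∧ (∀ i, P.coeff i ∈ chartBase A T) ∧ P.eval x = 0 := by
  letI : Algebra (chartBase A T) (Fld A N) := (chartBase A T).subtype.toAlgebra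
  show IsIntegral (chartBase A T) x ↔ _
  constructor
  · rintro ⟨P, hP, h⟩
    exact ⟨P.map (chartBase A T).subtype, hP.map _, fun i => by
      rw [coeff_map]; exact (P.coeff i).2, by rw [eval_map]; exact h⟩
  · rintro ⟨P, hP, hc, h⟩
    have hl : P ∈ lifts (chartBase A T).subtype := (lifts_iff_coeff_lifts P).2 fun i => ⟨⟨_, hc i⟩, rfl⟩
    obtain ⟨Q, hQ, -, hQm⟩ := lifts_and_degree_eq_and_monic hl hP
    exact ⟨Q, hQm, by rw [← hQ, eval_map] at h; exact h⟩

theorem chartBase_le_chart {N : ℕ} (T : Fld A N) : chartBase A T ≤ chart A T := fun x hx => by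
  letI : Algebra (chartBase A T) (Fld A N) := (chartBase A T).subtype.toAlgebra
  exact isIntegral_algebraMap (R := chartBase A T) (x := ⟨x, hx⟩)

theorem constInt_le_chart {N : ℕ} (T : Fld A N) : constInt A N ≤ chart A T :=
  le_sup_left.trans (chartBase_le_chart T)

theorem self_mem_chart {N : ℕ} (T : Fld A N) : T ∈ chart A T :=
  chartBase_le_chart T ((le_sup_right : _ ≤ chartBase A T) (Subring.subset_closure rfl))

theorem isPrincipalIdealRing_inertiaInt {q : ℕ} [Fact q.Prime] (hA : A.LiesOverPrime q) :
    IsPrincipalIdealRing (inertiaInt A) := by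
  classical
  have hq0 : (q : inertiaField A) ≠ 0 := Nat.cast_ne_zero.2 (Fact.out : q.Prime).ne_zero
  have hqA : A.valuation (q : AlgebraicClosure ℚ) < 1 := valuation_q_lt hA
  have hv : ∀ x : inertiaInt A, x ≠ 0 → ∃ m : ℕ,
      A.valuation ((x : inertiaField A) : AlgebraicClosure ℚ) =
        A.valuation (q : AlgebraicClosure ℚ) ^ m := by
    intro x hx
    obtain ⟨m, hm⟩ := valuation_inertiaField (q := q) hA (x : inertiaField A).2
      (fun h => hx (Subtype.ext (Subtype.ext h)))
    have hle : A.valuation ((x : inertiaField A) : AlgebraicClosure ℚ) ≤ 1 :=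
      (A.valuation_le_one_iff _).2 x.2
    rw [hm] at hle
    obtain ⟨m, rfl⟩ := Int.eq_ofNat_of_zero_le (by
      by_contra hneg
      push Not at hneg
      exact (not_lt.2 hle) (one_lt_zpow_of_neg₀ (valuation_q_pos hA) hqA hneg) : 0 ≤ m)
    exact ⟨m, by rw [hm, zpow_natCast]⟩
  refine ⟨fun I => ?_⟩
  by_cases hI : I = ⊥
  · exact ⟨0, by rw [hI, Ideal.submodule_span_eq, Ideal.span_singleton_eq_bot.2 rfl]⟩
  obtain ⟨x₀, hx₀I, hx₀⟩ := Submodule.exists_mem_ne_zero_of_ne_bot hI
  have hex : ∃ m : ℕ, ∃ x ∈ I, A.valuation ((x : inertiaField A) : AlgebraicClosure ℚ) =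
      A.valuation (q : AlgebraicClosure ℚ) ^ m := ⟨_, x₀, hx₀I, (hv x₀ hx₀).choose_spec⟩
  obtain ⟨g, hgI, hg⟩ := Nat.find_spec hex
  refine ⟨g, le_antisymm (fun y hy => ?_) ((Ideal.span_singleton_le_iff_mem I).2 hgI)⟩
  rw [Ideal.submodule_span_eq, Ideal.mem_span_singleton']
  by_cases hy0 : y = 0
  · exact ⟨0, by rw [hy0, zero_mul]⟩
  obtain ⟨m, hm⟩ := hv y hy0
  have hle : Nat.find hex ≤ m := Nat.find_le ⟨y, hy, hm⟩
  have hg0 : ((g : inertiaField A) : AlgebraicClosure ℚ) ≠ 0 := fun h => by
    rw [h, map_zero] at hg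
    exact (pow_ne_zero _ (valuation_q_pos hA).ne') hg.symm
  have hmem : (y : inertiaField A) / (g : inertiaField A) ∈ inertiaInt A := by
    show algebraMap (inertiaField A) (AlgebraicClosure ℚ) _ ∈ A
    rw [map_div₀, ← A.valuation_le_one_iff, map_div₀]
    show A.valuation ((y : inertiaField A) : AlgebraicClosure ℚ) /
      A.valuation ((g : inertiaField A) : AlgebraicClosure ℚ) ≤ 1
    rw [hm, hg, div_le_one₀ (pow_pos (valuation_q_pos hA) _)]
    exact pow_le_pow_of_le_one zero_le hqA.le hle
  exact ⟨⟨_, hmem⟩, Subtype.ext (div_mul_cancel₀ _ fun h => hg0 (congrArg Subtype.val h))⟩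

theorem isNoetherianRing_constInt {q : ℕ} [Fact q.Prime] (hA : A.LiesOverPrime q) (N : ℕ) :
    IsNoetherianRing (constInt A N) := by
  haveI := isPrincipalIdealRing_inertiaInt hA
  let φ : inertiaInt A →+* constInt A N :=
    ((algebraMap (inertiaField A) (Fld A N)).comp (inertiaInt A).toSubring.subtype).codRestrict _
      fun c => ⟨c, c.2, rfl⟩
  exact isNoetherianRing_of_surjective (inertiaInt A) _ φ fun ⟨y, c, hc, hcy⟩ =>
    ⟨⟨c, hc⟩, Subtype.ext hcy⟩

theorem mem_chart_of_pow_mem {N : ℕ} (T : Fld A N) (n : ℕ) (hn : 0 < n) (x : Fld A N)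
    (hx : x ^ n ∈ chart A T) : x ∈ chart A T := by
  letI : Algebra (chartBase A T) (Fld A N) := (chartBase A T).subtype.toAlgebra
  exact IsIntegral.of_pow hn hx

theorem jElt_transcendental (N : ℕ) : Transcendental (inertiaField A) (jElt A N) := by
  have h : Transcendental (inertiaField A) (jqModC (AlgebraicClosure ℚ)) := fun h =>
    Fermat.Agent.Curve.transcendental_jqModC' (AlgebraicClosure ℚ) (IsAlgebraic.extendScalars (algebraMap (inertiaField A) (AlgebraicClosure ℚ)).injective h)
  intro h'
  exact h (h'.algHom (Fld A N).val)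

theorem jElt_ne_zero (N : ℕ) : jElt A N ≠ 0 := fun h =>
  jElt_transcendental N (h ▸ isAlgebraic_zero)

theorem jCoord_mul (N : ℕ) : jCoord A N false * jCoord A N true = 1 :=
  mul_inv_cancel₀ (jElt_ne_zero N)

theorem transcendental_jCoord (N : ℕ) (b : Bool) :
    Transcendental (inertiaField A) (jCoord A N b) := by
  cases b
  · exact jElt_transcendental N
  · exact fun h => jElt_transcendental N (IsAlgebraic.inv_iff.1 h)

theorem adjoin_jCoord (N : ℕ) (b : Bool) :
    IntermediateField.adjoin (inertiaField A) {jCoord A N b} =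
      IntermediateField.adjoin (inertiaField A) {jElt A N} := by
  cases b
  · rfl
  refine le_antisymm (IntermediateField.adjoin_simple_le_iff.2 ?_)
    (IntermediateField.adjoin_simple_le_iff.2 ?_)
  · exact inv_mem (IntermediateField.mem_adjoin_simple_self _ _)
  · rw [← inv_inv (jElt A N)]
    exact inv_mem (IntermediateField.mem_adjoin_simple_self _ _)

theorem finiteDimensional_jCoord (N : ℕ) [NeZero N] (b : Bool) :
    FiniteDimensional (IntermediateField.adjoin (inertiaField A) {jCoord A N b}) (Fld A N) := by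
  rw [adjoin_jCoord]
  apply Module.finite_of_finrank_pos
  rw [finrank_fld]
  exact Nat.pos_of_ne_zero (Fermat.Agent.Gamma0.dedekindPsi_ne_zero (NeZero.ne N))

theorem exists_span_chart {q : ℕ} [Fact q.Prime] (hA : A.LiesOverPrime q) (N : ℕ) [NeZero N]
    (b : Bool) :
    ∃ S : Finset (Fld A N), (∀ s ∈ S, s ∈ chart A (jCoord A N b)) ∧
      ∀ x ∈ chart A (jCoord A N b), x ∈ Submodule.span (constInt A N)
        {y | ∃ k : ℕ, ∃ s ∈ S, y = jCoord A N b ^ k * s} := by
  haveI := isPrincipalIdealRing_inertiaInt hA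
  haveI := finiteDimensional_jCoord (A := A) N b
  set T := jCoord A N b
  letI : Algebra (polyRing (inertiaInt A).toSubring T) (Fld A N) :=
    (polyRing (inertiaInt A).toSubring T).subtype.toAlgebra
  obtain ⟨S, hS, hspan⟩ := exists_span_of_isIntegral (inertiaInt A) T (transcendental_jCoord N b)
  refine ⟨S, fun s hs => hS s hs, fun x hx => ?_⟩
  have h := hspan x hx
  set Msp := Submodule.span (constInt A N) {y | ∃ k : ℕ, ∃ s ∈ S, y = T ^ k * s}
  have hTmul : ∀ (k : ℕ), ∀ y ∈ Msp, T ^ k * y ∈ Msp := by
    intro k y hy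
    induction hy using Submodule.span_induction with
    | mem y hy =>
      obtain ⟨i, s, hs, rfl⟩ := hy
      exact Submodule.subset_span ⟨k + i, s, hs, by rw [pow_add, mul_assoc]⟩
    | zero => rw [mul_zero]; exact zero_mem _
    | add a b _ _ ha hb => rw [mul_add]; exact add_mem ha hb
    | smul c y _ hy =>
      rw [mul_smul_comm]
      exact Submodule.smul_mem _ c hy
  clear hx
  induction h using Submodule.span_induction with
  | mem y hy => exact Submodule.subset_span ⟨0, y, hy, by rw [pow_zero, one_mul]⟩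
  | zero => exact zero_mem _
  | add a b _ _ ha hb => exact add_mem ha hb
  | smul c y _ hy =>
    obtain ⟨c, hc⟩ := c
    show c * y ∈ Msp
    rw [← range_eval_eq_polyRing] at hc
    obtain ⟨Q, rfl⟩ := hc
    rw [coe_eval₂RingHom, eval₂_eq_sum_range, Finset.sum_mul]
    refine sum_mem fun i _ => ?_
    rw [mul_assoc]
    exact Msp.smul_mem (⟨_, (Q.coeff i : inertiaField A), (Q.coeff i).2, rfl⟩ : constInt A N)
      (hTmul i y hy)

theorem isNoetherianRing_polyRing {K F : Type} [Field K] [Field F] [Algebra K F] (O : Subring K)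
    [IsNoetherianRing O] (T : F) : IsNoetherianRing (polyRing O T) := by
  rw [← range_eval_eq_polyRing]
  exact isNoetherianRing_range _

theorem isNoetherianRing_chart {q : ℕ} [Fact q.Prime] (hA : A.LiesOverPrime q) (N : ℕ) [NeZero N]
    (b : Bool) : IsNoetherianRing (chart A (jCoord A N b)) := by
  haveI := isPrincipalIdealRing_inertiaInt hA
  haveI := finiteDimensional_jCoord (A := A) N b
  set T := jCoord A N b
  haveI : IsNoetherianRing (inertiaInt A).toSubring :=
    (inferInstance : IsNoetherianRing (inertiaInt A))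
  set B := polyRing (inertiaInt A).toSubring T
  haveI : IsNoetherianRing B := isNoetherianRing_polyRing (inertiaInt A).toSubring T
  letI : Algebra B (Fld A N) := B.subtype.toAlgebra
  obtain ⟨S, hS, hspan⟩ := exists_span_of_isIntegral (inertiaInt A) T (transcendental_jCoord N b)
  have hfg : (Subalgebra.toSubmodule (integralClosure B (Fld A N))).FG :=
    ⟨S, le_antisymm (Submodule.span_le.2 fun s hs => hS s hs) fun x hx => hspan x hx⟩
  haveI : Module.Finite B (integralClosure B (Fld A N)) := Module.Finite.of_fg hfg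
  change IsNoetherianRing (integralClosure B (Fld A N))
  exact isNoetherianRing_iff.2
    (isNoetherian_of_tower B (inferInstance : IsNoetherian B (integralClosure B (Fld A N))))

theorem jCoord_inv (N : ℕ) (b : Bool) : (jCoord A N b)⁻¹ = jCoord A N (!b) := by
  cases b
  · rfl
  · exact inv_inv _

theorem jCoord_ne_zero (N : ℕ) (b : Bool) : jCoord A N b ≠ 0 := by
  cases b
  · exact jElt_ne_zero N
  · exact inv_ne_zero (jElt_ne_zero N)

theorem exists_mul_pow_mem_chart (N : ℕ) [NeZero N] (b : Bool) (x : Fld A N)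
    (hx : x ∈ chart A (jCoord A N b)) :
    ∃ k : ℕ, x * jCoord A N (!b) ^ k ∈ chart A (jCoord A N (!b)) := by
  obtain ⟨k, hk⟩ := exists_isIntegral_mul_pow (inertiaInt A).toSubring (jCoord_ne_zero N b)
    ((mem_chart_iff _ _).1 hx)
  rw [jCoord_inv] at hk
  exact ⟨k, (mem_chart_iff _ _).2 hk⟩

theorem exists_eq_algebraMap_of_mem_both (N : ℕ) [NeZero N] (x : Fld A N)
    (h₀ : x ∈ chart A (jCoord A N false)) (h₁ : x ∈ chart A (jCoord A N true)) :
    x ∈ (algebraMap (inertiaField A) (Fld A N)).fieldRange := by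
  -- every valuation ring over the constants contains one of the two coordinates
  have hV : x ∈ ⨅ V : {V : ValuationSubring (Fld A N) //
      Set.range (algebraMap (inertiaField A) (Fld A N)) ⊆ V.toSubring}, V.1.toSubring := by
    refine Subring.mem_iInf.2 fun ⟨V, hV⟩ => ?_
    obtain ⟨b, hb⟩ : ∃ b, jCoord A N b ∈ V := (V.mem_or_inv_mem (jElt A N)).elim
      (fun h => ⟨false, h⟩) (fun h => ⟨true, h⟩)
    have hx : x ∈ chart A (jCoord A N b) := by cases b; exacts [h₀, h₁]
    obtain ⟨P, hP, hc, hroot⟩ := (mem_chart_iff _ _).1 hx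
    have hle : chartBase A (jCoord A N b) ≤ V.toSubring := sup_le
      (by rintro _ ⟨c, -, rfl⟩; exact hV ⟨c, rfl⟩)
      (by rw [Subring.closure_le, Set.singleton_subset_iff]; exact hb)
    have hl : P ∈ lifts V.toSubring.subtype :=
      (lifts_iff_coeff_lifts P).2 fun i => ⟨⟨_, hle (hc i)⟩, rfl⟩
    obtain ⟨Q, hQ, -, hQm⟩ := lifts_and_degree_eq_and_monic hl hP
    obtain ⟨y, hy⟩ := IsIntegrallyClosed.isIntegral_iff.1
      (⟨Q, hQm, by rw [← hQ, eval_map] at hroot; exact hroot⟩ : IsIntegral V x)
    exact hy ▸ y.2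
  rw [iInf_valuationSubring_superset] at hV
  have hint : IsIntegral (inertiaField A) x := by
    obtain ⟨P, hP, hroot⟩ := (hV : IsIntegral _ x)
    have hrange : Subring.closure (Set.range (algebraMap (inertiaField A) (Fld A N))) ≤
        (algebraMap (inertiaField A) (Fld A N)).range := Subring.closure_le.2 fun y hy => hy
    have hl : P.map (Subring.closure _).subtype ∈ lifts (algebraMap (inertiaField A) (Fld A N)) :=
      (lifts_iff_coeff_lifts _).2 fun i => by
        rw [coeff_map]; exact hrange (P.coeff i).2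
    obtain ⟨Q, hQ, -, hQm⟩ := lifts_and_degree_eq_and_monic hl (hP.map _)
    refine ⟨Q, hQm, ?_⟩
    rw [← eval_map, hQ, eval_map]
    exact hroot
  -- a Laurent series algebraic over the constants is constant
  have hser : IsIntegral (AlgebraicClosure ℚ) (x : LaurentSeries (AlgebraicClosure ℚ)) := by
    obtain ⟨Q, hQm, hQ⟩ := hint
    refine ⟨Q.map (algebraMap (inertiaField A) (AlgebraicClosure ℚ)), hQm.map _, ?_⟩
    have h := congrArg (Fld A N).val hQ
    rw [map_zero, ← aeval_def, ← aeval_algHom_apply, aeval_def] at h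
    rw [eval₂_map]
    exact h
  obtain ⟨c, hc⟩ : (x : LaurentSeries (AlgebraicClosure ℚ)) ∈
      (algebraMap (AlgebraicClosure ℚ) (LaurentSeries (AlgebraicClosure ℚ))).range :=
    minpoly.mem_range_of_degree_eq_one _ _ (IsAlgClosed.degree_eq_one_of_irreducible _
      (minpoly.irreducible hser))
  have hcK : c ∈ inertiaField A := by
    have h := coeff_mem_inertiaField A x 0
    rw [← hc] at h
    simpa [HahnSeries.algebraMap_apply', HahnSeries.C_apply] using h
  exact ⟨⟨c, hcK⟩, Subtype.ext hc⟩

end Fermat.Agent.Carayol.Reg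

end
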