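/-
Theorem of Carayol, descent to the inertia field: the places over the inertia field lift to places
over
`ℚ̄` with the same orders (constant extensions in characteristic zero are unramified).

A uniformiser `t` below stays a uniformiser above: modulo every power of the maximal ideal an
integral function below is a polynomial in `t` over `ℚ̄`, since with the residue `r` of `u` and
`P` its minimal polynomial over the constants `P (u)` is divisible by `t` below and
`P (X) / (X - r)` is a unit at `u`.
-/
import Fermat.Agent.Carayol.MainDescentSeries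
import Fermat.Agent.Curve.ConstExtBasic
import Fermat.Agent.Curve.BasicFunctionField
import Mathlib.Algebra.Ring.GeomSum
import Mathlib.FieldTheory.Separable

set_option autoImplicit false
set_option linter.style.haveILetI false

noncomputable section

namespace Fermat.Agent.Carayol.Reg

open ModularCurve AlgebraicCurve

local notation "ℚbar" => AlgebraicClosure ℚ

section Lift

variable {K F L E : Type*} [Field K] [Field F] [Field L] [Field E] [Algebra K F] [Algebra L E]
  [Algebra K L]

/-- A place above, with orders multiplied by a positive integer. -/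
theorem exists_place_above_mul [Curve.IsFunctionFieldOne L E] (B : F →+* E)
    (hB : ∀ a : K, B (algebraMap K F a) = algebraMap L E (algebraMap K L a))
    (hL : ∀ a : L, IsIntegral K a)
    (v : Place K F) {π : F} (hπ : v.ord π = 1) (hπt : Transcendental L (B π)) :
    ∃ w : Place L E, 0 < w.ord (B π) ∧
      ∀ g : F, g ≠ 0 → w.ord (B g) = v.ord g * w.ord (B π) := by
  have hπ0 : π ≠ 0 := by rintro rfl; simp at hπ
  set S : Subring E := v.toValuationSubring.toSubring.map B
  have hπS : B π ∈ S := ⟨π, Curve.mem_of_ord_nonneg v (by omega), rfl⟩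
  have hI : Ideal.span {(⟨B π, hπS⟩ : S)} ≠ ⊤ := by
    rw [ne_eq, Ideal.span_singleton_eq_top, isUnit_iff_exists_inv]
    rintro ⟨⟨_, b, hb, rfl⟩, h⟩
    have h' : B (π * b) = B 1 := by rw [map_mul, map_one]; exact congrArg Subtype.val h
    have hb1 := B.injective h'
    have hb0 : b ≠ 0 := by rintro rfl; simp at hb1
    have h2 := congrArg v.ord hb1
    rw [v.ord_mul hπ0 hb0, hπ, Place.ord_one] at h2
    have := Curve.ord_nonneg_of_mem v hb
    omega
  obtain ⟨V, hSV, hVn⟩ := Ideal.image_subset_nonunits_valuationSubring _ hI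
  have htV : B π ∈ V.nonunits := hVn ⟨⟨B π, hπS⟩, Ideal.subset_span rfl, rfl⟩
  have hmemV : ∀ g : F, g ∈ v.toValuationSubring → B g ∈ V := fun g hg => hSV ⟨g, hg, rfl⟩
  have hconst : ∀ a : L, algebraMap L E a ∈ V := by
    intro a
    obtain ⟨p, hp, hpa⟩ := hL a
    let iK : K →+* V := (B.comp (algebraMap K F)).codRestrict V.toSubring
      fun x => hmemV _ (v.algebraMap_mem' x)
    have hint : IsIntegral V (algebraMap L E a) := by
      refine ⟨p.map iK, hp.map _, ?_⟩
      rw [Polynomial.eval₂_map, show (algebraMap V E).comp iK =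
        (algebraMap L E).comp (algebraMap K L) from RingHom.ext hB, ← Polynomial.hom_eval₂, hpa,
        map_zero]
    obtain ⟨y, hy⟩ := IsIntegrallyClosed.isIntegral_iff.mp hint
    exact hy ▸ y.2
  have hBπ0 : B π ≠ 0 := (map_ne_zero B).mpr hπ0
  have htinv : (B π)⁻¹ ∉ V := ((V.mem_nonunits_iff_or).mp htV).resolve_left hBπ0
  let w : Place L E :=
    { toValuationSubring := V
      algebraMap_mem' := hconst
      ne_top' := fun h => htinv (h ▸ ValuationSubring.mem_top _)
      isPrincipalIdealRing' := Curve.isPrincipalIdealRing_of_mem_nonunits hπt V hconst htV }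
  have hunit : ∀ g : F, g ≠ 0 → v.ord g = 0 → w.ord (B g) = 0 := by
    intro g hg h0
    have h1 := Curve.ord_nonneg_of_mem w (hmemV g (Curve.mem_of_ord_nonneg v (le_of_eq h0.symm)))
    have h2 := Curve.ord_nonneg_of_mem w
      (hmemV g⁻¹ (Curve.mem_of_ord_nonneg v (by rw [v.ord_inv, h0, neg_zero])))
    rw [map_inv₀, w.ord_inv] at h2
    omega
  refine ⟨w, ?_, fun g hg => ?_⟩
  · by_contra h
    exact htinv (Curve.mem_of_ord_nonneg w (f := (B π)⁻¹) (by rw [w.ord_inv]; omega))
  · have hne : g * π ^ (-v.ord g) ≠ 0 := mul_ne_zero hg (zpow_ne_zero _ hπ0)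
    have h := hunit _ hne (by rw [v.ord_mul hg (zpow_ne_zero _ hπ0), v.ord_zpow, hπ]; ring)
    rw [map_mul, map_zpow₀, w.ord_mul ((map_ne_zero B).mpr hg) (zpow_ne_zero _ hBπ0),
      w.ord_zpow] at h
    linarith

variable [IsAlgClosed L] [IsCurveOver L E]

/-- A uniformiser below stays a uniformiser above. -/
theorem ord_eq_one_of_spanned (B : F →+* E)
    (hB : ∀ a : K, B (algebraMap K F a) = algebraMap L E (algebraMap K L a))
    (hL : ∀ a : L, IsIntegral K a) [CharZero K]
    (hspan : ∀ y : E, ∃ (n : ℕ) (c : Fin n → L) (u : Fin n → F),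
      y = ∑ i, algebraMap L E (c i) * B (u i))
    (v : Place K F) {π : F} (hπ : v.ord π = 1) (w : Place L E) (he : 0 < w.ord (B π))
    (hw : ∀ g : F, g ≠ 0 → w.ord (B g) = v.ord g * w.ord (B π)) : w.ord (B π) = 1 := by
  classical
  set e := w.ord (B π) with hedef
  have hπ0 : π ≠ 0 := by rintro rfl; simp at hπ
  set O := w.toValuationSubring
  have hmemO : ∀ g : F, 0 ≤ v.ord g → B g ∈ O := fun g hg => by
    rcases eq_or_ne g 0 with rfl | hg0
    · rw [map_zero]; exact zero_mem _
    · exact Curve.mem_of_ord_nonneg w (by rw [hw g hg0]; exact mul_nonneg hg he.le)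
  set t : O := ⟨B π, hmemO π (by omega)⟩ with ht
  obtain ⟨ϖ, hϖ⟩ := IsDiscreteValuationRing.exists_irreducible O
  have hord_mem : ∀ (k : ℕ) (x : O), x ∈ Ideal.span {ϖ ^ k} → (x : E) ≠ 0 → (k : ℤ) ≤ w.ord x := by
    intro k x hx hx0
    obtain ⟨c, rfl⟩ := Ideal.mem_span_singleton'.mp hx
    rw [MulMemClass.coe_mul] at hx0 ⊢
    rw [w.ord_mul (left_ne_zero_of_mul hx0) (right_ne_zero_of_mul hx0), SubmonoidClass.coe_pow,
      Curve.ord_pow, w.ord_coe_irreducible hϖ]
    have := Curve.ord_nonneg_of_mem w c.2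
    omega
  have hmem_of_ord : ∀ x : O, ((x : E) ≠ 0 → 0 < w.ord x) → x ∈ Ideal.span {ϖ} := by
    intro x hx
    rcases eq_or_ne (x : E) 0 with h0 | h0
    · rw [show x = 0 from Subtype.ext h0]; exact zero_mem _
    rw [← (IsDiscreteValuationRing.irreducible_iff_uniformizer ϖ).mp hϖ,
      IsLocalRing.mem_maximalIdeal, mem_nonunits_iff]
    rintro ⟨u, rfl⟩
    have := hx h0
    have h1 := Curve.ord_nonneg_of_mem w ((↑u⁻¹ : O)).2
    have hinv : ((u : O) : E) * ((↑u⁻¹ : O) : E) = 1 := congrArg Subtype.val u.mul_inv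
    have h2 := congrArg w.ord hinv
    rw [w.ord_mul h0 (right_ne_zero_of_mul_eq_one hinv), Place.ord_one] at h2
    omega
  have htm : t ∈ Ideal.span {ϖ} := hmem_of_ord t fun _ => he
  let S : ℕ → Subalgebra L O := fun k =>
    ((Algebra.adjoin L {t}).map (Ideal.Quotient.mkₐ L (Ideal.span {ϖ ^ k}))).comap
      (Ideal.Quotient.mkₐ L (Ideal.span {ϖ ^ k}))
  have hS : ∀ (k : ℕ) (y : O), y ∈ S k ↔
      ∃ s ∈ Algebra.adjoin L {t}, y - s ∈ Ideal.span {ϖ ^ k} := fun k y => by
    simp only [S, Subalgebra.mem_comap, Subalgebra.mem_map, Ideal.Quotient.mkₐ_eq_mk]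
    exact exists_congr fun s => and_congr_right fun _ =>
      ⟨fun h => (Ideal.Quotient.eq).mp h.symm, fun h => ((Ideal.Quotient.eq).mpr h).symm⟩
  have hmul : ∀ (k : ℕ) {a b : O}, a ∈ Ideal.span {ϖ} → b ∈ Ideal.span {ϖ ^ k} →
      a * b ∈ Ideal.span {ϖ ^ (k + 1)} := fun k a b ha hb => by
    have h := Ideal.mul_mem_mul ha hb
    rwa [Ideal.span_singleton_mul_span_singleton, ← pow_succ'] at h
  have key : ∀ (k : ℕ) (g : F) (hg : 0 ≤ v.ord g), (⟨B g, hmemO g hg⟩ : O) ∈ S k := by
    intro k
    induction k with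
    | zero =>
      intro g hg
      exact (hS 0 _).mpr ⟨0, zero_mem _, by rw [pow_zero, Ideal.span_singleton_one]; trivial⟩
    | succ k ih =>
      intro g hg
      set y : O := ⟨B g, hmemO g hg⟩ with hy
      set r := Curve.constResidue w y with hr
      set P := minpoly K r
      have hPr : (P.map (algebraMap K L)).eval r = 0 := by
        rw [Polynomial.eval_map]; exact minpoly.aeval K r
      obtain ⟨R, hR⟩ := Polynomial.dvd_iff_isRoot.mpr hPr
      have hRr : R.eval r ≠ 0 := by
        have hsep : (P.map (algebraMap K L)).Separable :=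
          ((minpoly.irreducible (hL r)).separable).map
        have h := hsep.eval₂_derivative_ne_zero (f := RingHom.id L) (x := r)
          (by simpa [Polynomial.eval₂_id] using hPr)
        rw [Polynomial.eval₂_id, hR] at h
        simpa [Polynomial.derivative_mul] using h
      -- the value `P (g)`
      have hPg : 0 ≤ v.ord (Polynomial.aeval g P) := Curve.ord_nonneg_of_mem v (by
        rw [Polynomial.aeval_eq_sum_range]
        refine sum_mem fun i _ => ?_
        rw [Algebra.smul_def]
        exact mul_mem (v.algebraMap_mem' _) (pow_mem (Curve.mem_of_ord_nonneg v hg) _))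
      have hBP : B (Polynomial.aeval g P) = ((Polynomial.aeval y (P.map (algebraMap K L)) : O) : E) := by
        rw [Polynomial.aeval_def, Polynomial.hom_eval₂,
          show B.comp (algebraMap K F) = (algebraMap L E).comp (algebraMap K L) from RingHom.ext hB,
          ← Polynomial.eval₂_map]
        exact (Polynomial.aeval_algHom_apply
          ({ O.subtype with commutes' := fun _ => rfl } : O →ₐ[L] E) y _)
      obtain ⟨b, hb, hbP⟩ : ∃ b : F, 0 ≤ v.ord b ∧ Polynomial.aeval g P = π * b := by
        refine ⟨Polynomial.aeval g P / π, ?_, by rw [mul_div_cancel₀ _ hπ0]⟩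
        rcases eq_or_ne (Polynomial.aeval g P) 0 with h0 | h0
        · simp [h0]
        rw [Curve.ord_div v h0 hπ0, hπ]
        by_contra hlt
        have hz : v.ord (Polynomial.aeval g P) = 0 := by omega
        have hunit : Curve.constResidue w (Polynomial.aeval y (P.map (algebraMap K L))) ≠ 0 := by
          rw [Curve.constResidue_ne_zero_iff]
          have hne : ((Polynomial.aeval y (P.map (algebraMap K L)) : O) : E) ≠ 0 := by
            rw [← hBP]; exact (map_ne_zero B).mpr h0
          have hord : w.ord ((Polynomial.aeval y (P.map (algebraMap K L)) : O) : E) = 0 := by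
            rw [← hBP, hw _ h0, hz, zero_mul]
          refine isUnit_iff_exists_inv.mpr ⟨⟨_, Curve.mem_of_ord_nonneg w (f := _⁻¹)
            (by rw [w.ord_inv, hord, neg_zero])⟩, Subtype.ext (mul_inv_cancel₀ hne)⟩
        rw [← Polynomial.aeval_algHom_apply] at hunit
        exact hunit (by simpa [Polynomial.coe_aeval_eq_eval, ← hr] using hPr)
      set bO : O := ⟨B b, hmemO b hb⟩
      set RO : O := Polynomial.aeval y R
      set rO : O := algebraMap L O r
      have hprod : (y - rO) * RO = t * bO := by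
        have h := congrArg (fun p : Polynomial L => Polynomial.aeval y p) hR
        simp only [map_mul, map_sub, Polynomial.aeval_X, Polynomial.aeval_C] at h
        rw [← h]
        refine Subtype.ext ?_
        rw [← hBP, hbP, map_mul]
        rfl
      -- an inverse of `R (g)` modulo `ϖ ^ k`
      set c := R.eval r
      have hc : Curve.constResidue w RO = c := by
        rw [← Polynomial.aeval_algHom_apply, ← hr, Polynomial.coe_aeval_eq_eval]
      have hz : 1 - algebraMap L O c⁻¹ * RO ∈ Ideal.span {ϖ} := by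
        refine hmem_of_ord _ fun h0 => ?_
        by_contra hle
        have hnn := Curve.ord_nonneg_of_mem w (1 - algebraMap L O c⁻¹ * RO).2
        have hres : Curve.constResidue w (1 - algebraMap L O c⁻¹ * RO) ≠ 0 := by
          rw [Curve.constResidue_ne_zero_iff]
          exact isUnit_iff_exists_inv.mpr ⟨⟨_, Curve.mem_of_ord_nonneg w (f := _⁻¹)
            (by rw [w.ord_inv]; omega)⟩, Subtype.ext (mul_inv_cancel₀ h0)⟩
        exact hres (by rw [map_sub, map_one, map_mul, Curve.constResidue_algebraMap, hc,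
          inv_mul_cancel₀ hRr, sub_self])
      set z := 1 - algebraMap L O c⁻¹ * RO with hzdef
      have hyS : y ∈ S k := ih g hg
      have hRS : RO ∈ S k := by
        show Polynomial.aeval y R ∈ S k
        rw [Polynomial.aeval_eq_sum_range]
        exact sum_mem fun i _ => Subalgebra.smul_mem _ (pow_mem hyS i) _
      have hzS : z ∈ S k := sub_mem (one_mem _) (mul_mem ((S k).algebraMap_mem _) hRS)
      set x := algebraMap L O c⁻¹ * ∑ i ∈ Finset.range k, z ^ i
      have hx : RO * x = 1 - z ^ k := by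
        rw [← mul_neg_geom_sum z k]
        show RO * (algebraMap L O c⁻¹ * _) = _
        rw [← mul_assoc, mul_comm RO]
        congr 1
        rw [hzdef, sub_sub_cancel]
      have hbxS : bO * x ∈ S k :=
        mul_mem (ih b hb) (mul_mem ((S k).algebraMap_mem _)
          (sum_mem fun i _ => pow_mem hzS i))
      obtain ⟨s, hs, hsk⟩ := (hS k _).mp hbxS
      refine (hS (k + 1) _).mpr ⟨rO + t * s,
        add_mem (Subalgebra.algebraMap_mem _ _) (mul_mem (Algebra.self_mem_adjoin_singleton L t) hs), ?_⟩
      have hd : y - rO ∈ Ideal.span {ϖ} := by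
        refine hmem_of_ord _ fun h0 => ?_
        by_contra hle
        have hnn := Curve.ord_nonneg_of_mem w (y - rO).2
        have hres : Curve.constResidue w (y - rO) ≠ 0 := by
          rw [Curve.constResidue_ne_zero_iff]
          exact isUnit_iff_exists_inv.mpr ⟨⟨_, Curve.mem_of_ord_nonneg w (f := _⁻¹)
            (by rw [w.ord_inv]; omega)⟩, Subtype.ext (mul_inv_cancel₀ h0)⟩
        exact hres (by rw [map_sub, Curve.constResidue_algebraMap, ← hr, sub_self])
      have hsplit : y - (rO + t * s) = t * (bO * x - s) + (y - rO) * z ^ k := by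
        linear_combination -(y - rO) * hx + x * hprod
      rw [hsplit]
      refine add_mem (hmul k htm hsk) (hmul k hd ?_)
      rw [← Ideal.span_singleton_pow]
      exact Ideal.pow_mem_pow hz k
  -- an element of order one
  obtain ⟨y, hy0, hy1⟩ := Curve.exists_ord_eq w 1
  obtain ⟨n, c, u, hyu⟩ := hspan y
  obtain ⟨N, hN⟩ : ∃ N : ℕ, ∀ i, 0 ≤ v.ord (π ^ N * u i) := by
    refine ⟨∑ i, (-v.ord (u i)).toNat, fun i => ?_⟩
    rcases eq_or_ne (u i) 0 with h0 | h0
    · simp [h0]
    rw [v.ord_mul (pow_ne_zero _ hπ0) h0, Curve.ord_pow, hπ]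
    have : (-v.ord (u i)).toNat ≤ ∑ j, (-v.ord (u j)).toNat :=
      Finset.single_le_sum (f := fun j => (-v.ord (u j)).toNat) (fun j _ => Nat.zero_le _)
        (Finset.mem_univ i)
    omega
  have hBπ0 : B π ≠ 0 := (map_ne_zero B).mpr hπ0
  have hordY : w.ord (B π ^ N * y) = N * e + 1 := by
    rw [w.ord_mul (pow_ne_zero _ hBπ0) hy0, Curve.ord_pow, hy1]
  set M := (N * e + 1).toNat with hM
  have hMe : (M : ℤ) = N * e + 1 := Int.toNat_of_nonneg (by positivity)
  set Y : O := ∑ i, algebraMap L O (c i) * ⟨B (π ^ N * u i), hmemO _ (hN i)⟩ with hYdef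
  have hY : (Y : E) = B π ^ N * y := by
    rw [hYdef, hyu, Finset.mul_sum, AddSubmonoidClass.coe_finsetSum]
    refine Finset.sum_congr rfl fun i _ => ?_
    rw [MulMemClass.coe_mul, Place.coe_algebraMap]
    show _ * B (π ^ N * u i) = _
    rw [map_mul, map_pow]
    ring
  have hYS : Y ∈ S (M + 1) :=
    sum_mem fun i _ => mul_mem (Subalgebra.algebraMap_mem _ _) (key _ _ (hN i))
  obtain ⟨s, hs, hsk⟩ := (hS _ _).mp hYS
  obtain ⟨p, rfl⟩ := (AlgHom.mem_range _).mp ((Algebra.adjoin_singleton_eq_range_aeval L t).le hs)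
  have hval : ((Polynomial.aeval t p : O) : E) = Polynomial.aeval (B π) p :=
    (Polynomial.aeval_algHom_apply ({ O.subtype with commutes' := fun _ => rfl } : O →ₐ[L] E) t p).symm
  have hYord : w.ord (Y : E) = M := by rw [hY, hordY, hMe]
  have hdiff : ((Y - Polynomial.aeval t p : O) : E) ≠ 0 →
      (M : ℤ) < w.ord ((Y - Polynomial.aeval t p : O) : E) := fun h => by
    have := hord_mem _ _ hsk h
    rw [Nat.cast_add, Nat.cast_one] at this
    omega
  have hpne : Polynomial.aeval (B π) p ≠ 0 ∧ w.ord (Polynomial.aeval (B π) p) = M := by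
    rw [← hval]
    have hadd : ((Polynomial.aeval t p : O) : E) =
        (Y : E) + -((Y - Polynomial.aeval t p : O) : E) := by
      rw [AddSubgroupClass.coe_sub]; ring
    have hY0 : (Y : E) ≠ 0 := by rw [hY]; exact mul_ne_zero (pow_ne_zero _ hBπ0) hy0
    have hlt : -((Y - Polynomial.aeval t p : O) : E) ≠ 0 →
        w.ord (Y : E) < w.ord (-((Y - Polynomial.aeval t p : O) : E)) := fun h => by
      rw [Curve.ord_neg, hYord]; exact hdiff (neg_ne_zero.mp h)
    have hord := Curve.ord_add_eq_left w hY0 hlt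
    rw [← hadd, hYord] at hord
    refine ⟨fun h0 => ?_, hord⟩
    rw [h0, Place.ord_zero] at hord
    have : (0 : ℤ) < M := by rw [hMe]; positivity
    omega
  obtain ⟨hp0, hpord⟩ := hpne
  have hpn : p ≠ 0 := fun h => hp0 (by rw [h, map_zero])
  obtain ⟨q, hq, hXq⟩ := p.exists_eq_pow_rootMultiplicity_mul_and_not_dvd hpn (0 : L)
  rw [Polynomial.C_0, sub_zero] at hq hXq
  have hq0 : q.coeff 0 ≠ 0 := fun h => hXq (Polynomial.X_dvd_iff.mpr h)
  rw [hq, map_mul, map_pow, Polynomial.aeval_X, w.ord_mul (pow_ne_zero _ hBπ0)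
    (fun h => hp0 (by rw [hq, map_mul, h, mul_zero])), Curve.ord_pow,
    (Curve.ord_aeval_eq_zero w he hq0).1, add_zero, hMe, ← hedef] at hpord
  have hdvd : e ∣ 1 := ⟨(p.rootMultiplicity 0 : ℤ) - N, by linarith⟩
  exact le_antisymm (Int.le_of_dvd one_pos hdvd) he

end Lift

variable {A : ValuationSubring (AlgebraicClosure ℚ)} {N : ℕ} [NeZero N]

/-- Every place over the inertia field lifts to a place over `ℚ̄` with the same orders. -/
theorem exists_place_lift (v : Place (inertiaField A) (Fld A N)) :
    ∃ w : Place ℚbar (modularFunctionFieldBar N),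
      ∀ g : Fld A N, g ≠ 0 → w.ord (barHom A N g) = v.ord g := by
  obtain ⟨π, hπ0, hπ⟩ := Curve.exists_ord_eq v 1
  have hL : ∀ a : ℚbar, IsIntegral (inertiaField A) a := fun a =>
    ((Algebra.IsAlgebraic.isAlgebraic (R := ℚ) a).isIntegral).tower_top
  have ht : Transcendental ℚbar (barHom A N π) := by
    intro halg
    obtain ⟨c, hc⟩ := minpoly.natDegree_eq_one_iff.mp
      (Polynomial.natDegree_eq_of_degree_eq_some
        (IsAlgClosed.degree_eq_one_of_irreducible ℚbar (minpoly.irreducible halg.isIntegral)))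
    have hc' : algebraMap ℚbar (LaurentSeries ℚbar) c = (π : LaurentSeries ℚbar) := by
      rw [← coe_barHom A N π, ← coe_algebraMap_bar (N := N)]
      exact congrArg Subtype.val hc
    have hcK : c ∈ inertiaField A := by
      have h := coeff_mem_inertiaField_of_mem π.2 0
      rwa [← hc', algebraMap_laurentSeries_eq_single, HahnSeries.coeff_single_same] at h
    have hπc : π = algebraMap (inertiaField A) (Fld A N) ⟨c, hcK⟩ :=
      (barHom A N).injective (Subtype.ext (by
        rw [barHom_algebraMap, coe_algebraMap_bar, coe_barHom, hc']))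
    rw [hπc, Curve.ord_algebraMap] at hπ
    exact zero_ne_one hπ
  obtain ⟨w, he, hw⟩ := exists_place_above_mul (barHom A N) (barHom_algebraMap A N) hL v hπ ht
  have h1 := ord_eq_one_of_spanned (barHom A N) (barHom_algebraMap A N) hL (fun y => by
    obtain ⟨n, c, u, hu⟩ := exists_sum_fld_eq (A := A) y.2
    refine ⟨n, c, u, Subtype.ext ?_⟩
    rw [hu, AddSubmonoidClass.coe_finsetSum]
    exact Finset.sum_congr rfl fun i _ => by
      rw [MulMemClass.coe_mul, coe_algebraMap_bar, coe_barHom]) v hπ w he hw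
  exact ⟨w, fun g hg => by rw [hw g hg, h1, mul_one]⟩

end Fermat.Agent.Carayol.Reg

end
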