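/-
Theorem of Carayol, descent to the inertia field: the fields `Fld A N` inside the arithmetic
function
fields over `ℚ̄`: constants, fixed series, linear independence and norms.
-/
import Fermat.Agent.Carayol.MainSetup
import Fermat.Agent.Flat.BModularRational
import Fermat.Agent.Curve.BasicModular
import Fermat.Agent.Galois.QbarInstances
import Mathlib.FieldTheory.Galois.Infinite
import Mathlib.LinearAlgebra.Basis.VectorSpace
import Mathlib.RingTheory.Norm.Basic

set_option autoImplicit false
set_option linter.style.haveILetI false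

noncomputable section

namespace Fermat.Agent.Carayol.Reg

open ModularCurve AlgebraicCurve IntermediateField

local notation "ℚbar" => AlgebraicClosure ℚ
local notation "Ser" => LaurentSeries (AlgebraicClosure ℚ)
local notation "Γℚ" => AlgebraicClosure ℚ ≃ₐ[ℚ] AlgebraicClosure ℚ

section Incl

variable {K₁ K₂ E : Type*} [Field K₁] [Field K₂] [Field E] [Algebra K₁ E] [Algebra K₂ E]

/-- The inclusion of intermediate fields over different ground fields. -/
def inclHom (S : IntermediateField K₁ E) (T : IntermediateField K₂ E) (h : ∀ x ∈ S, x ∈ T) :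
    S →+* T :=
  RingHom.codRestrict S.val.toRingHom T fun g => h g g.2

theorem coe_inclHom (S : IntermediateField K₁ E) (T : IntermediateField K₂ E)
    (h : ∀ x ∈ S, x ∈ T) (g : S) : (inclHom S T h g : E) = (g : E) := rfl

end Incl

variable (A : ValuationSubring (AlgebraicClosure ℚ))

theorem coeff_algebraMap_mul_ser (c : inertiaField A) (x : Ser) (n : ℤ) :
    (algebraMap (inertiaField A) Ser c * x).coeff n = (c : ℚbar) * x.coeff n := by
  rw [IsScalarTower.algebraMap_apply (inertiaField A) ℚbar Ser,
    algebraMap_laurentSeries_eq_single, HahnSeries.coeff_single_zero_mul]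
  rfl

theorem coeff_algebraMap_ser (c : inertiaField A) (n : ℤ) :
    (algebraMap (inertiaField A) Ser c).coeff n = if n = 0 then (c : ℚbar) else 0 := by
  rw [IsScalarTower.algebraMap_apply (inertiaField A) ℚbar Ser,
    algebraMap_laurentSeries_eq_single, HahnSeries.coeff_single]
  split_ifs <;> rfl

variable {A} {N : ℕ}

theorem algebraMap_mem_bar (c : inertiaField A) :
    algebraMap (inertiaField A) Ser c ∈ modularFunctionFieldBar N := by
  rw [IsScalarTower.algebraMap_apply (inertiaField A) ℚbar Ser]
  exact IntermediateField.algebraMap_mem _ _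

theorem fld_le_bar {x : Ser} (hx : x ∈ Fld A N) : x ∈ modularFunctionFieldBar N := by
  induction hx using IntermediateField.adjoin_induction with
  | mem y hy =>
    obtain ⟨d, hne, hd, rfl⟩ := hy
    have h := coeffEmb_mem_laurentBaseChange ℚbar (jqd_mem_full N hd)
    rwa [coeffEmb, coeffMap_qExpand, ← jqModC_rat, coeffMap_jqModC] at h
  | algebraMap c => exact algebraMap_mem_bar c
  | add a b _ _ ha hb => exact add_mem ha hb
  | inv a _ ha => exact inv_mem ha
  | mul a b _ _ ha hb => exact mul_mem ha hb

theorem coeffEmb_mem_fld {y : LaurentSeries ℚ} (hy : y ∈ modularFunctionFieldFull N) :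
    coeffEmb ℚbar y ∈ Fld A N := by
  induction hy using IntermediateField.adjoin_induction with
  | mem y hy =>
    obtain ⟨d, hne, hd, rfl⟩ := hy
    rw [coeffEmb, coeffMap_qExpand, ← jqModC_rat, coeffMap_jqModC]
    exact jd_mem_fld hd
  | algebraMap c =>
    have h : coeffEmb ℚbar (algebraMap ℚ (LaurentSeries ℚ) c) =
        algebraMap (inertiaField A) Ser (algebraMap ℚ (inertiaField A) c) := by
      ext k
      rw [coeffEmb_coeff, coeff_algebraMap_ser, algebraMap_apply_eq_single]
      simp only [HahnSeries.coeff_single]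
      split_ifs <;> simp
    rw [h]
    exact IntermediateField.algebraMap_mem _ _
  | add a b _ _ ha hb => rw [map_add]; exact add_mem ha hb
  | inv a _ ha => rw [map_inv₀]; exact inv_mem ha
  | mul a b _ _ ha hb => rw [map_mul]; exact mul_mem ha hb

variable (A N)

theorem coe_algebraMap_bar {N : ℕ} (c : ℚbar) :
    ((algebraMap ℚbar (modularFunctionFieldBar N) c : modularFunctionFieldBar N) : Ser) =
      algebraMap ℚbar Ser c :=
  IntermediateField.coe_algebraMap_apply _ c

/-- The inclusion into the field over `ℚ̄`. -/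
def barHom : Fld A N →+* modularFunctionFieldBar N :=
  inclHom (Fld A N) (modularFunctionFieldBar N) fun _ hx => fld_le_bar hx

@[simp] theorem coe_barHom (g : Fld A N) : (barHom A N g : Ser) = (g : Ser) :=
  coe_inclHom _ _ _ g

theorem barHom_algebraMap (c : inertiaField A) :
    barHom A N (algebraMap (inertiaField A) (Fld A N) c) =
      algebraMap ℚbar (modularFunctionFieldBar N) (c : ℚbar) :=
  Subtype.ext (by
    rw [coe_barHom, IntermediateField.coe_algebraMap_apply, IntermediateField.coe_algebraMap_apply,
      IsScalarTower.algebraMap_apply (inertiaField A) ℚbar Ser]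
    rfl)

variable {A N}

/-- The field over `ℚ̄` is spanned by the constants and the fixed functions. -/
theorem exists_sum_fld_eq {x : Ser} (hx : x ∈ modularFunctionFieldBar N) :
    ∃ (n : ℕ) (c : Fin n → ℚbar) (u : Fin n → Fld A N),
      x = ∑ i, algebraMap ℚbar Ser (c i) * (u i : Ser) := by
  obtain ⟨n, c, g, hg⟩ := Submodule.mem_span_set'.mp
    (FlatModel.BModular.mem_span_of_mem_baseChange _ hx)
  choose y hy hyg using fun i => (g i).2
  refine ⟨n, c, fun i => ⟨coeffEmb ℚbar (y i), coeffEmb_mem_fld (hy i)⟩, ?_⟩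
  rw [← hg]
  refine Finset.sum_congr rfl fun i _ => ?_
  rw [FlatModel.BModular.smul_eq_algebraMap_mul]
  exact congrArg _ (hyg i).symm

/-- The coefficients of a function of `Fld A N` are fixed by inertia. -/
theorem coeff_mem_inertiaField_of_mem {x : Ser} (hx : x ∈ Fld A N) (n : ℤ) :
    x.coeff n ∈ inertiaField A := by
  rw [IntermediateField.mem_fixedField_iff]
  intro σ hσ
  suffices h : coeffMap (σ : ℚbar →+* ℚbar) x = x by
    conv_rhs => rw [← h]
    rfl
  induction hx using IntermediateField.adjoin_induction with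
  | mem y hy =>
    obtain ⟨d, hne, hd, rfl⟩ := hy
    rw [coeffMap_qExpand, coeffMap_jqModC]
  | algebraMap c =>
    rw [IsScalarTower.algebraMap_apply (inertiaField A) ℚbar Ser, coeffMap_algebraMap]
    exact congrArg _ ((IntermediateField.mem_fixedField_iff _ _).mp c.2 σ hσ)
  | add a b _ _ ha hb => rw [map_add, ha, hb]
  | inv a _ ha => rw [map_inv₀, ha]
  | mul a b _ _ ha hb => rw [map_mul, ha, hb]

/-- A function over `ℚ̄` with coefficients in the inertia field lies in `Fld A N`. -/
theorem mem_fld_of_coeff_mem {x : Ser} (hx : x ∈ modularFunctionFieldBar N)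
    (hc : ∀ n, x.coeff n ∈ inertiaField A) : x ∈ Fld A N := by
  obtain ⟨n, c, u, rfl⟩ := exists_sum_fld_eq (A := A) hx
  obtain ⟨π, hπ⟩ := (Algebra.linearMap (inertiaField A) ℚbar).exists_leftInverse_of_injective
    (LinearMap.ker_eq_bot.mpr (algebraMap (inertiaField A) ℚbar).injective)
  have hπ' : ∀ a : inertiaField A, π (a : ℚbar) = a := fun a => LinearMap.congr_fun hπ a
  have h : (∑ i, algebraMap ℚbar Ser (c i) * (u i : Ser)) =
      ((∑ i, algebraMap (inertiaField A) (Fld A N) (π (c i)) * u i : Fld A N) : Ser) := by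
    rw [AddSubmonoidClass.coe_finsetSum]
    ext k
    have key : ∀ i, π ((algebraMap ℚbar Ser (c i) * (u i : Ser)).coeff k) =
        π (c i) * ⟨(u i : Ser).coeff k, coeff_mem_inertiaField_of_mem (u i).2 k⟩ := fun i => by
      rw [algebraMap_laurentSeries_eq_single, HahnSeries.coeff_single_zero_mul, mul_comm]
      rw [show (u i : Ser).coeff k * c i =
        (⟨(u i : Ser).coeff k, coeff_mem_inertiaField_of_mem (u i).2 k⟩ : inertiaField A) • c i
          from rfl, map_smul, smul_eq_mul, mul_comm]
    have h1 := congrArg Subtype.val (hπ' ⟨_, hc k⟩)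
    simp only [HahnSeries.coeff_sum, map_sum, key] at h1
    rw [HahnSeries.coeff_sum, HahnSeries.coeff_sum, ← h1, AddSubmonoidClass.coe_finsetSum]
    refine Finset.sum_congr rfl fun i _ => ?_
    rw [MulMemClass.coe_mul, MulMemClass.coe_mul]
    exact (coeff_algebraMap_mul_ser A (π (c i)) (u i : Ser) k).symm
  rw [h]
  exact SetLike.coe_mem _

/-- Independent constants are independent over the fixed functions. -/
theorem eq_zero_of_sum_eq_zero {ι : Type*} [Fintype ι] {b : ι → ℚbar}
    (hb : LinearIndependent (inertiaField A) b) (v : ι → Fld A N)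
    (h : ∑ i, algebraMap ℚbar Ser (b i) * (v i : Ser) = 0) (i : ι) : v i = 0 := by
  refine Subtype.ext (HahnSeries.ext (funext fun k => ?_))
  have h1 := congrArg (fun z : Ser => z.coeff k) h
  simp only [HahnSeries.coeff_sum, algebraMap_laurentSeries_eq_single,
    HahnSeries.coeff_single_zero_mul, HahnSeries.coeff_zero] at h1
  have h2 := Fintype.linearIndependent_iff.mp hb
    (fun i => ⟨(v i : Ser).coeff k, coeff_mem_inertiaField_of_mem (v i).2 k⟩)
    (by rw [← h1]; exact Finset.sum_congr rfl fun i _ => by rw [mul_comm]; rfl) i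
  exact congrArg Subtype.val h2

section Norm

variable {E₁ E₂ B₁ B₂ : Type*} [Field E₁] [Field E₂] [Field B₁] [Field B₂] [Algebra E₁ E₂]
  [Algebra B₁ B₂] [FiniteDimensional B₁ B₂] (i₁ : E₁ →+* B₁) (i₂ : E₂ →+* B₂)

/-- Norms commute with an extension of scalars. -/
theorem norm_map_of_linearIndependent
    (hcomm : ∀ a, i₂ (algebraMap E₁ E₂ a) = algebraMap B₁ B₂ (i₁ a))
    (hind : ∀ (n : ℕ) (b : Fin n → E₂), LinearIndependent E₁ b →
      LinearIndependent B₁ fun k => i₂ (b k))
    (hspan : Submodule.span B₁ (Set.range i₂) = ⊤) (f : E₂) :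
    i₁ (Algebra.norm E₁ f) = Algebra.norm B₁ (i₂ f) := by
  classical
  haveI : FiniteDimensional E₁ E₂ := by
    refine Module.rank_lt_aleph0_iff.mp ?_
    refine lt_of_le_of_lt (rank_le (n := Module.finrank B₁ B₂) fun s hs => ?_)
      Cardinal.natCast_lt_aleph0
    have h := (hind _ (fun k => (s.equivFin.symm k : E₂))
      (hs.comp _ s.equivFin.symm.injective)).fintype_card_le_finrank
    simpa using h
  let b := Module.finBasis E₁ E₂
  have hsp : ⊤ ≤ Submodule.span B₁ (Set.range fun k => i₂ (b k)) := by
    rw [← hspan, Submodule.span_le]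
    rintro _ ⟨e, rfl⟩
    rw [← b.sum_repr e, map_sum]
    refine Submodule.sum_mem _ fun k _ => ?_
    rw [Algebra.smul_def, map_mul, hcomm, ← Algebra.smul_def]
    exact Submodule.smul_mem _ _ (Submodule.subset_span ⟨k, rfl⟩)
  let bB := Module.Basis.mk (hind _ b b.linearIndependent) hsp
  have hbB : ∀ k, bB k = i₂ (b k) := fun k => Module.Basis.mk_apply _ _ k
  rw [Algebra.norm_eq_matrix_det b, Algebra.norm_eq_matrix_det bB, RingHom.map_det]
  congr 1
  ext r s
  rw [RingHom.mapMatrix_apply, Matrix.map_apply, Algebra.leftMulMatrix_eq_repr_mul,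
    Algebra.leftMulMatrix_eq_repr_mul, hbB s, ← map_mul]
  conv_rhs => rw [← b.sum_repr (f * b s), map_sum, map_sum]
  simp only [Algebra.smul_def, map_mul, hcomm, ← hbB]
  simp only [← Algebra.smul_def, map_smul, Module.Basis.repr_self, Finsupp.coe_finsetSum,
    Finset.sum_apply, Finsupp.smul_apply, Finsupp.single_apply, smul_eq_mul, mul_ite, mul_one,
    mul_zero, Finset.sum_ite_eq', Finset.mem_univ, if_true]

end Norm

variable {N₁ N₂ : ℕ}

set_option synthInstance.maxHeartbeats 400000 in
/-- The norm along a map of fixed fields is the norm along its extension to `ℚ̄`. -/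
theorem barHom_norm (φ : Fld A N₁ →ₐ[inertiaField A] Fld A N₂)
    (ψ : modularFunctionFieldBar N₁ →ₐ[ℚbar] modularFunctionFieldBar N₂)
    (hψ : FiniteAlong ℚbar ψ) (hcomm : ∀ a, ψ (barHom A N₁ a) = barHom A N₂ (φ a))
    (f : Fld A N₂) :
    barHom A N₁ ((letI := φ.toRingHom.toAlgebra; Algebra.norm (Fld A N₁)) f) =
      (letI := algebraAlong ψ; Algebra.norm (modularFunctionFieldBar N₁)) (barHom A N₂ f) := by
  classical
  letI := φ.toRingHom.toAlgebra
  letI := algebraAlong ψ
  haveI : FiniteDimensional (modularFunctionFieldBar N₁) (modularFunctionFieldBar N₂) := hψ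
  have hψc : ∀ c : ℚbar, ψ (algebraMap ℚbar _ c) = algebraMap ℚbar _ c := ψ.commutes
  refine norm_map_of_linearIndependent (barHom A N₁) (barHom A N₂) (fun a => (hcomm a).symm)
    (fun n b hb => ?_) ?_ f
  · rw [Fintype.linearIndependent_iff]
    intro a ha
    -- expand the coefficients over a common independent family of constants
    choose m c u hu using fun k => exists_sum_fld_eq (A := A) (a k).2
    let T : Finset ℚbar := Finset.univ.biUnion fun k => Finset.univ.image (c k)
    obtain ⟨s, hs, hsT, hsind⟩ :=
      exists_linearIndependent (inertiaField A) (T : Set ℚbar)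
    haveI : Fintype s := (T.finite_toSet.subset hs).fintype
    have hcs : ∀ k i, ∃ r : s → inertiaField A, ∑ l, r l • (l : ℚbar) = c k i := fun k i => by
      refine (Submodule.mem_span_range_iff_exists_fun _).mp ?_
      rw [Subtype.range_coe, hsT]
      exact Submodule.subset_span (Finset.mem_coe.mpr (Finset.mem_biUnion.mpr
        ⟨k, Finset.mem_univ _, Finset.mem_image_of_mem _ (Finset.mem_univ i)⟩))
    choose r hr using hcs
    let w : Fin n → s → Fld A N₁ := fun k l =>
      ∑ i, algebraMap (inertiaField A) (Fld A N₁) (r k i l) * u k i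
    have ha' : ∀ k, a k = ∑ l : s,
        algebraMap ℚbar (modularFunctionFieldBar N₁) (l : ℚbar) * barHom A N₁ (w k l) := fun k => by
      apply Subtype.ext
      rw [hu k, AddSubmonoidClass.coe_finsetSum]
      simp only [MulMemClass.coe_mul, coe_barHom, w, AddSubmonoidClass.coe_finsetSum,
        Finset.mul_sum]
      rw [Finset.sum_comm]
      refine Finset.sum_congr rfl fun i _ => ?_
      rw [← hr k i, map_sum, Finset.sum_mul]
      refine Finset.sum_congr rfl fun l _ => ?_
      rw [Algebra.smul_def, map_mul, IntermediateField.coe_algebraMap_apply,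
        ← IsScalarTower.algebraMap_apply (inertiaField A) ℚbar Ser]
      simp only [IntermediateField.coe_algebraMap_apply]
      ring
    have hkey : ∑ l : s, algebraMap ℚbar Ser (l : ℚbar) *
        ((∑ k, φ (w k l) * b k : Fld A N₂) : Ser) = 0 := by
      have hterm : ∀ k, a k • barHom A N₂ (b k) = ∑ l : s,
          algebraMap ℚbar (modularFunctionFieldBar N₂) (l : ℚbar) *
            barHom A N₂ (φ (w k l) * b k) := fun k => by
        rw [Algebra.smul_def, RingHom.algebraMap_toAlgebra, AlgHom.toRingHom_eq_coe,
          RingHom.coe_coe, ha' k, map_sum, Finset.sum_mul]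
        refine Finset.sum_congr rfl fun l _ => ?_
        rw [map_mul, hψc, hcomm, map_mul (barHom A N₂), mul_assoc]
      have h := congrArg (fun z : modularFunctionFieldBar N₂ => (z : Ser)) ha
      simp only [hterm, ZeroMemClass.coe_zero, AddSubmonoidClass.coe_finsetSum] at h
      rw [← h, Finset.sum_comm]
      refine Finset.sum_congr rfl fun l _ => ?_
      rw [AddSubmonoidClass.coe_finsetSum, Finset.mul_sum]
      refine Finset.sum_congr rfl fun k _ => ?_
      simp only [MulMemClass.coe_mul, coe_barHom, coe_algebraMap_bar]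
    intro k
    have hw : ∀ l, w k l = 0 := fun l => by
      refine Fintype.linearIndependent_iff.mp hb (fun k => w k l) ?_ k
      exact eq_zero_of_sum_eq_zero hsind _ hkey l
    rw [ha' k]
    exact Finset.sum_eq_zero fun l _ => by rw [hw l, map_zero, mul_zero]
  · refine eq_top_iff.mpr fun x _ => ?_
    obtain ⟨n, c, u, hu⟩ := exists_sum_fld_eq (A := A) x.2
    have hx : x = ∑ i, algebraMap ℚbar (modularFunctionFieldBar N₁) (c i) • barHom A N₂ (u i) := by
      apply Subtype.ext
      rw [hu, AddSubmonoidClass.coe_finsetSum]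
      refine Finset.sum_congr rfl fun i _ => ?_
      rw [Algebra.smul_def, MulMemClass.coe_mul, coe_barHom]
      congr 1
      rw [RingHom.algebraMap_toAlgebra]
      exact ((congrArg Subtype.val (hψc (c i))).trans (coe_algebraMap_bar _)).symm
    rw [hx]
    exact Submodule.sum_mem _ fun i _ => Submodule.smul_mem _ _ (Submodule.subset_span ⟨_, rfl⟩)

end Fermat.Agent.Carayol.Reg

end
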