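/-
Theorem of Carayol, descent to the inertia field: an invariant class on `X₀(N)` contains an
invariant
divisor (the reduced effective divisor minus a multiple of the cusp infinity), and a function with
invariant divisor is a constant times a function over the inertia field.
-/
import Fermat.Agent.Carayol.MainDescentSeries
import Fermat.Agent.MW.BMarked

set_option autoImplicit false
set_option linter.style.haveILetI false
set_option synthInstance.maxHeartbeats 400000

noncomputable section

namespace Fermat.Agent.Carayol.Reg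

open ModularCurve AlgebraicCurve

local notation "ℚbar" => AlgebraicClosure ℚ
local notation "Ser" => LaurentSeries (AlgebraicClosure ℚ)
local notation "Γℚ" => AlgebraicClosure ℚ ≃ₐ[ℚ] AlgebraicClosure ℚ

variable {N : ℕ} [NeZero N]

/-- The arithmetic action on the modular function field. -/
abbrev galSemi (N : ℕ) [NeZero N] (σ : Γℚ) : SemilinearAut ℚbar (modularFunctionFieldBar N) :=
  arithmeticGalois (modularFunctionFieldFull N) σ

theorem coeff_galSemi_smul (σ : Γℚ) (f : modularFunctionFieldBar N) (k : ℤ) :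
    ((galSemi N σ • f : modularFunctionFieldBar N) : Ser).coeff k = σ ((f : Ser).coeff k) := by
  rw [coe_arithmeticGalois_smul, coeffMap_coeff]
  rfl

theorem order_galSemi_smul (σ : Γℚ) (f : modularFunctionFieldBar N) :
    ((galSemi N σ • f : modularFunctionFieldBar N) : Ser).order = (f : Ser).order := by
  rcases eq_or_ne (f : Ser) 0 with h0 | h0
  · rw [coe_arithmeticGalois_smul, h0, map_zero]
  have hne : ((galSemi N σ • f : modularFunctionFieldBar N) : Ser).coeff (f : Ser).order ≠ 0 := by
    rw [coeff_galSemi_smul, map_ne_zero]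
    exact HahnSeries.coeff_order_eq_zero.not.mpr h0
  refine le_antisymm (HahnSeries.order_le_of_coeff_ne_zero hne) ?_
  by_contra hlt
  have hne' : ((galSemi N σ • f : modularFunctionFieldBar N) : Ser) ≠ 0 :=
    HahnSeries.ne_zero_of_coeff_ne_zero hne
  refine HahnSeries.coeff_order_eq_zero.not.mpr hne' ?_
  rw [coeff_galSemi_smul, HahnSeries.coeff_eq_zero_of_lt_order (not_le.mp hlt), map_zero]

variable (N) in
/-- The cusp infinity. -/
def infPlace : Place ℚbar (modularFunctionFieldBar N) := (MW.jMarked N).P0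

theorem ord_infPlace (f : modularFunctionFieldBar N) :
    (infPlace N).ord f = (f : Ser).order :=
  ((MW.jMarked N).order_ι f).symm

theorem smul_infPlace (σ : Γℚ) : galSemi N σ • infPlace N = infPlace N := by
  have hord : ∀ f, (galSemi N σ • infPlace N).ord f = (infPlace N).ord f := fun f => by
    conv_lhs => rw [show f = galSemi N σ • ((galSemi N σ)⁻¹ • f) from (smul_inv_smul _ _).symm]
    rw [SemilinearAut.ord_smul, ord_infPlace, ord_infPlace, ← order_galSemi_smul σ, smul_inv_smul]
  ext f
  rw [Curve.mem_iff_ord_nonneg, Curve.mem_iff_ord_nonneg, hord]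

theorem degree_single_place (v : Place ℚbar (modularFunctionFieldBar N)) (k : ℤ) :
    Divisor.degree (Finsupp.single v k) = k :=
  MW.Kummer.degree_single' v k

set_option maxHeartbeats 800000 in
/-- An invariant class contains an invariant divisor. -/
theorem exists_invariant_divisor (G : Set Γℚ) (x : JZero N) (hx : ∀ σ ∈ G, σ • x = x) :
    ∃ D : Divisor.degZero (K := ℚbar) (F := modularFunctionFieldBar N), Pic0.mk D = x ∧
      ∀ σ ∈ G, galSemi N σ • (D : Divisor ℚbar (modularFunctionFieldBar N)) = D := by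
  classical
  set P := infPlace N with hP
  set c := MW.jMarked N
  obtain ⟨D₁, rfl⟩ := Pic0.mk_surjective x
  have hdeg₁ : Divisor.degree (D₁ : Divisor ℚbar (modularFunctionFieldBar N)) = 0 := D₁.2
  set L : ℕ → Submodule ℚbar (modularFunctionFieldBar N) := fun m =>
    riemannRochSpace ((D₁ : Divisor ℚbar (modularFunctionFieldBar N)) + Finsupp.single P (m : ℤ))
  have hex : ∃ m, ∃ f ∈ L m, f ≠ 0 := by
    refine ⟨2 * c.g + 1, ?_⟩
    by_contra hno
    push Not at hno
    have hbot : L (2 * c.g + 1) = ⊥ := eq_bot_iff.mpr fun f hf => (Submodule.mem_bot _).mpr (hno f hf)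
    have h := c.finrank_L
      ((D₁ : Divisor ℚbar (modularFunctionFieldBar N)) + Finsupp.single P ((2 * c.g + 1 : ℕ) : ℤ))
      (by rw [map_add, hdeg₁, degree_single_place]; push_cast; omega)
    rw [map_add, hdeg₁, degree_single_place] at h
    simp only [L] at hbot
    rw [hbot, finrank_bot] at h
    push_cast at h
    omega
  obtain ⟨f, hf, hf0⟩ := Nat.find_spec hex
  set m := Nat.find hex with hm
  set D : Divisor ℚbar (modularFunctionFieldBar N) := D₁ + Curve.divisorOf ℚbar f with hD
  have hDdeg : D ∈ Divisor.degZero := by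
    rw [Divisor.mem_degZero, hD, map_add, hdeg₁, Curve.degree_divisorOf, add_zero]
  have hmk : Pic0.mk ⟨D, hDdeg⟩ = Pic0.mk D₁ := by
    refine QuotientAddGroup.eq.mpr ?_
    rw [AddSubgroup.mem_addSubgroupOf]
    refine ⟨f⁻¹, inv_ne_zero hf0, fun v => ?_⟩
    rw [AddSubgroup.coe_add, AddSubgroup.coe_neg, Place.ord_inv, Finsupp.add_apply, Finsupp.neg_apply]
    show -D v + _ = _
    rw [hD, Finsupp.add_apply, Curve.divisorOf_apply]
    ring
  refine ⟨⟨D, hDdeg⟩, hmk, fun σ hσ => ?_⟩
  set E := D + Finsupp.single P (m : ℤ) with hE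
  have hE0 : ∀ v, 0 ≤ E v := fun v => by
    have h := MW.Kummer.le_ord_of_mem_L hf hf0 v
    rw [hE, hD, Finsupp.add_apply, Finsupp.add_apply, Curve.divisorOf_apply]
    rw [Finsupp.add_apply] at h
    omega
  -- the translate differs by a function in the Riemann-Roch space of `E`
  have hfix : Pic0.mk (SemilinearAut.degZeroSMulHom (galSemi N σ) ⟨D, hDdeg⟩) =
      Pic0.mk ⟨D, hDdeg⟩ := by
    rw [← SemilinearAut.pic0_smul_mk, hmk]
    exact hx σ hσ
  obtain ⟨u, hu0, hu⟩ := AddSubgroup.mem_addSubgroupOf.mp (QuotientAddGroup.eq.mp hfix)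
  have hu' : ∀ v, u ≠ 0 → v.ord u = D v - (galSemi N σ • D) v := fun v _ => by
    rw [← hu v, AddSubgroup.coe_add, AddSubgroup.coe_neg, SemilinearAut.coe_degZeroSMulHom,
      Finsupp.add_apply, Finsupp.neg_apply]
    ring
  have hinv : ∀ v, 0 ≤ (galSemi N σ • E) v := fun v => by
    rw [SemilinearAut.divisor_smul_apply]; exact hE0 _
  have huE : u⁻¹ ∈ riemannRochSpace E := MW.Kummer.mem_L_iff.mpr fun _ v => by
    have h := hinv v
    rw [hE, smul_add, SemilinearAut.smul_single, smul_infPlace, Finsupp.add_apply, ← hP] at h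
    rw [Place.ord_inv, hu' v hu0, hE, Finsupp.add_apply]
    omega
  have h1E : (1 : modularFunctionFieldBar N) ∈ riemannRochSpace E :=
    MW.Kummer.mem_L_iff.mpr fun _ v => by rw [Place.ord_one]; linarith [hE0 v]
  -- the Riemann-Roch space of `E` is a line
  have hsmall : ∀ g ∈ riemannRochSpace E, (g : Ser).coeff (-(E P)) = 0 → g = 0 := by
    intro g hg hcoeff
    by_contra hg0
    have hordP : -(E P) < P.ord g := by
      have h := MW.Kummer.le_ord_of_mem_L hg hg0 P
      refine lt_of_le_of_ne h fun heq => ?_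
      rw [heq, hP, ord_infPlace] at hcoeff
      exact HahnSeries.coeff_order_eq_zero.not.mpr (fun h0 => hg0 (Subtype.ext h0)) hcoeff
    rcases Nat.eq_zero_or_pos m with hm0 | hmpos
    · have hneg : Divisor.degree (E - Finsupp.single P 1) < 0 := by
        rw [map_sub, hE, map_add, degree_single_place, degree_single_place,
          Divisor.mem_degZero.mp hDdeg, hm0]
        norm_num
      have hbot := Curve.riemannRochSpace_eq_bot_of_degree_neg hneg
      have hgmem : g ∈ riemannRochSpace (E - Finsupp.single P 1) := by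
        refine MW.Kummer.mem_L_iff.mpr fun _ v => ?_
        have h := MW.Kummer.le_ord_of_mem_L hg hg0 v
        rw [Finsupp.sub_apply, Finsupp.single_apply]
        split_ifs with hv
        · rw [← hv] at h ⊢; omega
        · omega
      rw [hbot] at hgmem
      exact hg0 ((Submodule.mem_bot ℚbar).mp hgmem)
    · refine Nat.find_min hex (show m - 1 < m by omega) ⟨g * f, ?_, mul_ne_zero hg0 hf0⟩
      refine MW.Kummer.mem_L_iff.mpr fun _ v => ?_
      have h := MW.Kummer.le_ord_of_mem_L hg hg0 v
      rw [v.ord_mul hg0 hf0]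
      rw [hE, hD, Finsupp.add_apply, Finsupp.add_apply, Curve.divisorOf_apply,
        Finsupp.single_apply] at h hordP
      rw [Finsupp.add_apply, Finsupp.single_apply]
      split_ifs with hv
      · rw [← hv] at h ⊢
        rw [if_pos rfl] at h hordP
        push_cast [Nat.cast_sub (show 1 ≤ m by omega)]
        omega
      · rw [if_neg hv] at h
        omega
  have h10 : ((1 : modularFunctionFieldBar N) : Ser).coeff (-(E P)) ≠ 0 := fun h =>
    one_ne_zero (hsmall 1 h1E h)
  set a := ((u⁻¹ : modularFunctionFieldBar N) : Ser).coeff (-(E P)) /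
    ((1 : modularFunctionFieldBar N) : Ser).coeff (-(E P)) with ha
  have hline : u⁻¹ - a • (1 : modularFunctionFieldBar N) = 0 := by
    refine hsmall _ (sub_mem huE (Submodule.smul_mem _ _ h1E)) ?_
    rw [AddSubgroupClass.coe_sub, HahnSeries.coeff_sub, Algebra.smul_def, MulMemClass.coe_mul,
      coe_algebraMap_bar, algebraMap_laurentSeries_eq_single, HahnSeries.coeff_single_zero_mul, ha,
      div_mul_cancel₀ _ h10, sub_self]
  refine Finsupp.ext fun v => ?_
  have h1 : v.ord u⁻¹ = 0 := by
    rw [sub_eq_zero.mp hline, Algebra.smul_def, mul_one, Curve.ord_algebraMap]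
  rw [Place.ord_inv, hu' v hu0] at h1
  show (galSemi N σ • D) v = D v
  omega

/-- A function is determined by its divisor and its leading coefficient. -/
theorem eq_of_ord_eq_of_coeff {f g : modularFunctionFieldBar N} (hf : f ≠ 0) (hg : g ≠ 0)
    (hord : ∀ v : Place ℚbar (modularFunctionFieldBar N), v.ord f = v.ord g)
    (hc : (f : Ser).coeff (f : Ser).order = (g : Ser).coeff (g : Ser).order) : f = g := by
  have halg : IsAlgebraic ℚbar (f / g) := Curve.isAlgebraic_of_forall_ord_nonneg fun v => by
    rw [Curve.ord_div v hf hg, hord v, sub_self]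
  obtain ⟨a, ha⟩ := minpoly.natDegree_eq_one_iff.mp
    (Polynomial.natDegree_eq_of_degree_eq_some
      (IsAlgClosed.degree_eq_one_of_irreducible ℚbar (minpoly.irreducible halg.isIntegral)))
  have hfg : f = algebraMap ℚbar _ a * g := by rw [ha, div_mul_cancel₀ _ hg]
  have hser : (f : Ser) = algebraMap ℚbar Ser a * (g : Ser) := by
    rw [hfg, MulMemClass.coe_mul, coe_algebraMap_bar]
  have hordinf : (f : Ser).order = (g : Ser).order := by
    rw [← ord_infPlace, ← ord_infPlace, hord]
  rw [hordinf, hser, algebraMap_laurentSeries_eq_single, HahnSeries.coeff_single_zero_mul] at hc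
  have hg' : (g : Ser).coeff (g : Ser).order ≠ 0 :=
    HahnSeries.coeff_order_eq_zero.not.mpr fun h => hg (Subtype.ext h)
  rw [hfg, (mul_eq_right₀ hg').mp hc, map_one, one_mul]

variable {A : ValuationSubring (AlgebraicClosure ℚ)}

/-- A function with inertia-invariant divisor is a constant times a function over the inertia
field. -/
theorem exists_eq_const_mul_fld {h : modularFunctionFieldBar N} (hh : h ≠ 0)
    (hinv : ∀ σ ∈ A.inertiaSubgroupIn ℚ, ∀ v : Place ℚbar (modularFunctionFieldBar N),
      (galSemi N σ • v).ord h = v.ord h) :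
    ∃ (a : ℚbar) (g : Fld A N), a ≠ 0 ∧ g ≠ 0 ∧ h = algebraMap ℚbar _ a * barHom A N g := by
  have hh' : (h : Ser) ≠ 0 := fun h0 => hh (Subtype.ext h0)
  set a := (h : Ser).coeff (h : Ser).order
  have ha : a ≠ 0 := HahnSeries.coeff_order_eq_zero.not.mpr hh'
  set g₀ : modularFunctionFieldBar N := algebraMap ℚbar _ a⁻¹ * h with hg₀
  have hg0 : g₀ ≠ 0 := mul_ne_zero ((map_ne_zero _).mpr (inv_ne_zero ha)) hh
  have hordg : ∀ v : Place ℚbar (modularFunctionFieldBar N), v.ord g₀ = v.ord h := fun v => by
    rw [hg₀, v.ord_mul ((map_ne_zero _).mpr (inv_ne_zero ha)) hh, Curve.ord_algebraMap, zero_add]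
  have hlead : (g₀ : Ser).coeff (g₀ : Ser).order = 1 := by
    rw [← ord_infPlace, hordg, ord_infPlace, hg₀, MulMemClass.coe_mul, coe_algebraMap_bar,
      algebraMap_laurentSeries_eq_single, HahnSeries.coeff_single_zero_mul]
    exact inv_mul_cancel₀ ha
  have hfix : ∀ σ ∈ A.inertiaSubgroupIn ℚ, galSemi N σ • g₀ = g₀ := fun σ hσ => by
    refine eq_of_ord_eq_of_coeff (smul_ne_zero_iff_ne _ |>.mpr hg0) hg0 (fun v => ?_) ?_
    · rw [show v = galSemi N σ • ((galSemi N σ)⁻¹ • v) from (smul_inv_smul _ _).symm,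
        SemilinearAut.ord_smul, hordg, hordg, hinv σ hσ]
    · rw [order_galSemi_smul, coeff_galSemi_smul, hlead, map_one]
  have hmem : (g₀ : Ser) ∈ Fld A N := mem_fld_of_coeff_mem g₀.2 fun k => by
    rw [IntermediateField.mem_fixedField_iff]
    intro σ hσ
    rw [← coeff_galSemi_smul σ g₀ k, hfix σ hσ]
  refine ⟨a, ⟨g₀, hmem⟩, ha, fun h0 => hg0 (Subtype.ext (congrArg Subtype.val h0 :)), ?_⟩
  rw [show barHom A N ⟨g₀, hmem⟩ = g₀ from Subtype.ext (coe_barHom A N _), hg₀, ← mul_assoc,
    ← map_mul, mul_inv_cancel₀ ha, map_one, one_mul]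

/-- If an element over the inertia field has the divisor of an `n`-th power, it is a constant times
an `n`-th power over the inertia field. -/
theorem exists_fld_eq_const_mul_pow {n : ℕ} (hn : n ≠ 0) {f : Fld A N} (hf : f ≠ 0)
    {h : modularFunctionFieldBar N} (hh : h ≠ 0)
    (hord : ∀ v : Place ℚbar (modularFunctionFieldBar N), v.ord (barHom A N f) = n * v.ord h) :
    ∃ (c : inertiaField A) (g : Fld A N), f = algebraMap (inertiaField A) (Fld A N) c * g ^ n := by
  have hf' : barHom A N f ≠ 0 := (map_ne_zero _).mpr hf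
  obtain ⟨a, g, ha, hg, hag⟩ := exists_eq_const_mul_fld (A := A) hh fun σ hσ v => by
    have hfix : galSemi N σ • barHom A N f = barHom A N f := by
      refine Subtype.ext (HahnSeries.ext (funext fun k => ?_))
      rw [coeff_galSemi_smul, coe_barHom]
      exact (IntermediateField.mem_fixedField_iff _ _).mp (coeff_mem_inertiaField_of_mem f.2 k) σ hσ
    have h1 := SemilinearAut.ord_smul (galSemi N σ) v (barHom A N f)
    rw [hfix, hord, hord] at h1
    exact mul_left_cancel₀ (by exact_mod_cast hn) h1
  have hgb : barHom A N g ^ n ≠ 0 := pow_ne_zero _ ((map_ne_zero _).mpr hg)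
  have hfg : ∀ v : Place ℚbar (modularFunctionFieldBar N),
      v.ord (barHom A N f) = v.ord (barHom A N g ^ n) := fun v => by
    rw [hord, hag, v.ord_mul ((map_ne_zero _).mpr ha) ((map_ne_zero _).mpr hg),
      Curve.ord_algebraMap, zero_add, Curve.ord_pow]
  -- the ratio of the leading coefficients
  have hgs : ((g ^ n : Fld A N) : Ser) ≠ 0 := fun h0 => pow_ne_zero n hg (Subtype.ext h0)
  set b := (f : Ser).coeff (f : Ser).order / ((g ^ n : Fld A N) : Ser).coeff ((g ^ n : Fld A N) : Ser).order
  have hb : b ∈ inertiaField A :=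
    div_mem (coeff_mem_inertiaField_of_mem f.2 _) (coeff_mem_inertiaField_of_mem (g ^ n).2 _)
  refine ⟨⟨b, hb⟩, g, (barHom A N).injective ?_⟩
  have hb0 : b ≠ 0 := div_ne_zero
    (HahnSeries.coeff_order_eq_zero.not.mpr fun h0 => hf (Subtype.ext h0))
    (HahnSeries.coeff_order_eq_zero.not.mpr hgs)
  rw [map_mul, map_pow, barHom_algebraMap]
  refine eq_of_ord_eq_of_coeff hf' (mul_ne_zero ((map_ne_zero _).mpr hb0) hgb) (fun v => ?_) ?_
  · rw [v.ord_mul ((map_ne_zero _).mpr hb0) hgb, Curve.ord_algebraMap, zero_add, hfg]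
  · have hco : ((algebraMap ℚbar (modularFunctionFieldBar N) b * barHom A N g ^ n :
        modularFunctionFieldBar N) : Ser) = algebraMap ℚbar Ser b * ((g ^ n : Fld A N) : Ser) := by
      rw [MulMemClass.coe_mul, coe_algebraMap_bar, ← map_pow, coe_barHom]
    have hordg : ((algebraMap ℚbar (modularFunctionFieldBar N) b * barHom A N g ^ n :
        modularFunctionFieldBar N) : Ser).order = ((g ^ n : Fld A N) : Ser).order := by
      rw [← ord_infPlace, (infPlace N).ord_mul ((map_ne_zero _).mpr hb0) hgb, Curve.ord_algebraMap,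
        zero_add, ← map_pow, ord_infPlace, coe_barHom]
    rw [hordg, hco, algebraMap_laurentSeries_eq_single, HahnSeries.coeff_single_zero_mul, coe_barHom]
    exact (div_mul_cancel₀ _ (HahnSeries.coeff_order_eq_zero.not.mpr hgs)).symm

end Fermat.Agent.Carayol.Reg

end
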