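/-
Theorem of Carayol, descent to the inertia field: divisors of the functions over the inertia field
and
their norms along maps of levels.
-/
import Fermat.Agent.Carayol.MainDescentReduced
import Fermat.Agent.Carayol.MainDescentPlace
import Fermat.Agent.Carayol.CuspidalPic

set_option autoImplicit false
set_option linter.style.haveILetI false
set_option linter.unusedSectionVars false
set_option synthInstance.maxHeartbeats 400000

noncomputable section

namespace Fermat.Agent.Carayol.Reg

open ModularCurve AlgebraicCurve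

local notation "ℚbar" => AlgebraicClosure ℚ

variable {A : ValuationSubring (AlgebraicClosure ℚ)} {N N' : ℕ} [NeZero N] [NeZero N']

theorem pic0_nsmul_mk {n : ℕ} (D : Divisor.degZero (K := ℚbar) (F := modularFunctionFieldBar N)) :
    n • Pic0.mk D = Pic0.mk (n • D) :=
  (map_nsmul (QuotientAddGroup.mk' _) n D).symm

theorem exists_ord_of_mk_eq_zero
    {D : Divisor.degZero (K := ℚbar) (F := modularFunctionFieldBar N)} (h : Pic0.mk D = 0) :
    ∃ g : modularFunctionFieldBar N, g ≠ 0 ∧ ∀ v : Place ℚbar (modularFunctionFieldBar N),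
      (D : Divisor ℚbar (modularFunctionFieldBar N)) v = v.ord g :=
  AddSubgroup.mem_addSubgroupOf.mp ((QuotientAddGroup.eq_zero_iff D).mp h)

theorem mk_eq_zero_of_ord
    {D : Divisor.degZero (K := ℚbar) (F := modularFunctionFieldBar N)}
    {g : modularFunctionFieldBar N} (hg : g ≠ 0)
    (h : ∀ v : Place ℚbar (modularFunctionFieldBar N),
      (D : Divisor ℚbar (modularFunctionFieldBar N)) v = v.ord g) : Pic0.mk D = 0 :=
  (QuotientAddGroup.eq_zero_iff D).mpr (AddSubgroup.mem_addSubgroupOf.mpr ⟨g, hg, h⟩)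

/-- A torsion class fixed by inertia gives a function over the inertia field with divisor
divisible by `n` over `ℚ̄`. -/
theorem exists_fld_of_inertia_fixed {n : ℕ} {x : JZero N} (hnx : n • x = 0)
    (hx : ∀ σ ∈ A.inertiaSubgroupIn ℚ, σ • x = x) :
    ∃ (D : Divisor.degZero (K := ℚbar) (F := modularFunctionFieldBar N)) (f : Fld A N),
      Pic0.mk D = x ∧ f ≠ 0 ∧ ∀ v : Place ℚbar (modularFunctionFieldBar N),
        v.ord (barHom A N f) = n * (D : Divisor ℚbar (modularFunctionFieldBar N)) v := by
  obtain ⟨D, hD, hinv⟩ := exists_invariant_divisor (A.inertiaSubgroupIn ℚ : Set _) x hx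
  obtain ⟨h, hh, hord⟩ := exists_ord_of_mk_eq_zero (D := n • D) (by rw [← pic0_nsmul_mk, hD, hnx])
  have hord' : ∀ v, v.ord h = n * (D : Divisor ℚbar (modularFunctionFieldBar N)) v := fun v => by
    rw [← hord v, AddSubgroup.coe_nsmul, Finsupp.smul_apply, nsmul_eq_mul]
  obtain ⟨a, f, ha, hf, haf⟩ := exists_eq_const_mul_fld (A := A) hh fun σ hσ v => by
    rw [hord', hord']
    conv_lhs => rw [← hinv σ hσ]
    rw [SemilinearAut.divisor_smul_apply_smul]
  refine ⟨D, f, hD, hf, fun v => ?_⟩
  rw [← hord' v, haf, v.ord_mul ((map_ne_zero _).mpr ha) ((map_ne_zero _).mpr hf),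
    Curve.ord_algebraMap, zero_add]

/-- The norm of a function with divisor `n • D`, when the pushforward of `D` is principal. -/
theorem exists_norm_eq_const_mul_pow (φ : Fld A N →ₐ[inertiaField A] Fld A N')
    (ψ : modularFunctionFieldBar N →ₐ[ℚbar] modularFunctionFieldBar N')
    (hcomm : ∀ a, ψ (barHom A N a) = barHom A N' (φ a)) {n : ℕ} (hn : n ≠ 0)
    {D : Divisor.degZero (K := ℚbar) (F := modularFunctionFieldBar N')}
    (hD : Cuspidal.picPush ψ (Pic0.mk D) = 0) {f : Fld A N'} (hf : f ≠ 0)
    (hord : ∀ v : Place ℚbar (modularFunctionFieldBar N'),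
      v.ord (barHom A N' f) = n * (D : Divisor ℚbar (modularFunctionFieldBar N')) v) :
    ∃ (c : inertiaField A) (g : Fld A N),
      (letI := φ.toRingHom.toAlgebra; Algebra.norm (Fld A N)) f =
        algebraMap (inertiaField A) (Fld A N) c * g ^ n := by
  rw [Cuspidal.picPush_mk] at hD
  obtain ⟨g, hg, hgord⟩ := exists_ord_of_mk_eq_zero hD
  have hbar : barHom A N' f ≠ 0 := (map_ne_zero _).mpr hf
  have hfin := Curve.finiteAlong ψ
  set Nf : modularFunctionFieldBar N :=
    (letI := algebraAlong ψ; Algebra.norm (modularFunctionFieldBar N)) (barHom A N' f) with hNf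
  have hpush : ∀ v : Place ℚbar (modularFunctionFieldBar N), v.ord Nf = n * v.ord g := fun v => by
    have h := Curve.normFormulaAlong ψ hfin (barHom A N' f) hbar
      (n • (D : Divisor ℚbar (modularFunctionFieldBar N')))
      (fun w => by rw [Finsupp.smul_apply, nsmul_eq_mul, hord]) v
    rw [hNf, ← h, ← hgord v, Cuspidal.coe_degZeroPush, ← nsmul_eq_mul]
    exact DFunLike.congr_fun (map_nsmul
      (Divisor.pushforwardAlong ψ (Curve.isIntegral_toRingHom ψ)) n
      (D : Divisor ℚbar (modularFunctionFieldBar N'))) v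
  refine exists_fld_eq_const_mul_pow hn ?_ hg fun v => ?_
  · intro h0
    have h1 := barHom_norm φ ψ hfin hcomm f
    rw [h0, map_zero] at h1
    letI := algebraAlong ψ
    haveI : Module.Finite (modularFunctionFieldBar N) (modularFunctionFieldBar N') := hfin
    exact Algebra.norm_ne_zero_iff.mpr hbar h1.symm
  · rw [barHom_norm φ ψ hfin hcomm f]
    exact hpush v

/-- The divisor of a pulled back function is divisible by `n` at the places over the inertia
field. -/
theorem dvd_ord_of_ord_eq (φ : Fld A N →ₐ[inertiaField A] Fld A N')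
    (ψ : modularFunctionFieldBar N →ₐ[ℚbar] modularFunctionFieldBar N')
    (hcomm : ∀ a, ψ (barHom A N a) = barHom A N' (φ a)) {n : ℕ} {f : Fld A N} (hf : f ≠ 0)
    {D : Divisor ℚbar (modularFunctionFieldBar N)}
    (hord : ∀ v : Place ℚbar (modularFunctionFieldBar N), v.ord (barHom A N f) = n * D v)
    (v : Place (inertiaField A) (Fld A N')) : (n : ℤ) ∣ v.ord (φ f) := by
  obtain ⟨w, hw⟩ := exists_place_lift v
  rw [← hw (φ f) ((map_ne_zero _).mpr hf), ← hcomm f,
    Place.ord_restrictAlong ψ (Curve.isIntegral_toRingHom ψ), hord]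
  exact ⟨_, mul_left_comm _ _ _⟩

/-- A class is killed by the degree times the exponent when a power of its function becomes a
constant times an `n`-th power upstairs. -/
theorem smul_eq_zero_of_pow_eq (φ : Fld A N →ₐ[inertiaField A] Fld A N')
    (ψ : modularFunctionFieldBar N →ₐ[ℚbar] modularFunctionFieldBar N')
    (hcomm : ∀ a, ψ (barHom A N a) = barHom A N' (φ a)) {n m : ℕ} (hn : n ≠ 0)
    {D : Divisor.degZero (K := ℚbar) (F := modularFunctionFieldBar N)} {f : Fld A N} (hf : f ≠ 0)
    (hord : ∀ v : Place ℚbar (modularFunctionFieldBar N),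
      v.ord (barHom A N f) = n * (D : Divisor ℚbar (modularFunctionFieldBar N)) v)
    {c : inertiaField A} {w : Fld A N'}
    (h : φ f ^ m = algebraMap (inertiaField A) (Fld A N') c * w ^ n) :
    (finrankAlong ℚbar ψ * m) • Pic0.mk D = 0 := by
  letI := algebraAlong ψ
  haveI : Module.Finite (modularFunctionFieldBar N) (modularFunctionFieldBar N') :=
    Curve.finiteAlong ψ
  set F := barHom A N f with hF
  have hF0 : F ≠ 0 := (map_ne_zero _).mpr hf
  have h1 : algebraMap (modularFunctionFieldBar N) (modularFunctionFieldBar N') (F ^ m) =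
      algebraMap (modularFunctionFieldBar N) (modularFunctionFieldBar N')
          (algebraMap ℚbar (modularFunctionFieldBar N) (c : ℚbar)) * barHom A N' w ^ n := by
    rw [RingHom.algebraMap_toAlgebra, AlgHom.toRingHom_eq_coe, RingHom.coe_coe, map_pow,
      hcomm, ← map_pow, h, map_mul, map_pow, barHom_algebraMap, ψ.commutes]
  have h2 := congrArg (Algebra.norm (modularFunctionFieldBar N)) h1
  rw [map_mul, Algebra.norm_algebraMap, Algebra.norm_algebraMap, map_pow (Algebra.norm _), ← pow_mul] at h2
  set W := Algebra.norm (modularFunctionFieldBar N) (barHom A N' w)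
  set d := Module.finrank (modularFunctionFieldBar N) (modularFunctionFieldBar N') with hd
  have hpow : F ^ (m * d) ≠ 0 := pow_ne_zero _ hF0
  have hW : W ≠ 0 := fun h0 => hpow (by rw [h2, h0, zero_pow hn, mul_zero])
  have hc : algebraMap ℚbar (modularFunctionFieldBar N) (c : ℚbar) ^ d ≠ 0 := fun h0 =>
    hpow (by rw [h2, h0, zero_mul])
  rw [pic0_nsmul_mk]
  refine mk_eq_zero_of_ord hW fun v => ?_
  have hv := congrArg v.ord h2
  rw [v.ord_mul hc (pow_ne_zero _ hW), Curve.ord_pow, Curve.ord_pow, Curve.ord_pow,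
    Curve.ord_algebraMap, mul_zero, zero_add, hord] at hv
  rw [AddSubgroup.coe_nsmul, Finsupp.smul_apply, nsmul_eq_mul]
  refine mul_left_cancel₀ (Int.natCast_ne_zero.mpr hn) ?_
  rw [← hv, show finrankAlong ℚbar ψ = d from rfl]
  push_cast
  ring

end Fermat.Agent.Carayol.Reg

end
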