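/-
Theorem of Carayol: three algebraic lemmas for the global argument.

* In a local ring, a root of a monic cubic with coefficients in the maximal ideal whose `1 + d` has
  its `n`-th power in `1 + 𝔪` already lies in the image of the ring.
* In a factorial domain, an element all of whose exponents are divisible by `n` is a unit times
  an `n`-th power.
* Roots of constants are constants.
-/
import Mathlib.RingTheory.Nakayama
import Mathlib.RingTheory.Jacobson.Ideal
import Mathlib.RingTheory.UniqueFactorizationDomain.Multiplicity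
import Mathlib.RingTheory.LocalRing.MaximalIdeal.Basic
import Mathlib.FieldTheory.IsAlgClosed.Basic
import Mathlib.RingTheory.Noetherian.Basic
import Mathlib.RingTheory.RootsOfUnity.EnoughRootsOfUnity
import Mathlib.Tactic

set_option autoImplicit false

noncomputable section

namespace Fermat.Agent.Carayol.Reg

open IsLocalRing

theorem mem_range_of_cubic_of_pow {S R : Type*} [CommRing S] [IsLocalRing S] [CommRing R]
    [Algebra S R] (n : ℕ) (hn : IsUnit (n : S)) (d : R) (a₀ a₁ a₂ : S)
    (h₀ : a₀ ∈ maximalIdeal S) (h₁ : a₁ ∈ maximalIdeal S) (h₂ : a₂ ∈ maximalIdeal S)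
    (hcubic : d ^ 3 = algebraMap S R a₂ * d ^ 2 + algebraMap S R a₁ * d + algebraMap S R a₀)
    (v : S) (hv : v ∈ maximalIdeal S) (hpow : (1 + d) ^ n = 1 + algebraMap S R v) :
    d ∈ (algebraMap S R).range := by
  classical
  set N : Submodule S R := Submodule.span S {1, d, d ^ 2} with hN
  have hone : (1 : R) ∈ N := Submodule.subset_span (by simp)
  have hd : d ∈ N := Submodule.subset_span (by simp)
  have hd2 : d ^ 2 ∈ N := Submodule.subset_span (by simp)
  have hd3 : d ^ 3 ∈ maximalIdeal S • N := by
    rw [hcubic, ← Algebra.smul_def, ← Algebra.smul_def, Algebra.algebraMap_eq_smul_one]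
    exact add_mem (add_mem (Submodule.smul_mem_smul h₂ hd2) (Submodule.smul_mem_smul h₁ hd))
      (Submodule.smul_mem_smul h₀ hone)
  have hle : maximalIdeal S • N ≤ N := Submodule.smul_le_right
  have hmul : ∀ x ∈ N, d * x ∈ N := by
    intro x hx
    refine Submodule.span_induction ?_ ?_ ?_ ?_ hx
    · rintro y (rfl | rfl | rfl)
      · simpa using hd
      · simpa [← sq] using hd2
      · simpa [← pow_succ'] using hle hd3
    · simp
    · intro y z _ _ hy hz; rw [mul_add]; exact add_mem hy hz
    · intro c y _ hy; rw [Algebra.mul_smul_comm]; exact Submodule.smul_mem _ c hy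
  have hmulm : ∀ x ∈ maximalIdeal S • N, ∀ y ∈ N, x * y ∈ maximalIdeal S • N := by
    intro x hx y hy
    refine Submodule.smul_induction_on hx (fun a ha z hz => ?_) (fun z w hz hw => ?_)
    · rw [Algebra.smul_mul_assoc]
      refine Submodule.smul_mem_smul ha ?_
      refine Submodule.span_induction ?_ ?_ ?_ ?_ hz
      · rintro t (rfl | rfl | rfl)
        · simpa using hy
        · exact hmul _ hy
        · rw [sq, mul_assoc]; exact hmul _ (hmul _ hy)
      · simp
      · intro t u _ _ ht hu; rw [add_mul]; exact add_mem ht hu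
      · intro c t _ ht; rw [Algebra.smul_mul_assoc]; exact Submodule.smul_mem _ c ht
    · rw [add_mul]; exact add_mem hz hw
  -- the second order part of the binomial expansion
  have hexp : ∀ k : ℕ, ∃ r ∈ N, (1 + d) ^ k = 1 + (k : R) * d + d ^ 2 * r := by
    intro k
    induction k with
    | zero => exact ⟨0, zero_mem _, by simp⟩
    | succ k ih =>
      obtain ⟨r, hr, e⟩ := ih
      refine ⟨(k : R) + r + d * r, add_mem (add_mem ?_ hr) (hmul _ hr), ?_⟩
      · rw [← map_natCast (algebraMap S R) k, Algebra.algebraMap_eq_smul_one]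
        exact Submodule.smul_mem _ _ hone
      · rw [pow_succ, e]; push_cast; ring
  obtain ⟨r, hr, e⟩ := hexp n
  obtain ⟨u, hu⟩ := hn
  set w : R := algebraMap S R ((u⁻¹ : Sˣ) : S) with hw
  have hwn : w * (n : R) = 1 := by
    rw [hw, ← map_natCast (algebraMap S R) n, ← map_mul, ← hu, Units.inv_mul, map_one]
  have hvm : algebraMap S R v ∈ maximalIdeal S • N := by
    rw [Algebra.algebraMap_eq_smul_one]; exact Submodule.smul_mem_smul hv hone
  have hwN : w ∈ N := by
    rw [hw, Algebra.algebraMap_eq_smul_one]; exact Submodule.smul_mem _ _ hone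
  have key : d = algebraMap S R v * w - d ^ 2 * (r * w) := by
    rw [e] at hpow
    linear_combination (-d) * hwn + w * hpow
  have hmN : ∀ x ∈ N, algebraMap S R v * w * x ∈ maximalIdeal S • N := fun x hx => by
    rw [mul_assoc]
    refine hmulm _ hvm _ ?_
    rw [hw, ← Algebra.smul_def]
    exact Submodule.smul_mem _ _ hx
  have hrw : r * w ∈ N := by
    rw [hw, mul_comm, ← Algebra.smul_def]; exact Submodule.smul_mem _ _ hr
  have hd2m : d ^ 2 ∈ maximalIdeal S • N := by
    have e2 : d ^ 2 = algebraMap S R v * w * d - d ^ 3 * (r * w) := by linear_combination d * key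
    rw [e2]
    exact sub_mem (hmN _ hd) (hmulm _ hd3 _ hrw)
  have hdm : d ∈ maximalIdeal S • N := by
    rw [key]
    exact sub_mem (hmulm _ hvm _ hwN) (hmulm _ hd2m _ hrw)
  have hNle : N ≤ Submodule.span S {(1 : R)} ⊔ maximalIdeal S • N := by
    conv_lhs => rw [hN]
    rw [Submodule.span_le]
    rintro y (rfl | rfl | rfl)
    · exact Submodule.mem_sup_left (Submodule.mem_span_singleton_self _)
    · exact Submodule.mem_sup_right hdm
    · exact Submodule.mem_sup_right hd2m
  have hfg : N.FG := Submodule.fg_span (by simp)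
  have hjac : maximalIdeal S ≤ Ideal.jacobson ⊥ :=
    le_of_eq (jacobson_eq_maximalIdeal _ bot_ne_top).symm
  obtain ⟨c, hc⟩ := Submodule.mem_span_singleton.mp
    (Submodule.le_of_le_smul_of_le_jacobson_bot hfg hjac hNle hd)
  exact ⟨c, by rw [← hc, Algebra.smul_def, mul_one]⟩

theorem exists_unit_mul_pow_of_dvd {S : Type*} [CommRing S] [IsDomain S]
    [UniqueFactorizationMonoid S] (n : ℕ) (x : S) (hx : x ≠ 0)
    (h : ∀ (p y : S) (k : ℕ), Prime p → x = p ^ k * y → ¬ p ∣ y → n ∣ k) :
    ∃ (u : Sˣ) (z : S), x = u * z ^ n := by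
  revert hx h
  induction x using (wellFounded_dvdNotUnit (α := S)).induction with
  | _ x ih =>
    intro hx h
    by_cases hux : IsUnit x
    · exact ⟨hux.unit, 1, by simp⟩
    obtain ⟨p, hp, hpx⟩ := WfDvdMonoid.exists_irreducible_factor hux hx
    have hpp : Prime p := UniqueFactorizationMonoid.irreducible_iff_prime.mp hp
    obtain ⟨k, y, hy, hxy⟩ := WfDvdMonoid.max_power_factor hx hp
    obtain ⟨j, hj⟩ := h p y k hpp hxy hy
    have hy0 : y ≠ 0 := right_ne_zero_of_mul (hxy ▸ hx)
    have hk : 0 < k := Nat.pos_of_ne_zero fun hk => hy (by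
      rw [hxy, hk, pow_zero, one_mul] at hpx; exact hpx)
    have hlt : DvdNotUnit y x :=
      ⟨hy0, p ^ k, (by rw [isUnit_pow_iff hk.ne']; exact hp.not_isUnit), by rw [hxy, mul_comm]⟩
    obtain ⟨u, z, hz⟩ := ih y hlt hy0 (fun p' y' k' hp' hy' hndvd => by
      by_cases hass : Associated p p'
      · rcases Nat.eq_zero_or_pos k' with hk' | hk'
        · rw [hk']; exact dvd_zero n
        · exact absurd (hass.dvd.trans ((dvd_pow_self p' hk'.ne').trans ⟨y', hy'⟩)) hy
      · refine h p' (p ^ k * y') k' hp' (by rw [hxy, hy']; ring) fun hd => ?_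
        rcases hp'.dvd_mul.mp hd with h1 | h1
        · exact hass ((hp'.irreducible.associated_of_dvd hp (hp'.dvd_of_dvd_pow h1)).symm)
        · exact hndvd h1)
    refine ⟨u, p ^ j * z, ?_⟩
    rw [hxy, hz, hj, mul_pow, ← pow_mul, Nat.mul_comm]
    ring

theorem mem_range_of_pow_eq_algebraMap {k L : Type*} [Field k] [Field L] [Algebra k L]
    [IsAlgClosed k] {x : L} {n : ℕ} (hn : 0 < n) {c : k} (h : x ^ n = algebraMap k L c) :
    x ∈ (algebraMap k L).range := by
  have hint : IsIntegral k x := ⟨Polynomial.X ^ n - Polynomial.C c,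
    Polynomial.monic_X_pow_sub_C c hn.ne', by simp [h]⟩
  have hdeg := IsAlgClosed.degree_eq_one_of_irreducible k (minpoly.irreducible hint)
  exact minpoly.mem_range_of_degree_eq_one k x hdeg

end Fermat.Agent.Carayol.Reg

end
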