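/-
Theorem of Carayol at `q ^ 2 ∥ M`: definitions for the local study of the charts of
level `q ^ 2 M`: branches through an ideal.
-/
import Fermat.Agent.Carayol.MainGauss
import Fermat.Agent.Curve.BasicPlace

set_option autoImplicit false
set_option linter.style.haveILetI false

noncomputable section

namespace Fermat.Agent.Carayol.Reg

open ModularCurve IntermediateField

variable (A : ValuationSubring (AlgebraicClosure ℚ)) (M q : ℕ) [NeZero M] [Fact q.Prime]

/-- The chart at the top level. -/
abbrev chart₂ (b : Bool) : Subring (F₂ A M q) := chart A (jCoord A (M * q * q) b)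

/-- A function on the residual curve takes the value `r` at `P`. -/
def HasValue (P : Pt A M) (g : RFld A M) (r : Res A) : Prop :=
  g = algebraMap (Res A) (RFld A M) r ∨ 0 < P.ord (g - algebraMap (Res A) (RFld A M) r)

/-- The branch `(s, P)` passes through the ideal `c`. -/
def IsBranch (b : Bool) (c : Ideal (chart₂ A M q b)) (s : Side) (P : Pt A M) : Prop :=
  ∀ x : chart₂ A M q b, ∃ h : (x : F₂ A M q) ∈ sideInt A M q s,
    (sideRes A M q s ⟨x, h⟩ = 0 ∨ 0 ≤ P.ord (sideRes A M q s ⟨x, h⟩)) ∧
      (x ∈ c ↔ HasValue A M P (sideRes A M q s ⟨x, h⟩) 0)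

end Fermat.Agent.Carayol.Reg

end
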