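/-
Theorem of Carayol at `q ^ 2 ∥ M`: commutative algebra for two-dimensional regular
local rings: a Noetherian local domain whose maximal ideal is generated by two elements and which
has a prime strictly between `⊥` and the maximal ideal is a unique factorisation domain.
-/
import Mathlib.RingTheory.Ideal.KrullsHeightTheorem
import Mathlib.RingTheory.UniqueFactorizationDomain.Kaplansky
import Mathlib.RingTheory.IntegralClosure.IntegrallyClosed
import Mathlib.RingTheory.Filtration
import Mathlib.RingTheory.Polynomial.RationalRoot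
import Mathlib.RingTheory.Localization.AtPrime.Basic

set_option autoImplicit false
set_option linter.style.haveILetI false

noncomputable section

namespace Fermat.Agent.Carayol.Reg

open IsLocalRing

variable {R : Type*} [CommRing R] [IsNoetherianRing R] [IsLocalRing R]

/-- A non-zero element of a Noetherian local ring with principal maximal ideal is a unit times a
power of the generator. -/
theorem exists_unit_mul_pow_of_maximalIdeal_eq_span (b : R)
    (hb : maximalIdeal R = Ideal.span {b}) {x : R} (hx : x ≠ 0) :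
    ∃ (u : Rˣ) (n : ℕ), x = u * b ^ n := by
  classical
  have hex : ∃ n, x ∉ maximalIdeal R ^ n := by
    by_contra! h
    have hmem : x ∈ ⨅ i : ℕ, maximalIdeal R ^ i := Submodule.mem_iInf _ |>.mpr h
    rw [Ideal.iInf_pow_eq_bot_of_isLocalRing _ (maximalIdeal.isMaximal R).ne_top] at hmem
    exact hx hmem
  set n := Nat.find hex with hn
  have hn' : x ∉ maximalIdeal R ^ n := Nat.find_spec hex
  have hpos : n ≠ 0 := by
    intro h0
    rw [h0, pow_zero, Ideal.one_eq_top] at hn'
    exact hn' trivial
  obtain ⟨k, hk⟩ := Nat.exists_eq_succ_of_ne_zero hpos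
  have hmem : x ∈ maximalIdeal R ^ k := by
    by_contra hcon
    have := Nat.find_min' hex hcon
    omega
  rw [hb, Ideal.span_singleton_pow, Ideal.mem_span_singleton'] at hmem
  obtain ⟨r, hr⟩ := hmem
  have hru : IsUnit r := by
    by_contra hru
    have hrm : r ∈ maximalIdeal R := (mem_maximalIdeal r).mpr hru
    rw [hb, Ideal.mem_span_singleton'] at hrm
    obtain ⟨t, rfl⟩ := hrm
    apply hn'
    rw [hb, Ideal.span_singleton_pow, Ideal.mem_span_singleton', hk]
    exact ⟨t, by rw [← hr, pow_succ]; ring⟩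
  exact ⟨hru.unit, k, by simpa using hr.symm⟩

omit [IsNoetherianRing R] in
/-- An ideal between `span {a}` and a prime containing it. -/
theorem maximalIdeal_notMem_minimalPrimes [IsNoetherianRing R] [IsDomain R] {p : Ideal R}
    [p.IsPrime] (hp0 : p ≠ ⊥) (hpm : p < maximalIdeal R) (I : Ideal R) [I.IsPrincipal] :
    maximalIdeal R ∉ I.minimalPrimes := by
  intro h
  have h1 := Ideal.height_le_one_of_isPrincipal_of_mem_minimalPrimes I _ h
  have h2 := Ideal.height_add_one_le_of_lt_of_isPrime hpm
  have h4 : (1 : ℕ∞) ≤ p.height :=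
    Order.one_le_iff_ne_zero.mpr (mt Ideal.height_eq_zero_iff_eq_bot.mp hp0)
  have h5 : (1 + 1 : ℕ∞) ≤ 1 := ((add_le_add h4 le_rfl).trans h2).trans h1
  norm_cast at h5

variable [IsDomain R] {a b : R}

/-- A generator of the maximal ideal of a two-dimensional regular local domain is prime. -/
theorem prime_of_maximalIdeal_eq_span_pair (hm : maximalIdeal R = Ideal.span {a, b})
    {p : Ideal R} [p.IsPrime] (hp0 : p ≠ ⊥) (hpm : p < maximalIdeal R) : Prime a := by
  have ha : a ∈ maximalIdeal R := hm ▸ Ideal.subset_span (by simp)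
  have hproper : Ideal.span {a} ≠ ⊤ :=
    ne_top_of_le_ne_top (maximalIdeal.isMaximal R).ne_top
      ((Ideal.span_singleton_le_iff_mem _).mpr ha)
  have ha0 : a ≠ 0 := by
    rintro rfl
    refine maximalIdeal_notMem_minimalPrimes hp0 hpm (Ideal.span {b}) ?_
    have hm' : maximalIdeal R = Ideal.span {b} := by
      rw [hm, Ideal.span_insert_zero]
    rw [hm']
    haveI : (Ideal.span {b}).IsPrime := hm' ▸ inferInstance
    simp [Ideal.minimalPrimes_eq_subsingleton_self]
  have : Nontrivial (R ⧸ Ideal.span {a}) := Ideal.Quotient.nontrivial_iff.mpr hproper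
  have : IsLocalRing (R ⧸ Ideal.span {a}) :=
    IsLocalRing.of_surjective' _ Ideal.Quotient.mk_surjective
  let f := Ideal.Quotient.mk (Ideal.span {a})
  have hmap : maximalIdeal (R ⧸ Ideal.span {a}) = Ideal.span {f b} := by
    rw [← IsLocalRing.map_maximalIdeal_of_surjective f Ideal.Quotient.mk_surjective, hm,
      Ideal.map_span, Set.image_pair]
    have : f a = 0 := Ideal.Quotient.eq_zero_iff_mem.mpr (Ideal.subset_span rfl)
    rw [this, Ideal.span_insert_zero]
  have hnil : ∀ n : ℕ, f b ^ n ≠ 0 := by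
    intro n hn
    refine maximalIdeal_notMem_minimalPrimes hp0 hpm (Ideal.span {a}) ?_
    refine ⟨⟨inferInstance, (Ideal.span_singleton_le_iff_mem _).mpr ha⟩, ?_⟩
    rintro J ⟨hJ, hJa⟩ -
    rw [hm, Ideal.span_le]
    have hbJ : b ∈ J := by
      rw [← map_pow, Ideal.Quotient.eq_zero_iff_mem] at hn
      exact hJ.mem_of_pow_mem n (hJa hn)
    rintro x (rfl | rfl)
    · exact (Ideal.span_singleton_le_iff_mem _).mp hJa
    · exact hbJ
  have hdom : IsDomain (R ⧸ Ideal.span {a}) := by
    have : NoZeroDivisors (R ⧸ Ideal.span {a}) := ⟨fun {x y} hxy => by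
      by_contra! hcon
      obtain ⟨u, m, rfl⟩ := exists_unit_mul_pow_of_maximalIdeal_eq_span (f b) hmap hcon.1
      obtain ⟨v, n, rfl⟩ := exists_unit_mul_pow_of_maximalIdeal_eq_span (f b) hmap hcon.2
      apply hnil (m + n)
      have h0 : (↑(u * v) : R ⧸ Ideal.span {a}) * f b ^ (m + n) = 0 := by
        rw [Units.val_mul, pow_add, ← hxy]; ring
      exact ((u * v).isUnit.mul_right_eq_zero).mp h0⟩
    exact NoZeroDivisors.to_isDomain _
  exact (Ideal.span_singleton_prime ha0).mp ((Ideal.Quotient.isDomain_iff_prime _).mp hdom)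

/-- A Noetherian local domain with maximal ideal generated by two elements and with a prime
strictly between `⊥` and the maximal ideal is a unique factorisation domain. -/
theorem uniqueFactorizationMonoid_of_maximalIdeal_eq_span_pair
    (hm : maximalIdeal R = Ideal.span {a, b})
    {p : Ideal R} [p.IsPrime] (hp0 : p ≠ ⊥) (hpm : p < maximalIdeal R) :
    UniqueFactorizationMonoid R := by
  have hpa : Prime a := prime_of_maximalIdeal_eq_span_pair hm hp0 hpm
  rw [UniqueFactorizationMonoid.iff_exists_prime_mem_of_isPrime]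
  intro P hP0 hP
  by_cases haP : a ∈ P
  · exact ⟨a, haP, hpa⟩
  let f := Ideal.Quotient.mk (Ideal.span {a})
  have : (Ideal.span {a}).IsPrime := (Ideal.span_singleton_prime hpa.ne_zero).mpr hpa
  have : IsLocalRing (R ⧸ Ideal.span {a}) :=
    IsLocalRing.of_surjective' _ Ideal.Quotient.mk_surjective
  have hmap : maximalIdeal (R ⧸ Ideal.span {a}) = Ideal.span {f b} := by
    rw [← IsLocalRing.map_maximalIdeal_of_surjective f Ideal.Quotient.mk_surjective, hm,
      Ideal.map_span, Set.image_pair]
    have : f a = 0 := Ideal.Quotient.eq_zero_iff_mem.mpr (Ideal.subset_span rfl)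
    rw [this, Ideal.span_insert_zero]
  have ha : a ∈ maximalIdeal R := hm ▸ Ideal.subset_span (by simp)
  -- the image of `P` is the ideal generated by one element
  have himg : ∃ g ∈ P, ∀ x ∈ P, ∃ r, f x = f (r * g) := by
    classical
    by_cases hz : ∀ x ∈ P, f x = 0
    · exact ⟨0, P.zero_mem, fun x hx => ⟨0, by simp [hz x hx]⟩⟩
    push Not at hz
    have hex : ∃ n, ∃ g ∈ P, ∃ u : (R ⧸ Ideal.span {a})ˣ, f g = u * f b ^ n := by
      obtain ⟨x, hx, hx0⟩ := hz
      obtain ⟨u, n, hun⟩ := exists_unit_mul_pow_of_maximalIdeal_eq_span (f b) hmap hx0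
      exact ⟨n, x, hx, u, hun⟩
    obtain ⟨g, hg, u, hgu⟩ := Nat.find_spec hex
    refine ⟨g, hg, fun x hx => ?_⟩
    by_cases hx0 : f x = 0
    · exact ⟨0, by simp [hx0]⟩
    obtain ⟨v, n, hvn⟩ := exists_unit_mul_pow_of_maximalIdeal_eq_span (f b) hmap hx0
    have hle : Nat.find hex ≤ n := Nat.find_min' hex ⟨x, hx, v, hvn⟩
    obtain ⟨k, hk⟩ := Nat.exists_eq_add_of_le hle
    obtain ⟨w, rfl⟩ : ∃ w, v = w * u := ⟨v * u⁻¹, by rw [inv_mul_cancel_right]⟩
    obtain ⟨r, hr⟩ := Ideal.Quotient.mk_surjective
      ((w : R ⧸ Ideal.span {a}) * f b ^ k)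
    refine ⟨r, ?_⟩
    rw [map_mul, hr, hgu, hvn, hk, pow_add, Units.val_mul]
    ring
  obtain ⟨g, hg, hgen⟩ := himg
  have hPle : P ≤ Ideal.span {g} := by
    refine Submodule.le_of_le_smul_of_le_jacobson_bot (I := Ideal.span {a})
      (IsNoetherian.noetherian P) ?_ ?_
    · rw [IsLocalRing.jacobson_eq_maximalIdeal]
      · exact (Ideal.span_singleton_le_iff_mem _).mpr ha
      · exact bot_ne_top
    · intro x hx
      obtain ⟨r, hr⟩ := hgen x hx
      have hd : x - r * g ∈ Ideal.span {a} := Ideal.Quotient.eq.mp hr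
      rw [Ideal.mem_span_singleton'] at hd
      obtain ⟨s, hs⟩ := hd
      have hsP : s ∈ P := (hP.mem_or_mem (show s * a ∈ P by
        rw [hs]; exact P.sub_mem hx (P.mul_mem_left r hg))).resolve_right haP
      rw [show x = r * g + a • s by rw [smul_eq_mul, mul_comm a s, hs]; ring]
      exact Submodule.add_mem_sup (Ideal.mem_span_singleton'.mpr ⟨r, rfl⟩)
        (Submodule.smul_mem_smul (Ideal.mem_span_singleton_self a) hsP)
  have hPg : P = Ideal.span {g} :=
    le_antisymm hPle ((Ideal.span_singleton_le_iff_mem _).mpr hg)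
  have hg0 : g ≠ 0 := by
    rintro rfl
    exact hP0 (by simpa using hPg)
  exact ⟨g, hg, (Ideal.span_singleton_prime hg0).mp (hPg ▸ hP)⟩

/-- The same ring is integrally closed. -/
theorem isIntegrallyClosed_of_maximalIdeal_eq_span_pair
    (hm : maximalIdeal R = Ideal.span {a, b})
    {p : Ideal R} [p.IsPrime] (hp0 : p ≠ ⊥) (hpm : p < maximalIdeal R) :
    IsIntegrallyClosed R :=
  haveI := uniqueFactorizationMonoid_of_maximalIdeal_eq_span_pair hm hp0 hpm
  inferInstance

/-- The form used for the localisations of the charts. -/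
theorem uniqueFactorizationMonoid_localization_of_pair {B : Type*} [CommRing B] [IsDomain B]
    [IsNoetherianRing B] (c : Ideal B) [c.IsPrime] (p : Ideal B) [p.IsPrime] (hp0 : p ≠ ⊥)
    (hpc : p < c) {x y : B} (hx : x ∈ c) (hy : y ∈ c)
    (h : ∀ z ∈ c, ∃ s ∉ c, s * z ∈ Ideal.span {x, y}) :
    UniqueFactorizationMonoid (Localization.AtPrime c) ∧
      IsIntegrallyClosed (Localization.AtPrime c) := by
  let L := Localization.AtPrime c
  let f := algebraMap B L
  haveI : IsNoetherianRing L := IsLocalization.isNoetherianRing c.primeCompl L inferInstance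
  have hinj : Function.Injective f :=
    IsLocalization.injective L c.primeCompl_le_nonZeroDivisors
  have hdisj : Disjoint (c.primeCompl : Set B) (p : Set B) :=
    Set.disjoint_left.mpr fun z hz hzp => hz (hpc.le hzp)
  haveI : (p.map f).IsPrime :=
    IsLocalization.isPrime_of_isPrime_disjoint c.primeCompl L p inferInstance hdisj
  have hp0' : p.map f ≠ ⊥ := by
    rw [Ne, Ideal.map_eq_bot_iff_of_injective hinj]
    exact hp0
  have hpm : p.map f < maximalIdeal L := by
    refine lt_of_le_of_ne (IsLocalRing.le_maximalIdeal Ideal.IsPrime.ne_top') fun hEq => hpc.ne ?_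
    have h1 := congrArg (Ideal.comap f) hEq
    rw [show Ideal.comap f (maximalIdeal L) = c from Localization.AtPrime.under_maximalIdeal]
      at h1
    exact (IsLocalization.under_map_of_isPrime_disjoint c.primeCompl L inferInstance hdisj).symm.trans
      h1
  have hm : maximalIdeal L = Ideal.span {f x, f y} := by
    rw [← Localization.AtPrime.map_eq_maximalIdeal, ← Set.image_pair, ← Ideal.map_span]
    refine le_antisymm (Ideal.map_le_iff_le_comap.mpr fun z hz => ?_)
      (Ideal.map_mono (Ideal.span_le.mpr (by rintro t (rfl | rfl) <;> assumption)))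
    obtain ⟨s, hs, hsz⟩ := h z hz
    have hu : IsUnit (f s) := IsLocalization.map_units L (⟨s, hs⟩ : c.primeCompl)
    have hmem := Ideal.mem_map_of_mem f hsz
    rw [map_mul] at hmem
    exact (Ideal.unit_mul_mem_iff_mem _ hu).mp hmem
  exact ⟨uniqueFactorizationMonoid_of_maximalIdeal_eq_span_pair hm hp0' hpm,
    isIntegrallyClosed_of_maximalIdeal_eq_span_pair hm hp0' hpm⟩

end Fermat.Agent.Carayol.Reg

end
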