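/-
Theorem of Carayol at `q ^ 2 ∥ M`: generic facts on the closed points over `q` of the
charts of level `q ^ 2 M`: constants, existence of branches, the local ring inside the function
field, and the criterion for regularity at a point with a single branch.
-/
import Fermat.Agent.Carayol.MainLocalDefs
import Fermat.Agent.Carayol.MainChart
import Fermat.Agent.Carayol.MainChartBasic
import Fermat.Agent.Carayol.MainGaussVal
import Fermat.Agent.Carayol.MainRegular
import Fermat.Agent.Curve.BasicModular
import Fermat.Agent.Flat.JacobianBase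

set_option autoImplicit false
set_option linter.style.haveILetI false

noncomputable section

namespace Fermat.Agent.Carayol.Reg

open ModularCurve IntermediateField AlgebraicCurve

set_option maxHeartbeats 1000000
set_option synthInstance.maxHeartbeats 200000

local notation "Ser" => LaurentSeries (AlgebraicClosure ℚ)

variable {A : ValuationSubring (AlgebraicClosure ℚ)} {M q : ℕ} [NeZero M] [Fact q.Prime]

/-! ### Places of the residual curve -/

theorem mem_nonunits_iff_ord {P : Pt A M} {g : RFld A M} :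
    g ∈ P.toValuationSubring.nonunits ↔ g = 0 ∨ 0 < P.ord g := by
  rw [ValuationSubring.mem_nonunits_iff_or]
  refine or_congr_right' fun _ => ?_
  rw [Curve.mem_iff_ord_nonneg P, P.ord_inv]
  omega

theorem mem_place_iff {P : Pt A M} {g : RFld A M} :
    g ∈ P.toValuationSubring ↔ g = 0 ∨ 0 ≤ P.ord g := by
  rw [Curve.mem_iff_ord_nonneg P]
  refine ⟨Or.inr, ?_⟩
  rintro (rfl | h)
  · rw [P.ord_zero]
  · exact h

theorem hasValue_iff {P : Pt A M} {g : RFld A M} {r : Res A} :
    HasValue A M P g r ↔
      g - algebraMap (Res A) (RFld A M) r ∈ P.toValuationSubring.nonunits := by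
  rw [mem_nonunits_iff_ord, HasValue, sub_eq_zero]

theorem hasValue_zero_iff {P : Pt A M} {g : RFld A M} :
    HasValue A M P g 0 ↔ g ∈ P.toValuationSubring.nonunits := by
  rw [hasValue_iff, map_zero, sub_zero]

/-- The value of a regular function. -/
theorem exists_hasValue (P : Pt A M) {g : RFld A M} (hg : g ∈ P.toValuationSubring) :
    ∃ r : Res A, HasValue A M P g r := by
  haveI : IsAlgClosed (Res A) := isAlgClosed_res A
  haveI : Module.Finite (Res A) P.ResidueField := Curve.finite_residueField P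
  obtain ⟨r, hr⟩ := IsAlgClosed.algebraMap_bijective_of_isIntegral (k := Res A)
    (K := P.ResidueField) |>.2 (IsLocalRing.residue _ ⟨g, hg⟩)
  refine ⟨r, hasValue_iff.mpr ?_⟩
  have hr' : IsLocalRing.residue P.toValuationSubring
      (algebraMap (Res A) P.toValuationSubring r) = IsLocalRing.residue _ ⟨g, hg⟩ := hr
  rw [← sub_eq_zero, ← map_sub, IsLocalRing.residue_eq_zero_iff,
    ← ValuationSubring.coe_mem_nonunits_iff] at hr'
  have := P.toValuationSubring.nonunits.neg_mem' (x := _) hr'
  simpa using this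

/-! ### Constants -/

theorem residue_inertiaInt_surjective (hA : A.LiesOverPrime q) (r : Res A) :
    ∃ (a : inertiaField A) (h : (a : AlgebraicClosure ℚ) ∈ A),
      IsLocalRing.residue A ⟨(a : AlgebraicClosure ℚ), h⟩ = r := by
  obtain ⟨z, hz, hfix⟩ := FlatModel.JacBase.exists_lift_fixed hA r
  exact ⟨⟨z, fun σ => hfix σ σ.2⟩, z.2, hz⟩

/-- A constant of `𝒪` as an element of a chart. -/
def constElt (b : Bool) (a : inertiaField A) (ha : (a : AlgebraicClosure ℚ) ∈ A) :
    chart₂ A M q b :=
  ⟨algebraMap (inertiaField A) (F₂ A M q) a,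
    constInt_le_chart _ ⟨a, ha, rfl⟩⟩

theorem constElt_mem (b : Bool) (a : inertiaField A) (ha : (a : AlgebraicClosure ℚ) ∈ A) :
    (constElt (M := M) (q := q) b a ha : F₂ A M q) ∈ constInt A (M * q * q) :=
  ⟨a, ha, rfl⟩

/-! ### The reductions of a chart -/

variable (hA : A.LiesOverPrime q) (hqM : ¬ q ∣ M)

/-- The reduction of a chart on a component. -/
def chartRes (b : Bool) (s : Side) : chart₂ A M q b →+* RFld A M :=
  (sideRes A M q s).comp (Subring.inclusion (chart_le_sideInt hA hqM b s))

theorem chartRes_eq {b : Bool} {s : Side} (x : chart₂ A M q b)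
    (h : (x : F₂ A M q) ∈ sideInt A M q s) :
    sideRes A M q s ⟨x, h⟩ = chartRes hA hqM b s x := rfl

theorem coe_chartRes {b : Bool} {s : Side} (x : chart₂ A M q b) :
    (chartRes hA hqM b s x : ResSer A) = red A (sideEmb A M q s (x : F₂ A M q)) := by
  rw [chartRes, RingHom.comp_apply, coe_sideRes, Subring.coe_inclusion]

theorem isBranch_iff {b : Bool} {c : Ideal (chart₂ A M q b)} {s : Side} {P : Pt A M} :
    IsBranch A M q b c s P ↔ ∀ x : chart₂ A M q b,
      chartRes hA hqM b s x ∈ P.toValuationSubring ∧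
        (x ∈ c ↔ chartRes hA hqM b s x ∈ P.toValuationSubring.nonunits) := by
  refine forall_congr' fun x => ⟨?_, fun h => ⟨chart_le_sideInt hA hqM b s x.2, ?_⟩⟩
  · rintro ⟨h, h1, h2⟩
    exact ⟨mem_place_iff.mpr h1, h2.trans hasValue_zero_iff⟩
  · exact ⟨mem_place_iff.mp h.1, h.2.trans hasValue_zero_iff.symm⟩

theorem chartRes_constElt (b : Bool) (s : Side) (a : inertiaField A)
    (ha : (a : AlgebraicClosure ℚ) ∈ A) :
    chartRes hA hqM b s (constElt b a ha) =
      algebraMap (Res A) (RFld A M) (IsLocalRing.residue A ⟨a, ha⟩) := by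
  apply Subtype.ext
  rw [coe_chartRes]
  change red A (sideEmb A M q s (algebraMap (inertiaField A) (F₂ A M q) a)) = _
  rw [AlgHom.commutes, IsScalarTower.algebraMap_apply (inertiaField A) (AlgebraicClosure ℚ) Ser]
  exact (red_algebraMap ha).2

theorem exists_constElt (r : Res A) :
    ∃ (a : inertiaField A) (ha : (a : AlgebraicClosure ℚ) ∈ A), ∀ b s,
      chartRes hA hqM b s (constElt b a ha) = algebraMap (Res A) (RFld A M) r := by
  obtain ⟨a, ha, rfl⟩ := residue_inertiaInt_surjective hA r
  exact ⟨a, ha, fun b s => chartRes_constElt hA hqM b s a ha⟩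

/-- The reduction of the coordinate on each component. -/
def coordRes (b : Bool) : Side → RFld A M
  | .s20 => jResCoord A M b
  | .s11 => jResCoord A M b
  | .s02 => jResCoord A M b ^ (q * q)

omit [NeZero M] [Fact q.Prime] in
theorem jElt_isGaussUnit :
    IsGaussUnit A (jqModC (AlgebraicClosure ℚ)) ∧
      red A (jqModC (AlgebraicClosure ℚ)) = jqModC (Res A) := by
  have h := red_coeffMap (A := A) (jqModC A)
  rw [coeffMap_jqModC, coeffMap_jqModC] at h
  refine ⟨⟨h.1, ?_⟩, h.2⟩
  rw [h.2]
  intro h0
  exact Curve.transcendental_jqModC' (Res A) (h0 ▸ isAlgebraic_zero)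

omit [Fact q.Prime] in
theorem jCoord_mem_gaussInt (b : Bool) :
    (jCoord A M b : Ser) ∈ GaussInt A ∧
      red A (jCoord A M b : Ser) = (jResCoord A M b : ResSer A) := by
  have h := jElt_isGaussUnit (A := A)
  cases b with
  | false => exact ⟨h.1.1, h.2⟩
  | true =>
    have hi := h.1.inv
    have hmul := red_mul h.1.1 hi.1
    rw [mul_inv_cancel₀ h.1.ne_zero, red_one, h.2] at hmul
    refine ⟨?_, ?_⟩
    · simpa [jCoord, jElt] using hi.1
    · have : red A ((jqModC (AlgebraicClosure ℚ))⁻¹) = (jqModC (Res A))⁻¹ :=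
        eq_inv_of_mul_eq_one_right hmul.symm
      simpa [jCoord, jElt, jResCoord, jRes] using this

omit [NeZero M] in
theorem charP_res (hA : A.LiesOverPrime q) : CharP (Res A) q := by
  refine CharP.charP_iff_prime_eq_zero (Fact.out : q.Prime) |>.2 ?_
  rw [← map_natCast (IsLocalRing.residue A), IsLocalRing.residue_eq_zero_iff,
    ← ValuationSubring.coe_mem_nonunits_iff]
  exact_mod_cast hA

theorem frobRes_jResCoord (hA : A.LiesOverPrime q) (b : Bool) :
    frobRes (q := q) (jResCoord A M b : ResSer A) = (jResCoord A M b : ResSer A) ^ q := by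
  haveI := charP_res (A := A) hA
  cases b with
  | false =>
    change qExpand (Res A) q (jqModC (Res A)) = jqModC (Res A) ^ q
    rw [jqModC_pow_prime]
  | true =>
    have : (jResCoord A M true : ResSer A) = (jqModC (Res A))⁻¹ := by simp [jResCoord, jRes]
    rw [this, frobRes, map_inv₀, inv_pow, jqModC_pow_prime]

theorem chartRes_jCoord (b : Bool) (s : Side) :
    chartRes hA hqM b s ⟨jCoord A (M * q * q) b, self_mem_chart _⟩ =
      coordRes (q := q) b s := by
  have hx : jCoord A (M * q * q) b = x₂ A M q (jCoord A M b) := by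
    cases b with
    | false => exact Subtype.ext rfl
    | true =>
      change (jElt A (M * q * q))⁻¹ = x₂ A M q (jElt A M)⁻¹
      rw [map_inv₀]
      exact congrArg _ (Subtype.ext rfl)
  have hg := jCoord_mem_gaussInt (A := A) (M := M) b
  have h := red_x₂ hA hqM (jCoord A M b) hg.1
  rw [hg.2] at h
  apply Subtype.ext
  rw [coe_chartRes]
  change red A (sideEmb A M q s (jCoord A (M * q * q) b)) = _
  rw [hx]
  cases s with
  | s20 => exact h.1
  | s11 => exact h.2.1
  | s02 =>
    rw [h.2.2, frobRes_jResCoord hA]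
    change qExpand (Res A) q ((jResCoord A M b : ResSer A) ^ q) = _
    rw [map_pow]
    change frobRes (q := q) (jResCoord A M b : ResSer A) ^ q = _
    rw [frobRes_jResCoord hA, ← pow_mul]
    rfl

theorem transcendental_coordRes (b : Bool) (s : Side) :
    Transcendental (Res A) (coordRes (A := A) (M := M) (q := q) b s) := by
  have h0 : Transcendental (Res A) (jRes A M) := by
    intro h
    exact Curve.transcendental_jqModC' (Res A) (h.algHom (RFld A M).val)
  have h1 : Transcendental (Res A) (jResCoord A M b) := by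
    cases b with
    | false => exact h0
    | true => exact Curve.transcendental_inv h0
  cases s with
  | s20 => exact h1
  | s11 => exact h1
  | s02 => exact h1.pow (Nat.mul_pos (NeZero.pos q) (NeZero.pos q))

/-- The reduction of the chart is regular wherever that of the coordinate is. -/
theorem chartRes_regular {b : Bool} {s : Side} {P : Pt A M}
    (hP : coordRes (q := q) b s ∈ P.toValuationSubring) (x : chart₂ A M q b) :
    chartRes hA hqM b s x ∈ P.toValuationSubring := by
  let V := P.toValuationSubring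
  let S : Subring (F₂ A M q) :=
    (V.toSubring.comap (chartRes hA hqM b s)).map (chart₂ A M q b).subtype
  have hbase : chartBase A (jCoord A (M * q * q) b) ≤ S := by
    refine sup_le ?_ (Subring.closure_le.mpr ?_)
    · rintro _ ⟨a, ha, rfl⟩
      exact ⟨constElt b a (show (a : AlgebraicClosure ℚ) ∈ A from ha), by
        show chartRes hA hqM b s _ ∈ V
        rw [chartRes_constElt]
        exact P.algebraMap_mem' _, rfl⟩
    · rintro _ rfl
      exact ⟨⟨_, self_mem_chart _⟩, by
        show chartRes hA hqM b s _ ∈ V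
        rw [chartRes_jCoord]
        exact hP, rfl⟩
  obtain ⟨p, hpm, hp0⟩ := x.2
  let ι : chartBase A (jCoord A (M * q * q) b) →+* chart₂ A M q b :=
    Subring.inclusion fun y hy => by
      obtain ⟨z, -, rfl⟩ := hbase hy
      exact z.2
  have hint : ∀ y, chartRes hA hqM b s (ι y) ∈ V := fun y => by
    obtain ⟨z, hz, hzy⟩ := hbase y.2
    have : ι y = z := Subtype.ext hzy.symm
    rw [this]
    exact hz
  let θ : chartBase A (jCoord A (M * q * q) b) →+* V :=
    ((chartRes hA hqM b s).comp ι).codRestrict V.toSubring hint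
  have hroot : p.eval₂ ι x = 0 := by
    apply Subtype.val_injective
    rw [ZeroMemClass.coe_zero, ← hp0]
    exact (Polynomial.hom_eval₂ p ι (chart₂ A M q b).subtype x)
  have hx : IsIntegral V (chartRes hA hqM b s x) := by
    refine ⟨p.map θ, hpm.map θ, ?_⟩
    rw [Polynomial.eval₂_map]
    have := congrArg (chartRes hA hqM b s) hroot
    rwa [Polynomial.hom_eval₂, map_zero] at this
  obtain ⟨y, hy⟩ := IsIntegrallyClosed.algebraMap_eq_of_integral hx
  exact hy ▸ y.2

/-! ### Existence of branches -/

include hA hqM in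
/-- Some component passes through each point over `q`. -/
theorem exists_side_ker_le (b : Bool) (c : Ideal (chart₂ A M q b)) [c.IsPrime]
    (hc : (q : chart₂ A M q b) ∈ c) :
    ∃ s, ∀ x : chart₂ A M q b, chartRes hA hqM b s x = 0 → x ∈ c := by
  by_contra! h
  choose x hx hxc using h
  have hg : ∀ s, chartRes hA hqM b s (x .s20 * x .s11 * x .s02) = 0 := by
    intro s
    rw [map_mul, map_mul]
    cases s <;> simp [hx]
  obtain ⟨y, hy⟩ := exists_pow_eq_natCast_mul hA hqM b (x .s20 * x .s11 * x .s02) hg
  have hmem : x .s20 * x .s11 * x .s02 ∈ c :=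
    Ideal.IsPrime.mem_of_pow_mem inferInstance (q - 1) (hy ▸ c.mul_mem_right y hc)
  rcases Ideal.IsPrime.mem_or_mem inferInstance hmem with h | h
  · rcases Ideal.IsPrime.mem_or_mem inferInstance h with h | h
    · exact hxc _ h
    · exact hxc _ h
  · exact hxc _ h

include hA hqM in
/-- A component whose kernel lies in `c` has a branch through `c`. -/
theorem exists_isBranch_of_ker_le (b : Bool) (c : Ideal (chart₂ A M q b)) [c.IsMaximal] (s : Side)
    (hs : ∀ x : chart₂ A M q b, chartRes hA hqM b s x = 0 → x ∈ c) :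
    ∃ P, IsBranch A M q b c s P := by
  haveI : IsAlgClosed (Res A) := isAlgClosed_res A
  let φ := chartRes hA hqM b s
  let I : Ideal φ.range := c.map φ.rangeRestrict
  have hcomap : I.comap φ.rangeRestrict = c := by
    rw [Ideal.comap_map_of_surjective _ φ.rangeRestrict_surjective, sup_eq_left]
    intro x hx
    exact hs x (congrArg Subtype.val hx)
  have hI : I ≠ ⊤ := fun h => Ideal.IsMaximal.ne_top inferInstance
    (hcomap.symm.trans (by rw [h, Ideal.comap_top]))
  obtain ⟨V, hV, hVn⟩ := Ideal.image_subset_nonunits_valuationSubring _ hI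
  have hmemV : ∀ x, φ x ∈ V := fun x => hV ⟨x, rfl⟩
  have hcV : ∀ x ∈ c, φ x ∈ V.nonunits := fun x hx =>
    hVn ⟨φ.rangeRestrict x, Ideal.mem_map_of_mem _ hx, rfl⟩
  have hVc : ∀ x, φ x ∈ V.nonunits → x ∈ c := by
    intro x hx
    by_contra hxc
    obtain ⟨y, z, hz, hyz⟩ := Ideal.IsMaximal.exists_inv inferInstance hxc
    have h1 : (1 : RFld A M) = φ y * φ x + φ z := by rw [← map_mul, ← map_add, hyz, map_one]
    have hnu : φ y * φ x + φ z ∈ V.nonunits := by
      have hyx : φ y * φ x ∈ V.nonunits := by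
        rw [ValuationSubring.mem_nonunits_iff] at hx ⊢
        rw [map_mul]
        exact mul_lt_one_of_nonneg_of_lt_one_right ((V.valuation_le_one_iff _).mpr (hmemV y))
          zero_le hx
      rw [ValuationSubring.mem_nonunits_iff] at hyx ⊢
      exact lt_of_le_of_lt (Valuation.map_add _ _ _)
        (max_lt hyx (V.mem_nonunits_iff.mp (hcV z hz)))
    rw [← h1, ValuationSubring.mem_nonunits_iff, map_one] at hnu
    exact lt_irrefl _ hnu
  have hk : ∀ r : Res A, algebraMap (Res A) (RFld A M) r ∈ V := fun r => by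
    obtain ⟨a, ha, hr⟩ := exists_constElt hA hqM r
    rw [← hr b s]
    exact hmemV _
  -- a non-zero element of the maximal ideal
  obtain ⟨x₀, hx₀c, hx₀⟩ : ∃ x ∈ c, φ x ≠ 0 := by
    by_contra! hcon
    obtain ⟨v, hv⟩ := Curve.exists_place_ord_pos (K := Res A) (F := RFld A M)
      (transcendental_coordRes (q := q) (A := A) (M := M) b s)
    set X : chart₂ A M q b := ⟨jCoord A (M * q * q) b, self_mem_chart _⟩
    have hX : φ X = coordRes b s := chartRes_jCoord hA hqM b s
    have hXc : X ∉ c := fun h => by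
      have := hcon X h
      rw [hX] at this
      exact transcendental_coordRes (q := q) (A := A) (M := M) b s (this ▸ isAlgebraic_zero)
    obtain ⟨y, z, hz, hyz⟩ := Ideal.IsMaximal.exists_inv inferInstance hXc
    have h1 : φ y * coordRes (q := q) b s = 1 := by
      rw [← hX, ← map_mul, ← add_zero (φ (y * X)), ← hcon z hz, ← map_add, hyz, map_one]
    have hy : φ y ∈ v.toValuationSubring :=
      chartRes_regular hA hqM (Curve.mem_of_ord_nonneg v hv.le) y
    rw [eq_inv_of_mul_eq_one_left h1, Curve.mem_iff_ord_nonneg v, v.ord_inv] at hy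
    omega
  have ht : Transcendental (Res A) (φ x₀) := by
    intro halg
    obtain ⟨r, hr'⟩ : φ x₀ ∈ (algebraMap (Res A) (RFld A M)).range :=
      minpoly.degree_eq_one_iff.mp
        (IsAlgClosed.degree_eq_one_of_irreducible _ (minpoly.irreducible halg.isIntegral))
    have hr0 : r ≠ 0 := by rintro rfl; exact hx₀ (by rw [← hr', map_zero])
    have h := hcV x₀ hx₀c
    rw [← hr', ValuationSubring.mem_nonunits_iff_or] at h
    refine h.elim (fun h => hr0 ((map_eq_zero _).mp h)) fun h => h ?_
    rw [← map_inv₀]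
    exact hk _
  let P : Pt A M :=
    { toValuationSubring := V
      algebraMap_mem' := hk
      ne_top' := fun h => (((V.mem_nonunits_iff_or).mp (hcV x₀ hx₀c)).resolve_left hx₀)
        (h ▸ ValuationSubring.mem_top _)
      isPrincipalIdealRing' := Curve.isPrincipalIdealRing_of_mem_nonunits ht V hk (hcV x₀ hx₀c) }
  exact ⟨P, (isBranch_iff hA hqM).mpr fun x => ⟨hmemV x, hcV x, hVc x⟩⟩

include hA hqM in
theorem exists_branch (b : Bool) (c : Ideal (chart₂ A M q b)) [c.IsMaximal]
    (hc : (q : chart₂ A M q b) ∈ c) : ∃ s P, IsBranch A M q b c s P := by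
  obtain ⟨s, hs⟩ := exists_side_ker_le hA hqM b c hc
  exact ⟨s, exists_isBranch_of_ker_le hA hqM b c s hs⟩

include hA hqM in
/-- The residue fields are the constants. -/
theorem exists_constInt_sub_mem (b : Bool) (c : Ideal (chart₂ A M q b)) [c.IsMaximal]
    (hc : (q : chart₂ A M q b) ∈ c) (x : chart₂ A M q b) :
    ∃ a : chart₂ A M q b, (a : F₂ A M q) ∈ constInt A (M * q * q) ∧ x - a ∈ c := by
  obtain ⟨s, P, hP⟩ := exists_branch hA hqM b c hc
  rw [isBranch_iff hA hqM] at hP
  obtain ⟨r, hr⟩ := exists_hasValue P (hP x).1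
  obtain ⟨a, ha, har⟩ := exists_constElt hA hqM r
  refine ⟨constElt b a ha, constElt_mem b a ha, (hP _).2.mpr ?_⟩
  rw [map_sub, har b s]
  exact hasValue_iff.mp hr

include hA hqM in
/-- Every place at which the chart is regular is a branch at some point. -/
theorem exists_isMaximal_isBranch (b : Bool) (s : Side) (P : Pt A M)
    (hP : ∀ x : chart₂ A M q b, chartRes hA hqM b s x ∈ P.toValuationSubring) :
    ∃ c : Ideal (chart₂ A M q b), c.IsMaximal ∧ IsBranch A M q b c s P := by
  let ψ : chart₂ A M q b →+* P.toValuationSubring :=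
    (chartRes hA hqM b s).codRestrict P.toValuationSubring.toSubring hP
  let c := (IsLocalRing.maximalIdeal P.toValuationSubring).comap ψ
  have hc : ∀ x, x ∈ c ↔ chartRes hA hqM b s x ∈ P.toValuationSubring.nonunits := fun x =>
    (ValuationSubring.coe_mem_nonunits_iff (A := P.toValuationSubring) (a := ψ x)).symm
  refine ⟨c, Ideal.isMaximal_iff.mpr ⟨fun h => ?_, fun J x hcJ hxc hxJ => ?_⟩,
    (isBranch_iff hA hqM).mpr fun x => ⟨hP x, hc x⟩⟩
  · rw [hc, map_one, ValuationSubring.mem_nonunits_iff, map_one] at h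
    exact lt_irrefl _ h
  · obtain ⟨r, hr⟩ := exists_hasValue P (hP x)
    have hr0 : r ≠ 0 := by
      rintro rfl
      exact hxc ((hc x).mpr (hasValue_zero_iff.mp hr))
    obtain ⟨a, ha, har⟩ := exists_constElt hA hqM r
    obtain ⟨a', ha', har'⟩ := exists_constElt hA hqM r⁻¹
    have h1 : x - constElt b a ha ∈ c := (hc _).mpr (by
      rw [map_sub, har b s]; exact hasValue_iff.mp hr)
    have h2 : constElt b a ha * constElt b a' ha' - 1 ∈ c := (hc _).mpr (by
      rw [map_sub, map_mul, har b s, har' b s, map_one, ← map_mul, mul_inv_cancel₀ hr0, map_one,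
        sub_self, ValuationSubring.mem_nonunits_iff, map_zero]
      exact zero_lt_one)
    have h3 : constElt b a ha ∈ J := by
      have := J.sub_mem hxJ (hcJ h1)
      rwa [sub_sub_cancel] at this
    have := J.sub_mem (J.mul_mem_right (constElt b a' ha') h3) (hcJ h2)
    rwa [sub_sub_cancel] at this

include hA hqM in
/-- Branches through one point see the same values. -/
theorem mem_nonunits_iff_of_isBranch {b : Bool} {c : Ideal (chart₂ A M q b)} {s s' : Side}
    {P P' : Pt A M} (h : IsBranch A M q b c s P) (h' : IsBranch A M q b c s' P')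
    (x : chart₂ A M q b) :
    chartRes hA hqM b s x ∈ P.toValuationSubring.nonunits ↔
      chartRes hA hqM b s' x ∈ P'.toValuationSubring.nonunits :=
  ((isBranch_iff hA hqM).mp h x).2.symm.trans ((isBranch_iff hA hqM).mp h' x).2

include hA hqM in
theorem natCast_mem_of_isBranch {b : Bool} {c : Ideal (chart₂ A M q b)} {s : Side}
    {P : Pt A M} (h : IsBranch A M q b c s P) : (q : chart₂ A M q b) ∈ c := by
  haveI := charP_res (A := A) hA
  refine ((isBranch_iff hA hqM).mp h _).2.mpr ?_
  rw [map_natCast, ← map_natCast (algebraMap (Res A) (RFld A M)), CharP.cast_eq_zero, map_zero,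
    ValuationSubring.mem_nonunits_iff, map_zero]
  exact zero_lt_one

/-! ### The local ring inside the function field -/

/-- The local ring of the chart at `c`, inside `F₂`. -/
def locRing {b : Bool} (c : Ideal (chart₂ A M q b)) [c.IsPrime] : Subring (F₂ A M q) where
  carrier := {f | ∃ u : chart₂ A M q b, u ∉ c ∧ ∃ g : chart₂ A M q b,
    (u : F₂ A M q) * f = g}
  one_mem' := ⟨1, c.one_notMem, 1, by simp⟩
  zero_mem' := ⟨1, c.one_notMem, 0, by simp⟩
  neg_mem' := by rintro f ⟨u, hu, g, h⟩; exact ⟨u, hu, -g, by simp [h]⟩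
  mul_mem' := by
    rintro f f' ⟨u, hu, g, h⟩ ⟨u', hu', g', h'⟩
    refine ⟨u * u', Ideal.IsPrime.mul_notMem inferInstance hu hu', g * g', ?_⟩
    push_cast
    rw [← h, ← h']
    ring
  add_mem' := by
    rintro f f' ⟨u, hu, g, h⟩ ⟨u', hu', g', h'⟩
    refine ⟨u * u', Ideal.IsPrime.mul_notMem inferInstance hu hu',
      u' * g + u * g', ?_⟩
    push_cast
    rw [← h, ← h']
    ring

/-- The maximal ideal of the local ring, as a predicate. -/
def LocMax {b : Bool} (c : Ideal (chart₂ A M q b)) (f : F₂ A M q) : Prop :=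
  ∃ u : chart₂ A M q b, u ∉ c ∧ ∃ g ∈ c, (u : F₂ A M q) * f = (g : chart₂ A M q b)

theorem chart₂_le_locRing {b : Bool} (c : Ideal (chart₂ A M q b)) [c.IsPrime] :
    chart₂ A M q b ≤ locRing c :=
  fun x hx => ⟨1, c.one_notMem, ⟨x, hx⟩, by simp⟩

/-- The local ring is integrally closed. -/
theorem mem_locRing_of_isIntegral {b : Bool} (c : Ideal (chart₂ A M q b)) [c.IsPrime]
    {f : F₂ A M q} {p : Polynomial (F₂ A M q)} (hp : p.Monic)
    (hcoef : ∀ i, p.coeff i ∈ locRing c) (hroot : p.eval f = 0) : f ∈ locRing c := by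
  classical
  choose u hu g hg using hcoef
  set N := p.natDegree
  set U : chart₂ A M q b := ∏ i ∈ Finset.range N, u i with hU
  have hUc : U ∉ c := by
    rw [hU, Ideal.IsPrime.prod_mem_iff]
    rintro ⟨i, -, h⟩
    exact hu i h
  have hlift : p.scaleRoots (U : F₂ A M q) ∈ Polynomial.lifts (chart₂ A M q b).subtype := by
    rw [Polynomial.lifts_iff_coeff_lifts]
    intro i
    rw [Polynomial.coeff_scaleRoots]
    rcases lt_trichotomy i N with hi | rfl | hi
    · obtain ⟨m, hm⟩ : ∃ m, N - i = m + 1 := ⟨N - i - 1, by omega⟩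
      refine ⟨(∏ j ∈ (Finset.range N).erase i, u j) * g i * U ^ m, ?_⟩
      have hsplit : (U : F₂ A M q) =
          (u i : F₂ A M q) * ((∏ j ∈ (Finset.range N).erase i, u j : chart₂ A M q b) : F₂ A M q) := by
        rw [← Subring.coe_mul, hU, Finset.mul_prod_erase _ _ (Finset.mem_range.mpr hi)]
      rw [show p.natDegree - i = m + 1 from hm, pow_succ, map_mul, map_mul, map_pow]
      simp only [Subring.subtype_apply]
      rw [← hg i, hsplit]
      ring
    · rw [hp.coeff_natDegree, Nat.sub_self, pow_zero, mul_one]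
      exact ⟨1, map_one _⟩
    · rw [Polynomial.coeff_eq_zero_of_natDegree_lt hi, zero_mul]
      exact ⟨0, map_zero _⟩
  have hroot' : (p.scaleRoots (U : F₂ A M q)).eval ((U : F₂ A M q) * f) = 0 := by
    have := Polynomial.scaleRoots_eval₂_eq_zero (p := p) (RingHom.id _) (r := f) (s := (U : F₂ A M q))
      (by simpa using hroot)
    simpa using this
  obtain ⟨P, hPmap, -, hPm⟩ := Polynomial.lifts_and_degree_eq_and_monic hlift
    ((Polynomial.monic_scaleRoots_iff _).mpr hp)
  have hint : (U : F₂ A M q) * f ∈ chart₂ A M q b := by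
    letI : Algebra (chartBase A (jCoord A (M * q * q) b)) (F₂ A M q) :=
      (chartBase A (jCoord A (M * q * q) b)).subtype.toAlgebra
    let C := integralClosure (chartBase A (jCoord A (M * q * q) b)) (F₂ A M q)
    have h1 : IsIntegral C ((U : F₂ A M q) * f) := by
      let e : chart₂ A M q b →+* C := (chart₂ A M q b).subtype.codRestrict C fun y => y.2
      refine ⟨P.map e, hPm.map e, ?_⟩
      have hev := (Polynomial.eval₂_map (p := P) e (algebraMap C (F₂ A M q))
        ((U : F₂ A M q) * f))
      rw [← hPmap, Polynomial.eval_map] at hroot'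
      exact hev.trans hroot'
    haveI : Algebra.IsIntegral (chartBase A (jCoord A (M * q * q) b)) C :=
      integralClosure.AlgebraIsIntegral
    exact isIntegral_trans _ h1
  exact ⟨U, hUc, ⟨_, hint⟩, rfl⟩

include hA hqM in
/-- Elements of the local ring on a branch. -/
theorem locRing_branch {b : Bool} {c : Ideal (chart₂ A M q b)} [c.IsPrime] {s : Side}
    {P : Pt A M} (hP : IsBranch A M q b c s P) {f : F₂ A M q} (hf : f ∈ locRing c) :
    ∃ h : f ∈ sideInt A M q s, sideRes A M q s ⟨f, h⟩ ∈ P.toValuationSubring ∧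
      (LocMax c f ↔ sideRes A M q s ⟨f, h⟩ ∈ P.toValuationSubring.nonunits) := by
  rw [isBranch_iff hA hqM] at hP
  obtain ⟨u, hu, g, hg⟩ := hf
  have hu0 : chartRes hA hqM b s u ∉ P.toValuationSubring.nonunits := mt (hP u).2.mpr hu
  have hune : chartRes hA hqM b s u ≠ 0 := fun h => hu0 (mem_nonunits_iff_ord.mpr (Or.inl h))
  have hGU : IsGaussUnit A (sideEmb A M q s (u : F₂ A M q)) :=
    ⟨(mem_gaussInt_of_mem_sideInt A M q s (chart_le_sideInt hA hqM b s u.2)).1, fun h => hune (Subtype.ext (by rw [coe_chartRes, h]; rfl))⟩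
  have h : f ∈ sideInt A M q s := by
    rw [mem_sideInt hA hqM]
    have : sideEmb A M q s f = (sideEmb A M q s (u : F₂ A M q))⁻¹ * sideEmb A M q s g := by
      rw [← hg, map_mul, ← mul_assoc, inv_mul_cancel₀ hGU.ne_zero, one_mul]
    rw [this]
    exact mul_mem hGU.inv.1 (mem_gaussInt_of_mem_sideInt A M q s (chart_le_sideInt hA hqM b s g.2)).1
  have hmul : ∀ {v w : chart₂ A M q b}, (v : F₂ A M q) * f = w →
      chartRes hA hqM b s v * sideRes A M q s ⟨f, h⟩ = chartRes hA hqM b s w := by
    intro v w hvw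
    rw [← chartRes_eq hA hqM v (chart_le_sideInt hA hqM b s v.2), ← map_mul,
      ← chartRes_eq hA hqM w (chart_le_sideInt hA hqM b s w.2)]
    exact congrArg _ (Subtype.ext hvw)
  have hval : ∀ v : chart₂ A M q b, v ∉ c →
      P.toValuationSubring.valuation (chartRes hA hqM b s v) = 1 := fun v hv =>
    le_antisymm ((P.toValuationSubring.valuation_le_one_iff _).mpr (hP v).1)
      (not_lt.mp fun hlt => hv ((hP v).2.mpr hlt))
  refine ⟨h, ?_, ⟨?_, fun hnu => ⟨u, hu, g, ?_, hg⟩⟩⟩
  · rw [← ValuationSubring.valuation_le_one_iff]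
    have := congrArg P.toValuationSubring.valuation (hmul hg)
    rw [map_mul, hval u hu, one_mul] at this
    rw [this, ValuationSubring.valuation_le_one_iff]
    exact (hP g).1
  · rintro ⟨v, hv, w, hw, hvw⟩
    rw [ValuationSubring.mem_nonunits_iff]
    have := congrArg P.toValuationSubring.valuation (hmul hvw)
    rw [map_mul, hval v hv, one_mul] at this
    rw [this]
    exact (hP w).2.mp hw
  · refine (hP g).2.mpr ?_
    rw [ValuationSubring.mem_nonunits_iff, ← hmul hg, map_mul, hval u hu, one_mul]
    exact hnu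

/-! ### Regularity at a point with one branch -/

/-- Elements of the chart are integral over the generic chart. -/
theorem isIntegral_adjoin_of_mem_chart₂ {b : Bool} {x : F₂ A M q} (hx : x ∈ chart₂ A M q b) :
    IsIntegral (Algebra.adjoin (inertiaField A) {jCoord A (M * q * q) b}) x := by
  set K' := Algebra.adjoin (inertiaField A) {jCoord A (M * q * q) b}
  obtain ⟨p, hpm, hp0⟩ := hx
  have hle : chartBase A (jCoord A (M * q * q) b) ≤ K'.toSubring := by
    refine sup_le ?_ (Subring.closure_le.mpr ?_)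
    · rintro _ ⟨a, -, rfl⟩
      exact K'.algebraMap_mem a
    · rintro _ rfl
      exact Algebra.self_mem_adjoin_singleton _ _
  refine ⟨p.map (Subring.inclusion hle), hpm.map _, ?_⟩
  rw [Polynomial.eval₂_map]
  exact hp0

include hA hqM in
/-- On an extreme component the kernel is generated by `q` outside the other components. -/
theorem exists_pow_mul_eq_natCast_mul {b : Bool} {s : Side} (hs : s ≠ .s11)
    (e x : chart₂ A M q b) (he : ∀ s', s' ≠ s → chartRes hA hqM b s' e = 0)
    (hx : chartRes hA hqM b s x = 0) :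
    ∃ y : chart₂ A M q b, e ^ (q - 1) * x = (q : chart₂ A M q b) * y := by
  rcases eq_or_ne x 0 with rfl | hx0
  · exact ⟨0, by simp⟩
  rcases eq_or_ne e 0 with rfl | he0
  · refine ⟨0, ?_⟩
    rw [zero_pow (by have := two_le_q q; omega), zero_mul, mul_zero]
  set w : F₂ A M q := ((e : F₂ A M q) ^ (q - 1) * x) * (q : F₂ A M q)⁻¹ with hw
  have hq0 : (q : F₂ A M q) ≠ 0 := Nat.cast_ne_zero.mpr (Fact.out : q.Prime).ne_zero
  have he0' : (e : F₂ A M q) ≠ 0 := fun h => he0 (Subtype.ext h)
  have hx0' : (x : F₂ A M q) ≠ 0 := fun h => hx0 (Subtype.ext h)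
  suffices hmem : w ∈ chart₂ A M q b by
    refine ⟨⟨w, hmem⟩, Subtype.ext ?_⟩
    push_cast
    rw [hw]
    field_simp
  refine mem_chart₂_of hA hqM b w ?_ fun s' => ?_
  · rw [hw]
    refine (((isIntegral_adjoin_of_mem_chart₂ e.2).pow _).mul
      (isIntegral_adjoin_of_mem_chart₂ x.2)).mul ?_
    have : (q : F₂ A M q)⁻¹ = algebraMap (inertiaField A) (F₂ A M q) (q : inertiaField A)⁻¹ := by
      rw [map_inv₀, map_natCast]
    rw [this, IsScalarTower.algebraMap_apply (inertiaField A)
      (Algebra.adjoin (inertiaField A) {jCoord A (M * q * q) b}) (F₂ A M q)]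
    exact isIntegral_algebraMap
  · have hpos : ∀ {s'' : Side} {y : chart₂ A M q b}, (y : F₂ A M q) ≠ 0 →
        chartRes hA hqM b s'' y = 0 → 0 < sideVal A M q s'' y := fun {s'' y} hy h =>
      (sideRes_eq_zero_iff hA hqM s'' (f := ⟨y, chart_le_sideInt hA hqM b s'' y.2⟩) hy).mp h
    have hnonneg : ∀ {s'' : Side} {y : chart₂ A M q b}, (y : F₂ A M q) ≠ 0 →
        0 ≤ sideVal A M q s'' y := fun {s'' y} hy =>
      (mem_sideInt_iff hA hqM s'' hy).mp (chart_le_sideInt hA hqM b s'' y.2)
    have hep : (e : F₂ A M q) ^ (q - 1) ≠ 0 := pow_ne_zero _ he0'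
    rw [mem_sideInt_iff hA hqM s' (mul_ne_zero (mul_ne_zero hep hx0') (inv_ne_zero hq0))]
    have hv : sideVal A M q s' w + sideVal A M q s' (q : F₂ A M q) =
        sideVal A M q s' ((e : F₂ A M q) ^ (q - 1)) + sideVal A M q s' x := by
      rw [← sideVal_mul hA hqM s' (mul_ne_zero (mul_ne_zero hep hx0') (inv_ne_zero hq0)) hq0,
        ← sideVal_mul hA hqM s' hep hx0', inv_mul_cancel_right₀ hq0]
    have hpow : ∀ n : ℕ, sideVal A M q s' ((e : F₂ A M q) ^ n) = n * sideVal A M q s' e := by
      intro n
      induction n with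
      | zero =>
        have h1 := sideVal_mul hA hqM s' (f := (1 : F₂ A M q)) (g := 1) one_ne_zero one_ne_zero
        rw [mul_one] at h1
        rw [pow_zero, Nat.cast_zero, zero_mul]
        omega
      | succ n ih =>
        rw [pow_succ, sideVal_mul hA hqM s' (pow_ne_zero n he0') he0', ih]
        push_cast
        ring
    obtain ⟨h20, h02, h11⟩ := sideVal_algebraMap_natCast hA hqM
    have hq1 : ((q - 1 : ℕ) : ℤ) = (q : ℤ) - 1 := by have := two_le_q q; omega
    have h2 : (2 : ℤ) ≤ q := by exact_mod_cast two_le_q q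
    rw [hpow, hq1] at hv
    change 0 ≤ sideVal A M q s' w
    rcases eq_or_ne s' s with rfl | hne
    · have h1 := hpos hx0' hx
      have h3 := hnonneg (s'' := s') he0'
      cases s' with
      | s20 => nlinarith
      | s02 => nlinarith
      | s11 => exact absurd rfl hs
    · have h1 := hpos he0' (he s' hne)
      have h3 := hnonneg (s'' := s') hx0'
      cases s' <;> nlinarith

include hA hqM in
/-- A point with one branch whose kernel is principal in the local ring is regular. -/
theorem uniqueFactorizationMonoid_of_isBranch {b : Bool} {c : Ideal (chart₂ A M q b)}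
    [c.IsMaximal] {s : Side} {P : Pt A M} (hP : IsBranch A M q b c s P)
    (hlift : ∀ g : RFld A M, g ∈ P.toValuationSubring → ∃ x y : chart₂ A M q b, y ∉ c ∧
      chartRes hA hqM b s x = chartRes hA hqM b s y * g)
    (w : chart₂ A M q b) (hw : w ∈ c)
    (hker : ∀ x : chart₂ A M q b, chartRes hA hqM b s x = 0 →
      ∃ u ∉ c, u * x ∈ Ideal.span {w}) :
    UniqueFactorizationMonoid (Localization.AtPrime c) := by
  haveI := isNoetherianRing_chart hA (M * q * q) b
  have hqc := natCast_mem_of_isBranch hA hqM hP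
  rw [isBranch_iff hA hqM] at hP
  obtain ⟨π, -, hπ⟩ := Curve.exists_ord_eq P 1
  have hπn : π ∈ P.toValuationSubring.nonunits := mem_nonunits_iff_ord.mpr (Or.inr (by omega))
  have hπ0 : π ≠ 0 := fun h => by rw [h, P.ord_zero] at hπ; omega
  obtain ⟨x₁, y₁, hy₁, h1⟩ := hlift π (ValuationSubring.nonunits_subset hπn)
  have hy₁0 : chartRes hA hqM b s y₁ ≠ 0 := fun h =>
    hy₁ ((hP y₁).2.mpr (mem_nonunits_iff_ord.mpr (Or.inl h)))
  have hx₁c : x₁ ∈ c := by
    refine (hP x₁).2.mpr ?_
    rw [h1, ValuationSubring.mem_nonunits_iff, map_mul]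
    exact mul_lt_one_of_nonneg_of_lt_one_right
      ((P.toValuationSubring.valuation_le_one_iff _).mpr (hP y₁).1) zero_le hπn
  have hqz : chartRes hA hqM b s (q : chart₂ A M q b) = 0 := by
    haveI := charP_res (A := A) hA
    rw [map_natCast, ← map_natCast (algebraMap (Res A) (RFld A M)), CharP.cast_eq_zero, map_zero]
  haveI : (RingHom.ker (chartRes hA hqM b s)).IsPrime := RingHom.ker_isPrime _
  refine (uniqueFactorizationMonoid_localization_of_pair c (RingHom.ker (chartRes hA hqM b s))
    ?_ ?_ hw hx₁c ?_).1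
  · intro h
    have : (q : chart₂ A M q b) ∈ RingHom.ker (chartRes hA hqM b s) := hqz
    rw [h, Ideal.mem_bot] at this
    exact (Fact.out : q.Prime).ne_zero (by exact_mod_cast congrArg Subtype.val this)
  · refine lt_of_le_of_ne (fun x hx => (hP x).2.mpr (mem_nonunits_iff_ord.mpr (Or.inl hx))) ?_
    intro h
    have : x₁ ∈ RingHom.ker (chartRes hA hqM b s) := h ▸ hx₁c
    rw [RingHom.mem_ker, h1] at this
    exact mul_ne_zero hy₁0 hπ0 this
  · intro z hz
    have hzn := (hP z).2.mp hz
    have hg : chartRes hA hqM b s z / π ∈ P.toValuationSubring := by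
      rw [mem_place_iff]
      rcases eq_or_ne (chartRes hA hqM b s z) 0 with h | h
      · left; rw [h, zero_div]
      · right
        have := (mem_nonunits_iff_ord.mp hzn).resolve_left h
        rw [Curve.ord_div P h hπ0, hπ]
        omega
    obtain ⟨x₂', y₂', hy₂, h2⟩ := hlift _ hg
    have hk : chartRes hA hqM b s (y₁ * y₂' * z - x₁ * x₂') = 0 := by
      rw [map_sub, map_mul, map_mul, map_mul, h1, h2]
      field_simp
      ring
    obtain ⟨u, hu, hux⟩ := hker _ hk
    refine ⟨u * (y₁ * y₂'), Ideal.IsPrime.mul_notMem inferInstance hu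
      (Ideal.IsPrime.mul_notMem inferInstance hy₁ hy₂), ?_⟩
    rw [show u * (y₁ * y₂') * z = u * (y₁ * y₂' * z - x₁ * x₂') + u * x₂' * x₁ by ring]
    exact Ideal.add_mem _ (Ideal.span_mono (by simp) hux)
      (Ideal.mul_mem_left _ _ (Ideal.subset_span (by simp)))

include hA hqM in
/-- A point with a single branch on an extreme component is regular. -/
theorem uniqueFactorizationMonoid_of_single {b : Bool} {c : Ideal (chart₂ A M q b)}
    [c.IsMaximal] {s : Side} {P : Pt A M} (hs : s ≠ .s11)
    (huniq : ∀ s' P', IsBranch A M q b c s' P' ↔ s' = s ∧ P' = P)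
    (hlift : ∀ g : RFld A M, g ∈ P.toValuationSubring → ∃ x y : chart₂ A M q b, y ∉ c ∧
      chartRes hA hqM b s x = chartRes hA hqM b s y * g) :
    UniqueFactorizationMonoid (Localization.AtPrime c) := by
  classical
  have hP : IsBranch A M q b c s P := (huniq s P).mpr ⟨rfl, rfl⟩
  have h : ∀ s', s' ≠ s → ∃ x, chartRes hA hqM b s' x = 0 ∧ x ∉ c := by
    intro s' hne
    by_contra! hcon
    obtain ⟨P', hP'⟩ := exists_isBranch_of_ker_le hA hqM b c s' hcon
    exact hne ((huniq s' P').mp hP').1
  choose e he hec using h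
  let f : Side → chart₂ A M q b := fun s' => if hne : s' ≠ s then e s' hne else 1
  have hE : ∀ s', s' ≠ s → chartRes hA hqM b s' (f .s20 * f .s11 * f .s02) = 0 := by
    intro s' hne
    have h0 : chartRes hA hqM b s' (f s') = 0 := by simp only [f, dif_pos hne]; exact he s' hne
    rw [map_mul, map_mul]
    cases s' <;> simp [h0]
  have hfc : ∀ s', f s' ∉ c := fun s' => by
    by_cases hne : s' ≠ s
    · simp only [f, dif_pos hne]; exact hec s' hne
    · simp only [f, dif_neg hne]; exact c.one_notMem
  refine uniqueFactorizationMonoid_of_isBranch hA hqM hP hlift (q : chart₂ A M q b)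
    (natCast_mem_of_isBranch hA hqM hP) fun x hx => ?_
  obtain ⟨y, hy⟩ := exists_pow_mul_eq_natCast_mul hA hqM hs _ x hE hx
  exact ⟨_, mt (Ideal.IsPrime.mem_of_pow_mem inferInstance (q - 1))
    (Ideal.IsPrime.mul_notMem inferInstance
      (Ideal.IsPrime.mul_notMem inferInstance (hfc _) (hfc _)) (hfc _)),
    hy ▸ Ideal.mem_span_singleton'.mpr ⟨y, mul_comm _ _⟩⟩

end Fermat.Agent.Carayol.Reg

end
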