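/-
Theorem of Carayol at `q ^ 2 ∥ M`: algebra of the reversed modular equation at the
cusps: with `X = 1 / j`, `Y = 1 / j_q` the quotient `X ^ q / Y` is integral, and for two roots over
the same `Y` the difference of their ratio from `1` divides `q` up to a unit.
-/
import Fermat.Agent.Mazur.PointPhi
import Mathlib.RingTheory.IntegralClosure.IsIntegralClosure.Basic
import Mathlib.Algebra.Polynomial.Expand
import Mathlib.Algebra.CharP.Lemmas
import Mathlib.Algebra.Ring.GeomSum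

set_option autoImplicit false
set_option linter.style.haveILetI false

noncomputable section

namespace Fermat.Agent.Carayol.Reg

open Polynomial Finset Fermat.Agent.Mazur

variable {L : Type*} [Field L] {q : ℕ} {Φ : Polynomial (Polynomial ℤ)}

/-- The reversed modular polynomial without its two pure powers, divided by `X Y`. -/
def revSum (q : ℕ) (Φ : Polynomial (Polynomial ℤ)) (X Y : L) : L :=
  ∑ i ∈ range (q + 1), ∑ k ∈ range (q + 1),
    ((Φ.coeff i).coeff k : L) * X ^ (q - k) * Y ^ (q - i)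

/-- The modular equation in the coordinates `1 / j`. -/
theorem rev_relation (hΦ : PhiShape q Φ) {jx jy : L} (hx : jx ≠ 0) (hy : jy ≠ 0)
    (h : Φ.eval₂ (eval₂RingHom (Int.castRingHom L) jx) jy = 0) :
    jx⁻¹ ^ (q + 1) + jy⁻¹ ^ (q + 1) + jx⁻¹ * jy⁻¹ * revSum q Φ jx⁻¹ jy⁻¹ = 0 := by
  have hdeg : ∀ i ∈ range (q + 1), (Φ.coeff i).natDegree ≤ q + 1 := by
    intro i hi
    rcases Nat.eq_zero_or_pos i with rfl | hpos
    · exact hΦ.natDegree_zero
    · exact (hΦ.natDegree_le i hpos (Nat.lt_succ_iff.mp (mem_range.mp hi))).trans (Nat.le_succ q)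
  have htop : ∀ i ∈ range (q + 1),
      ((Φ.coeff i).coeff (q + 1) : L) = if i = 0 then 1 else 0 := by
    intro i hi
    rcases Nat.eq_zero_or_pos i with rfl | hpos
    · simp [hΦ.coeff_zero]
    · rw [if_neg hpos.ne', coeff_eq_zero_of_natDegree_lt, Int.cast_zero]
      have := hΦ.natDegree_le i hpos (Nat.lt_succ_iff.mp (mem_range.mp hi))
      omega
  have hlead : Φ.coeff (q + 1) = 1 := by
    rw [← hΦ.natDegree_eq]; exact hΦ.monic.coeff_natDegree
  have hexp : Φ.eval₂ (eval₂RingHom (Int.castRingHom L) jx) jy =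
      (∑ i ∈ range (q + 1), ∑ k ∈ range (q + 1), ((Φ.coeff i).coeff k : L) * jx ^ k * jy ^ i) +
        jx ^ (q + 1) + jy ^ (q + 1) := by
    rw [eval₂_eq_sum_range, hΦ.natDegree_eq, sum_range_succ _ (q + 1), hlead, map_one, one_mul]
    congr 1
    have : ∀ i ∈ range (q + 1), eval₂RingHom (Int.castRingHom L) jx (Φ.coeff i) * jy ^ i =
        (∑ k ∈ range (q + 1), ((Φ.coeff i).coeff k : L) * jx ^ k * jy ^ i) +
          (if i = 0 then jx ^ (q + 1) else 0) := by
      intro i hi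
      rw [coe_eval₂RingHom, eval₂_eq_sum_range' _ (Nat.lt_succ_of_le (hdeg i hi)),
        sum_range_succ _ (q + 1), add_mul, sum_mul, eq_intCast, htop i hi]
      congr 1
      split_ifs with h0
      · subst h0; simp
      · simp
    rw [sum_congr rfl this, sum_add_distrib, sum_ite_eq' (range (q + 1)) 0, if_pos (by simp)]
  rw [hexp] at h
  have key := congrArg (fun t => t * (jx⁻¹ ^ (q + 1) * jy⁻¹ ^ (q + 1))) h
  simp only [zero_mul, add_mul, Finset.sum_mul] at key
  have hx' : jx ^ (q + 1) * (jx⁻¹ ^ (q + 1) * jy⁻¹ ^ (q + 1)) = jy⁻¹ ^ (q + 1) := by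
    rw [← mul_assoc, ← mul_pow, mul_inv_cancel₀ hx, one_pow, one_mul]
  have hy' : jy ^ (q + 1) * (jx⁻¹ ^ (q + 1) * jy⁻¹ ^ (q + 1)) = jx⁻¹ ^ (q + 1) := by
    rw [mul_left_comm, ← mul_pow, mul_inv_cancel₀ hy, one_pow, mul_one]
  have hterm : jx⁻¹ * jy⁻¹ * revSum q Φ jx⁻¹ jy⁻¹ =
      ∑ i ∈ range (q + 1), ∑ k ∈ range (q + 1),
        ((Φ.coeff i).coeff k : L) * jx ^ k * jy ^ i * (jx⁻¹ ^ (q + 1) * jy⁻¹ ^ (q + 1)) := by
    rw [revSum, mul_sum]
    refine sum_congr rfl fun i hi => ?_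
    rw [mul_sum]
    refine sum_congr rfl fun k hk => ?_
    have e1 : jx ^ k * jx⁻¹ ^ (q + 1) = jx⁻¹ * jx⁻¹ ^ (q - k) := by
      rw [← pow_succ', show q + 1 = k + (q - k + 1) by rw [mem_range] at hk; omega, pow_add,
        ← mul_assoc, ← mul_pow, mul_inv_cancel₀ hx, one_pow, one_mul]
    have e2 : jy ^ i * jy⁻¹ ^ (q + 1) = jy⁻¹ * jy⁻¹ ^ (q - i) := by
      rw [← pow_succ', show q + 1 = i + (q - i + 1) by rw [mem_range] at hi; omega, pow_add,
        ← mul_assoc, ← mul_pow, mul_inv_cancel₀ hy, one_pow, one_mul]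
    linear_combination -(((Φ.coeff i).coeff k : L) * jx⁻¹ * jx⁻¹ ^ (q - k)) * e2 -
      (((Φ.coeff i).coeff k : L) * jy ^ i * jy⁻¹ ^ (q + 1)) * e1
  rw [hx', hy'] at key
  rw [hterm]
  linear_combination key

theorem revSum_mem {R : Subring L} {X Y : L} (hX : X ∈ R) (hY : Y ∈ R) :
    revSum q Φ X Y ∈ R :=
  sum_mem fun _ _ => sum_mem fun _ _ =>
    mul_mem (mul_mem (intCast_mem _ _) (pow_mem hX _)) (pow_mem hY _)

/-- Near a cusp `1 / j_q` and `(1 / j) ^ q * j_q` are integral. -/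
theorem cusp_integral (hΦ : PhiShape q Φ) (hq : 1 ≤ q) (R : Subring L)
    (hR : ∀ f : L, IsIntegral R f → f ∈ R) {jx jy : L} (hx : jx ≠ 0) (hy : jy ≠ 0)
    (h : Φ.eval₂ (eval₂RingHom (Int.castRingHom L) jx) jy = 0) (hX : jx⁻¹ ∈ R)
    (hinv : ∀ s ∈ R, 1 + jx⁻¹ * s ≠ 0 ∧ (1 + jx⁻¹ * s)⁻¹ ∈ R) :
    jy⁻¹ ∈ R ∧ jx⁻¹ ^ q * jy ∈ R := by
  set X := jx⁻¹
  set Y := jy⁻¹ with hYdef
  have rel := rev_relation hΦ hx hy h
  set s : ℕ → L := fun i => ∑ k ∈ range (q + 1), ((Φ.coeff i).coeff k : L) * X ^ (q - k)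
  have hs : ∀ i, s i ∈ R := fun i =>
    sum_mem fun _ _ => mul_mem (intCast_mem _ _) (pow_mem hX _)
  obtain ⟨hu0, hu⟩ := hinv (s 0) (hs 0)
  set u := 1 + X * s 0 with hudef
  have hrev : revSum q Φ X Y = s 0 * Y ^ q + ∑ i ∈ range q, s (i + 1) * Y ^ (q - (i + 1)) := by
    rw [revSum, sum_range_succ', add_comm]
    congr 1
    · simp [s, sum_mul]
    · exact sum_congr rfl fun i _ => by simp [s, sum_mul]
  have hY : Y ∈ R := by
    refine hR Y ?_
    let e : ℕ → R := fun i => ⟨X * s (i + 1) * u⁻¹, mul_mem (mul_mem hX (hs _)) hu⟩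
    let e₀ : R := ⟨X ^ (q + 1) * u⁻¹, mul_mem (pow_mem hX _) hu⟩
    refine ⟨Polynomial.X ^ (q + 1) + ((∑ i ∈ range q, C (e i) * Polynomial.X ^ (q - i)) + C e₀),
      monic_X_pow_add ?_, ?_⟩
    · refine lt_of_le_of_lt ((degree_add_le _ _).trans (max_le ?_ ?_))
        (WithBot.coe_lt_coe.mpr (Nat.lt_succ_self q))
      · refine (degree_sum_le _ _).trans (Finset.sup_le fun i _ => ?_)
        exact (degree_C_mul_X_pow_le _ _).trans (WithBot.coe_le_coe.mpr (Nat.sub_le q i))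
      · exact degree_C_le.trans (WithBot.coe_le_coe.mpr (Nat.zero_le q))
    · simp only [eval₂_add, eval₂_finsetSum, eval₂_mul, eval₂_C,
        eval₂_pow, eval₂_X]
      have hsum : Y * X * ∑ i ∈ range q, s (i + 1) * Y ^ (q - (i + 1)) =
          u * ∑ i ∈ range q, (algebraMap R L) (e i) * Y ^ (q - i) := by
        rw [mul_sum, mul_sum]
        refine sum_congr rfl fun i hi => ?_
        rw [show q - i = q - (i + 1) + 1 by rw [mem_range] at hi; omega, pow_succ]
        show _ = u * (X * s (i + 1) * u⁻¹ * _)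
        field_simp
      have h0 : u * (algebraMap R L) e₀ = X ^ (q + 1) := by
        show u * (X ^ (q + 1) * u⁻¹) = _
        field_simp
      refine (mul_eq_zero.mp ?_).resolve_left hu0
      rw [mul_add, mul_add, ← hsum, h0]
      rw [hrev] at rel
      rw [hudef]
      linear_combination rel
  refine ⟨hY, hR _ ?_⟩
  let r₁ : R := ⟨revSum q Φ X Y, revSum_mem hX hY⟩
  let r₀ : R := ⟨(X * Y) ^ (q - 1), pow_mem (mul_mem hX hY) _⟩
  refine ⟨Polynomial.X ^ 2 + (C r₁ * Polynomial.X + C r₀), monic_X_pow_add ?_, ?_⟩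
  · exact lt_of_le_of_lt (degree_linear_le) (WithBot.coe_lt_coe.mpr (Nat.lt_succ_self 1))
  · simp only [eval₂_add, eval₂_X_pow, eval₂_mul, eval₂_C, eval₂_X]
    show (X ^ q * jy) ^ 2 + (revSum q Φ X Y * (X ^ q * jy) + (X * Y) ^ (q - 1)) = 0
    have hY1 : Y * jy = 1 := inv_mul_cancel₀ hy
    have hX0 : X ≠ 0 := inv_ne_zero hx
    obtain ⟨m, rfl⟩ : ∃ m, q = m + 1 := ⟨q - 1, by omega⟩
    rw [Nat.add_sub_cancel, mul_pow]
    have h2 : X ^ 2 * (Y ^ 2 * ((X ^ (m + 1)) ^ 2 * jy ^ 2 +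
        (revSum (m + 1) Φ X Y * (X ^ (m + 1) * jy) + (X * Y) ^ m))) = 0 := by
      linear_combination (X ^ (m + 2)) * rel + X ^ (2 * (m + 1) + 2) * (Y * jy + 1) * hY1 +
        X ^ (m + 3) * Y * revSum (m + 1) Φ X Y * hY1
    exact (mul_eq_zero.mp ((mul_eq_zero.mp h2).resolve_left (pow_ne_zero 2 hX0))).resolve_left
      (pow_ne_zero 2 (inv_ne_zero hy))

/-- The correction term in `(1 / j_q) ^ q / X`. -/
theorem revSum_eq (hΦ : PhiShape q Φ) {jx jy : L} (hx : jx ≠ 0) (hy : jy ≠ 0)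
    (h : Φ.eval₂ (eval₂RingHom (Int.castRingHom L) jx) jy = 0) :
    revSum q Φ jx⁻¹ jy⁻¹ = -(jx⁻¹ ^ q * jy + jy⁻¹ ^ q * jx) := by
  have rel := rev_relation hΦ hx hy h
  have hne : jx⁻¹ * jy⁻¹ ≠ 0 := mul_ne_zero (inv_ne_zero hx) (inv_ne_zero hy)
  refine mul_left_cancel₀ hne ?_
  linear_combination rel + jx⁻¹ ^ q * jx⁻¹ * mul_inv_cancel₀ hy +
    jy⁻¹ ^ q * jy⁻¹ * mul_inv_cancel₀ hx

/-- Two roots `X`, `W X` over the same `Y`. -/
theorem ratio_relation {X Y a W : L} (hX : X ≠ 0) (hW : W ≠ 1) (ha : a * Y = X ^ q)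
    (h₁ : Y ^ (q + 1) + X ^ (q + 1) + Y * X * revSum q Φ Y X = 0)
    (h₂ : Y ^ (q + 1) + (W * X) ^ (q + 1) + Y * (W * X) * revSum q Φ Y (W * X) = 0) :
    a * (∑ l ∈ range (q + 1), W ^ l) + ∑ i ∈ range (q + 1), ∑ k ∈ range (q + 1),
      ((Φ.coeff i).coeff k : L) * Y ^ (q - k) * X ^ (q - i) *
        (∑ l ∈ range (q - i + 1), W ^ l) = 0 := by
  set S := ∑ i ∈ range (q + 1), ∑ k ∈ range (q + 1),
    ((Φ.coeff i).coeff k : L) * Y ^ (q - k) * X ^ (q - i) * (∑ l ∈ range (q - i + 1), W ^ l)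
  have hS : (W - 1) * S = W * revSum q Φ Y (W * X) - revSum q Φ Y X := by
    rw [revSum, revSum, mul_sum, mul_sum, ← sum_sub_distrib]
    refine sum_congr rfl fun i _ => ?_
    rw [mul_sum, mul_sum, ← sum_sub_distrib]
    refine sum_congr rfl fun k _ => ?_
    rw [mul_pow, show (W - 1) * (((Φ.coeff i).coeff k : L) * Y ^ (q - k) * X ^ (q - i) *
        ∑ l ∈ range (q - i + 1), W ^ l) = ((Φ.coeff i).coeff k : L) * Y ^ (q - k) * X ^ (q - i) *
        ((∑ l ∈ range (q - i + 1), W ^ l) * (W - 1)) by ring, geom_sum_mul, pow_succ]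
    ring
  have hH := geom_sum_mul W (q + 1)
  have key : (W - 1) * (X * (X ^ q * ∑ l ∈ range (q + 1), W ^ l + Y * S)) = 0 := by
    linear_combination X ^ (q + 1) * hH + Y * X * hS + h₂ - h₁
  have h3 := (mul_eq_zero.mp ((mul_eq_zero.mp key).resolve_left (sub_ne_zero.mpr hW))).resolve_left hX
  have hX' : X ^ q ≠ 0 := pow_ne_zero q hX
  refine (mul_eq_zero.mp (?_ : X ^ q * _ = 0)).resolve_left hX'
  linear_combination a * h3 - S * ha

theorem exists_geom_factor {R : Subring L} {W : L} (hW : W ∈ R) (n : ℕ) :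
    ∃ r ∈ R, ((n : L) + 1) - ∑ l ∈ range (n + 1), W ^ l = (1 - W) * r := by
  refine ⟨∑ l ∈ range (n + 1), ∑ m ∈ range l, W ^ m,
    sum_mem fun _ _ => sum_mem fun _ _ => pow_mem hW _, ?_⟩
  rw [mul_sum, show ((n : L) + 1) = ∑ _l ∈ range (n + 1), (1 : L) by simp, ← sum_sub_distrib]
  refine sum_congr rfl fun l _ => ?_
  rw [← geom_sum_mul_neg, mul_comm]

/-- Kronecker's congruence in the form `c = -δ + q d`. -/
def HasKronecker (q : ℕ) (Φ : Polynomial (Polynomial ℤ)) (d : ℕ → ℕ → ℤ) : Prop :=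
  d q q = 0 ∧ ∀ i ≤ q, ∀ k ≤ q, (Φ.coeff i).coeff k =
    -(if i = q ∧ k = q then 1 else 0) - (if i = 1 ∧ k = 1 then 1 else 0) + (q : ℤ) * d i k

/-- Kronecker's congruence follows from the two congruences `Φ (j, j ^ q) = Φ (j ^ q, j) = 0`. -/
theorem exists_hasKronecker {k : Type*} [Field k] [CharP k q] [Fact q.Prime] (hΦ : PhiShape q Φ)
    (h₁ : (Φ.map (mapRingHom (Int.castRingHom k))).eval (X ^ q) = 0)
    (h₂ : (Φ.map (mapRingHom (Int.castRingHom k))).eval₂ (expand k q).toRingHom X = 0) :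
    ∃ d, HasKronecker q Φ d := by
  have hq : q.Prime := Fact.out
  have hq2 := hq.two_le
  set P := Φ.map (mapRingHom (Int.castRingHom k)) with hP
  set T : Polynomial (Polynomial k) := Polynomial.X with hT
  set K : Polynomial (Polynomial k) := (T - C (X ^ q)) * (T ^ q - C X) with hK
  have hPdeg : P.natDegree = q + 1 := by rw [hP, hΦ.monic.natDegree_map, hΦ.natDegree_eq]
  have hKm : K.Monic := (monic_X_sub_C _).mul (monic_X_pow_sub_C _ hq.ne_zero)
  have hKdeg : K.natDegree = q + 1 := by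
    rw [hK, (monic_X_sub_C _).natDegree_mul (monic_X_pow_sub_C _ hq.ne_zero), natDegree_X_sub_C,
      natDegree_X_pow_sub_C, add_comm]
  have hDdeg : ∀ i, q + 1 ≤ i → (P - K).coeff i = 0 := by
    intro i hi
    rw [coeff_sub]
    rcases hi.eq_or_lt with rfl | hlt
    · rw [← hPdeg, (hΦ.monic.map _).coeff_natDegree, hPdeg, ← hKdeg, hKm.coeff_natDegree, sub_self]
    · rw [coeff_eq_zero_of_natDegree_lt (by omega), coeff_eq_zero_of_natDegree_lt (by omega),
        sub_self]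
  obtain ⟨E, hE⟩ : T - C (X ^ q) ∣ P - K := by
    rw [hT, dvd_iff_isRoot, IsRoot, eval_sub, h₁, hK, eval_mul]
    simp [hT]
  have hX : (X : Polynomial k) - X ^ (q * q) ≠ 0 := by
    intro h
    have := congrArg (fun p : Polynomial k => p.coeff 1) h
    simp [coeff_X_pow, show (1 : ℕ) ≠ q * q by nlinarith] at this
  have hE2 : E.eval₂ (expand k q).toRingHom X = 0 := by
    have h := congrArg (eval₂ (expand k q).toRingHom X) hE
    rw [eval₂_sub, h₂, hK, eval₂_mul, eval₂_mul] at h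
    simp only [hT, eval₂_sub, eval₂_X, eval₂_C, eval₂_X_pow, eval₂_pow, AlgHom.toRingHom_eq_coe,
      RingHom.coe_coe, map_pow, expand_X, sub_self, mul_zero, ← pow_mul] at h
    exact (mul_eq_zero.mp h.symm).resolve_left hX
  have hEdeg : E.natDegree < q := by
    by_cases hE0 : E = 0
    · rw [hE0, natDegree_zero]; omega
    have h1 : (P - K).natDegree ≤ q := natDegree_le_iff_coeff_eq_zero.mpr fun i hi =>
      hDdeg i hi
    rw [hE, (monic_X_sub_C _).natDegree_mul' hE0, natDegree_X_sub_C] at h1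
    omega
  have hE0 : E = 0 := by
    ext i m
    rw [coeff_zero, coeff_zero]
    rcases Nat.lt_or_ge i q with hi | hi
    · have h := congrArg (fun p : Polynomial k => p.coeff (q * m + i)) hE2
      rw [eval₂_eq_sum_range' _ hEdeg] at h
      simp only [finsetSum_coeff, coeff_zero] at h
      rw [sum_eq_single i, AlgHom.toRingHom_eq_coe, RingHom.coe_coe, coeff_mul_X_pow,
        coeff_expand hq.pos, if_pos (dvd_mul_right q m), Nat.mul_div_cancel_left _ hq.pos] at h
      · exact h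
      · intro j hj hji
        rw [mem_range] at hj
        rw [AlgHom.toRingHom_eq_coe, RingHom.coe_coe, coeff_mul_X_pow', coeff_expand hq.pos]
        split_ifs with h1 h2
        · exfalso
          obtain ⟨m', hm'⟩ := h2
          have hmod := congrArg (· % q) (show q * m + i = q * m' + j by omega)
          simp only [Nat.mul_add_mod, Nat.mod_eq_of_lt hi, Nat.mod_eq_of_lt hj] at hmod
          exact hji hmod.symm
        · rfl
        · rfl
      · intro h'; exact absurd (mem_range.mpr hi) h'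
    · rw [coeff_eq_zero_of_natDegree_lt (lt_of_lt_of_le hEdeg hi), coeff_zero]
  rw [hE0, mul_zero, sub_eq_zero] at hE
  have hdvd : ∀ i ≤ q, ∀ m ≤ q, ∃ d : ℤ, (Φ.coeff i).coeff m =
      -(if i = q ∧ m = q then 1 else 0) - (if i = 1 ∧ m = 1 then 1 else 0) + (q : ℤ) * d := by
    intro i hi m hm
    have h := congrArg (fun p : Polynomial (Polynomial k) => (p.coeff i).coeff m) hE
    have hKexp : K = T ^ (q + 1) - C (X ^ q) * T ^ q - C X * T + C (X ^ q * X) := by
      rw [hK, map_mul]; ring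
    simp only [hP, coeff_map, coe_mapRingHom, eq_intCast, hKexp, hT, coeff_add, coeff_sub,
      coeff_C_mul, coeff_X_pow, coeff_X, coeff_C, mul_ite, mul_one, mul_zero] at h
    have hd : (q : ℤ) ∣ (Φ.coeff i).coeff m +
        (if i = q ∧ m = q then 1 else 0) + (if i = 1 ∧ m = 1 then 1 else 0) := by
      rw [← CharP.intCast_eq_zero_iff k q]
      push_cast
      rw [h]
      have c1 : i ≠ q + 1 := by omega
      rcases eq_or_ne i q with rfl | c2
      · rcases eq_or_ne m i with rfl | c3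
        · simp [coeff_X_pow, show (1 : ℕ) ≠ m by omega, show m ≠ 1 by omega, show m ≠ 0 by omega]
        · simp [coeff_X_pow, c3, show (1 : ℕ) ≠ i by omega, show i ≠ 1 by omega,
            show i ≠ 0 by omega]
      · rcases eq_or_ne i 1 with rfl | c4
        · rcases eq_or_ne m 1 with rfl | c5
          · simp [c2, coeff_X, hq.ne_zero]
          · simp [c2, c5, coeff_X, Ne.symm c5, hq.ne_zero]
        · rcases eq_or_ne i 0 with rfl | c6
          · simp [c1, c2, ← pow_succ, coeff_X_pow, show m ≠ q + 1 by omega]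
          · simp [c1, c2, c4, c6, Ne.symm c4]
    obtain ⟨d, hd⟩ := hd
    exact ⟨d, by omega⟩
  choose! d hd using hdvd
  refine ⟨d, ?_, fun i hi m hm => hd i hi m hm⟩
  have h := hd q le_rfl q le_rfl
  rw [hΦ.coeff_top, if_pos ⟨rfl, rfl⟩, if_neg (by omega)] at h
  have : (q : ℤ) * d q q = 0 := by omega
  exact (mul_eq_zero.mp this).resolve_left (by exact_mod_cast hq.ne_zero)

/-- The value at `1` of the equation of the ratio is `q` times a unit, up to `a - 1`. -/
theorem sum_kronecker {d : ℕ → ℕ → ℤ} (hd : HasKronecker q Φ d) (hq : 2 ≤ q) (X Y : L)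
    (f : ℕ → L) :
    (∑ i ∈ range (q + 1), ∑ k ∈ range (q + 1),
        ((Φ.coeff i).coeff k : L) * Y ^ (q - k) * X ^ (q - i) * f i) =
      -f q - (Y * X) ^ (q - 1) * f 1 +
        (q : L) * ∑ i ∈ range (q + 1), ∑ k ∈ range (q + 1),
          (d i k : L) * Y ^ (q - k) * X ^ (q - i) * f i := by
  classical
  have hterm : ∀ i ∈ range (q + 1), ∀ k ∈ range (q + 1),
      ((Φ.coeff i).coeff k : L) * Y ^ (q - k) * X ^ (q - i) * f i =
        (if i = q then if k = q then -f q else 0 else 0) +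
          (if i = 1 then if k = 1 then -((Y * X) ^ (q - 1) * f 1) else 0 else 0) +
          (q : L) * ((d i k : L) * Y ^ (q - k) * X ^ (q - i) * f i) := by
    intro i hi k hk
    rw [mem_range, Nat.lt_succ_iff] at hi hk
    rw [hd.2 i hi k hk]
    rcases eq_or_ne i q with rfl | h1
    · rcases eq_or_ne k i with rfl | h2
      · simp [show k ≠ 1 by omega]
        ring
      · simp [h2, show i ≠ 1 by omega]
        ring
    · rcases eq_or_ne i 1 with rfl | h3
      · rcases eq_or_ne k 1 with rfl | h4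
        · simp [h1, mul_pow]
          ring
        · simp [h1, h4]
          ring
      · simp [h1, h3]
        ring
  rw [sum_congr rfl fun i hi => sum_congr rfl (hterm i hi)]
  simp only [sum_add_distrib, ← mul_sum]
  simp [Finset.sum_ite_eq', show 1 < q + 1 by omega, show q < q + 1 by omega, ← sub_eq_add_neg]

/-- The sum of the remainders vanishes where `X` and `Y` do. -/
theorem sum_remainder_eq {d : ℕ → ℕ → ℤ} (hd : d q q = 0) {R : Subring L} (X Y : R) (f : ℕ → R)
    (m : Ideal R) (hX : X ∈ m) (hY : Y ∈ m) :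
    ∑ i ∈ range (q + 1), ∑ k ∈ range (q + 1),
      (d i k : R) * Y ^ (q - k) * X ^ (q - i) * f i ∈ m := by
  refine sum_mem fun i hi => sum_mem fun k hk => ?_
  rw [mem_range, Nat.lt_succ_iff] at hi hk
  rcases Nat.lt_or_ge i q with h | h
  · exact m.mul_mem_right _ (m.mul_mem_left _ (Ideal.pow_mem_of_mem m hX _ (by omega)))
  rcases Nat.lt_or_ge k q with h' | h'
  · exact m.mul_mem_right _ (m.mul_mem_right _
      (m.mul_mem_left _ (Ideal.pow_mem_of_mem m hY _ (by omega))))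
  rw [show i = q by omega, show k = q by omega, hd]
  simp

end Fermat.Agent.Carayol.Reg

end
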