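/-
Theorem of Carayol at `q ^ 2 ∥ M`: tools for the cusps: values on the components,
the local ring as a local ring, the modular equation between the three sides, and Kronecker's
congruence.
-/
import Fermat.Agent.Carayol.MainLocalBasic
import Fermat.Agent.Carayol.MainLocalCuspRelation
import Fermat.Agent.ModFun.ModularPolynomial

set_option autoImplicit false
set_option linter.style.haveILetI false
set_option linter.unusedSectionVars false

noncomputable section

namespace Fermat.Agent.Carayol.Reg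

open ModularCurve IntermediateField AlgebraicCurve

set_option maxHeartbeats 1000000
set_option synthInstance.maxHeartbeats 200000

local notation "Qbar" => AlgebraicClosure ℚ
local notation "Ser" => LaurentSeries (AlgebraicClosure ℚ)

variable {A : ValuationSubring (AlgebraicClosure ℚ)} {M q : ℕ} [NeZero M] [Fact q.Prime]

/-! ### Values on a component -/

/-- `f` is integral on the component `s`, with reduction `r`. -/
def SideValue (s : Side) (f : F₂ A M q) (r : RFld A M) : Prop :=
  sideEmb A M q s f ∈ GaussInt A ∧ red A (sideEmb A M q s f) = (r : ResSer A)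

theorem SideValue.mem_gaussInt {s : Side} {f : F₂ A M q} {r : RFld A M} (hf : SideValue s f r) :
    sideEmb A M q s f ∈ GaussInt A := hf.1

theorem SideValue.mul {s : Side} {f g : F₂ A M q} {r t : RFld A M} (hf : SideValue s f r)
    (hg : SideValue s g t) : SideValue s (f * g) (r * t) := by
  refine ⟨by rw [map_mul]; exact mul_mem hf.1 hg.1, ?_⟩
  rw [map_mul, red_mul hf.mem_gaussInt hg.mem_gaussInt, hf.2, hg.2]
  exact ((RFld A M).val.map_mul r t).symm

theorem SideValue.pow {s : Side} {f : F₂ A M q} {r : RFld A M} (hf : SideValue s f r) (n : ℕ) :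
    SideValue s (f ^ n) (r ^ n) := by
  induction n with
  | zero =>
    rw [pow_zero, pow_zero]
    refine ⟨by rw [map_one]; exact one_mem _, ?_⟩
    rw [map_one, red_one]
    exact ((RFld A M).val.map_one).symm
  | succ n ih => rw [pow_succ, pow_succ]; exact ih.mul hf

theorem SideValue.isGaussUnit {s : Side} {f : F₂ A M q} {r : RFld A M} (hf : SideValue s f r)
    (hr : r ≠ 0) : IsGaussUnit A (sideEmb A M q s f) :=
  ⟨hf.1, fun h => hr (Subtype.ext (hf.2.symm.trans h))⟩

theorem SideValue.inv {s : Side} {f : F₂ A M q} {r : RFld A M} (hf : SideValue s f r)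
    (hr : r ≠ 0) : SideValue s f⁻¹ r⁻¹ := by
  have hu := hf.isGaussUnit hr
  have hi := hu.inv
  have h1 := red_mul hu.1 hi.1
  rw [mul_inv_cancel₀ hu.ne_zero, red_one, hf.2] at h1
  refine ⟨by show sideEmb A M q s f⁻¹ ∈ GaussInt A; rw [map_inv₀]; exact hi.1, ?_⟩
  rw [map_inv₀, eq_inv_of_mul_eq_one_right h1.symm]
  exact ((RFld A M).coe_inv r).symm

theorem SideValue.sub {s : Side} {f g : F₂ A M q} {r t : RFld A M} (hf : SideValue s f r)
    (hg : SideValue s g t) : SideValue s (f - g) (r - t) := by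
  refine ⟨by rw [map_sub]; exact sub_mem hf.1 hg.1, ?_⟩
  have h : sideEmb A M q s f - sideEmb A M q s g ∈ GaussInt A :=
    sub_mem hf.mem_gaussInt hg.mem_gaussInt
  have h1 := red_add h hg.mem_gaussInt
  rw [sub_add_cancel] at h1
  rw [map_sub, eq_sub_of_add_eq h1.symm, hf.2, hg.2]
  exact ((RFld A M).val.map_sub r t).symm

theorem sideValue_one (s : Side) : SideValue s (1 : F₂ A M q) (1 : RFld A M) := by
  refine ⟨by rw [map_one]; exact one_mem _, ?_⟩
  rw [map_one, red_one]
  exact ((RFld A M).val.map_one).symm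

theorem SideValue.sideRes_eq {s : Side} {f : F₂ A M q} {r : RFld A M} (hf : SideValue s f r)
    (h : f ∈ sideInt A M q s) : sideRes A M q s ⟨f, h⟩ = r :=
  Subtype.ext ((coe_sideRes s ⟨f, h⟩).trans hf.2)

theorem SideValue.chartRes_eq' (hA : A.LiesOverPrime q) (hqM : ¬ q ∣ M) {b : Bool} {s : Side}
    {f : chart₂ A M q b} {r : RFld A M} (hf : SideValue s (f : F₂ A M q) r) :
    chartRes hA hqM b s f = r :=
  Subtype.ext ((coe_chartRes hA hqM f).trans hf.2)

/-- The reduction of `g (τ)`. -/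
def resX (q : ℕ) (r : RFld A M) : Side → RFld A M
  | .s20 => r
  | .s11 => r
  | .s02 => r ^ (q * q)

/-- The reduction of `g (q² τ)`. -/
def resZ (q : ℕ) (r : RFld A M) : Side → RFld A M
  | .s20 => r ^ (q * q)
  | .s11 => r
  | .s02 => r

theorem sideValue_jCoord (hA : A.LiesOverPrime q) (hqM : ¬ q ∣ M) (b : Bool) (s : Side) :
    SideValue s (x₂ A M q (jCoord A M b)) (resX q (jResCoord A M b) s) ∧
      SideValue s (y₂ A M q (jCoord A M b)) (jResCoord A M b ^ q) ∧
        SideValue s (z₂ A M q (jCoord A M b)) (resZ q (jResCoord A M b) s) := by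
  have hg := jCoord_mem_gaussInt (A := A) (M := M) b
  obtain ⟨hx, hy, hz⟩ := sideEmb_base_mem hA hqM (jCoord A M b) hg.1 s
  have hfr : frobRes (q := q) (jResCoord A M b : ResSer A) = (jResCoord A M b : ResSer A) ^ q :=
    frobRes_jResCoord hA b
  have hfr2 : frobRes (q := q) (frobRes (q := q) (jResCoord A M b : ResSer A)) =
      (jResCoord A M b : ResSer A) ^ (q * q) := by
    rw [hfr]
    change qExpand (Res A) q ((jResCoord A M b : ResSer A) ^ q) = _
    rw [map_pow]
    change frobRes (q := q) (jResCoord A M b : ResSer A) ^ q = _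
    rw [hfr, ← pow_mul]
  refine ⟨⟨(mem_sideInt hA hqM s).mp hx, ?_⟩, ⟨(mem_sideInt hA hqM s).mp hy, ?_⟩,
    ⟨(mem_sideInt hA hqM s).mp hz, ?_⟩⟩
  · obtain ⟨h1, h2, h3⟩ := red_x₂ hA hqM (jCoord A M b) hg.1
    cases s with
    | s20 => rw [h1, hg.2]; rfl
    | s11 => rw [h2, hg.2]; rfl
    | s02 => rw [h3, hg.2, hfr2]; rfl
  · rw [red_y₂ hA hqM (jCoord A M b) hg.1, hg.2, hfr]; rfl
  · obtain ⟨h1, h2, h3⟩ := red_z₂ hA hqM (jCoord A M b) hg.1
    cases s with
    | s20 => rw [h1, hg.2, hfr2]; rfl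
    | s11 => rw [h2, hg.2]; rfl
    | s02 => rw [h3, hg.2]; rfl

theorem jCoord_true_eq_inv (N : ℕ) : jCoord A N true = (jCoord A N false)⁻¹ := rfl

theorem jResCoord_true_eq_inv : jResCoord A M true = (jResCoord A M false)⁻¹ := rfl

theorem jResCoord_false_ne_zero : jResCoord A M false ≠ 0 := fun h =>
  Curve.transcendental_jqModC' (Res A)
    (by rw [show jqModC (Res A) = 0 from congrArg Subtype.val h]; exact isAlgebraic_zero)

theorem jCoord_top_eq (b : Bool) : jCoord A (M * q * q) b = x₂ A M q (jCoord A M b) := by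
  cases b with
  | false => exact Subtype.ext rfl
  | true =>
    change (jElt A (M * q * q))⁻¹ = x₂ A M q (jElt A M)⁻¹
    rw [map_inv₀]
    exact congrArg _ (Subtype.ext rfl)

/-! ### The local ring -/

variable {b : Bool} {c : Ideal (chart₂ A M q b)} [c.IsPrime]

theorem LocMax.mem_locRing {f : F₂ A M q} (h : LocMax c f) : f ∈ locRing c := by
  obtain ⟨u, hu, g, -, hg⟩ := h
  exact ⟨u, hu, g, hg⟩

theorem LocMax.mul_right {f g : F₂ A M q} (hf : LocMax c f) (hg : g ∈ locRing c) :
    LocMax c (f * g) := by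
  obtain ⟨u, hu, x, hx, hux⟩ := hf
  obtain ⟨v, hv, y, hvy⟩ := hg
  refine ⟨u * v, Ideal.IsPrime.mul_notMem inferInstance hu hv, x * y, c.mul_mem_right y hx, ?_⟩
  push_cast
  rw [← hux, ← hvy]
  ring

theorem LocMax.add {f g : F₂ A M q} (hf : LocMax c f) (hg : LocMax c g) : LocMax c (f + g) := by
  obtain ⟨u, hu, x, hx, hux⟩ := hf
  obtain ⟨v, hv, y, hy, hvy⟩ := hg
  refine ⟨u * v, Ideal.IsPrime.mul_notMem inferInstance hu hv, v * x + u * y,
    c.add_mem (c.mul_mem_left _ hx) (c.mul_mem_left _ hy), ?_⟩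
  push_cast
  rw [← hux, ← hvy]
  ring

theorem locMax_zero : LocMax c (0 : F₂ A M q) := ⟨1, c.one_notMem, 0, c.zero_mem, by simp⟩

theorem not_locMax_one : ¬ LocMax c (1 : F₂ A M q) := by
  rintro ⟨u, hu, x, hx, hux⟩
  rw [mul_one] at hux
  exact hu (Subtype.ext hux ▸ hx)

theorem locMax_of_coe {x : chart₂ A M q b} (hx : x ∈ c) : LocMax c (x : F₂ A M q) :=
  ⟨1, c.one_notMem, x, hx, by simp⟩

/-- The maximal ideal of the local ring. -/
def locIdeal (c : Ideal (chart₂ A M q b)) [c.IsPrime] : Ideal (locRing c) where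
  carrier := {f | LocMax c (f : F₂ A M q)}
  zero_mem' := locMax_zero
  add_mem' hf hg := LocMax.add hf hg
  smul_mem' r f hf := by
    show LocMax c ((r : F₂ A M q) * f)
    rw [mul_comm]
    exact LocMax.mul_right hf r.2

theorem inv_mem_locRing {f : F₂ A M q} (hf : f ∈ locRing c) (h : ¬ LocMax c f) :
    f ≠ 0 ∧ f⁻¹ ∈ locRing c := by
  have h0 : f ≠ 0 := fun h0 => h (h0 ▸ locMax_zero)
  obtain ⟨u, hu, g, hg⟩ := hf
  refine ⟨h0, g, fun hgc => h ⟨u, hu, g, hgc, hg⟩, u, ?_⟩
  rw [← hg, mul_assoc, mul_inv_cancel₀ h0, mul_one]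

theorem one_add_mul_isUnit {f s : F₂ A M q} (hf : LocMax c f) (hs : s ∈ locRing c) :
    1 + f * s ≠ 0 ∧ (1 + f * s)⁻¹ ∈ locRing c := by
  refine inv_mem_locRing (add_mem (one_mem _) (mul_mem hf.mem_locRing hs)) fun h => ?_
  have h1 := h.add ((hf.mul_right hs).mul_right (neg_mem (one_mem _)))
  rw [mul_neg_one, add_neg_cancel_right] at h1
  exact not_locMax_one h1

theorem mem_locRing_of_isIntegral' {f : F₂ A M q} (hf : IsIntegral (locRing c) f) :
    f ∈ locRing c := by
  obtain ⟨p, hpm, hp0⟩ := hf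
  refine mem_locRing_of_isIntegral c (p := p.map (locRing c).subtype) (hpm.map _) (fun i => ?_) ?_
  · rw [Polynomial.coeff_map]; exact (p.coeff i).2
  · rw [Polynomial.eval_map]; exact hp0

/-- Algebra maps carry charts into the local ring. -/
theorem map_mem_locRing {N : ℕ} (φ : Fld A N →ₐ[inertiaField A] F₂ A M q) {T : Fld A N}
    (hT : φ T ∈ locRing c) {g : Fld A N} (hg : g ∈ chart A T) : φ g ∈ locRing c := by
  have hle : chartBase A T ≤ (locRing c).comap φ.toRingHom := by
    refine sup_le ?_ (Subring.closure_le.mpr (Set.singleton_subset_iff.mpr hT))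
    rintro _ ⟨a, ha, rfl⟩
    refine chart₂_le_locRing c ?_
    exact constInt_le_chart _ ⟨a, ha, (φ.commutes a).symm⟩
  let ψ : chartBase A T →+* locRing c :=
    (φ.toRingHom.comp (chartBase A T).subtype).codRestrict (locRing c) fun x => hle x.2
  obtain ⟨p, hpm, hp0⟩ := hg
  refine mem_locRing_of_isIntegral' ⟨p.map ψ, hpm.map ψ, ?_⟩
  have h1 := Polynomial.eval₂_map (p := p) ψ (algebraMap (locRing c) (F₂ A M q)) (φ g)
  have h2 := congrArg φ.toRingHom hp0
  rw [Polynomial.hom_eval₂, map_zero] at h2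
  exact h1.trans h2

theorem locMax_iff_of_sideValue (hA : A.LiesOverPrime q) (hqM : ¬ q ∣ M) {s : Side} {P : Pt A M}
    (hP : IsBranch A M q b c s P) {f : F₂ A M q} (hf : f ∈ locRing c) {r : RFld A M}
    (hr : SideValue s f r) :
    r ∈ P.toValuationSubring ∧ (LocMax c f ↔ r ∈ P.toValuationSubring.nonunits) := by
  obtain ⟨h, h1, h2⟩ := locRing_branch hA hqM hP hf
  rw [hr.sideRes_eq h] at h1 h2
  exact ⟨h1, h2⟩

/-! ### The modular equation between the sides -/

/-- The modular polynomial of level `q`. -/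
abbrev phiQ (q : ℕ) [Fact q.Prime] : Polynomial (Polynomial ℤ) :=
  (ModFun.modularPolynomialData q).Φ

theorem map_phi_rel {L L' : Type*} [CommRing L] [CommRing L'] (f : L →+* L')
    (Φ : Polynomial (Polynomial ℤ)) {x y : L}
    (h : Φ.eval₂ (Polynomial.eval₂RingHom (Int.castRingHom L) x) y = 0) :
    Φ.eval₂ (Polynomial.eval₂RingHom (Int.castRingHom L') (f x)) (f y) = 0 := by
  have h1 := congrArg f h
  rw [Polynomial.hom_eval₂, map_zero] at h1
  refine Eq.trans ?_ h1
  congr 1
  exact Polynomial.ringHom_ext' (Subsingleton.elim _ _) (by simp)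

theorem phi_xy : (phiQ q).eval₂
    (Polynomial.eval₂RingHom (Int.castRingHom (F₂ A M q)) (x₂ A M q (jElt A M)))
    (y₂ A M q (jElt A M)) = 0 := by
  apply (Fld A (M * q * q)).val.toRingHom.injective
  rw [Polynomial.hom_eval₂, map_zero]
  refine Eq.trans ?_ (ModFun.eval_modularPolynomial Qbar (ModFun.modularPolynomialData q))
  have hy : (Fld A (M * q * q)).val.toRingHom (y₂ A M q (jElt A M)) = jqNModC Qbar q := by
    show ((y₂ A M q (jElt A M) : F₂ A M q) : Ser) = _
    simp [y₂, jqNModC, jElt]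
  rw [hy]
  congr 1
  refine Polynomial.ringHom_ext' (Subsingleton.elim _ _) ?_
  simp [x₂, jElt]

theorem phi_yz : (phiQ q).eval₂
    (Polynomial.eval₂RingHom (Int.castRingHom (F₂ A M q)) (y₂ A M q (jElt A M)))
    (z₂ A M q (jElt A M)) = 0 := by
  apply (Fld A (M * q * q)).val.toRingHom.injective
  rw [Polynomial.hom_eval₂, map_zero]
  have h := map_phi_rel (qExpand Qbar q) (phiQ q)
    (ModFun.eval_modularPolynomial Qbar (ModFun.modularPolynomialData q))
  refine Eq.trans ?_ h
  have hz : (Fld A (M * q * q)).val.toRingHom (z₂ A M q (jElt A M)) =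
      qExpand Qbar q (jqNModC Qbar q) := by
    show ((z₂ A M q (jElt A M) : F₂ A M q) : Ser) = _
    simp [z₂, jqNModC, jElt]
  rw [hz]
  congr 1
  refine Polynomial.ringHom_ext' (Subsingleton.elim _ _) ?_
  simp [y₂, jElt]

theorem phi_yx (hqM : ¬ q ∣ M) : (phiQ q).eval₂
    (Polynomial.eval₂RingHom (Int.castRingHom (F₂ A M q)) (y₂ A M q (jElt A M)))
    (x₂ A M q (jElt A M)) = 0 := by
  have h := map_phi_rel (w₂ A M q).toRingEquiv.toRingHom (phiQ q) (phi_yz (A := A) (M := M) (q := q))
  have h1 : (w₂ A M q).toRingEquiv.toRingHom (y₂ A M q (jElt A M)) = y₂ A M q (jElt A M) :=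
    w₂_y₂ hqM _
  have h2 : (w₂ A M q).toRingEquiv.toRingHom (z₂ A M q (jElt A M)) = x₂ A M q (jElt A M) :=
    w₂_z₂ hqM _
  rwa [h1, h2] at h

theorem phiShape_phiQ : Mazur.PhiShape q (phiQ q) := Mazur.phiShape _

theorem exists_hasKronecker_phiQ (hA : A.LiesOverPrime q) (hqM : ¬ q ∣ M) :
    ∃ d, HasKronecker q (phiQ q) d := by
  haveI := charP_res (A := A) hA
  have hinj : Function.Injective (Polynomial.aeval (R := Res A) (jqModC (Res A))) :=
    transcendental_iff_injective.mp (Curve.transcendental_jqModC' (Res A))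
  refine exists_hasKronecker (k := Res A) phiShape_phiQ ?_ ?_
  · apply hinj
    rw [map_zero]
    have h := ModFun.eval_modularPolynomial (Res A) (ModFun.modularPolynomialData q)
    rw [show jqNModC (Res A) q = jqModC (Res A) ^ q from (jqModC_pow_prime q).symm] at h
    refine Eq.trans ?_ h
    rw [← Polynomial.eval₂_id, ← AlgHom.coe_toRingHom, Polynomial.hom_eval₂, Polynomial.eval₂_map]
    congr 1
    · exact Polynomial.ringHom_ext' (Subsingleton.elim _ _) (by simp)
    · simp
  · apply hinj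
    rw [map_zero]
    have hg := jCoord_mem_gaussInt (A := A) (M := M) false
    obtain ⟨hx, hy, -⟩ := sideEmb_base_mem hA hqM (jCoord A M false) hg.1 Side.s20
    have h0 : (phiQ q).eval₂ (Polynomial.eval₂RingHom (Int.castRingHom (sideInt A M q .s20))
        ⟨y₂ A M q (jCoord A M false), hy⟩) ⟨x₂ A M q (jCoord A M false), hx⟩ = 0 := by
      apply Subtype.val_injective
      rw [ZeroMemClass.coe_zero, ← phi_yx (A := A) (M := M) (q := q) hqM]
      refine (Polynomial.hom_eval₂ _ _ (sideInt A M q .s20).subtype _).trans ?_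
      congr 1
      exact Polynomial.ringHom_ext' (Subsingleton.elim _ _) (by simp; rfl)
    have h1 := map_phi_rel ((RFld A M).val.toRingHom.comp (sideRes A M q .s20)) (phiQ q) h0
    obtain ⟨hsx, hsy, -⟩ := sideValue_jCoord hA hqM false Side.s20
    have ey : ((RFld A M).val.toRingHom.comp (sideRes A M q .s20))
        ⟨y₂ A M q (jCoord A M false), hy⟩ = jqModC (Res A) ^ q := by
      rw [RingHom.comp_apply, hsy.sideRes_eq hy]
      rfl
    have ex : ((RFld A M).val.toRingHom.comp (sideRes A M q .s20))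
        ⟨x₂ A M q (jCoord A M false), hx⟩ = jqModC (Res A) := by
      rw [RingHom.comp_apply, hsx.sideRes_eq hx]
      rfl
    rw [ey, ex] at h1
    refine Eq.trans ?_ h1
    rw [← AlgHom.coe_toRingHom, Polynomial.hom_eval₂, Polynomial.eval₂_map]
    congr 1
    · exact Polynomial.ringHom_ext' (Subsingleton.elim _ _) (by simp)
    · simp

end Fermat.Agent.Carayol.Reg

end
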