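/-
Theorem of Carayol at `q ^ 2 ∥ M`: the middle valuation of `j / j_{q²} - 1`: its
conjugates over level `q M` start with `ζ ^ i - 1`, so the valuation is `1`.
-/
import Fermat.Agent.Carayol.MainLocalCuspValues
import Mathlib.RingTheory.RootsOfUnity.Lemmas

set_option autoImplicit false
set_option linter.style.haveILetI false
set_option linter.unusedSectionVars false

noncomputable section

namespace Fermat.Agent.Carayol.Reg

open ModularCurve IntermediateField IsLocalRing

set_option maxHeartbeats 1000000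
set_option synthInstance.maxHeartbeats 200000

local notation "Qbar" => AlgebraicClosure ℚ
local notation "Ser" => LaurentSeries (AlgebraicClosure ℚ)

variable {A : ValuationSubring (AlgebraicClosure ℚ)} {M q : ℕ} [NeZero M] [Fact q.Prime]

/-- `j - j (u t)` is `1 - u` times a unit series. -/
theorem exists_sub_seriesTwist (hA : A.LiesOverPrime q) {u : Qbarˣ} (hu : u ^ q = 1) :
    ∃ G : Ser, IsGaussUnit A G ∧
      jqModC Qbar - seriesTwist u (jqModC Qbar) = algebraMap Qbar Ser (1 - (u : Qbar)) * G := by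
  haveI := charP_res (A := A) hA
  obtain ⟨v, hv, hvres⟩ := exists_unit_of_pow_eq_one (q := q) hA (u := u) (k := 1) (by rwa [pow_one])
  set c := jqModC A with hc
  let g : ℤ → A := fun n => ∑ l ∈ Finset.range (n % (q : ℤ)).toNat, (v : A) ^ l
  let G₀ : LaurentSeries A :=
    { coeff := fun n => g n * c.coeff n
      isPWO_support' := c.isPWO_support'.mono fun n hn h0 => hn (by simp [h0]) }
  have hG₀ := red_coeffMap (A := A) G₀
  refine ⟨coeffMap A.subtype G₀, ⟨hG₀.1, fun h0 => ?_⟩, ?_⟩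
  · rw [hG₀.2] at h0
    have h1 := congrArg (fun x : ResSer A => x.coeff (-1)) h0
    simp only [coeffMap_coeff, HahnSeries.coeff_zero] at h1
    have hc1 : residue A (c.coeff (-1)) = 1 := by
      rw [← coeffMap_coeff (residue A), hc, coeffMap_jqModC, coeff_jqModC_neg_one]
    have hq2 := two_le_q q
    have hmod : ((-1 : ℤ) % (q : ℤ)).toNat = q - 1 := by
      rw [show (-1 : ℤ) = ((q - 1 : ℕ) : ℤ) + (-1) * (q : ℤ) by
        rw [Nat.cast_sub (by omega)]; push_cast; ring, Int.add_mul_emod_self_right,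
        Int.emod_eq_of_lt (by omega) (by omega), Int.toNat_natCast]
    change residue A (g (-1) * c.coeff (-1)) = 0 at h1
    rw [map_mul, hc1, mul_one] at h1
    simp only [g, hmod, map_sum, map_pow, hvres, one_pow, Finset.sum_const, Finset.card_range,
      nsmul_eq_mul, mul_one] at h1
    rw [Nat.cast_sub (by omega), CharP.cast_eq_zero, Nat.cast_one, zero_sub, neg_eq_zero] at h1
    exact one_ne_zero h1
  · ext n
    have hJ : (jqModC Qbar).coeff n = ((c.coeff n : A) : Qbar) := by
      rw [← coeffMap_jqModC A.subtype, coeffMap_coeff]; rfl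
    have hun : ((u ^ n : Qbarˣ) : Qbar) = (u : Qbar) ^ (n % (q : ℤ)).toNat := by
      have hq0 : (q : ℤ) ≠ 0 := by exact_mod_cast (Fact.out : q.Prime).ne_zero
      conv_lhs => rw [← Int.emod_add_ediv_mul n (q : ℤ), zpow_add, mul_comm (n / (q : ℤ)),
        zpow_mul, zpow_natCast, hu, one_zpow, mul_one,
        ← Int.toNat_of_nonneg (Int.emod_nonneg n hq0), zpow_natCast, Units.val_pow_eq_pow_val]
    rw [algebraMap_laurentSeries_eq_single, HahnSeries.coeff_sub, seriesTwist_coeff, HahnSeries.coeff_single_zero_mul,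
      coeffMap_coeff, hJ, hun]
    change _ = (1 - (u : Qbar)) * A.subtype (g n * c.coeff n)
    rw [map_mul]
    simp only [g, map_sum, map_pow]
    rw [show A.subtype (v : A) = (u : Qbar) from hv,
      show A.subtype (c.coeff n) = ((c.coeff n : A) : Qbar) from rfl]
    have h := geom_sum_mul_neg (u : Qbar) (n % (q : ℤ)).toNat
    linear_combination -((c.coeff n : A) : Qbar) * h

/-- The middle conjugates of `Z / X - 1`. -/
theorem exists_e₁₁_ratio (hA : A.LiesOverPrime q) (hqM : ¬ q ∣ M) (i : Fin (q - 1)) :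
    ∃ H : Ser, IsGaussUnit A H ∧
      e₁₁ A M q i (z₂ A M q (jCoord A M true) * x₂ A M q (jCoord A M false) - 1) =
        algebraMap Qbar Ser (1 - (zetaQ q : Qbar) ^ ((i : ℕ) + 1)) * H := by
  set u : Qbarˣ := zetaQ q ^ ((i : ℕ) + 1) with hu
  have huq : u ^ q = 1 := by
    apply Units.ext
    rw [hu, ← pow_mul, mul_comm, pow_mul, Units.val_pow_eq_pow_val, Units.val_pow_eq_pow_val,
      (isPrimitiveRoot_zetaQ q).pow_eq_one, one_pow, Units.val_one]
  obtain ⟨G, hG, hGe⟩ := exists_sub_seriesTwist (A := A) (q := q) hA huq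
  have hJ := jElt_isGaussUnit (A := A)
  have ht := red_seriesTwist (A := A) (q := q) hA (u := u) (k := 1) (by rwa [pow_one])
    (jqModC Qbar)
  have hT : IsGaussUnit A (seriesTwist u (jqModC Qbar)) := ⟨ht.1.mpr hJ.1.1, ht.2 ▸ hJ.1.2⟩
  refine ⟨G * (seriesTwist u (jqModC Qbar))⁻¹, hG.mul hT.inv, ?_⟩
  have hx : e₁₁ A M q i (x₂ A M q (jCoord A M false)) = jqModC Qbar := by
    refine (e₁₁_p₀₁ hqM i (x₁ A M q (jCoord A M false))).trans ?_
    rw [coe_incl]; rfl
  have hz : e₁₁ A M q i (z₂ A M q (jCoord A M true)) = (seriesTwist u (jqModC Qbar))⁻¹ := by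
    rw [e₁₁_z₂ hqM i, midTwist, ← map_inv₀]
    congr 1
  rw [map_sub, map_mul, map_one, hx, hz, show (1 - (zetaQ q : Qbar) ^ ((i : ℕ) + 1)) =
    1 - (u : Qbar) by rw [hu, Units.val_pow_eq_pow_val], ← mul_assoc, ← hGe, sub_mul,
    mul_inv_cancel₀ hT.ne_zero, mul_comm]

/-- The middle valuation of `Z / X - 1`, given that it is a unit on the `τ`-component. -/
theorem sideVal_s11_ratio (hA : A.LiesOverPrime q) (hqM : ¬ q ∣ M) {r : RFld A M}
    (hr : SideValue .s20 (z₂ A M q (jCoord A M true) * x₂ A M q (jCoord A M false) - 1) r)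
    (hr0 : r ≠ 0) :
    sideVal A M q .s11 (z₂ A M q (jCoord A M true) * x₂ A M q (jCoord A M false) - 1) = 1 := by
  set w := z₂ A M q (jCoord A M true) * x₂ A M q (jCoord A M false) - 1
  have hw : IsGaussUnit A ((w : F₂ A M q) : Ser) := hr.isGaussUnit hr0
  have hw0 : val A q ((w : F₂ A M q) : Ser) = 0 := val_eq hA (by simpa using hw)
  choose H hH hHe using exists_e₁₁_ratio (A := A) (M := M) (q := q) hA hqM
  have hprod : ∏ i : Fin (q - 1), e₁₁ A M q i w =
      algebraMap Qbar Ser (q : Qbar) * ∏ i : Fin (q - 1), H i := by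
    have hroot : ∏ i : Fin (q - 1), (1 - (zetaQ q : Qbar) ^ ((i : ℕ) + 1)) = (q : Qbar) := by
      obtain ⟨n, hn⟩ : ∃ n, q = n + 1 := ⟨q - 1, by have := two_le_q q; omega⟩
      rw [Fin.prod_univ_eq_prod_range (fun i => 1 - (zetaQ q : Qbar) ^ (i + 1)),
        show q - 1 = n by omega, IsPrimitiveRoot.prod_one_sub_pow_eq_order
          (hn ▸ isPrimitiveRoot_zetaQ q)]
      rw [hn]; push_cast; rfl
    rw [Finset.prod_congr rfl fun i _ => hHe i, Finset.prod_mul_distrib, ← map_prod, hroot]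
  have hN : val A q (norm₀₁ A M q w : Ser) = 1 := by
    refine val_eq hA ?_
    rw [zpow_one, coe_norm₀₁ hqM, hprod, ← natCast_ser,
      show ((q : Ser))⁻¹ * (((w : F₂ A M q) : Ser) * ((q : Ser) * ∏ i, H i)) =
        ((w : F₂ A M q) : Ser) * ∏ i, H i by
        rw [mul_left_comm ((w : F₂ A M q) : Ser), ← mul_assoc,
          inv_mul_cancel₀ (natCast_ser_ne (q := q)), one_mul]]
    exact hw.mul (isGaussUnit_prod _ fun i _ => hH i)
  show val₁₁ A M q w = 1
  rw [val₁₁, hN, hw0, sub_zero]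

end Fermat.Agent.Carayol.Reg

end
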