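/-
Theorem of Carayol at `q ^ 2 ∥ M`: the residual curve near a point over the finite
`j`-line: regular functions are quotients of functions integral over the coordinate, and the
coefficient Frobenius.
-/
import Fermat.Agent.Carayol.MainChart
import Fermat.Agent.BadReduction.X0Frobenius
import Fermat.Agent.Curve.BasicFunctionField
import Fermat.Agent.Curve.BasicModular
import Mathlib.RingTheory.Valuation.LocalSubring
import Mathlib.RingTheory.Polynomial.Content

set_option autoImplicit false
set_option linter.style.haveILetI false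

noncomputable section

namespace Fermat.Agent.Carayol.Reg

open ModularCurve IntermediateField AlgebraicCurve Polynomial

section Generic

open scoped IntermediateField.algebraAdjoinAdjoin

variable {k F : Type*} [Field k] [Field F] [Algebra k F]

/-- `g` is regular at `P`. -/
def RegAt (P : Place k F) (g : F) : Prop := g ∈ P.toValuationSubring

/-- `g` vanishes at `P`. -/
def VanAt (P : Place k F) (g : F) : Prop := g = 0 ∨ 0 < P.ord g

variable {P : Place k F} {f g : F}

theorem regAt_iff : RegAt P g ↔ g = 0 ∨ 0 ≤ P.ord g := by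
  rcases eq_or_ne g 0 with rfl | hg
  · exact ⟨fun _ => Or.inl rfl, fun _ => zero_mem P.toValuationSubring⟩
  · simp [RegAt, Curve.mem_iff_ord_nonneg, hg]

theorem VanAt.regAt (h : VanAt P g) : RegAt P g :=
  regAt_iff.2 (h.imp id le_of_lt)

theorem vanAt_zero : VanAt P (0 : F) := Or.inl rfl

theorem not_vanAt_algebraMap {a : k} (ha : a ≠ 0) : ¬ VanAt P (algebraMap k F a) := by
  rintro (h | h)
  · exact ha (by rwa [map_eq_zero] at h)
  · rw [Curve.ord_algebraMap] at h
    exact lt_irrefl 0 h

theorem not_vanAt_one : ¬ VanAt P (1 : F) := by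
  simpa using not_vanAt_algebraMap (P := P) (one_ne_zero (α := k))

theorem vanAt_neg_iff : VanAt P (-g) ↔ VanAt P g := by
  simp [VanAt, Curve.ord_neg]

theorem VanAt.add (hf : VanAt P f) (hg : VanAt P g) : VanAt P (f + g) := by
  rcases eq_or_ne (f + g) 0 with h | h
  · exact Or.inl h
  · refine Or.inr (Int.lt_iff_add_one_le.2 ?_)
    exact Curve.le_ord_add P 1 h (fun h' => hf.resolve_left h') fun h' => hg.resolve_left h'

theorem VanAt.sub (hf : VanAt P f) (hg : VanAt P g) : VanAt P (f - g) := by
  rw [sub_eq_add_neg]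
  exact hf.add (vanAt_neg_iff.2 hg)

theorem VanAt.mul_left (hf : RegAt P f) (hg : VanAt P g) : VanAt P (f * g) := by
  rcases eq_or_ne f 0 with rfl | hf0
  · rw [zero_mul]; exact vanAt_zero
  rcases eq_or_ne g 0 with rfl | hg0
  · rw [mul_zero]; exact vanAt_zero
  refine Or.inr ?_
  rw [P.ord_mul hf0 hg0]
  have h1 := (regAt_iff.1 hf).resolve_left hf0
  have h2 := hg.resolve_left hg0
  omega

theorem VanAt.mul_right (hf : VanAt P f) (hg : RegAt P g) : VanAt P (f * g) := by
  rw [mul_comm]
  exact hf.mul_left hg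

theorem vanAt_pow_iff {n : ℕ} (hn : 0 < n) : VanAt P (g ^ n) ↔ VanAt P g := by
  rcases eq_or_ne g 0 with rfl | hg
  · simp [VanAt, zero_pow hn.ne']
  · simp [VanAt, hg, Curve.ord_pow, hn]

theorem ord_eq_zero_of_not_vanAt (hr : RegAt P g) (hv : ¬ VanAt P g) : P.ord g = 0 := by
  rw [VanAt, not_or] at hv
  have h1 := (regAt_iff.1 hr).resolve_left hv.1
  omega

theorem not_vanAt_mul (hf : RegAt P f) (hg : RegAt P g) (hf' : ¬ VanAt P f) (hg' : ¬ VanAt P g) :
    ¬ VanAt P (f * g) := by
  have h1 : f ≠ 0 := fun h => hf' (Or.inl h)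
  have h2 : g ≠ 0 := fun h => hg' (Or.inl h)
  rintro (h | h)
  · exact mul_ne_zero h1 h2 h
  · rw [P.ord_mul h1 h2, ord_eq_zero_of_not_vanAt hf hf', ord_eq_zero_of_not_vanAt hg hg'] at h
    exact lt_irrefl 0 h

theorem regAt_div (hf : RegAt P f) (hg : RegAt P g) (hg' : ¬ VanAt P g) : RegAt P (f / g) := by
  rcases eq_or_ne f 0 with rfl | hf0
  · rw [zero_div]; exact zero_mem P.toValuationSubring
  refine regAt_iff.2 (Or.inr ?_)
  rw [Curve.ord_div P hf0 fun h => hg' (Or.inl h), ord_eq_zero_of_not_vanAt hg hg', sub_zero]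
  exact (regAt_iff.1 hf).resolve_left hf0

/-- The value of a regular function. -/
theorem exists_sub_algebraMap_vanAt [IsAlgClosed k] [Curve.IsFunctionFieldOne k F] (hg : RegAt P g) :
    ∃ a : k, VanAt P (g - algebraMap k F a) := by
  haveI := Curve.finite_residueField P
  obtain ⟨a, ha⟩ := IsAlgClosed.algebraMap_bijective_of_isIntegral
    (k := k) (K := P.ResidueField) |>.2 (IsLocalRing.residue _ ⟨g, hg⟩)
  refine ⟨a, ?_⟩
  have h0 : IsLocalRing.residue P.toValuationSubring
      (⟨g, hg⟩ - ⟨algebraMap k F a, P.algebraMap_mem' a⟩) = 0 := by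
    rw [map_sub, sub_eq_zero, ← ha]
    rfl
  have h1 := Curve.ordGE_mk_of_residue_eq_zero h0
  rcases h1 with h1 | h1
  · exact Or.inl h1
  · exact Or.inr h1

/-- An element all of whose valuation subrings over `k [x]` contain it is integral over `k [x]`. -/
theorem isIntegral_of_forall_mem (x h : F)
    (hh : ∀ V : ValuationSubring F, (∀ a, algebraMap k F a ∈ V) → x ∈ V → h ∈ V) :
    IsIntegral (Algebra.adjoin k {x}) h := by
  have h1 : h ∈ (integralClosure (Subring.closure (Set.range (algebraMap k F) ∪ {x})) F).toSubring := by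
    rw [← iInf_valuationSubring_superset]
    simp only [Subring.mem_iInf]
    rintro ⟨V, hV⟩
    exact hh V (fun a => hV (Or.inl ⟨a, rfl⟩)) (hV (Or.inr rfl))
  have h2 : Subring.closure (Set.range (algebraMap k F) ∪ {x}) =
      (Algebra.adjoin k {x}).toSubring := (Algebra.adjoin_eq_ring_closure {x}).symm
  obtain ⟨p, hp, hp0⟩ := h1
  refine ⟨p.map (Subring.inclusion h2.le), hp.map _, ?_⟩
  rw [eval₂_map]
  exact hp0

theorem regAt_of_isIntegral {x : F} (hx : RegAt P x) (hg : IsIntegral (Algebra.adjoin k {x}) g) :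
    RegAt P g := by
  have hle : ∀ y ∈ Algebra.adjoin k {x}, y ∈ P.toValuationSubring := by
    intro y hy
    induction hy using Algebra.adjoin_induction with
    | mem y hy => rwa [Set.mem_singleton_iff.1 hy]
    | algebraMap a => exact P.algebraMap_mem' a
    | add a b _ _ ha hb => exact add_mem ha hb
    | mul a b _ _ ha hb => exact mul_mem ha hb
  obtain ⟨p, hp, hp0⟩ := hg
  let φ : Algebra.adjoin k {x} →+* P.toValuationSubring :=
    ((Algebra.adjoin k {x}).val.toRingHom).codRestrict _ fun y => hle y y.2
  have : IsIntegral P.toValuationSubring g := ⟨p.map φ, hp.map φ, by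
    rw [eval₂_map]; exact hp0⟩
  obtain ⟨y, hy⟩ := IsIntegrallyClosed.isIntegral_iff.1 this
  exact hy ▸ y.2

/-- An annihilating polynomial over `k [x]` whose coefficients do not all vanish at `P`. -/
theorem exists_annihilator [Curve.IsFunctionFieldOne k F] {x : F} (htr : Transcendental k x)
    (hx : RegAt P x) [IsAlgClosed k] (g : F) :
    ∃ Q : (k[X])[X], Q.eval₂ (aeval x).toRingHom g = 0 ∧
      ∃ i, ¬ VanAt P (aeval x (Q.coeff i)) := by
  classical
  letI : Algebra k[X] F := (aeval x).toRingHom.toAlgebra
  have hinj : Function.Injective (algebraMap k[X] F) := transcendental_iff_injective.1 htr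
  haveI : Module.IsTorsionFree k[X] F :=
    Module.isTorsionFree_iff_algebraMap_injective.2 hinj
  haveI : Module.Finite k⟮x⟯ F := Curve.finite_adjoin_of_transcendental htr
  have halg : IsAlgebraic (Algebra.adjoin k {x}) g :=
    (IsFractionRing.isAlgebraic_iff (Algebra.adjoin k {x}) k⟮x⟯ F).2
      (Algebra.IsAlgebraic.isAlgebraic g)
  obtain ⟨p, hp, hp0⟩ := halg
  obtain ⟨Q, hQ⟩ : ∃ Q : (k[X])[X], Q.map ((aeval x).codRestrict (Algebra.adjoin k {x})
      fun r => aeval_mem_adjoin_singleton k x).toRingHom = p := by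
    refine map_surjective _ ?_ p
    rintro ⟨y, hy⟩
    rw [Algebra.adjoin_singleton_eq_range_aeval] at hy
    obtain ⟨r, hr⟩ := hy
    exact ⟨r, Subtype.ext hr⟩
  have hQ0 : Q ≠ 0 := fun h => hp (by rw [← hQ, h, Polynomial.map_zero])
  have hann : aeval g Q = 0 := by
    rw [← hp0, ← hQ, aeval_def, aeval_def, eval₂_map]
    rfl
  refine ⟨Q.primPart, aeval_primPart_eq_zero hQ0 hann, ?_⟩
  by_contra hall
  push Not at hall
  obtain ⟨a, ha⟩ := exists_sub_algebraMap_vanAt hx
  have hdvd : C (X - C a) ∣ Q.primPart := by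
    rw [C_dvd_iff_dvd_coeff]
    intro i
    rw [dvd_iff_isRoot, IsRoot]
    by_contra hne
    refine not_vanAt_algebraMap (P := P) hne ?_
    have h1 : VanAt P (aeval x (Q.primPart.coeff i) - algebraMap k F
        ((Q.primPart.coeff i).eval a)) := by
      obtain ⟨r, hr⟩ := X_sub_C_dvd_sub_C_eval (a := a) (p := Q.primPart.coeff i)
      have e := congrArg (aeval x) hr
      rw [map_sub, aeval_C, map_mul, map_sub, aeval_X, aeval_C] at e
      rw [e]
      refine ha.mul_right ?_
      have hmem : ∀ r : k[X], aeval x r ∈ P.toValuationSubring := fun r => by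
        induction r using Polynomial.induction_on' with
        | add r s hr hs => rw [map_add]; exact add_mem hr hs
        | monomial n c =>
          rw [aeval_monomial]
          exact mul_mem (P.algebraMap_mem' c) (pow_mem hx n)
      exact hmem r
    have h2 := (hall i).sub h1
    rwa [sub_sub_cancel] at h2
  exact (X_sub_C_ne_zero a) (by
    have := (isPrimitive_primPart Q) _ hdvd
    exact absurd (degree_eq_zero_of_isUnit this) (by rw [degree_X_sub_C]; decide))

/-- A regular function at a point is a quotient of functions integral over `k [x]`. -/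
theorem exists_integral_fraction [Curve.IsFunctionFieldOne k F] [IsAlgClosed k] {x : F}
    (htr : Transcendental k x) (hx : RegAt P x) (hg : RegAt P g) :
    ∃ e b : F, IsIntegral (Algebra.adjoin k {x}) e ∧ IsIntegral (Algebra.adjoin k {x}) b ∧
      ¬ VanAt P b ∧ g * b = e := by
  classical
  obtain ⟨Q, hQ, i₀, hi₀⟩ := exists_annihilator (P := P) htr hx g
  set a : ℕ → F := fun i => aeval x (Q.coeff i) with ha
  set n := Q.natDegree + 1 with hn
  set H : ℕ → F := fun i => ∑ m ∈ Finset.Ico i n, a m * g ^ (m - i) with hH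
  have hsum : ∑ m ∈ Finset.range n, a m * g ^ m = 0 := by
    rw [eval₂_eq_sum_range] at hQ
    exact hQ
  have hrec : ∀ i, a i = H i - g * H (i + 1) := by
    intro i
    rcases lt_or_ge i n with hin | hin
    · simp only [hH]
      rw [Finset.sum_eq_sum_Ico_succ_bot hin, Nat.sub_self, pow_zero, mul_one, Finset.mul_sum]
      have : ∀ m ∈ Finset.Ico (i + 1) n, g * (a m * g ^ (m - (i + 1))) = a m * g ^ (m - i) := by
        intro m hm
        rw [Finset.mem_Ico] at hm
        rw [show m - i = (m - (i + 1)) + 1 by omega, pow_succ]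
        ring
      rw [Finset.sum_congr rfl this]
      ring
    · simp only [hH]
      rw [Finset.Ico_eq_empty_of_le hin, Finset.Ico_eq_empty_of_le (by omega)]
      simp [ha, coeff_eq_zero_of_natDegree_lt (show Q.natDegree < i by omega)]
  have hint : ∀ i, IsIntegral (Algebra.adjoin k {x}) (H i) := by
    intro i
    refine isIntegral_of_forall_mem x _ fun V hkV hxV => ?_
    have haV : ∀ m, a m ∈ V := fun m => by
      simp only [ha]
      induction Q.coeff m using Polynomial.induction_on' with
      | add r s hr hs => rw [map_add]; exact add_mem hr hs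
      | monomial n c =>
        rw [aeval_monomial]
        exact mul_mem (hkV c) (pow_mem hxV n)
    rcases V.mem_or_inv_mem g with hgV | hgV
    · exact sum_mem fun m _ => mul_mem (haV m) (pow_mem hgV _)
    rcases eq_or_ne g 0 with hg0 | hg0
    · exact sum_mem fun m _ => mul_mem (haV m) (pow_mem (hg0 ▸ zero_mem V) _)
    rcases le_or_gt i n with hin | hin
    · have e : H i = -∑ m ∈ Finset.range i, a m * g⁻¹ ^ (i - m) := by
        rw [eq_neg_iff_add_eq_zero]
        have h1 : (H i + ∑ m ∈ Finset.range i, a m * g⁻¹ ^ (i - m)) * g ^ i = 0 := by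
          rw [← hsum, ← Finset.sum_range_add_sum_Ico _ hin, add_mul, add_comm, Finset.sum_mul,
            Finset.sum_mul]
          refine congrArg₂ (· + ·) (Finset.sum_congr rfl fun m hm => ?_)
            (Finset.sum_congr rfl fun m hm => ?_)
          · rw [Finset.mem_range] at hm
            rw [show i = m + (i - m) by omega, pow_add, Nat.add_sub_cancel_left, inv_pow]
            field_simp
          · rw [Finset.mem_Ico] at hm
            rw [mul_assoc, ← pow_add, show m - i + i = m by omega]
        exact (mul_eq_zero.1 h1).resolve_right (pow_ne_zero _ hg0)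
      rw [e]
      exact neg_mem (sum_mem fun m _ => mul_mem (haV m) (pow_mem hgV _))
    · simp only [hH]
      rw [Finset.Ico_eq_empty_of_le hin.le, Finset.sum_empty]
      exact zero_mem V
  by_cases hall : ∀ i, VanAt P (H (i + 1))
  · exfalso
    refine hi₀ (?_ : VanAt P (a i₀))
    rw [hrec i₀]
    refine VanAt.sub ?_ (VanAt.mul_left hg (hall i₀))
    cases i₀ with
    | zero =>
      refine Or.inl ?_
      simp only [hH, Nat.sub_zero, ← Finset.range_eq_Ico]
      exact hsum
    | succ j => exact hall j
  · push Not at hall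
    obtain ⟨i, hi⟩ := hall
    refine ⟨H i - a i, H (i + 1), IsIntegral.sub (hint i) ?_, hint (i + 1), hi, ?_⟩
    · exact isIntegral_algebraMap (R := Algebra.adjoin k {x}) (x := ⟨a i, aeval_mem_adjoin_singleton k x⟩)
    · rw [hrec i]; ring

/-- A uniformiser integral over `k [x]`. -/
theorem exists_integral_uniformizer [Curve.IsFunctionFieldOne k F] [IsAlgClosed k] {x : F}
    (htr : Transcendental k x) (hx : RegAt P x) :
    ∃ π : F, IsIntegral (Algebra.adjoin k {x}) π ∧ P.ord π = 1 := by
  obtain ⟨t, ht0, ht⟩ := Curve.exists_uniformizer P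
  obtain ⟨e, b, he, hb, hbv, heq⟩ := exists_integral_fraction htr hx
    (regAt_iff.2 (Or.inr (by omega)) : RegAt P t)
  refine ⟨e, he, ?_⟩
  rw [← heq, P.ord_mul ht0 fun h => hbv (Or.inl h), ht,
    ord_eq_zero_of_not_vanAt (regAt_of_isIntegral hx hb) hbv, add_zero]

/-- A function vanishing at `P` is, up to a unit of the local ring, a multiple of a uniformiser. -/
theorem exists_fraction_of_vanAt [Curve.IsFunctionFieldOne k F] [IsAlgClosed k] {x : F}
    (htr : Transcendental k x) (hx : RegAt P x) {π : F} (hπ : P.ord π = 1) (hg : VanAt P g) :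
    ∃ e b : F, IsIntegral (Algebra.adjoin k {x}) e ∧ IsIntegral (Algebra.adjoin k {x}) b ∧
      ¬ VanAt P b ∧ g * b = π * e := by
  have hπ0 : π ≠ 0 := fun h => by rw [h, P.ord_zero] at hπ; exact zero_ne_one hπ
  have hu : RegAt P (g / π) := by
    rcases eq_or_ne g 0 with rfl | hg0
    · rw [zero_div]; exact zero_mem P.toValuationSubring
    · refine regAt_iff.2 (Or.inr ?_)
      rw [Curve.ord_div P hg0 hπ0, hπ]
      have := hg.resolve_left hg0
      omega
  obtain ⟨e, b, he, hb, hbv, heq⟩ := exists_integral_fraction htr hx hu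
  exact ⟨e, b, he, hb, hbv, by rw [← heq]; field_simp⟩

/-- Two places with the same vanishing integral functions are equal. -/
theorem place_eq_of_vanAt_iff [Curve.IsFunctionFieldOne k F] [IsAlgClosed k] {x : F}
    (htr : Transcendental k x) {Q : Place k F} (hP : RegAt P x) (hQ : RegAt Q x)
    (h : ∀ g : F, IsIntegral (Algebra.adjoin k {x}) g → (VanAt P g ↔ VanAt Q g)) : P = Q := by
  refine Curve.place_eq_of_le fun g hg => ?_
  obtain ⟨e, b, he, hb, hbv, heq⟩ := exists_integral_fraction htr hP (hg : RegAt P g)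
  have hbQ : ¬ VanAt Q b := fun h' => hbv ((h b hb).2 h')
  have : g = e / b := by
    rw [← heq, mul_div_assoc, div_self fun h' => hbv (Or.inl h'), mul_one]
  rw [this]
  exact regAt_div (regAt_of_isIntegral hQ he) (regAt_of_isIntegral hQ hb) hbQ

end Generic

variable (A : ValuationSubring (AlgebraicClosure ℚ)) (M q : ℕ) [NeZero M] [Fact q.Prime]

/-- The inverse coefficient Frobenius: `g (t ^ q) = (tau g) ^ q`. -/
def tau [CharP (Res A) q] [IsAlgClosed (Res A)] : RFld A M ≃+* RFld A M :=
  (BadReduction.resFrob (Res A) q M).symm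

variable {A M q} [CharP (Res A) q] [IsAlgClosed (Res A)]

theorem resPhi_eq_tau_pow (g : RFld A M) :
    BadReduction.resPhi (Res A) q M g = tau A M q g ^ q := by
  rw [← BadReduction.resPhi_resFrob, tau, RingEquiv.apply_symm_apply]

theorem tau_jRes : tau A M q (jRes A M) = jRes A M := by
  rw [tau, RingEquiv.symm_apply_eq]
  exact (BadReduction.resFrob_resJ (Res A) q M).symm

theorem isIntegral_resFrob {g : RFld A M} (hg : IsIntegral (Algebra.adjoin (Res A) {jRes A M}) g) :
    IsIntegral (Algebra.adjoin (Res A) {jRes A M}) (BadReduction.resFrob (Res A) q M g) := by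
  refine isIntegral_of_forall_mem _ _ fun V hkV hjV => ?_
  let W : ValuationSubring (RFld A M) := V.comap (BadReduction.resFrob (Res A) q M).toRingHom
  have hk : ∀ a, algebraMap (Res A) (RFld A M) a ∈ W := fun a => by
    show BadReduction.resFrob (Res A) q M (algebraMap (Res A) (RFld A M) a) ∈ V
    rw [show BadReduction.resFrob (Res A) q M (algebraMap (Res A) (RFld A M) a) =
      algebraMap (Res A) (RFld A M) (a ^ q) from Subtype.ext (by
        rw [BadReduction.coe_resFrob]; exact coeffMap_algebraMap _ a)]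
    exact hkV _
  have hj : jRes A M ∈ W := by
    show BadReduction.resFrob (Res A) q M (jRes A M) ∈ V
    rw [show jRes A M = BadReduction.resJ (Res A) M from rfl, BadReduction.resFrob_resJ]
    exact hjV
  have hle : ∀ y ∈ Algebra.adjoin (Res A) {jRes A M}, y ∈ W := by
    intro y hy
    induction hy using Algebra.adjoin_induction with
    | mem y hy => rwa [Set.mem_singleton_iff.1 hy]
    | algebraMap a => exact hk a
    | add a b _ _ ha hb => exact add_mem ha hb
    | mul a b _ _ ha hb => exact mul_mem ha hb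
  obtain ⟨p, hp, hp0⟩ := hg
  have hint : IsIntegral W g := ⟨p.map ((Algebra.adjoin (Res A) {jRes A M}).val.toRingHom.codRestrict
    _ fun y => hle y y.2), hp.map _, by rw [eval₂_map]; exact hp0⟩
  obtain ⟨y, hy⟩ := IsIntegrallyClosed.isIntegral_iff.1 hint
  exact hy ▸ y.2

end Fermat.Agent.Carayol.Reg

end
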