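/-
Theorem of Carayol at `q ^ 2 ∥ M`: the closed points over `q` of the chart at infinity
lying over the cusps: a single branch passes, the reduction is onto the local ring of the residual
curve, and the local ring is regular.
-/
import Fermat.Agent.Carayol.MainLocalCuspMiddle
import Fermat.Agent.Carayol.MainLocalResidual

set_option autoImplicit false
set_option linter.style.haveILetI false
set_option linter.unusedSectionVars false

noncomputable section

namespace Fermat.Agent.Carayol.Reg

open ModularCurve IntermediateField AlgebraicCurve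

set_option maxHeartbeats 1000000
set_option synthInstance.maxHeartbeats 200000

local notation "Ser" => LaurentSeries (AlgebraicClosure ℚ)

variable {A : ValuationSubring (AlgebraicClosure ℚ)} {M q : ℕ} [NeZero M] [Fact q.Prime]

/-! ### Monomials in the coordinate of the residual curve -/

/-- The exponent of `x̄` in the reduction of `1 / j`. -/
def expX (q : ℕ) : Side → ℕ
  | .s20 => 1
  | .s11 => 1
  | .s02 => q * q

/-- The exponent of `x̄` in the reduction of `1 / j_{q²}`. -/
def expZ (q : ℕ) : Side → ℕ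
  | .s20 => q * q
  | .s11 => 1
  | .s02 => 1

theorem sideValue_pows (hA : A.LiesOverPrime q) (hqM : ¬ q ∣ M) (b : Bool) (s : Side) :
    SideValue s (x₂ A M q (jCoord A M b)) (jResCoord A M b ^ expX q s) ∧
      SideValue s (y₂ A M q (jCoord A M b)) (jResCoord A M b ^ q) ∧
        SideValue s (z₂ A M q (jCoord A M b)) (jResCoord A M b ^ expZ q s) := by
  obtain ⟨hx, hy, hz⟩ := sideValue_jCoord hA hqM b s
  cases s <;> simp only [resX, resZ, expX, expZ, pow_one] at * <;> exact ⟨hx, hy, hz⟩

theorem SideValue.monomial {s : Side} {f g : F₂ A M q} {e e' n : ℕ}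
    (hf : SideValue s f (jResCoord A M true ^ e)) (hg : SideValue s g (jResCoord A M false ^ e'))
    (h : e' ≤ e * n) :
    SideValue s (f ^ n * g) (jResCoord A M true ^ (e * n - e')) := by
  have := (hf.pow n).mul hg
  obtain ⟨k, hk⟩ := Nat.exists_eq_add_of_le h
  rw [hk, Nat.add_sub_cancel_left]
  rwa [← pow_mul, hk, jResCoord_true_eq_inv, inv_pow, pow_add, mul_inv, mul_comm _ ((jResCoord A M
    false ^ k)⁻¹), mul_assoc, inv_mul_cancel₀ (pow_ne_zero _ jResCoord_false_ne_zero), mul_one,
    ← inv_pow] at this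

theorem pow_mem_nonunits_iff {P : Pt A M} {r : RFld A M}
    (hr : r ∈ P.toValuationSubring.nonunits) (e : ℕ) :
    r ^ e ∈ P.toValuationSubring.nonunits ↔ e ≠ 0 := by
  rw [ValuationSubring.mem_nonunits_iff] at hr ⊢
  refine ⟨fun h he => ?_, fun he => by rw [map_pow]; exact pow_lt_one₀ zero_le hr he⟩
  rw [he, pow_zero, map_one] at h
  exact lt_irrefl _ h

variable (hA : A.LiesOverPrime q) (hqM : ¬ q ∣ M)
  {c : Ideal (chart₂ A M q true)} [c.IsMaximal] (hc : (q : chart₂ A M q true) ∈ c)
  (hT : (⟨jCoord A (M * q * q) true, self_mem_chart _⟩ : chart₂ A M q true) ∈ c)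

include hA hqM hT in
/-- Every branch through a cusp of the chart is at a cusp. -/
theorem jResCoord_mem_nonunits {s : Side} {P : Pt A M} (hP : IsBranch A M q true c s P) :
    jResCoord A M true ∈ P.toValuationSubring.nonunits := by
  have h := ((isBranch_iff hA hqM).mp hP _).2.mp hT
  rw [chartRes_jCoord hA hqM] at h
  cases s with
  | s20 => exact h
  | s11 => exact h
  | s02 =>
    rw [ValuationSubring.mem_nonunits_iff] at h ⊢
    by_contra hge
    rw [not_lt] at hge
    exact absurd h (not_lt.mpr (le_of_le_of_eq (one_le_pow₀ hge) (map_pow _ _ _).symm))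

include hT in
theorem locMax_x₂ : LocMax c (x₂ A M q (jCoord A M true)) := by
  have := locMax_of_coe hT
  rwa [show ((⟨jCoord A (M * q * q) true, self_mem_chart _⟩ : chart₂ A M q true) : F₂ A M q) =
    x₂ A M q (jCoord A M true) from jCoord_top_eq true] at this

theorem x₂_true_eq : x₂ A M q (jCoord A M true) = (x₂ A M q (jCoord A M false))⁻¹ :=
  map_inv₀ (x₂ A M q) _

theorem y₂_true_eq : y₂ A M q (jCoord A M true) = (y₂ A M q (jCoord A M false))⁻¹ :=
  map_inv₀ (y₂ A M q) _

theorem z₂_true_eq : z₂ A M q (jCoord A M true) = (z₂ A M q (jCoord A M false))⁻¹ :=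
  map_inv₀ (z₂ A M q) _

theorem jCoord_false_ne_zero : jCoord A M false ≠ 0 := fun h =>
  (jElt_isGaussUnit (A := A)).1.ne_zero (congrArg Subtype.val h)

theorem sides_ne_zero :
    x₂ A M q (jCoord A M false) ≠ 0 ∧ y₂ A M q (jCoord A M false) ≠ 0 ∧
      z₂ A M q (jCoord A M false) ≠ 0 :=
  ⟨(map_ne_zero _).mpr jCoord_false_ne_zero, (map_ne_zero _).mpr jCoord_false_ne_zero,
    (map_ne_zero _).mpr jCoord_false_ne_zero⟩

include hA hqM hc hT in
/-- `1 / j_q`, `1 / j_{q²}` and the four quotients are in the local ring. -/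
theorem cusp_mem :
    (y₂ A M q (jCoord A M true) ∈ locRing c ∧ z₂ A M q (jCoord A M true) ∈ locRing c) ∧
      x₂ A M q (jCoord A M true) ^ q * y₂ A M q (jCoord A M false) ∈ locRing c ∧
      y₂ A M q (jCoord A M true) ^ q * z₂ A M q (jCoord A M false) ∈ locRing c ∧
      y₂ A M q (jCoord A M true) ^ q * x₂ A M q (jCoord A M false) ∈ locRing c ∧
      z₂ A M q (jCoord A M true) ^ q * y₂ A M q (jCoord A M false) ∈ locRing c := by
  obtain ⟨hx0, hy0, hz0⟩ := sides_ne_zero (A := A) (M := M) (q := q)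
  have hq1 : 1 ≤ q := by have := two_le_q q; omega
  have hX := locMax_x₂ (A := A) (M := M) (q := q) hT
  rw [x₂_true_eq] at hX
  obtain ⟨hY, ha⟩ := cusp_integral phiShape_phiQ hq1 (locRing c)
    (fun f hf => mem_locRing_of_isIntegral' hf) hx0 hy0 phi_xy hX.mem_locRing
    fun s hs => one_add_mul_isUnit hX hs
  rw [← y₂_true_eq] at hY
  obtain ⟨s, P, hP⟩ := exists_branch hA hqM true c hc
  have hx := jResCoord_mem_nonunits hA hqM hT hP
  have hYmax : LocMax c (y₂ A M q (jCoord A M true)) :=
    (locMax_iff_of_sideValue hA hqM hP hY (sideValue_pows hA hqM true s).2.1).2.mpr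
      ((pow_mem_nonunits_iff hx q).mpr (by omega))
  rw [y₂_true_eq] at hYmax
  obtain ⟨hZ, ha'⟩ := cusp_integral phiShape_phiQ hq1 (locRing c)
    (fun f hf => mem_locRing_of_isIntegral' hf) hy0 hz0 phi_yz hYmax.mem_locRing
    fun s hs => one_add_mul_isUnit hYmax hs
  have h1 := revSum_eq phiShape_phiQ hx0 hy0 (phi_xy (A := A) (M := M) (q := q))
  have h2 := revSum_eq phiShape_phiQ hy0 hz0 (phi_yz (A := A) (M := M) (q := q))
  refine ⟨⟨hY, by rw [z₂_true_eq]; exact hZ⟩, by rw [x₂_true_eq]; exact ha,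
    by rw [y₂_true_eq]; exact ha', ?_, ?_⟩
  · have : y₂ A M q (jCoord A M true) ^ q * x₂ A M q (jCoord A M false) =
        -revSum q (phiQ q) (x₂ A M q (jCoord A M false))⁻¹ (y₂ A M q (jCoord A M false))⁻¹ -
          (x₂ A M q (jCoord A M false))⁻¹ ^ q * y₂ A M q (jCoord A M false) := by
      rw [h1, y₂_true_eq]; ring
    rw [this]
    exact sub_mem (neg_mem (revSum_mem hX.mem_locRing (by rw [← y₂_true_eq]; exact hY))) ha
  · have : z₂ A M q (jCoord A M true) ^ q * y₂ A M q (jCoord A M false) =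
        -revSum q (phiQ q) (y₂ A M q (jCoord A M false))⁻¹ (z₂ A M q (jCoord A M false))⁻¹ -
          (y₂ A M q (jCoord A M false))⁻¹ ^ q * z₂ A M q (jCoord A M false) := by
      rw [h2, z₂_true_eq]; ring
    rw [this]
    exact sub_mem (neg_mem (revSum_mem hYmax.mem_locRing hZ)) ha'

include hA hqM hc hT in
/-- The component of a branch through a cusp is determined by the point. -/
theorem side_eq_of_isBranch {s s' : Side} {P P' : Pt A M} (h : IsBranch A M q true c s P)
    (h' : IsBranch A M q true c s' P') : s = s' := by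
  obtain ⟨-, ha, ha', -, -⟩ := cusp_mem hA hqM hc hT
  have key : ∀ {s : Side} {P : Pt A M}, IsBranch A M q true c s P →
      (LocMax c (x₂ A M q (jCoord A M true) ^ q * y₂ A M q (jCoord A M false)) ↔ s = .s02) ∧
      (LocMax c (y₂ A M q (jCoord A M true) ^ q * z₂ A M q (jCoord A M false)) ↔ s ≠ .s20) := by
    intro s P hP
    have hx := jResCoord_mem_nonunits hA hqM hT hP
    obtain ⟨hX, hY, -⟩ := sideValue_pows hA hqM true s
    obtain ⟨-, hY', hZ'⟩ := sideValue_pows hA hqM false s
    have h2 := two_le_q q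
    have e1 : q ≤ expX q s * q := by
      cases s <;> simp only [expX] <;> nlinarith
    have e2 : expZ q s ≤ q * q := by
      cases s <;> simp only [expZ] <;> nlinarith
    rw [(locMax_iff_of_sideValue hA hqM hP ha (hX.monomial hY' e1)).2,
      (locMax_iff_of_sideValue hA hqM hP ha' (hY.monomial hZ' e2)).2,
      pow_mem_nonunits_iff hx, pow_mem_nonunits_iff hx]
    have h4 : q < q * q * q := by nlinarith
    have h5 : 1 < q * q := by nlinarith
    have h6 : 1 < q := by omega
    cases s <;> simp [expX, expZ, Nat.sub_eq_zero_iff_le, h4, h5, h6] <;> nlinarith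
  obtain ⟨k1, k2⟩ := key h
  obtain ⟨k1', k2'⟩ := key h'
  have i1 : (s = .s02) ↔ (s' = .s02) := k1.symm.trans k1'
  have i2 : (s ≠ .s20) ↔ (s' ≠ .s20) := k2.symm.trans k2'
  cases s <;> cases s' <;> simp_all

/-- The side of level `M` read by a component. -/
def sideBase (A : ValuationSubring (AlgebraicClosure ℚ)) (M q : ℕ) [NeZero M] [Fact q.Prime] :
    Side → (F₀ A M →ₐ[inertiaField A] F₂ A M q)
  | .s20 => x₂ A M q
  | .s11 => x₂ A M q
  | .s02 => z₂ A M q

include hA hqM hc hT in
/-- Every integral function of the residual curve lifts to the local ring. -/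
theorem exists_lift_locRing (s : Side) (e : RFld A M)
    (he : IsIntegral (Algebra.adjoin (Res A) {jResCoord A M true}) e) :
    ∃ f : F₂ A M q, f ∈ locRing c ∧ SideValue s f e := by
  obtain ⟨G, hG, hGint, hGred⟩ := exists_chart₀_lift hA hqM true e he
  obtain ⟨hx, hy, hz⟩ := sideEmb_base_mem hA hqM G hGint s
  refine ⟨sideBase A M q s G, map_mem_locRing _ ?_ hG, ?_⟩
  · cases s with
    | s20 => exact (locMax_x₂ hT).mem_locRing
    | s11 => exact (locMax_x₂ hT).mem_locRing
    | s02 => exact (cusp_mem hA hqM hc hT).1.2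
  · cases s with
    | s20 => exact ⟨(mem_sideInt hA hqM _).mp hx, (red_x₂ hA hqM G hGint).1.trans hGred⟩
    | s11 => exact ⟨(mem_sideInt hA hqM _).mp hx, (red_x₂ hA hqM G hGint).2.1.trans hGred⟩
    | s02 => exact ⟨(mem_sideInt hA hqM _).mp hz, (red_z₂ hA hqM G hGint).2.2.trans hGred⟩

theorem vanAt_iff_mem_nonunits {P : Pt A M} {g : RFld A M} :
    VanAt P g ↔ g ∈ P.toValuationSubring.nonunits := mem_nonunits_iff_ord.symm

theorem transcendental_jResCoord : Transcendental (Res A) (jResCoord A M true) :=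
  Curve.transcendental_inv fun h =>
    Curve.transcendental_jqModC' (Res A) (h.algHom (RFld A M).val)

include hA hqM hc hT in
/-- Through a cusp passes at most one branch. -/
theorem isBranch_unique {s s' : Side} {P P' : Pt A M} (h : IsBranch A M q true c s P)
    (h' : IsBranch A M q true c s' P') : s' = s ∧ P' = P := by
  obtain rfl := side_eq_of_isBranch hA hqM hc hT h' h
  haveI : IsAlgClosed (Res A) := isAlgClosed_res A
  refine ⟨rfl, place_eq_of_vanAt_iff transcendental_jResCoord
    (ValuationSubring.nonunits_subset (jResCoord_mem_nonunits hA hqM hT h'))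
    (ValuationSubring.nonunits_subset (jResCoord_mem_nonunits hA hqM hT h)) fun g hg => ?_⟩
  obtain ⟨f, hf, hv⟩ := exists_lift_locRing hA hqM hc hT s' g hg
  rw [vanAt_iff_mem_nonunits, vanAt_iff_mem_nonunits,
    ← (locMax_iff_of_sideValue hA hqM h' hf hv).2, (locMax_iff_of_sideValue hA hqM h hf hv).2]

include hA hqM hc hT in
/-- Over the cusps there is only one branch. -/
theorem exists_isBranch_iff_cusp :
    ∃ s P, ∀ s' P', IsBranch A M q true c s' P' ↔ s' = s ∧ P' = P := by
  obtain ⟨s, P, hP⟩ := exists_branch hA hqM true c hc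
  exact ⟨s, P, fun s' P' =>
    ⟨fun h => isBranch_unique hA hqM hc hT hP h, fun h => by rw [h.1, h.2]; exact hP⟩⟩

include hA hqM hc hT in
/-- On a branch through a cusp the local ring maps onto the local ring of the residual curve. -/
theorem exists_lift_cusp {s : Side} {P : Pt A M} (hP : IsBranch A M q true c s P) (g : RFld A M)
    (hg : g ∈ P.toValuationSubring) : ∃ x y : chart₂ A M q true, y ∉ c ∧
      chartRes hA hqM true s x = chartRes hA hqM true s y * g := by
  haveI : IsAlgClosed (Res A) := isAlgClosed_res A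
  obtain ⟨e, b, he, hb, hbv, heq⟩ := exists_integral_fraction (P := P) (g := g)
    transcendental_jResCoord
    (ValuationSubring.nonunits_subset (jResCoord_mem_nonunits hA hqM hT hP)) hg
  obtain ⟨fe, hfe, hve⟩ := exists_lift_locRing hA hqM hc hT s e he
  obtain ⟨fb, hfb, hvb⟩ := exists_lift_locRing hA hqM hc hT s b hb
  have hbn : ¬ LocMax c fb := fun h =>
    hbv (vanAt_iff_mem_nonunits.mpr ((locMax_iff_of_sideValue hA hqM hP hfb hvb).2.mp h))
  obtain ⟨u₁, hu₁, x₁', hx₁⟩ := hfe
  obtain ⟨u₂, hu₂, y₁', hy₁⟩ := hfb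
  have hy₁c : y₁' ∉ c := fun h => hbn ⟨u₂, hu₂, y₁', h, hy₁⟩
  refine ⟨x₁' * u₂, y₁' * u₁, Ideal.IsPrime.mul_notMem inferInstance hy₁c hu₁, ?_⟩
  have hres : ∀ {u x : chart₂ A M q true} {f : F₂ A M q} {r : RFld A M}, SideValue s f r →
      (u : F₂ A M q) * f = x →
        chartRes hA hqM true s x = chartRes hA hqM true s u * r := by
    intro u x f r hf h
    have hu : SideValue s (u : F₂ A M q) (chartRes hA hqM true s u) :=
      ⟨(mem_sideInt hA hqM s).mp (chart_le_sideInt hA hqM true s u.2), (coe_chartRes hA hqM u).symm⟩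
    exact SideValue.chartRes_eq' hA hqM (h ▸ hu.mul hf)
  rw [map_mul, map_mul, hres hve hx₁, hres hvb hy₁, ← heq]
  ring

include hA hqM hc hT in
/-- At a cusp with a branch on the middle component only, `1 / j_{q²} · j - 1` divides `q`. -/
theorem exists_ratio_mul_eq {P : Pt A M} (hP : IsBranch A M q true c .s11 P) :
    LocMax c (z₂ A M q (jCoord A M true) * x₂ A M q (jCoord A M false) - 1) ∧
      ∃ r ∈ locRing c,
        (z₂ A M q (jCoord A M true) * x₂ A M q (jCoord A M false) - 1) * r = (q : F₂ A M q) := by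
  obtain ⟨⟨hY, hZ⟩, ha, ha', hb, hb'⟩ := cusp_mem hA hqM hc hT
  obtain ⟨hx0, hy0, hz0⟩ := sides_ne_zero (A := A) (M := M) (q := q)
  have hx := jResCoord_mem_nonunits hA hqM hT hP
  obtain ⟨hX1, hY1, hZ1⟩ := sideValue_pows (q := q) hA hqM true Side.s11
  obtain ⟨hX0, hY0, hZ0⟩ := sideValue_pows (q := q) hA hqM false Side.s11
  have hq2 := two_le_q q
  have hXmax := locMax_x₂ (A := A) (M := M) (q := q) hT
  set X := x₂ A M q (jCoord A M true) with hXdef
  set Y := y₂ A M q (jCoord A M true) with hYdef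
  set Z := z₂ A M q (jCoord A M true) with hZdef
  set jx := x₂ A M q (jCoord A M false) with hjx
  set jy := y₂ A M q (jCoord A M false) with hjy
  set jz := z₂ A M q (jCoord A M false) with hjz
  have eX : X = jx⁻¹ := x₂_true_eq
  have eY : Y = jy⁻¹ := y₂_true_eq
  have eZ : Z = jz⁻¹ := z₂_true_eq
  set a := X ^ q * jy with hadef
  set b := Y ^ q * jx with hbdef
  have hav : SideValue .s11 a 1 := by
    have := hX1.monomial hY0 (n := q) (by simp [expX])
    rwa [show expX q .s11 * q - q = 0 by simp [expX], pow_zero] at this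
  have ha1 : LocMax c (a - 1) := by
    refine (locMax_iff_of_sideValue hA hqM hP (sub_mem ha (one_mem _))
      (hav.sub (sideValue_one _))).2.mpr ?_
    rw [sub_self]; exact mem_nonunits_iff_ord.mpr (Or.inl rfl)
  have hanot : ¬ LocMax c a := fun h => by
    have h1 := h.add (ha1.mul_right (neg_mem (one_mem _)))
    rw [mul_neg_one, neg_sub, add_sub_cancel] at h1
    exact not_locMax_one h1
  have hbmax : LocMax c b := by
    have hv := hY1.monomial hX0 (n := q) (by simp [expX]; nlinarith)
    refine (locMax_iff_of_sideValue hA hqM hP hb hv).2.mpr ((pow_mem_nonunits_iff hx _).mpr ?_)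
    simp only [expX]
    have : 1 < q * q := by nlinarith
    omega
  have hb1 : b - 1 ≠ 0 ∧ (b - 1)⁻¹ ∈ locRing c :=
    inv_mem_locRing (sub_mem hb (one_mem _)) fun h => by
      have h1 := (h.add (hbmax.mul_right (neg_mem (one_mem _)))).mul_right (neg_mem (one_mem _))
      rw [show (b - 1 + b * -1) * -1 = 1 by ring] at h1
      exact not_locMax_one h1
  have hYmax : LocMax c Y :=
    (locMax_iff_of_sideValue hA hqM hP hY hY1).2.mpr ((pow_mem_nonunits_iff hx q).mpr (by omega))
  have hXmem : X ∈ locRing c := hXmax.mem_locRing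
  -- the ratio
  set W := Z * jx with hWdef
  have hWX : W * X = Z := by rw [hWdef, eX, mul_assoc, mul_inv_cancel₀ hx0, mul_one]
  have hWv : SideValue .s11 W 1 := by
    have := hZ1.monomial hX0 (n := 1) (by simp [expX, expZ])
    rwa [pow_one, show expZ q .s11 * 1 - expX q .s11 = 0 by simp [expX, expZ], pow_zero] at this
  have hW : W ∈ locRing c := by
    refine mem_locRing_of_isIntegral' (IsIntegral.of_pow (n := q) (by omega) ?_)
    have hWq : W ^ q = (Z ^ q * jy) * a⁻¹ := by
      rw [hWdef, hadef, mul_pow, eX, mul_inv, inv_pow, inv_inv]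
      field_simp
    rw [hWq]
    exact isIntegral_algebraMap (x := (⟨_, mul_mem hb' (inv_mem_locRing ha hanot).2⟩ : locRing c))
  have hwmax : LocMax c (W - 1) := by
    refine (locMax_iff_of_sideValue hA hqM hP (sub_mem hW (one_mem _))
      (hWv.sub (sideValue_one _))).2.mpr ?_
    rw [sub_self]; exact mem_nonunits_iff_ord.mpr (Or.inl rfl)
  have hW1 : W ≠ 1 := by
    intro h
    obtain ⟨-, -, hZ2⟩ := sideValue_pows (q := q) hA hqM true Side.s20
    obtain ⟨hX2, -, -⟩ := sideValue_pows (q := q) hA hqM false Side.s20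
    have hv := hZ2.monomial hX2 (n := 1) (by simp [expX, expZ]; nlinarith)
    rw [pow_one, show Z * jx = 1 from h] at hv
    have h1 : jResCoord A M true ^ (expZ q .s20 * 1 - expX q .s20) = 1 :=
      Subtype.ext (hv.2.symm.trans (sideValue_one (A := A) (M := M) (q := q) .s20).2)
    have h2 := (pow_mem_nonunits_iff hx (expZ q .s20 * 1 - expX q .s20)).mpr (by
      simp only [expX, expZ]
      have : 1 < q * q := by nlinarith
      omega)
    rw [h1, ValuationSubring.mem_nonunits_iff, map_one] at h2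
    exact lt_irrefl _ h2
  refine ⟨hwmax, ?_⟩
  -- Kronecker's congruence
  obtain ⟨d, hd⟩ := exists_hasKronecker_phiQ (A := A) (M := M) (q := q) hA hqM
  have r1 := rev_relation phiShape_phiQ hy0 hx0 (phi_yx (A := A) (q := q) hqM)
  have r2 := rev_relation phiShape_phiQ hy0 hz0 (phi_yz (A := A) (M := M) (q := q))
  have hab := revSum_eq phiShape_phiQ hy0 hx0 (phi_yx (A := A) (q := q) hqM)
  rw [← eX, ← eY] at r1 hab
  rw [← eZ, ← eY, ← hWX] at r2
  have hratio := ratio_relation (inv_ne_zero hx0 |> fun h => eX ▸ h) hW1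
    (a := a) (by rw [hadef, eY, mul_assoc, mul_inv_cancel₀ hy0, mul_one]) r1 r2
  have habp : a * b = (X * Y) ^ (q - 1) := by
    have hqne : q ≠ 0 := by omega
    rw [hadef, hbdef, eX, eY, ← pow_sub_one_mul hqne jx⁻¹, ← pow_sub_one_mul hqne jy⁻¹, mul_pow]
    field_simp
  let f : ℕ → F₂ A M q := fun i => ((q - i : ℕ) : F₂ A M q) + 1
  set D := ∑ i ∈ Finset.range (q + 1), ∑ k ∈ Finset.range (q + 1),
    (d i k : F₂ A M q) * Y ^ (q - k) * X ^ (q - i) * f i with hDdef
  set D₁ := ∑ i ∈ Finset.range (q + 1), ∑ k ∈ Finset.range (q + 1),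
    (d i k : F₂ A M q) * Y ^ (q - k) * X ^ (q - i) * 1 with hD₁def
  have hrev : revSum q (phiQ q) Y X = -1 - (Y * X) ^ (q - 1) + (q : F₂ A M q) * D₁ := by
    have := sum_kronecker hd hq2 X Y (fun _ => (1 : F₂ A M q))
    simp only [mul_one] at this
    simp only [hD₁def, mul_one]
    exact this
  have hkey : (a - 1) * (b - 1) = (q : F₂ A M q) * D₁ := by
    have e := hrev.symm.trans hab
    rw [← hadef, ← hbdef] at e
    linear_combination habp + -e
  have hG1 : a * ((q : F₂ A M q) + 1) + ∑ i ∈ Finset.range (q + 1), ∑ k ∈ Finset.range (q + 1),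
      (((phiQ q).coeff i).coeff k : F₂ A M q) * Y ^ (q - k) * X ^ (q - i) * f i =
      (q : F₂ A M q) * (a + D₁ * (b - 1)⁻¹ - (Y * X) ^ (q - 1) + D) := by
    have hs := sum_kronecker hd hq2 X Y f
    rw [hs, ← hDdef]
    have hfq : f q = 1 := by simp [f]
    have hf1 : f 1 = (q : F₂ A M q) := by
      simp only [f]; rw [← Nat.cast_add_one, show q - 1 + 1 = q by omega]
    rw [hfq, hf1]
    have hkey' : a - 1 = (q : F₂ A M q) * D₁ * (b - 1)⁻¹ := by
      rw [← hkey, mul_assoc, mul_inv_cancel₀ hb1.1, mul_one]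
    linear_combination hkey'
  -- membership in the maximal ideal
  have hDmax : LocMax c D ∧ LocMax c D₁ := by
    let Xl : locRing c := ⟨X, hXmem⟩
    let Yl : locRing c := ⟨Y, hY⟩
    have key : ∀ g : ℕ → locRing c, LocMax c (∑ i ∈ Finset.range (q + 1),
        ∑ k ∈ Finset.range (q + 1),
          (d i k : F₂ A M q) * Y ^ (q - k) * X ^ (q - i) * (g i : F₂ A M q)) := fun g => by
      have h := sum_remainder_eq hd.1 Xl Yl g (locIdeal c) hXmax hYmax
      change LocMax c ((locRing c).subtype _) at h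
      simp only [map_sum, map_mul, map_pow, map_intCast] at h
      exact h
    exact ⟨key fun i => ⟨f i, add_mem (natCast_mem _ _) (one_mem _)⟩, key fun _ => 1⟩
  set ρ := a + D₁ * (b - 1)⁻¹ - (Y * X) ^ (q - 1) + D
  have hρmem : ρ ∈ locRing c :=
    add_mem (sub_mem (add_mem ha (mul_mem hDmax.2.mem_locRing hb1.2))
      (pow_mem (mul_mem hY hXmem) _)) hDmax.1.mem_locRing
  have hρ : ¬ LocMax c ρ := by
    intro h
    have hsmall : LocMax c (D₁ * (b - 1)⁻¹ - (Y * X) ^ (q - 1) + D) := by
      refine LocMax.add ?_ hDmax.1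
      rw [sub_eq_add_neg]
      refine LocMax.add (hDmax.2.mul_right hb1.2) ?_
      rw [show q - 1 = q - 2 + 1 by omega, pow_succ']
      have := (hYmax.mul_right hXmem).mul_right (neg_mem (pow_mem (mul_mem hY hXmem) (q - 2)))
      rwa [mul_neg] at this
    have h1 := h.add ((ha1.add hsmall).mul_right (neg_mem (one_mem _)))
    rw [show ρ + (a - 1 + (D₁ * (b - 1)⁻¹ - (Y * X) ^ (q - 1) + D)) * -1 = 1 by
      simp only [ρ]; ring] at h1
    exact not_locMax_one h1
  obtain ⟨hρ0, hρinv⟩ := inv_mem_locRing hρmem hρ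
  -- factor out `W - 1`
  choose g hg hgeq using fun n => exists_geom_factor (L := F₂ A M q) hW n
  set r := a * g q + ∑ i ∈ Finset.range (q + 1), ∑ k ∈ Finset.range (q + 1),
    (((phiQ q).coeff i).coeff k : F₂ A M q) * Y ^ (q - k) * X ^ (q - i) * g (q - i) with hrdef
  have hfac : (q : F₂ A M q) * ρ = (1 - W) * r := by
    have hs : ∑ i ∈ Finset.range (q + 1), ∑ k ∈ Finset.range (q + 1),
        (((phiQ q).coeff i).coeff k : F₂ A M q) * Y ^ (q - k) * X ^ (q - i) * f i -
        ∑ i ∈ Finset.range (q + 1), ∑ k ∈ Finset.range (q + 1),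
        (((phiQ q).coeff i).coeff k : F₂ A M q) * Y ^ (q - k) * X ^ (q - i) *
          (∑ l ∈ Finset.range (q - i + 1), W ^ l) =
        (1 - W) * ∑ i ∈ Finset.range (q + 1), ∑ k ∈ Finset.range (q + 1),
          (((phiQ q).coeff i).coeff k : F₂ A M q) * Y ^ (q - k) * X ^ (q - i) * g (q - i) := by
      rw [Finset.mul_sum, ← Finset.sum_sub_distrib]
      refine Finset.sum_congr rfl fun i _ => ?_
      rw [Finset.mul_sum, ← Finset.sum_sub_distrib]
      refine Finset.sum_congr rfl fun k _ => ?_
      linear_combination (((phiQ q).coeff i).coeff k : F₂ A M q) * Y ^ (q - k) * X ^ (q - i) *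
        hgeq (q - i)
    rw [← hG1, hrdef]
    linear_combination hs + a * hgeq q + hratio
  refine ⟨-r * ρ⁻¹, mul_mem (neg_mem (add_mem (mul_mem ha (hg q))
    (sum_mem fun i _ => sum_mem fun k _ =>
      mul_mem (mul_mem (mul_mem (intCast_mem _ _) (pow_mem hY _)) (pow_mem hXmem _)) (hg _)))) hρinv,
    ?_⟩
  rw [show (W - 1) * (-r * ρ⁻¹) = (1 - W) * r * ρ⁻¹ by ring, ← hfac, mul_assoc,
    mul_inv_cancel₀ hρ0, mul_one]

include hA hqM hc hT in
/-- The local ring at a cusp on the middle component is regular. -/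
theorem uniqueFactorizationMonoid_cusp_s11 {P : Pt A M} (hP : IsBranch A M q true c .s11 P)
    (huniq : ∀ s' P', IsBranch A M q true c s' P' ↔ s' = .s11 ∧ P' = P) :
    UniqueFactorizationMonoid (Localization.AtPrime c) := by
  obtain ⟨hwmax, r, hr, hwr⟩ := exists_ratio_mul_eq hA hqM hc hT hP
  set w := z₂ A M q (jCoord A M true) * x₂ A M q (jCoord A M false) - 1 with hwdef
  obtain ⟨uw, huw, gw, hgw, hwg⟩ := hwmax
  obtain ⟨ur, hur, gr, hrg⟩ := hr
  refine uniqueFactorizationMonoid_of_isBranch hA hqM hP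
    (fun g hg => exists_lift_cusp hA hqM hc hT hP g hg) gw hgw fun x hx => ?_
  -- the two other components
  have h : ∀ s', s' ≠ Side.s11 → ∃ e, chartRes hA hqM true s' e = 0 ∧ e ∉ c := by
    intro s' hne
    by_contra! hcon
    obtain ⟨P', hP'⟩ := exists_isBranch_of_ker_le hA hqM true c s' hcon
    exact hne ((huniq s' P').mp hP').1
  obtain ⟨e₂, he₂, he₂c⟩ := h .s20 (by decide)
  obtain ⟨e₀, he₀, he₀c⟩ := h .s02 (by decide)
  set e := e₂ * e₀ with hedef
  have hec : e ∉ c := Ideal.IsPrime.mul_notMem inferInstance he₂c he₀c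
  rcases eq_or_ne x 0 with rfl | hx0
  · exact ⟨1, c.one_notMem, by simp⟩
  have hq0 : (q : F₂ A M q) ≠ 0 := Nat.cast_ne_zero.mpr (Fact.out : q.Prime).ne_zero
  have hw0 : w ≠ 0 := left_ne_zero_of_mul (hwr ▸ hq0)
  have hr0 : r ≠ 0 := right_ne_zero_of_mul (hwr ▸ hq0)
  have hur0 : (ur : F₂ A M q) ≠ 0 := fun h => hur ((show ur = 0 from Subtype.ext h) ▸ c.zero_mem)
  have hgr0 : (gr : F₂ A M q) ≠ 0 := hrg ▸ mul_ne_zero hur0 hr0
  have he0 : (e : F₂ A M q) ≠ 0 := fun h => hec ((show e = 0 from Subtype.ext h) ▸ c.zero_mem)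
  have hx0' : (x : F₂ A M q) ≠ 0 := fun h => hx0 (Subtype.ext h)
  set y : F₂ A M q := ((e : F₂ A M q) * x * gr) * (q : F₂ A M q)⁻¹ with hy
  have hye : (e : F₂ A M q) * x * gr ≠ 0 := mul_ne_zero (mul_ne_zero he0 hx0') hgr0
  have hymem : y ∈ chart₂ A M q true := by
    refine mem_chart₂_of hA hqM true y ?_ fun s => ?_
    · refine (((isIntegral_adjoin_of_mem_chart₂ e.2).mul
        (isIntegral_adjoin_of_mem_chart₂ x.2)).mul (isIntegral_adjoin_of_mem_chart₂ gr.2)).mul ?_
      have : (q : F₂ A M q)⁻¹ =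
          algebraMap (inertiaField A) (F₂ A M q) (q : inertiaField A)⁻¹ := by
        rw [map_inv₀, map_natCast]
      rw [this, IsScalarTower.algebraMap_apply (inertiaField A)
        (Algebra.adjoin (inertiaField A) {jCoord A (M * q * q) true}) (F₂ A M q)]
      exact isIntegral_algebraMap
    · rw [mem_sideInt_iff hA hqM s (mul_ne_zero hye (inv_ne_zero hq0))]
      have hv : sideVal A M q s y + sideVal A M q s (q : F₂ A M q) =
          sideVal A M q s (e : F₂ A M q) + sideVal A M q s x + sideVal A M q s gr := by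
        rw [← sideVal_mul hA hqM s (mul_ne_zero hye (inv_ne_zero hq0)) hq0,
          ← sideVal_mul hA hqM s he0 hx0', ← sideVal_mul hA hqM s (mul_ne_zero he0 hx0') hgr0,
          inv_mul_cancel_right₀ hq0]
      have hpos : ∀ {s' : Side} {v : chart₂ A M q true}, (v : F₂ A M q) ≠ 0 →
          chartRes hA hqM true s' v = 0 → 0 < sideVal A M q s' v := fun {s' v} hv0 h =>
        (sideRes_eq_zero_iff hA hqM s' (f := ⟨v, chart_le_sideInt hA hqM true s' v.2⟩) hv0).mp h
      have hnn : ∀ (v : chart₂ A M q true), (v : F₂ A M q) ≠ 0 → 0 ≤ sideVal A M q s v :=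
        fun v hv0 => (mem_sideInt_iff hA hqM s hv0).mp (chart_le_sideInt hA hqM true s v.2)
      obtain ⟨h20, h02, h11⟩ := sideVal_algebraMap_natCast hA hqM
      have n1 := hnn e he0
      have n2 := hnn x hx0'
      have n3 := hnn gr hgr0
      change 0 ≤ sideVal A M q s y
      cases s with
      | s20 =>
        have := hpos (s' := .s20) he0 (by rw [hedef, map_mul, he₂, zero_mul])
        omega
      | s02 =>
        have := hpos (s' := .s02) he0 (by rw [hedef, map_mul, he₀, mul_zero])
        omega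
      | s11 =>
        have n4 := hpos hx0' hx
        have n5 := hnn ur hur0
        have hgrv : sideVal A M q .s11 (gr : F₂ A M q) =
            sideVal A M q .s11 (ur : F₂ A M q) + sideVal A M q .s11 r := by
          rw [← sideVal_mul hA hqM .s11 hur0 hr0, hrg]
        have hrv : sideVal A M q .s11 w + sideVal A M q .s11 r = (q : ℤ) - 1 := by
          rw [← sideVal_mul hA hqM .s11 hw0 hr0, hwr, h11]
        obtain ⟨-, -, hZ2⟩ := sideValue_pows (q := q) hA hqM true Side.s20
        obtain ⟨hX2, -, -⟩ := sideValue_pows (q := q) hA hqM false Side.s20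
        have hq2 := two_le_q q
        have hval := (hZ2.monomial hX2 (n := 1) (by simp [expX, expZ]; nlinarith)).sub
          (sideValue_one (A := A) (M := M) (q := q) .s20)
        rw [pow_one] at hval
        have hwv : sideVal A M q .s11 w = 1 := by
          refine sideVal_s11_ratio hA hqM hval fun h0 => ?_
          have hxn := jResCoord_mem_nonunits hA hqM hT hP
          have h2 := (pow_mem_nonunits_iff hxn (expZ q .s20 * 1 - expX q .s20)).mpr (by
            simp only [expX, expZ]
            have : 1 < q * q := by nlinarith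
            omega)
          rw [sub_eq_zero.mp h0, ValuationSubring.mem_nonunits_iff, map_one] at h2
          exact lt_irrefl _ h2
        omega
  refine ⟨uw * e * ur, Ideal.IsPrime.mul_notMem inferInstance
    (Ideal.IsPrime.mul_notMem inferInstance huw hec) hur,
    Ideal.mem_span_singleton'.mpr ⟨⟨y, hymem⟩, Subtype.ext ?_⟩⟩
  push_cast
  rw [hy, ← hwg, ← hrg, ← hwr]
  field_simp

include hA hqM hc hT in
/-- The local rings at the cusps are unique factorisation domains. -/
theorem uniqueFactorizationMonoid_cusp :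
    UniqueFactorizationMonoid (Localization.AtPrime c) := by
  obtain ⟨s, P, huniq⟩ := exists_isBranch_iff_cusp hA hqM hc hT
  have hP : IsBranch A M q true c s P := (huniq s P).mpr ⟨rfl, rfl⟩
  by_cases hs : s = .s11
  · subst hs
    exact uniqueFactorizationMonoid_cusp_s11 hA hqM hc hT hP huniq
  · exact uniqueFactorizationMonoid_of_single hA hqM hs huniq
      fun g hg => exists_lift_cusp hA hqM hc hT hP g hg

end Fermat.Agent.Carayol.Reg

end
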