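/-
Theorem of Carayol at `q ^ 2 ∥ M`: functions realising the valuations `(0, 0, 1)` and
`(1, 0, q - 1)` on the three components.
-/
import Fermat.Agent.Carayol.MainLocalCusp

set_option autoImplicit false
set_option linter.style.haveILetI false

noncomputable section

namespace Fermat.Agent.Carayol.Reg

open ModularCurve IntermediateField AlgebraicCurve

set_option maxHeartbeats 1000000
set_option synthInstance.maxHeartbeats 200000

local notation "Ser" => LaurentSeries (AlgebraicClosure ℚ)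

variable {A : ValuationSubring (AlgebraicClosure ℚ)} {M q : ℕ} [NeZero M] [Fact q.Prime]

theorem SideValue.add' {s : Side} {f g : F₂ A M q} {r t : RFld A M} (hf : SideValue s f r)
    (hg : SideValue s g t) : SideValue s (f + g) (r + t) := by
  refine ⟨by rw [map_add]; exact add_mem hf.mem_gaussInt hg.mem_gaussInt, ?_⟩
  rw [map_add, red_add hf.mem_gaussInt hg.mem_gaussInt, hf.2, hg.2]
  exact ((RFld A M).val.map_add r t).symm

theorem jResCoord_pow_ne_one (b : Bool) {n : ℕ} (hn : 0 < n) : jResCoord A M b ^ n ≠ 1 := by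
  have h0 : Transcendental (Res A) (jResCoord A M false) := fun h =>
    Curve.transcendental_jqModC' (Res A) (h.algHom (RFld A M).val)
  have hb : Transcendental (Res A) (jResCoord A M b) := by
    cases b with
    | false => exact h0
    | true => exact Curve.transcendental_inv h0
  intro h
  exact (hb.pow hn) (h ▸ isAlgebraic_one)

/-- A value with non-zero reduction has valuation zero. -/
theorem SideValue.sideVal_eq_zero (hA : A.LiesOverPrime q) (hqM : ¬ q ∣ M) {s : Side}
    {f : F₂ A M q} {r : RFld A M} (hf : SideValue s f r) (hr : r ≠ 0) :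
    sideVal A M q s f = 0 := by
  have hf0 : f ≠ 0 := fun h => (hf.isGaussUnit hr).ne_zero (by rw [h, map_zero])
  have hmem : f ∈ sideInt A M q s := (mem_sideInt hA hqM s).mpr hf.mem_gaussInt
  have h1 := (mem_sideInt_iff hA hqM s hf0).mp hmem
  have h2 := (sideRes_eq_zero_iff hA hqM s (f := ⟨f, hmem⟩) hf0).not.mp
    (by rw [hf.sideRes_eq hmem]; exact hr)
  change ¬ 0 < sideVal A M q s f at h2
  omega

/-- An element of valuations `(0, 0, 1)`. -/
theorem exists_sideVal_zero_one (hA : A.LiesOverPrime q) (hqM : ¬ q ∣ M) :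
    ∃ w : F₂ A M q, w ≠ 0 ∧ sideVal A M q .s20 w = 0 ∧ sideVal A M q .s02 w = 0 ∧
      sideVal A M q .s11 w = 1 := by
  have hq := two_le_q q
  have hqq : 1 < q * q := by nlinarith
  obtain ⟨-, -, hZ⟩ := sideValue_pows (q := q) hA hqM true Side.s20
  obtain ⟨hX, -, -⟩ := sideValue_pows (q := q) hA hqM false Side.s20
  have h20 := (hZ.monomial hX (n := 1) (by simp [expX, expZ]; omega)).sub (sideValue_one _)
  rw [pow_one] at h20
  have hr : jResCoord A M true ^ (expZ q .s20 * 1 - expX q .s20) - 1 ≠ 0 :=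
    sub_ne_zero.mpr (jResCoord_pow_ne_one true (by simp only [expX, expZ]; omega))
  obtain ⟨-, -, hZ'⟩ := sideValue_pows (q := q) hA hqM true Side.s02
  obtain ⟨hX', -, -⟩ := sideValue_pows (q := q) hA hqM false Side.s02
  have h02 := (hZ'.mul hX').sub (sideValue_one _)
  have hr' : jResCoord A M true ^ expZ q .s02 * jResCoord A M false ^ expX q .s02 - 1 ≠ 0 := by
    refine sub_ne_zero.mpr ?_
    simp only [expX, expZ, pow_one]
    rw [show q * q = q * q - 1 + 1 by omega, pow_succ', jResCoord_true_eq_inv, ← mul_assoc,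
      inv_mul_cancel₀ jResCoord_false_ne_zero, one_mul]
    exact jResCoord_pow_ne_one false (by omega)
  refine ⟨_, fun h0 => ?_, h20.sideVal_eq_zero hA hqM hr, h02.sideVal_eq_zero hA hqM hr',
    sideVal_s11_ratio hA hqM h20 hr⟩
  exact (h20.isGaussUnit hr).ne_zero (by rw [h0, map_zero])

/-- An element of valuations `(1, 0, q - 1)`. -/
theorem exists_sideVal_one_zero (hA : A.LiesOverPrime q) (hqM : ¬ q ∣ M) :
    ∃ z : F₂ A M q, z ≠ 0 ∧ sideVal A M q .s20 z = 1 ∧ sideVal A M q .s02 z = 0 ∧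
      sideVal A M q .s11 z = (q : ℤ) - 1 := by
  have hq := two_le_q q
  set a₀ : F₁ A M q := x₁ A M q (jCoord A M true) ^ q * y₁ A M q (jCoord A M false)
  have hpa : p₀₁ A M q a₀ = x₂ A M q (jCoord A M true) ^ q * y₂ A M q (jCoord A M false) := by
    rw [map_mul, map_pow]
    rfl
  have hq0 : (q : F₂ A M q) ≠ 0 := Nat.cast_ne_zero.mpr (Fact.out : q.Prime).ne_zero
  obtain ⟨h20q, -, -⟩ := sideVal_algebraMap_natCast hA hqM
  -- the two candidates
  have hval : ∀ ε : ℕ, SideValue .s20 (p₀₁ A M q (a₀ - 1 + (ε : F₁ A M q) * q)) (0 : RFld A M) ∧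
      ∃ r ≠ 0, SideValue .s02 (p₀₁ A M q (a₀ - 1 + (ε : F₁ A M q) * q)) r := by
    intro ε
    haveI := charP_res (A := A) hA
    have hqv : ∀ s, SideValue (M := M) s (((ε : F₂ A M q) * (q : F₂ A M q))) (0 : RFld A M) := by
      intro s
      have hm : ((ε : F₂ A M q) * (q : F₂ A M q)) ∈ sideInt A M q s :=
        mul_mem (natCast_mem _ ε) (natCast_mem _ q)
      refine ⟨(mem_sideInt hA hqM s).mp hm, ?_⟩
      rw [← coe_sideRes s ⟨_, hm⟩]
      congr 1
      rw [show (⟨_, hm⟩ : sideInt A M q s) = (ε : sideInt A M q s) * (q : sideInt A M q s) from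
        Subtype.ext (by simp), map_mul, map_natCast, map_natCast,
        ← map_natCast (algebraMap (Res A) (RFld A M)) q, CharP.cast_eq_zero (Res A) q, map_zero, mul_zero]
    have he : p₀₁ A M q (a₀ - 1 + (ε : F₁ A M q) * q) =
        x₂ A M q (jCoord A M true) ^ q * y₂ A M q (jCoord A M false) - 1 +
          (ε : F₂ A M q) * (q : F₂ A M q) := by
      rw [map_add, map_sub, map_one, hpa, map_mul, map_natCast, map_natCast]
    rw [he]
    obtain ⟨hX, -, -⟩ := sideValue_pows (q := q) hA hqM true Side.s20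
    obtain ⟨-, hY, -⟩ := sideValue_pows (q := q) hA hqM false Side.s20
    obtain ⟨hX', -, -⟩ := sideValue_pows (q := q) hA hqM true Side.s02
    obtain ⟨-, hY', -⟩ := sideValue_pows (q := q) hA hqM false Side.s02
    have h1 := (hX.monomial hY (n := q) (by simp [expX])).sub (sideValue_one _)
    have h2 := (hX'.monomial hY' (n := q) (by simp only [expX]; nlinarith)).sub (sideValue_one _)
    refine ⟨?_, _, ?_, h2.add' (hqv .s02)⟩
    · have h3 := h1.add' (hqv .s20)
      rwa [show expX q .s20 * q - q = 0 by simp [expX], pow_zero, sub_self, add_zero] at h3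
    · rw [add_zero]
      refine sub_ne_zero.mpr (jResCoord_pow_ne_one true ?_)
      simp only [expX]
      have : q < q * q * q := by nlinarith
      omega
  obtain ⟨ε, hε⟩ : ∃ ε : ℕ, sideVal A M q .s20 (p₀₁ A M q (a₀ - 1 + (ε : F₁ A M q) * q)) = 1 := by
    by_contra! hall
    have key : ∀ ε : ℕ, ∃ h : p₀₁ A M q (a₀ - 1 + (ε : F₁ A M q) * q) * (q : F₂ A M q)⁻¹ ∈
        sideInt A M q .s20, sideRes A M q .s20 ⟨_, h⟩ = 0 := by
      intro ε
      obtain ⟨h20, r, hr, h02⟩ := hval ε
      set f := p₀₁ A M q (a₀ - 1 + (ε : F₁ A M q) * q)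
      have hf : f ≠ 0 := fun h => (h02.isGaussUnit hr).ne_zero (by rw [h, map_zero])
      have hmem : f ∈ sideInt A M q .s20 := (mem_sideInt hA hqM _).mpr h20.mem_gaussInt
      have h1 := (sideRes_eq_zero_iff hA hqM .s20 (f := ⟨f, hmem⟩) hf).mp (h20.sideRes_eq hmem)
      have hne : f * (q : F₂ A M q)⁻¹ ≠ 0 := mul_ne_zero hf (inv_ne_zero hq0)
      have h2 := sideVal_mul hA hqM .s20 hne hq0
      rw [inv_mul_cancel_right₀ hq0, h20q] at h2
      have h3 := hall ε
      change 0 < sideVal A M q .s20 f at h1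
      change sideVal A M q .s20 f ≠ 1 at h3
      have hmem' : f * (q : F₂ A M q)⁻¹ ∈ sideInt A M q .s20 :=
        (mem_sideInt_iff hA hqM .s20 hne).mpr (by omega)
      exact ⟨hmem', (sideRes_eq_zero_iff hA hqM .s20 (f := ⟨_, hmem'⟩) hne).mpr
        (show 0 < sideVal A M q .s20 (f * (q : F₂ A M q)⁻¹) by omega)⟩
    obtain ⟨h0, e0⟩ := key 0
    obtain ⟨h1, e1⟩ := key 1
    have h : (⟨_, h1⟩ : sideInt A M q .s20) - ⟨_, h0⟩ = 1 := by
      apply Subtype.ext
      push_cast
      rw [← sub_mul, ← map_sub, show a₀ - 1 + 1 * (q : F₁ A M q) - (a₀ - 1 + 0 * q) =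
        (q : F₁ A M q) by ring, map_natCast, mul_inv_cancel₀ hq0]
    have := congrArg (sideRes A M q .s20) h
    rw [map_sub, e0, e1, map_one, sub_zero] at this
    exact zero_ne_one this
  obtain ⟨-, r, hr, h02⟩ := hval ε
  set g : F₁ A M q := a₀ - 1 + (ε : F₁ A M q) * q
  have hz : p₀₁ A M q g ≠ 0 := fun h => (h02.isGaussUnit hr).ne_zero (by rw [h, map_zero])
  have hg : g ≠ 0 := fun h => hz (by rw [h, map_zero])
  refine ⟨_, hz, hε, h02.sideVal_eq_zero hA hqM hr, ?_⟩
  have hN : (norm₀₁ A M q (p₀₁ A M q g) : Ser) = ((p₀₁ A M q g : F₂ A M q) : Ser) ^ q := by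
    rw [coe_norm₀₁ hqM, Finset.prod_congr rfl fun i _ => (e₁₁_p₀₁ hqM i g).trans
      (coe_incl A (dvd_mul_right (M * q) q) g).symm, Finset.prod_const, Finset.card_univ,
      Fintype.card_fin, ← pow_succ', show q - 1 + 1 = q by omega]
  have hε' : val A q ((p₀₁ A M q g : F₂ A M q) : Ser) = 1 := hε
  have hu := isGaussUnit_val hA (hasVal_fld hA _ hz)
  rw [hε'] at hu
  have hpow := hu.pow q
  rw [mul_pow, inv_pow, ← zpow_natCast ((q : Ser) ^ (1 : ℤ)), ← zpow_mul, one_mul, ← hN] at hpow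
  show val₁₁ A M q (p₀₁ A M q g) = (q : ℤ) - 1
  rw [val₁₁, val_eq hA hpow, hε']

end Fermat.Agent.Carayol.Reg

end
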