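/-
Theorem of Carayol at `q ^ 2 ∥ M`: the charts over the finite `j`-line of the three
levels, their reductions, and the images of the three sides.
-/
import Fermat.Agent.Carayol.MainLocalDefs
import Fermat.Agent.Carayol.MainLocalResidual
import Fermat.Agent.Carayol.MainChartBasic
import Fermat.Agent.Curve.BasicModular

set_option autoImplicit false
set_option linter.style.haveILetI false
set_option linter.unusedSectionVars false

noncomputable section

namespace Fermat.Agent.Carayol.Reg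

open ModularCurve IntermediateField Polynomial

local notation "Ser" => LaurentSeries (AlgebraicClosure ℚ)

variable {A : ValuationSubring (AlgebraicClosure ℚ)} {M q : ℕ} [NeZero M] [Fact q.Prime]

/-- The chart over the finite `j`-line at level `M`. -/
abbrev chart₀ (A : ValuationSubring (AlgebraicClosure ℚ)) (M : ℕ) : Subring (Fld A M) :=
  chart A (jCoord A M false)

/-- The chart over the finite `j`-line at level `M q`. -/
abbrev chart₁ (A : ValuationSubring (AlgebraicClosure ℚ)) (M q : ℕ) : Subring (Fld A (M * q)) :=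
  chart A (jCoord A (M * q) false)

/-- Algebra maps respect the charts. -/
theorem map_mem_chart {N N' : ℕ} (φ : Fld A N →ₐ[inertiaField A] Fld A N') {T : Fld A N}
    {T' : Fld A N'} (hT : φ T ∈ chart A T') {g : Fld A N} (hg : g ∈ chart A T) :
    φ g ∈ chart A T' := by
  letI : Algebra (chartBase A T') (Fld A N') := (chartBase A T').subtype.toAlgebra
  letI : Algebra (chartBase A T) (Fld A N) := (chartBase A T).subtype.toAlgebra
  have hle : chartBase A T ≤ (chart A T').comap φ.toRingHom := by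
    refine sup_le ?_ (Subring.closure_le.2 (Set.singleton_subset_iff.2 hT))
    rintro _ ⟨c, hc, rfl⟩
    refine constInt_le_chart T' ?_
    exact ⟨c, hc, (φ.commutes c).symm⟩
  let ψ : chartBase A T →+* integralClosure (chartBase A T') (Fld A N') :=
    (φ.toRingHom.comp (chartBase A T).subtype).codRestrict (chart A T') fun x => hle x.2
  obtain ⟨p, hp, hp0⟩ := hg
  have hint : IsIntegral (integralClosure (chartBase A T') (Fld A N')) (φ g) := by
    refine ⟨p.map ψ, hp.map ψ, ?_⟩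
    rw [eval₂_map]
    have := congrArg φ.toRingHom hp0
    rw [hom_eval₂, map_zero] at this
    exact this
  obtain ⟨y, hy⟩ := (IsIntegrallyClosedIn.isIntegral_iff).1 hint
  exact hy ▸ y.2

theorem coe_jElt (N : ℕ) : ((jElt A N : Fld A N) : Ser) = jqModC (AlgebraicClosure ℚ) := rfl

/-- `j (d τ)` is integral over the finite chart. -/
theorem jd_mem_chart {N d : ℕ} [NeZero d] (hd : d ∣ N) :
    (⟨qExpand (AlgebraicClosure ℚ) d (jqModC (AlgebraicClosure ℚ)), jd_mem_fld hd⟩ : Fld A N) ∈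
      chart A (jCoord A N false) := by
  letI : Algebra (chartBase A (jCoord A N false)) (Fld A N) :=
    (chartBase A (jCoord A N false)).subtype.toAlgebra
  obtain ⟨data⟩ := ModFun.nonempty_modularPolynomialData d
  have hj : jElt A N ∈ chartBase A (jCoord A N false) :=
    (le_sup_right : _ ≤ chartBase A (jCoord A N false)) (Subring.subset_closure rfl)
  let ev : Polynomial ℤ →+* chartBase A (jCoord A N false) :=
    eval₂RingHom (Int.castRingHom _) ⟨jElt A N, hj⟩
  refine ⟨data.Φ.map ev, data.monic.map ev, (Fld A N).val.toRingHom.injective ?_⟩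
  rw [eval₂_map, hom_eval₂, map_zero]
  refine Eq.trans ?_ (Curve.eval₂_modularPolynomial_eq_zero (AlgebraicClosure ℚ) data)
  congr 1
  refine Polynomial.ringHom_ext' (Subsingleton.elim _ _) ?_
  show (((ev X : chartBase A (jCoord A N false)) : Fld A N) : Ser) = _
  simp [ev, coe_jElt]

theorem coe_z₂' (g : F₀ A M) :
    (z₂ A M q g : Ser) = qExpand (AlgebraicClosure ℚ) q (qExpand (AlgebraicClosure ℚ) q (g : Ser)) := by
  simp [z₂]

theorem x₁_jElt : x₁ A M q (jElt A M) = jElt A (M * q) := Subtype.ext (coe_incl A _ _)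

theorem x₂_jElt : x₂ A M q (jElt A M) = jElt A (M * q * q) := Subtype.ext (coe_x₂ _)

theorem p₀₁_jElt : p₀₁ A M q (jElt A (M * q)) = jElt A (M * q * q) := Subtype.ext (coe_incl A _ _)

theorem y₁_jElt_mem : y₁ A M q (jElt A M) ∈ chart₁ A M q := by
  rw [show y₁ A M q (jElt A M) = ⟨_, jd_mem_fld (dvd_mul_left q M)⟩ from Subtype.ext (coe_scale A _)]
  exact jd_mem_chart (dvd_mul_left q M)

theorem x₁_mem {g : F₀ A M} (hg : g ∈ chart₀ A M) : x₁ A M q g ∈ chart₁ A M q :=
  map_mem_chart _ (by show x₁ A M q (jElt A M) ∈ _; rw [x₁_jElt]; exact self_mem_chart _) hg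

theorem y₁_mem {g : F₀ A M} (hg : g ∈ chart₀ A M) : y₁ A M q g ∈ chart₁ A M q :=
  map_mem_chart _ y₁_jElt_mem hg

theorem p₀₁_mem {g : F₁ A M q} (hg : g ∈ chart₁ A M q) : p₀₁ A M q g ∈ chart₂ A M q false :=
  map_mem_chart _ (by show p₀₁ A M q (jElt A _) ∈ _; rw [p₀₁_jElt]; exact self_mem_chart _) hg

theorem x₂_mem {g : F₀ A M} (hg : g ∈ chart₀ A M) : x₂ A M q g ∈ chart₂ A M q false :=
  p₀₁_mem (x₁_mem hg)

theorem y₂_mem {g : F₀ A M} (hg : g ∈ chart₀ A M) : y₂ A M q g ∈ chart₂ A M q false :=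
  p₀₁_mem (y₁_mem hg)

theorem z₂_mem {g : F₀ A M} (hg : g ∈ chart₀ A M) : z₂ A M q g ∈ chart₂ A M q false := by
  refine map_mem_chart _ ?_ hg
  rw [show z₂ A M q (jCoord A M false) =
      ⟨_, jd_mem_fld ((dvd_mul_left (q * q) M).trans (mul_assoc M q q).symm.dvd)⟩ from
    Subtype.ext ((coe_z₂' _).trans (qExpand_qExpand _ _ _))]
  exact jd_mem_chart ((dvd_mul_left (q * q) M).trans (mul_assoc M q q).symm.dvd)

theorem w₁_mem (hqM : ¬ q ∣ M) {g : F₁ A M q} (hg : g ∈ chart₁ A M q) :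
    w₁ A M q g ∈ chart₁ A M q := by
  refine map_mem_chart (w₁ A M q).toAlgHom ?_ hg
  show w₁ A M q (jElt A _) ∈ _
  rw [← x₁_jElt, w₁_x₁ hqM]
  exact y₁_jElt_mem

theorem w₂_mem (hqM : ¬ q ∣ M) {g : F₂ A M q} (hg : g ∈ chart₂ A M q false) :
    w₂ A M q g ∈ chart₂ A M q false := by
  refine map_mem_chart (w₂ A M q).toAlgHom ?_ hg
  show w₂ A M q (jElt A _) ∈ _
  rw [← x₂_jElt, w₂_x₂ hqM]
  exact z₂_mem (self_mem_chart _)

variable [CharP (Res A) q] [IsAlgClosed (Res A)]

/-- `g (t) ↦ g (t ^ q)` on the residual field. -/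
abbrev frob : RFld A M →ₐ[Res A] RFld A M := BadReduction.resPhi (Res A) q M

theorem coe_frob (g : RFld A M) :
    (frob (q := q) g : ResSer A) = qExpand (Res A) q (g : ResSer A) := rfl

variable (hA : A.LiesOverPrime q) (hqM : ¬ q ∣ M)

/-- The reduction of a chart on a component. -/
def sideResB (s : Side) : chart₂ A M q false →+* RFld A M :=
  (sideRes A M q s).comp (Subring.inclusion (chart_le_sideInt hA hqM false s))

omit [CharP (Res A) q] [IsAlgClosed (Res A)] in
theorem coe_sideResB (s : Side) (f : chart₂ A M q false) :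
    (sideResB hA hqM s f : ResSer A) = red A (sideEmb A M q s f) :=
  coe_sideRes s _

/-- The reduction at level `M`. -/
def red₀ : chart₀ A M →+* RFld A M :=
  (sideResB hA hqM .s20).comp (((x₂ A M q).toRingHom.comp (chart₀ A M).subtype).codRestrict _
    fun g => x₂_mem g.2)

omit [CharP (Res A) q] [IsAlgClosed (Res A)] in
theorem coe_red₀ (g : chart₀ A M) : (red₀ hA hqM g : ResSer A) = red A ((g : F₀ A M) : Ser) := by
  refine (coe_sideResB hA hqM _ _).trans ?_
  show red A ((x₂ A M q (g : F₀ A M) : F₂ A M q) : Ser) = _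
  rw [coe_x₂]

omit [CharP (Res A) q] [IsAlgClosed (Res A)] in
include hA hqM in
theorem gaussInt_of_chart₀ {g : F₀ A M} (hg : g ∈ chart₀ A M) : (g : Ser) ∈ GaussInt A := by
  have h := (mem_gaussInt_of_mem_sideInt A M q _ (chart_le_sideInt hA hqM false .s20 (x₂_mem (q := q) hg))).1
  rw [← coe_x₂ (q := q) g]
  exact h

/-- The reduction at level `M q` on the infinity component. -/
def redInf : chart₁ A M q →+* RFld A M :=
  (sideResB hA hqM .s20).comp (((p₀₁ A M q).toRingHom.comp (chart₁ A M q).subtype).codRestrict _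
    fun g => p₀₁_mem g.2)

omit [CharP (Res A) q] [IsAlgClosed (Res A)] in
theorem coe_redInf (g : chart₁ A M q) :
    (redInf hA hqM g : ResSer A) = red A ((g : F₁ A M q) : Ser) := by
  refine (coe_sideResB hA hqM _ _).trans ?_
  show red A ((p₀₁ A M q (g : F₁ A M q) : F₂ A M q) : Ser) = _
  rw [coe_incl]

omit [CharP (Res A) q] [IsAlgClosed (Res A)] in
include hA hqM in
theorem gaussInt_of_chart₁ {g : F₁ A M q} (hg : g ∈ chart₁ A M q) : (g : Ser) ∈ GaussInt A := by
  have h := (mem_gaussInt_of_mem_sideInt A M q _ (chart_le_sideInt hA hqM false .s20 (p₀₁_mem hg))).1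
  have e : sideEmb A M q .s20 (p₀₁ A M q g) = (g : Ser) := by
    rw [sideEmb, p₀₁]
    exact coe_incl A (dvd_mul_right (M * q) q) g
  rwa [e] at h

/-- The reduction at level `M q` on the zero component. -/
def redZero : chart₁ A M q →+* RFld A M :=
  (redInf hA hqM).comp (((w₁ A M q).toAlgHom.toRingHom.comp (chart₁ A M q).subtype).codRestrict _
    fun g => w₁_mem hqM g.2)

omit [CharP (Res A) q] [IsAlgClosed (Res A)] in
theorem redZero_apply (g : chart₁ A M q) :
    redZero hA hqM g = redInf hA hqM ⟨w₁ A M q g, w₁_mem hqM g.2⟩ := rfl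

/-- The table of the `τ`-side. -/
theorem sideResB_x₂ (g : chart₀ A M) :
    sideResB hA hqM .s20 ⟨_, x₂_mem g.2⟩ = red₀ hA hqM g ∧
      sideResB hA hqM .s11 ⟨_, x₂_mem g.2⟩ = red₀ hA hqM g ∧
        sideResB hA hqM .s02 ⟨_, x₂_mem g.2⟩ = frob (q := q) (frob (q := q) (red₀ hA hqM g)) := by
  obtain ⟨h1, h2, h3⟩ := red_x₂ hA hqM (g : F₀ A M) (gaussInt_of_chart₀ hA hqM g.2)
  refine ⟨rfl, Subtype.ext ?_, Subtype.ext ?_⟩
  · rw [coe_sideResB, h2, coe_red₀]
  · rw [coe_sideResB, h3, coe_frob, coe_frob, coe_red₀]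

/-- The table of the `q τ`-side. -/
theorem sideResB_y₂ (g : chart₀ A M) (s : Side) :
    sideResB hA hqM s ⟨_, y₂_mem g.2⟩ = frob (q := q) (red₀ hA hqM g) := by
  refine Subtype.ext ?_
  rw [coe_sideResB, red_y₂ hA hqM (g : F₀ A M) (gaussInt_of_chart₀ hA hqM g.2), coe_frob, coe_red₀]

/-- The table of the `q² τ`-side. -/
theorem sideResB_z₂ (g : chart₀ A M) :
    sideResB hA hqM .s20 ⟨_, z₂_mem g.2⟩ = frob (q := q) (frob (q := q) (red₀ hA hqM g)) ∧
      sideResB hA hqM .s11 ⟨_, z₂_mem g.2⟩ = red₀ hA hqM g ∧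
        sideResB hA hqM .s02 ⟨_, z₂_mem g.2⟩ = red₀ hA hqM g := by
  obtain ⟨h1, h2, h3⟩ := red_z₂ hA hqM (g : F₀ A M) (gaussInt_of_chart₀ hA hqM g.2)
  refine ⟨Subtype.ext ?_, Subtype.ext ?_, Subtype.ext ?_⟩
  · rw [coe_sideResB, h1, coe_frob, coe_frob, coe_red₀]
  · rw [coe_sideResB, h2, coe_red₀]
  · rw [coe_sideResB, h3, coe_red₀]

theorem redInf_x₁ (g : chart₀ A M) :
    redInf hA hqM ⟨_, x₁_mem g.2⟩ = red₀ hA hqM g := rfl

theorem redInf_y₁ (g : chart₀ A M) :
    redInf hA hqM ⟨_, y₁_mem g.2⟩ = frob (q := q) (red₀ hA hqM g) :=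
  sideResB_y₂ hA hqM g .s20

theorem redZero_x₁ (g : chart₀ A M) :
    redZero hA hqM ⟨_, x₁_mem g.2⟩ = frob (q := q) (red₀ hA hqM g) := by
  rw [redZero_apply, ← redInf_y₁ hA hqM g]
  exact congrArg _ (Subtype.ext (w₁_x₁ hqM _))

theorem redZero_y₁ (g : chart₀ A M) :
    redZero hA hqM ⟨_, y₁_mem g.2⟩ = red₀ hA hqM g := by
  rw [redZero_apply, ← redInf_x₁ hA hqM g]
  exact congrArg _ (Subtype.ext (w₁_y₁ hqM _))

/-- The restriction of the components to level `M q`. -/
theorem sideResB_p₀₁ (g : chart₁ A M q) :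
    sideResB hA hqM .s20 ⟨_, p₀₁_mem g.2⟩ = redInf hA hqM g ∧
      sideResB hA hqM .s11 ⟨_, p₀₁_mem g.2⟩ = redInf hA hqM g ∧
        sideResB hA hqM .s02 ⟨_, p₀₁_mem g.2⟩ = frob (q := q) (redZero hA hqM g) := by
  refine ⟨rfl, Subtype.ext ?_, Subtype.ext ?_⟩
  · rw [coe_sideResB, coe_redInf]
    show red A (e₁₁ A M q _ (p₀₁ A M q (g : F₁ A M q))) = _
    rw [e₁₁_p₀₁ hqM]
  · rw [coe_sideResB, coe_frob, redZero_apply, coe_redInf]
    show red A ((w₂ A M q (p₀₁ A M q (g : F₁ A M q)) : F₂ A M q) : Ser) = _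
    rw [w₂_p₀₁ hqM, coe_scale]
    exact (red_qExpand q (gaussInt_of_chart₁ hA hqM (w₁_mem hqM g.2))).2

end Fermat.Agent.Carayol.Reg

end
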