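/-
Theorem of Carayol at `q ^ 2 ∥ M`: elementary facts on Gauss reductions of elements of
the charts: constants, division by `q`, integrality of the images, lifts from the residual curve.
-/
import Fermat.Agent.Carayol.MainLocalSides
import Fermat.Agent.Genus.LaurentDerivation

set_option autoImplicit false
set_option linter.style.haveILetI false
set_option linter.unusedSectionVars false

noncomputable section

namespace Fermat.Agent.Carayol.Reg

open ModularCurve IntermediateField Polynomial Fermat.Agent.Genus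

local notation "Ser" => LaurentSeries (AlgebraicClosure ℚ)

variable {A : ValuationSubring (AlgebraicClosure ℚ)} {M q : ℕ} [NeZero M] [Fact q.Prime]

theorem red_eq {g : Ser} (h : g ∈ GaussInt A) :
    red A g = gaussRed A (IsLocalRing.residue A) ⟨g, h⟩ := dif_pos h

theorem red_sub {f g : Ser} (hf : f ∈ GaussInt A) (hg : g ∈ GaussInt A) :
    red A (f - g) = red A f - red A g := by
  rw [red_eq hf, red_eq hg, red_eq (sub_mem hf hg), ← map_sub]
  rfl

theorem red_pow {f : Ser} (hf : f ∈ GaussInt A) (n : ℕ) : red A (f ^ n) = red A f ^ n := by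
  rw [red_eq hf, red_eq (pow_mem hf n), ← map_pow]
  rfl

theorem red_prod {ι : Type*} (t : Finset ι) {f : ι → Ser} (hf : ∀ i ∈ t, f i ∈ GaussInt A) :
    red A (∏ i ∈ t, f i) = ∏ i ∈ t, red A (f i) := by
  classical
  induction t using Finset.induction_on with
  | empty =>
    rw [Finset.prod_empty, Finset.prod_empty, red_eq (one_mem _)]
    exact map_one (gaussRed A (IsLocalRing.residue A))
  | insert a t hat ih =>
    rw [Finset.prod_insert hat, Finset.prod_insert hat, red_mul (hf a (by simp))
      (prod_mem fun i hi => hf i (Finset.mem_insert_of_mem hi)),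
      ih fun i hi => hf i (Finset.mem_insert_of_mem hi)]

theorem red_of_coeff (y : LaurentSeries A) :
    coeffMap A.subtype y ∈ GaussInt A ∧
      red A (coeffMap A.subtype y) = coeffMap (IsLocalRing.residue A) y :=
  ⟨coeffMap_mem_gaussSubring y, (red_eq _).trans (gaussRed_coeffMap y)⟩

theorem red_algebraMap_inertia (c : inertiaField A) (hc : c ∈ inertiaInt A) :
    algebraMap (inertiaField A) Ser c ∈ GaussInt A ∧
      red A (algebraMap (inertiaField A) Ser c) =
        algebraMap (Res A) (ResSer A) (IsLocalRing.residue A ⟨(c : AlgebraicClosure ℚ), hc⟩) := by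
  have e : algebraMap (inertiaField A) Ser c =
      coeffMap A.subtype (HahnSeries.single (0 : ℤ) (⟨(c : AlgebraicClosure ℚ), hc⟩ : A)) := by
    rw [coeffMap_single, IsScalarTower.algebraMap_apply (inertiaField A) (AlgebraicClosure ℚ) Ser,
      algebraMap_laurentSeries_eq_single]
    rfl
  rw [e]
  refine ⟨(red_of_coeff _).1, ?_⟩
  rw [(red_of_coeff _).2, coeffMap_single, algebraMap_laurentSeries_eq_single]

theorem natCast_gaussInt (n : ℕ) : (n : Ser) ∈ GaussInt A := natCast_mem _ n

theorem red_natCast [CharP (Res A) q] : red A (q : Ser) = 0 := by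
  rw [red_eq (natCast_gaussInt q), show (⟨(q : Ser), natCast_gaussInt q⟩ : gaussSubring A _) =
    (q : gaussSubring A (IsLocalRing.residue A)) from rfl, map_natCast]
  rw [← map_natCast (algebraMap (Res A) (ResSer A)), CharP.cast_eq_zero, map_zero]

theorem natCast_q_ne_zero_fld (N : ℕ) : (q : Fld A N) ≠ 0 := fun h => by
  have h' := congrArg (fun x : Fld A N => (x : Ser)) h
  simp only [IntermediateField.coe_zero] at h'
  rw [show ((q : Fld A N) : Ser) = (q : Ser) from map_natCast (Fld A N).val q,
    ← map_natCast (algebraMap (AlgebraicClosure ℚ) Ser), map_eq_zero] at h'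
  exact Nat.cast_ne_zero.2 (Fact.out : q.Prime).ne_zero h'

theorem coe_div_natCast {N : ℕ} (g : Fld A N) :
    ((g / (q : Fld A N) : Fld A N) : Ser) * (q : Ser) = (g : Ser) := by
  rw [← map_natCast (Fld A N).val q]
  exact congrArg (fun x : Fld A N => (x : Ser)) (div_mul_cancel₀ g (natCast_q_ne_zero_fld N))

/-- A Gauss integral element with vanishing reduction is divisible by `q`. -/
theorem gaussInt_div_natCast (hA : A.LiesOverPrime q) {N : ℕ} (g : Fld A N)
    (hg : (g : Ser) ∈ GaussInt A) (h0 : red A (g : Ser) = 0) :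
    ((g / (q : Fld A N) : Fld A N) : Ser) ∈ GaussInt A := by
  rcases eq_or_ne g 0 with rfl | hne
  · rw [zero_div]; exact zero_mem _
  have hv := hasVal_fld hA g hne
  have hd := hasVal_fld hA (g / (q : Fld A N)) (div_ne_zero hne (natCast_q_ne_zero_fld N))
  have hq := hasVal_fld hA (q : Fld A N) (natCast_q_ne_zero_fld N)
  rw [show ((q : Fld A N) : Ser) = (q : Ser) from map_natCast (Fld A N).val q] at hq
  have h1 := (hasVal_mul hA hd hq).2
  rw [coe_div_natCast, ← zpow_one (q : Ser), val_natCast_zpow hA] at h1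
  have h2 : 0 ≤ val A q (g : Ser) := (mem_gaussInt_iff hA hv).1 hg
  have h3 : val A q (g : Ser) ≠ 0 := fun e => (red_ne_zero_iff hA hv h2).2 e h0
  rw [mem_gaussInt_iff hA hd]
  omega

theorem isIntegral_of_mem_chart {N : ℕ} {T g : Fld A N} (hg : g ∈ chart A T) :
    IsIntegral (Algebra.adjoin (inertiaField A) {T}) g := by
  letI : Algebra (chartBase A T) (Fld A N) := (chartBase A T).subtype.toAlgebra
  have hle : chartBase A T ≤ (Algebra.adjoin (inertiaField A) {T}).toSubring := by
    refine sup_le ?_ (Subring.closure_le.2 (Algebra.subset_adjoin))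
    rintro _ ⟨c, -, rfl⟩
    exact Subalgebra.algebraMap_mem _ c
  obtain ⟨p, hp, hp0⟩ := hg
  refine ⟨p.map ((Subring.inclusion hle) : _ →+* Algebra.adjoin (inertiaField A) {T}), hp.map _, ?_⟩
  rw [eval₂_map]
  exact hp0

theorem isIntegral_natCast_inv_mul {N : ℕ} {T g : Fld A N}
    (hg : IsIntegral (Algebra.adjoin (inertiaField A) {T}) g) :
    IsIntegral (Algebra.adjoin (inertiaField A) {T}) (g / (q : Fld A N)) := by
  rw [div_eq_mul_inv]
  refine hg.mul ?_
  have : ((q : Fld A N))⁻¹ = algebraMap (inertiaField A) (Fld A N) (q : inertiaField A)⁻¹ := by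
    rw [map_inv₀, map_natCast]
  rw [this, IsScalarTower.algebraMap_apply (inertiaField A) (Algebra.adjoin (inertiaField A) {T})]
  exact isIntegral_algebraMap

/-- A homomorphism of a chart into the residual field has integral values. -/
theorem isIntegral_image {N : ℕ} {T : Fld A N} (φ : chart A T →+* RFld A M) {x : RFld A M}
    (hc : ∀ (c : inertiaField A) (hc : c ∈ inertiaInt A),
      φ ⟨algebraMap (inertiaField A) (Fld A N) c, constInt_le_chart T ⟨c, hc, rfl⟩⟩ ∈
        Algebra.adjoin (Res A) {x})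
    (hT : φ ⟨T, self_mem_chart T⟩ ∈ Algebra.adjoin (Res A) {x}) (g : chart A T) :
    IsIntegral (Algebra.adjoin (Res A) {x}) (φ g) := by
  letI : Algebra (chartBase A T) (Fld A N) := (chartBase A T).subtype.toAlgebra
  have hle : chartBase A T ≤ chart A T :=
    sup_le (constInt_le_chart T) (Subring.closure_le.2 (Set.singleton_subset_iff.2 (self_mem_chart T)))
  have himg : ∀ y : chartBase A T, φ ⟨y, hle y.2⟩ ∈ Algebra.adjoin (Res A) {x} := by
    have hsub : chartBase A T ≤
        (((Algebra.adjoin (Res A) {x}).toSubring.comap φ).map (chart A T).subtype) := by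
      refine sup_le ?_ (Subring.closure_le.2 (Set.singleton_subset_iff.2
        ⟨⟨T, self_mem_chart T⟩, hT, rfl⟩))
      rintro _ ⟨c, hc', rfl⟩
      exact ⟨⟨_, constInt_le_chart T ⟨c, hc', rfl⟩⟩, hc c hc', rfl⟩
    intro y
    obtain ⟨z, hz, hzy⟩ := hsub y.2
    rw [show (⟨y, hle y.2⟩ : chart A T) = z from Subtype.ext hzy.symm]
    exact hz
  obtain ⟨p, hp, hp0⟩ := g.2
  let ψ : chartBase A T →+* Algebra.adjoin (Res A) {x} :=
    (φ.comp (Subring.inclusion hle)).codRestrict _ himg
  refine ⟨p.map ψ, hp.map ψ, ?_⟩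
  rw [eval₂_map]
  have h0 : p.eval₂ (Subring.inclusion hle) g = 0 := by
    refine (chart A T).subtype_injective ?_
    rw [hom_eval₂, map_zero]
    exact hp0
  have := congrArg φ h0
  rw [hom_eval₂, map_zero] at this
  exact this

/-- The Euler operator on series with coefficients in the valuation ring. -/
def eulerInt (y : LaurentSeries A) : LaurentSeries A where
  coeff n := (n : A) * y.coeff n
  isPWO_support' := y.isPWO_support'.mono fun n hn hh => hn (by simp [hh])

theorem coeffMap_eulerInt {R : Type*} [Field R] (f : A →+* R) (y : LaurentSeries A) :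
    coeffMap f (eulerInt y) = eulerOp (coeffMap f y) := by
  ext n
  simp [eulerInt]

theorem eulerOp_div_mul {R : Type*} [Field R] (a b : LaurentSeries R) (hb : b ≠ 0) :
    eulerOp (a / b) * (b * b) = eulerOp a * b - a * eulerOp b := by
  have h : eulerOp (a / b) * b + a / b * eulerOp b = eulerOp a := by
    rw [← eulerOp_mul, div_mul_cancel₀ _ hb]
  calc eulerOp (a / b) * (b * b)
      = (eulerOp (a / b) * b + a / b * eulerOp b) * b - (a / b * b) * eulerOp b := by ring
    _ = eulerOp a * b - a * eulerOp b := by rw [h, div_mul_cancel₀ _ hb]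

theorem red_eq_div {g : Ser} {y₁ y₂ : LaurentSeries A}
    (h : coeffMap (IsLocalRing.residue A) y₂ ≠ 0)
    (e : g * coeffMap A.subtype y₂ = coeffMap A.subtype y₁) :
    red A g = coeffMap (IsLocalRing.residue A) y₁ / coeffMap (IsLocalRing.residue A) y₂ :=
  (red_eq ⟨y₁, y₂, h, e⟩).trans (gaussRedFun_eq _ h e)

theorem red_eulerOp {g : Ser} (hg : g ∈ GaussInt A) :
    eulerOp g ∈ GaussInt A ∧ red A (eulerOp g) = eulerOp (red A g) := by
  obtain ⟨y₁, y₂, h, e⟩ := id hg
  have h2 : coeffMap A.subtype y₂ ≠ 0 := by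
    rw [Ne, map_eq_zero_iff _ (coeffMap_subtype_injective A)]
    rintro rfl
    exact h (map_zero _)
  have hg' : g = coeffMap A.subtype y₁ / coeffMap A.subtype y₂ :=
    (eq_div_iff h2).2 e
  have he : eulerOp g * coeffMap A.subtype (y₂ * y₂) =
      coeffMap A.subtype (eulerInt y₁ * y₂ - y₁ * eulerInt y₂) := by
    rw [map_mul, map_sub, map_mul, map_mul, coeffMap_eulerInt, coeffMap_eulerInt, hg']
    exact eulerOp_div_mul _ _ h2
  have hne : coeffMap (IsLocalRing.residue A) (y₂ * y₂) ≠ 0 := by
    rw [map_mul]; exact mul_ne_zero h h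
  have hmem : eulerOp g ∈ GaussInt A := ⟨_, _, hne, he⟩
  refine ⟨hmem, ?_⟩
  rw [red_eq_div hne he, red_eq_div h e, map_sub, map_mul, map_mul, map_mul,
    coeffMap_eulerInt, coeffMap_eulerInt, ← eulerOp_div_mul _ _ h,
    mul_div_assoc, div_self (mul_ne_zero h h), mul_one]

section Red

variable [CharP (Res A) q] [IsAlgClosed (Res A)] (hA : A.LiesOverPrime q) (hqM : ¬ q ∣ M)

theorem jRes_mem_adjoin : jRes A M ∈ Algebra.adjoin (Res A) {jRes A M} :=
  Algebra.self_mem_adjoin_singleton _ _

theorem frob_jRes : frob (q := q) (jRes A M) = jRes A M ^ q := by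
  rw [show jRes A M = BadReduction.resJ (Res A) M from rfl]
  conv_lhs => rw [← BadReduction.resFrob_resJ (Res A) q M]
  exact BadReduction.resPhi_resFrob (Res A) q M _

omit [CharP (Res A) q] [IsAlgClosed (Res A)] in
theorem red_jElt (N : ℕ) :
    ((jElt A N : Fld A N) : Ser) ∈ GaussInt A ∧
      red A ((jElt A N : Fld A N) : Ser) = jqModC (Res A) := by
  rw [coe_jElt, ← coeffMap_jqModC A.subtype]
  exact ⟨(red_of_coeff _).1, (red_of_coeff _).2.trans (coeffMap_jqModC _)⟩

theorem isIntegral_red₀ (g : chart₀ A M) :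
    IsIntegral (Algebra.adjoin (Res A) {jRes A M}) (red₀ hA hqM g) := by
  refine isIntegral_image (red₀ hA hqM) (fun c hc => ?_) ?_ g
  · suffices e : red₀ hA hqM ⟨algebraMap (inertiaField A) (Fld A M) c,
        constInt_le_chart _ ⟨c, hc, rfl⟩⟩ = algebraMap (Res A) (RFld A M)
          (IsLocalRing.residue A ⟨(c : AlgebraicClosure ℚ), hc⟩) by
      rw [e]
      exact Subalgebra.algebraMap_mem _ _
    refine Subtype.ext ((coe_red₀ hA hqM _).trans ?_)
    rw [show ((algebraMap (inertiaField A) (Fld A M) c : Fld A M) : Ser) =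
      algebraMap (inertiaField A) Ser c from (Fld A M).val.commutes c]
    exact (red_algebraMap_inertia c hc).2
  · rw [show red₀ hA hqM ⟨_, self_mem_chart _⟩ = jRes A M from
      Subtype.ext ((coe_red₀ hA hqM _).trans (red_jElt M).2)]
    exact jRes_mem_adjoin

theorem isIntegral_redInf (g : chart₁ A M q) :
    IsIntegral (Algebra.adjoin (Res A) {jRes A M}) (redInf hA hqM g) := by
  refine isIntegral_image (redInf hA hqM) (fun c hc => ?_) ?_ g
  · suffices e : redInf hA hqM ⟨algebraMap (inertiaField A) (Fld A (M * q)) c,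
        constInt_le_chart _ ⟨c, hc, rfl⟩⟩ = algebraMap (Res A) (RFld A M)
          (IsLocalRing.residue A ⟨(c : AlgebraicClosure ℚ), hc⟩) by
      rw [e]
      exact Subalgebra.algebraMap_mem _ _
    refine Subtype.ext ((coe_redInf hA hqM _).trans ?_)
    rw [show ((algebraMap (inertiaField A) (Fld A (M * q)) c : Fld A (M * q)) : Ser) =
      algebraMap (inertiaField A) Ser c from (Fld A (M * q)).val.commutes c]
    exact (red_algebraMap_inertia c hc).2
  · rw [show redInf hA hqM ⟨_, self_mem_chart _⟩ = jRes A M from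
      Subtype.ext ((coe_redInf hA hqM _).trans (red_jElt (M * q)).2)]
    exact jRes_mem_adjoin

theorem isIntegral_redZero (g : chart₁ A M q) :
    IsIntegral (Algebra.adjoin (Res A) {jRes A M}) (redZero hA hqM g) :=
  isIntegral_redInf hA hqM _

/-- Functions on the residual curve integral over `k [j]` lift to the chart. -/
theorem exists_red₀_eq {c : RFld A M} (hc : IsIntegral (Algebra.adjoin (Res A) {jRes A M}) c) :
    ∃ g : chart₀ A M, red₀ hA hqM g = c := by
  obtain ⟨g, hg, -, hred⟩ := exists_chart₀_lift hA hqM false c hc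
  exact ⟨⟨g, hg⟩, Subtype.ext ((coe_red₀ hA hqM _).trans hred)⟩

omit [CharP (Res A) q] [IsAlgClosed (Res A)] in
/-- The kernel of the reduction at level `M` is generated by `q`. -/
theorem exists_eq_natCast_mul_of_red₀ {g : chart₀ A M} (hg : red₀ hA hqM g = 0) :
    ∃ h : chart₀ A M, g = (q : chart₀ A M) * h := by
  refine ⟨⟨(g : F₀ A M) / (q : F₀ A M), mem_chart₀_of hA hqM false _
    (isIntegral_natCast_inv_mul (isIntegral_of_mem_chart g.2))
    (gaussInt_div_natCast hA _ (gaussInt_of_chart₀ hA hqM g.2) ?_)⟩, Subtype.ext ?_⟩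
  · rw [← coe_red₀ hA hqM, hg]; rfl
  · push_cast
    rw [mul_div_cancel₀ _ (natCast_q_ne_zero_fld M)]

end Red

end Fermat.Agent.Carayol.Reg

end
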