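/-
Theorem of Carayol at `q ^ 2 ∥ M`: integrality over `K [j]` seen in Laurent series, used
for norms and characteristic polynomials from level `M q` to level `M`.
-/
import Fermat.Agent.Carayol.MainLocalLevel
import Fermat.Agent.Carayol.ValuationsSeries

set_option autoImplicit false
set_option linter.style.haveILetI false
set_option linter.unusedSectionVars false

noncomputable section

namespace Fermat.Agent.Carayol.Reg

open ModularCurve IntermediateField Polynomial

local notation "Qbar" => AlgebraicClosure ℚ
local notation "Ser" => LaurentSeries (AlgebraicClosure ℚ)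

variable (A : ValuationSubring (AlgebraicClosure ℚ)) (M q : ℕ) [NeZero M] [Fact q.Prime]

/-- `g ↦ g (q τ)` from level `M` to Laurent series. -/
def baseHom : Fld A M →+* Ser := (qExpand Qbar q).comp (Fld A M).val.toRingHom

/-- The series integral over `K [j (q τ)]`. -/
def intBase : Subring Ser :=
  letI : Algebra (Algebra.adjoin (inertiaField A) {jElt A M}) Ser :=
    ((baseHom A M q).comp (Algebra.adjoin (inertiaField A) {jElt A M}).val.toRingHom).toAlgebra
  (integralClosure (Algebra.adjoin (inertiaField A) {jElt A M}) Ser).toSubring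

variable {A M q}

theorem isIntegral_of_baseHom_mem {g : Fld A M} (h : baseHom A M q g ∈ intBase A M q) :
    IsIntegral (Algebra.adjoin (inertiaField A) {jElt A M}) g := by
  obtain ⟨p, hp, hp0⟩ := h
  refine ⟨p, hp, (baseHom A M q).injective ?_⟩
  rw [hom_eval₂, map_zero]
  exact hp0

theorem mem_intBase_of_hom {N : ℕ} (φ : Fld A N →+* Ser) {T : Fld A N}
    (hT : φ T = baseHom A M q (jElt A M))
    (hc : ∀ c : inertiaField A, φ (algebraMap (inertiaField A) (Fld A N) c) =
      baseHom A M q (algebraMap (inertiaField A) (Fld A M) c))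
    {g : Fld A N} (hg : IsIntegral (Algebra.adjoin (inertiaField A) {T}) g) :
    φ g ∈ intBase A M q := by
  letI : Algebra (Algebra.adjoin (inertiaField A) {jElt A M}) Ser :=
    ((baseHom A M q).comp (Algebra.adjoin (inertiaField A) {jElt A M}).val.toRingHom).toAlgebra
  have hrange : ∀ y ∈ Algebra.adjoin (inertiaField A) {T},
      φ y ∈ (algebraMap (Algebra.adjoin (inertiaField A) {jElt A M}) Ser).range := by
    intro y hy
    induction hy using Algebra.adjoin_induction with
    | mem y hy =>
      rw [Set.mem_singleton_iff.1 hy, hT]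
      exact ⟨⟨jElt A M, Algebra.self_mem_adjoin_singleton _ _⟩, rfl⟩
    | algebraMap c => exact ⟨algebraMap _ _ c, (hc c).symm⟩
    | add a b _ _ ha hb => rw [map_add]; exact add_mem ha hb
    | mul a b _ _ ha hb => rw [map_mul]; exact mul_mem ha hb
  obtain ⟨p, hp, hp0⟩ := hg
  set p' := p.map (φ.comp (Algebra.adjoin (inertiaField A) {T}).val.toRingHom) with hp'
  have hl : p' ∈ Polynomial.lifts (algebraMap (Algebra.adjoin (inertiaField A) {jElt A M}) Ser) := by
    rw [Polynomial.lifts_iff_coeffs_subset_range]
    intro z hz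
    obtain ⟨n, -, rfl⟩ := Polynomial.mem_coeffs_iff.1 hz
    rw [hp', coeff_map]
    exact hrange _ (p.coeff n).2
  obtain ⟨r, hr, -, hrm⟩ := Polynomial.lifts_and_degree_eq_and_monic hl (hp.map _)
  refine ⟨r, hrm, ?_⟩
  rw [← eval_map, hr, eval_map, ← hom_eval₂]
  exact (congrArg φ hp0).trans (map_zero φ)

theorem coe_baseHom (g : Fld A M) : baseHom A M q g = qExpand Qbar q (g : Ser) := rfl

theorem qExpand_coe_mem_intBase {g : Fld A (M * q)}
    (hg : IsIntegral (Algebra.adjoin (inertiaField A) {jElt A (M * q)}) g) :
    qExpand Qbar q (g : Ser) ∈ intBase A M q :=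
  mem_intBase_of_hom (M := M) ((qExpand Qbar q).comp (Fld A (M * q)).val.toRingHom)
    (T := jElt A (M * q)) rfl
    (fun c => by
      show qExpand Qbar q ((algebraMap (inertiaField A) (Fld A (M * q)) c : Fld A (M * q)) : Ser) =
        qExpand Qbar q ((algebraMap (inertiaField A) (Fld A M) c : Fld A M) : Ser)
      rw [show ((algebraMap (inertiaField A) (Fld A (M * q)) c : Fld A (M * q)) : Ser) =
          algebraMap (inertiaField A) Ser c from (Fld A (M * q)).val.commutes c,
        show ((algebraMap (inertiaField A) (Fld A M) c : Fld A M) : Ser) =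
          algebraMap (inertiaField A) Ser c from (Fld A M).val.commutes c]) hg

theorem seriesTwist_w₁_mem_intBase (hqM : ¬ q ∣ M) {u : Qbarˣ} (hu : u ^ q = 1)
    {g : Fld A (M * q)} (hg : IsIntegral (Algebra.adjoin (inertiaField A) {jElt A (M * q)}) g) :
    seriesTwist u (w₁ A M q g : Ser) ∈ intBase A M q :=
  mem_intBase_of_hom (((seriesTwist u).comp (Fld A (M * q)).val.toRingHom).comp
      (w₁ A M q).toAlgHom.toRingHom) (T := jElt A (M * q))
    (by
      show seriesTwist u ((w₁ A M q (jElt A (M * q)) : Fld A (M * q)) : Ser) = _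
      rw [← x₁_jElt, w₁_x₁ hqM, coe_scale, seriesTwist_qExpand _ hu]
      rfl)
    (fun c => by
      show seriesTwist u ((w₁ A M q (algebraMap (inertiaField A) (Fld A (M * q)) c) :
        Fld A (M * q)) : Ser) = qExpand Qbar q ((algebraMap (inertiaField A) (Fld A M) c : Fld A M) : Ser)
      rw [AlgEquiv.commutes,
        show ((algebraMap (inertiaField A) (Fld A (M * q)) c : Fld A (M * q)) : Ser) =
          algebraMap (inertiaField A) Ser c from (Fld A (M * q)).val.commutes c,
        show ((algebraMap (inertiaField A) (Fld A M) c : Fld A M) : Ser) =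
          algebraMap (inertiaField A) Ser c from (Fld A M).val.commutes c,
        ← qExpand_algebraMap (A := A) q c, seriesTwist_qExpand _ hu, qExpand_algebraMap, qExpand_algebraMap]) hg

/-- The norm from level `M q` to level `M` preserves integrality over `K [j]`. -/
theorem isIntegral_norm₁₀ (hqM : ¬ q ∣ M) {g : Fld A (M * q)}
    (hg : IsIntegral (Algebra.adjoin (inertiaField A) {jElt A (M * q)}) g) :
    IsIntegral (Algebra.adjoin (inertiaField A) {jElt A M}) (norm₁₀ A M q g) := by
  refine isIntegral_of_baseHom_mem (q := q) ?_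
  rw [coe_baseHom, qExpand_norm₁₀ hqM]
  exact mul_mem (qExpand_coe_mem_intBase hg)
    (prod_mem fun i _ => seriesTwist_w₁_mem_intBase hqM (zetaQ_pow_pow i) hg)

end Fermat.Agent.Carayol.Reg

end
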