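/-
Theorem of Carayol: the identity `(θ j) ^ 6 = Δ j ^ 4 (j - 1728) ^ 3` of `q`-expansions over any
field.
-/
import Fermat.Agent.MazurPrinciple.FormsAnalyticDeriv
import Fermat.Agent.DimLower.LevelOne
import Fermat.Agent.Igusa.FibreExpansion

set_option autoImplicit false

noncomputable section

namespace Fermat.Agent.Carayol.Reg.ThetaId

open UpperHalfPlane ModularCurve
open Fermat.Agent.ModFun
open scoped Manifold

theorem disc_ne_zero (z : ℍ) : DimLower.disc z ≠ 0 := ModularForm.discriminant_ne_zero z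

theorem dTau_disc (z : ℍ) :
    MazurPrinciple.dTau DimLower.disc z = EisensteinSeries.E2 z * DimLower.disc z := by
  have hfun : DimLower.disc = (1728 : ℂ)⁻¹ • (DimLower.e4 ^ 3 - DimLower.e6 ^ 2) := funext fun w => by
    simp only [Pi.smul_apply, Pi.sub_apply, Pi.pow_apply, smul_eq_mul, DimLower.disc_eq]
    ring
  have h3 : MDiff (DimLower.e4 ^ 3) := DimLower.mdiff_e4.pow 3
  have h2 : MDiff (DimLower.e6 ^ 2) := DimLower.mdiff_e6.pow 2
  have h := congrFun (congrArg Derivative.normalizedDerivOfComplex hfun) z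
  rw [Derivative.normalizedDerivOfComplex_smul _ _ (h3.sub h2),
    Derivative.normalizedDerivOfComplex_sub _ _ h3 h2,
    Derivative.normalizedDerivOfComplex_pow _ _ DimLower.mdiff_e4,
    Derivative.normalizedDerivOfComplex_pow _ _ DimLower.mdiff_e6] at h
  simp only [Pi.smul_apply, Pi.sub_apply, Pi.mul_apply, Pi.pow_apply, Pi.natCast_apply, smul_eq_mul,
    DimLower.deriv_e4, DimLower.deriv_e6] at h
  refine h.trans ?_
  rw [DimLower.disc_eq]
  push_cast
  ring

theorem jfun_mul_disc : jfun * DimLower.disc = DimLower.e4 ^ 3 := funext fun w => by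
  show ModularForm.E₄ w ^ 3 / ModularForm.discriminant w * ModularForm.discriminant w = _
  exact div_mul_cancel₀ _ (ModularForm.discriminant_ne_zero w)

theorem dTau_jfun_mul_disc (z : ℍ) :
    MazurPrinciple.dTau jfun z * DimLower.disc z = -(DimLower.e4 z ^ 2 * DimLower.e6 z) := by
  have h := congrFun (congrArg Derivative.normalizedDerivOfComplex jfun_mul_disc) z
  rw [Derivative.normalizedDerivOfComplex_mul _ _ mdifferentiable_jfun DimLower.mdiff_disc,
    Derivative.normalizedDerivOfComplex_pow _ _ DimLower.mdiff_e4] at h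
  simp only [Pi.add_apply, Pi.mul_apply, Pi.pow_apply, Pi.natCast_apply, DimLower.deriv_e4] at h
  have hd : Derivative.normalizedDerivOfComplex DimLower.disc z =
      EisensteinSeries.E2 z * DimLower.disc z := dTau_disc z
  have hj : jfun z * DimLower.disc z = DimLower.e4 z ^ 3 := congrFun jfun_mul_disc z
  rw [hd] at h
  push_cast at h
  linear_combination h - EisensteinSeries.E2 z * hj

theorem dTau_jfun_pow_six (z : ℍ) :
    MazurPrinciple.dTau jfun z ^ 6 =
      DimLower.disc z * (jfun z ^ 4 * (jfun z - 1728) ^ 3) := by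
  have hne := disc_ne_zero z
  have h1 : MazurPrinciple.dTau jfun z =
      -(DimLower.e4 z ^ 2 * DimLower.e6 z) / DimLower.disc z := by
    rw [eq_div_iff hne, dTau_jfun_mul_disc]
  have h2 : jfun z = DimLower.e4 z ^ 3 / DimLower.disc z := rfl
  have h3 : DimLower.e6 z ^ 2 = DimLower.e4 z ^ 3 - 1728 * DimLower.disc z := by
    rw [DimLower.disc_eq]; ring
  rw [h1, h2]
  field_simp
  calc DimLower.e4 z ^ 12 * DimLower.e6 z ^ 6 = DimLower.e4 z ^ 12 * (DimLower.e6 z ^ 2) ^ 3 := by
        ring
    _ = _ := by rw [h3]; ring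

theorem eulerOp_jqModC_complex :
    Genus.eulerOp (jqModC ℂ) ^ 6 =
      Igusa.Fibre.deltaS ℂ * (jqModC ℂ ^ 4 * (jqModC ℂ - 1728) ^ 3) := by
  have h1 := MazurPrinciple.hasQExp_dTau_jfun.pow 6
  have h2 := Igusa.Fibre.hasQExp_discriminant.mul
    ((hasQExp_jfun.pow 4).mul ((hasQExp_jfun.sub (HasQExp.const (h := 1) (1728 : ℂ))).pow 3))
  refine (h1.unique (h2.congr (.of_forall fun τ => ?_))).trans ?_
  · simp only [Pi.mul_apply, Pi.pow_apply, Pi.sub_apply]
    exact (dTau_jfun_pow_six τ).symm
  · rw [map_ofNat]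

/-- The Euler operator over a ring. -/
def thetaR {R : Type*} [CommRing R] (f : LaurentSeries R) : LaurentSeries R where
  coeff n := (n : R) * f.coeff n
  isPWO_support' := f.isPWO_support'.mono fun n hn h => hn (by simp [h])

theorem coeffMap_thetaR {R : Type*} [CommRing R] {K : Type*} [Field K] (φ : R →+* K)
    (f : LaurentSeries R) : coeffMap φ (thetaR f) = Genus.eulerOp (coeffMap φ f) := by
  ext n
  simp [thetaR]

theorem eulerOp_jqModC_pow_six_aux (R : Type*) [Field R] :
    Genus.eulerOp (jqModC R) ^ 6 =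
      Igusa.Fibre.deltaS R * (jqModC R ^ 4 * (jqModC R - 1728) ^ 3) := by
  have hinj : Function.Injective (coeffMap (Int.castRingHom ℂ)) := fun a b hab => by
    ext n
    have := congrArg (fun w : LaurentSeries ℂ => w.coeff n) hab
    simpa using this
  have hZ : thetaR (jqModC ℤ) ^ 6 =
      Igusa.Fibre.deltaS ℤ * (jqModC ℤ ^ 4 * (jqModC ℤ - 1728) ^ 3) := hinj (by
    simp only [map_pow, map_mul, map_sub, map_ofNat, coeffMap_thetaR, coeffMap_jqModC,
      Igusa.Fibre.coeffMap_deltaS]
    exact eulerOp_jqModC_complex)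
  have := congrArg (coeffMap (Int.castRingHom R)) hZ
  simpa only [map_pow, map_mul, map_sub, map_ofNat, coeffMap_thetaR, coeffMap_jqModC,
    Igusa.Fibre.coeffMap_deltaS] using this

end Fermat.Agent.Carayol.Reg.ThetaId

end
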