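/-
Theorem of Carayol, `q ^ 2 ∥ M`: the derivation `θ / θ π` on a field of Laurent series and the
regularity of `Δ / (θ π) ^ 6` over the finite `j`-line.
-/
import Fermat.Agent.Carayol.MainThetaIdentity
import Fermat.Agent.Genus.LaurentDerivation
import Fermat.Agent.Carayol.MainChart
import Fermat.Agent.Curve.BasicModular
import Fermat.Agent.Genus.Differential
import Fermat.Agent.Igusa.HauptmodulSeries
import Fermat.Agent.Igusa.JacobianGood

set_option autoImplicit false
set_option linter.style.haveILetI false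
set_option synthInstance.maxHeartbeats 400000

noncomputable section

namespace Fermat.Agent.Carayol.Reg

open AlgebraicCurve ModularCurve Fermat.Agent.Genus IntermediateField

section Euler

variable {R : Type*} [Field R]

theorem eulerOp_single_zero (c : R) :
    eulerOp (HahnSeries.single (0 : ℤ) c : LaurentSeries R) = 0 := by
  rw [eulerOp_single, Int.cast_zero, zero_mul, HahnSeries.single_eq_zero]

theorem eulerOp_pow_succ (f : LaurentSeries R) (n : ℕ) :
    eulerOp (f ^ (n + 1)) = (n + 1 : ℕ) * f ^ n * eulerOp f := by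
  induction n with
  | zero => simp
  | succ n ih => rw [pow_succ, eulerOp_mul, ih]; push_cast; ring

theorem eulerOp_qExpand' (d : ℕ) [NeZero d] (f : LaurentSeries R) :
    eulerOp (qExpand R d f) = (d : LaurentSeries R) * qExpand R d (eulerOp f) := by
  ext k
  rw [show (d : LaurentSeries R) = HahnSeries.C (d : R) from (map_natCast HahnSeries.C d).symm,
    HahnSeries.C_mul_eq_smul, HahnSeries.coeff_smul, eulerOp_coeff, smul_eq_mul]
  by_cases hk : (d : ℤ) ∣ k
  · obtain ⟨k, rfl⟩ := hk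
    rw [qExpand_coeff_mul, qExpand_coeff_mul, eulerOp_coeff]
    push_cast
    ring
  · rw [qExpand_coeff_of_not_dvd d _ hk, qExpand_coeff_of_not_dvd d _ hk, mul_zero, mul_zero]

end Euler

section Field

variable {K : Type*} [Field K]

theorem isScalarTower_subSeries (F : IntermediateField K (LaurentSeries K)) :
    IsScalarTower K F (LaurentSeries K) := ⟨fun c x y => by
  show ((c • x : F) : LaurentSeries K) * y = c • ((x : LaurentSeries K) * y)
  rw [Algebra.smul_def, IntermediateField.coe_mul, IntermediateField.coe_algebraMap_apply,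
    algebraMap_laurentSeries_eq_single, mul_assoc]
  ext n
  rw [HahnSeries.coeff_single_zero_mul, HahnSeries.coeff_smul, smul_eq_mul]⟩

attribute [local instance] isScalarTower_subSeries

/-- `θ` as a derivation on a subfield of Laurent series. -/
def eulerDerivSub (F : IntermediateField K (LaurentSeries K)) :
    Derivation K F (LaurentSeries K) where
  toFun f := eulerOp (f : LaurentSeries K)
  map_add' f g := eulerOp_add _ _
  map_smul' c f := by
    show eulerOp ((c • f : F) : LaurentSeries K) = c • eulerOp (f : LaurentSeries K)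
    rw [Algebra.smul_def, IntermediateField.coe_mul, IntermediateField.coe_algebraMap_apply,
      algebraMap_laurentSeries_eq_single, eulerOp_mul, eulerOp_single_zero, zero_mul, zero_add]
    ext n
    rw [HahnSeries.coeff_single_zero_mul, HahnSeries.coeff_smul, smul_eq_mul]
  map_one_eq_zero' := eulerOp_single_zero (1 : K)
  leibniz' f g := by
    show eulerOp ((f : LaurentSeries K) * (g : LaurentSeries K)) =
      (f : LaurentSeries K) * eulerOp (g : LaurentSeries K) +
        (g : LaurentSeries K) * eulerOp (f : LaurentSeries K)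
    rw [eulerOp_mul]
    ring

theorem eulerOp_eq_mul_of_D_eq {F : IntermediateField K (LaurentSeries K)} {g a π : F}
    (h : KaehlerDifferential.D K F g = a • KaehlerDifferential.D K F π) :
    eulerOp (g : LaurentSeries K) = (a : LaurentSeries K) * eulerOp (π : LaurentSeries K) := by
  have h1 := congrArg (eulerDerivSub F).liftKaehlerDifferential h
  rw [map_smul, Derivation.liftKaehlerDifferential_comp_D,
    Derivation.liftKaehlerDifferential_comp_D] at h1
  exact h1

theorem eulerOp_natCast (n : ℕ) : eulerOp (n : LaurentSeries K) = 0 := by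
  rw [← map_natCast HahnSeries.C n, HahnSeries.C_apply, eulerOp_single_zero]

theorem eulerOp_ofNat (n : ℕ) [n.AtLeastTwo] :
    eulerOp (OfNat.ofNat n : LaurentSeries K) = 0 := eulerOp_natCast n

theorem eulerOp_one : eulerOp (1 : LaurentSeries K) = 0 := eulerOp_single_zero (1 : K)

theorem eulerOp_sub (f g : LaurentSeries K) : eulerOp (f - g) = eulerOp f - eulerOp g := by
  rw [eq_sub_iff_add_eq, ← eulerOp_add, sub_add_cancel]

variable [IsAlgClosed K] {F : IntermediateField K (LaurentSeries K)} [IsCurveOver K F]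
  (v : Place K F) {π : F}

theorem exists_irreducible_coe (hπ : v.ord π = 1) :
    ∃ π' : v.toValuationSubring, Irreducible π' ∧ (π' : F) = π := by
  obtain ⟨π₀, hπ₀⟩ := IsDiscreteValuationRing.exists_irreducible v.toValuationSubring
  have hne : π ≠ 0 := fun h => by simp [h] at hπ
  obtain ⟨u, hu⟩ := v.exists_unit_mul_zpow hne hπ₀
  rw [hπ, zpow_one] at hu
  exact ⟨u * π₀, (irreducible_units_mul u).2 hπ₀, by rw [hu]; rfl⟩

/-- `θ g` is a multiple of `θ π`, and the coefficient is regular where `g` is. -/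
theorem exists_eulerOp_coeff (hπ : v.ord π = 1) (g : F) :
    ∃ a : F, eulerOp (g : LaurentSeries K) =
        (a : LaurentSeries K) * eulerOp (π : LaurentSeries K) ∧
      (0 ≤ v.ord g → 0 ≤ v.ord a) := by
  obtain ⟨π', hirr, rfl⟩ := exists_irreducible_coe v hπ
  obtain ⟨a, ha⟩ := exists_smul_eq_of_finrank_eq_one IsCurveOver.finrank_kaehler
    (D_irreducible_ne_zero v hirr) (KaehlerDifferential.D K F g)
  refine ⟨a, eulerOp_eq_mul_of_D_eq ha.symm, fun hg => ?_⟩
  rcases eq_or_ne a 0 with rfl | ha0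
  · simp
  have hd := exists_deriv_laurentExpansion hirr ha.symm
  have hexp := laurentExpansion_coe hirr ⟨g, Curve.mem_of_ord_nonneg v hg⟩
  rw [← order_laurentExpansion hirr ha0, ← hd]
  by_contra hlt
  push Not at hlt
  have hne : deriv (laurentExpansion hirr g) ≠ 0 := by
    rw [hd]; exact (map_ne_zero _).2 ha0
  refine hne (HahnSeries.coeff_order_eq_zero.1 ?_)
  rw [deriv_coeff]
  set n := (deriv (laurentExpansion hirr g)).order
  rcases lt_or_ge (n + 1) 0 with hn | hn
  · rw [show laurentExpansion hirr g = _ from hexp, ofPowerSeries_coeff_of_neg _ hn, mul_zero]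
  · rw [show n + 1 = 0 by omega, Int.cast_zero, zero_mul]

theorem eulerOp_ne_zero_of_ord_eq_one (hπ : v.ord π = 1) {x : F}
    (hx : eulerOp (x : LaurentSeries K) ≠ 0) : eulerOp (π : LaurentSeries K) ≠ 0 := fun h => by
  obtain ⟨a, ha, -⟩ := exists_eulerOp_coeff v hπ x
  exact hx (by rw [ha, h, mul_zero])

end Field

section Ord

variable {K F : Type*} [Field K] [Field F] [Algebra K F] (v : Place K F)

theorem ord_ne_zero_imp {x : F} (h : v.ord x ≠ 0) : x ≠ 0 := fun h0 => h (by simp [h0])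

theorem ord_add_of_neg {x c : F} (hx : v.ord x < 0) (hc : 0 ≤ v.ord c) :
    v.ord (x + c) = v.ord x :=
  Curve.ord_add_eq_left v (ord_ne_zero_imp v hx.ne) fun _ => lt_of_lt_of_le hx hc

theorem ord_add_of_pos {x c : F} (hx : 0 < v.ord x) (hc0 : c ≠ 0) (hc : v.ord c = 0) :
    v.ord (x + c) = 0 := by
  rw [add_comm, Curve.ord_add_eq_left v hc0 (fun _ => by rw [hc]; exact hx), hc]

theorem ord_mul_pow {x y : F} (hx : x ≠ 0) (hy : y ≠ 0) (n : ℕ) :
    v.ord (x * y ^ n) = v.ord x + n * v.ord y := by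
  rw [v.ord_mul hx (pow_ne_zero n hy), Curve.ord_pow]

theorem ord_natCast_eq_zero (n : ℕ) : v.ord (n : F) = 0 := by
  rw [← map_natCast (algebraMap K F), Curve.ord_algebraMap]

theorem ord_ofNat_eq_zero (n : ℕ) [n.AtLeastTwo] : v.ord (OfNat.ofNat n : F) = 0 := by
  rw [← map_ofNat (algebraMap K F), Curve.ord_algebraMap]

end Ord

section Haupt

variable {A : ValuationSubring (AlgebraicClosure ℚ)} {M q : ℕ} [NeZero M] [Fact q.Prime]

theorem coeffMap_residue_mem_rfld (hA : A.LiesOverPrime q) (hqM : ¬ q ∣ M) (y : LaurentSeries A)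
    (hy : coeffMap A.subtype y ∈ modularFunctionFieldBar M) :
    coeffMap (IsLocalRing.residue A) y ∈ RFld A M := by
  obtain ⟨h, hh⟩ := Igusa.x0GoodReduction_φ_coeffMap hqM hA y hy
  rw [← hh]
  exact Subtype.coe_prop _

theorem t2Series_mem_rfld (hA : A.LiesOverPrime q) (hqM : ¬ q ∣ M) (h2 : 2 ∣ M) :
    Igusa.t2Series (Res A) ∈ RFld A M := by
  rw [← Igusa.coeffMap_t2Series (IsLocalRing.residue A)]
  refine coeffMap_residue_mem_rfld hA hqM _ ?_
  rw [Igusa.coeffMap_t2Series]
  exact Igusa.t2Series_mem_bar _ h2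

theorem t3Series_mem_rfld (hA : A.LiesOverPrime q) (hqM : ¬ q ∣ M) (h3 : 3 ∣ M) :
    Igusa.t3Series (Res A) ∈ RFld A M := by
  rw [← Igusa.coeffMap_t3Series (IsLocalRing.residue A)]
  refine coeffMap_residue_mem_rfld hA hqM _ ?_
  rw [Igusa.coeffMap_t3Series]
  exact Igusa.t3Series_mem_bar _ h3

theorem qExpand_mem_fullC (K : Type*) [Field K] {N N' d : ℕ} [NeZero d] (h : N * d ∣ N')
    {x : LaurentSeries K} (hx : x ∈ modularFunctionFieldFullC K N) :
    qExpand K d x ∈ modularFunctionFieldFullC K N' := by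
  induction hx using IntermediateField.adjoin_induction with
  | mem y hy =>
    obtain ⟨e, hne, he, rfl⟩ := hy
    haveI := hne
    haveI : NeZero (e * d) := ⟨mul_ne_zero hne.ne (NeZero.ne d)⟩
    rw [qExpand_qExpand]
    exact jqModCd_mem_full K N'
      ((show d * e ∣ N * d by rw [mul_comm N]; exact mul_dvd_mul dvd_rfl he).trans h)
  | algebraMap c =>
    rw [algebraMap_laurentSeries_eq_single, qExpand_single, mul_zero,
      ← algebraMap_laurentSeries_eq_single]
    exact IntermediateField.algebraMap_mem _ c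
  | add x y _ _ hx hy => rw [map_add]; exact add_mem hx hy
  | inv x _ hx => rw [map_inv₀]; exact inv_mem hx
  | mul x y _ _ hx hy => rw [map_mul]; exact mul_mem hx hy

theorem lead_hauptSeries (R : Type*) [CommRing R] (p e : ℕ) [NeZero p] :
    Igusa.Fibre.Lead (Igusa.hauptSeries R p e) (-1) 1 :=
  ⟨Igusa.coeff_hauptSeries_neg_one p e, fun _ hi => Igusa.coeff_hauptSeries_of_lt p e hi⟩

theorem mul_qExpand_ne_const (R : Type*) [CommRing R] [Nontrivial R] (p e : ℕ) [NeZero p]
    (c : R) :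
    Igusa.hauptSeries R p e * qExpand R p (Igusa.hauptSeries R p e) ≠
      HahnSeries.single (0 : ℤ) c := by
  intro h
  have h1 := ((lead_hauptSeries R p e).mul ((lead_hauptSeries R p e).qExpand p)).1
  rw [h, one_mul, HahnSeries.coeff_single_of_ne (by omega)] at h1
  exact one_ne_zero h1.symm

theorem transcendental_ne {K L : Type*} [Field K] [Field L] [Algebra K L] {x : L}
    (hx : Transcendental K x) (c : K) : x ≠ algebraMap K L c :=
  fun h => hx (h ▸ isAlgebraic_algebraMap c)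

theorem add_one_ne_zero_of_transcendental {K : Type*} [Field K] {x : LaurentSeries K}
    (hx : Transcendental K x) : x + 1 ≠ 0 := fun h => transcendental_ne hx (-1) (by
  rw [map_neg, map_one]
  exact eq_neg_of_add_eq_zero_left h)

/-- The coordinate `J` of level `4` modulo `3`. -/
theorem exists_level_four (h4 : 4 ∣ M) (hA : A.LiesOverPrime q) (hqM : ¬ q ∣ M)
    (h3 : (3 : ResSer A) = 0) :
    ∃ J : RFld A M, jqModC (Res A) * ((J : ResSer A) ^ 4 * ((J : ResSer A) + 1)) =
      ((J : ResSer A) - 1) ^ 6 := by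
  obtain ⟨m, rfl⟩ := h4
  haveI : NeZero (2 * m) := ⟨fun h => NeZero.ne (4 * m) (by omega)⟩
  set t := Igusa.t2Series (Res A) with ht
  set u := qExpand (Res A) 2 t with hu
  have hqM' : ¬ q ∣ 2 * m := fun h => hqM (h.trans ⟨2, by ring⟩)
  have htM : t ∈ RFld A (4 * m) := t2Series_mem_rfld hA hqM ⟨2 * m, by ring⟩
  have huM : u ∈ RFld A (4 * m) :=
    qExpand_mem_fullC (Res A) ⟨1, by ring⟩ (t2Series_mem_rfld hA hqM' ⟨m, rfl⟩)
  have c256 : (256 : ResSer A) = 1 := by linear_combination 85 * h3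
  have c16 : (16 : ResSer A) = 1 := by linear_combination 5 * h3
  have e1 : jqModC (Res A) * t ^ 2 = (t + 1) ^ 3 := by rw [← c256]; exact Igusa.jq_mul_t2Series _
  have e2 : jqNModC (Res A) 2 * t = (t + 1) ^ 3 := by rw [← c16]; exact Igusa.jqN_mul_t2Series _
  have e3 : jqNModC (Res A) 2 * u ^ 2 = (u + 1) ^ 3 := by
    have h := congrArg (qExpand (Res A) 2) e1
    simp only [map_mul, map_pow, map_add, map_one] at h
    exact h
  have hQ : u ^ 2 - t ^ 2 * u - t = 0 := by
    have h : (t * u - 1) * (u ^ 2 - t ^ 2 * u - t) = 0 := by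
      linear_combination u ^ 2 * e2 - t * e3 - (t * u - t ^ 2 * u ^ 2) * h3
    refine (mul_eq_zero.1 h).resolve_left (sub_ne_zero.2 ?_)
    exact mul_qExpand_ne_const (Res A) 2 24 1
  have ht1 : t + 1 ≠ 0 :=
    add_one_ne_zero_of_transcendental (Igusa.transcendental_t2Series (Res A))
  set J : ResSer A := (u - t) / (t + 1) with hJ
  refine ⟨⟨J, div_mem (sub_mem huM htM) (add_mem htM (one_mem _))⟩, ?_⟩
  show jqModC (Res A) * (J ^ 4 * (J + 1)) = (J - 1) ^ 6
  have hJt : t * (J + 1) = J ^ 2 := by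
    rw [hJ]
    field_simp
    linear_combination -hQ + t * u * h3
  calc jqModC (Res A) * (J ^ 4 * (J + 1))
      = jqModC (Res A) * t ^ 2 * (J + 1) ^ 3 := by rw [show J ^ 4 = (J ^ 2) ^ 2 by ring, ← hJt]; ring
    _ = (J ^ 2 + J + 1) ^ 3 := by rw [e1, ← hJt]; ring
    _ = (J - 1) ^ 6 := by linear_combination (3 * J - 3 * J ^ 2 + 9 * J ^ 3 - 3 * J ^ 4 + 3 * J ^ 5) * h3

/-- The coordinate `J` of level `9` modulo `2`. -/
theorem exists_level_nine (h9 : 9 ∣ M) (hA : A.LiesOverPrime q) (hqM : ¬ q ∣ M)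
    (h2 : (2 : ResSer A) = 0) :
    ∃ J : RFld A M, jqModC (Res A) * ((J : ResSer A) ^ 9 *
        ((J : ResSer A) ^ 2 + (J : ResSer A) + 1)) = ((J : ResSer A) + 1) ^ 12 := by
  obtain ⟨m, rfl⟩ := h9
  haveI : NeZero (3 * m) := ⟨fun h => NeZero.ne (9 * m) (by omega)⟩
  set t := Igusa.t3Series (Res A) with ht
  set u := qExpand (Res A) 3 t with hu
  have hqM' : ¬ q ∣ 3 * m := fun h => hqM (h.trans ⟨3, by ring⟩)
  have htM : t ∈ RFld A (9 * m) := t3Series_mem_rfld hA hqM ⟨3 * m, by ring⟩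
  have huM : u ∈ RFld A (9 * m) :=
    qExpand_mem_fullC (Res A) ⟨1, by ring⟩ (t3Series_mem_rfld hA hqM' ⟨m, rfl⟩)
  have c27 : (27 : ResSer A) = 1 := by linear_combination 13 * h2
  have c243 : (243 : ResSer A) = 1 := by linear_combination 121 * h2
  have c3 : (3 : ResSer A) = 1 := by linear_combination h2
  have e1 : jqModC (Res A) * t ^ 3 = (t + 1) ^ 4 := by
    rw [Igusa.jq_mul_t3Series, c27, c243]; ring
  have e2 : jqNModC (Res A) 3 * t = (t + 1) ^ 4 := by
    rw [Igusa.jqN_mul_t3Series, c27, c3]; ring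
  have e3 : jqNModC (Res A) 3 * u ^ 3 = (u + 1) ^ 4 := by
    have h := congrArg (qExpand (Res A) 3) e1
    simp only [map_mul, map_pow, map_add, map_one] at h
    exact h
  have hQ : u ^ 3 + t ^ 3 * u ^ 2 + t ^ 2 * u + t = 0 := by
    have h : (t * u + 1) * (u ^ 3 + t ^ 3 * u ^ 2 + t ^ 2 * u + t) = 0 := by
      linear_combination u ^ 3 * e2 - t * e3 -
        (-u ^ 3 + 2 * t * u + 3 * t * u ^ 2 - t ^ 2 * u - 3 * t ^ 2 * u ^ 3 - t ^ 3 * u ^ 2 -
          2 * t ^ 3 * u ^ 3 - t ^ 4 * u ^ 3) * h2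
    refine (mul_eq_zero.1 h).resolve_left fun h0 => mul_qExpand_ne_const (Res A) 3 12 (-1) ?_
    rw [← HahnSeries.C_apply, map_neg, map_one]
    exact eq_neg_of_add_eq_zero_left h0
  have hu1 : u + 1 ≠ 0 := fun h => by
    have h' := congrArg (fun x : ResSer A => x.coeff ((3 : ℕ) * (-1 : ℤ))) h
    simp only [HahnSeries.coeff_add, HahnSeries.coeff_one, HahnSeries.coeff_zero] at h'
    rw [hu, qExpand_coeff_mul, ht, Igusa.t3Series, Igusa.coeff_hauptSeries_neg_one] at h'
    simp at h'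
  set J : ResSer A := u * (1 + t) / (1 + u) with hJ
  refine ⟨⟨J, div_mem (mul_mem huM (add_mem (one_mem _) htM)) (add_mem (one_mem _) huM)⟩, ?_⟩
  show jqModC (Res A) * (J ^ 9 * (J ^ 2 + J + 1)) = (J + 1) ^ 12
  have hJt : t * (J ^ 2 + J + 1) = J ^ 3 := by
    have : (1 : ResSer A) + u ≠ 0 := by rwa [add_comm]
    rw [hJ]
    field_simp
    linear_combination -hQ - (-t - 2 * t * u - 3 * t * u ^ 2 - t ^ 2 * u - 2 * t ^ 2 * u ^ 2 -
      t ^ 3 * u ^ 2) * h2
  calc jqModC (Res A) * (J ^ 9 * (J ^ 2 + J + 1))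
      = jqModC (Res A) * t ^ 3 * (J ^ 2 + J + 1) ^ 4 := by
        rw [show J ^ 9 = (J ^ 3) ^ 3 by ring, ← hJt]; ring
    _ = (J ^ 3 + J ^ 2 + J + 1) ^ 4 := by rw [e1, ← hJt]; ring
    _ = (J + 1) ^ 12 := by
        linear_combination (-4 * J - 28 * J ^ 2 - 100 * J ^ 3 - 232 * J ^ 4 - 376 * J ^ 5 -
          440 * J ^ 6 - 376 * J ^ 7 - 232 * J ^ 8 - 100 * J ^ 9 - 28 * J ^ 10 - 4 * J ^ 11) * h2

end Haupt

section Regular

variable {A : ValuationSubring (AlgebraicClosure ℚ)} {M q : ℕ} [NeZero M] [Fact q.Prime]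

theorem charP_res_of_prime (hq : q.Prime) (hA : A.LiesOverPrime q) : CharP (Res A) q := by
  rw [CharP.charP_iff_prime_eq_zero hq]
  have h : ((q : A) : AlgebraicClosure ℚ) ∈ A.nonunits := by
    simpa [ValuationSubring.LiesOverPrime] using hA
  rw [← map_natCast (IsLocalRing.residue A) q]
  exact (IsLocalRing.residue_eq_zero_iff _).mpr (ValuationSubring.coe_mem_nonunits_iff.mp h)

theorem coe_ofNat_rfld (n : ℕ) [n.AtLeastTwo] :
    ((no_index (OfNat.ofNat n : RFld A M)) : ResSer A) = OfNat.ofNat n := map_ofNat (RFld A M).val n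

theorem jRes_ne_const (c : Res A) : jRes A M ≠ algebraMap (Res A) (RFld A M) c := fun h =>
  transcendental_ne (Curve.transcendental_jqModC' (Res A)) c (congrArg Subtype.val h)

theorem exists_delta_div_of_two (hA : A.LiesOverPrime q) (hqM : ¬ q ∣ M) (hq : q = 2) (h9 : 9 ∣ M) (P : Pt A M)
    (hP : 0 ≤ P.ord (jRes A M)) (π : RFld A M) (hπ : P.ord π = 1) :
    ∃ φ : RFld A M, (φ : ResSer A) * eulerOp (π : ResSer A) ^ 6 =
      Igusa.Fibre.deltaS (Res A) ∧ 0 ≤ P.ord φ := by
  subst hq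
  haveI := isAlgClosed_res A
  haveI := charP_res_of_prime (A := A) Fact.out hA
  set j := jRes A M with hj
  have hj0 : j ≠ 0 := by simpa using jRes_ne_const (A := A) (M := M) 0
  have hjS : (j : ResSer A) ≠ 0 := fun h => hj0 (Subtype.ext h)
  have key := ThetaId.eulerOp_jqModC_pow_six_aux (Res A)
  rw [show jqModC (Res A) = (j : ResSer A) from rfl] at key
  have hnum : ∀ n : ℕ, (n : Res A) = 0 → (n : ResSer A) = 0 := fun n h => by
    rw [← map_natCast (algebraMap (Res A) (ResSer A)), h, map_zero]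
  have h2 : (2 : ResSer A) = 0 := by exact_mod_cast hnum 2 (CharP.cast_eq_zero (Res A) 2)
  have h2' : (2 : RFld A M) = 0 := Subtype.ext h2
  obtain ⟨J, hJ⟩ := exists_level_nine h9 hA hqM h2
  replace hJ : (j : ResSer A) * ((J : ResSer A) ^ 9 *
      ((J : ResSer A) ^ 2 + (J : ResSer A) + 1)) = ((J : ResSer A) + 1) ^ 12 := hJ
  set Q : RFld A M := J ^ 2 + J + 1 with hQ
  have hJF : j * (J ^ 9 * Q) = (J + 1) ^ 12 := Subtype.ext (by rw [hQ]; push_cast [coe_ofNat_rfld]; exact hJ)
  have hJ0 : J ≠ 0 := fun h => by simp [h] at hJF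
  have hJ1 : J + 1 ≠ 0 := fun h => by
    rw [h, zero_pow (by norm_num)] at hJF
    rcases mul_eq_zero.1 hJF with h' | h'
    · exact hj0 h'
    rcases mul_eq_zero.1 h' with h'' | h''
    · exact hJ0 (pow_eq_zero_iff (by norm_num) |>.1 h'')
    · exact one_ne_zero (α := RFld A M) (by
        rw [hQ, eq_neg_of_add_eq_zero_left h] at h''; linear_combination h'')
  have hQ0 : Q ≠ 0 := fun h => hJ1 (pow_eq_zero_iff (n := 12) (by norm_num) |>.1
    (by rw [← hJF, h, mul_zero, mul_zero]))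
  have hord : P.ord j + (9 * P.ord J + P.ord Q) = 12 * P.ord (J + 1) := by
    have h := congrArg P.ord hJF
    rw [P.ord_mul hj0 (mul_ne_zero (pow_ne_zero _ hJ0) hQ0),
      P.ord_mul (pow_ne_zero _ hJ0) hQ0, Curve.ord_pow, Curve.ord_pow] at h
    exact_mod_cast h
  have hJz : P.ord J = 0 := by
    rcases lt_trichotomy (P.ord J) 0 with hm | hm | hm
    · have h1 : P.ord (J + 1) = P.ord J := ord_add_of_neg P hm (by rw [P.ord_one])
      have h2J : P.ord (J ^ 2) = 2 * P.ord J := by rw [Curve.ord_pow]; norm_num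
      have hQm : P.ord Q = 2 * P.ord J := by
        rw [hQ, add_assoc, Curve.ord_add_eq_left P (pow_ne_zero _ hJ0)
          (fun _ => by rw [h2J, h1]; omega), h2J]
      omega
    · exact hm
    · have h1 : P.ord (J + 1) = 0 := ord_add_of_pos P hm one_ne_zero P.ord_one
      have hQm : P.ord Q = 0 := by
        rw [hQ, show J ^ 2 + J + 1 = J * (J + 1) + 1 by ring]
        refine ord_add_of_pos P ?_ one_ne_zero P.ord_one
        rw [P.ord_mul hJ0 hJ1, h1]; omega
      omega
  have hQz : P.ord Q = 0 := by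
    rcases lt_trichotomy (P.ord (J + 1)) 0 with hm | hm | hm
    · have h := ord_add_of_neg P (c := -1) hm (by rw [Curve.ord_neg, P.ord_one])
      rw [add_neg_cancel_right] at h
      omega
    · have : 0 ≤ P.ord Q := by
        refine Curve.le_ord_add P 0 hQ0 (fun _ => ?_) fun _ => by rw [P.ord_one]
        refine Curve.le_ord_add P 0 ?_ (fun _ => ?_) fun _ => by rw [hJz]
        · rw [show J ^ 2 + J = J * (J + 1) by ring]; exact mul_ne_zero hJ0 hJ1
        · rw [Curve.ord_pow, hJz, mul_zero]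
      omega
    · rw [hQ, show J ^ 2 + J + 1 = (J + 1) ^ 2 + J by linear_combination -J * h2']
      exact (ord_add_of_pos P (by rw [Curve.ord_pow]; omega) hJ0 hJz)
  obtain ⟨d, hd, hdord⟩ := exists_eulerOp_coeff P hπ J
  refine ⟨J ^ 3 * d ^ 6 / Q ^ 5, ?_, ?_⟩
  · have hQS : (Q : ResSer A) ≠ 0 := fun h => hQ0 (Subtype.ext h)
    have hJS : (J : ResSer A) ≠ 0 := fun h => hJ0 (Subtype.ext h)
    set x : ResSer A := (J : ResSer A) with hx
    set Qs : ResSer A := x ^ 2 + x + 1 with hQs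
    have hQc : (Q : ResSer A) = Qs := by rw [hQ]; push_cast; rfl
    rw [hQc] at hQS
    have hθ := congrArg eulerOp hJ
    rw [eulerOp_pow_succ (x + 1) 11, eulerOp_mul, eulerOp_mul, eulerOp_pow_succ x 8,
      eulerOp_add, eulerOp_add, eulerOp_add, eulerOp_pow_succ x 1, eulerOp_one] at hθ
    push_cast at hθ
    have hθ' : eulerOp (j : ResSer A) * (x ^ 9 * Qs) =
        (j : ResSer A) * x ^ 8 * (x + 1) ^ 2 * eulerOp x := by
      rw [hQs]
      linear_combination hθ + (6 * (x + 1) ^ 11 * eulerOp x -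
        (j : ResSer A) * eulerOp x * (5 * x ^ 8 + 6 * x ^ 9 + 6 * x ^ 10)) * h2
    have hmain : Igusa.Fibre.deltaS (Res A) * Qs ^ 5 = x ^ 3 * eulerOp x ^ 6 := by
      apply mul_right_cancel₀ (mul_ne_zero (pow_ne_zero 7 hjS)
        (mul_ne_zero (pow_ne_zero 54 hJS) hQS))
      calc _ = Igusa.Fibre.deltaS (Res A) * ((j : ResSer A) ^ 4 * ((j : ResSer A) - 1728) ^ 3) *
            (x ^ 9 * Qs) ^ 6 := by
            rw [show (1728 : ResSer A) = 0 by linear_combination 864 * h2]; ring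
        _ = (eulerOp (j : ResSer A) * (x ^ 9 * Qs)) ^ 6 := by rw [← key]; ring
        _ = (j : ResSer A) ^ 6 * x ^ 48 * eulerOp x ^ 6 * (x + 1) ^ 12 := by rw [hθ']; ring
        _ = _ := by rw [← hJ]; ring
    push_cast
    rw [hQc, div_mul_eq_mul_div, div_eq_iff (pow_ne_zero 5 hQS), hmain, hd]
    ring
  · rcases eq_or_ne d 0 with rfl | hd0
    · simp
    rw [Curve.ord_div P (mul_ne_zero (pow_ne_zero _ hJ0) (pow_ne_zero _ hd0))
      (pow_ne_zero _ hQ0), P.ord_mul (pow_ne_zero _ hJ0) (pow_ne_zero _ hd0), Curve.ord_pow,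
      Curve.ord_pow, Curve.ord_pow, hJz, hQz]
    have := hdord (by rw [hJz])
    omega

theorem exists_delta_div_of_three (hA : A.LiesOverPrime q) (hqM : ¬ q ∣ M) (hq : q = 3) (h4 : 4 ∣ M) (P : Pt A M)
    (hP : 0 ≤ P.ord (jRes A M)) (π : RFld A M) (hπ : P.ord π = 1) :
    ∃ φ : RFld A M, (φ : ResSer A) * eulerOp (π : ResSer A) ^ 6 =
      Igusa.Fibre.deltaS (Res A) ∧ 0 ≤ P.ord φ := by
  subst hq
  haveI := isAlgClosed_res A
  haveI := charP_res_of_prime (A := A) Fact.out hA
  set j := jRes A M with hj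
  have hj0 : j ≠ 0 := by simpa using jRes_ne_const (A := A) (M := M) 0
  have hjS : (j : ResSer A) ≠ 0 := fun h => hj0 (Subtype.ext h)
  have key := ThetaId.eulerOp_jqModC_pow_six_aux (Res A)
  rw [show jqModC (Res A) = (j : ResSer A) from rfl] at key
  have hnum : ∀ n : ℕ, (n : Res A) = 0 → (n : ResSer A) = 0 := fun n h => by
    rw [← map_natCast (algebraMap (Res A) (ResSer A)), h, map_zero]
  have h3 : (3 : ResSer A) = 0 := by exact_mod_cast hnum 3 (CharP.cast_eq_zero (Res A) 3)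
  have h3' : (3 : RFld A M) = 0 := Subtype.ext h3
  obtain ⟨J, hJ⟩ := exists_level_four h4 hA hqM h3
  replace hJ : (j : ResSer A) * ((J : ResSer A) ^ 4 * ((J : ResSer A) + 1)) =
      ((J : ResSer A) - 1) ^ 6 := hJ
  have hJF : j * (J ^ 4 * (J + 1)) = (J - 1) ^ 6 := Subtype.ext (by push_cast [coe_ofNat_rfld]; exact hJ)
  have hJ0 : J ≠ 0 := fun h => by norm_num [h] at hJF
  have hJ1 : J + 1 ≠ 0 := fun h => by
    rw [h, mul_zero, mul_zero, eq_neg_of_add_eq_zero_left h] at hJF
    exact one_ne_zero (α := RFld A M) (by linear_combination -hJF - 21 * h3')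
  have hJm : J - 1 ≠ 0 := fun h => by
    rw [h, zero_pow (by norm_num)] at hJF
    exact mul_ne_zero hj0 (mul_ne_zero (pow_ne_zero _ hJ0) hJ1) hJF
  have hord : P.ord j + (4 * P.ord J + P.ord (J + 1)) = 6 * P.ord (J - 1) := by
    have h := congrArg P.ord hJF
    rw [P.ord_mul hj0 (mul_ne_zero (pow_ne_zero _ hJ0) hJ1), P.ord_mul (pow_ne_zero _ hJ0) hJ1,
      Curve.ord_pow, Curve.ord_pow] at h
    exact_mod_cast h
  have hJz : P.ord J = 0 := by
    rcases lt_trichotomy (P.ord J) 0 with hm | hm | hm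
    · have h1 : P.ord (J + 1) = P.ord J := ord_add_of_neg P hm (by rw [P.ord_one])
      have h2 : P.ord (J - 1) = P.ord J := by
        rw [sub_eq_add_neg]; exact ord_add_of_neg P hm (by rw [Curve.ord_neg, P.ord_one])
      omega
    · exact hm
    · have h1 : P.ord (J + 1) = 0 := ord_add_of_pos P hm one_ne_zero P.ord_one
      have h2 : P.ord (J - 1) = 0 := by
        rw [sub_eq_add_neg]
        exact ord_add_of_pos P hm (neg_ne_zero.2 one_ne_zero) (by rw [Curve.ord_neg, P.ord_one])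
      omega
  have hJ1z : P.ord (J + 1) = 0 := by
    rcases lt_trichotomy (P.ord (J + 1)) 0 with hm | hm | hm
    · have h := ord_add_of_neg P (c := -1) hm (by rw [Curve.ord_neg, P.ord_one])
      rw [add_neg_cancel_right] at h
      omega
    · exact hm
    · have h2 : P.ord (J - 1) = 0 := by
        rw [show J - 1 = (J + 1) + 1 by linear_combination -h3']
        exact ord_add_of_pos P hm one_ne_zero P.ord_one
      omega
  obtain ⟨d, hd, hdord⟩ := exists_eulerOp_coeff P hπ J
  refine ⟨d ^ 6 / (J ^ 2 * (J + 1) ^ 5), ?_, ?_⟩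
  · set x : ResSer A := (J : ResSer A) with hx
    have hJS : x ≠ 0 := fun h => hJ0 (Subtype.ext h)
    have hJ1S : x + 1 ≠ 0 := fun h => hJ1 (Subtype.ext (by push_cast [coe_ofNat_rfld]; exact h))
    have hθ := congrArg eulerOp hJ
    rw [eulerOp_pow_succ (x - 1) 5, eulerOp_sub, eulerOp_mul, eulerOp_mul,
      eulerOp_pow_succ x 3, eulerOp_add, eulerOp_one] at hθ
    push_cast at hθ
    have hθ' : eulerOp (j : ResSer A) * (x ^ 4 * (x + 1)) =
        (j : ResSer A) * x ^ 3 * (x - 1) * eulerOp x := by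
      linear_combination hθ + (2 * (x - 1) ^ 5 * eulerOp x -
        (j : ResSer A) * eulerOp x * (x ^ 3 + 2 * x ^ 4)) * h3
    have hmain : Igusa.Fibre.deltaS (Res A) * (x ^ 2 * (x + 1) ^ 5) = eulerOp x ^ 6 := by
      apply mul_right_cancel₀ (mul_ne_zero (pow_ne_zero 7 hjS)
        (mul_ne_zero (pow_ne_zero 22 hJS) hJ1S))
      calc _ = Igusa.Fibre.deltaS (Res A) * ((j : ResSer A) ^ 4 * ((j : ResSer A) - 1728) ^ 3) *
            (x ^ 4 * (x + 1)) ^ 6 := by
            rw [show (1728 : ResSer A) = 0 by linear_combination 576 * h3]; ring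
        _ = (eulerOp (j : ResSer A) * (x ^ 4 * (x + 1))) ^ 6 := by rw [← key]; ring
        _ = (j : ResSer A) ^ 6 * x ^ 18 * eulerOp x ^ 6 * (x - 1) ^ 6 := by rw [hθ']; ring
        _ = _ := by rw [← hJ]; ring
    push_cast
    rw [div_mul_eq_mul_div, div_eq_iff (mul_ne_zero (pow_ne_zero 2 hJS) (pow_ne_zero 5 hJ1S)),
      hmain, hd]
    ring
  · rcases eq_or_ne d 0 with rfl | hd0
    · simp
    rw [Curve.ord_div P (pow_ne_zero _ hd0) (mul_ne_zero (pow_ne_zero _ hJ0) (pow_ne_zero _ hJ1)),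
      P.ord_mul (pow_ne_zero _ hJ0) (pow_ne_zero _ hJ1), Curve.ord_pow, Curve.ord_pow,
      Curve.ord_pow, hJz, hJ1z]
    have := hdord (by rw [hJz])
    omega

theorem exists_delta_div_of_five_le (hA : A.LiesOverPrime q) (hqM : ¬ q ∣ M) (h5 : 5 ≤ q) (h6 : 6 ∣ M) (P : Pt A M)
    (hP : 0 ≤ P.ord (jRes A M)) (π : RFld A M) (hπ : P.ord π = 1) :
    ∃ φ : RFld A M, (φ : ResSer A) * eulerOp (π : ResSer A) ^ 6 =
      Igusa.Fibre.deltaS (Res A) ∧ 0 ≤ P.ord φ := by
  haveI := isAlgClosed_res A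
  haveI := charP_res_of_prime (A := A) Fact.out hA
  set j := jRes A M with hj
  have hj0 : j ≠ 0 := by simpa using jRes_ne_const (A := A) (M := M) 0
  have hjS : (j : ResSer A) ≠ 0 := fun h => hj0 (Subtype.ext h)
  have key := ThetaId.eulerOp_jqModC_pow_six_aux (Res A)
  rw [show jqModC (Res A) = (j : ResSer A) from rfl] at key
  have hnum : ∀ n : ℕ, (n : Res A) = 0 → (n : ResSer A) = 0 := fun n h => by
    rw [← map_natCast (algebraMap (Res A) (ResSer A)), h, map_zero]
  have hne : ∀ n : ℕ, ¬ q ∣ n → (n : RFld A M) ≠ 0 := fun n hn h => hn ((CharP.cast_eq_zero_iff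
    (Res A) q n).1 ((algebraMap (Res A) (RFld A M)).injective (by rw [map_natCast, h, map_zero])))
  have hsmooth : ∀ a b : ℕ, ¬ q ∣ 2 ^ a * 3 ^ b := fun a b h => by
    rcases (Nat.Prime.dvd_mul Fact.out).1 h with h' | h' <;>
      have := Nat.le_of_dvd (by norm_num) ((Fact.out : q.Prime).dvd_of_dvd_pow h') <;> omega
  set t : RFld A M := ⟨_, t2Series_mem_rfld hA hqM ((dvd_mul_right 2 3).trans h6)⟩ with ht
  set s : RFld A M := ⟨_, t3Series_mem_rfld hA hqM ((dvd_mul_left 3 2).trans h6)⟩ with hs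
  set a : RFld A M := t + 256 with ha
  set b : RFld A M := s ^ 2 - 486 * s - 19683 with hb
  have hat : j * t ^ 2 = a ^ 3 :=
    Subtype.ext (by rw [ha]; push_cast [coe_ofNat_rfld]; exact Igusa.jq_mul_t2Series _)
  have hbs : (j - 1728) * s ^ 3 = b ^ 2 :=
    Subtype.ext (by rw [hb]; push_cast [coe_ofNat_rfld]; exact Igusa.jq_sub_mul_t3Series _)
  have hjs : j * s ^ 3 = (s + 27) * (s + 243) ^ 3 :=
    Subtype.ext (by push_cast [coe_ofNat_rfld]; exact Igusa.jq_mul_t3Series _)
  have ht0 : t ≠ 0 := fun h => Igusa.t2Series_ne_zero (congrArg Subtype.val h)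
  have hs0 : s ≠ 0 := fun h => Igusa.t3Series_ne_zero (congrArg Subtype.val h)
  have n256 : (256 : RFld A M) ≠ 0 := by exact_mod_cast hne (2 ^ 8 * 3 ^ 0) (hsmooth 8 0)
  have n27 : (27 : RFld A M) ≠ 0 := by exact_mod_cast hne (2 ^ 0 * 3 ^ 3) (hsmooth 0 3)
  have n243 : (243 : RFld A M) ≠ 0 := by exact_mod_cast hne (2 ^ 0 * 3 ^ 5) (hsmooth 0 5)
  have n1728 : (1728 : RFld A M) ≠ 0 := by exact_mod_cast hne (2 ^ 6 * 3 ^ 3) (hsmooth 6 3)
  have ha0 : a ≠ 0 := fun h => mul_ne_zero hj0 (pow_ne_zero 2 ht0) (by rw [hat, h]; ring)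
  have hw0 : j - 1728 ≠ 0 := sub_ne_zero.2 fun h => jRes_ne_const (A := A) (M := M) 1728
    (by rw [map_ofNat]; exact h)
  have hb0 : b ≠ 0 := fun h => mul_ne_zero hw0 (pow_ne_zero 3 hs0) (by rw [hbs, h]; ring)
  have htz : P.ord t = 0 := by
    have h := congrArg P.ord hat
    rw [ord_mul_pow P hj0 ht0, Curve.ord_pow] at h
    push_cast at h
    rcases lt_trichotomy (P.ord t) 0 with hm | hm | hm
    · have h1 : P.ord a = P.ord t := ord_add_of_neg P hm (by rw [ord_ofNat_eq_zero])
      omega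
    · exact hm
    · have h1 : P.ord a = 0 := ord_add_of_pos P hm n256 (ord_ofNat_eq_zero P _)
      omega
  have hsz : P.ord s = 0 := by
    have hj27 : s + 27 ≠ 0 := fun h => mul_ne_zero hj0 (pow_ne_zero 3 hs0) (by
      rw [hjs, h]; ring)
    have hj243 : s + 243 ≠ 0 := fun h => mul_ne_zero hj0 (pow_ne_zero 3 hs0) (by
      rw [hjs, h]; ring)
    have h := congrArg P.ord hjs
    rw [ord_mul_pow P hj0 hs0, ord_mul_pow P hj27 hj243] at h
    push_cast at h
    rcases lt_trichotomy (P.ord s) 0 with hm | hm | hm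
    · have h1 : P.ord (s + 27) = P.ord s := ord_add_of_neg P hm (by rw [ord_ofNat_eq_zero])
      have h2 : P.ord (s + 243) = P.ord s := ord_add_of_neg P hm (by rw [ord_ofNat_eq_zero])
      omega
    · exact hm
    · have h1 : P.ord (s + 27) = 0 := ord_add_of_pos P hm n27 (ord_ofNat_eq_zero P _)
      have h2 : P.ord (s + 243) = 0 := ord_add_of_pos P hm n243 (ord_ofNat_eq_zero P _)
      omega
  have tmem : t ∈ P.toValuationSubring := Curve.mem_of_ord_nonneg P htz.ge
  have smem : s ∈ P.toValuationSubring := Curve.mem_of_ord_nonneg P hsz.ge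
  have timem : t⁻¹ ∈ P.toValuationSubring :=
    Curve.mem_of_ord_nonneg P (by rw [P.ord_inv, htz]; rfl)
  have simem : s⁻¹ ∈ P.toValuationSubring :=
    Curve.mem_of_ord_nonneg P (by rw [P.ord_inv, hsz]; rfl)
  set ts : ResSer A := (t : ResSer A)
  set ss : ResSer A := (s : ResSer A)
  set js : ResSer A := (j : ResSer A) with hjs'
  have hts : ts ≠ 0 := fun h => ht0 (Subtype.ext h)
  have hss : ss ≠ 0 := fun h => hs0 (Subtype.ext h)
  by_cases hcase : P.ord j = 0
  · obtain ⟨d, hd, hdord⟩ := exists_eulerOp_coeff P hπ s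
    have dmem : d ∈ P.toValuationSubring := Curve.mem_of_ord_nonneg P (hdord hsz.ge)
    set c : RFld A M := d * (2 * (2 * s - 486) - 3 * b * s⁻¹) with hc
    refine ⟨c ^ 6 / (s ^ 9 * j ^ 4), ?_, ?_⟩
    · set bs : ResSer A := ss ^ 2 - 486 * ss - 19683 with hbsdef
      have hE : (js - 1728) * ss ^ 3 = bs ^ 2 := Igusa.jq_sub_mul_t3Series (Res A)
      have hbs0 : bs ≠ 0 := fun h => hb0 (Subtype.ext (by rw [hb]; push_cast [coe_ofNat_rfld]; exact h))
      have hθb : eulerOp bs = (2 * ss - 486) * eulerOp ss := by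
        rw [hbsdef, eulerOp_sub, eulerOp_sub, eulerOp_pow_succ ss 1, eulerOp_mul, eulerOp_ofNat,
          eulerOp_ofNat]
        push_cast
        ring
      have hθE : eulerOp js * ss ^ 3 + (js - 1728) * (3 * ss ^ 2 * eulerOp ss) =
          2 * bs * ((2 * ss - 486) * eulerOp ss) := by
        have h := congrArg eulerOp hE
        rw [eulerOp_mul, eulerOp_pow_succ ss 2, eulerOp_pow_succ bs 1, hθb, eulerOp_sub,
          eulerOp_ofNat, sub_zero] at h
        push_cast at h
        linear_combination h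
      have hθc : eulerOp js * ss ^ 3 =
          bs * ((d : ResSer A) * (2 * (2 * ss - 486) - 3 * bs * ss⁻¹)) *
            eulerOp (π : ResSer A) := by
        apply mul_right_cancel₀ hss
        rw [show bs * ((d : ResSer A) * (2 * (2 * ss - 486) - 3 * bs * ss⁻¹)) *
          eulerOp (π : ResSer A) * ss =
            bs * (2 * (2 * ss - 486) * ss - 3 * bs * (ss⁻¹ * ss)) *
              ((d : ResSer A) * eulerOp (π : ResSer A)) by ring, inv_mul_cancel₀ hss, ← hd]
        linear_combination ss * hθE - 3 * eulerOp ss * hE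
      set cs : ResSer A := (d : ResSer A) * (2 * (2 * ss - 486) - 3 * bs * ss⁻¹)
      have hmain : Igusa.Fibre.deltaS (Res A) * (ss ^ 9 * js ^ 4) =
          cs ^ 6 * eulerOp (π : ResSer A) ^ 6 := by
        apply mul_right_cancel₀ (pow_ne_zero 6 hbs0)
        calc _ = Igusa.Fibre.deltaS (Res A) * (js ^ 4 * (js - 1728) ^ 3) * (ss ^ 3) ^ 6 := by
              rw [show bs ^ 6 = (bs ^ 2) ^ 3 by ring, ← hE]; ring
          _ = (eulerOp js * ss ^ 3) ^ 6 := by rw [← key]; ring
          _ = _ := by rw [hθc]; ring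
      rw [hc, hb]
      push_cast [coe_ofNat_rfld]
      rw [div_mul_eq_mul_div,
        div_eq_iff (mul_ne_zero (pow_ne_zero 9 hss) (pow_ne_zero 4 hjS)), hmain]
    · refine Curve.ord_nonneg_of_mem P ?_
      have jimem : j⁻¹ ∈ P.toValuationSubring :=
        Curve.mem_of_ord_nonneg P (by rw [P.ord_inv, hcase]; rfl)
      have bmem : b ∈ P.toValuationSubring := sub_mem (sub_mem (pow_mem smem 2)
        (mul_mem (ofNat_mem _ 486) smem)) (ofNat_mem _ 19683)
      rw [div_eq_mul_inv, mul_inv, ← inv_pow, ← inv_pow, hc]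
      exact mul_mem (pow_mem (mul_mem dmem (sub_mem (mul_mem (ofNat_mem _ 2)
        (sub_mem (mul_mem (ofNat_mem _ 2) smem) (ofNat_mem _ 486)))
        (mul_mem (mul_mem (ofNat_mem _ 3) bmem) simem))) 6)
        (mul_mem (pow_mem simem 9) (pow_mem jimem 4))
  · have hwz : P.ord (j - 1728) = 0 := by
      rw [sub_eq_add_neg]
      exact ord_add_of_pos P (lt_of_le_of_ne hP (Ne.symm hcase)) (neg_ne_zero.2 n1728)
        (by rw [Curve.ord_neg, ord_ofNat_eq_zero])
    obtain ⟨d, hd, hdord⟩ := exists_eulerOp_coeff P hπ t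
    have dmem : d ∈ P.toValuationSubring := Curve.mem_of_ord_nonneg P (hdord htz.ge)
    set c : RFld A M := d * (3 - 2 * a * t⁻¹) with hc
    refine ⟨c ^ 6 / (t ^ 4 * (j - 1728) ^ 3), ?_, ?_⟩
    · set as : ResSer A := ts + 256 with hasdef
      have hE : js * ts ^ 2 = as ^ 3 := Igusa.jq_mul_t2Series (Res A)
      have has0 : as ≠ 0 := fun h => ha0 (Subtype.ext (by rw [ha]; push_cast [coe_ofNat_rfld]; exact h))
      have hθE : eulerOp js * ts ^ 2 + js * (2 * ts * eulerOp ts) =
          3 * as ^ 2 * eulerOp ts := by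
        have h := congrArg eulerOp hE
        rw [eulerOp_mul, eulerOp_pow_succ ts 1, eulerOp_pow_succ as 2, hasdef, eulerOp_add,
          eulerOp_ofNat, add_zero] at h
        push_cast at h
        linear_combination h
      have hθc : eulerOp js * ts ^ 2 =
          as ^ 2 * ((d : ResSer A) * (3 - 2 * as * ts⁻¹)) * eulerOp (π : ResSer A) := by
        apply mul_right_cancel₀ hts
        rw [show as ^ 2 * ((d : ResSer A) * (3 - 2 * as * ts⁻¹)) * eulerOp (π : ResSer A) * ts =
            as ^ 2 * (3 * ts - 2 * as * (ts⁻¹ * ts)) *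
              ((d : ResSer A) * eulerOp (π : ResSer A)) by ring, inv_mul_cancel₀ hts, ← hd]
        linear_combination ts * hθE - 2 * eulerOp ts * hE
      set cs : ResSer A := (d : ResSer A) * (3 - 2 * as * ts⁻¹)
      have hmain : Igusa.Fibre.deltaS (Res A) * (ts ^ 4 * (js - 1728) ^ 3) =
          cs ^ 6 * eulerOp (π : ResSer A) ^ 6 := by
        apply mul_right_cancel₀ (pow_ne_zero 12 has0)
        calc _ = Igusa.Fibre.deltaS (Res A) * (js ^ 4 * (js - 1728) ^ 3) * (ts ^ 2) ^ 6 := by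
              rw [show as ^ 12 = (as ^ 3) ^ 4 by ring, ← hE]; ring
          _ = (eulerOp js * ts ^ 2) ^ 6 := by rw [← key]; ring
          _ = _ := by rw [hθc]; ring
      rw [hc, ha]
      push_cast [coe_ofNat_rfld]
      rw [div_mul_eq_mul_div, div_eq_iff (mul_ne_zero (pow_ne_zero 4 hts) (pow_ne_zero 3
        (fun h => hw0 (Subtype.ext (by push_cast [coe_ofNat_rfld]; exact h))))), hmain]
    · refine Curve.ord_nonneg_of_mem P ?_
      have wimem : (j - 1728)⁻¹ ∈ P.toValuationSubring :=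
        Curve.mem_of_ord_nonneg P (by rw [P.ord_inv, hwz]; rfl)
      rw [div_eq_mul_inv, mul_inv, ← inv_pow, ← inv_pow, hc]
      exact mul_mem (pow_mem (mul_mem dmem (sub_mem (ofNat_mem _ 3)
        (mul_mem (mul_mem (ofNat_mem _ 2) (add_mem tmem (ofNat_mem _ 256))) timem))) 6)
        (mul_mem (pow_mem timem 4) (pow_mem wimem 3))

/-- `Δ / (θ π) ^ 6` at a point over the finite `j`-line. -/
theorem exists_delta_div_regular_aux (hA : A.LiesOverPrime q) (hM : Admissible q M) (P : Pt A M)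
    (hP : 0 ≤ P.ord (jRes A M)) (π : RFld A M) (hπ : P.ord π = 1) :
    ∃ φ : RFld A M, (φ : ResSer A) * eulerOp (π : ResSer A) ^ 6 =
      Igusa.Fibre.deltaS (Res A) ∧ 0 ≤ P.ord φ := by
  obtain ⟨hqM, hq2, hq3, hq5⟩ := hM
  have hp : q.Prime := Fact.out
  by_cases h2 : q = 2
  · exact exists_delta_div_of_two hA hqM h2 (hq2 h2) P hP π hπ
  by_cases h3 : q = 3
  · exact exists_delta_div_of_three hA hqM h3 (hq3 h3) P hP π hπ
  have h5 : 5 ≤ q := by
    rcases eq_or_ne q 4 with h4 | h4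
    · exact absurd (h4 ▸ hp) (by decide)
    · have := hp.two_le; omega
  exact exists_delta_div_of_five_le hA hqM h5 (hq5 h5) P hP π hπ

end Regular

end Fermat.Agent.Carayol.Reg

end
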