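/-
Theorem of Carayol: the modular unit `Δ (q τ) / Δ (τ)` over a field of coefficients embedded in
`ℂ`, as a
quotient of polynomials in `j` and `j_q`, with its behaviour under exchanging `j` and `j_q`.
-/
import Fermat.Agent.Mazur.PointUnit

set_option autoImplicit false

noncomputable section

open UpperHalfPlane Filter ModularCurve Polynomial
open scoped Topology Manifold MatrixGroups

namespace Fermat.Agent.Carayol.Reg.ThetaUnit

open Fermat.Agent.ModFun Fermat.Agent.Igusa.Fibre Fermat.Agent.Mazur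

local notation "Δ" => ModularForm.discriminant

/-- Substitute `j_q` and `j` for the variables, in this order. -/
def evalSwap (K : Type*) [Field K] (q : ℕ) [NeZero q] :
    Polynomial (Polynomial K) →+* LaurentSeries K :=
  Polynomial.eval₂RingHom (Polynomial.aeval (R := K) (jqNModC K q)).toRingHom (jqModC K)

theorem coeffMap_evalSwap {K L : Type*} [Field K] [Field L] (f : K →+* L) (q : ℕ) [NeZero q]
    (G : Polynomial (Polynomial K)) :
    coeffMap f (evalSwap K q G) = evalSwap L q (G.map (Polynomial.mapRingHom f)) := by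
  have h : (coeffMap f).comp (evalSwap K q) =
      (evalSwap L q).comp (Polynomial.mapRingHom (Polynomial.mapRingHom f)) := by
    refine Polynomial.ringHom_ext' (Polynomial.ringHom_ext' (RingHom.ext fun c => ?_) ?_) ?_
    · simp [evalSwap, coeffMap_algebraMap_field]
    · simp [evalSwap, coeffMap_jqNModC_field]
    · simp [evalSwap, coeffMap_jqModC_field]
  exact congrArg (fun φ => φ G) h

/-- The point `-1 / (q τ)`. -/
def frickePt (q : ℕ) (τ : ℍ) : ℍ := ModularGroup.S • sc q τ

theorem sc_frickePt {q : ℕ} [NeZero q] (τ : ℍ) : sc q (frickePt q τ) = ModularGroup.S • τ := by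
  apply UpperHalfPlane.ext
  rw [coe_sc (NeZero.ne q), frickePt, coe_specialLinearGroup_apply, coe_specialLinearGroup_apply,
    coe_sc (NeZero.ne q)]
  have hq : (q : ℂ) ≠ 0 := by exact_mod_cast NeZero.ne q
  have hτ : (τ : ℂ) ≠ 0 := UpperHalfPlane.ne_zero τ
  simp [ModularGroup.coe_S]
  field_simp

theorem discriminant_S_smul (τ : ℍ) : Δ (ModularGroup.S • τ) = (τ : ℂ) ^ 12 * Δ τ := by
  rw [discriminant_smul]
  simp [ModularGroup.coe_S]

/-- `u (-1 / (q τ)) u (τ) = q ^ (-12)`. -/
theorem pow_mul_uV_frickePt (q : ℕ) [NeZero q] (τ : ℍ) :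
    (q : ℂ) ^ 12 * (uV q (q₀ : Gamma0.Coset q) (frickePt q τ) * uV q (q₀ : Gamma0.Coset q) τ) =
      1 := by
  rw [uV_q₀]
  simp only
  rw [sc_frickePt, frickePt, discriminant_S_smul, discriminant_S_smul, coe_sc (NeZero.ne q)]
  have hq : (q : ℂ) ≠ 0 := by exact_mod_cast NeZero.ne q
  have hτ : (τ : ℂ) ≠ 0 := UpperHalfPlane.ne_zero τ
  have h1 := ModularForm.discriminant_ne_zero τ
  have h2 := ModularForm.discriminant_ne_zero (sc q τ)
  field_simp

theorem jfun_frickePt (q : ℕ) (τ : ℍ) : jfun (frickePt q τ) = jNfun q τ := jfun_smul _ _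

theorem jNfun_frickePt (q : ℕ) [NeZero q] (τ : ℍ) : jNfun q (frickePt q τ) = jfun τ := by
  show jfun (sc q (frickePt q τ)) = _
  rw [sc_frickePt, jfun_smul]

/-- A relation `u P = G` between `u` and polynomials in `(j, j_q)` gives the exchanged relation. -/
theorem evalSwap_relation (q : ℕ) [NeZero q] {P G : Polynomial (Polynomial ℂ)}
    (h : unitS q ℂ * evalPair q P = evalPair q G) :
    evalSwap ℂ q P = (q : LaurentSeries ℂ) ^ 12 * unitS q ℂ * evalSwap ℂ q G := by
  set u := uV q (q₀ : Gamma0.Coset q) with hu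
  have hmu : MDiff u := mdifferentiable_uV _ _
  have hmj := mdifferentiable_jfun
  have hmq := mdifferentiable_jNfun q
  have key : ∀ τ : ℍ, u τ * P.eval₂ (evalRingHom (jfun τ)) (jNfun q τ) =
      G.eval₂ (evalRingHom (jfun τ)) (jNfun q τ) := by
    intro τ
    rw [← sub_eq_zero]
    refine eq_zero_of_hasQExp_zero (h := 1)
      (f := fun τ => u τ * P.eval₂ (evalRingHom (jfun τ)) (jNfun q τ) -
        G.eval₂ (evalRingHom (jfun τ)) (jNfun q τ))
      ((hmu.mul (mdifferentiable_eval₂ hmj hmq P)).sub (mdifferentiable_eval₂ hmj hmq G)) ?_ τ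
    exact (((hasQExp_unit q).mul (hasQExp_eval₂ hasQExp_jfun (hasQExp_jNfun q) P)).sub
      (hasQExp_eval₂ hasQExp_jfun (hasQExp_jNfun q) G)).of_eq (sub_eq_zero.2 h)
  have hfun : ∀ τ : ℍ, P.eval₂ (evalRingHom (jNfun q τ)) (jfun τ) =
      (q : ℂ) ^ 12 * (u τ * G.eval₂ (evalRingHom (jNfun q τ)) (jfun τ)) := by
    intro τ
    have h1 := key (frickePt q τ)
    rw [jfun_frickePt, jNfun_frickePt] at h1
    have e := pow_mul_uV_frickePt q τ
    rw [← hu] at e
    linear_combination ((q : ℂ) ^ 12 * u τ) * h1 -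
      P.eval₂ (evalRingHom (jNfun q τ)) (jfun τ) * e
  have hQ := (hasQExp_eval₂ (hasQExp_jNfun q) hasQExp_jfun P).unique
    (((HasQExp.const_mul ((q : ℂ) ^ 12)
      ((hasQExp_unit q).mul (hasQExp_eval₂ (hasQExp_jNfun q) hasQExp_jfun G)))).congr
      (Eventually.of_forall fun τ => (hfun τ).symm))
  rw [evalSwap, coe_eval₂RingHom, hQ, map_pow, map_natCast]
  ring

set_option maxHeartbeats 1000000 in
/-- The unit as a quotient of polynomials in `j`, `j_q`, the exchanged relation, integrality. -/
theorem unitS_data (q : ℕ) [NeZero q] (K : Type) [Field K] (ι : K →+* ℂ) :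
    ∃ D G : Polynomial (Polynomial K), evalPairK K q D ≠ 0 ∧
      unitS q K * evalPairK K q D = evalPairK K q G ∧
      evalSwap K q D = (q : LaurentSeries K) ^ 12 * unitS q K * evalSwap K q G ∧
      ∃ (n : ℕ) (b : ℕ → K[X]), unitS q K ^ n +
        ∑ i ∈ Finset.range n, aeval (jqModC K) (b i) * unitS q K ^ i = 0 := by
  letI : Algebra K ℂ := ι.toAlgebra
  obtain ⟨φ, hφ'⟩ := LinearMap.exists_leftInverse_of_injective (Algebra.linearMap K ℂ)
    (LinearMap.ker_eq_bot.2 (RingHom.injective _))
  have hφ : φ 1 = 1 := by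
    have := LinearMap.congr_fun hφ' 1
    simpa using this
  have hw : coeffMap (algebraMap K ℂ) (unitS q K) = unitS q ℂ := coeffMap_unitS q _
  have hinj : Function.Injective (coeffMap (algebraMap K ℂ)) := fun a b hab => by
    ext n
    have := congrArg (fun w : LaurentSeries ℂ => w.coeff n) hab
    exact (algebraMap K ℂ).injective (by simpa using this)
  obtain ⟨data⟩ := ModFun.nonempty_modularPolynomialData q
  set D := derivative (data.Φ.map (mapRingHom (Int.castRingHom K))) with hD
  have hDC : D.map (mapRingHom (algebraMap K ℂ)) =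
      derivative (data.Φ.map (mapRingHom (Int.castRingHom ℂ))) := by
    rw [hD, ← derivative_map, Polynomial.map_map, mapRingHom_comp,
      RingHom.ext_int ((algebraMap K ℂ).comp (Int.castRingHom K)) (Int.castRingHom ℂ)]
  have hDpair : coeffMap (algebraMap K ℂ) (evalPairK K q D) =
      evalPair q (derivative (data.Φ.map (mapRingHom (Int.castRingHom ℂ)))) := by
    rw [coeffMap_evalPairK, hDC]
    rfl
  obtain ⟨G₀, -, -, hG₀⟩ := exists_lagrange ⊤ data (isModularFun_unit q) (mdifferentiable_uV _ _)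
    (hasQExp_unit q) (Subring.mem_top _) (fun _ _ _ _ => Subring.mem_top _)
  obtain ⟨G, hG⟩ := exists_evalPairK_descend q hφ (z := unitS q K * evalPairK K q D)
    ⟨G₀, by rw [map_mul, hw, hDpair]; exact hG₀⟩
  refine ⟨D, G, fun h => evalPair_derivative_ne_zero data (by rw [← hDpair, h, map_zero]), hG,
    hinj ?_,
    exists_monic_relation_descend hφ (by rw [hw]; exact exists_monic_relation_unit q)⟩
  have h1 : unitS q ℂ * evalPair q (D.map (mapRingHom (algebraMap K ℂ))) =
      evalPair q (G.map (mapRingHom (algebraMap K ℂ))) := by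
    have := congrArg (coeffMap (algebraMap K ℂ)) hG
    rw [map_mul, hw, coeffMap_evalPairK, coeffMap_evalPairK] at this
    exact this
  rw [coeffMap_evalSwap, map_mul, map_mul, map_pow, map_natCast, hw, coeffMap_evalSwap]
  exact evalSwap_relation q h1

end Fermat.Agent.Carayol.Reg.ThetaUnit

end
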