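/-
Theorem of Carayol at `q ^ 2 ∥ M`: the modular unit `q ^ 12 Δ (q τ) / Δ (τ)` in the
middle level and its image under the involution.
-/
import Fermat.Agent.Carayol.MainTower
import Fermat.Agent.Carayol.MainThetaUnitSeries
import Mathlib.RingTheory.IntegralClosure.IsIntegralClosure.Basic

set_option autoImplicit false
set_option linter.style.haveILetI false

noncomputable section

namespace Fermat.Agent.Carayol.Reg

open ModularCurve IntermediateField
open Polynomial (aeval)

local notation "Ser" => LaurentSeries (AlgebraicClosure ℚ)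

variable {A : ValuationSubring (AlgebraicClosure ℚ)} {M q : ℕ} [NeZero M] [Fact q.Prime]

set_option maxHeartbeats 1600000 in
theorem exists_unit₁_aux (hqM : ¬ q ∣ M) :
    ∃ s : F₁ A M q,
      (s : Ser) * Igusa.Fibre.deltaS (AlgebraicClosure ℚ) =
          (q : Ser) ^ 12 * qExpand (AlgebraicClosure ℚ) q (Igusa.Fibre.deltaS (AlgebraicClosure ℚ)) ∧
        s * w₁ A M q s = (q : F₁ A M q) ^ 12 ∧
        IsIntegral (Algebra.adjoin (inertiaField A) {jElt A (M * q)}) s := by
  obtain ⟨σ⟩ : Nonempty (AlgebraicClosure ℚ →+* ℂ) :=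
    ⟨(IsAlgClosed.lift : AlgebraicClosure ℚ →ₐ[ℚ] ℂ).toRingHom⟩
  set val := algebraMap (inertiaField A) (AlgebraicClosure ℚ) with hval
  obtain ⟨D, G, hD0, hG, hsw, n, b, hb⟩ :=
    ThetaUnit.unitS_data q (inertiaField A) (σ.comp val)
  set T := jElt A (M * q) with hT
  set Tq := y₁ A M q (jElt A M) with hTq
  let ev : Polynomial (Polynomial (inertiaField A)) →+* F₁ A M q :=
    Polynomial.eval₂RingHom (aeval (R := inertiaField A) T).toRingHom Tq
  let ev' : Polynomial (Polynomial (inertiaField A)) →+* F₁ A M q :=
    Polynomial.eval₂RingHom (aeval (R := inertiaField A) Tq).toRingHom T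
  have hC : ∀ c : inertiaField A,
      coeffMap val (algebraMap (inertiaField A) (LaurentSeries (inertiaField A)) c) =
        algebraMap (inertiaField A) Ser c := fun c => by
    rw [ModFun.coeffMap_algebraMap_field,
      IsScalarTower.algebraMap_apply (inertiaField A) (AlgebraicClosure ℚ) Ser]
  have hj : coeffMap val (jqModC (inertiaField A)) = (T : Ser) := coeffMap_jqModC val
  have hjq : coeffMap val (jqNModC (inertiaField A) q) = (Tq : Ser) := coeffMap_jqNModC val q
  have hev : ∀ P, coeffMap val (ModFun.evalPairK (inertiaField A) q P) = (ev P : Ser) := fun P =>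
    congrArg (fun φ => φ P) (show (coeffMap val).comp (ModFun.evalPairK (inertiaField A) q) =
      (Fld A (M * q)).val.toRingHom.comp ev from
      Polynomial.ringHom_ext' (Polynomial.ringHom_ext' (RingHom.ext fun c => by
        simp [ModFun.evalPairK, ev, hC]) (by simp [ModFun.evalPairK, ev, hj]))
        (by simp [ModFun.evalPairK, ev, hjq]))
  have hev' : ∀ P, coeffMap val (ThetaUnit.evalSwap (inertiaField A) q P) = (ev' P : Ser) :=
    fun P => congrArg (fun φ => φ P)
      (show (coeffMap val).comp (ThetaUnit.evalSwap (inertiaField A) q) =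
      (Fld A (M * q)).val.toRingHom.comp ev' from
      Polynomial.ringHom_ext' (Polynomial.ringHom_ext' (RingHom.ext fun c => by
        simp [ThetaUnit.evalSwap, ev', hC]) (by simp [ThetaUnit.evalSwap, ev', hjq]))
        (by simp [ThetaUnit.evalSwap, ev', hj]))
  have hinjv : Function.Injective (coeffMap val) := fun a c hac => by
    refine HahnSeries.ext (funext fun k => ?_)
    have := congrArg (fun w : Ser => w.coeff k) hac
    exact val.injective (by simpa using this)
  have hwT : w₁ A M q T = Tq := by
    rw [hTq, ← w₁_x₁ hqM (jElt A M)]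
    congr 1
  have hwTq : w₁ A M q Tq = T := by
    rw [hTq, w₁_y₁ hqM]
    exact Subtype.ext rfl
  have hw : ∀ P, w₁ A M q (ev P) = ev' P := fun P =>
    congrArg (fun φ => φ P) (show (w₁ A M q).toRingEquiv.toRingHom.comp ev = ev' from
      Polynomial.ringHom_ext' (Polynomial.ringHom_ext' (RingHom.ext fun c => by
        simp [ev, ev']) (by simp [ev, ev', hwT]))
        (by simp [ev, ev', hwTq]))
  -- the unit
  have hne : ev D ≠ 0 := fun h => hD0 (hinjv (by rw [hev, h, map_zero]; rfl))
  set u : F₁ A M q := ev G / ev D with hu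
  have huS : coeffMap val (Mazur.unitS q (inertiaField A)) = (u : Ser) := by
    have h1 : (ev G : Ser) = coeffMap val (Mazur.unitS q (inertiaField A)) * (ev D : Ser) := by
      rw [← hev, ← hG, map_mul, hev]
    have hne' : (ev D : Ser) ≠ 0 := fun h => hne (Subtype.ext h)
    rw [hu, IntermediateField.coe_div, h1, mul_div_cancel_right₀ _ hne']
  have hrel : ev' D = (q : F₁ A M q) ^ 12 * u * ev' G := by
    refine Subtype.ext ?_
    rw [IntermediateField.coe_mul, IntermediateField.coe_mul, IntermediateField.coe_pow,
      ← huS, ← hev', ← hev', hsw, map_mul, map_mul, map_pow, map_natCast]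
    rfl
  refine ⟨(q : F₁ A M q) ^ 12 * u, ?_, ?_, ?_⟩
  · rw [IntermediateField.coe_mul, IntermediateField.coe_pow, ← huS, Mazur.coeffMap_unitS,
      Mazur.unitS, mul_assoc, mul_assoc, mul_comm (Igusa.Fibre.deltaInvS _),
      Igusa.Fibre.deltaS_mul_deltaInvS, mul_one]
    rfl
  · have hne₁ : ev' D ≠ 0 := by
      rw [← hw]
      exact (map_ne_zero _).2 hne
    have hwu : w₁ A M q u = ev' G / ev' D := by rw [hu, map_div₀, hw, hw]
    rw [map_mul, map_pow, map_natCast, hwu]
    have hgoal : (q : F₁ A M q) ^ 12 * u * (ev' G / ev' D) = 1 := by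
      rw [← mul_div_assoc, ← hrel, div_self hne₁]
    linear_combination (q : F₁ A M q) ^ 12 * hgoal
  · set R := Algebra.adjoin (inertiaField A) {T}
    have hmem : ∀ i, aeval T (b i) ∈ R := fun i =>
      Polynomial.aeval_mem_adjoin_singleton (inertiaField A) T
    have hu0 : u ^ n + ∑ i ∈ Finset.range n, aeval T (b i) * u ^ i = 0 := by
      refine Subtype.ext ?_
      have haev : ∀ i, (aeval T (b i) : Ser) = coeffMap val (aeval (jqModC _) (b i)) := fun i => by
        have := hev (Polynomial.C (b i))
        simpa [ModFun.evalPairK, ev] using this.symm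
      rw [IntermediateField.coe_add, IntermediateField.coe_pow, AddSubmonoidClass.coe_finsetSum]
      simp only [IntermediateField.coe_mul, IntermediateField.coe_pow, haev]
      rw [← huS, ← map_pow]
      simp only [← map_pow, ← map_mul, ← map_sum, ← map_add, hb, map_zero]
      rfl
    refine IsIntegral.mul ?_ ?_
    · exact ((isIntegral_algebraMap (A := F₁ A M q)
        (x := (q : Algebra.adjoin (inertiaField A) {T}))).pow 12)
    · refine ⟨Polynomial.X ^ n + ∑ i : Fin n,
        Polynomial.C (⟨aeval T (b i), hmem i⟩ : R) * Polynomial.X ^ (i : ℕ),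
        (Polynomial.monic_X_pow n).add_of_left ((Polynomial.degree_sum_fin_lt _).trans_eq
          (Polynomial.degree_X_pow n).symm), ?_⟩
      rw [Polynomial.eval₂_add, Polynomial.eval₂_X_pow, Polynomial.eval₂_finsetSum,
        ← Fin.sum_univ_eq_sum_range (fun i => aeval T (b i) * u ^ i) n] at *
      rw [← hu0]
      simp only [Polynomial.eval₂_mul, Polynomial.eval₂_C, Polynomial.eval₂_X_pow]
      rfl

end Fermat.Agent.Carayol.Reg

end
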