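/-
Theorem of Carayol at `q ^ 2 ∥ M`: the Euler derivation on the residual curve, the
form `Δ / (θ π) ^ 6` and the modular unit `q ^ 12 Δ (q τ) / Δ (τ)`.
-/
import Fermat.Agent.Carayol.MainChart
import Fermat.Agent.Genus.LaurentDerivation
import Fermat.Agent.Igusa.FibreExpansion
import Fermat.Agent.Carayol.MainThetaDiff
import Fermat.Agent.Carayol.MainThetaUnit
import Fermat.Agent.Carayol.MainThetaIdentity

set_option autoImplicit false
set_option linter.style.haveILetI false
set_option synthInstance.maxHeartbeats 400000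

noncomputable section

namespace Fermat.Agent.Carayol.Reg

open ModularCurve IntermediateField AlgebraicCurve Fermat.Agent.Genus

local notation "Ser" => LaurentSeries (AlgebraicClosure ℚ)

variable (A : ValuationSubring (AlgebraicClosure ℚ)) (M q : ℕ) [NeZero M] [Fact q.Prime]

/-- The discriminant series over the residue field. -/
def deltaRes : ResSer A := Igusa.Fibre.deltaS (Res A)

variable {A M q}

theorem eulerOp_jqModC_pow_six (R : Type*) [Field R] :
    eulerOp (jqModC R) ^ 6 =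
      Igusa.Fibre.deltaS R * (jqModC R ^ 4 * (jqModC R - 1728) ^ 3) :=
  ThetaId.eulerOp_jqModC_pow_six_aux R

theorem eulerOp_qExpand (R : Type*) [Field R] (d : ℕ) [NeZero d] (f : LaurentSeries R) :
    eulerOp (qExpand R d f) = (d : LaurentSeries R) * qExpand R d (eulerOp f) :=
  eulerOp_qExpand' d f

theorem eulerOp_jRes_ne_zero (hA : A.LiesOverPrime q) :
    eulerOp (jqModC (Res A)) ≠ 0 := fun h => by
  have h1 := congrArg (fun f : ResSer A => f.coeff (-1)) h
  simp only [eulerOp_coeff, (Igusa.Fibre.lead_jqModC (R := Res A)).1, HahnSeries.coeff_zero,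
    Int.cast_neg, Int.cast_one, mul_one] at h1
  exact neg_ne_zero.2 one_ne_zero h1

theorem eulerOp_div_mem_rfld (hA : A.LiesOverPrime q) (hqM : ¬ q ∣ M) (g π : RFld A M)
    (hπ : eulerOp (π : ResSer A) ≠ 0) :
    eulerOp (g : ResSer A) / eulerOp (π : ResSer A) ∈ RFld A M := by
  haveI := isAlgClosed_res A
  obtain ⟨a, ha⟩ := exists_smul_eq_of_finrank_eq_one IsCurveOver.finrank_kaehler
    (fun h : KaehlerDifferential.D (Res A) (RFld A M) π = 0 => hπ (by
      have h1 := eulerOp_eq_mul_of_D_eq (g := π) (a := 0) (π := π) (by rw [h, smul_zero])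
      simpa using h1))
    (KaehlerDifferential.D (Res A) (RFld A M) g)
  rw [eulerOp_eq_mul_of_D_eq ha.symm, mul_div_cancel_right₀ _ hπ]
  exact a.2

theorem eulerOp_uniformizer_ne_zero (hA : A.LiesOverPrime q) (hqM : ¬ q ∣ M) (P : Pt A M)
    (π : RFld A M) (hπ : P.ord π = 1) : eulerOp (π : ResSer A) ≠ 0 := by
  haveI := isAlgClosed_res A
  exact eulerOp_ne_zero_of_ord_eq_one P hπ (x := jRes A M) (eulerOp_jRes_ne_zero hA)

/-- The derivation `θ / θ π` preserves the local ring at `P`. -/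
theorem eulerOp_div_regular (hA : A.LiesOverPrime q) (hqM : ¬ q ∣ M) (P : Pt A M)
    (π : RFld A M) (hπ : P.ord π = 1) (g : RFld A M) (hg : g = 0 ∨ 0 ≤ P.ord g)
    (d : RFld A M) (hd : (d : ResSer A) = eulerOp (g : ResSer A) / eulerOp (π : ResSer A)) :
    d = 0 ∨ 0 ≤ P.ord d := by
  haveI := isAlgClosed_res A
  obtain ⟨a, ha, haord⟩ := exists_eulerOp_coeff P hπ g
  rcases hg with rfl | hg
  · have h0 : eulerOp (0 : ResSer A) = 0 := by ext n; simp [eulerOp_coeff]
    exact Or.inl (Subtype.ext (by rw [hd, IntermediateField.coe_zero, h0, zero_div]))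
  · obtain rfl : d = a := Subtype.ext (by
      rw [hd, ha, mul_div_cancel_right₀ _ (eulerOp_uniformizer_ne_zero hA hqM P π hπ)])
    exact Or.inr (haord hg)

/-- `Δ / (θ π) ^ 6` has no pole at a point over the finite `j`-line. -/
theorem exists_deltaRes_div_regular (hA : A.LiesOverPrime q) (hM : Admissible q M) (P : Pt A M)
    (hP : 0 ≤ P.ord (jRes A M)) (π : RFld A M) (hπ : P.ord π = 1) :
    ∃ φ : RFld A M, (φ : ResSer A) * eulerOp (π : ResSer A) ^ 6 = deltaRes A ∧
      (φ = 0 ∨ 0 ≤ P.ord φ) := by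
  obtain ⟨φ, hφ, hord⟩ := exists_delta_div_regular_aux hA hM P hP π hπ
  exact ⟨φ, hφ, Or.inr hord⟩

/-- The modular unit `q ^ 12 Δ (q τ) / Δ (τ)`. -/
theorem exists_unit₁ (hA : A.LiesOverPrime q) (hqM : ¬ q ∣ M) :
    ∃ s : F₁ A M q,
      (s : Ser) * Igusa.Fibre.deltaS (AlgebraicClosure ℚ) =
          (q : Ser) ^ 12 * qExpand (AlgebraicClosure ℚ) q (Igusa.Fibre.deltaS (AlgebraicClosure ℚ)) ∧
        s * w₁ A M q s = (q : F₁ A M q) ^ 12 ∧
        IsIntegral (Algebra.adjoin (inertiaField A) {jElt A (M * q)}) s :=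
  exists_unit₁_aux hqM

end Fermat.Agent.Carayol.Reg

end
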