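/-
Theorem of Carayol at `q ^ 2 ∥ M`: the chart of level `M q` near a point of the residual
curve: the function `h`, the modular unit, and the dichotomy between glued and unglued points.
-/
import Fermat.Agent.Carayol.MainLocalBase
import Fermat.Agent.Carayol.MainTheta

set_option autoImplicit false
set_option linter.style.haveILetI false
set_option linter.unusedSectionVars false

noncomputable section

namespace Fermat.Agent.Carayol.Reg

open ModularCurve IntermediateField Polynomial Fermat.Agent.Genus AlgebraicCurve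

local notation "Qbar" => AlgebraicClosure ℚ
local notation "Ser" => LaurentSeries (AlgebraicClosure ℚ)

theorem eulerOp_coeffMap {R S : Type*} [Field R] [Field S] (f : R →+* S) (x : LaurentSeries R) :
    eulerOp (coeffMap f x) = coeffMap f (eulerOp x) := by
  ext n
  simp [map_intCast]

theorem eulerOp_pow_char {k : Type*} [Field k] (q : ℕ) [Fact q.Prime] [CharP k q]
    (f : LaurentSeries k) :
    eulerOp f ^ q = qExpand k q (eulerOp (coeffMap (frobenius k q) f)) := by
  rw [ES.pow_char_eq q, eulerOp_coeffMap]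

variable {A : ValuationSubring (AlgebraicClosure ℚ)} {M q : ℕ} [NeZero M] [Fact q.Prime]
  [CharP (Res A) q] [IsAlgClosed (Res A)]

/-- The point is glued at level `M q` with its Frobenius. -/
def Glued (hA : A.LiesOverPrime q) (hqM : ¬ q ∣ M) (P : Pt A M) : Prop :=
  ∀ g : chart₁ A M q, VanAt P (redInf hA hqM g) ↔ VanAt P (frob (q := q) (redZero hA hqM g))

/-- A uniformiser at `P` and lifts of it and of its Frobenius twist. -/
structure Unif (hA : A.LiesOverPrime q) (hqM : ¬ q ∣ M) (P : Pt A M) where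
  /-- The uniformiser. -/
  π : RFld A M
  int : IsIntegral (Algebra.adjoin (Res A) {jRes A M}) π
  ord : P.ord π = 1
  /-- The lift. -/
  L : chart₀ A M
  red_L : red₀ hA hqM L = π
  /-- The lift of the twist. -/
  L' : chart₀ A M
  red_L' : red₀ hA hqM L' = BadReduction.resFrob (Res A) q M π

theorem transcendental_jRes : Transcendental (Res A) (jRes A M) :=
  BadReduction.transcendental_resJ (Res A) M

theorem nonempty_unif (hA : A.LiesOverPrime q) (hqM : ¬ q ∣ M) {P : Pt A M}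
    (hj : RegAt P (jRes A M)) : Nonempty (Unif hA hqM P) := by
  obtain ⟨π, hπ, hord⟩ := exists_integral_uniformizer transcendental_jRes hj
  obtain ⟨L, hL⟩ := exists_red₀_eq hA hqM hπ
  obtain ⟨L', hL'⟩ := exists_red₀_eq hA hqM (isIntegral_resFrob (q := q) hπ)
  exact ⟨⟨π, hπ, hord, L, hL, L', hL'⟩⟩

/-- Off the glued points a function vanishes on the zero component and not at `(∞, P)`. -/
theorem exists_redZero_eq_zero {hA : A.LiesOverPrime q} {hqM : ¬ q ∣ M} {P : Pt A M}
    (hj : RegAt P (jRes A M)) (hng : ¬ Glued hA hqM P) :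
    ∃ b : chart₁ A M q, redZero hA hqM b = 0 ∧ ¬ VanAt P (redInf hA hqM b) := by
  by_contra hcon
  push Not at hcon
  refine hng fun g => ?_
  obtain ⟨l, hl⟩ := exists_red₀_eq hA hqM (isIntegral_redZero hA hqM g)
  have h1 : VanAt P (redInf hA hqM g - frob (q := q) (redZero hA hqM g)) := by
    have h := hcon (g - ⟨_, y₁_mem l.2⟩) (by rw [map_sub, redZero_y₁, hl, sub_self])
    rwa [map_sub, redInf_y₁, hl] at h
  constructor
  · intro h
    have := h.sub h1
    rwa [sub_sub_cancel] at this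
  · intro h
    have := h1.add h
    rwa [sub_add_cancel] at this

theorem glued_vanAt_frob_frob {hA : A.LiesOverPrime q} {hqM : ¬ q ∣ M} {P : Pt A M}
    (hg : Glued hA hqM P) {c : RFld A M}
    (hc : IsIntegral (Algebra.adjoin (Res A) {jRes A M}) c) :
    VanAt P c ↔ VanAt P (frob (q := q) (frob (q := q) c)) := by
  obtain ⟨l, hl⟩ := exists_red₀_eq hA hqM hc
  have h := hg ⟨_, x₁_mem l.2⟩
  rwa [redInf_x₁, redZero_x₁, hl] at h

theorem isIntegral_resFrob_symm {g : RFld A M}
    (hg : IsIntegral (Algebra.adjoin (Res A) {jRes A M}) g) :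
    IsIntegral (Algebra.adjoin (Res A) {jRes A M}) ((BadReduction.resFrob (Res A) q M).symm g) := by
  refine isIntegral_of_forall_mem _ _ fun V hkV hjV => ?_
  let W : ValuationSubring (RFld A M) :=
    V.comap (BadReduction.resFrob (Res A) q M).symm.toRingHom
  have hk : ∀ a, algebraMap (Res A) (RFld A M) a ∈ W := fun a => by
    obtain ⟨r, rfl⟩ := IsAlgClosed.exists_pow_nat_eq a (Fact.out : q.Prime).pos
    show (BadReduction.resFrob (Res A) q M).symm (algebraMap (Res A) (RFld A M) (r ^ q)) ∈ V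
    rw [← show BadReduction.resFrob (Res A) q M (algebraMap (Res A) (RFld A M) r) =
      algebraMap (Res A) (RFld A M) (r ^ q) from Subtype.ext (by
        rw [BadReduction.coe_resFrob]; exact coeffMap_algebraMap _ r), RingEquiv.symm_apply_apply]
    exact hkV _
  have hj : jRes A M ∈ W := by
    show (BadReduction.resFrob (Res A) q M).symm (jRes A M) ∈ V
    rw [show (BadReduction.resFrob (Res A) q M).symm (jRes A M) = jRes A M from
      tau_jRes (q := q)]
    exact hjV
  have hle : ∀ y ∈ Algebra.adjoin (Res A) {jRes A M}, y ∈ W := by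
    intro y hy
    induction hy using Algebra.adjoin_induction with
    | mem y hy => rwa [Set.mem_singleton_iff.1 hy]
    | algebraMap a => exact hk a
    | add a b _ _ ha hb => exact add_mem ha hb
    | mul a b _ _ ha hb => exact mul_mem ha hb
  obtain ⟨p, hp, hp0⟩ := hg
  have hint : IsIntegral W g := ⟨p.map ((Algebra.adjoin (Res A) {jRes A M}).val.toRingHom.codRestrict
    _ fun y => hle y y.2), hp.map _, by rw [eval₂_map]; exact hp0⟩
  obtain ⟨y, hy⟩ := IsIntegrallyClosed.isIntegral_iff.1 hint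
  exact hy ▸ y.2

/-- At a glued point the square of the coefficient Frobenius fixes vanishing. -/
theorem glued_vanAt_resFrob_resFrob {hA : A.LiesOverPrime q} {hqM : ¬ q ∣ M} {P : Pt A M}
    (hg : Glued hA hqM P) {c : RFld A M}
    (hc : IsIntegral (Algebra.adjoin (Res A) {jRes A M}) c) :
    VanAt P (BadReduction.resFrob (Res A) q M (BadReduction.resFrob (Res A) q M c)) ↔
      VanAt P c := by
  set σ := BadReduction.resFrob (Res A) q M with hσ
  have hcomm : ∀ x : RFld A M, σ (frob (q := q) x) = frob (q := q) (σ x) := fun x => Subtype.ext (by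
    rw [hσ, BadReduction.coe_resFrob, coe_frob, coe_frob, BadReduction.coe_resFrob,
      coeffMap_qExpand])
  rw [glued_vanAt_frob_frob hg (isIntegral_resFrob (isIntegral_resFrob hc)), ← hcomm,
    BadReduction.resPhi_resFrob, BadReduction.resPhi_resFrob, ← pow_mul,
    vanAt_pow_iff (Nat.mul_pos (Fact.out : q.Prime).pos (Fact.out : q.Prime).pos)]

namespace Unif

variable {hA : A.LiesOverPrime q} {hqM : ¬ q ∣ M} {P : Pt A M} (u : Unif hA hqM P)

/-- `π' (q τ) - π (τ) ^ q`. -/
def z₁ : chart₁ A M q := ⟨_, y₁_mem u.L'.2⟩ - ⟨_, x₁_mem u.L.2⟩ ^ q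

theorem redInf_z₁ : redInf hA hqM u.z₁ = 0 := by
  rw [z₁, map_sub, map_pow, redInf_y₁, redInf_x₁, u.red_L, u.red_L',
    BadReduction.resPhi_resFrob, sub_self]

theorem redZero_z₁ :
    redZero hA hqM u.z₁ =
      BadReduction.resFrob (Res A) q M u.π - frob (q := q) u.π ^ q := by
  rw [z₁, map_sub, map_pow, redZero_y₁, redZero_x₁, u.red_L, u.red_L']

theorem gaussInt_z₁_div : (((u.z₁ : F₁ A M q) / (q : F₁ A M q) : F₁ A M q) : Ser) ∈ GaussInt A :=
  gaussInt_div_natCast hA _ (gaussInt_of_chart₁ hA hqM u.z₁.2)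
    (by rw [← coe_redInf hA hqM, u.redInf_z₁]; rfl)

/-- The residue of `z₁ / q` on the infinity component. -/
def hFun : RFld A M := ⟨_, red_mem_rfld₁ hA hqM _ u.gaussInt_z₁_div⟩

theorem eulerOp_hFun : eulerOp (u.hFun : ResSer A) =
    eulerOp (u.π : ResSer A) ^ q - (u.π : ResSer A) ^ (q - 1) * eulerOp (u.π : ResSer A) := by
  set z : Ser := (((u.z₁ : F₁ A M q) / (q : F₁ A M q) : F₁ A M q) : Ser) with hz
  set X : Ser := ((u.L : F₀ A M) : Ser) with hX
  set Y : Ser := ((u.L' : F₀ A M) : Ser) with hY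
  have hgX : X ∈ GaussInt A := gaussInt_of_chart₀ hA hqM u.L.2
  have hgY : Y ∈ GaussInt A := gaussInt_of_chart₀ hA hqM u.L'.2
  have hzq : z * (q : Ser) = qExpand Qbar q Y - X ^ q := by
    rw [hz, coe_div_natCast]
    show ((y₁ A M q (u.L' : F₀ A M) - x₁ A M q (u.L : F₀ A M) ^ q : F₁ A M q) : Ser) = _
    rw [AddSubgroupClass.coe_sub, SubmonoidClass.coe_pow, coe_scale, coe_incl]
  have hq0 : (q : Ser) ≠ 0 := by
    rw [← map_natCast (algebraMap Qbar Ser)]
    exact (_root_.map_ne_zero _).2 (Nat.cast_ne_zero.2 (Fact.out : q.Prime).ne_zero)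
  have hθ : eulerOp z = qExpand Qbar q (eulerOp Y) - X ^ (q - 1) * eulerOp X := by
    refine mul_right_cancel₀ hq0 ?_
    have h := congrArg eulerOp hzq
    have hq1 : q = q - 1 + 1 := (Nat.sub_add_cancel (Fact.out : q.Prime).one_le).symm
    rw [eulerOp_mul, eulerOp_natCast, mul_zero, add_zero, eulerOp_sub, eulerOp_qExpand] at h
    rw [h]
    conv_lhs => enter [2, 1, 2]; rw [hq1]
    rw [eulerOp_pow_succ, ← hq1]
    ring
  show eulerOp (red A z) = _
  obtain ⟨hm1, hr1⟩ := red_eulerOp hgY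
  obtain ⟨hm2, hr2⟩ := red_eulerOp hgX
  rw [← (red_eulerOp u.gaussInt_z₁_div).2, hθ, red_sub (red_qExpand q hm1).1
    (mul_mem (pow_mem hgX _) hm2), (red_qExpand q hm1).2, red_mul (pow_mem hgX _) hm2,
    red_pow hgX, hr1, hr2, ← coe_red₀ hA hqM u.L, ← coe_red₀ hA hqM u.L', u.red_L, u.red_L',
    BadReduction.coe_resFrob, eulerOp_pow_char q]

/-- The residue of the norm of `z₁` divided by `q` is `h U`. -/
def corr : RFld A M :=
  BadReduction.resFrob (Res A) q M (BadReduction.resFrob (Res A) q M u.π) - u.π ^ (q * q)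

theorem resFrob_redZero_z₁ :
    BadReduction.resFrob (Res A) q M (redZero hA hqM u.z₁) = u.corr := by
  rw [u.redZero_z₁, map_sub, map_pow, corr, pow_mul]
  congr 2
  rw [← BadReduction.resPhi_resFrob]
  refine Subtype.ext ?_
  rw [BadReduction.coe_resFrob, coe_frob, coe_frob, BadReduction.coe_resFrob, coeffMap_qExpand]

theorem exists_normQuot : ∃ C : chart₀ A M,
    norm₁₀ A M q (u.z₁ : F₁ A M q) = (q : F₀ A M) * (C : F₀ A M) ∧
      red₀ hA hqM C = u.hFun * u.corr := by
  set z : F₁ A M q := (u.z₁ : F₁ A M q) with hz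
  set C : F₀ A M := norm₁₀ A M q z / (q : F₀ A M) with hC
  have hmul : norm₁₀ A M q z = (q : F₀ A M) * C :=
    (mul_div_cancel₀ _ (natCast_q_ne_zero_fld M)).symm
  have hw : (w₁ A M q z : Ser) ∈ GaussInt A := gaussInt_of_chart₁ hA hqM (w₁_mem hqM u.z₁.2)
  have htw : ∀ i : Fin q, seriesTwist (zetaQ q ^ (i : ℕ)) (w₁ A M q z : Ser) ∈ GaussInt A ∧
      red A (seriesTwist (zetaQ q ^ (i : ℕ)) (w₁ A M q z : Ser)) =
        red A (w₁ A M q z : Ser) := fun i => by
    obtain ⟨h1, h2⟩ := red_seriesTwist hA (u := zetaQ q ^ (i : ℕ)) (k := 1)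
      (by rw [pow_one]; exact zetaQ_pow_pow (i : ℕ)) (w₁ A M q z : Ser)
    exact ⟨h1.2 hw, h2⟩
  have hser : qExpand Qbar q (C : Ser) =
      qExpand Qbar q (((z / (q : F₁ A M q) : F₁ A M q)) : Ser) *
        ∏ i : Fin q, seriesTwist (zetaQ q ^ (i : ℕ)) (w₁ A M q z : Ser) := by
    have hq0 : qExpand Qbar q ((q : Ser)) ≠ 0 := by
      rw [map_natCast, ← map_natCast (algebraMap Qbar Ser)]
      exact (_root_.map_ne_zero _).2 (Nat.cast_ne_zero.2 (Fact.out : q.Prime).ne_zero)
    refine mul_right_cancel₀ hq0 ?_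
    rw [mul_right_comm, ← map_mul, ← map_mul, hC, coe_div_natCast, coe_div_natCast,
      qExpand_norm₁₀ hqM]
  have hg1 : qExpand Qbar q (((z / (q : F₁ A M q) : F₁ A M q)) : Ser) ∈ GaussInt A :=
    (qExpand_mem_gaussInt_iff q _).2 u.gaussInt_z₁_div
  have hgC : (C : Ser) ∈ GaussInt A := by
    rw [← qExpand_mem_gaussInt_iff q, hser]
    exact mul_mem hg1 (prod_mem fun i _ => (htw i).1)
  have hmem : C ∈ chart₀ A M := mem_chart₀_of hA hqM false _
    (isIntegral_natCast_inv_mul (isIntegral_norm₁₀ hqM (isIntegral_of_mem_chart u.z₁.2))) hgC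
  refine ⟨⟨C, hmem⟩, hmul, (frob (q := q) (M := M)).toRingHom.injective (Subtype.ext ?_)⟩
  show (frob (q := q) (red₀ hA hqM ⟨C, hmem⟩) : ResSer A) =
    (frob (q := q) (u.hFun * u.corr) : RFld A M)
  rw [map_mul, ← u.resFrob_redZero_z₁, BadReduction.resPhi_resFrob, coe_frob, coe_red₀,
    ← (red_qExpand q hgC).2, hser, red_mul hg1 (prod_mem fun i _ => (htw i).1),
    (red_qExpand q u.gaussInt_z₁_div).2, red_prod _ fun i _ => (htw i).1,
    Finset.prod_congr rfl fun i _ => (htw i).2, Finset.prod_const, Finset.card_univ,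
    Fintype.card_fin, IntermediateField.coe_mul, SubmonoidClass.coe_pow, coe_frob,
    redZero_apply, coe_redInf]
  rfl

end Unif

/-- The modular unit on the chart. -/
theorem exists_unit_chart (hA : A.LiesOverPrime q) (hqM : ¬ q ∣ M) :
    ∃ v : chart₁ A M q, redZero hA hqM v = 0 ∧
      (redInf hA hqM v : ResSer A) * deltaRes A ^ (q - 1) = 1 ∧
      ∀ b : chart₁ A M q, redZero hA hqM b = 0 →
        ∃ Z : chart₁ A M q, Z * v = b ^ 12 := by
  obtain ⟨s, hs, hsw, hint⟩ := exists_unit₁ (q := q) hA hqM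
  set Δ : Ser := Igusa.Fibre.deltaS Qbar with hΔ
  have hΔA : Δ = coeffMap A.subtype (Igusa.Fibre.deltaS A) :=
    (Igusa.Fibre.coeffMap_deltaS A.subtype).symm
  have hΔres : red A Δ = deltaRes A := by
    rw [hΔA, (red_of_coeff _).2, deltaRes, Igusa.Fibre.coeffMap_deltaS]
  have hΔ0 : Δ ≠ 0 := left_ne_zero_of_mul_eq_one Igusa.Fibre.deltaS_mul_deltaInvS
  have hΔr0 : deltaRes A ≠ 0 := left_ne_zero_of_mul_eq_one Igusa.Fibre.deltaS_mul_deltaInvS
  have hΔg : Δ ∈ GaussInt A := hΔA ▸ (red_of_coeff _).1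
  have hq0 : (q : Ser) ≠ 0 := by
    rw [← map_natCast (algebraMap Qbar Ser)]
    exact (_root_.map_ne_zero _).2 (Nat.cast_ne_zero.2 (Fact.out : q.Prime).ne_zero)
  have hdiv : ∀ {x : Ser} {y : LaurentSeries A}, x * Δ = coeffMap A.subtype y →
      x ∈ GaussInt A := fun {x y} h => ⟨y, Igusa.Fibre.deltaS A,
    by rw [Igusa.Fibre.coeffMap_deltaS]; exact hΔr0, by rw [← hΔA]; exact h⟩
  have hqΔ : qExpand Qbar q Δ = coeffMap A.subtype (qExpand A q (Igusa.Fibre.deltaS A)) := by
    rw [coeffMap_qExpand, ← hΔA]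
  have hs' : (s : Ser) / (q : Ser) ^ 12 ∈ GaussInt A := hdiv (by
    rw [← hqΔ, div_mul_eq_mul_div, hs, mul_div_cancel_left₀ _ (pow_ne_zero _ hq0)])
  have hsg : (s : Ser) ∈ GaussInt A := by
    rw [← div_mul_cancel₀ (s : Ser) (pow_ne_zero 12 hq0)]
    exact mul_mem hs' (pow_mem (natCast_gaussInt q) _)
  have hv : (w₁ A M q s : Ser) * qExpand Qbar q Δ = Δ := by
    have h1 : ((s : F₁ A M q) : Ser) * (w₁ A M q s : Ser) = (q : Ser) ^ 12 := by
      rw [← map_natCast (Fld A (M * q)).val q]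
      exact congrArg (fun x : F₁ A M q => (x : Ser)) hsw
    refine mul_left_cancel₀ (pow_ne_zero 12 hq0) ?_
    rw [mul_left_comm, ← hs, ← mul_assoc, mul_comm (w₁ A M q s : Ser), h1]
  have hvg : (w₁ A M q s : Ser) ∈ GaussInt A :=
    ⟨Igusa.Fibre.deltaS A, qExpand A q (Igusa.Fibre.deltaS A), by
      rw [coeffMap_qExpand, Igusa.Fibre.coeffMap_deltaS]
      exact (_root_.map_ne_zero _).2 hΔr0, by rw [← hqΔ, ← hΔA]; exact hv⟩
  have hsmem : s ∈ chart₁ A M q := mem_chart₁_of hA hqM false s hint hsg hvg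
  set v : chart₁ A M q := ⟨w₁ A M q s, w₁_mem hqM hsmem⟩
  refine ⟨v, Subtype.ext ?_, ?_, fun b hb => ?_⟩
  · rw [redZero_apply, coe_redInf]
    show red A ((w₁ A M q (w₁ A M q s) : F₁ A M q) : Ser) = 0
    rw [w₁_w₁ hqM, ← div_mul_cancel₀ (s : Ser) (pow_ne_zero 12 hq0),
      red_mul hs' (pow_mem (natCast_gaussInt q) _), red_pow (natCast_gaussInt q), red_natCast,
      zero_pow (by norm_num), mul_zero]
  · have h := congrArg (red A) hv
    rw [red_mul hvg ((qExpand_mem_gaussInt_iff q _).2 hΔg), (red_qExpand q hΔg).2, hΔres,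
      show qExpand (Res A) q (deltaRes A) = deltaRes A ^ q by
        rw [ES.pow_char_eq q, deltaRes, Igusa.Fibre.coeffMap_deltaS]] at h
    rw [show deltaRes A ^ q = deltaRes A ^ (q - 1) * deltaRes A by
      rw [← pow_succ, Nat.sub_add_cancel (Fact.out : q.Prime).one_le], ← mul_assoc] at h
    rw [coe_redInf]
    exact mul_right_cancel₀ hΔr0 (h.trans (one_mul _).symm)
  · set Z : F₁ A M q := s * (b : F₁ A M q) ^ 12 / (q : F₁ A M q) ^ 12 with hZ
    have hbq : ((w₁ A M q (b : F₁ A M q) / (q : F₁ A M q) : F₁ A M q) : Ser) ∈ GaussInt A := by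
      refine gaussInt_div_natCast hA _ (gaussInt_of_chart₁ hA hqM (w₁_mem hqM b.2)) ?_
      rw [← coe_redInf hA hqM ⟨_, w₁_mem hqM b.2⟩, ← redZero_apply, hb]
      rfl
    have hwZ : w₁ A M q Z = w₁ A M q s * (w₁ A M q (b : F₁ A M q) / (q : F₁ A M q)) ^ 12 := by
      rw [hZ, map_div₀, map_mul, map_pow, map_pow, map_natCast, div_pow, mul_div_assoc]
    have hZmem : Z ∈ chart₁ A M q := by
      refine mem_chart₁_of hA hqM false Z ?_ ?_ ?_
      · rw [hZ, mul_div_assoc, ← div_pow]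
        exact hint.mul ((isIntegral_natCast_inv_mul (isIntegral_of_mem_chart b.2)).pow 12)
      · rw [hZ, mul_div_right_comm, IntermediateField.coe_mul, IntermediateField.coe_div,
          SubmonoidClass.coe_pow, SubmonoidClass.coe_pow]
        rw [show ((q : F₁ A M q) : Ser) = (q : Ser) from map_natCast (Fld A (M * q)).val q]
        exact mul_mem hs' (pow_mem (gaussInt_of_chart₁ hA hqM b.2) _)
      · rw [hwZ, IntermediateField.coe_mul, SubmonoidClass.coe_pow]
        exact mul_mem hvg (pow_mem hbq _)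
    refine ⟨⟨Z, hZmem⟩, Subtype.ext ?_⟩
    show Z * w₁ A M q s = (b : F₁ A M q) ^ 12
    rw [hZ, div_mul_eq_mul_div, mul_right_comm, hsw,
      mul_div_cancel_left₀ _ (pow_ne_zero _ (natCast_q_ne_zero_fld (M * q)))]

namespace Unif

variable {hA : A.LiesOverPrime q} {hqM : ¬ q ∣ M} {P : Pt A M} (u : Unif hA hqM P)

theorem eulerOp_π_ne_zero : eulerOp (u.π : ResSer A) ≠ 0 :=
  eulerOp_uniformizer_ne_zero hA hqM P u.π u.ord

theorem pi_ne_zero : u.π ≠ 0 := fun h => by
  have := u.ord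
  rw [h, P.ord_zero] at this
  exact zero_ne_one this

/-- `(θ π) ^ (q - 1)`. -/
theorem exists_rFun : ∃ R : RFld A M, (R : ResSer A) = eulerOp (u.π : ResSer A) ^ (q - 1) ∧
    (RegAt P u.hFun → RegAt P R) ∧ (RegAt P R → RegAt P (R - u.π ^ (q - 1))) := by
  have hθ := u.eulerOp_π_ne_zero
  set d : RFld A M := ⟨_, eulerOp_div_mem_rfld hA hqM u.hFun u.π hθ⟩ with hd
  have hπr : RegAt P (u.π ^ (q - 1)) := pow_mem (regAt_iff.2 (Or.inr (by rw [u.ord]; norm_num)) :
    u.π ∈ P.toValuationSubring) _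
  refine ⟨d + u.π ^ (q - 1), ?_, fun hh => ?_, fun hR => sub_mem hR hπr⟩
  · show eulerOp (u.hFun : ResSer A) / eulerOp (u.π : ResSer A) + (u.π : ResSer A) ^ (q - 1) = _
    rw [u.eulerOp_hFun, sub_div, mul_div_assoc, div_self hθ, mul_one, sub_add_cancel]
    rw [show eulerOp (u.π : ResSer A) ^ q =
        eulerOp (u.π : ResSer A) ^ (q - 1) * eulerOp (u.π : ResSer A) by
      rw [← pow_succ, Nat.sub_add_cancel (Fact.out : q.Prime).one_le],
      mul_div_assoc, div_self hθ, mul_one]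
  · exact add_mem (regAt_iff.2 (eulerOp_div_regular hA hqM P u.π u.ord u.hFun (regAt_iff.1 hh) d rfl))
      hπr

theorem unit_relation {R φ : RFld A M} {v : chart₁ A M q}
    (hR : (R : ResSer A) = eulerOp (u.π : ResSer A) ^ (q - 1))
    (hφ : (φ : ResSer A) * eulerOp (u.π : ResSer A) ^ 6 = deltaRes A)
    (hv : (redInf hA hqM v : ResSer A) * deltaRes A ^ (q - 1) = 1) :
    redInf hA hqM v * (φ ^ (q - 1) * R ^ 6) = 1 := by
  refine Subtype.ext ?_
  push_cast
  rw [hR, ← hv, ← hφ, mul_pow, ← pow_mul, ← pow_mul, mul_comm (q - 1) 6]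

/-- **Off the glued points** `h` is regular and `(θ π) ^ (q - 1)` is a unit. -/
theorem of_not_glued (hM : Admissible q M) (hj : RegAt P (jRes A M)) (hng : ¬ Glued hA hqM P) :
    RegAt P u.hFun ∧ ∃ R : RFld A M, (R : ResSer A) = eulerOp (u.π : ResSer A) ^ (q - 1) ∧
      RegAt P R ∧ ¬ VanAt P R := by
  obtain ⟨b, hb0, hb⟩ := exists_redZero_eq_zero hj hng
  have hreg : ∀ g : chart₁ A M q, RegAt P (redInf hA hqM g) := fun g =>
    regAt_of_isIntegral hj (isIntegral_redInf hA hqM g)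
  have hh : RegAt P u.hFun := by
    set Z : F₁ A M q := (u.z₁ : F₁ A M q) * (b : F₁ A M q) / (q : F₁ A M q) with hZ
    have hbq : ((w₁ A M q (b : F₁ A M q) / (q : F₁ A M q) : F₁ A M q) : Ser) ∈ GaussInt A := by
      refine gaussInt_div_natCast hA _ (gaussInt_of_chart₁ hA hqM (w₁_mem hqM b.2)) ?_
      rw [← coe_redInf hA hqM ⟨_, w₁_mem hqM b.2⟩, ← redZero_apply, hb0]
      rfl
    have hZmem : Z ∈ chart₁ A M q := by
      refine mem_chart₁_of hA hqM false Z (isIntegral_natCast_inv_mul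
        (isIntegral_of_mem_chart (mul_mem u.z₁.2 b.2))) ?_ ?_
      · rw [hZ, mul_div_right_comm, IntermediateField.coe_mul]
        exact mul_mem u.gaussInt_z₁_div (gaussInt_of_chart₁ hA hqM b.2)
      · rw [hZ, mul_div_assoc, map_mul, map_div₀, map_natCast, IntermediateField.coe_mul]
        exact mul_mem (gaussInt_of_chart₁ hA hqM (w₁_mem hqM u.z₁.2)) hbq
    have hZr : redInf hA hqM ⟨Z, hZmem⟩ = u.hFun * redInf hA hqM b := by
      refine Subtype.ext ?_
      rw [coe_redInf, IntermediateField.coe_mul, coe_redInf]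
      show red A (Z : Ser) = red A _ * red A _
      rw [← red_mul u.gaussInt_z₁_div (gaussInt_of_chart₁ hA hqM b.2), hZ, mul_div_right_comm,
        IntermediateField.coe_mul]
    have h := regAt_div (hreg ⟨Z, hZmem⟩) (hreg b) hb
    rwa [hZr, mul_div_assoc, div_self fun e => hb (Or.inl e), mul_one] at h
  refine ⟨hh, ?_⟩
  obtain ⟨R, hR, hRreg, -⟩ := u.exists_rFun
  obtain ⟨φ, hφ, hφreg⟩ := exists_deltaRes_div_regular hA hM P
    ((regAt_iff.1 hj).resolve_left fun h => transcendental_jRes (A := A) (M := M)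
      (h ▸ isAlgebraic_zero)) u.π u.ord
  obtain ⟨v, -, hv, hvb⟩ := exists_unit_chart hA hqM
  obtain ⟨Z, hZ⟩ := hvb b hb0
  refine ⟨R, hR, hRreg hh, fun hvan => ?_⟩
  have hrel := u.unit_relation hR hφ hv
  have hφr : RegAt P φ := regAt_iff.2 hφreg
  have h1 : ¬ VanAt P (redInf hA hqM v) := fun hv' => hb ((vanAt_pow_iff (n := 12) (by norm_num)).1
    (by rw [← map_pow, ← hZ, map_mul]; exact hv'.mul_left (hreg Z)))
  have h6 : VanAt P (redInf hA hqM v * (φ ^ (q - 1) * R ^ 6)) :=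
    VanAt.mul_left (hreg v) (VanAt.mul_left (pow_mem hφr _) ((vanAt_pow_iff (by norm_num)).2 hvan))
  rw [hrel] at h6
  exact not_vanAt_one h6

/-- **At a glued point** `h` has a pole, the norm quotient is a unit and the correction a
uniformiser. -/
theorem of_glued (hM : Admissible q M) (hj : RegAt P (jRes A M)) (hg : Glued hA hqM P) :
    P.ord u.corr = 1 ∧ ¬ RegAt P u.hFun ∧ ∃ C : chart₀ A M,
      norm₁₀ A M q (u.z₁ : F₁ A M q) = (q : F₀ A M) * (C : F₀ A M) ∧
        red₀ hA hqM C = u.hFun * u.corr ∧ ¬ VanAt P (red₀ hA hqM C) := by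
  set σ := BadReduction.resFrob (Res A) q M with hσ
  set π₂ := σ (σ u.π) with hπ₂
  have hq2 : 1 < q * q := Nat.one_lt_mul_iff.2 ⟨(Fact.out : q.Prime).pos,
    (Fact.out : q.Prime).pos, Or.inl (Fact.out : q.Prime).one_lt⟩
  have hπv : VanAt P u.π := Or.inr (by rw [u.ord]; norm_num)
  have hπ₂0 : π₂ ≠ 0 := fun h => u.pi_ne_zero (σ.injective (σ.injective (by
    rw [map_zero, map_zero]; exact h)))
  have hv₂ : VanAt P π₂ := (glued_vanAt_resFrob_resFrob hg u.int).2 hπv
  have hord : P.ord π₂ = 1 := by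
    by_contra hne
    have h2 : 2 ≤ P.ord π₂ := by
      have := hv₂.resolve_left hπ₂0
      omega
    have hdiv : VanAt P (π₂ / u.π) := Or.inr (by
      rw [Curve.ord_div P hπ₂0 u.pi_ne_zero, u.ord]; omega)
    obtain ⟨e, b, he, hb, hbv, heq⟩ := exists_fraction_of_vanAt transcendental_jRes hj u.ord hdiv
    have heq2 : π₂ * b = u.π ^ 2 * e := by
      rw [sq, mul_assoc, ← heq, div_mul_eq_mul_div, mul_div_cancel₀ _ u.pi_ne_zero]
    have h1 := congrArg (fun t => σ.symm (σ.symm t)) heq2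
    simp only [hπ₂, map_mul, map_pow, RingEquiv.symm_apply_apply] at h1
    set p' := σ.symm (σ.symm u.π)
    set b' := σ.symm (σ.symm b) with hb'
    set e' := σ.symm (σ.symm e)
    have hsymm : ∀ {c : RFld A M}, IsIntegral (Algebra.adjoin (Res A) {jRes A M}) c →
        IsIntegral (Algebra.adjoin (Res A) {jRes A M}) (σ.symm (σ.symm c)) := fun hc =>
      isIntegral_resFrob_symm (isIntegral_resFrob_symm hc)
    have hp' : VanAt P p' := (glued_vanAt_resFrob_resFrob hg (hsymm u.int)).1 (by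
      simp only [← hσ, RingEquiv.apply_symm_apply]; exact hπv)
    have hbv' : ¬ VanAt P b' := fun h => hbv (by
      have := (glued_vanAt_resFrob_resFrob hg (hsymm hb)).2 h
      simpa only [hb', ← hσ, RingEquiv.apply_symm_apply] using this)
    have hb0 : b' ≠ 0 := fun h => hbv' (Or.inl h)
    have hL : P.ord (u.π * b') = 1 := by
      rw [P.ord_mul u.pi_ne_zero hb0, u.ord,
        ord_eq_zero_of_not_vanAt (regAt_of_isIntegral hj (hsymm hb)) hbv', add_zero]
    have hR0 : p' ^ 2 * e' ≠ 0 := h1 ▸ mul_ne_zero u.pi_ne_zero hb0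
    rw [h1, P.ord_mul (left_ne_zero_of_mul hR0) (right_ne_zero_of_mul hR0), Curve.ord_pow] at hL
    have hp1 := hp'.resolve_left fun h => left_ne_zero_of_mul hR0 (by rw [h, zero_pow two_ne_zero])
    have he1 := (regAt_iff.1 (regAt_of_isIntegral hj (hsymm he))).resolve_left
      (right_ne_zero_of_mul hR0)
    push_cast at hL
    change 0 ≤ P.ord e' at he1
    omega
  have hlt : (1 : ℤ) < P.ord (-(u.π ^ (q * q))) := by
    rw [Curve.ord_neg, Curve.ord_pow, u.ord, mul_one]
    exact_mod_cast hq2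
  have hcorr : P.ord u.corr = 1 := by
    rw [corr, sub_eq_add_neg, Curve.ord_add_eq_left P hπ₂0 (fun _ => hord.symm ▸ hlt)]
    exact hord
  have hh : ¬ RegAt P u.hFun := fun hh => by
    obtain ⟨R, hR, hRreg, -⟩ := u.exists_rFun
    obtain ⟨φ, hφ, hφreg⟩ := exists_deltaRes_div_regular hA hM P
      ((regAt_iff.1 hj).resolve_left fun h => transcendental_jRes (A := A) (M := M)
        (h ▸ isAlgebraic_zero)) u.π u.ord
    obtain ⟨v, hv0, hv, -⟩ := exists_unit_chart hA hqM
    have hvv : VanAt P (redInf hA hqM v) := (hg v).2 (by rw [hv0, map_zero]; exact vanAt_zero)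
    have hrest : RegAt P (φ ^ (q - 1) * R ^ 6) :=
      mul_mem (pow_mem (regAt_iff.2 hφreg : φ ∈ P.toValuationSubring) _) (pow_mem (hRreg hh) _)
    have h6 := hvv.mul_right hrest
    rw [u.unit_relation hR hφ hv] at h6
    exact not_vanAt_one h6
  obtain ⟨C, hC, hCr⟩ := u.exists_normQuot
  refine ⟨hcorr, hh, C, hC, hCr, fun hvan => ?_⟩
  have hh0 : u.hFun ≠ 0 := fun h => hh (h ▸ zero_mem P.toValuationSubring)
  have hc0 : u.corr ≠ 0 := fun h => by rw [h, P.ord_zero] at hcorr; exact zero_ne_one hcorr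
  have hneg : P.ord u.hFun < 0 := not_le.1 fun h => hh (regAt_iff.2 (Or.inr h))
  rw [hCr] at hvan
  rcases hvan with h | h
  · exact mul_ne_zero hh0 hc0 h
  · rw [P.ord_mul hh0 hc0, hcorr] at h
    omega

end Unif

end Fermat.Agent.Carayol.Reg

end
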