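/-
Theorem of Carayol at `q ^ 2 ∥ M`: the characteristic polynomial over level `M` of an
element of the chart of level `M q`, and its reduction.
-/
import Fermat.Agent.Carayol.MainLocalMiddle

set_option autoImplicit false
set_option linter.style.haveILetI false
set_option linter.unusedSectionVars false

noncomputable section

namespace Fermat.Agent.Carayol.Reg

open ModularCurve IntermediateField Polynomial

local notation "Qbar" => AlgebraicClosure ℚ
local notation "Ser" => LaurentSeries (AlgebraicClosure ℚ)

set_option maxHeartbeats 1000000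
set_option synthInstance.maxHeartbeats 200000

variable {A : ValuationSubring (AlgebraicClosure ℚ)} {M q : ℕ} [NeZero M] [Fact q.Prime]
  [CharP (Res A) q] [IsAlgClosed (Res A)]

/-- The chart of level `M` inside that of level `M q` along the `τ`-side. -/
def chartX₁ : chart₀ A M →+* chart₁ A M q :=
  ((x₁ A M q).toRingHom.comp (chart₀ A M).subtype).codRestrict _ fun g => x₁_mem g.2

theorem coe_chartX₁ (g : chart₀ A M) :
    (chartX₁ (A := A) (M := M) (q := q) g : F₁ A M q) = x₁ A M q (g : F₀ A M) := rfl

/-- The characteristic polynomial over the `τ`-side, its constant term and its reduction. -/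
theorem exists_charpoly_red (hA : A.LiesOverPrime q) (hqM : ¬ q ∣ M) (f : chart₁ A M q) :
    ∃ P : (chart₀ A M)[X], P.Monic ∧ P.natDegree = q + 1 ∧ P.eval₂ chartX₁ f = 0 ∧
      P.map ((frob (q := q) (M := M)).toRingHom.comp (red₀ hA hqM)) =
        (X - C (frob (q := q) (redInf hA hqM f))) * (X - C (redZero hA hqM f)) ^ q ∧
      (P.coeff 0 : F₀ A M) = (-1) ^ (q + 1) * norm₁₀ A M q (f : F₁ A M q) := by
  classical
  obtain ⟨P, hP, hroot, hmap⟩ := exists_charpoly_x₁ hqM (f : F₁ A M q)
  set ι : F₀ A M →+* Ser := (qExpand Qbar q).comp (Fld A M).val.toRingHom with hι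
  set r : Option (Fin q) → Ser := fun i => i.elim (qExpand Qbar q ((f : F₁ A M q) : Ser))
    fun i => seriesTwist (zetaQ q ^ (i : ℕ)) (w₁ A M q (f : F₁ A M q) : Ser) with hr
  have hprod : P.map ι = ∏ i, (X - C (r i)) := by
    rw [Fintype.prod_option]
    exact hmap
  have hfS : ((f : F₁ A M q) : Ser) ∈ GaussInt A := gaussInt_of_chart₁ hA hqM f.2
  have hwS : (w₁ A M q (f : F₁ A M q) : Ser) ∈ GaussInt A :=
    gaussInt_of_chart₁ hA hqM (w₁_mem hqM f.2)
  have hgauss : ∀ i, r i ∈ GaussInt A := by
    rintro (_ | i)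
    · exact (qExpand_mem_gaussInt_iff q _).2 hfS
    · exact (red_seriesTwist hA (u := zetaQ q ^ (i : ℕ)) (k := 1)
        (by rw [pow_one]; exact zetaQ_pow_pow (i : ℕ)) _).1.2 hwS
  have hint : ∀ i, r i ∈ intBase A M q := by
    rintro (_ | i)
    · exact qExpand_coe_mem_intBase (isIntegral_of_mem_chart f.2)
    · exact seriesTwist_w₁_mem_intBase hqM (zetaQ_pow_pow (i : ℕ))
        (isIntegral_of_mem_chart f.2)
  let S : Subring Ser := GaussInt A ⊓ intBase A M q
  let r' : Option (Fin q) → S := fun i => ⟨r i, hgauss i, hint i⟩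
  let Q : S[X] := ∏ i, (X - C (r' i))
  have hQ : Q.map S.subtype = P.map ι := by
    rw [hprod, Polynomial.map_prod]
    exact Finset.prod_congr rfl fun i _ => by rw [Polynomial.map_sub, map_X, map_C]; rfl
  have hcoef : ∀ n, ι (P.coeff n) = (Q.coeff n : Ser) := fun n => by
    rw [← coeff_map, ← hQ, coeff_map]
    rfl
  have hmem : ∀ n, P.coeff n ∈ chart₀ A M := fun n =>
    mem_chart₀_of hA hqM false _
      (isIntegral_of_baseHom_mem (q := q) (by
        have h := (Q.coeff n).2.2
        rw [← hcoef] at h
        exact h))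
      ((qExpand_mem_gaussInt_iff q _).1 (by
        have h := (Q.coeff n).2.1
        rw [← hcoef] at h
        exact h))
  have hlift : P ∈ lifts (chart₀ A M).subtype :=
    (lifts_iff_coeff_lifts P).2 fun n => ⟨⟨_, hmem n⟩, rfl⟩
  obtain ⟨P', hP', hdeg, hP'm⟩ := lifts_and_degree_eq_and_monic hlift hP
  have hcoef' : ∀ n, ((P'.coeff n : chart₀ A M) : F₀ A M) = P.coeff n := fun n => by
    rw [← hP', coeff_map]
    rfl
  have hdegQ : P.natDegree = q + 1 := by
    rw [← natDegree_map_eq_of_injective ι.injective P, hprod,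
      natDegree_prod_of_monic _ _ fun i _ => monic_X_sub_C _,
      Finset.sum_congr rfl fun i _ => natDegree_X_sub_C _, Finset.sum_const, Finset.card_univ,
      Fintype.card_option, Fintype.card_fin, smul_eq_mul, mul_one]
  refine ⟨P', hP'm, by rw [natDegree_eq_of_degree_eq hdeg, hdegQ], ?_, ?_, ?_⟩
  · refine Subtype.ext ?_
    have h := hom_eval₂ P' chartX₁ (chart₁ A M q).subtype f
    rw [ZeroMemClass.coe_zero, ← hroot, ← hP', eval₂_map]
    exact h
  · let φ : S →+* ResSer A := (gaussRed A (IsLocalRing.residue A)).comp (Subring.inclusion inf_le_left)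
    have hφ : ∀ x : S, φ x = red A (x : Ser) := fun x => (red_of_mem x.2.1).symm
    refine Polynomial.map_injective (RFld A M).val.toRingHom Subtype.val_injective ?_
    rw [Polynomial.map_map, Polynomial.map_mul, Polynomial.map_pow, Polynomial.map_sub,
      Polynomial.map_sub, map_X, map_C, map_C]
    have h1 : P'.map ((RFld A M).val.toRingHom.comp
        ((frob (q := q) (M := M)).toRingHom.comp (red₀ hA hqM))) = Q.map φ := by
      refine Polynomial.ext fun n => ?_
      rw [coeff_map, coeff_map, hφ, ← hcoef, ← hcoef']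
      show (frob (q := q) (red₀ hA hqM (P'.coeff n)) : ResSer A) =
        red A (qExpand Qbar q ((P'.coeff n : F₀ A M) : Ser))
      rw [coe_frob, coe_red₀, (red_qExpand q (gaussInt_of_chart₀ hA hqM (P'.coeff n).2)).2]
    rw [h1, Polynomial.map_prod, Fintype.prod_option]
    have htw : ∀ i : Fin q, φ (r' (some i)) = (redZero hA hqM f : ResSer A) := fun i => by
      rw [hφ, redZero_apply, coe_redInf]
      exact (red_seriesTwist hA (u := zetaQ q ^ (i : ℕ)) (k := 1)
        (by rw [pow_one]; exact zetaQ_pow_pow (i : ℕ)) _).2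
    have hnone : φ (r' none) = (frob (q := q) (redInf hA hqM f) : ResSer A) := by
      rw [hφ, coe_frob, coe_redInf]
      exact (red_qExpand q hfS).2
    simp only [Polynomial.map_sub, map_X, map_C, htw, hnone, Finset.prod_const, Finset.card_univ,
      Fintype.card_fin]
    rfl
  · refine ι.injective ?_
    rw [hcoef' 0, map_mul, map_pow, map_neg, map_one, ← coeff_map, hprod, coeff_zero_eq_eval_zero,
      eval_prod]
    simp only [eval_sub, eval_X, eval_C, zero_sub]
    rw [Finset.prod_neg, Finset.card_univ, Fintype.card_option, Fintype.card_fin,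
      Fintype.prod_option]
    congr 1
    exact (qExpand_norm₁₀ hqM _).symm

end Fermat.Agent.Carayol.Reg

end
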