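/-
Theorem of Carayol at `q ^ 2 ∥ M`: branches through a closed point of the chart over the
finite `j`-line: they share their place, lift the local ring, and two of them glue the point.
-/
import Fermat.Agent.Carayol.MainLocalBasic
import Fermat.Agent.Carayol.MainLocalMiddle

set_option autoImplicit false
set_option linter.style.haveILetI false
set_option linter.unusedSectionVars false

noncomputable section

namespace Fermat.Agent.Carayol.Reg

open ModularCurve IntermediateField AlgebraicCurve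

variable {A : ValuationSubring (AlgebraicClosure ℚ)} {M q : ℕ} [NeZero M] [Fact q.Prime]
  [CharP (Res A) q] [IsAlgClosed (Res A)]

theorem chartRes_eq_sideResB (hA : A.LiesOverPrime q) (hqM : ¬ q ∣ M) (s : Side) :
    chartRes hA hqM false s = sideResB hA hqM s := rfl

/-! ### The involution on the components -/

theorem sideResB_w₂ (hA : A.LiesOverPrime q) (hqM : ¬ q ∣ M) (x : chart₂ A M q false) :
    sideResB hA hqM .s20 ⟨_, w₂_mem hqM x.2⟩ = sideResB hA hqM .s02 x ∧
      sideResB hA hqM .s02 ⟨_, w₂_mem hqM x.2⟩ = sideResB hA hqM .s20 x ∧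
        sideResB hA hqM .s11 ⟨_, w₂_mem hqM x.2⟩ = sideResB hA hqM .s11 x := by
  refine ⟨Subtype.ext ?_, Subtype.ext ?_,
    sideRes_w₂_s11 hA hqM ⟨x, chart_le_sideInt hA hqM false .s11 x.2⟩
      ⟨_, chart_le_sideInt hA hqM false .s11 (w₂_mem hqM x.2)⟩ rfl⟩
  · rw [coe_sideResB, coe_sideResB]
    rfl
  · rw [coe_sideResB, coe_sideResB]
    show red A ((w₂ A M q (w₂ A M q (x : F₂ A M q)) : F₂ A M q) : LaurentSeries (AlgebraicClosure ℚ))
      = _
    rw [w₂_w₂ hqM]
    rfl

variable {hA : A.LiesOverPrime q} {hqM : ¬ q ∣ M}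

/-! ### Reading a branch -/

section Branch

variable {c : Ideal (chart₂ A M q false)} {s : Side} {P : Pt A M}

theorem regAt_of_isBranch (h : IsBranch A M q false c s P) (x : chart₂ A M q false) :
    RegAt P (sideResB hA hqM s x) :=
  ((isBranch_iff hA hqM).mp h x).1

theorem mem_iff_vanAt_of_isBranch (h : IsBranch A M q false c s P) (x : chart₂ A M q false) :
    x ∈ c ↔ VanAt P (sideResB hA hqM s x) :=
  ((isBranch_iff hA hqM).mp h x).2.trans mem_nonunits_iff_ord

theorem regAt_jRes_of_isBranch (hA : A.LiesOverPrime q) (hqM : ¬ q ∣ M)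
    (h : IsBranch A M q false c s P) : RegAt P (jRes A M) := by
  have h1 : RegAt P (coordRes (q := q) false s : RFld A M) := by
    rw [← chartRes_jCoord hA hqM]
    exact regAt_of_isBranch (hA := hA) (hqM := hqM) h _
  cases s with
  | s20 => exact h1
  | s11 => exact h1
  | s02 =>
    rcases regAt_iff.1 h1 with h2 | h2
    · exact regAt_iff.2 (Or.inl ((pow_eq_zero_iff (Nat.mul_pos (Fact.out : q.Prime).pos
        (Fact.out : q.Prime).pos).ne').1 h2))
    · refine regAt_iff.2 (Or.inr ?_)
      change 0 ≤ P.ord (jRes A M ^ (q * q)) at h2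
      rw [Curve.ord_pow] at h2
      exact nonneg_of_mul_nonneg_right h2
        (by exact_mod_cast (Nat.mul_pos (Fact.out : q.Prime).pos (Fact.out : q.Prime).pos))

end Branch

/-! ### One place -/

/-- All branches through a point of the finite chart have the same place. -/
theorem place_eq_of_isBranch (hA : A.LiesOverPrime q) (hqM : ¬ q ∣ M)
    {c : Ideal (chart₂ A M q false)} {s s' : Side} {P P' : Pt A M}
    (h : IsBranch A M q false c s P) (h' : IsBranch A M q false c s' P') : P = P' := by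
  refine place_eq_of_vanAt_iff transcendental_jRes (regAt_jRes_of_isBranch hA hqM h)
    (regAt_jRes_of_isBranch hA hqM h') fun g hg => ?_
  obtain ⟨l, hl⟩ := exists_red₀_eq hA hqM (isIntegral_resFrob (q := q) hg)
  have e : ∀ t, sideResB hA hqM t ⟨_, y₂_mem l.2⟩ = g ^ q := fun t => by
    rw [sideResB_y₂, hl, BadReduction.resPhi_resFrob]
  have hq : 0 < q := (Fact.out : q.Prime).pos
  rw [← vanAt_pow_iff hq, ← vanAt_pow_iff (P := P') (g := g) hq, ← e s]
  conv_rhs => rw [show sideResB hA hqM s ⟨_, y₂_mem l.2⟩ = sideResB hA hqM s' ⟨_, y₂_mem l.2⟩ by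
    rw [e, e]]
  exact (mem_iff_vanAt_of_isBranch h _).symm.trans (mem_iff_vanAt_of_isBranch h' _)

/-! ### Lifts -/

/-- A regular function at `P` is a quotient of reductions from level `M`. -/
theorem exists_red₀_quot (hA : A.LiesOverPrime q) (hqM : ¬ q ∣ M) {P : Pt A M}
    (hj : RegAt P (jRes A M)) {g : RFld A M} (hg : RegAt P g) :
    ∃ e b : chart₀ A M, ¬ VanAt P (red₀ hA hqM b) ∧ red₀ hA hqM e = red₀ hA hqM b * g := by
  obtain ⟨e, b, he, hb, hbv, heq⟩ := exists_integral_fraction transcendental_jRes hj hg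
  obtain ⟨e', rfl⟩ := exists_red₀_eq hA hqM he
  obtain ⟨b', rfl⟩ := exists_red₀_eq hA hqM hb
  exact ⟨e', b', hbv, heq ▸ mul_comm _ _⟩

/-- On each branch of the finite chart the local ring maps onto that of the residual curve. -/
theorem exists_lift_of_isBranch (hA : A.LiesOverPrime q) (hqM : ¬ q ∣ M)
    {c : Ideal (chart₂ A M q false)} {s : Side} {P : Pt A M} (hs : IsBranch A M q false c s P)
    {g : RFld A M} (hg : RegAt P g) :
    ∃ x y : chart₂ A M q false, y ∉ c ∧
      sideResB hA hqM s x = sideResB hA hqM s y * g := by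
  obtain ⟨e, b, hb, heq⟩ := exists_red₀_quot hA hqM (regAt_jRes_of_isBranch hA hqM hs) hg
  cases s with
  | s20 =>
    refine ⟨⟨_, x₂_mem e.2⟩, ⟨_, x₂_mem b.2⟩, fun h => hb ?_, ?_⟩
    · rw [← (sideResB_x₂ hA hqM b).1]; exact (mem_iff_vanAt_of_isBranch hs _).1 h
    · rw [(sideResB_x₂ hA hqM e).1, (sideResB_x₂ hA hqM b).1, heq]
  | s11 =>
    refine ⟨⟨_, x₂_mem e.2⟩, ⟨_, x₂_mem b.2⟩, fun h => hb ?_, ?_⟩
    · rw [← (sideResB_x₂ hA hqM b).2.1]; exact (mem_iff_vanAt_of_isBranch hs _).1 h
    · rw [(sideResB_x₂ hA hqM e).2.1, (sideResB_x₂ hA hqM b).2.1, heq]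
  | s02 =>
    refine ⟨⟨_, z₂_mem e.2⟩, ⟨_, z₂_mem b.2⟩, fun h => hb ?_, ?_⟩
    · rw [← (sideResB_z₂ hA hqM b).2.2]; exact (mem_iff_vanAt_of_isBranch hs _).1 h
    · rw [(sideResB_z₂ hA hqM e).2.2, (sideResB_z₂ hA hqM b).2.2, heq]

/-! ### Two branches glue -/

/-- Two branches through a point of the finite chart glue their place. -/
theorem glued_of_two {hA : A.LiesOverPrime q} {hqM : ¬ q ∣ M} {c : Ideal (chart₂ A M q false)}
    {s s' : Side} {P : Pt A M} (h : IsBranch A M q false c s P)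
    (h' : IsBranch A M q false c s' P) (hne : s ≠ s') : Glued hA hqM P := by
  have hpair : ∀ {t t' : Side}, IsBranch A M q false c t P → IsBranch A M q false c t' P →
      ∀ x : chart₂ A M q false,
        VanAt P (sideResB hA hqM t x) ↔ VanAt P (sideResB hA hqM t' x) := fun ht ht' x =>
    (mem_iff_vanAt_of_isBranch ht x).symm.trans (mem_iff_vanAt_of_isBranch ht' x)
  have h20_02 : IsBranch A M q false c .s20 P → IsBranch A M q false c .s02 P →
      Glued hA hqM P := fun ha hb g => by
    have := hpair ha hb ⟨_, p₀₁_mem g.2⟩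
    rwa [(sideResB_p₀₁ hA hqM g).1, (sideResB_p₀₁ hA hqM g).2.2] at this
  have h11_02 : IsBranch A M q false c .s11 P → IsBranch A M q false c .s02 P →
      Glued hA hqM P := fun ha hb g => by
    have := hpair ha hb ⟨_, p₀₁_mem g.2⟩
    rwa [(sideResB_p₀₁ hA hqM g).2.1, (sideResB_p₀₁ hA hqM g).2.2] at this
  have h20_11 : IsBranch A M q false c .s20 P → IsBranch A M q false c .s11 P →
      Glued hA hqM P := fun ha hb g => by
    have := hpair ha hb ⟨_, w₂_mem hqM (p₀₁_mem g.2)⟩
    rwa [(sideResB_w₂ hA hqM ⟨_, p₀₁_mem g.2⟩).1, (sideResB_w₂ hA hqM ⟨_, p₀₁_mem g.2⟩).2.2,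
      (sideResB_p₀₁ hA hqM g).2.1, (sideResB_p₀₁ hA hqM g).2.2, Iff.comm] at this
  cases s <;> cases s' <;>
    first
      | exact absurd rfl hne
      | exact h20_02 h h'
      | exact h20_02 h' h
      | exact h11_02 h h'
      | exact h11_02 h' h
      | exact h20_11 h h'
      | exact h20_11 h' h

/-- Off the glued points a single branch passes. -/
theorem branch_unique_of_not_glued (hA : A.LiesOverPrime q) (hqM : ¬ q ∣ M)
    {c : Ideal (chart₂ A M q false)} {s : Side} {P : Pt A M} (h : IsBranch A M q false c s P)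
    (hng : ¬ Glued hA hqM P) (s' : Side) (P' : Pt A M) :
    IsBranch A M q false c s' P' ↔ s' = s ∧ P' = P := by
  refine ⟨fun h' => ?_, ?_⟩
  · obtain rfl := place_eq_of_isBranch hA hqM h' h
    exact ⟨by_contra fun hne => hng (glued_of_two h' h hne), rfl⟩
  · rintro ⟨rfl, rfl⟩
    exact h

end Fermat.Agent.Carayol.Reg

end
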