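/-
Theorem of Carayol at `q ^ 2 ∥ M`: the subring of the finite chart generated by the
three sides, its reductions at a glued point, and its fractions.
-/
import Fermat.Agent.Carayol.MainLocalBranch

set_option autoImplicit false
set_option linter.style.haveILetI false
set_option linter.unusedSectionVars false

noncomputable section

namespace Fermat.Agent.Carayol.Reg

open ModularCurve IntermediateField AlgebraicCurve

set_option maxHeartbeats 1000000
set_option synthInstance.maxHeartbeats 200000

variable (A : ValuationSubring (AlgebraicClosure ℚ)) (M q : ℕ) [NeZero M] [Fact q.Prime]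

/-- The subring of the top level generated by the three sides of the chart of level `M`. -/
def sidesGen : Subring (F₂ A M q) :=
  Subring.closure (x₂ A M q '' (chart₀ A M : Set (F₀ A M)) ∪ y₂ A M q '' (chart₀ A M : Set (F₀ A M)) ∪
    z₂ A M q '' (chart₀ A M : Set (F₀ A M)))

theorem x₂_mem_sidesGen {g : F₀ A M} (hg : g ∈ chart₀ A M) : x₂ A M q g ∈ sidesGen A M q :=
  Subring.subset_closure (Or.inl (Or.inl ⟨g, hg, rfl⟩))

theorem y₂_mem_sidesGen {g : F₀ A M} (hg : g ∈ chart₀ A M) : y₂ A M q g ∈ sidesGen A M q :=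
  Subring.subset_closure (Or.inl (Or.inr ⟨g, hg, rfl⟩))

theorem z₂_mem_sidesGen {g : F₀ A M} (hg : g ∈ chart₀ A M) : z₂ A M q g ∈ sidesGen A M q :=
  Subring.subset_closure (Or.inr ⟨g, hg, rfl⟩)

theorem sidesGen_le : sidesGen A M q ≤ chart₂ A M q false := by
  rw [sidesGen, Subring.closure_le]
  rintro _ ((⟨g, hg, rfl⟩ | ⟨g, hg, rfl⟩) | ⟨g, hg, rfl⟩)
  · exact x₂_mem hg
  · exact y₂_mem hg
  · exact z₂_mem hg

/-- The `τ`-side into the generated subring. -/
def genX : chart₀ A M →+* sidesGen A M q :=
  ((x₂ A M q).toRingHom.comp (chart₀ A M).subtype).codRestrict _ fun g => x₂_mem_sidesGen A M q g.2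

/-- The `q τ`-side into the generated subring. -/
def genY : chart₀ A M →+* sidesGen A M q :=
  ((y₂ A M q).toRingHom.comp (chart₀ A M).subtype).codRestrict _ fun g => y₂_mem_sidesGen A M q g.2

/-- The `q² τ`-side into the generated subring. -/
def genZ : chart₀ A M →+* sidesGen A M q :=
  ((z₂ A M q).toRingHom.comp (chart₀ A M).subtype).codRestrict _ fun g => z₂_mem_sidesGen A M q g.2

/-- The constants of `chart₀`. -/
def constHom : (inertiaInt A).toSubring →+* chart₀ A M :=
  ((algebraMap (inertiaField A) (F₀ A M)).comp (inertiaInt A).toSubring.subtype).codRestrict _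
    fun a => constInt_le_chart _ ⟨a, a.2, rfl⟩

variable {A M q}

theorem gen_constHom (a : (inertiaInt A).toSubring) :
    genY A M q (constHom A M a) = genX A M q (constHom A M a) ∧
      genZ A M q (constHom A M a) = genX A M q (constHom A M a) :=
  ⟨Subtype.ext (((y₂ A M q).commutes _).trans ((x₂ A M q).commutes _).symm),
    Subtype.ext (((z₂ A M q).commutes _).trans ((x₂ A M q).commutes _).symm)⟩

theorem chartBase_le_sidesGen :
    chartBase A (jCoord A (M * q * q) false) ≤ sidesGen A M q := by
  refine sup_le ?_ (Subring.closure_le.2 ?_)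
  · rintro _ ⟨a, ha, rfl⟩
    rw [← (x₂ A M q).commutes]
    exact x₂_mem_sidesGen A M q (constInt_le_chart _ ⟨a, ha, rfl⟩)
  · rintro _ rfl
    show jElt A (M * q * q) ∈ sidesGen A M q
    rw [← x₂_jElt]
    exact x₂_mem_sidesGen A M q (self_mem_chart _)

theorem isNoetherianRing_sidesGen (hA : A.LiesOverPrime q) :
    IsNoetherianRing (sidesGen A M q) := by
  haveI := isPrincipalIdealRing_inertiaInt hA
  set T := jCoord A (M * q * q) false
  haveI := finiteDimensional_jCoord (A := A) (M * q * q) false
  haveI : IsNoetherianRing (inertiaInt A).toSubring :=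
    (inferInstance : IsNoetherianRing (inertiaInt A))
  set B := polyRing (inertiaInt A).toSubring T
  haveI : IsNoetherianRing B := isNoetherianRing_polyRing (inertiaInt A).toSubring T
  letI : Algebra B (F₂ A M q) := B.subtype.toAlgebra
  obtain ⟨S, hS, hspan⟩ :=
    exists_span_of_isIntegral (inertiaInt A) T (transcendental_jCoord (M * q * q) false)
  have hfg : (Subalgebra.toSubmodule (integralClosure B (F₂ A M q))).FG :=
    ⟨S, le_antisymm (Submodule.span_le.2 fun s hs => hS s hs) fun x hx => hspan x hx⟩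
  haveI : Module.Finite B (integralClosure B (F₂ A M q)) := Module.Finite.of_fg hfg
  have hBG : B ≤ sidesGen A M q := chartBase_le_sidesGen
  letI : Algebra B (sidesGen A M q) := (Subring.inclusion hBG).toAlgebra
  let ι : sidesGen A M q →ₗ[B] integralClosure B (F₂ A M q) :=
    { toFun := fun g => ⟨g, sidesGen_le A M q g.2⟩
      map_add' := fun a b => rfl
      map_smul' := fun c a => rfl }
  haveI : IsNoetherian B (sidesGen A M q) :=
    isNoetherian_of_injective ι fun a b h => Subtype.ext (congrArg Subtype.val h :)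
  exact isNoetherianRing_iff.2 (isNoetherian_of_tower B inferInstance)

/-- The generated subring has the top level as field of fractions. -/
theorem exists_mul_eq_sidesGen (hqM : ¬ q ∣ M) (f : F₂ A M q) :
    ∃ a d : sidesGen A M q, d ≠ 0 ∧ f * (d : F₂ A M q) = a := by
  have hS : f ∈ Subfield.closure (sidesGen A M q : Set (F₂ A M q)) := by
    refine mem_of_sides hqM _ (fun c => ?_) (fun b hb0 hb => ?_) (fun b hb0 hb => ?_)
      (fun b hb0 hb => ?_) f
    · rcases A.mem_or_inv_mem (c : AlgebraicClosure ℚ) with h | h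
      · refine Subfield.subset_closure (chartBase_le_sidesGen ?_)
        exact (le_sup_left : _ ≤ chartBase A (jCoord A (M * q * q) false)) ⟨c, h, rfl⟩
      · rw [← inv_inv c, map_inv₀]
        refine inv_mem (Subfield.subset_closure (chartBase_le_sidesGen ?_))
        refine (le_sup_left : _ ≤ chartBase A (jCoord A (M * q * q) false)) ⟨c⁻¹, ?_, rfl⟩
        show ((c⁻¹ : inertiaField A) : AlgebraicClosure ℚ) ∈ A
        rwa [IntermediateField.coe_inv]
    · exact Subfield.subset_closure (x₂_mem_sidesGen A M q (jd_mem_chart hb))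
    · exact Subfield.subset_closure (y₂_mem_sidesGen A M q (jd_mem_chart hb))
    · exact Subfield.subset_closure (z₂_mem_sidesGen A M q (jd_mem_chart hb))
  obtain ⟨y, hy, z, hz, rfl⟩ := Subfield.mem_closure_iff.1 hS
  rw [Subring.closure_eq] at hy hz
  rcases eq_or_ne z 0 with rfl | hz0
  · exact ⟨0, 1, one_ne_zero, by simp⟩
  · exact ⟨⟨y, hy⟩, ⟨z, hz⟩, fun h => hz0 (congrArg Subtype.val h), div_mul_cancel₀ y hz0⟩

variable [CharP (Res A) q] [IsAlgClosed (Res A)]

/-- The reductions of the generated subring. -/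
def genRes (hA : A.LiesOverPrime q) (hqM : ¬ q ∣ M) (t : Side) : sidesGen A M q →+* RFld A M :=
  (sideResB hA hqM t).comp (Subring.inclusion (sidesGen_le A M q))

theorem genRes_genX {hA : A.LiesOverPrime q} {hqM : ¬ q ∣ M} (g : chart₀ A M) :
    genRes hA hqM .s20 (genX A M q g) = red₀ hA hqM g ∧
      genRes hA hqM .s11 (genX A M q g) = red₀ hA hqM g ∧
        genRes hA hqM .s02 (genX A M q g) = frob (q := q) (frob (q := q) (red₀ hA hqM g)) :=
  sideResB_x₂ hA hqM g

theorem genRes_genY {hA : A.LiesOverPrime q} {hqM : ¬ q ∣ M} (g : chart₀ A M) (t : Side) :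
    genRes hA hqM t (genY A M q g) = frob (q := q) (red₀ hA hqM g) :=
  sideResB_y₂ hA hqM g t

theorem genRes_genZ {hA : A.LiesOverPrime q} {hqM : ¬ q ∣ M} (g : chart₀ A M) :
    genRes hA hqM .s20 (genZ A M q g) = frob (q := q) (frob (q := q) (red₀ hA hqM g)) ∧
      genRes hA hqM .s11 (genZ A M q g) = red₀ hA hqM g ∧
        genRes hA hqM .s02 (genZ A M q g) = red₀ hA hqM g :=
  sideResB_z₂ hA hqM g

theorem red₀_constHom (hA : A.LiesOverPrime q) (hqM : ¬ q ∣ M) (a : (inertiaInt A).toSubring) :
    red₀ hA hqM (constHom A M a) = algebraMap (Res A) (RFld A M)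
      (IsLocalRing.residue A ⟨((a : inertiaField A) : AlgebraicClosure ℚ), a.2⟩) := by
  refine Subtype.ext ?_
  rw [coe_red₀]
  show red A ((algebraMap (inertiaField A) (F₀ A M) (a : inertiaField A) : F₀ A M) :
    LaurentSeries (AlgebraicClosure ℚ)) = _
  rw [show ((algebraMap (inertiaField A) (F₀ A M) (a : inertiaField A) : F₀ A M) :
      LaurentSeries (AlgebraicClosure ℚ)) =
    algebraMap (inertiaField A) _ (a : inertiaField A) from (Fld A M).val.commutes _]
  exact (red_algebraMap_inertia _ a.2).2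

/-- At a glued point the generated subring takes one value on the three components. -/
theorem exists_value_sidesGen {hA : A.LiesOverPrime q} {hqM : ¬ q ∣ M} {P : Pt A M}
    (hj : RegAt P (jRes A M)) (hg : Glued hA hqM P) (a : sidesGen A M q) :
    ∃ α : Res A, ∀ t, VanAt P (genRes hA hqM t a - algebraMap (Res A) (RFld A M) α) := by
  have hreg : ∀ g, RegAt P (red₀ hA hqM g) := fun g =>
    regAt_of_isIntegral hj (isIntegral_red₀ hA hqM g)
  have hregF : ∀ g, RegAt P (frob (q := q) (red₀ hA hqM g)) := fun g => by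
    rw [resPhi_eq_tau_pow]
    exact pow_mem (regAt_of_isIntegral hj (isIntegral_resFrob_symm (isIntegral_red₀ hA hqM g)) :
      tau A M q (red₀ hA hqM g) ∈ P.toValuationSubring) _
  have hff : ∀ (g : chart₀ A M) (α : Res A), VanAt P (red₀ hA hqM g - algebraMap _ _ α) →
      VanAt P (frob (q := q) (frob (q := q) (red₀ hA hqM g)) - algebraMap _ _ α) := fun g α h => by
    have := (glued_vanAt_frob_frob hg
      (IsIntegral.sub (isIntegral_red₀ hA hqM g)
        (isIntegral_algebraMap (R := Algebra.adjoin (Res A) {jRes A M})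
          (x := algebraMap (Res A) _ α)))).1 h
    rwa [← IsScalarTower.algebraMap_apply, map_sub, map_sub, AlgHom.commutes, AlgHom.commutes] at this
  obtain ⟨a, ha⟩ := a
  induction ha using Subring.closure_induction with
  | mem y hy =>
    rcases hy with (⟨g, hg', rfl⟩ | ⟨g, hg', rfl⟩) | ⟨g, hg', rfl⟩
    · obtain ⟨α, hα⟩ := exists_sub_algebraMap_vanAt (hreg ⟨g, hg'⟩)
      refine ⟨α, fun t => ?_⟩
      cases t with
      | s20 =>
          show VanAt P (genRes hA hqM _ (genX A M q ⟨g, hg'⟩) - _)
          rw [(genRes_genX _).1]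
          exact hα
      | s11 =>
          show VanAt P (genRes hA hqM _ (genX A M q ⟨g, hg'⟩) - _)
          rw [(genRes_genX _).2.1]
          exact hα
      | s02 =>
          show VanAt P (genRes hA hqM _ (genX A M q ⟨g, hg'⟩) - _)
          rw [(genRes_genX _).2.2]
          exact hff _ _ hα
    · obtain ⟨α, hα⟩ := exists_sub_algebraMap_vanAt (hregF ⟨g, hg'⟩)
      refine ⟨α, fun t => ?_⟩
      show VanAt P (genRes hA hqM t (genY A M q ⟨g, hg'⟩) - _)
      rw [genRes_genY]
      exact hα
    · obtain ⟨α, hα⟩ := exists_sub_algebraMap_vanAt (hreg ⟨g, hg'⟩)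
      refine ⟨α, fun t => ?_⟩
      cases t with
      | s20 =>
          show VanAt P (genRes hA hqM _ (genZ A M q ⟨g, hg'⟩) - _)
          rw [(genRes_genZ _).1]
          exact hff _ _ hα
      | s11 =>
          show VanAt P (genRes hA hqM _ (genZ A M q ⟨g, hg'⟩) - _)
          rw [(genRes_genZ _).2.1]
          exact hα
      | s02 =>
          show VanAt P (genRes hA hqM _ (genZ A M q ⟨g, hg'⟩) - _)
          rw [(genRes_genZ _).2.2]
          exact hα
  | zero => exact ⟨0, fun t => by
      show VanAt P (genRes hA hqM t 0 - _)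
      rw [map_zero, map_zero, sub_zero]
      exact vanAt_zero⟩
  | one => exact ⟨1, fun t => by
      show VanAt P (genRes hA hqM t 1 - _)
      rw [map_one, map_one, sub_self]
      exact vanAt_zero⟩
  | add x y hx hy ihx ihy =>
    obtain ⟨α, hα⟩ := ihx
    obtain ⟨β, hβ⟩ := ihy
    refine ⟨α + β, fun t => ?_⟩
    show VanAt P (genRes hA hqM t (⟨x, hx⟩ + ⟨y, hy⟩) - _)
    rw [map_add, map_add,
      add_sub_add_comm]
    exact (hα t).add (hβ t)
  | neg x hx ihx =>
    obtain ⟨α, hα⟩ := ihx
    refine ⟨-α, fun t => ?_⟩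
    show VanAt P (genRes hA hqM t (-⟨x, hx⟩) - _)
    rw [map_neg, map_neg,
      show -genRes hA hqM t ⟨x, hx⟩ - -algebraMap (Res A) (RFld A M) α =
        -(genRes hA hqM t ⟨x, hx⟩ - algebraMap (Res A) (RFld A M) α) by ring]
    exact vanAt_neg_iff.2 (hα t)
  | mul x y hx hy ihx ihy =>
    obtain ⟨α, hα⟩ := ihx
    obtain ⟨β, hβ⟩ := ihy
    refine ⟨α * β, fun t => ?_⟩
    have hxr : RegAt P (genRes hA hqM t ⟨x, hx⟩) := by
      have h1 := add_mem (hα t).regAt (P.algebraMap_mem' α)
      rwa [sub_add_cancel] at h1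
    show VanAt P (genRes hA hqM t (⟨x, hx⟩ * ⟨y, hy⟩) - _)
    rw [map_mul, map_mul,
      show genRes hA hqM t ⟨x, hx⟩ * genRes hA hqM t ⟨y, hy⟩ -
          algebraMap (Res A) (RFld A M) α * algebraMap (Res A) (RFld A M) β =
        genRes hA hqM t ⟨x, hx⟩ * (genRes hA hqM t ⟨y, hy⟩ - algebraMap (Res A) (RFld A M) β) +
          (genRes hA hqM t ⟨x, hx⟩ - algebraMap (Res A) (RFld A M) α) *
            algebraMap (Res A) (RFld A M) β by ring]
    exact ((hβ t).mul_left hxr).add ((hα t).mul_right (P.algebraMap_mem' β))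

/-- At a glued point regularity and vanishing do not depend on the component. -/
theorem genRes_regAt_and_vanAt_iff {hA : A.LiesOverPrime q} {hqM : ¬ q ∣ M} {P : Pt A M}
    (hj : RegAt P (jRes A M)) (hg : Glued hA hqM P) (a : sidesGen A M q) (t t' : Side) :
    RegAt P (genRes hA hqM t a) ∧
      (VanAt P (genRes hA hqM t a) ↔ VanAt P (genRes hA hqM t' a)) := by
  obtain ⟨α, hα⟩ := exists_value_sidesGen hj hg a
  have h0 : ∀ t, VanAt P (genRes hA hqM t a) ↔ α = 0 := fun t => by
    refine ⟨fun h => by_contra fun hne => not_vanAt_algebraMap (P := P) hne ?_, fun h => ?_⟩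
    · have := h.sub (hα t)
      rwa [sub_sub_cancel] at this
    · have := hα t
      rwa [h, map_zero, sub_zero] at this
  refine ⟨?_, (h0 t).trans (h0 t').symm⟩
  have h1 := add_mem (hα t).regAt (P.algebraMap_mem' α)
  rwa [sub_add_cancel] at h1

end Fermat.Agent.Carayol.Reg

end
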