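/-
Theorem of Carayol at `q ^ 2 ∥ M`: at a glued point of the finite chart one branch
passes on each component and the local ring is regular, with parameters the two lifts of a
uniformiser.
-/
import Fermat.Agent.Carayol.MainLocalGluedRing
import Fermat.Agent.Carayol.MainLocalCharpoly

set_option autoImplicit false
set_option linter.style.haveILetI false
set_option linter.unusedSectionVars false

noncomputable section

namespace Fermat.Agent.Carayol.Reg

open ModularCurve IntermediateField AlgebraicCurve Polynomial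

set_option maxHeartbeats 1000000
set_option synthInstance.maxHeartbeats 200000

local notation "Ser" => LaurentSeries (AlgebraicClosure ℚ)

variable {A : ValuationSubring (AlgebraicClosure ℚ)} {M q : ℕ} [NeZero M] [Fact q.Prime]
  [CharP (Res A) q] [IsAlgClosed (Res A)]

/-- Nakayama: generators modulo the square of the maximal ideal generate it. -/
theorem maximalIdeal_le_of_le_sup_sq {R : Type*} [CommRing R] [IsLocalRing R] [IsNoetherianRing R]
    (I : Ideal R) (h : IsLocalRing.maximalIdeal R ≤ I ⊔ IsLocalRing.maximalIdeal R ^ 2) :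
    IsLocalRing.maximalIdeal R ≤ I := by
  refine Submodule.le_of_le_smul_of_le_jacobson_bot (I := IsLocalRing.maximalIdeal R)
    (IsNoetherian.noetherian _) ?_ ?_
  · rw [IsLocalRing.jacobson_eq_maximalIdeal _ bot_ne_top]
  · rw [smul_eq_mul, ← sq]
    exact h

/-- The two coefficients of lowest positive degree of `(X - a) (X - b) ^ q`. -/
theorem coeff_sub_mul_sub_pow {R : Type*} [CommRing R] [CharP R q] (a b : R) :
    ((X - C a) * (X - C b) ^ q).coeff 1 = -b ^ q ∧
      ((X - C a) * (X - C b) ^ q).coeff 2 = if q = 2 then -a else 0 := by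
  have h2 : 2 ≤ q := (Fact.out : q.Prime).two_le
  rw [sub_pow_char, ← C_pow, sub_mul]
  constructor
  · rw [coeff_sub, coeff_X_mul, coeff_C_mul, coeff_sub, coeff_sub, coeff_X_pow, coeff_X_pow,
      coeff_C_zero, coeff_C, if_neg (show ¬ (0 : ℕ) = q by omega), if_neg (show ¬ (1 : ℕ) = q by omega),
      if_neg one_ne_zero]
    ring
  · rw [coeff_sub, coeff_X_mul, coeff_C_mul, coeff_sub, coeff_sub, coeff_X_pow, coeff_X_pow,
      coeff_C, coeff_C, if_neg (show ¬ (1 : ℕ) = q by omega), if_neg one_ne_zero, if_neg two_ne_zero]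
    rcases eq_or_ne q 2 with h | h
    · rw [if_pos h, if_pos h.symm]; ring
    · rw [if_neg h, if_neg (Ne.symm h)]; ring

variable {hA : A.LiesOverPrime q} {hqM : ¬ q ∣ M} {P : Pt A M}

/-- `q` is a product of two elements vanishing at a glued point, up to a unit. -/
theorem exists_natCast_mul_eq_mul (u : Unif hA hqM P) (hM : Admissible q M)
    (hj : RegAt P (jRes A M)) (hg : Glued hA hqM P) :
    ∃ C Z W : sidesGen A M q, ¬ VanAt P (genRes hA hqM .s20 C) ∧
      VanAt P (genRes hA hqM .s20 Z) ∧ VanAt P (genRes hA hqM .s20 W) ∧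
        (q : sidesGen A M q) * C = Z * W := by
  obtain ⟨hcorr, -, C, hC, -, hCv⟩ := u.of_glued hM hj hg
  obtain ⟨p, hpm, hpdeg, hroot, hres, hp0⟩ := exists_charpoly_red hA hqM u.z₁
  set gX := genX A M q
  set Z : sidesGen A M q := genY A M q u.L' - gX u.L ^ q with hZ
  have hev : p.eval₂ gX Z = 0 := by
    refine Subtype.ext ?_
    have h1 := congrArg (fun x : chart₁ A M q => p₀₁ A M q (x : F₁ A M q)) hroot
    have h2 := hom_eval₂ p gX (sidesGen A M q).subtype Z
    have h3 := hom_eval₂ p chartX₁ ((p₀₁ A M q).toRingHom.comp (chart₁ A M q).subtype) u.z₁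
    have e : ((p₀₁ A M q).toRingHom.comp (chart₁ A M q).subtype) u.z₁ = (Z : F₂ A M q) := by
      show p₀₁ A M q (y₁ A M q (u.L' : F₀ A M) - x₁ A M q (u.L : F₀ A M) ^ q) = _
      rw [map_sub, map_pow]
      rfl
    rw [e] at h3
    simp only [ZeroMemClass.coe_zero, map_zero] at h1
    exact h2.trans (h3.symm.trans h1)
  have hpC : p.coeff 0 = (-1) ^ (q + 1) * ((q : chart₀ A M) * C) := Subtype.ext (by
    rw [hp0, hC]; push_cast; rfl)
  set W : sidesGen A M q := p.divX.eval₂ gX Z with hW
  have hZW : Z * W + gX (p.coeff 0) = 0 := by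
    rw [← hev]
    conv_rhs => rw [← X_mul_divX_add p, eval₂_add, eval₂_mul, eval₂_X, eval₂_C]
  have hr := u.resFrob_redZero_z₁
  have hcharp : CharP (RFld A M) q :=
    charP_of_injective_algebraMap (algebraMap (Res A) (RFld A M)).injective q
  have hc1 : red₀ hA hqM (p.coeff 1) = -u.corr := by
    refine (frob (q := q) (M := M) (A := A)).toRingHom.injective ?_
    have h := congrArg (fun P : (RFld A M)[X] => P.coeff 1) hres
    simp only [coeff_map] at h
    refine h.trans ?_
    rw [(coeff_sub_mul_sub_pow _ _).1, map_neg, ← hr]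
    congr 1
    exact (BadReduction.resPhi_resFrob (Res A) q M _).symm
  have hZv : genRes hA hqM .s20 Z = 0 := by
    rw [hZ, map_sub, map_pow, genRes_genY, (genRes_genX _).1, u.red_L, u.red_L',
      BadReduction.resPhi_resFrob, sub_self]
  refine ⟨gX C, Z, W * (-1) ^ q, ?_, Or.inl hZv, ?_, ?_⟩
  · rw [(genRes_genX C).1]; exact hCv
  · have hc : VanAt P u.corr := Or.inr (by rw [hcorr]; norm_num)
    have e : W = p.divX.divX.eval₂ gX Z * Z + gX (p.coeff 1) := by
      rw [hW]
      conv_lhs => rw [← X_mul_divX_add p.divX, eval₂_add, eval₂_mul, eval₂_X, eval₂_C, coeff_divX]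
      rw [mul_comm]
    rw [e, map_mul (genRes hA hqM .s20), map_add, map_mul (genRes hA hqM .s20), hZv, mul_zero,
      zero_add, (genRes_genX _).1, hc1, map_pow, map_neg, map_one]
    refine (vanAt_neg_iff.2 hc).mul_right ?_
    exact pow_mem (neg_mem (one_mem P.toValuationSubring)) _
  · have h2 : gX (p.coeff 0) = (-1) ^ (q + 1) * ((q : sidesGen A M q) * gX C) := by
      rw [hpC, map_mul, map_pow, map_neg, map_one, map_mul, map_natCast]
    have h3 : ((-1 : sidesGen A M q) ^ q) * (-1) ^ q = 1 := by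
      rw [← mul_pow]; simp
    rw [h2, pow_succ] at hZW
    linear_combination (-(-1 : sidesGen A M q) ^ q) * hZW - ((q : sidesGen A M q) * gX C) * h3

variable {L : Type*} [CommRing L]

/-- The `q τ`-lift lies in the square of the maximal ideal up to `q`. -/
theorem genY_mem_sq (u : Unif hA hqM P) (hg : Glued hA hqM P) (f : sidesGen A M q →+* L)
    (m : Ideal L) (hm : ∀ a, VanAt P (genRes hA hqM .s20 a) → f a ∈ m) :
    f (genY A M q u.L') ∈ Ideal.span {f (q : sidesGen A M q)} ⊔ m ^ 2 := by
  classical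
  obtain ⟨p, hpm, hpdeg, hroot, hres, -⟩ := exists_charpoly_red hA hqM ⟨_, y₁_mem u.L.2⟩
  rw [redInf_y₁, redZero_y₁, u.red_L] at hres
  set gY := genY A M q
  set x := genX A M q u.L
  set z := genZ A M q u.L
  let Φ : chart₁ A M q →+* F₂ A M q := (p₀₁ A M q).toRingHom.comp
    ((w₁ A M q).toAlgHom.toRingHom.comp (chart₁ A M q).subtype)
  have hΦ : Φ.comp chartX₁ = (sidesGen A M q).subtype.comp gY := RingHom.ext fun g => by
    show p₀₁ A M q (w₁ A M q (x₁ A M q (g : F₀ A M))) = _
    rw [w₁_x₁ hqM]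
    rfl
  have hΦy : Φ ⟨_, y₁_mem u.L.2⟩ = (x : F₂ A M q) := by
    show p₀₁ A M q (w₁ A M q (y₁ A M q (u.L : F₀ A M))) = _
    rw [w₁_y₁ hqM]
    rfl
  have hx : p.eval₂ gY x = 0 := by
    refine Subtype.ext ?_
    have h1 := hom_eval₂ p gY (sidesGen A M q).subtype x
    have h2 := hom_eval₂ p chartX₁ Φ ⟨_, y₁_mem u.L.2⟩
    rw [hroot, map_zero, hΦ, hΦy] at h2
    exact h1.trans h2.symm
  have hz : p.eval₂ gY z = 0 := by
    refine Subtype.ext ?_
    have h1 := hom_eval₂ p gY (sidesGen A M q).subtype x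
    have h2 := hom_eval₂ p ((sidesGen A M q).subtype.comp gY) (w₂ A M q).toAlgHom.toRingHom
      ((sidesGen A M q).subtype x)
    have h4 := hom_eval₂ p gY (sidesGen A M q).subtype z
    rw [← h1, hx, map_zero, map_zero] at h2
    refine h4.trans (Eq.trans ?_ h2.symm)
    congr 1
    · refine RingHom.ext fun g => ?_
      show y₂ A M q (g : F₀ A M) = w₂ A M q (y₂ A M q (g : F₀ A M))
      rw [w₂_y₂ hqM]
    · show z₂ A M q (u.L : F₀ A M) = w₂ A M q (x₂ A M q (u.L : F₀ A M))
      rw [w₂_x₂ hqM]
  have hne : x - z ≠ 0 := fun h => by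
    have h1 := congrArg (genRes hA hqM .s20) h
    rw [map_sub, map_zero, sub_eq_zero, (genRes_genX _).1, (genRes_genZ _).1, u.red_L] at h1
    refine u.eulerOp_π_ne_zero ?_
    rw [h1, coe_frob, eulerOp_qExpand, ← map_natCast (algebraMap (Res A) (ResSer A)),
      CharP.cast_eq_zero, map_zero, zero_mul]
  set g : ℕ → sidesGen A M q := fun i =>
    ∑ j ∈ Finset.range i, x ^ j * z ^ (i - 1 - j)
  have hsum : ∑ i ∈ Finset.range (q + 2), gY (p.coeff i) * g i = 0 := by
    refine (mul_eq_zero.1 ?_).resolve_right hne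
    rw [Finset.sum_mul]
    rw [eval₂_eq_sum_range, hpdeg] at hx hz
    rw [Finset.sum_congr rfl fun i _ => show gY (p.coeff i) * g i * (x - z) =
        gY (p.coeff i) * x ^ i - gY (p.coeff i) * z ^ i by
      rw [mul_assoc, geom_sum₂_mul, mul_sub], Finset.sum_sub_distrib,
      show q + 2 = q + 1 + 1 from rfl, hx, hz, sub_zero]
  have hxv : f x ∈ m := hm _ (by
    rw [(genRes_genX _).1, u.red_L]; exact Or.inr (by rw [u.ord]; norm_num))
  have hπv : VanAt P u.π := Or.inr (by rw [u.ord]; norm_num)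
  have hzv : f z ∈ m := hm _ (by
    rw [(genRes_genZ _).1, u.red_L]; exact (glued_vanAt_frob_frob hg u.int).1 hπv)
  haveI : CharP (RFld A M) q :=
    charP_of_injective_algebraMap (algebraMap (Res A) (RFld A M)).injective q
  have hco : ∀ n, frob (q := q) (red₀ hA hqM (p.coeff n)) =
      ((X - C (frob (q := q) (frob (q := q) u.π))) * (X - C u.π) ^ q).coeff n := fun n => by
    rw [← hres, coeff_map]
    rfl
  have h2q : 2 ≤ q := (Fact.out : q.Prime).two_le
  have hrest : ∀ i ∈ (Finset.range (q + 2)).erase 1, f (gY (p.coeff i) * g i) ∈ m ^ 2 := by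
    intro i hi
    rw [Finset.mem_erase, Finset.mem_range] at hi
    match i, hi with
    | 0, _ => simp [g]
    | 1, hi => exact absurd rfl hi.1
    | 2, _ =>
      rw [map_mul, sq]
      refine Ideal.mul_mem_mul (hm _ ?_) ?_
      · rw [genRes_genY, hco, (coeff_sub_mul_sub_pow _ _).2]
        split_ifs
        · exact vanAt_neg_iff.2 ((glued_vanAt_frob_frob hg u.int).1 hπv)
        · exact vanAt_zero
      · simp only [g, Finset.sum_range_succ, Finset.sum_range_zero, map_add, map_mul, map_pow]
        simp [hxv, hzv, Ideal.add_mem]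
    | k + 3, _ =>
      rw [map_mul]
      refine Ideal.mul_mem_left _ _ ?_
      simp only [g, map_sum, map_mul, map_pow]
      refine Ideal.sum_mem _ fun j hj => ?_
      rw [Finset.mem_range] at hj
      refine Ideal.pow_le_pow_right (show 2 ≤ j + (k + 3 - 1 - j) by omega) ?_
      rw [pow_add]
      exact Ideal.mul_mem_mul (Ideal.pow_mem_pow hxv _) (Ideal.pow_mem_pow hzv _)
  have h1 : f (gY (p.coeff 1)) ∈ m ^ 2 := by
    have h := congrArg f hsum
    rw [map_zero, map_sum, ← Finset.add_sum_erase _ _ (show 1 ∈ Finset.range (q + 2) by simp)] at h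
    have hg1 : g 1 = 1 := by simp [g]
    rw [hg1, mul_one] at h
    rw [eq_neg_of_add_eq_zero_left h]
    exact neg_mem (Ideal.sum_mem _ hrest)
  have hb : red₀ hA hqM (p.coeff 1 + u.L') = 0 := by
    refine (frob (q := q) (M := M) (A := A)).toRingHom.injective ?_
    show frob (q := q) (red₀ hA hqM (p.coeff 1 + u.L')) = frob (q := q) (M := M) (A := A) 0
    rw [map_zero, map_add, map_add, hco, (coeff_sub_mul_sub_pow _ _).1, u.red_L',
      BadReduction.resPhi_resFrob, neg_add_cancel]
  obtain ⟨H, hH⟩ := exists_eq_natCast_mul_of_red₀ hA hqM hb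
  rw [show gY u.L' = (q : sidesGen A M q) * gY H - gY (p.coeff 1) by
    rw [← map_natCast gY, ← map_mul, ← hH, map_add]; ring, map_sub, map_mul]
  exact sub_mem (Ideal.mem_sup_left (Ideal.mul_mem_right _ _ (Ideal.mem_span_singleton_self _)))
    (Ideal.mem_sup_right h1)

/-- Up to constants, the generated subring lies in an ideal containing the vanishing lifts. -/
theorem exists_const_approx (hj : RegAt P (jRes A M)) (hg : Glued hA hqM P)
    (f : sidesGen A M q →+* L) (T : Ideal L)
    (hbase : ∀ h, VanAt P (red₀ hA hqM h) →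
      f (genX A M q h) ∈ T ∧ f (genZ A M q h) ∈ T)
    (hY : ∀ h, VanAt P (frob (q := q) (red₀ hA hqM h)) → f (genY A M q h) ∈ T) :
    ∀ a : sidesGen A M q,
      ∃ r : (inertiaInt A).toSubring, f (a - genX A M q (constHom A M r)) ∈ T := by
  set X := genX A M q
  set Y := genY A M q
  set Z := genZ A M q
  have hconst : ∀ α : Res A, ∃ r : (inertiaInt A).toSubring,
      red₀ hA hqM (constHom A M r) = algebraMap (Res A) (RFld A M) α := fun α => by
    obtain ⟨a, ha, rfl⟩ := residue_inertiaInt_surjective hA α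
    exact ⟨⟨a, ha⟩, red₀_constHom hA hqM _⟩
  have hreg : ∀ g, RegAt P (red₀ hA hqM g) := fun g =>
    regAt_of_isIntegral hj (isIntegral_red₀ hA hqM g)
  rintro ⟨a, ha⟩
  induction ha using Subring.closure_induction with
  | mem y hy =>
    rcases hy with (⟨g, hg', rfl⟩ | ⟨g, hg', rfl⟩) | ⟨g, hg', rfl⟩
    · obtain ⟨α, hα⟩ := exists_sub_algebraMap_vanAt (hreg ⟨g, hg'⟩)
      obtain ⟨r, hr⟩ := hconst α
      refine ⟨r, ?_⟩
      show f (X ⟨g, hg'⟩ - X (constHom A M r)) ∈ T
      rw [← map_sub X]
      exact (hbase _ (by rw [map_sub, hr]; exact hα)).1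
    · obtain ⟨α, hα⟩ := exists_sub_algebraMap_vanAt (P := P)
        (g := frob (q := q) (red₀ hA hqM ⟨g, hg'⟩)) (by
          rw [← genRes_genY (hA := hA) (hqM := hqM) ⟨g, hg'⟩ Side.s20]
          exact (genRes_regAt_and_vanAt_iff hj hg _ .s20 .s20).1)
      obtain ⟨r, hr⟩ := hconst α
      refine ⟨r, ?_⟩
      show f (Y ⟨g, hg'⟩ - X (constHom A M r)) ∈ T
      rw [← (gen_constHom r).1, ← map_sub Y]
      exact hY _ (by rw [map_sub, map_sub, hr, AlgHom.commutes]; exact hα)
    · obtain ⟨α, hα⟩ := exists_sub_algebraMap_vanAt (hreg ⟨g, hg'⟩)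
      obtain ⟨r, hr⟩ := hconst α
      refine ⟨r, ?_⟩
      show f (Z ⟨g, hg'⟩ - X (constHom A M r)) ∈ T
      rw [← (gen_constHom r).2, ← map_sub Z]
      exact (hbase _ (by rw [map_sub, hr]; exact hα)).2
  | zero => exact ⟨0, by
      show f (0 - X (constHom A M 0)) ∈ T
      rw [map_zero, map_zero, sub_zero, map_zero]
      exact zero_mem _⟩
  | one => exact ⟨1, by
      show f (1 - X (constHom A M 1)) ∈ T
      rw [map_one, map_one, sub_self, map_zero]
      exact zero_mem _⟩
  | add a b ha hb iha ihb =>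
    obtain ⟨r, hr⟩ := iha
    obtain ⟨r', hr'⟩ := ihb
    refine ⟨r + r', ?_⟩
    show f (⟨a, ha⟩ + ⟨b, hb⟩ - X (constHom A M (r + r'))) ∈ T
    rw [map_add, map_add, add_sub_add_comm, map_add]
    exact add_mem hr hr'
  | neg a ha iha =>
    obtain ⟨r, hr⟩ := iha
    refine ⟨-r, ?_⟩
    show f (-⟨a, ha⟩ - X (constHom A M (-r))) ∈ T
    rw [map_neg, map_neg, sub_neg_eq_add, neg_add_eq_sub,
      show X (constHom A M r) - ⟨a, ha⟩ = -(⟨a, ha⟩ - X (constHom A M r)) by ring, map_neg]
    exact neg_mem hr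
  | mul a b ha hb iha ihb =>
    obtain ⟨r, hr⟩ := iha
    obtain ⟨r', hr'⟩ := ihb
    refine ⟨r * r', ?_⟩
    rw [show (⟨a * b, mul_mem ha hb⟩ : sidesGen A M q) = (⟨a, ha⟩ : sidesGen A M q) * ⟨b, hb⟩
      from Subtype.ext rfl, map_mul, map_mul, show (⟨a, ha⟩ : sidesGen A M q) * ⟨b, hb⟩ - X (constHom A M r) * X (constHom A M r')
        = ⟨a, ha⟩ * (⟨b, hb⟩ - X (constHom A M r')) +
          (⟨a, ha⟩ - X (constHom A M r)) * X (constHom A M r') by ring, map_add, map_mul, map_mul]
    exact add_mem (T.mul_mem_left _ hr') (T.mul_mem_right _ hr)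

/-- The maximal ideal of the generated subring at a glued point is generated by the two lifts. -/
theorem exists_pair_sidesGen (hM : Admissible q M) (u : Unif hA hqM P)
    (hj : RegAt P (jRes A M)) (hg : Glued hA hqM P) (n : Ideal (sidesGen A M q)) [n.IsPrime]
    (hqn : (q : sidesGen A M q) ∈ n)
    (hv : ∀ (a : sidesGen A M q) (t : Side), a ∈ n ↔ VanAt P (genRes hA hqM t a)) :
    ∀ a ∈ n, ∃ d ∉ n, d * a ∈ Ideal.span {genX A M q u.L, genZ A M q u.L} := by
  classical
  haveI : IsNoetherianRing (sidesGen A M q) := isNoetherianRing_sidesGen hA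
  let L := Localization.AtPrime n
  set f : (sidesGen A M q) →+* L := algebraMap (sidesGen A M q) L
  set m : Ideal L := IsLocalRing.maximalIdeal L with hm
  have hinj : Function.Injective f :=
    IsLocalization.injective L n.primeCompl_le_nonZeroDivisors
  have hmf : ∀ a : (sidesGen A M q), f a ∈ m ↔ a ∈ n := fun a => IsLocalization.AtPrime.to_map_mem_maximal_iff L n a
  have hmm : ∀ a : (sidesGen A M q), VanAt P (genRes hA hqM .s20 a) → f a ∈ m := fun a ha =>
    (hmf a).2 ((hv a .s20).2 ha)
  set X := genX A M q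
  set Y := genY A M q
  set Z := genZ A M q
  set x := X u.L
  set z := Z u.L
  set T : Ideal L := Ideal.span {f x, f z, f (q : (sidesGen A M q)), f (Y u.L')}
  have hqT : f (q : (sidesGen A M q)) ∈ T := Ideal.subset_span (by simp)
  -- approximation by constants
  have key : ∀ (e : chart₀ A M →+* (sidesGen A M q)) (l h E B : chart₀ A M), f (e l) ∈ T → e B ∉ n →
      red₀ hA hqM (h * B - l * E) = 0 → f (e h) ∈ T := by
    intro e l h E B hl hB hred
    obtain ⟨H, hH⟩ := exists_eq_natCast_mul_of_red₀ hA hqM hred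
    have hu : IsUnit (f (e B)) := IsLocalization.map_units L (⟨e B, hB⟩ : n.primeCompl)
    refine (Ideal.unit_mul_mem_iff_mem _ hu).1 ?_
    have hh : e h * e B = (q : (sidesGen A M q)) * e H + e l * e E := by
      have h' := congrArg e hH
      rw [map_sub, map_mul, map_mul, map_mul, map_natCast] at h'
      linear_combination h'
    have : f (e B) * f (e h) = f (q : (sidesGen A M q)) * f (e H) + f (e l) * f (e E) := by
      rw [← map_mul, mul_comm (e B), hh, map_add, map_mul, map_mul]
    rw [this]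
    exact add_mem (T.mul_mem_right _ hqT) (T.mul_mem_right _ hl)
  have hbase : ∀ h : chart₀ A M, VanAt P (red₀ hA hqM h) → f (X h) ∈ T ∧ f (Z h) ∈ T := by
    intro h hh
    obtain ⟨e, b, he, hb, hbv, heq⟩ := exists_fraction_of_vanAt transcendental_jRes hj u.ord hh
    obtain ⟨E, rfl⟩ := exists_red₀_eq hA hqM he
    obtain ⟨B, rfl⟩ := exists_red₀_eq hA hqM hb
    have hred : red₀ hA hqM (h * B - u.L * E) = 0 := by
      rw [map_sub, map_mul, map_mul, u.red_L, heq, sub_self]
    exact ⟨key X u.L h E B (Ideal.subset_span (by simp [x]))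
        (fun hB => hbv (by rw [← (genRes_genX B).1]; exact (hv _ .s20).1 hB)) hred,
      key Z u.L h E B (Ideal.subset_span (by simp [z]))
        (fun hB => hbv (by rw [← (genRes_genZ B).2.1]; exact (hv _ .s11).1 hB)) hred⟩
  have hY : ∀ h : chart₀ A M, VanAt P (frob (q := q) (red₀ hA hqM h)) → f (Y h) ∈ T := by
    intro h hh
    rw [resPhi_eq_tau_pow, vanAt_pow_iff (Fact.out : q.Prime).pos] at hh
    obtain ⟨e, b, he, hb, hbv, heq⟩ := exists_fraction_of_vanAt transcendental_jRes hj u.ord hh
    obtain ⟨E, hE⟩ := exists_red₀_eq hA hqM (isIntegral_resFrob (q := q) he)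
    obtain ⟨B, hB⟩ := exists_red₀_eq hA hqM (isIntegral_resFrob (q := q) hb)
    have heq' := congrArg (BadReduction.resFrob (Res A) q M) heq
    rw [map_mul, map_mul, tau, RingEquiv.apply_symm_apply] at heq'
    refine key Y u.L' h E B (Ideal.subset_span (by simp)) (fun h' => hbv ?_) ?_
    · have := (hv _ .s20).1 h'
      rwa [genRes_genY, hB, BadReduction.resPhi_resFrob, vanAt_pow_iff (Fact.out : q.Prime).pos]
        at this
    · rw [map_sub, map_mul, map_mul, hB, hE, u.red_L', heq', sub_self]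
  have happrox := exists_const_approx hj hg f T hbase hY
  have hπv : VanAt P u.π := Or.inr (by rw [u.ord]; norm_num)
  have hxn : x ∈ n := (hv x .s20).2 (by rw [(genRes_genX _).1, u.red_L]; exact hπv)
  have hzn : z ∈ n := (hv z .s11).2 (by rw [(genRes_genZ _).2.1, u.red_L]; exact hπv)
  have hYn : Y u.L' ∈ n := (hv _ .s20).2 (by
    rw [genRes_genY, u.red_L', BadReduction.resPhi_resFrob, vanAt_pow_iff (Fact.out : q.Prime).pos]
    exact hπv)
  have hTm : T ≤ m := Ideal.span_le.2 (by
    rintro a (rfl | rfl | rfl | rfl)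
    exacts [(hmf _).2 hxn, (hmf _).2 hzn, (hmf _).2 hqn, (hmf _).2 hYn])
  have hmT : m ≤ T := by
    rw [hm, ← Localization.AtPrime.map_eq_maximalIdeal]
    refine Ideal.map_le_iff_le_comap.2 fun a ha => ?_
    obtain ⟨r, hr⟩ := happrox a
    have h1 : X (constHom A M r) ∈ n := by
      have h2 : a - X (constHom A M r) ∈ n := (hmf _).1 (hTm hr)
      have := n.sub_mem ha h2
      rwa [sub_sub_cancel] at this
    have h3 := (hv _ .s20).1 h1
    rw [(genRes_genX _).1, red₀_constHom] at h3
    have h0 : red₀ hA hqM (constHom A M r) = 0 := by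
      rw [red₀_constHom]
      by_contra hne
      exact not_vanAt_algebraMap (fun e => hne (by rw [e, map_zero])) h3
    obtain ⟨H, hH⟩ := exists_eq_natCast_mul_of_red₀ hA hqM h0
    have h4 : f (X (constHom A M r)) ∈ T := by
      rw [hH, map_mul X, map_natCast, map_mul]
      exact T.mul_mem_right _ hqT
    have h5 := add_mem hr h4
    rwa [← map_add, sub_add_cancel] at h5
  set T' : Ideal L := Ideal.span {f x, f z} with hT'
  have hq2 : f (q : (sidesGen A M q)) ∈ m ^ 2 := by
    obtain ⟨C, Z', W, hC, hZ', hW, he⟩ := exists_natCast_mul_eq_mul u hM hj hg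
    have hu : IsUnit (f C) :=
      IsLocalization.map_units L (⟨C, fun h => hC ((hv _ .s20).1 h)⟩ : n.primeCompl)
    refine (Ideal.mul_unit_mem_iff_mem _ hu).1 ?_
    rw [← map_mul, he, map_mul, sq]
    exact Ideal.mul_mem_mul (hmm _ hZ') (hmm _ hW)
  have hY2 : f (Y u.L') ∈ m ^ 2 :=
    (sup_le ((Ideal.span_singleton_le_iff_mem _).2 hq2) le_rfl :
      Ideal.span {f (q : (sidesGen A M q))} ⊔ m ^ 2 ≤ m ^ 2) (genY_mem_sq u hg f m hmm)
  haveI : IsNoetherianRing L := IsLocalization.isNoetherianRing n.primeCompl L inferInstance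
  have hmT' : m ≤ T' := maximalIdeal_le_of_le_sup_sq T' (hmT.trans (Ideal.span_le.2 (by
    rintro a (rfl | rfl | rfl | rfl)
    exacts [Ideal.mem_sup_left (Ideal.subset_span (Or.inl rfl)),
      Ideal.mem_sup_left (Ideal.subset_span (Or.inr rfl)), Ideal.mem_sup_right hq2,
      Ideal.mem_sup_right hY2])))
  intro a ha
  have h1 := hmT' ((hmf a).2 ha)
  have h2 : f a ∈ Ideal.map f (Ideal.span {x, z}) := by
    rw [Ideal.map_span, Set.image_pair]
    exact h1
  obtain ⟨⟨⟨i, hi⟩, ⟨d, hd⟩⟩, he⟩ :=
    (IsLocalization.mem_map_algebraMap_iff n.primeCompl L).1 h2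
  rw [← map_mul] at he
  exact ⟨d, hd, by rw [mul_comm, hinj he]; exact hi⟩

/-- A function of the chart is a quotient from the generated subring, if that is integrally closed. -/
theorem exists_frac_sidesGen (hqM : ¬ q ∣ M) (n : Ideal (sidesGen A M q)) [n.IsPrime]
    (hic : IsIntegrallyClosed (Localization.AtPrime n)) (b : chart₂ A M q false) :
    ∃ a d : sidesGen A M q, d ∉ n ∧ (b : F₂ A M q) * d = a := by
  let L := Localization.AtPrime n
  set f : (sidesGen A M q) →+* L := algebraMap (sidesGen A M q) L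
  have hu : ∀ y : n.primeCompl, IsUnit ((sidesGen A M q).subtype y) := fun y =>
    isUnit_iff_ne_zero.2 fun h => y.2 (by
      rw [show (y : (sidesGen A M q)) = 0 from Subtype.ext h]; exact n.zero_mem)
  letI : Algebra L (F₂ A M q) := (IsLocalization.lift (S := L) hu).toAlgebra
  have hlift : ∀ g : (sidesGen A M q), algebraMap L (F₂ A M q) (f g) = g := fun g => IsLocalization.lift_eq hu g
  haveI : FaithfulSMul L (F₂ A M q) := (faithfulSMul_iff_algebraMap_injective _ _).2 (by
    refine (injective_iff_map_eq_zero _).2 fun l hl => ?_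
    obtain ⟨g, d, rfl⟩ := IsLocalization.exists_mk'_eq n.primeCompl l
    have h1 := congrArg (algebraMap L (F₂ A M q)) (IsLocalization.mk'_spec L g d)
    rw [map_mul, hl, zero_mul, hlift] at h1
    rw [show g = 0 from Subtype.ext h1.symm, IsLocalization.mk'_zero])
  haveI : IsFractionRing L (F₂ A M q) := IsFractionRing.of_field _ _ fun y => by
    obtain ⟨a, d, hd, had⟩ := exists_mul_eq_sidesGen hqM y
    exact ⟨f a, f d, by
      rw [hlift, hlift, eq_div_iff (fun h => hd (Subtype.ext h))]
      exact had⟩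
  haveI := hic
  have hint : IsIntegral L (b : F₂ A M q) := by
    obtain ⟨p, hp, hp0⟩ := b.2
    refine ⟨p.map (f.comp (Subring.inclusion chartBase_le_sidesGen)), hp.map _, ?_⟩
    rw [eval₂_map]
    refine Eq.trans ?_ hp0
    congr 1
    exact RingHom.ext fun r => hlift _
  obtain ⟨l, hl⟩ := IsIntegrallyClosed.isIntegral_iff.1 hint
  obtain ⟨g, d, rfl⟩ := IsLocalization.exists_mk'_eq n.primeCompl l
  refine ⟨g, d, d.2, ?_⟩
  have h1 := congrArg (algebraMap L (F₂ A M q)) (IsLocalization.mk'_spec L g d)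
  rwa [map_mul, hl, hlift, hlift] at h1

/-- **At a glued point** one branch passes on each component and the local ring is regular. -/
theorem glued_structure (hA : A.LiesOverPrime q) (hM : Admissible q M)
    {c : Ideal (chart₂ A M q false)} [c.IsMaximal] {s : Side}
    (hs : IsBranch A M q false c s P) (hg : Glued hA hM.1 P) :
    (∀ t, IsBranch A M q false c t P) ∧ UniqueFactorizationMonoid (Localization.AtPrime c) := by
  classical
  set G := sidesGen A M q
  haveI : IsNoetherianRing G := isNoetherianRing_sidesGen hA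
  have hj := regAt_jRes_of_isBranch hA hM.1 hs
  obtain ⟨u⟩ := nonempty_unif hA hM.1 hj
  set ι : G →+* chart₂ A M q false := Subring.inclusion (sidesGen_le A M q)
  set n : Ideal G := c.comap ι with hn
  haveI : n.IsPrime := Ideal.comap_isPrime ι c
  have hv : ∀ (a : G) (t : Side), a ∈ n ↔ VanAt P (genRes hA hM.1 t a) := fun a t =>
    (mem_iff_vanAt_of_isBranch (hA := hA) (hqM := hM.1) hs (ι a)).trans (genRes_regAt_and_vanAt_iff hj hg a s t).2
  set x := genX A M q u.L
  set z := genZ A M q u.L
  have hπv : VanAt P u.π := Or.inr (by rw [u.ord]; norm_num)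
  have hxn : x ∈ n := (hv x .s20).2 (by rw [(genRes_genX _).1, u.red_L]; exact hπv)
  have hzn : z ∈ n := (hv z .s11).2 (by rw [(genRes_genZ _).2.1, u.red_L]; exact hπv)
  have hqn : (q : G) ∈ n := by
    show ι (q : G) ∈ c
    rw [map_natCast]
    exact natCast_mem_of_isBranch hA hM.1 hs
  have hpair := exists_pair_sidesGen hM u hj hg n hqn hv
  have hqF : (q : F₂ A M q) ≠ 0 := natCast_q_ne_zero_fld (M * q * q)
  have hx0 : genRes hA hM.1 .s20 x ≠ 0 := by
    rw [(genRes_genX _).1, u.red_L]; exact u.pi_ne_zero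
  have hq20 : genRes hA hM.1 .s20 (q : G) = 0 := by
    haveI := charP_of_injective_algebraMap (algebraMap (Res A) (RFld A M)).injective q
    rw [map_natCast, CharP.cast_eq_zero]
  haveI : (RingHom.ker (genRes hA hM.1 .s20)).IsPrime := RingHom.ker_isPrime _
  obtain ⟨-, hic⟩ := uniqueFactorizationMonoid_localization_of_pair n
    (RingHom.ker (genRes hA hM.1 .s20)) (fun h => hqF (by
      have : (q : G) ∈ RingHom.ker (genRes hA hM.1 .s20) := hq20
      rw [h, Ideal.mem_bot] at this
      exact_mod_cast congrArg Subtype.val this))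
    (lt_of_le_of_ne (fun a ha => (hv a .s20).2 (Or.inl ha)) fun h => hx0 (h.ge hxn))
    hxn hzn hpair
  -- the chart lies in the local ring of the generated subring
  have hfrac := exists_frac_sidesGen hM.1 n hic
  refine ⟨fun t => (isBranch_iff hA hM.1).2 fun b => ?_, ?_⟩
  · obtain ⟨a, d, hd, he⟩ := hfrac b
    have he' : b * ι d = ι a := Subtype.ext he
    rw [chartRes_eq_sideResB, mem_nonunits_iff_ord]
    have hmul : sideResB hA hM.1 t b * genRes hA hM.1 t d = genRes hA hM.1 t a := by
      show _ * sideResB hA hM.1 t (ι d) = sideResB hA hM.1 t (ι a)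
      rw [← map_mul, he']
    have hdv : ¬ VanAt P (genRes hA hM.1 t d) := fun h => hd ((hv d t).2 h)
    have hreg : RegAt P (sideResB hA hM.1 t b) := by
      have := regAt_div (genRes_regAt_and_vanAt_iff hj hg a t t).1
        (genRes_regAt_and_vanAt_iff hj hg d t t).1 hdv
      rwa [← hmul, mul_div_assoc, div_self fun h => hdv (Or.inl h), mul_one] at this
    refine ⟨hreg, ?_⟩
    have hbc : b ∈ c ↔ a ∈ n := by
      show b ∈ c ↔ ι a ∈ c
      rw [← he']
      exact ⟨fun h => c.mul_mem_right _ h,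
        fun h => (Ideal.IsPrime.mem_or_mem inferInstance h).resolve_right hd⟩
    rw [hbc, hv a t, ← hmul]
    exact ⟨fun h => by_contra fun h' => not_vanAt_mul hreg
      (genRes_regAt_and_vanAt_iff hj hg d t t).1 h' hdv h,
      fun h => VanAt.mul_right h (genRes_regAt_and_vanAt_iff hj hg d t t).1⟩
  · haveI := isNoetherianRing_chart hA (M * q * q) false
    haveI : (RingHom.ker (sideResB hA hM.1 .s20)).IsPrime := RingHom.ker_isPrime _
    have h20 : ∀ a : G, a ∈ n → ∀ t, VanAt P (genRes hA hM.1 t a) := fun a ha t => (hv a t).1 ha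
    refine (uniqueFactorizationMonoid_localization_of_pair c
      (RingHom.ker (sideResB hA hM.1 .s20)) (fun h => hqF ?_) ?_
      (x := ι x) (y := ι z) hxn hzn fun b hb => ?_).1
    · have : (q : chart₂ A M q false) ∈ RingHom.ker (sideResB hA hM.1 .s20) := by
        rw [RingHom.mem_ker, ← map_natCast ι]
        exact hq20
      rw [h, Ideal.mem_bot] at this
      exact_mod_cast congrArg Subtype.val this
    · refine lt_of_le_of_ne (fun b hb => ?_) fun h => hx0 (h.ge hxn : ι x ∈ _)
      obtain ⟨a, d, hd, he⟩ := hfrac b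
      have he' : b * ι d = ι a := Subtype.ext he
      have ha : a ∈ n := (hv a .s20).2 (Or.inl (by
        show sideResB hA hM.1 .s20 (ι a) = 0
        rw [← he', map_mul, RingHom.mem_ker.1 hb, zero_mul]))
      have : b * ι d ∈ c := he'.symm ▸ ha
      exact (Ideal.IsPrime.mem_or_mem inferInstance this).resolve_right hd
    · obtain ⟨a, d, hd, he⟩ := hfrac b
      have he' : b * ι d = ι a := Subtype.ext he
      have ha : a ∈ n := by
        show ι a ∈ c
        rw [← he']
        exact c.mul_mem_right _ hb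
      obtain ⟨d', hd', hda⟩ := hpair a ha
      refine ⟨ι (d' * d), fun h => (Ideal.IsPrime.mem_or_mem inferInstance (show d' * d ∈ n from h)).elim hd' hd, ?_⟩
      have h1 := Ideal.mem_map_of_mem ι hda
      rw [Ideal.map_span, Set.image_pair] at h1
      rwa [map_mul, mul_assoc, mul_comm (ι d) b, he', ← map_mul]

end Fermat.Agent.Carayol.Reg

end
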