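/-
Theorem of Carayol at `q ^ 2 ∥ M`: the finite chart is regular at the points which
are not glued. On the middle component the kernel is generated near the point by a lift of `0`
whose norm to level `M q` has valuation one, the residue of the quotient being
`(θ π) ^ (q - 1)`.
-/
import Fermat.Agent.Carayol.MainLocalBranch
import Mathlib.RingTheory.RootsOfUnity.Lemmas

set_option autoImplicit false
set_option linter.style.haveILetI false
set_option linter.unusedSectionVars false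

noncomputable section

namespace Fermat.Agent.Carayol.Reg

open ModularCurve IntermediateField IsLocalRing AlgebraicCurve Fermat.Agent.Genus

set_option maxHeartbeats 1000000
set_option synthInstance.maxHeartbeats 200000

local notation "Qbar" => AlgebraicClosure ℚ
local notation "Ser" => LaurentSeries (AlgebraicClosure ℚ)

variable {A : ValuationSubring (AlgebraicClosure ℚ)} {M q : ℕ} [NeZero M] [Fact q.Prime]

/-! ### The difference quotient of a twist -/

section Twist

variable [CharP (Res A) q]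

theorem exists_seriesTwist_sub_coeff {v : Aˣ} (hv1 : residue A v = 1)
    (hvq : ((v : A) : Qbar) ^ q = 1) (y : LaurentSeries A) :
    ∃ Y : LaurentSeries A,
      coeffMap (residue A) Y = eulerOp (coeffMap (residue A) y) ∧
      coeffMap (residue A) (seriesTwist v y) = coeffMap (residue A) y ∧
      seriesTwist v y - y = HahnSeries.C ((v : A) - 1) * Y := by
  have hq0 : (q : ℤ) ≠ 0 := by exact_mod_cast (Fact.out : q.Prime).ne_zero
  let g : ℤ → A := fun n => ∑ l ∈ Finset.range (n % (q : ℤ)).toNat, (v : A) ^ l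
  let Y : LaurentSeries A :=
    { coeff := fun n => g n * y.coeff n
      isPWO_support' := y.isPWO_support'.mono fun n hn h0 => hn (by simp [h0]) }
  have hzpow : ∀ n : ℤ, ((v ^ n : Aˣ) : A) = (v : A) ^ (n % (q : ℤ)).toNat := fun n => by
    have h1 : v ^ q = 1 := Units.ext (Subtype.ext (by simpa using hvq))
    conv_lhs => rw [← Int.emod_add_ediv_mul n (q : ℤ), zpow_add, mul_comm (n / (q : ℤ)),
      zpow_mul, zpow_natCast, h1, one_zpow, mul_one,
      ← Int.toNat_of_nonneg (Int.emod_nonneg n hq0), zpow_natCast, Units.val_pow_eq_pow_val]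
  have hres : ∀ n : ℤ, residue A ((v ^ n : Aˣ) : A) = 1 := fun n => by
    rw [hzpow, map_pow, hv1, one_pow]
  refine ⟨Y, ?_, ?_, ?_⟩
  · ext n
    rw [eulerOp_coeff, coeffMap_coeff, coeffMap_coeff]
    show residue A (g n * y.coeff n) = _
    rw [map_mul, map_sum]
    simp only [map_pow, hv1, one_pow, Finset.sum_const, Finset.card_range, nsmul_eq_mul, mul_one]
    congr 1
    rw [← Int.cast_natCast (R := Res A), Int.toNat_of_nonneg (Int.emod_nonneg n hq0)]
    exact (CharP.intCast_eq_intCast (Res A) q).2 (Int.mod_modEq n q)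
  · ext n
    rw [coeffMap_coeff, coeffMap_coeff, seriesTwist_coeff, map_mul, hres, one_mul]
  · ext n
    rw [HahnSeries.C_apply, HahnSeries.coeff_single_zero_mul, HahnSeries.coeff_sub,
      seriesTwist_coeff, hzpow]
    refine congrArg Subtype.val ?_
    show _ = ((v : A) - 1) * (g n * y.coeff n)
    rw [← mul_assoc, mul_comm ((v : A) - 1), geom_sum_mul, sub_mul, one_mul]

theorem coeffMap_subtype_seriesTwist {v : Aˣ} {u : Qbarˣ} (hv : ((v : A) : Qbar) = u)
    (y : LaurentSeries A) :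
    coeffMap A.subtype (seriesTwist v y) = seriesTwist u (coeffMap A.subtype y) := by
  have hu : Units.map A.subtype.toMonoidHom v = u := Units.ext hv
  ext n
  rw [coeffMap_coeff, seriesTwist_coeff, seriesTwist_coeff, coeffMap_coeff, map_mul, ← hu,
    ← map_zpow]
  rfl

/-- `g (u t) - g (t)` is `u - 1` times a series reducing to the derivative of the reduction. -/
theorem exists_seriesTwist_sub (hA : A.LiesOverPrime q) {u : Qbarˣ} (hu : u ^ q = 1) {g : Ser}
    (hg : g ∈ GaussInt A) :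
    ∃ G : Ser, G ∈ GaussInt A ∧ red A G = eulerOp (red A g) ∧
      seriesTwist u g - g = algebraMap Qbar Ser ((u : Qbar) - 1) * G := by
  obtain ⟨v, hv, hv1⟩ :=
    exists_unit_of_pow_eq_one (q := q) hA (u := u) (k := 1) (by rwa [pow_one])
  have hvq : ((v : A) : Qbar) ^ q = 1 := by
    rw [hv, ← Units.val_pow_eq_pow_val, hu, Units.val_one]
  obtain ⟨y₁, y₂, hy, e⟩ := id hg
  obtain ⟨Y₁, hY₁, -, hd₁⟩ := exists_seriesTwist_sub_coeff hv1 hvq y₁
  obtain ⟨Y₂, hY₂, ht₂, hd₂⟩ := exists_seriesTwist_sub_coeff hv1 hvq y₂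
  have hne : coeffMap (residue A) (seriesTwist v y₂ * y₂) ≠ 0 := by
    rw [map_mul, ht₂]; exact mul_ne_zero hy hy
  have hne' : coeffMap A.subtype (seriesTwist v y₂ * y₂) ≠ 0 := fun h0 => hne (by
    rw [(map_eq_zero_iff _ (coeffMap_subtype_injective A)).1 h0, map_zero])
  set G : Ser := coeffMap A.subtype (Y₁ * y₂ - y₁ * Y₂) /
    coeffMap A.subtype (seriesTwist v y₂ * y₂) with hG
  have hGe : G * coeffMap A.subtype (seriesTwist v y₂ * y₂) =
      coeffMap A.subtype (Y₁ * y₂ - y₁ * Y₂) := div_mul_cancel₀ _ hne'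
  refine ⟨G, ⟨_, _, hne, hGe⟩, ?_, ?_⟩
  · rw [red_eq_div hne hGe, red_eq_div hy e, map_sub, map_mul, map_mul, map_mul, hY₁, hY₂, ht₂,
      ← eulerOp_div_mul _ _ hy, mul_div_assoc, div_self (mul_ne_zero hy hy), mul_one]
  · refine mul_right_cancel₀ hne' ?_
    rw [mul_assoc, hGe, map_mul, coeffMap_subtype_seriesTwist hv]
    have h1 : coeffMap A.subtype (seriesTwist v y₁ * y₂ - y₁ * seriesTwist v y₂) =
        algebraMap Qbar Ser ((u : Qbar) - 1) * coeffMap A.subtype (Y₁ * y₂ - y₁ * Y₂) := by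
      rw [show seriesTwist v y₁ * y₂ - y₁ * seriesTwist v y₂ =
          (seriesTwist v y₁ - y₁) * y₂ - y₁ * (seriesTwist v y₂ - y₂) by ring, hd₁, hd₂,
        show HahnSeries.C ((v : A) - 1) * Y₁ * y₂ - y₁ * (HahnSeries.C ((v : A) - 1) * Y₂) =
          HahnSeries.C ((v : A) - 1) * (Y₁ * y₂ - y₁ * Y₂) by ring, map_mul]
      congr 1
      rw [HahnSeries.C_apply, coeffMap_single, algebraMap_laurentSeries_eq_single]
      exact congrArg _ (by rw [map_sub, map_one]; exact congrArg (· - 1) hv)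
    rw [← h1, map_sub, map_mul, map_mul, coeffMap_subtype_seriesTwist hv,
      coeffMap_subtype_seriesTwist hv, ← e, map_mul]
    ring

end Twist

/-! ### The constants `ζ ^ (i + 1) - 1` -/

theorem zetaQ_pow_val_ne_one (i : Fin (q - 1)) :
    ((zetaQ q ^ ((i : ℕ) + 1) : Qbarˣ) : Qbar) - 1 ≠ 0 := by
  rw [sub_ne_zero, Units.val_pow_eq_pow_val]
  exact (isPrimitiveRoot_zetaQ q).pow_ne_one_of_pos_of_lt (by omega) (by omega)

theorem prod_zetaQ_pow_sub_one :
    ∏ i : Fin (q - 1), (((zetaQ q ^ ((i : ℕ) + 1) : Qbarˣ) : Qbar) - 1) =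
      (-1) ^ (q - 1) * (q : Qbar) := by
  have hroot : ∏ i : Fin (q - 1), (1 - (zetaQ q : Qbar) ^ ((i : ℕ) + 1)) = (q : Qbar) := by
    obtain ⟨n, hn⟩ : ∃ n, q = n + 1 := ⟨q - 1, by have := two_le_q q; omega⟩
    rw [Fin.prod_univ_eq_prod_range (fun i => 1 - (zetaQ q : Qbar) ^ (i + 1)),
      show q - 1 = n by omega, IsPrimitiveRoot.prod_one_sub_pow_eq_order
        (hn ▸ isPrimitiveRoot_zetaQ q)]
    rw [hn]; push_cast; rfl
  calc ∏ i : Fin (q - 1), (((zetaQ q ^ ((i : ℕ) + 1) : Qbarˣ) : Qbar) - 1)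
      = ∏ i : Fin (q - 1), (-1) * (1 - (zetaQ q : Qbar) ^ ((i : ℕ) + 1)) :=
        Finset.prod_congr rfl fun i _ => by rw [Units.val_pow_eq_pow_val]; ring
    _ = (-1) ^ (q - 1) * (q : Qbar) := by
        rw [Finset.prod_mul_distrib, Finset.prod_const, Finset.card_univ, Fintype.card_fin, hroot]

theorem valuation_natCast_le_sub_one_pow (hA : A.LiesOverPrime q) (i : Fin (q - 1)) :
    A.valuation (q : Qbar) ≤
      A.valuation (((zetaQ q ^ ((i : ℕ) + 1) : Qbarˣ) : Qbar) - 1) ^ (q - 1) := by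
  set u : Qbar := ((zetaQ q ^ ((i : ℕ) + 1) : Qbarˣ) : Qbar) with hu
  obtain ⟨v, hv, -⟩ := exists_unit_of_pow_eq_one (q := q) hA
    (u := zetaQ q ^ ((i : ℕ) + 1)) (k := 1) (by rw [pow_one]; exact zetaQ_pow_pow _)
  have hprim : IsPrimitiveRoot u q := by
    rw [hu, Units.val_pow_eq_pow_val]
    exact (isPrimitiveRoot_zetaQ q).pow_of_coprime _ ((Nat.coprime_comm.1
      ((Fact.out : q.Prime).coprime_iff_not_dvd.2
        (Nat.not_dvd_of_pos_of_lt (by omega) (by omega)))))
  have hle : ∀ j : Fin (q - 1),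
      A.valuation (((zetaQ q ^ ((j : ℕ) + 1) : Qbarˣ) : Qbar) - 1) ≤ A.valuation (u - 1) := by
    intro j
    obtain ⟨k, -, hk⟩ := hprim.eq_pow_of_pow_eq_one
      (ξ := ((zetaQ q ^ ((j : ℕ) + 1) : Qbarˣ) : Qbar))
      (by rw [← Units.val_pow_eq_pow_val, zetaQ_pow_pow, Units.val_one])
    rw [← hk, ← geom_sum_mul, map_mul]
    refine mul_le_of_le_one_left zero_le ((A.valuation_le_one_iff _).2 ?_)
    exact sum_mem fun l _ => pow_mem (by have h := (v : A).2; rwa [hv] at h) l
  have hnorm : A.valuation (((-1 : Qbar)) ^ (q - 1)) = 1 := by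
    rw [map_pow, Valuation.map_neg, map_one, one_pow]
  calc A.valuation (q : Qbar) = A.valuation
        (∏ j : Fin (q - 1), (((zetaQ q ^ ((j : ℕ) + 1) : Qbarˣ) : Qbar) - 1)) := by
        rw [prod_zetaQ_pow_sub_one, map_mul, hnorm, one_mul]
    _ = ∏ j : Fin (q - 1), A.valuation (((zetaQ q ^ ((j : ℕ) + 1) : Qbarˣ) : Qbar) - 1) :=
        map_prod A.valuation _ _
    _ ≤ ∏ _j : Fin (q - 1), A.valuation (u - 1) :=
        Finset.prod_le_prod' fun j _ => hle j
    _ = _ := by rw [Finset.prod_const, Finset.card_univ, Fintype.card_fin]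

/-- An element vanishing on the middle component is divisible by `ζ ^ (i + 1) - 1` there. -/
theorem exists_e₁₁_eq_sub_one_mul (hA : A.LiesOverPrime q) (hqM : ¬ q ∣ M) (i : Fin (q - 1))
    (f : sideInt A M q .s11) (h0 : sideRes A M q .s11 f = 0) :
    ∃ G : Ser, G ∈ GaussInt A ∧ e₁₁ A M q i (f : F₂ A M q) =
      algebraMap Qbar Ser (((zetaQ q ^ ((i : ℕ) + 1) : Qbarˣ) : Qbar) - 1) * G := by
  rcases eq_or_ne (f : F₂ A M q) 0 with hf | hf
  · exact ⟨0, zero_mem _, by rw [hf, map_zero, mul_zero]⟩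
  have hm : 0 < val₁₁ A M q (f : F₂ A M q) := (sideRes_eq_zero_iff hA hqM .s11 hf).1 h0
  have hspec := val₁₁_spec hA hqM hf i
  obtain ⟨n, hn⟩ : ∃ n : ℕ, val₁₁ A M q (f : F₂ A M q) = ((n + 1 : ℕ) : ℤ) :=
    ⟨(val₁₁ A M q (f : F₂ A M q) - 1).toNat, by omega⟩
  rw [hn, zpow_natCast] at hspec
  set u : Qbar := ((zetaQ q ^ ((i : ℕ) + 1) : Qbarˣ) : Qbar) with hu
  have hu0 : u - 1 ≠ 0 := zetaQ_pow_val_ne_one i
  set c : Qbar := midUnif q ^ (n + 1) / (u - 1) with hc
  have hq1 : q - 1 ≠ 0 := by have := two_le_q q; omega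
  have hq' : A.valuation (q : Qbar) = A.valuation (midUnif q) ^ (q - 1) := by
    rw [CGood.valuation_q hA, CGood.coe_wQ]
  have hcA : c ∈ A := by
    rw [← A.valuation_le_one_iff, hc, map_div₀, map_pow]
    refine (div_le_one₀ (zero_lt_iff.2 ((_root_.map_ne_zero _).2 hu0))).2 ?_
    refine le_trans (pow_le_of_le_one zero_le (valuation_midUnif_lt hA).le n.succ_ne_zero) ?_
    rw [← pow_le_pow_iff_left₀ zero_le zero_le hq1, ← hq']
    exact valuation_natCast_le_sub_one_pow hA i
  refine ⟨algebraMap Qbar Ser c *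
    ((algebraMap Qbar Ser (midUnif q ^ (n + 1)))⁻¹ * e₁₁ A M q i (f : F₂ A M q)),
    mul_mem (red_algebraMap hcA).1 hspec.1, ?_⟩
  rw [← mul_assoc, ← map_mul, hc, mul_div_cancel₀ _ hu0,
    mul_inv_cancel_left₀ ((_root_.map_ne_zero _).2 (pow_ne_zero _ midUnif_ne))]

theorem red_neg_one_pow [CharP (Res A) q] :
    ((-1 : Ser) ^ (q - 1)) ∈ GaussInt A ∧ red A ((-1 : Ser) ^ (q - 1)) = 1 := by
  have h1 : (-1 : Ser) ∈ GaussInt A := neg_mem (one_mem _)
  refine ⟨pow_mem h1 _, ?_⟩
  have h2 : red A (-1 : Ser) = algebraMap (Res A) (ResSer A) (-1) := by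
    rw [map_neg, map_one, red_eq h1, show (⟨(-1 : Ser), h1⟩ : gaussSubring A (residue A)) = -1
      from rfl, map_neg, map_one]
  have h3 : (-1 : Res A) ^ (q - 1) = 1 := by
    have h : (-1 : Res A) ^ q = -1 := by rw [← frobenius_def, map_neg, map_one]
    rw [← Nat.sub_add_cancel (Fact.out : q.Prime).one_le, pow_succ, mul_neg, mul_one, neg_inj] at h
    exact h
  rw [red_pow h1, h2, ← map_pow, h3, map_one]

/-! ### Series integral over `K [j]` -/

variable (A) in
/-- The series integral over `K [j]`. -/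
def jIntSeries : Subring Ser :=
  integralElems (Algebra.adjoin (inertiaField A) {jqModC Qbar}).val.toRingHom

theorem mem_jIntSeries_of_hom {N : ℕ} [NeZero N] (φ : Fld A N →ₐ[inertiaField A] Ser)
    (hφ : φ (jElt A N) = jqModC Qbar) {g : Fld A N}
    (hg : IsIntegral (Algebra.adjoin (inertiaField A) {jElt A N}) g) :
    φ g ∈ jIntSeries A := by
  refine isIntegralElem_transfer φ.toRingHom (fun a => ?_) hg
  have h : (φ (a : Fld A N)) ∈ (Algebra.adjoin (inertiaField A) {jElt A N}).map φ :=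
    ⟨a, a.2, rfl⟩
  rw [AlgHom.map_adjoin_singleton, hφ] at h
  exact ⟨⟨_, h⟩, rfl⟩

theorem isIntegral_of_coe_mem_jIntSeries {N : ℕ} [NeZero N] {g : Fld A N}
    (hg : (g : Ser) ∈ jIntSeries A) :
    IsIntegral (Algebra.adjoin (inertiaField A) {jElt A N}) g := by
  set K' := Algebra.adjoin (inertiaField A) {jElt A N}
  set ψ : K' →+* Ser := (Fld A N).val.toRingHom.comp K'.val.toRingHom
  have h : ψ.IsIntegralElem (g : Ser) := by
    refine isIntegralElem_transfer (RingHom.id Ser) (fun a => ?_) (mem_integralElems.1 hg)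
    have ha : (a : Ser) ∈ K'.map (Fld A N).val := by
      rw [AlgHom.map_adjoin_singleton, show (Fld A N).val (jElt A N) = jqModC Qbar from
        coe_jElt (A := A) N]
      exact a.2
    obtain ⟨b, hb, hba⟩ := ha
    exact ⟨⟨b, hb⟩, hba⟩
  obtain ⟨p, hp, hp0⟩ := h
  refine ⟨p, hp, (Fld A N).val.toRingHom.injective ?_⟩
  rw [Polynomial.hom_eval₂, map_zero]
  exact hp0

theorem mem_jIntSeries_of_chart₂ (hqM : ¬ q ∣ M) {x : F₂ A M q}
    (hx : x ∈ chart₂ A M q false) :
    (x : Ser) ∈ jIntSeries A ∧ ∀ i, e₁₁ A M q i x ∈ jIntSeries A := by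
  have h := isIntegral_adjoin_of_mem_chart₂ hx
  refine ⟨mem_jIntSeries_of_hom (Fld A (M * q * q)).val (coe_jElt (A := A) (M * q * q)) h, fun i => ?_⟩
  refine mem_jIntSeries_of_hom (e₁₁ A M q i) ?_ h
  rw [← x₂_jElt, e₁₁_x₂ hqM]
  exact coe_jElt (A := A) M

/-! ### The points which are not glued -/

section Single

variable [CharP (Res A) q] [IsAlgClosed (Res A)]

theorem exists_ker_notMem (hA : A.LiesOverPrime q) (hqM : ¬ q ∣ M)
    {c : Ideal (chart₂ A M q false)} [c.IsMaximal] {s s' : Side} {P : Pt A M}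
    (hs : IsBranch A M q false c s P) (hng : ¬ Glued hA hqM P) (hne : s' ≠ s) :
    ∃ f : chart₂ A M q false, sideResB hA hqM s' f = 0 ∧ f ∉ c := by
  by_contra! hcon
  obtain ⟨P', hP'⟩ := exists_isBranch_of_ker_le hA hqM false c s' hcon
  exact hne ((branch_unique_of_not_glued hA hqM hs hng s' P').1 hP').1

/-- A lift of zero on the middle component, a unit at `(20, P)`, whose conjugates are
`ζ ^ (i + 1) - 1` times series reducing to `θ π`. -/
theorem exists_middle_generator {hA : A.LiesOverPrime q} {hqM : ¬ q ∣ M} {P : Pt A M}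
    (hj : RegAt P (jRes A M)) (hng : ¬ Glued hA hqM P) (u : Unif hA hqM P) :
    ∃ w : chart₂ A M q false, sideResB hA hqM .s11 w = 0 ∧
      ¬ VanAt P (sideResB hA hqM .s20 w) ∧
      ∀ i, ∃ G : Ser, G ∈ GaussInt A ∧ red A G = eulerOp (u.π : ResSer A) ∧
        e₁₁ A M q i (w : F₂ A M q) =
          algebraMap Qbar Ser (((zetaQ q ^ ((i : ℕ) + 1) : Qbarˣ) : Qbar) - 1) * G := by
  set w : chart₂ A M q false := ⟨_, z₂_mem u.L.2⟩ - ⟨_, x₂_mem u.L.2⟩ with hwdef
  have hw11 : sideResB hA hqM .s11 w = 0 := by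
    rw [hwdef, map_sub, (sideResB_z₂ hA hqM u.L).2.1, (sideResB_x₂ hA hqM u.L).2.1, sub_self]
  have hL : ((u.L : F₀ A M) : Ser) ∈ GaussInt A := gaussInt_of_chart₀ hA hqM u.L.2
  have hG : ∀ i, ∃ G : Ser, G ∈ GaussInt A ∧ red A G = eulerOp (u.π : ResSer A) ∧
      e₁₁ A M q i (w : F₂ A M q) =
        algebraMap Qbar Ser (((zetaQ q ^ ((i : ℕ) + 1) : Qbarˣ) : Qbar) - 1) * G := fun i => by
    obtain ⟨G, hG, hr, he⟩ :=
      exists_seriesTwist_sub hA (u := zetaQ q ^ ((i : ℕ) + 1)) (zetaQ_pow_pow _) hL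
    refine ⟨G, hG, ?_, ?_⟩
    · rw [hr, ← coe_red₀ hA hqM u.L, u.red_L]
    · rw [← he]
      show e₁₁ A M q i (z₂ A M q (u.L : F₀ A M) - x₂ A M q (u.L : F₀ A M)) = _
      rw [map_sub, e₁₁_z₂ hqM, e₁₁_x₂ hqM]
      rfl
  by_cases hv : VanAt P (sideResB hA hqM .s20 w)
  swap
  · exact ⟨w, hw11, hv, hG⟩
  obtain ⟨c₀, hc₀, hb₀⟩ := exists_isMaximal_isBranch hA hqM false .s20 P
    (chartRes_regular hA hqM hj)
  obtain ⟨e, he11, hec⟩ := exists_ker_notMem hA hqM hb₀ hng (s' := .s11) (by decide)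
  have hev : ¬ VanAt P (sideResB hA hqM .s20 e) := fun h =>
    hec ((mem_iff_vanAt_of_isBranch hb₀ e).2 h)
  refine ⟨w + e ^ q, ?_, fun h => hev ?_, fun i => ?_⟩
  · rw [map_add, map_pow, he11, hw11, zero_pow (Fact.out : q.Prime).ne_zero, add_zero]
  · rw [map_add, map_pow] at h
    refine (vanAt_pow_iff (Fact.out : q.Prime).pos).1 ?_
    have := h.sub hv
    rwa [add_sub_cancel_left] at this
  · obtain ⟨G, hG, hr, heq⟩ := hG i
    set fe : sideInt A M q .s11 := ⟨e, chart_le_sideInt hA hqM false .s11 e.2⟩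
    have h0 : sideRes A M q .s11 fe = 0 := he11
    obtain ⟨H, hH, hHe⟩ := exists_e₁₁_eq_sub_one_mul hA hqM i fe h0
    obtain ⟨hX, hXr⟩ := red_e₁₁ hA hqM i fe
    rw [h0, ZeroMemClass.coe_zero] at hXr
    have hq1 : q - 1 ≠ 0 := by have := two_le_q q; omega
    refine ⟨G + H * e₁₁ A M q i (e : F₂ A M q) ^ (q - 1), add_mem hG (mul_mem hH (pow_mem hX _)),
      ?_, ?_⟩
    · rw [red_add hG (mul_mem hH (pow_mem hX _)), red_mul hH (pow_mem hX _), red_pow hX, hXr,
        zero_pow hq1, mul_zero, add_zero, hr]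
    · rw [AddMemClass.coe_add, map_add, heq, SubmonoidClass.coe_pow, map_pow, mul_add,
        ← mul_assoc, ← hHe, ← pow_succ', Nat.sub_add_cancel (Fact.out : q.Prime).one_le]

theorem uniqueFactorizationMonoid_of_not_glued_middle (hA : A.LiesOverPrime q)
    (hM : Admissible q M) {c : Ideal (chart₂ A M q false)} [c.IsMaximal] {P : Pt A M}
    (hs : IsBranch A M q false c .s11 P) (hng : ¬ Glued hA hM.1 P) :
    UniqueFactorizationMonoid (Localization.AtPrime c) := by
  have hqM : ¬ q ∣ M := hM.1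
  have hj := regAt_jRes_of_isBranch hA hqM hs
  obtain ⟨u⟩ := nonempty_unif hA hqM hj
  obtain ⟨-, R, hR, hRreg, hRv⟩ := u.of_not_glued hM hj hng
  obtain ⟨w, hw11, hw20, hmid⟩ := exists_middle_generator hj hng u
  choose G hG hGr hGe using hmid
  obtain ⟨f20, hf20, hf20c⟩ := exists_ker_notMem hA hqM hs hng (s' := .s20) (by decide)
  obtain ⟨f02, hf02, hf02c⟩ := exists_ker_notMem hA hqM hs hng (s' := .s02) (by decide)
  set e : chart₂ A M q false := f20 * f02 with hedef
  have hec : e ∉ c := Ideal.IsPrime.mul_notMem inferInstance hf20c hf02c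
  have he20 : sideResB hA hqM .s20 e = 0 := by rw [hedef, map_mul, hf20, zero_mul]
  have he02 : sideResB hA hqM .s02 e = 0 := by rw [hedef, map_mul, hf02, mul_zero]
  obtain ⟨b, hb0, hb⟩ := exists_redZero_eq_zero hj hng
  have hwint : ∀ s, sideEmb A M q s (w : F₂ A M q) ∈ GaussInt A := fun s =>
    (mem_gaussInt_of_mem_sideInt A M q s (chart_le_sideInt hA hqM false s w.2)).1
  have hw0 : (w : F₂ A M q) ≠ 0 := fun h => hw20 (Or.inl (by
    rw [show w = 0 from Subtype.ext h, map_zero]))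
  -- the norm and its quotient by `q`
  set N : F₁ A M q := norm₀₁ A M q (w : F₂ A M q) with hNdef
  have hNser : (N : Ser) = ((w : F₂ A M q) : Ser) * ∏ i, e₁₁ A M q i (w : F₂ A M q) :=
    coe_norm₀₁ hqM _
  set n : Ser := ((N / (q : F₁ A M q) : F₁ A M q) : Ser) with hndef
  have hn : n = ((w : F₂ A M q) : Ser) * ((-1) ^ (q - 1) * ∏ i, G i) := by
    refine mul_right_cancel₀ (natCast_ser_ne (q := q)) ?_
    rw [hndef, coe_div_natCast, hNser, Finset.prod_congr rfl fun i _ => hGe i,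
      Finset.prod_mul_distrib, ← map_prod, prod_zetaQ_pow_sub_one, map_mul, map_pow, map_neg,
      map_one, map_natCast]
    ring
  obtain ⟨hsign, hsign1⟩ := red_neg_one_pow (A := A) (q := q)
  have hGp : ∏ i, G i ∈ GaussInt A := prod_mem fun i _ => hG i
  have hw20g : ((w : F₂ A M q) : Ser) ∈ GaussInt A := hwint .s20
  have hng' : n ∈ GaussInt A := by rw [hn]; exact mul_mem hw20g (mul_mem hsign hGp)
  have hnr : red A n = ((sideResB hA hqM .s20 w * R : RFld A M) : ResSer A) := by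
    rw [hn, red_mul hw20g (mul_mem hsign hGp), red_mul hsign hGp, hsign1, one_mul,
      red_prod _ fun i _ => hG i, Finset.prod_congr rfl fun i _ => hGr i, Finset.prod_const,
      Finset.card_univ, Fintype.card_fin, IntermediateField.coe_mul, coe_sideResB, hR]
    rfl
  -- integrality
  have hNint : IsIntegral (Algebra.adjoin (inertiaField A) {jElt A (M * q)}) N :=
    isIntegral_of_coe_mem_jIntSeries (by
      rw [hNser]
      exact mul_mem (mem_jIntSeries_of_chart₂ hqM w.2).1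
        (prod_mem fun i _ => (mem_jIntSeries_of_chart₂ hqM w.2).2 i))
  -- the zero side of the norm
  have htw : ∀ i : Fin q, seriesTwist (zetaQ q ^ (i : ℕ))
      (w₂ A M q (w : F₂ A M q) : Ser) ∈ GaussInt A := fun i =>
    (red_seriesTwist hA (zetaQ_pow_qpow (q := q) (i : ℕ)) _).1.2 (hwint .s02)
  have hwN : (w₁ A M q N : Ser) ∈ GaussInt A := by
    rw [← qExpand_mem_gaussInt_iff q, hNdef, qExpand_w₁_norm₀₁ hqM]
    exact prod_mem fun i _ => htw i
  have hbq : ((w₁ A M q (b : F₁ A M q) / (q : F₁ A M q) : F₁ A M q) : Ser) ∈ GaussInt A := by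
    refine gaussInt_div_natCast hA _ (gaussInt_of_chart₁ hA hqM (w₁_mem hqM b.2)) ?_
    rw [← coe_redInf hA hqM ⟨_, w₁_mem hqM b.2⟩, ← redZero_apply, hb0]
    rfl
  set ρ : F₁ A M q := N / (q : F₁ A M q) * (b : F₁ A M q) with hρdef
  have hρg : (ρ : Ser) ∈ GaussInt A := by
    rw [hρdef, IntermediateField.coe_mul]
    exact mul_mem hng' (gaussInt_of_chart₁ hA hqM b.2)
  have hρmem : ρ ∈ chart₁ A M q := by
    refine mem_chart₁_of hA hqM false ρ
      ((isIntegral_natCast_inv_mul hNint).mul (isIntegral_of_mem_chart b.2)) hρg ?_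
    rw [hρdef, div_mul_eq_mul_div, mul_div_assoc, map_mul, map_div₀, map_natCast,
      IntermediateField.coe_mul]
    exact mul_mem hwN hbq
  have hρred : redInf hA hqM ⟨ρ, hρmem⟩ = sideResB hA hqM .s20 w * R * redInf hA hqM b := by
    refine Subtype.ext ?_
    rw [IntermediateField.coe_mul, coe_redInf, coe_redInf]
    show red A ((N / (q : F₁ A M q) * (b : F₁ A M q) : F₁ A M q) : Ser) = _
    rw [IntermediateField.coe_mul,
      red_mul hng' (gaussInt_of_chart₁ hA hqM b.2), ← hnr]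
  set pρ : chart₂ A M q false := ⟨_, p₀₁_mem hρmem⟩ with hpρ
  have hpρc : pρ ∉ c := by
    rw [mem_iff_vanAt_of_isBranch (hA := hA) (hqM := hqM) hs,
      (sideResB_p₀₁ hA hqM ⟨ρ, hρmem⟩).2.1, hρred]
    have hreg : RegAt P (sideResB hA hqM .s20 w) := chartRes_regular hA hqM (b := false) (s := .s20) hj w
    have hbreg : RegAt P (redInf hA hqM b) :=
      regAt_of_isIntegral hj (isIntegral_redInf hA hqM b)
    exact not_vanAt_mul (mul_mem hreg hRreg) hbreg (not_vanAt_mul hreg hRreg hw20 hRv) hb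
  -- the generator of the kernel
  refine uniqueFactorizationMonoid_of_isBranch hA hqM hs
    (fun g hg => exists_lift_of_isBranch hA hqM hs hg) w
    ((mem_iff_vanAt_of_isBranch hs w).2 (Or.inl hw11)) fun x hx => ?_
  refine ⟨pρ * e, Ideal.IsPrime.mul_notMem inferInstance hpρc hec, ?_⟩
  set W : F₂ A M q := p₀₁ A M q N / (w : F₂ A M q) with hW
  have hWw : W * (w : F₂ A M q) = p₀₁ A M q N := div_mul_cancel₀ _ hw0
  have hqF : (q : F₂ A M q) ≠ 0 := natCast_q_ne_zero_fld (M * q * q)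
  set z : F₂ A M q := (x : F₂ A M q) * ((e : F₂ A M q) / (q : F₂ A M q)) *
    p₀₁ A M q (b : F₁ A M q) * W with hz
  have hWint : IsIntegral (Algebra.adjoin (inertiaField A) {jElt A (M * q * q)}) W := by
    refine isIntegral_of_coe_mem_jIntSeries ?_
    have hWs : (W : Ser) = ∏ i, e₁₁ A M q i (w : F₂ A M q) := by
      refine mul_right_cancel₀ (b := ((w : F₂ A M q) : Ser)) (fun h => hw0 (Subtype.ext h)) ?_
      rw [← IntermediateField.coe_mul, hWw, coe_incl, hNser, mul_comm]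
    rw [hWs]
    exact prod_mem fun i _ => (mem_jIntSeries_of_chart₂ hqM w.2).2 i
  have hzint : IsIntegral (Algebra.adjoin (inertiaField A) {jElt A (M * q * q)}) z :=
    (((isIntegral_adjoin_of_mem_chart₂ x.2).mul
      (isIntegral_natCast_inv_mul (isIntegral_adjoin_of_mem_chart₂ e.2))).mul
      (isIntegral_adjoin_of_mem_chart₂ (p₀₁_mem b.2))).mul hWint
  clear_value z
  have hchart : ∀ s (y : chart₂ A M q false), sideEmb A M q s (y : F₂ A M q) ∈ GaussInt A :=
    fun s y => (mem_gaussInt_of_mem_sideInt A M q s (chart_le_sideInt hA hqM false s y.2)).1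
  have hb' := fun s => hchart s ⟨_, p₀₁_mem b.2⟩
  have hzmem : ∀ s, z ∈ sideInt A M q s := by
    intro s
    rw [mem_sideInt hA hqM]
    cases s with
    | s20 =>
      rw [hz, map_mul, map_mul, map_mul]
      refine mul_mem (mul_mem (mul_mem (hchart _ x) ?_) (hb' _)) ?_
      · refine gaussInt_div_natCast hA _ (hchart .s20 e) ?_
        exact ((coe_sideResB hA hqM .s20 e).symm.trans (congrArg _ he20)).trans rfl
      · have hWs : sideEmb A M q .s20 W = ∏ i, e₁₁ A M q i (w : F₂ A M q) := by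
          show (W : Ser) = _
          refine mul_right_cancel₀ (b := ((w : F₂ A M q) : Ser)) (fun h => hw0 (Subtype.ext h)) ?_
          rw [← IntermediateField.coe_mul, hWw, coe_incl, hNser, mul_comm]
        rw [hWs]
        exact prod_mem fun i _ =>
          (red_e₁₁ hA hqM i ⟨w, chart_le_sideInt hA hqM false .s11 w.2⟩).1
    | s02 =>
      rw [hz, map_mul, map_mul, map_mul]
      refine mul_mem (mul_mem (mul_mem (hchart _ x) ?_) (hb' _)) ?_
      · show ((w₂ A M q ((e : F₂ A M q) / (q : F₂ A M q)) : F₂ A M q) : Ser) ∈ _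
        rw [map_div₀, map_natCast]
        refine gaussInt_div_natCast hA _ (hchart .s02 e) ?_
        exact ((coe_sideResB hA hqM .s02 e).symm.trans (congrArg _ he02)).trans rfl
      · let i₀ : Fin q := ⟨0, (Fact.out : q.Prime).pos⟩
        have hWs : sideEmb A M q .s02 W = ∏ i ∈ Finset.univ.erase i₀,
            seriesTwist (zetaQ q ^ (i : ℕ)) (w₂ A M q (w : F₂ A M q) : Ser) := by
          show (w₂ A M q W : Ser) = _
          refine mul_right_cancel₀ (b := (w₂ A M q (w : F₂ A M q) : Ser))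
            (fun h => hw0 ((map_eq_zero (w₂ A M q)).1 (Subtype.ext h))) ?_
          rw [← IntermediateField.coe_mul, ← map_mul, hWw, w₂_p₀₁ hqM, coe_scale, hNdef,
            qExpand_w₁_norm₀₁ hqM, ← Finset.mul_prod_erase Finset.univ _ (Finset.mem_univ i₀)]
          rw [show (i₀ : ℕ) = 0 from rfl, pow_zero, seriesTwist_one, mul_comm]
        rw [hWs]
        exact prod_mem fun i _ => htw i
    | s11 =>
      have h0 : 0 < q - 1 := by have := two_le_q q; omega
      obtain ⟨H, hH, hHe⟩ := exists_e₁₁_eq_sub_one_mul hA hqM ⟨0, h0⟩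
        ⟨x, chart_le_sideInt hA hqM false .s11 x.2⟩ hx
      have hGu : IsGaussUnit A (G ⟨0, h0⟩) := ⟨hG _, by
        rw [hGr]; exact u.eulerOp_π_ne_zero⟩
      have key : sideEmb A M q .s11 z = H * sideEmb A M q .s11 (e : F₂ A M q) *
          sideEmb A M q .s11 (p₀₁ A M q (b : F₁ A M q)) * (n * (G ⟨0, h0⟩)⁻¹) := by
        set c0 := algebraMap Qbar Ser
          (((zetaQ q ^ (((⟨0, h0⟩ : Fin (q - 1)) : ℕ) + 1) : Qbarˣ) : Qbar) - 1)
        have hc0 : c0 ≠ 0 := (_root_.map_ne_zero _).2 (zetaQ_pow_val_ne_one _)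
        have hG0 := hGu.ne_zero
        refine mul_right_cancel₀
          (mul_ne_zero (natCast_ser_ne (q := q)) (mul_ne_zero hc0 hG0)) ?_
        have h1 : z * ((q : F₂ A M q) * (w : F₂ A M q)) =
            (x : F₂ A M q) * (e : F₂ A M q) * p₀₁ A M q (b : F₁ A M q) * p₀₁ A M q N := by
          rw [← hWw, hz]
          field_simp
        have h2 := congrArg (e₁₁ A M q ⟨0, h0⟩) h1
        simp only [map_mul, map_natCast] at h2
        rw [hGe ⟨0, h0⟩, hHe,
          e₁₁_p₀₁ hqM ⟨0, h0⟩ N, ← coe_div_natCast (q := q) N] at h2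
        show e₁₁ A M q ⟨0, h0⟩ z * _ = _
        rw [h2]
        show _ = H * e₁₁ A M q ⟨0, h0⟩ (e : F₂ A M q) *
          e₁₁ A M q ⟨0, h0⟩ (p₀₁ A M q (b : F₁ A M q)) * (n * (G ⟨0, h0⟩)⁻¹) * _
        field_simp
        ring
      rw [key]
      exact mul_mem (mul_mem (mul_mem hH (hchart _ e)) (hb' _)) (mul_mem hng' hGu.inv.1)
  refine Ideal.mem_span_singleton'.2 ⟨⟨z, mem_chart₂_of hA hqM false z hzint hzmem⟩, Subtype.ext ?_⟩
  show z * (w : F₂ A M q) = p₀₁ A M q ρ * (e : F₂ A M q) * (x : F₂ A M q)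
  rw [hz, hρdef, map_mul, map_div₀, map_natCast, mul_assoc _ W, hWw]
  field_simp

/-- **The finite chart is regular at the points which are not glued.** -/
theorem uniqueFactorizationMonoid_of_not_glued (hA : A.LiesOverPrime q) (hM : Admissible q M)
    {c : Ideal (chart₂ A M q false)} [c.IsMaximal] {s : Side} {P : Pt A M}
    (hs : IsBranch A M q false c s P) (hng : ¬ Glued hA hM.1 P) :
    UniqueFactorizationMonoid (Localization.AtPrime c) := by
  rcases eq_or_ne s .s11 with rfl | hne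
  · exact uniqueFactorizationMonoid_of_not_glued_middle hA hM hs hng
  · exact uniqueFactorizationMonoid_of_single hA hM.1 hne
      (branch_unique_of_not_glued hA hM.1 hs hng)
      fun g hg => exists_lift_of_isBranch hA hM.1 hs hg

end Single

end Fermat.Agent.Carayol.Reg

end
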