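/-
Theorem of Carayol at `q ^ 2 ∥ M`: the closed points over `q` of the chart over the
finite `j`-line.
-/
import Fermat.Agent.Carayol.MainLocalGlued
import Fermat.Agent.Carayol.MainLocalSingle

set_option autoImplicit false
set_option linter.style.haveILetI false

noncomputable section

namespace Fermat.Agent.Carayol.Reg

open ModularCurve IntermediateField

variable {A : ValuationSubring (AlgebraicClosure ℚ)} {M q : ℕ} [NeZero M] [Fact q.Prime]

/-- Either one branch, or one on each component at a common point. -/
theorem branch_cases_finite (hA : A.LiesOverPrime q) (hM : Admissible q M)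
    (c : Ideal (chart₂ A M q false)) [c.IsMaximal] (hc : (q : chart₂ A M q false) ∈ c) :
    (∃ s P, ∀ s' P', IsBranch A M q false c s' P' ↔ s' = s ∧ P' = P) ∨
      (∃ P, ∀ s' P', IsBranch A M q false c s' P' ↔ P' = P) := by
  haveI := charP_res (A := A) hA
  haveI := isAlgClosed_res A
  obtain ⟨s, P, hs⟩ := exists_branch hA hM.1 false c hc
  by_cases hg : Glued hA hM.1 P
  · refine Or.inr ⟨P, fun s' P' => ⟨fun h => place_eq_of_isBranch hA hM.1 h hs, ?_⟩⟩
    rintro rfl
    exact (glued_structure hA hM hs hg).1 s'
  · exact Or.inl ⟨s, P, branch_unique_of_not_glued hA hM.1 hs hg⟩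

/-- The finite chart is regular over `q`. -/
theorem uniqueFactorizationMonoid_finite (hA : A.LiesOverPrime q) (hM : Admissible q M)
    (c : Ideal (chart₂ A M q false)) [c.IsMaximal] (hc : (q : chart₂ A M q false) ∈ c) :
    UniqueFactorizationMonoid (Localization.AtPrime c) := by
  haveI := charP_res (A := A) hA
  haveI := isAlgClosed_res A
  obtain ⟨s, P, hs⟩ := exists_branch hA hM.1 false c hc
  by_cases hg : Glued hA hM.1 P
  · exact (glued_structure hA hM hs hg).2
  · exact uniqueFactorizationMonoid_of_not_glued hA hM hs hg

/-- On each branch of the finite chart the local ring maps onto that of the residual curve. -/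
theorem exists_lift_finite (hA : A.LiesOverPrime q) (hM : Admissible q M)
    (c : Ideal (chart₂ A M q false)) [c.IsMaximal] {s : Side} {P : Pt A M}
    (hs : IsBranch A M q false c s P) (g : RFld A M) (hg : g ∈ P.toValuationSubring) :
    ∃ x y : chart₂ A M q false, y ∉ c ∧
      chartRes hA hM.1 false s x = chartRes hA hM.1 false s y * g := by
  haveI := charP_res (A := A) hA
  haveI := isAlgClosed_res A
  exact exists_lift_of_isBranch hA hM.1 hs hg

end Fermat.Agent.Carayol.Reg

end
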