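/-
Theorem of Carayol at `q ^ 2 ∥ M`: away from the cusps a point of the chart at infinity
is a point of the chart over the finite `j`-line, with the same branches and the same local ring.
-/
import Fermat.Agent.Carayol.MainLocalCusp
import Fermat.Agent.Carayol.MainLocalFinite

set_option autoImplicit false
set_option linter.style.haveILetI false
set_option linter.unusedSectionVars false

noncomputable section

namespace Fermat.Agent.Carayol.Reg

open ModularCurve IntermediateField AlgebraicCurve

set_option maxHeartbeats 1000000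
set_option synthInstance.maxHeartbeats 200000

variable {A : ValuationSubring (AlgebraicClosure ℚ)} {M q : ℕ} [NeZero M] [Fact q.Prime]
  {b : Bool} {c : Ideal (chart₂ A M q b)}

/-- The inclusion of a chart into the local ring at one of its points. -/
def toLocRing (c : Ideal (chart₂ A M q b)) [c.IsPrime] : chart₂ A M q b →+* locRing c :=
  Subring.inclusion (chart₂_le_locRing c)

/-- The local ring inside the function field is the localisation. -/
theorem exists_localization_equiv (c : Ideal (chart₂ A M q b)) [c.IsPrime] :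
    Nonempty (Localization.AtPrime c ≃* locRing c) := by
  letI : Algebra (chart₂ A M q b) (locRing c) := (toLocRing c).toAlgebra
  haveI : IsLocalization c.primeCompl (locRing c) :=
    { map_units := fun u => by
        obtain ⟨h0, hinv⟩ := inv_mem_locRing (c := c)
          (chart₂_le_locRing c (u : chart₂ A M q b).2) (f := ((u : chart₂ A M q b) : F₂ A M q))
          fun h => by
            obtain ⟨v, hv, g, hg, hvg⟩ := h
            exact Ideal.IsPrime.mul_notMem inferInstance hv u.2
              ((show v * (u : chart₂ A M q b) = g from Subtype.ext hvg) ▸ hg)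
        exact IsUnit.of_mul_eq_one ⟨_, hinv⟩ (Subtype.ext (mul_inv_cancel₀ h0))
      surj := fun f => by
        obtain ⟨u, hu, g, hg⟩ := f.2
        exact ⟨(g, ⟨u, hu⟩), Subtype.ext ((mul_comm _ _).trans hg)⟩
      exists_of_eq := fun {x y} h =>
        ⟨1, congrArg (_ * ·) (Subtype.ext (congrArg (fun t : locRing c => (t : F₂ A M q)) h) : x = y)⟩ }
  exact ⟨(IsLocalization.algEquiv c.primeCompl (Localization.AtPrime c) (locRing c)).toMulEquiv⟩

theorem uniqueFactorizationMonoid_of_locRing_eq {b' : Bool} (c : Ideal (chart₂ A M q b))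
    [c.IsPrime] (c' : Ideal (chart₂ A M q b')) [c'.IsPrime] (h : locRing c = locRing c')
    (hufm : UniqueFactorizationMonoid (Localization.AtPrime c')) :
    UniqueFactorizationMonoid (Localization.AtPrime c) := by
  obtain ⟨e⟩ := exists_localization_equiv c
  obtain ⟨e'⟩ := exists_localization_equiv c'
  exact ((e.trans (RingEquiv.subringCongr h).toMulEquiv).trans e'.symm).symm.uniqueFactorizationMonoid
    hufm

theorem not_locMax_coe [c.IsPrime] {x : chart₂ A M q b} (hx : x ∉ c) :
    ¬ LocMax c (x : F₂ A M q) := by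
  rintro ⟨v, hv, g, hg, hvg⟩
  exact Ideal.IsPrime.mul_notMem inferInstance hv hx ((show v * x = g from Subtype.ext hvg) ▸ hg)

variable (hA : A.LiesOverPrime q) (hqM : ¬ q ∣ M) {c : Ideal (chart₂ A M q true)} [c.IsMaximal]
  (hc : (q : chart₂ A M q true) ∈ c)
  (hT : (⟨jCoord A (M * q * q) true, self_mem_chart _⟩ : chart₂ A M q true) ∉ c)

include hT in
/-- The finite chart lies in the local ring at a point away from the cusps. -/
theorem chart_false_le_locRing {y : F₂ A M q} (hy : y ∈ chart₂ A M q false) : y ∈ locRing c := by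
  obtain ⟨k, hk⟩ := exists_mul_pow_mem_chart (A := A) (M * q * q) false y hy
  refine ⟨⟨jCoord A (M * q * q) true, self_mem_chart _⟩ ^ k,
    mt (Ideal.IsPrime.mem_of_pow_mem inferInstance k) hT, ⟨_, hk⟩, ?_⟩
  push_cast
  exact mul_comm _ _

theorem jCoord_true_mul_false :
    jCoord A (M * q * q) true * jCoord A (M * q * q) false = 1 :=
  (mul_comm _ _).trans (jCoord_mul _)

include hA hqM hc hT in
/-- The corresponding point of the finite chart. -/
theorem exists_finite_point :
    ∃ (c' : Ideal (chart₂ A M q false)) (_ : c'.IsMaximal), (q : chart₂ A M q false) ∈ c' ∧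
      (⟨jCoord A (M * q * q) false, self_mem_chart _⟩ : chart₂ A M q false) ∉ c' ∧
      (∀ s P, IsBranch A M q true c s P ↔ IsBranch A M q false c' s P) ∧
      locRing c = locRing c' := by
  obtain ⟨s₀, P₀, hP₀⟩ := exists_branch hA hqM true c hc
  have hreg : ∀ {s : Side} {P : Pt A M}, IsBranch A M q true c s P → ∀ y : chart₂ A M q false,
      chartRes hA hqM false s y ∈ P.toValuationSubring ∧
        (LocMax c (y : F₂ A M q) ↔
          chartRes hA hqM false s y ∈ P.toValuationSubring.nonunits) := by
    intro s P hP y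
    obtain ⟨h, h1, h2⟩ := locRing_branch hA hqM hP (chart_false_le_locRing hT y.2)
    exact ⟨h1, h2⟩
  obtain ⟨c', hc'max, hP₀'⟩ := exists_isMaximal_isBranch hA hqM false s₀ P₀
    fun y => (hreg hP₀ y).1
  have hmem : ∀ y : chart₂ A M q false, y ∈ c' ↔ LocMax c (y : F₂ A M q) := fun y =>
    ((isBranch_iff hA hqM).mp hP₀' y).2.trans (hreg hP₀ y).2.symm
  set X : chart₂ A M q true := ⟨jCoord A (M * q * q) true, self_mem_chart _⟩ with hXdef
  set J : chart₂ A M q false := ⟨jCoord A (M * q * q) false, self_mem_chart _⟩ with hJdef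
  have hXJ : (X : F₂ A M q) * J = 1 := jCoord_true_mul_false
  have hJc : J ∉ c' := fun h => by
    have h1 := ((hmem J).mp h).mul_right (chart₂_le_locRing c X.2)
    rw [mul_comm, hXJ] at h1
    exact not_locMax_one h1
  -- elements of the chart at infinity, pushed into the finite chart
  have hpush : ∀ x : chart₂ A M q true, ∃ (k : ℕ) (y : chart₂ A M q false),
      (y : F₂ A M q) = x * (J : F₂ A M q) ^ k := fun x => by
    obtain ⟨k, hk⟩ := exists_mul_pow_mem_chart (A := A) (M * q * q) true x x.2
    exact ⟨k, ⟨_, hk⟩, rfl⟩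
  have hTrue : ∀ x : chart₂ A M q true, (x : F₂ A M q) ∈ locRing c' := fun x => by
    obtain ⟨k, y, hy⟩ := hpush x
    refine ⟨J ^ k, mt (Ideal.IsPrime.mem_of_pow_mem inferInstance k) hJc, y, ?_⟩
    push_cast
    rw [hy, mul_comm]
  have hloc : locRing c = locRing c' := by
    refine le_antisymm (fun f hf => ?_) fun f hf => ?_
    · obtain ⟨u, hu, g, hg⟩ := hf
      obtain ⟨k, y, hy⟩ := hpush u
      have hyc : y ∉ c' := fun h => by
        have h1 := ((hmem y).mp h).mul_right (pow_mem (chart₂_le_locRing c X.2) k)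
        rw [hy, mul_assoc, ← mul_pow, mul_comm (J : F₂ A M q), hXJ, one_pow, mul_one] at h1
        exact not_locMax_coe hu h1
      obtain ⟨h0, hinv⟩ := inv_mem_locRing (chart₂_le_locRing c' y.2) (not_locMax_coe hyc)
      have hf : f = ((g : F₂ A M q) * (J : F₂ A M q) ^ k) * (y : F₂ A M q)⁻¹ := by
        rw [← hg, mul_right_comm _ f, ← hy, mul_comm _ f, mul_assoc, mul_inv_cancel₀ h0, mul_one]
      rw [hf]
      exact mul_mem (mul_mem (hTrue g) (pow_mem (chart₂_le_locRing c' J.2) k)) hinv
    · obtain ⟨u, hu, g, hg⟩ := hf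
      obtain ⟨h0, hinv⟩ := inv_mem_locRing (chart_false_le_locRing hT u.2) (mt (hmem u).mpr hu)
      have hf : f = (g : F₂ A M q) * (u : F₂ A M q)⁻¹ := by
        rw [← hg, mul_comm (u : F₂ A M q), mul_assoc, mul_inv_cancel₀ h0, mul_one]
      rw [hf]
      exact mul_mem (chart_false_le_locRing hT g.2) hinv
  refine ⟨c', hc'max, natCast_mem_of_isBranch hA hqM hP₀', hJc, fun s P => ⟨fun hP => ?_,
    fun hP => ?_⟩, hloc⟩
  · exact (isBranch_iff hA hqM).mpr fun y => ⟨(hreg hP y).1, (hmem y).trans (hreg hP y).2⟩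
  · refine (isBranch_iff hA hqM).mpr fun x => ?_
    obtain ⟨h, h1, h2⟩ := locRing_branch hA hqM hP (hTrue x)
    obtain ⟨h', -, h2'⟩ := locRing_branch hA hqM hP₀' (hTrue x)
    refine ⟨h1, ?_⟩
    rw [((isBranch_iff hA hqM).mp hP₀ x).2]
    exact h2'.symm.trans h2

include hA hqM hT in
/-- Lifts transfer from the finite chart. -/
theorem exists_lift_transfer {c' : Ideal (chart₂ A M q false)} [c'.IsMaximal] {s : Side}
    {P : Pt A M} (hP : IsBranch A M q true c s P) (hP' : IsBranch A M q false c' s P)
    (g : RFld A M)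
    (hlift : ∃ x y : chart₂ A M q false, y ∉ c' ∧
      chartRes hA hqM false s x = chartRes hA hqM false s y * g) :
    ∃ x y : chart₂ A M q true, y ∉ c ∧
      chartRes hA hqM true s x = chartRes hA hqM true s y * g := by
  obtain ⟨x', y', hy', h⟩ := hlift
  set X : chart₂ A M q true := ⟨jCoord A (M * q * q) true, self_mem_chart _⟩ with hXdef
  obtain ⟨k, hk⟩ : ∃ k, (x' : F₂ A M q) * (X : F₂ A M q) ^ k ∈ chart₂ A M q true :=
    exists_mul_pow_mem_chart (A := A) (M * q * q) false x' x'.2
  obtain ⟨l, hl⟩ : ∃ l, (y' : F₂ A M q) * (X : F₂ A M q) ^ l ∈ chart₂ A M q true :=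
    exists_mul_pow_mem_chart (A := A) (M * q * q) false y' y'.2
  have hsum : ∀ (z : chart₂ A M q false) (n : ℕ) (hz : (z : F₂ A M q) * (X : F₂ A M q) ^ n ∈
      chart₂ A M q true), chartRes hA hqM true s ⟨_, hz⟩ =
        chartRes hA hqM false s z * chartRes hA hqM true s X ^ n := by
    intro z n hz
    rw [← chartRes_eq hA hqM (⟨_, hz⟩ : chart₂ A M q true) (chart_le_sideInt hA hqM true s hz),
      ← chartRes_eq hA hqM z (chart_le_sideInt hA hqM false s z.2),
      ← chartRes_eq hA hqM X (chart_le_sideInt hA hqM true s X.2), ← map_pow, ← map_mul]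
    exact congrArg _ (Subtype.ext (by push_cast; rfl))
  refine ⟨⟨_, hk⟩ * X ^ l, ⟨_, hl⟩ * X ^ k, ?_, ?_⟩
  · refine Ideal.IsPrime.mul_notMem inferInstance (fun h' => hy' ?_)
      (mt (Ideal.IsPrime.mem_of_pow_mem inferInstance k) hT)
    rw [((isBranch_iff hA hqM).mp hP' y').2]
    have h1 := ((isBranch_iff hA hqM).mp hP _).2.mp h'
    rw [hsum y' l hl] at h1
    by_contra hn
    have hX : chartRes hA hqM true s X ∉ P.toValuationSubring.nonunits :=
      mt ((isBranch_iff hA hqM).mp hP X).2.mpr hT
    have hv : ∀ {r : RFld A M}, r ∈ P.toValuationSubring →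
        r ∉ P.toValuationSubring.nonunits → P.toValuationSubring.valuation r = 1 := fun hr hn =>
      le_antisymm ((P.toValuationSubring.valuation_le_one_iff _).mpr hr)
        (not_lt.mp fun hlt => hn hlt)
    rw [ValuationSubring.mem_nonunits_iff, map_mul, map_pow,
      hv ((isBranch_iff hA hqM).mp hP' y').1 hn, hv ((isBranch_iff hA hqM).mp hP X).1 hX] at h1
    simp at h1
  · rw [map_mul, map_mul, map_pow, map_pow, hsum x' k hk, hsum y' l hl, h]
    ring

end Fermat.Agent.Carayol.Reg

end
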