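/-
Theorem of Carayol at `q ^ 2 ∥ M`: the local rings of the chart of level `q ^ 2 M` at
the closed points over `q`: regular, with either one branch or one branch on each component.
-/
import Fermat.Agent.Carayol.MainTheta
import Fermat.Agent.Carayol.MainLocalDefs
import Fermat.Agent.Carayol.MainChartBasic
import Fermat.Agent.Carayol.MainLocalTransfer
import Fermat.Agent.Carayol.MainLocalGenerators

set_option autoImplicit false
set_option linter.style.haveILetI false

noncomputable section

namespace Fermat.Agent.Carayol.Reg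

open ModularCurve IntermediateField

variable {A : ValuationSubring (AlgebraicClosure ℚ)} {M q : ℕ} [NeZero M] [Fact q.Prime]

theorem isNoetherianRing_chart₂ (hA : A.LiesOverPrime q) (hM : Admissible q M) (b : Bool) :
    IsNoetherianRing (chart₂ A M q b) :=
  isNoetherianRing_chart hA (M * q * q) b

theorem uniqueFactorizationMonoid_localization (hA : A.LiesOverPrime q) (hM : Admissible q M)
    (b : Bool) (c : Ideal (chart₂ A M q b)) [c.IsMaximal] (hc : (q : chart₂ A M q b) ∈ c) :
    UniqueFactorizationMonoid (Localization.AtPrime c) := by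
  cases b with
  | false => exact uniqueFactorizationMonoid_finite hA hM c hc
  | true =>
    by_cases hT : (⟨jCoord A (M * q * q) true, self_mem_chart _⟩ : chart₂ A M q true) ∈ c
    · exact uniqueFactorizationMonoid_cusp hA hM.1 hc hT
    · obtain ⟨c', hmax, hc', -, -, hloc⟩ := exists_finite_point hA hM.1 hc hT
      haveI := hmax
      exact uniqueFactorizationMonoid_of_locRing_eq c c' hloc
        (uniqueFactorizationMonoid_finite hA hM c' hc')

theorem exists_const_sub_mem (hA : A.LiesOverPrime q) (hM : Admissible q M) (b : Bool)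
    (c : Ideal (chart₂ A M q b)) [c.IsMaximal] (hc : (q : chart₂ A M q b) ∈ c)
    (x : chart₂ A M q b) :
    ∃ a : chart₂ A M q b, (a : F₂ A M q) ∈ constInt A (M * q * q) ∧ x - a ∈ c :=
  exists_constInt_sub_mem hA hM.1 b c hc x

/-- A component whose kernel lies in `c` has a branch through `c`. -/
theorem exists_branch_of_ker_le (hA : A.LiesOverPrime q) (hM : Admissible q M) (b : Bool)
    (c : Ideal (chart₂ A M q b)) [c.IsMaximal] (hc : (q : chart₂ A M q b) ∈ c) (s : Side)
    (hs : ∀ x : chart₂ A M q b, ∀ h : (x : F₂ A M q) ∈ sideInt A M q s,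
      sideRes A M q s ⟨x, h⟩ = 0 → x ∈ c) :
    ∃ P, IsBranch A M q b c s P :=
  exists_isBranch_of_ker_le hA hM.1 b c s fun x hx => hs x (chart_le_sideInt hA hM.1 b s x.2) hx

/-- Every place of the residual curve regular on the chart gives a branch on each component. -/
theorem exists_isBranch (hA : A.LiesOverPrime q) (hM : Admissible q M) (b : Bool) (s : Side)
    (P : Pt A M)
    (hP : ∀ x : chart₂ A M q b, ∀ h : (x : F₂ A M q) ∈ sideInt A M q s,
      sideRes A M q s ⟨x, h⟩ = 0 ∨ 0 ≤ P.ord (sideRes A M q s ⟨x, h⟩)) :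
    ∃ c : Ideal (chart₂ A M q b), c.IsMaximal ∧ IsBranch A M q b c s P :=
  exists_isMaximal_isBranch hA hM.1 b s P fun x =>
    mem_place_iff.mpr (hP x (chart_le_sideInt hA hM.1 b s x.2))

/-- Either one branch, or one on each component at a common point. -/
theorem branch_cases (hA : A.LiesOverPrime q) (hM : Admissible q M) (b : Bool)
    (c : Ideal (chart₂ A M q b)) [c.IsMaximal] (hc : (q : chart₂ A M q b) ∈ c) :
    (∃ s P, ∀ s' P', IsBranch A M q b c s' P' ↔ s' = s ∧ P' = P) ∨
      (∃ P, ∀ s' P', IsBranch A M q b c s' P' ↔ P' = P) := by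
  cases b with
  | false => exact branch_cases_finite hA hM c hc
  | true =>
    by_cases hT : (⟨jCoord A (M * q * q) true, self_mem_chart _⟩ : chart₂ A M q true) ∈ c
    · exact Or.inl (exists_isBranch_iff_cusp hA hM.1 hc hT)
    · obtain ⟨c', hmax, hc', -, hiff, -⟩ := exists_finite_point hA hM.1 hc hT
      haveI := hmax
      simp only [hiff]
      exact branch_cases_finite hA hM c' hc'

/-- Over the cusps there is only one branch. -/
theorem branch_single_cusp (hA : A.LiesOverPrime q) (hM : Admissible q M)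
    (c : Ideal (chart₂ A M q true)) [c.IsMaximal] (hc : (q : chart₂ A M q true) ∈ c)
    (hT : (⟨jCoord A (M * q * q) true, self_mem_chart _⟩ : chart₂ A M q true) ∈ c) :
    ∃ s P, ∀ s' P', IsBranch A M q true c s' P' ↔ s' = s ∧ P' = P :=
  exists_isBranch_iff_cusp hA hM.1 hc hT

/-- On each branch the local ring maps onto the local ring of the residual curve. -/
theorem exists_lift_branch (hA : A.LiesOverPrime q) (hM : Admissible q M) (b : Bool)
    (c : Ideal (chart₂ A M q b)) [c.IsMaximal] (hc : (q : chart₂ A M q b) ∈ c) (s : Side)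
    (P : Pt A M) (hs : IsBranch A M q b c s P) (g : RFld A M) (hg : g = 0 ∨ 0 ≤ P.ord g) :
    ∃ x y : chart₂ A M q b, y ∉ c ∧ ∃ (hx : (x : F₂ A M q) ∈ sideInt A M q s)
      (hy : (y : F₂ A M q) ∈ sideInt A M q s),
      sideRes A M q s ⟨x, hx⟩ = sideRes A M q s ⟨y, hy⟩ * g := by
  obtain ⟨x, y, hy, h⟩ : ∃ x y : chart₂ A M q b, y ∉ c ∧
      chartRes hA hM.1 b s x = chartRes hA hM.1 b s y * g := by
    have hg' := mem_place_iff.mpr hg
    cases b with
    | false => exact exists_lift_finite hA hM c hs g hg'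
    | true =>
      by_cases hT : (⟨jCoord A (M * q * q) true, self_mem_chart _⟩ : chart₂ A M q true) ∈ c
      · exact exists_lift_cusp hA hM.1 hc hT hs g hg'
      · obtain ⟨c', hmax, -, -, hiff, -⟩ := exists_finite_point hA hM.1 hc hT
        haveI := hmax
        exact exists_lift_transfer hA hM.1 hT hs ((hiff s P).mp hs) g
          (exists_lift_finite hA hM c' ((hiff s P).mp hs) g hg')
  exact ⟨x, y, hy, chart_le_sideInt hA hM.1 b s x.2, chart_le_sideInt hA hM.1 b s y.2, h⟩

/-- Elements realising the valuations `(0, 0, 1)` and `(1, 0, q - 1)`. -/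
theorem exists_sideVal_generators (hA : A.LiesOverPrime q) (hM : Admissible q M) :
    (∃ w : F₂ A M q, w ≠ 0 ∧ sideVal A M q .s20 w = 0 ∧ sideVal A M q .s02 w = 0 ∧
        sideVal A M q .s11 w = 1) ∧
      ∃ z : F₂ A M q, z ≠ 0 ∧ sideVal A M q .s20 z = 1 ∧ sideVal A M q .s02 z = 0 ∧
        sideVal A M q .s11 z = (q : ℤ) - 1 :=
  ⟨exists_sideVal_zero_one hA hM.1, exists_sideVal_one_zero hA hM.1⟩

end Fermat.Agent.Carayol.Reg

end
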