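/-
Theorem of Carayol, global argument, part 1: the value of a chart element on a branch, and the first
consequences of constants having the same value on every branch.
-/
import Fermat.Agent.Carayol.MainLocal
import Fermat.Agent.Carayol.MainChartBasic

set_option autoImplicit false
set_option linter.style.haveILetI false

noncomputable section

namespace Fermat.Agent.Carayol.Reg

open ModularCurve IntermediateField

variable {A : ValuationSubring (AlgebraicClosure ℚ)} {M q : ℕ} [NeZero M] [Fact q.Prime]

theorem sub_zero_hasValue (P : Pt A M) (g : RFld A M) :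
    HasValue A M P g 0 ↔ g = 0 ∨ 0 < P.ord g := by
  simp [HasValue]

theorem mem_place_of_regular (P : Pt A M) {g : RFld A M} (h : g = 0 ∨ 0 ≤ P.ord g) :
    g ∈ P.toValuationSubring := by
  rcases h with rfl | h
  · exact zero_mem _
  · exact Curve.mem_of_ord_nonneg P h

theorem residue_eq_zero_iff (P : Pt A M) (g : P.toValuationSubring) :
    IsLocalRing.residue P.toValuationSubring g = 0 ↔
      (g : RFld A M) = 0 ∨ 0 < P.ord (g : RFld A M) := by
  rw [IsLocalRing.residue_eq_zero_iff]
  rcases eq_or_ne (g : RFld A M) 0 with h | h
  · have : g = 0 := Subtype.ext h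
    simp [this]
  · have h0 := Curve.ord_nonneg_of_mem P g.2
    simp only [h, false_or, IsLocalRing.mem_maximalIdeal, mem_nonunits_iff]
    rw [← P.adicValuation_coe_eq_one_iff]
    have key : P.ord (g : RFld A M) = 0 ↔ P.adicValuation (g : RFld A M) = 1 := by
      constructor
      · intro ho
        have hl : WithZero.log (P.adicValuation (g : RFld A M)) = 0 := neg_eq_zero.mp ho
        rw [← WithZero.exp_log (P.adicValuation_ne_zero h), hl, WithZero.exp_zero]
      · intro hv
        show -(WithZero.log (P.adicValuation (g : RFld A M))) = 0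
        rw [hv, WithZero.log_one, neg_zero]
    rw [← key]
    omega

namespace IsBranch

variable {b : Bool} {c : Ideal (chart₂ A M q b)} {s : Side} {P : Pt A M}
variable (H : IsBranch A M q b c s P)
include H

theorem mem_sideInt (x : chart₂ A M q b) : (x : F₂ A M q) ∈ sideInt A M q s := (H x).choose

theorem sideRes_mem (x : chart₂ A M q b) :
    sideRes A M q s ⟨x, H.mem_sideInt x⟩ ∈ P.toValuationSubring :=
  mem_place_of_regular P (H x).choose_spec.1

theorem mem_iff (x : chart₂ A M q b) :
    x ∈ c ↔ IsLocalRing.residue P.toValuationSubring ⟨_, H.sideRes_mem x⟩ = 0 := by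
  rw [residue_eq_zero_iff]
  exact (H x).choose_spec.2.trans (sub_zero_hasValue P _)

/-- The residue of a chart element along the branch. -/
def resHom : chart₂ A M q b →+* P.toValuationSubring :=
  (((sideRes A M q s).comp
    ((chart₂ A M q b).subtype.codRestrict (sideInt A M q s) H.mem_sideInt))).codRestrict
    P.toValuationSubring.toSubring fun x => H.sideRes_mem x

theorem coe_resHom (x : chart₂ A M q b) :
    (H.resHom x : RFld A M) = sideRes A M q s ⟨x, H.mem_sideInt x⟩ := rfl

/-- The value of a chart element at the branch. -/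
def valHom : chart₂ A M q b →+* P.ResidueField :=
  (IsLocalRing.residue P.toValuationSubring).comp H.resHom

theorem valHom_eq_zero_iff (x : chart₂ A M q b) : H.valHom x = 0 ↔ x ∈ c := (H.mem_iff x).symm

theorem resHom_ne_zero {x : chart₂ A M q b} (hx : x ∉ c) : (H.resHom x : RFld A M) ≠ 0 := by
  intro h
  refine hx ((H.valHom_eq_zero_iff x).mp ?_)
  have : H.resHom x = 0 := Subtype.ext h
  rw [valHom, RingHom.comp_apply, this, map_zero]

end IsBranch

theorem sideEmb_const (s : Side) {a : F₂ A M q} (ha : a ∈ constInt A (M * q * q)) :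
    sideEmb A M q s a = (a : LaurentSeries (AlgebraicClosure ℚ)) := by
  obtain ⟨x, -, rfl⟩ := Subring.mem_map.mp ha
  rw [AlgHom.commutes]
  rfl

/-- All branches through `c` at a common point give the same values. -/
theorem valHom_eq_valHom (hA : A.LiesOverPrime q) (hM : Admissible q M) {b : Bool}
    {c : Ideal (chart₂ A M q b)} [c.IsMaximal] (hc : (q : chart₂ A M q b) ∈ c) {s s' : Side}
    {P : Pt A M} (H : IsBranch A M q b c s P) (H' : IsBranch A M q b c s' P)
    (x : chart₂ A M q b) : H.valHom x = H'.valHom x := by
  obtain ⟨a, ha, hxa⟩ := exists_const_sub_mem hA hM b c hc x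
  have h1 : H.valHom x = H.valHom a := by
    rw [← sub_eq_zero, ← map_sub, H.valHom_eq_zero_iff]; exact hxa
  have h2 : H'.valHom x = H'.valHom a := by
    rw [← sub_eq_zero, ← map_sub, H'.valHom_eq_zero_iff]; exact hxa
  rw [h1, h2]
  have e : H.resHom a = H'.resHom a := by
    apply Subtype.ext
    apply Subtype.ext
    rw [H.coe_resHom, H'.coe_resHom, coe_sideRes, coe_sideRes, sideEmb_const s ha,
      sideEmb_const s' ha]
  simp only [IsBranch.valHom, RingHom.comp_apply, e]

end Fermat.Agent.Carayol.Reg

end
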