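/-
Theorem of Carayol, global argument, part 2: norms to the middle level, seen at the top level: they
preserve the charts, and their residues are the expected products.
-/
import Fermat.Agent.Carayol.MainGlobalBranch

set_option autoImplicit false
set_option linter.style.haveILetI false

noncomputable section

namespace Fermat.Agent.Carayol.Reg

open ModularCurve IntermediateField

local notation "Ser" => LaurentSeries (AlgebraicClosure ℚ)

variable {A : ValuationSubring (AlgebraicClosure ℚ)} {M q : ℕ} [NeZero M] [Fact q.Prime]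

theorem mem_chart_iff_coe_integralElem {N : ℕ} (T : Fld A N) (g : Fld A N) :
    g ∈ chart A T ↔
      RingHom.IsIntegralElem ((Fld A N).val.toRingHom.comp (chartBase A T).subtype) (g : Ser) := by
  letI : Algebra (chartBase A T) (Fld A N) := (chartBase A T).subtype.toAlgebra
  constructor
  · intro hg
    obtain ⟨p, hp, h⟩ := (hg : IsIntegral (chartBase A T) g)
    refine ⟨p, hp, ?_⟩
    have h' := congrArg (Fld A N).val.toRingHom h
    rw [map_zero, Polynomial.hom_eval₂] at h'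
    exact h'
  · rintro ⟨p, hp, h⟩
    show IsIntegral (chartBase A T) g
    refine ⟨p, hp, ?_⟩
    refine (map_eq_zero_iff (Fld A N).val.toRingHom (Fld A N).val.injective).mp ?_
    rw [Polynomial.hom_eval₂]
    exact h

theorem isIntegralElem_of_algHom {N : ℕ} {T : Fld A N} (e : Fld A N →ₐ[inertiaField A] Ser)
    (he : e T = (T : Ser)) {g : Fld A N} (hg : g ∈ chart A T) :
    RingHom.IsIntegralElem ((Fld A N).val.toRingHom.comp (chartBase A T).subtype) (e g) := by
  letI : Algebra (chartBase A T) (Fld A N) := (chartBase A T).subtype.toAlgebra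
  obtain ⟨p, hp, h⟩ := (hg : IsIntegral (chartBase A T) g)
  refine ⟨p, hp, ?_⟩
  have h' := congrArg e.toRingHom h
  rw [map_zero, Polynomial.hom_eval₂] at h'
  have hle : chartBase A T ≤ RingHom.eqLocus e.toRingHom (Fld A N).val.toRingHom := by
    rw [chartBase]
    refine sup_le ?_ (Subring.closure_le.mpr ?_)
    · rintro x hx
      obtain ⟨y, -, rfl⟩ := Subring.mem_map.mp hx
      show e (algebraMap _ _ y) = (Fld A N).val (algebraMap _ _ y)
      rw [AlgHom.commutes, AlgHom.commutes]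
    · rintro x (rfl : x = T)
      exact he
  have heq : e.toRingHom.comp (chartBase A T).subtype =
      (Fld A N).val.toRingHom.comp (chartBase A T).subtype :=
    RingHom.ext fun x => hle x.2
  rw [← heq]
  exact h'

theorem e₁₁_jElt (hqM : ¬ q ∣ M) (i : Fin (q - 1)) :
    e₁₁ A M q i (jElt A (M * q * q)) = (jElt A (M * q * q) : Ser) := by
  have h : p₀₁ A M q (jElt A (M * q)) = jElt A (M * q * q) := Subtype.ext (coe_incl A _ _)
  rw [← h, e₁₁_p₀₁ hqM, h]
  rfl

theorem e₁₁_jCoord (hqM : ¬ q ∣ M) (i : Fin (q - 1)) (b : Bool) :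
    e₁₁ A M q i (jCoord A (M * q * q) b) = (jCoord A (M * q * q) b : Ser) := by
  cases b with
  | false => exact e₁₁_jElt hqM i
  | true =>
    show e₁₁ A M q i (jElt A (M * q * q))⁻¹ = (((jElt A (M * q * q))⁻¹ : Fld A _) : Ser)
    rw [map_inv₀, e₁₁_jElt hqM]
    rfl

theorem coe_p₀₁_norm₀₁ (hqM : ¬ q ∣ M) (x : F₂ A M q) :
    (p₀₁ A M q (norm₀₁ A M q x) : Ser) = (x : Ser) * ∏ i : Fin (q - 1), e₁₁ A M q i x := by
  rw [coe_incl, coe_norm₀₁ hqM]

theorem p₀₁_norm₀₁_mem_chart (hqM : ¬ q ∣ M) (b : Bool) {x : F₂ A M q}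
    (hx : x ∈ chart₂ A M q b) : p₀₁ A M q (norm₀₁ A M q x) ∈ chart₂ A M q b := by
  classical
  rw [mem_chart_iff_coe_integralElem, coe_p₀₁_norm₀₁ hqM]
  refine RingHom.IsIntegralElem.mul _ ?_ ?_
  · exact isIntegralElem_of_algHom (Fld A (M * q * q)).val rfl hx
  · refine Finset.prod_induction _ (RingHom.IsIntegralElem _) (fun _ _ => RingHom.IsIntegralElem.mul _)
      (RingHom.isIntegralElem_one _) fun i _ => ?_
    exact isIntegralElem_of_algHom (e₁₁ A M q i) (e₁₁_jCoord hqM i b) hx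

theorem sideEmb_s02_p₀₁ (hqM : ¬ q ∣ M) (g : F₁ A M q) :
    sideEmb A M q .s02 (p₀₁ A M q g) =
      qExpand (AlgebraicClosure ℚ) q (w₁ A M q g : Ser) := by
  show (w₂ A M q (p₀₁ A M q g) : Ser) = _
  rw [w₂_p₀₁ hqM, coe_scale]

theorem red_eq_of_mem (g : Ser) (h : g ∈ GaussInt A) :
    red A g = gaussRed A (IsLocalRing.residue A) ⟨g, h⟩ := by
  rw [red, dif_pos h]

theorem red_mul_gauss {g h : Ser} (hg : g ∈ GaussInt A) (hh : h ∈ GaussInt A) :
    red A (g * h) = red A g * red A h := by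
  rw [red_eq_of_mem _ hg, red_eq_of_mem _ hh, red_eq_of_mem _ (mul_mem hg hh), ← map_mul]
  rfl

theorem red_prod_univ {ι : Type*} [Fintype ι] (f : ι → Ser) (hf : ∀ i, f i ∈ GaussInt A) :
    red A (∏ i, f i) = ∏ i, red A (f i) := by
  classical
  refine (?_ : ∀ s : Finset ι, red A (∏ i ∈ s, f i) = ∏ i ∈ s, red A (f i)) Finset.univ
  intro s
  induction s using Finset.induction_on with
  | empty =>
    rw [Finset.prod_empty, Finset.prod_empty, red_eq_of_mem _ (one_mem _)]
    exact map_one _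
  | insert a t hat ih =>
    rw [Finset.prod_insert hat, Finset.prod_insert hat, red_mul_gauss (hf a) (prod_mem fun i _ => hf i),
      ih]

/-- Residues of a norm, at the top level. -/
theorem sideRes_p₀₁_norm₀₁ (hA : A.LiesOverPrime q) (hqM : ¬ q ∣ M) (x : F₂ A M q)
    (h₀ : x ∈ sideInt A M q .s20) (h₁ : x ∈ sideInt A M q .s11) (h₂ : x ∈ sideInt A M q .s02) :
    ∃ (a : p₀₁ A M q (norm₀₁ A M q x) ∈ sideInt A M q .s20)
      (b : p₀₁ A M q (norm₀₁ A M q x) ∈ sideInt A M q .s02),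
      sideRes A M q .s20 ⟨_, a⟩ =
          sideRes A M q .s20 ⟨x, h₀⟩ * sideRes A M q .s11 ⟨x, h₁⟩ ^ (q - 1) ∧
        sideRes A M q .s02 ⟨_, b⟩ = sideRes A M q .s02 ⟨x, h₂⟩ ^ q := by
  have he : ∀ i, e₁₁ A M q i x ∈ GaussInt A := fun i => (red_e₁₁ hA hqM i ⟨x, h₁⟩).1
  have hx : (x : Ser) ∈ GaussInt A := (mem_gaussInt_of_mem_sideInt A M q .s20 h₀).1
  have hw : (w₂ A M q x : Ser) ∈ GaussInt A := (mem_gaussInt_of_mem_sideInt A M q .s02 h₂).1
  have hq1 : (zetaQ q : (AlgebraicClosure ℚ)ˣ) ^ (q ^ 1) = 1 := by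
    rw [pow_one, Units.ext_iff, Units.val_pow_eq_pow_val, Units.val_one]
    exact (isPrimitiveRoot_zetaQ q).pow_eq_one
  have hz : ∀ i : Fin q, (zetaQ q ^ (i : ℕ)) ^ (q ^ 1) = 1 := fun i => by
    rw [← pow_mul, Nat.mul_comm, pow_mul, hq1, one_pow]
  have htw : ∀ i : Fin q,
      seriesTwist (zetaQ q ^ (i : ℕ)) (w₂ A M q x : Ser) ∈ GaussInt A := fun i =>
    (red_seriesTwist hA (hz i) _).1.mpr hw
  have ha : p₀₁ A M q (norm₀₁ A M q x) ∈ sideInt A M q .s20 := by
    rw [mem_sideInt hA hqM]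
    show (p₀₁ A M q (norm₀₁ A M q x) : Ser) ∈ GaussInt A
    rw [coe_p₀₁_norm₀₁ hqM]
    exact mul_mem hx (prod_mem fun i _ => he i)
  have hb : p₀₁ A M q (norm₀₁ A M q x) ∈ sideInt A M q .s02 := by
    rw [mem_sideInt hA hqM]
    show sideEmb A M q .s02 (p₀₁ A M q (norm₀₁ A M q x)) ∈ GaussInt A
    rw [sideEmb_s02_p₀₁ hqM, qExpand_w₁_norm₀₁ hqM]
    exact prod_mem fun i _ => htw i
  refine ⟨ha, hb, ?_, ?_⟩
  · apply Subtype.ext
    rw [coe_sideRes, MulMemClass.coe_mul, SubmonoidClass.coe_pow, coe_sideRes]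
    show red A (p₀₁ A M q (norm₀₁ A M q x) : Ser) = red A (x : Ser) * _
    rw [coe_p₀₁_norm₀₁ hqM, red_mul_gauss hx (prod_mem fun i _ => he i), red_prod_univ _ he]
    congr 1
    rw [Finset.prod_congr rfl fun i _ => (red_e₁₁ hA hqM i ⟨x, h₁⟩).2, Finset.prod_const,
      Finset.card_univ, Fintype.card_fin]
  · apply Subtype.ext
    rw [coe_sideRes, SubmonoidClass.coe_pow, coe_sideRes, sideEmb_s02_p₀₁ hqM,
      qExpand_w₁_norm₀₁ hqM, red_prod_univ _ htw,
      Finset.prod_congr rfl fun i _ => (red_seriesTwist hA (hz i) _).2, Finset.prod_const,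
      Finset.card_univ, Fintype.card_fin]
    rfl

theorem norm₀₁_algebraMap (hqM : ¬ q ∣ M) (a : inertiaField A) :
    norm₀₁ A M q (algebraMap (inertiaField A) (F₂ A M q) a) =
      algebraMap (inertiaField A) (F₁ A M q) (a ^ q) := by
  apply Subtype.ext
  rw [coe_norm₀₁ hqM]
  simp only [AlgHom.commutes, Finset.prod_const, Finset.card_univ, Fintype.card_fin]
  show algebraMap (inertiaField A) Ser a * algebraMap (inertiaField A) Ser a ^ (q - 1) =
    algebraMap (inertiaField A) Ser (a ^ q)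
  rw [← pow_succ', Nat.sub_add_cancel (Fact.out : q.Prime).pos, map_pow]

end Fermat.Agent.Carayol.Reg

end
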