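/-
Theorem of Carayol, global argument, part 3: normalising the three valuations, and the residual
`n`-th roots.
-/
import Fermat.Agent.Carayol.MainGlobalSeries
import Fermat.Agent.Carayol.MainGlobalAlg
import Fermat.Agent.Carayol.ValuationsSeries

set_option autoImplicit false
set_option linter.style.haveILetI false

noncomputable section

namespace Fermat.Agent.Carayol.Reg

open ModularCurve IntermediateField AlgebraicCurve

local notation "Ser" => LaurentSeries (AlgebraicClosure ℚ)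

variable {A : ValuationSubring (AlgebraicClosure ℚ)} {M q : ℕ} [NeZero M] [Fact q.Prime]

section Val

variable (hA : A.LiesOverPrime q) (hqM : ¬ q ∣ M)
include hA hqM

theorem sideVal_one (s : Side) : sideVal A M q s 1 = 0 := by
  have h := sideVal_mul hA hqM s (one_ne_zero (α := F₂ A M q)) one_ne_zero
  rw [mul_one] at h
  omega

theorem sideVal_inv (s : Side) {f : F₂ A M q} (hf : f ≠ 0) :
    sideVal A M q s f⁻¹ = -sideVal A M q s f := by
  have h := sideVal_mul hA hqM s hf (inv_ne_zero hf)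
  rw [mul_inv_cancel₀ hf, sideVal_one hA hqM] at h
  omega

theorem sideVal_pow (s : Side) {f : F₂ A M q} (hf : f ≠ 0) (k : ℕ) :
    sideVal A M q s (f ^ k) = k * sideVal A M q s f := by
  induction k with
  | zero => simp [sideVal_one hA hqM]
  | succ k ih => rw [pow_succ, sideVal_mul hA hqM s (pow_ne_zero k hf) hf, ih]; push_cast; ring

theorem sideVal_zpow (s : Side) {f : F₂ A M q} (hf : f ≠ 0) (k : ℤ) :
    sideVal A M q s (f ^ k) = k * sideVal A M q s f := by
  obtain ⟨m, rfl | rfl⟩ := k.eq_nat_or_neg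
  · rw [zpow_natCast, sideVal_pow hA hqM s hf]
  · rw [zpow_neg, zpow_natCast, sideVal_inv hA hqM s (pow_ne_zero m hf), sideVal_pow hA hqM s hf]
    ring

theorem sideVal_const_eq (a : inertiaField A) :
    sideVal A M q .s02 (algebraMap (inertiaField A) (F₂ A M q) a) =
      sideVal A M q .s20 (algebraMap (inertiaField A) (F₂ A M q) a) := by
  show val A q (w₂ A M q (algebraMap _ _ a) : Ser) = val A q _
  rw [AlgEquiv.commutes]

theorem mem_sideInt_of_sideVal_eq_zero (s : Side) {f : F₂ A M q} (hf : f ≠ 0)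
    (h : sideVal A M q s f = 0) : f ∈ sideInt A M q s :=
  (mem_sideInt_iff hA hqM s hf).mpr h.ge

theorem sideRes_ne_zero (s : Side) {f : F₂ A M q} (hf : f ≠ 0) (h : sideVal A M q s f = 0)
    (hm : f ∈ sideInt A M q s) : sideRes A M q s ⟨f, hm⟩ ≠ 0 := fun h0 => by
  have := (sideRes_eq_zero_iff hA hqM s (f := ⟨f, hm⟩) hf).mp h0
  simp only at this
  omega

theorem sideVal_eq_zero_of_res (s : Side) {f : F₂ A M q} (hm : f ∈ sideInt A M q s)
    (h : sideRes A M q s ⟨f, hm⟩ ≠ 0) : sideVal A M q s f = 0 := by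
  have hf : f ≠ 0 := by
    rintro rfl
    exact h ((congrArg _ (Subtype.ext rfl : (⟨0, hm⟩ : sideInt A M q s) = 0)).trans (map_zero _))
  have h0 := (mem_sideInt_iff hA hqM s hf).mp hm
  have h1 := mt (sideRes_eq_zero_iff hA hqM s (f := ⟨f, hm⟩) hf).mpr h
  simp only at h1
  omega

end Val

/-- The norm of `f` to the middle level is a constant times an `n`-th power. -/
def NormCond (n : ℕ) (f : F₂ A M q) : Prop :=
  ∃ (c : inertiaField A) (g : F₁ A M q),
    norm₀₁ A M q f = algebraMap (inertiaField A) (F₁ A M q) c * g ^ n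

/-- The divisor of `f` and both norms are divisible by `n`. -/
structure RootInput (n : ℕ) (f : F₂ A M q) : Prop where
  ne_zero : f ≠ 0
  ord : ∀ v : Place (inertiaField A) (F₂ A M q), (n : ℤ) ∣ v.ord f
  norm : NormCond n f
  norm' : NormCond n (w₂ A M q f)

theorem normCond_w₂_of (hqM : ¬ q ∣ M) {n : ℕ} {f : F₂ A M q}
    (h : ∃ (c : inertiaField A) (g : F₁ A M q),
      norm₁₂ A M q f = algebraMap (inertiaField A) (F₁ A M q) c * g ^ n) :
    NormCond n (w₂ A M q f) := by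
  obtain ⟨c, g, e⟩ := h
  refine ⟨c, w₁ A M q g, ?_⟩
  rw [norm₁₂_eq hqM] at e
  have h := congrArg (w₁ A M q) e
  rwa [w₁_w₁ hqM, map_mul, AlgEquiv.commutes, map_pow] at h

theorem NormCond.mul {n : ℕ} {f f' : F₂ A M q} (h : NormCond n f) (h' : NormCond n f') :
    NormCond n (f * f') := by
  obtain ⟨c, g, e⟩ := h
  obtain ⟨c', g', e'⟩ := h'
  exact ⟨c * c', g * g', by rw [map_mul, e, e', map_mul, mul_pow]; ring⟩

theorem NormCond.pow {n : ℕ} {f : F₂ A M q} (h : NormCond n f) (k : ℕ) :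
    NormCond n (f ^ k) := by
  obtain ⟨c, g, e⟩ := h
  exact ⟨c ^ k, g ^ k, by rw [map_pow, e, map_pow, mul_pow, ← pow_mul, ← pow_mul, Nat.mul_comm]⟩

theorem NormCond.const_mul_pow (hqM : ¬ q ∣ M) (n : ℕ) (a : inertiaField A) (X : F₂ A M q) :
    NormCond n (algebraMap (inertiaField A) (F₂ A M q) a * X ^ n) :=
  ⟨a ^ q, norm₀₁ A M q X, by rw [map_mul, norm₀₁_algebraMap hqM, map_pow (norm₀₁ A M q)]⟩

theorem RootInput.pow {n : ℕ} {f : F₂ A M q} (h : RootInput n f) (k : ℕ) :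
    RootInput n (f ^ k) where
  ne_zero := pow_ne_zero _ h.ne_zero
  ord v := by rw [Curve.ord_pow]; exact Dvd.dvd.mul_left (h.ord v) _
  norm := h.norm.pow k
  norm' := by rw [map_pow]; exact h.norm'.pow k

theorem RootInput.const_mul_pow (hqM : ¬ q ∣ M) {n : ℕ} {f : F₂ A M q} (h : RootInput n f)
    {a : inertiaField A} (ha : a ≠ 0) {X : F₂ A M q} (hX : X ≠ 0) :
    RootInput n (f * (algebraMap (inertiaField A) (F₂ A M q) a * X ^ n)) where
  ne_zero := mul_ne_zero h.ne_zero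
    (mul_ne_zero ((map_ne_zero _).mpr ha) (pow_ne_zero _ hX))
  ord v := by
    rw [v.ord_mul h.ne_zero (mul_ne_zero ((map_ne_zero _).mpr ha) (pow_ne_zero _ hX)),
      v.ord_mul ((map_ne_zero _).mpr ha) (pow_ne_zero _ hX), Curve.ord_algebraMap, Curve.ord_pow,
      zero_add]
    exact dvd_add (h.ord v) (dvd_mul_right _ _)
  norm := h.norm.mul (NormCond.const_mul_pow hqM n a X)
  norm' := by
    rw [map_mul, map_mul, AlgEquiv.commutes, map_pow]
    exact h.norm'.mul (NormCond.const_mul_pow hqM n a _)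

theorem hasVal_pow (hA : A.LiesOverPrime q) {x : Ser} (hx : HasVal A q x) :
    ∀ k : ℕ, 0 < k → HasVal A q (x ^ k) ∧ val A q (x ^ k) = k * val A q x := by
  intro k hk
  induction k with
  | zero => omega
  | succ k ih =>
    rcases Nat.eq_zero_or_pos k with rfl | hk'
    · simpa using hx
    · obtain ⟨h1, h2⟩ := ih hk'
      obtain ⟨h3, h4⟩ := hasVal_mul hA h1 hx
      rw [pow_succ]
      exact ⟨h3, by rw [h4, h2]; push_cast; ring⟩

theorem val_const_mul_pow (hA : A.LiesOverPrime q) {n : ℕ} (hn : 0 < n) {c : inertiaField A}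
    {g : F₁ A M q} (hc : c ≠ 0) (hg : g ≠ 0) :
    val A q ((algebraMap (inertiaField A) (F₁ A M q) c * g ^ n : F₁ A M q) : Ser) =
      val A q ((algebraMap (inertiaField A) (F₁ A M q) c : F₁ A M q) : Ser) +
        n * val A q (g : Ser) := by
  have h1 := hasVal_fld (q := q) hA (algebraMap (inertiaField A) (F₁ A M q) c)
    ((map_ne_zero _).mpr hc)
  have h2 := hasVal_pow hA (hasVal_fld (q := q) hA g hg) n hn
  have e : ((algebraMap (inertiaField A) (F₁ A M q) c * g ^ n : F₁ A M q) : Ser) =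
      ((algebraMap (inertiaField A) (F₁ A M q) c : F₁ A M q) : Ser) * (g : Ser) ^ n := by
    push_cast; rfl
  rw [e, (hasVal_mul hA h1 h2.1).2, h2.2]

theorem NormCond.dvd_sideVal (hA : A.LiesOverPrime q) (hqM : ¬ q ∣ M) {n : ℕ} (hn : 0 < n)
    {f : F₂ A M q} (hf : f ≠ 0) (h : NormCond n f) :
    (n : ℤ) ∣ sideVal A M q .s20 f + sideVal A M q .s11 f - q * sideVal A M q .s02 f := by
  obtain ⟨c, g, e⟩ := h
  have hcg : c ≠ 0 ∧ g ≠ 0 := by
    have hne : norm₀₁ A M q f ≠ 0 := fun h0 => by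
      have h1 := map_mul (norm₀₁ A M q) f f⁻¹
      rw [mul_inv_cancel₀ hf, map_one, h0, zero_mul] at h1
      exact one_ne_zero h1
    rw [e] at hne
    exact ⟨fun h0 => hne (by simp [h0]),
      fun h0 => hne (by simp [h0, zero_pow hn.ne'])⟩
  obtain ⟨h1, h2⟩ := sideVal_norm₀₁ hA hqM hf
  rw [e] at h1 h2
  rw [map_mul, AlgEquiv.commutes, map_pow] at h2
  rw [val_const_mul_pow hA hn hcg.1 hcg.2] at h1
  rw [val_const_mul_pow hA hn hcg.1 ((map_ne_zero (w₁ A M q)).mpr hcg.2)] at h2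
  refine ⟨val A q (g : Ser) - val A q (w₁ A M q g : Ser), ?_⟩
  linarith

/-- After the exponent `q + 1` the valuations can be normalised to zero. -/
theorem exists_normalised (hA : A.LiesOverPrime q) (hM : Admissible q M) {n : ℕ} (hn : 0 < n)
    {f : F₂ A M q} (h : RootInput n f) :
    ∃ (a : inertiaField A) (X : F₂ A M q), a ≠ 0 ∧ X ≠ 0 ∧
      RootInput n (f ^ (q + 1) * (algebraMap (inertiaField A) (F₂ A M q) a * X ^ n)) ∧
      ∀ s, sideVal A M q s
        (f ^ (q + 1) * (algebraMap (inertiaField A) (F₂ A M q) a * X ^ n)) = 0 := by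
  have hqM := hM.1
  have hf := h.ne_zero
  obtain ⟨⟨w, hw0, hwa, hwb, hwc⟩, z, hz0, hza, hzb, hzc⟩ := exists_sideVal_generators hA hM
  obtain ⟨hq20, hq02, hq11⟩ := sideVal_algebraMap_natCast (M := M) hA hqM
  set v20 := sideVal A M q .s20 f with h20
  set v02 := sideVal A M q .s02 f with h02
  set v11 := sideVal A M q .s11 f with h11
  obtain ⟨k₁, hk₁⟩ := h.norm.dvd_sideVal hA hqM hn hf
  obtain ⟨k₂, hk₂⟩ := h.norm'.dvd_sideVal hA hqM hn ((map_ne_zero _).mpr hf)
  obtain ⟨e1, e2, e3⟩ := sideVal_w₂ hA hqM f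
  rw [e1, e2, e3, ← h20, ← h02, ← h11] at hk₂
  rw [← h20, ← h02, ← h11] at hk₁
  set i := k₁ - k₂ with hi
  set l := (q + 1 : ℤ) * k₁ - i with hl
  set v := (q + 1 : ℤ) * v02 with hv
  set a : inertiaField A := (q : inertiaField A) ^ (-v) with ha
  have hq0 : (q : inertiaField A) ≠ 0 := Nat.cast_ne_zero.mpr (Fact.out : q.Prime).ne_zero
  have hqF : (q : F₂ A M q) ≠ 0 := Nat.cast_ne_zero.mpr (Fact.out : q.Prime).ne_zero
  set X : F₂ A M q := z ^ (-i) * w ^ (-(l - ((q : ℤ) - 1) * i)) with hX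
  have hX0 : X ≠ 0 := mul_ne_zero (zpow_ne_zero _ hz0) (zpow_ne_zero _ hw0)
  have ha0 : a ≠ 0 := zpow_ne_zero _ hq0
  refine ⟨a, X, ha0, hX0, (h.pow _).const_mul_pow hqM ha0 hX0, fun s => ?_⟩
  have hca : algebraMap (inertiaField A) (F₂ A M q) a = (q : F₂ A M q) ^ (-v) := by
    rw [ha, map_zpow₀, map_natCast]
  rw [hca, sideVal_mul hA hqM s (pow_ne_zero _ hf) (mul_ne_zero (zpow_ne_zero _ hqF)
      (pow_ne_zero _ hX0)), sideVal_mul hA hqM s (zpow_ne_zero _ hqF) (pow_ne_zero _ hX0),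
    sideVal_pow hA hqM s hf, sideVal_zpow hA hqM s hqF, sideVal_pow hA hqM s hX0, hX,
    sideVal_mul hA hqM s (zpow_ne_zero _ hz0) (zpow_ne_zero _ hw0),
    sideVal_zpow hA hqM s hz0, sideVal_zpow hA hqM s hw0]
  push_cast
  cases s
  · rw [hq20, hza, hwa, ← h20, hv, hi]; linear_combination hk₁ - hk₂
  · rw [hq11, hzc, hwc, ← h11, hv, hl, hi]; linear_combination (q : ℤ) * hk₁ + hk₂
  · rw [hq02, hzb, hwb, ← h02, hv]; ring

/-- Roots of residual constants. -/
theorem exists_pow_eq_const (hA : A.LiesOverPrime q) {n : ℕ} (hn : 0 < n) (γ : Res A) :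
    ∃ δ : Res A, δ ^ n = γ := by
  haveI := isAlgClosed_res A
  exact IsAlgClosed.exists_pow_nat_eq γ hn

/-- A constant which is a Gauss integer is an integral constant. -/
theorem mem_constInt_of_mem_sideInt (N : ℕ) {κ : inertiaField A}
    (h : algebraMap (inertiaField A) Ser κ ∈ GaussInt A) :
    algebraMap (inertiaField A) (Fld A N) κ ∈ constInt A N ∧
      ∃ hκ : (κ : AlgebraicClosure ℚ) ∈ A, red A (algebraMap (inertiaField A) Ser κ) =
        algebraMap (Res A) (ResSer A) (IsLocalRing.residue A ⟨κ, hκ⟩) := by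
  have e : algebraMap (inertiaField A) Ser κ =
      algebraMap (AlgebraicClosure ℚ) Ser (κ : AlgebraicClosure ℚ) :=
    IsScalarTower.algebraMap_apply (inertiaField A) (AlgebraicClosure ℚ) Ser κ
  rw [e] at h ⊢
  have hκ : (κ : AlgebraicClosure ℚ) ∈ A := (algebraMap_mem_gaussSubring_iff).mp h
  refine ⟨Subring.mem_map.mpr ⟨κ, hκ, rfl⟩, hκ, ?_⟩
  obtain ⟨h', e'⟩ := gaussRed_algebraMap (π := IsLocalRing.residue A) (⟨_, hκ⟩ : A)
  rw [red_eq_of_mem _ h]
  exact e'

/-- The residual consequence of a norm condition. -/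
theorem exists_norm_residues (hA : A.LiesOverPrime q) (hqM : ¬ q ∣ M) {n : ℕ} (hn : 0 < n)
    {f : F₂ A M q} (hf : f ≠ 0) (hval : ∀ s, sideVal A M q s f = 0) (h : NormCond n f) :
    ∃ (κ : inertiaField A) (g : F₁ A M q) (γ : Res A),
      norm₀₁ A M q f = algebraMap (inertiaField A) (F₁ A M q) κ * g ^ n ∧
      algebraMap (inertiaField A) (F₂ A M q) κ ∈ constInt A (M * q * q) ∧
      (algebraMap (inertiaField A) (F₂ A M q) κ)⁻¹ ∈ constInt A (M * q * q) ∧
      ∃ (u : p₀₁ A M q g ∈ sideInt A M q .s20) (v : p₀₁ A M q g ∈ sideInt A M q .s02)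
        (m : ∀ s, f ∈ sideInt A M q s),
        γ ≠ 0 ∧
        sideRes A M q .s20 ⟨f, m _⟩ * sideRes A M q .s11 ⟨f, m _⟩ ^ (q - 1) =
          algebraMap (Res A) (RFld A M) γ * sideRes A M q .s20 ⟨_, u⟩ ^ n ∧
        sideRes A M q .s02 ⟨f, m _⟩ ^ q =
          algebraMap (Res A) (RFld A M) γ * sideRes A M q .s02 ⟨_, v⟩ ^ n := by
  obtain ⟨c, g, hcg⟩ := h
  have m : ∀ s, f ∈ sideInt A M q s := fun s =>
    mem_sideInt_of_sideVal_eq_zero hA hqM s hf (hval s)
  obtain ⟨a, b, ea, eb⟩ := sideRes_p₀₁_norm₀₁ hA hqM f (m _) (m _) (m _)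
  have hne : ∀ s, sideRes A M q s ⟨f, m s⟩ ≠ 0 := fun s =>
    sideRes_ne_zero hA hqM s hf (hval s) _
  have va : sideVal A M q .s20 (p₀₁ A M q (norm₀₁ A M q f)) = 0 :=
    sideVal_eq_zero_of_res hA hqM _ a (by rw [ea]; exact mul_ne_zero (hne _) (pow_ne_zero _ (hne _)))
  have vb : sideVal A M q .s02 (p₀₁ A M q (norm₀₁ A M q f)) = 0 :=
    sideVal_eq_zero_of_res hA hqM _ b (by rw [eb]; exact pow_ne_zero _ (hne _))
  have hnz : p₀₁ A M q (norm₀₁ A M q f) ≠ 0 := by
    intro h0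
    have h1 := congrArg (sideRes A M q .s02) (Subtype.ext h0 : (⟨_, b⟩ : sideInt A M q .s02) = 0)
    rw [eb, map_zero] at h1
    exact pow_ne_zero _ (hne _) h1
  have hpn : p₀₁ A M q (norm₀₁ A M q f) =
      algebraMap (inertiaField A) (F₂ A M q) c * p₀₁ A M q g ^ n := by
    rw [hcg, map_mul, AlgHom.commutes, map_pow]
  rw [hpn] at va vb hnz
  set C := algebraMap (inertiaField A) (F₂ A M q) c with hC
  set G := p₀₁ A M q g with hG
  have hC0 : C ≠ 0 := left_ne_zero_of_mul hnz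
  have hG0 : G ≠ 0 := fun h0 => right_ne_zero_of_mul hnz (by rw [h0, zero_pow hn.ne'])
  rw [sideVal_mul hA hqM _ hC0 (pow_ne_zero _ hG0), sideVal_pow hA hqM _ hG0] at va vb
  rw [hC, sideVal_const_eq hA hqM, ← hC] at vb
  set k := sideVal A M q .s20 G with hk
  have hkb : sideVal A M q .s02 G = k :=
    mul_left_cancel₀ (by exact_mod_cast hn.ne' : (n : ℤ) ≠ 0) (by linarith)
  obtain ⟨hq20, hq02, -⟩ := sideVal_algebraMap_natCast (M := M) hA hqM
  have hqK : (q : inertiaField A) ≠ 0 := Nat.cast_ne_zero.mpr (Fact.out : q.Prime).ne_zero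
  have hqF : (q : F₂ A M q) ≠ 0 := Nat.cast_ne_zero.mpr (Fact.out : q.Prime).ne_zero
  set κ : inertiaField A := c * ((q : inertiaField A) ^ k) ^ n with hκ
  set g' : F₁ A M q := algebraMap (inertiaField A) _ ((q : inertiaField A) ^ (-k)) * g with hg'
  have hqk : algebraMap (inertiaField A) (F₂ A M q) ((q : inertiaField A) ^ (-k)) =
      (q : F₂ A M q) ^ (-k) := by rw [map_zpow₀, map_natCast]
  have hG' : p₀₁ A M q g' = (q : F₂ A M q) ^ (-k) * G := by
    rw [hg', map_mul, AlgHom.commutes, hqk]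
  have eN : norm₀₁ A M q f = algebraMap (inertiaField A) (F₁ A M q) κ * g' ^ n := by
    rw [hcg, hκ, hg', mul_pow, ← mul_assoc, ← map_pow, ← map_mul]
    congr 2
    rw [mul_assoc, ← mul_pow, ← zpow_add₀ hqK, add_neg_cancel, zpow_zero, one_pow, mul_one]
  have hG'v : sideVal A M q .s20 (p₀₁ A M q g') = 0 ∧ sideVal A M q .s02 (p₀₁ A M q g') = 0 := by
    rw [hG', sideVal_mul hA hqM _ (zpow_ne_zero _ hqF) hG0, sideVal_zpow hA hqM _ hqF, hq20,
      sideVal_mul hA hqM _ (zpow_ne_zero _ hqF) hG0, sideVal_zpow hA hqM _ hqF, hq02, hkb, ← hk]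
    constructor <;> ring
  have hG'0 : p₀₁ A M q g' ≠ 0 := by rw [hG']; exact mul_ne_zero (zpow_ne_zero _ hqF) hG0
  set Kκ := algebraMap (inertiaField A) (F₂ A M q) κ with hKκ
  have hK0 : Kκ ≠ 0 := by
    rw [hKκ, hκ, map_mul]
    exact mul_ne_zero hC0 ((map_ne_zero _).mpr (pow_ne_zero _ (zpow_ne_zero _ hqK)))
  have hKv : sideVal A M q .s20 Kκ = 0 := by
    rw [hKκ, hκ, map_mul, map_pow, map_zpow₀, map_natCast, ← hC,
      sideVal_mul hA hqM _ hC0 (pow_ne_zero _ (zpow_ne_zero _ hqF)),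
      sideVal_pow hA hqM _ (zpow_ne_zero _ hqF), sideVal_zpow hA hqM _ hqF, hq20]
    linarith
  have hKm : Kκ ∈ sideInt A M q .s20 := mem_sideInt_of_sideVal_eq_zero hA hqM _ hK0 hKv
  have hKm' : Kκ⁻¹ ∈ sideInt A M q .s20 := mem_sideInt_of_sideVal_eq_zero hA hqM _
    (inv_ne_zero hK0) (by rw [sideVal_inv hA hqM _ hK0, hKv, neg_zero])
  obtain ⟨hκi, hκA, hκr⟩ := mem_constInt_of_mem_sideInt (M * q * q) (κ := κ)
    (mem_gaussInt_of_mem_sideInt A M q .s20 hKm).1
  have hκi' : Kκ⁻¹ ∈ constInt A (M * q * q) := by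
    rw [hKκ, ← map_inv₀]
    refine (mem_constInt_of_mem_sideInt (M * q * q) (κ := κ⁻¹) ?_).1
    have := hKm'
    rw [hKκ, ← map_inv₀] at this
    exact (mem_gaussInt_of_mem_sideInt A M q .s20 this).1
  have hKres : ∀ (s : Side) (h : Kκ ∈ sideInt A M q s), sideRes A M q s ⟨Kκ, h⟩ =
      algebraMap (Res A) (RFld A M) (IsLocalRing.residue A ⟨_, hκA⟩) := by
    intro s h
    apply Subtype.ext
    rw [coe_sideRes]
    show red A (sideEmb A M q s (algebraMap (inertiaField A) (F₂ A M q) κ)) = _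
    rw [AlgHom.commutes]
    exact hκr
  have hγ : IsLocalRing.residue A ⟨_, hκA⟩ ≠ 0 := by
    intro h0
    have h1 := sideRes_ne_zero hA hqM .s20 hK0 hKv hKm
    rw [hKres, h0, map_zero] at h1
    exact h1 rfl
  have hKm2 : Kκ ∈ sideInt A M q .s02 := by
    refine mem_sideInt_of_sideVal_eq_zero hA hqM _ hK0 ?_
    rw [hKκ, sideVal_const_eq hA hqM, ← hKκ, hKv]
  have hu : p₀₁ A M q g' ∈ sideInt A M q .s20 :=
    mem_sideInt_of_sideVal_eq_zero hA hqM _ hG'0 hG'v.1
  have hv : p₀₁ A M q g' ∈ sideInt A M q .s02 :=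
    mem_sideInt_of_sideVal_eq_zero hA hqM _ hG'0 hG'v.2
  have hpn' : p₀₁ A M q (norm₀₁ A M q f) = Kκ * p₀₁ A M q g' ^ n := by
    rw [eN, map_mul, AlgHom.commutes, map_pow]
  refine ⟨κ, g', _, eN, hκi, hκi', hu, hv, m, hγ, ?_, ?_⟩
  · rw [← ea, ← hKres .s20 hKm, ← map_pow, ← map_mul]
    exact congrArg _ (Subtype.ext hpn')
  · rw [← eb, ← hKres .s02 hKm2, ← map_pow, ← map_mul]
    exact congrArg _ (Subtype.ext hpn')

end Fermat.Agent.Carayol.Reg

end
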