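/-
Theorem of Carayol, global argument, part 4: near a closed point over `q`, a function whose divisor
is
divisible by `n` is a local unit times an `n`-th power.
-/
import Fermat.Agent.Carayol.MainGlobalVal
import Fermat.Agent.Carayol.MainLocalSides
import Mathlib.RingTheory.Localization.AtPrime.Basic
import Mathlib.RingTheory.DiscreteValuationRing.Basic

set_option autoImplicit false
set_option linter.style.haveILetI false

noncomputable section

namespace Fermat.Agent.Carayol.Reg

open ModularCurve IntermediateField AlgebraicCurve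

local notation "Ser" => LaurentSeries (AlgebraicClosure ℚ)

variable {A : ValuationSubring (AlgebraicClosure ℚ)} {M q : ℕ} [NeZero M] [Fact q.Prime]

/-- Every function is a quotient of two chart elements. -/
theorem exists_mul_mem_chart (hA : A.LiesOverPrime q) (N : ℕ) [NeZero N] (b : Bool) (x : Fld A N) :
    ∃ y ∈ chart A (jCoord A N b), y ≠ 0 ∧ x * y ∈ chart A (jCoord A N b) := by
  have key : ∀ z : Ser, z ∈ Fld A N → ∃ y w : Fld A N, y ∈ chart A (jCoord A N false) ∧ y ≠ 0 ∧
      w ∈ chart A (jCoord A N false) ∧ z * (y : Ser) = (w : Ser) := by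
    intro z hz
    induction hz using IntermediateField.adjoin_induction with
    | mem z hz =>
      obtain ⟨d, hne, hd, rfl⟩ := hz
      haveI := hne
      exact ⟨1, ⟨_, jd_mem_fld hd⟩, one_mem _, one_ne_zero, jd_mem_chart hd, mul_one _⟩
    | algebraMap a =>
      rcases (inertiaInt A).mem_or_inv_mem a with h | h
      · exact ⟨1, algebraMap _ _ a, one_mem _, one_ne_zero,
          constInt_le_chart _ (Subring.mem_map.mpr ⟨a, h, rfl⟩), mul_one _⟩
      · rcases eq_or_ne a 0 with rfl | ha
        · exact ⟨1, 0, one_mem _, one_ne_zero, zero_mem _, by rw [map_zero]; exact zero_mul _⟩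
        · refine ⟨algebraMap _ _ a⁻¹, 1, constInt_le_chart _ (Subring.mem_map.mpr ⟨_, h, rfl⟩),
            (map_ne_zero _).mpr (inv_ne_zero ha), one_mem _, ?_⟩
          show algebraMap (inertiaField A) Ser a * algebraMap (inertiaField A) Ser a⁻¹ = 1
          rw [← map_mul, mul_inv_cancel₀ ha, map_one]
    | add u v _ _ iu iv =>
      obtain ⟨y, w, hy, hy0, hw, e⟩ := iu
      obtain ⟨y', w', hy', hy0', hw', e'⟩ := iv
      refine ⟨y * y', w * y' + w' * y, mul_mem hy hy', mul_ne_zero hy0 hy0',
        add_mem (mul_mem hw hy') (mul_mem hw' hy), ?_⟩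
      push_cast
      rw [← e, ← e']; ring
    | inv u _ iu =>
      obtain ⟨y, w, hy, hy0, hw, e⟩ := iu
      rcases eq_or_ne u 0 with rfl | hu0
      · exact ⟨1, 0, one_mem _, one_ne_zero, zero_mem _, by rw [inv_zero]; exact zero_mul _⟩
      · refine ⟨w, y, hw, fun h => ?_, hy, ?_⟩
        · rw [h] at e
          rcases mul_eq_zero.mp e with h1 | h1
          · exact hu0 h1
          · exact hy0 (Subtype.ext h1)
        · rw [← e, ← mul_assoc, inv_mul_cancel₀ hu0, one_mul]
    | mul u v _ _ iu iv =>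
      obtain ⟨y, w, hy, hy0, hw, e⟩ := iu
      obtain ⟨y', w', hy', hy0', hw', e'⟩ := iv
      refine ⟨y * y', w * w', mul_mem hy hy', mul_ne_zero hy0 hy0', mul_mem hw hw', ?_⟩
      push_cast
      rw [← e, ← e']; ring
  have hfalse : ∀ z : Fld A N, ∃ y ∈ chart A (jCoord A N false), y ≠ 0 ∧
      z * y ∈ chart A (jCoord A N false) := by
    intro z
    obtain ⟨y, w, hy, hy0, hw, e⟩ := key (z : Ser) z.2
    exact ⟨y, hy, hy0, (show z * y = w from Subtype.ext e) ▸ hw⟩
  cases b with
  | false => exact hfalse x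
  | true =>
    obtain ⟨y, hy, hy0, hxy⟩ := hfalse x
    obtain ⟨k, hk⟩ := exists_mul_pow_mem_chart N false _ hxy
    obtain ⟨l, hl⟩ := exists_mul_pow_mem_chart N false _ hy
    simp only [Bool.not_false] at hk hl
    have hT := self_mem_chart (jCoord A N true)
    have hT0 : jCoord A N true ≠ 0 := fun h => by
      have := jCoord_mul (A := A) N
      rw [h, mul_zero] at this
      exact zero_ne_one this
    refine ⟨y * jCoord A N true ^ (l + k), ?_, mul_ne_zero hy0 (pow_ne_zero _ hT0), ?_⟩
    · rw [pow_add, ← mul_assoc]; exact mul_mem hl (pow_mem hT _)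
    · rw [Nat.add_comm, pow_add, ← mul_assoc, ← mul_assoc]; exact mul_mem hk (pow_mem hT _)

theorem sideInt_natCast_res (hA : A.LiesOverPrime q) (hqM : ¬ q ∣ M) (s : Side)
    (h : (q : F₂ A M q) ∈ sideInt A M q s) : sideRes A M q s ⟨_, h⟩ = 0 := by
  obtain ⟨h20, h02, h11⟩ := sideVal_algebraMap_natCast (M := M) hA hqM
  refine (sideRes_eq_zero_iff hA hqM s ?_).mpr ?_
  · exact Nat.cast_ne_zero.mpr (Fact.out : q.Prime).ne_zero
  · show 0 < sideVal A M q s (q : F₂ A M q)
    have := (Fact.out : q.Prime).two_le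
    cases s <;> simp only [h20, h02, h11] <;> omega

section Local

variable (hA : A.LiesOverPrime q) (hM : Admissible q M) {b : Bool}
  (c : Ideal (chart₂ A M q b)) [c.IsMaximal]

/-- The map of the local ring into the function field. -/
def locEmb : Localization.AtPrime c →+* F₂ A M q :=
  IsLocalization.lift (g := (chart₂ A M q b).subtype) (S := Localization.AtPrime c)
    (M := c.primeCompl) fun y => isUnit_iff_ne_zero.mpr fun h => y.2 (by
      rw [show (y : chart₂ A M q b) = 0 from Subtype.ext h]; exact c.zero_mem)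

theorem locEmb_algebraMap (x : chart₂ A M q b) :
    locEmb c (algebraMap (chart₂ A M q b) (Localization.AtPrime c) x) = (x : F₂ A M q) :=
  IsLocalization.lift_eq _ _

theorem locEmb_injective : Function.Injective (locEmb c) := by
  rw [injective_iff_map_eq_zero]
  intro z hz
  obtain ⟨⟨a, s⟩, hzs⟩ := IsLocalization.surj (M := c.primeCompl) z
  have h := congrArg (locEmb c) hzs
  simp only [map_mul, hz, zero_mul, locEmb_algebraMap] at h
  have ha : a = 0 := Subtype.ext h.symm
  simp only [ha, map_zero] at hzs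
  exact (IsUnit.mul_left_eq_zero (IsLocalization.map_units _ s)).mp hzs

include hA hM

/-- Exponents of a prime of the local ring are divisible by `n`. -/
theorem dvd_exponent_of_prime (hc : (q : chart₂ A M q b) ∈ c) {n : ℕ} {f : F₂ A M q} (hf : f ≠ 0)
    (hord : ∀ v : Place (inertiaField A) (F₂ A M q), (n : ℤ) ∣ v.ord f)
    (hval : ∀ s, sideVal A M q s f = 0) [UniqueFactorizationMonoid (Localization.AtPrime c)]
    {B x : Localization.AtPrime c} (hB : B ≠ 0) (hx : locEmb c x = f * locEmb c B ^ n)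
    {p y : Localization.AtPrime c} {k : ℕ} (hp : Prime p) (hxy : x = p ^ k * y) (hy : ¬ p ∣ y) :
    n ∣ k := by
  classical
  have hqM := hM.1
  set ι := locEmb c with hι
  have hι0 : ∀ {z}, z ≠ (0 : Localization.AtPrime c) → ι z ≠ 0 := fun {z} hz h =>
    hz (locEmb_injective c (h.trans (map_zero _).symm))
  have hy0 : y ≠ 0 := fun h => hy (h ▸ dvd_zero p)
  obtain ⟨l, B', hB', hBl⟩ := WfDvdMonoid.max_power_factor hB hp.irreducible
  have hB'0 : B' ≠ 0 := fun h => hB' (h ▸ dvd_zero p)
  have hkey : ι p ^ k * ι y = f * (ι p ^ l * ι B') ^ n := by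
    rw [← map_pow, ← map_mul, ← hxy, hx, hBl, map_mul, map_pow]
  by_cases hpq : p ∣ (q : Localization.AtPrime c)
  · -- the prime is the centre of a component
    have hker : ∃ s : Side, ∀ (z : chart₂ A M q b) (hz : (z : F₂ A M q) ∈ sideInt A M q s),
        sideRes A M q s ⟨z, hz⟩ = 0 → p ∣ algebraMap _ (Localization.AtPrime c) z := by
      by_contra hne
      push_neg at hne
      choose z hz hz0 hzp using hne
      have hg : ∀ s, sideRes A M q s
          ⟨_, chart_le_sideInt hA hqM b s (∏ t, z t).2⟩ = 0 := by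
        intro s
        have e : (⟨_, chart_le_sideInt hA hqM b s (∏ t, z t).2⟩ : sideInt A M q s) =
            ⟨z s, chart_le_sideInt hA hqM b s (z s).2⟩ *
              ⟨_, chart_le_sideInt hA hqM b s (∏ t ∈ Finset.univ.erase s, z t).2⟩ := by
          apply Subtype.ext
          show ((∏ t, z t : chart₂ A M q b) : F₂ A M q) =
            (z s : F₂ A M q) * ((∏ t ∈ Finset.univ.erase s, z t : chart₂ A M q b) : F₂ A M q)
          rw [← Subring.coe_mul, Finset.mul_prod_erase _ _ (Finset.mem_univ s)]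
        rw [e, map_mul, hz0 s, zero_mul]
      obtain ⟨h, hh⟩ := exists_pow_eq_natCast_mul hA hqM b _ hg
      have hd : p ∣ algebraMap (chart₂ A M q b) (Localization.AtPrime c) ((∏ t, z t) ^ (q - 1)) := by
        rw [hh, map_mul, map_natCast]; exact dvd_mul_of_dvd_left hpq _
      rw [map_pow, map_prod] at hd
      obtain ⟨t, -, ht⟩ := (Prime.dvd_finset_prod_iff hp _).mp (hp.dvd_of_dvd_pow hd)
      exact hzp t ht
    obtain ⟨s, hs⟩ := hker
    have hout : ∀ z : chart₂ A M q b, z ∉ c → sideVal A M q s (z : F₂ A M q) = 0 := by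
      intro z hz
      refine sideVal_eq_zero_of_res hA hqM s (chart_le_sideInt hA hqM b s z.2) fun h0 => hz ?_
      by_contra hzc
      exact hp.not_unit (isUnit_of_dvd_unit (hs z _ h0)
        (IsLocalization.map_units (Localization.AtPrime c) (⟨z, hzc⟩ : c.primeCompl)))
    have hnum : ∀ z : Localization.AtPrime c, z ≠ 0 →
        0 ≤ sideVal A M q s (ι z) ∧ (¬ p ∣ z → sideVal A M q s (ι z) = 0) := by
      intro z hz
      obtain ⟨⟨a, d⟩, had⟩ := IsLocalization.surj (M := c.primeCompl) z
      simp only at had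
      have hd := congrArg ι had
      rw [map_mul, hι, locEmb_algebraMap, locEmb_algebraMap] at hd
      have hd0 : ((d : chart₂ A M q b) : F₂ A M q) ≠ 0 := fun h => d.2 (by
        rw [show (d : chart₂ A M q b) = 0 from Subtype.ext h]; exact c.zero_mem)
      have hv : sideVal A M q s (ι z) = sideVal A M q s (a : F₂ A M q) := by
        rw [← hd, sideVal_mul hA hqM s (hι0 hz) hd0, hout _ d.2, add_zero]
      have ha0 : (a : F₂ A M q) ≠ 0 := by rw [← hd]; exact mul_ne_zero (hι0 hz) hd0
      have ham := chart_le_sideInt hA hqM b s a.2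
      refine ⟨by rw [hv]; exact (mem_sideInt_iff hA hqM s ha0).mp ham, fun hpz => ?_⟩
      rw [hv]
      refine sideVal_eq_zero_of_res hA hqM s ham fun h0 => hpz ?_
      have := hs a ham h0
      rw [← had] at this
      exact (IsUnit.dvd_mul_right
        (IsLocalization.map_units (Localization.AtPrime c) d)).mp this
    have hq0 : (q : Localization.AtPrime c) ≠ 0 := fun h => by
      have h1 := congrArg ι h
      rw [map_natCast, map_zero] at h1
      exact Nat.cast_ne_zero.mpr (Fact.out : q.Prime).ne_zero h1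
    have hp0 : p ≠ 0 := hp.ne_zero
    have hdpos : 0 < sideVal A M q s (ι p) := by
      obtain ⟨i, y', hy', hqy⟩ := WfDvdMonoid.max_power_factor hq0 hp.irreducible
      have hy'0 : y' ≠ 0 := fun h => hy' (h ▸ dvd_zero p)
      have hqm : (q : F₂ A M q) ∈ sideInt A M q s := _root_.natCast_mem _ _
      have hpos := (sideRes_eq_zero_iff hA hqM s (f := ⟨_, hqm⟩)
        (Nat.cast_ne_zero.mpr (Fact.out : q.Prime).ne_zero)).mp
        (sideInt_natCast_res hA hqM s hqm)
      have e : (q : F₂ A M q) = ι p ^ i * ι y' := by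
        rw [← map_natCast ι q, hqy, map_mul, map_pow]
      simp only [e] at hpos
      rw [sideVal_mul hA hqM s (pow_ne_zero _ (hι0 hp0)) (hι0 hy'0),
        sideVal_pow hA hqM s (hι0 hp0), (hnum y' hy'0).2 hy', add_zero] at hpos
      exact pos_of_mul_pos_right hpos (Int.natCast_nonneg i)
    have h := congrArg (sideVal A M q s) hkey
    rw [sideVal_mul hA hqM s (pow_ne_zero _ (hι0 hp.ne_zero)) (hι0 hy0),
      sideVal_pow hA hqM s (hι0 hp.ne_zero), (hnum y hy0).2 hy,
      sideVal_mul hA hqM s hf (pow_ne_zero _ (mul_ne_zero (pow_ne_zero _ (hι0 hp.ne_zero))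
        (hι0 hB'0))), hval s,
      sideVal_pow hA hqM s (mul_ne_zero (pow_ne_zero _ (hι0 hp.ne_zero)) (hι0 hB'0)),
      sideVal_mul hA hqM s (pow_ne_zero _ (hι0 hp.ne_zero)) (hι0 hB'0),
      sideVal_pow hA hqM s (hι0 hp.ne_zero), (hnum B' hB'0).2 hB'] at h
    have h2 : (k : ℤ) = (n : ℤ) * l := by
      refine mul_right_cancel₀ hdpos.ne' ?_
      linarith
    exact ⟨l, by exact_mod_cast h2⟩
  · -- the prime gives a place over the constants
    have hmul : ∀ {a a' : Localization.AtPrime c}, ¬ p ∣ a → ¬ p ∣ a' → ¬ p ∣ a * a' :=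
      fun ha ha' h => (hp.dvd_mul.mp h).elim ha ha'
    have h1 : ¬ p ∣ (1 : Localization.AtPrime c) := fun h => hp.not_unit (isUnit_of_dvd_one h)
    let W : ValuationSubring (F₂ A M q) :=
      { carrier := {z | ∃ a d, ¬ p ∣ d ∧ z * ι d = ι a}
        mul_mem' := by
          rintro z z' ⟨a, d, hd, e⟩ ⟨a', d', hd', e'⟩
          exact ⟨a * a', d * d', hmul hd hd', by rw [map_mul, map_mul, ← e, ← e']; ring⟩
        one_mem' := ⟨1, 1, h1, by simp⟩
        add_mem' := by
          rintro z z' ⟨a, d, hd, e⟩ ⟨a', d', hd', e'⟩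
          exact ⟨a * d' + a' * d, d * d', hmul hd hd',
            by rw [map_add, map_mul, map_mul, map_mul, ← e, ← e']; ring⟩
        zero_mem' := ⟨0, 1, h1, by simp⟩
        neg_mem' := by
          rintro z ⟨a, d, hd, e⟩
          exact ⟨-a, d, hd, by rw [map_neg, ← e, neg_mul]⟩
        mem_or_inv_mem' := by
          intro z
          rcases eq_or_ne z 0 with rfl | hz
          · exact Or.inl ⟨0, 1, h1, by simp⟩
          obtain ⟨u, hu, hu0, huz⟩ := exists_mul_mem_chart hA (M * q * q) b z
          set a := algebraMap (chart₂ A M q b) (Localization.AtPrime c) ⟨_, huz⟩ with ha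
          set d := algebraMap (chart₂ A M q b) (Localization.AtPrime c) ⟨u, hu⟩ with hd
          have e : z * ι d = ι a := by rw [hι, ha, hd, locEmb_algebraMap, locEmb_algebraMap]
          have ha0 : a ≠ 0 := fun h => mul_ne_zero hz hu0 (by
            rw [show z * u = ι a by rw [← e, hι, hd, locEmb_algebraMap], h, map_zero])
          have hd0 : d ≠ 0 := fun h => ha0 (locEmb_injective c (by
            rw [← hι, ← e, h, map_zero, mul_zero]))
          obtain ⟨i, a', ha', hai⟩ := WfDvdMonoid.max_power_factor ha0 hp.irreducible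
          obtain ⟨j, d', hd', hdj⟩ := WfDvdMonoid.max_power_factor hd0 hp.irreducible
          have hpι := hι0 hp.ne_zero
          have E : z * (ι p ^ j * ι d') = ι p ^ i * ι a' := by
            rw [← map_pow, ← map_pow, ← map_mul, ← map_mul, ← hdj, ← hai, e]
          rcases le_total j i with hji | hij
          · refine Or.inl ⟨p ^ (i - j) * a', d', hd', mul_left_cancel₀ (pow_ne_zero j hpι) ?_⟩
            rw [map_mul, map_pow, ← mul_assoc (ι p ^ j) (ι p ^ (i - j)), ← pow_add,
              Nat.add_sub_cancel' hji, ← E]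
            ring
          · refine Or.inr ⟨p ^ (j - i) * d', a', ha', ?_⟩
            rw [inv_mul_eq_iff_eq_mul₀ hz]
            refine mul_left_cancel₀ (pow_ne_zero i hpι) ?_
            rw [← E, map_mul, map_pow,
              show ι p ^ j = ι p ^ i * ι p ^ (j - i) by rw [← pow_add, Nat.add_sub_cancel' hij]]
            ring }
    have memW : ∀ z, z ∈ W ↔ ∃ a d, ¬ p ∣ d ∧ z * ι d = ι a := fun z => Iff.rfl
    have hιW : ∀ a, ι a ∈ W := fun a => (memW _).mpr ⟨a, 1, h1, by simp⟩
    have hWu : ∀ a, ¬ p ∣ a → IsUnit (⟨ι a, hιW a⟩ : W) := by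
      intro a ha
      have ha0 : a ≠ 0 := fun h => ha (h ▸ dvd_zero p)
      exact IsUnit.of_mul_eq_one ⟨(ι a)⁻¹, (memW _).mpr ⟨1, a, ha, by
        rw [map_one, inv_mul_cancel₀ (hι0 ha0)]⟩⟩ (Subtype.ext (mul_inv_cancel₀ (hι0 ha0)))
    set pW : W := ⟨ι p, hιW p⟩ with hpW
    have hpWnu : ¬ IsUnit pW := by
      intro hu
      obtain ⟨v, hv⟩ := hu.exists_right_inv
      obtain ⟨a, d, hd, e⟩ := (memW _).mp v.2
      refine hd ⟨a, locEmb_injective c ?_⟩
      rw [← hι, map_mul, ← e, ← mul_assoc,
        show ι p * (v : F₂ A M q) = 1 from congrArg Subtype.val hv, one_mul]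
    have hfac : ∀ z : W, z ≠ 0 → ∃ i : ℕ, Associated (pW ^ i) z := by
      intro z hz
      obtain ⟨a, d, hd, e⟩ := (memW _).mp z.2
      have hd0 : d ≠ 0 := fun h => hd (h ▸ dvd_zero p)
      have ha0 : a ≠ 0 := fun h => hz (Subtype.ext ((mul_eq_zero.mp
        (e.trans (by rw [h, map_zero]))).resolve_right (hι0 hd0)))
      obtain ⟨i, a', ha', hai⟩ := WfDvdMonoid.max_power_factor ha0 hp.irreducible
      refine ⟨i, (hWu a' ha').unit * (hWu d hd).unit⁻¹, ?_⟩
      rw [Units.val_mul, ← mul_assoc, Units.mul_inv_eq_iff_eq_mul, IsUnit.unit_spec,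
        IsUnit.unit_spec]
      apply Subtype.ext
      show ι p ^ i * ι a' = (z : F₂ A M q) * ι d
      rw [e, hai, map_mul, map_pow]
    have hirr : Irreducible pW := by
      refine ⟨hpWnu, fun u v huv => ?_⟩
      by_contra hc'
      push_neg at hc'
      have hu0 : u ≠ 0 := fun h => hι0 hp.ne_zero (congrArg Subtype.val
        (huv.trans (by rw [h, zero_mul])))
      have hv0 : v ≠ 0 := fun h => hι0 hp.ne_zero (congrArg Subtype.val
        (huv.trans (by rw [h, mul_zero])))
      obtain ⟨i, hi⟩ := hfac u hu0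
      obtain ⟨j, hj⟩ := hfac v hv0
      have hi0 : i ≠ 0 := fun h => hc'.1 (by
        rw [h, pow_zero] at hi; exact hi.isUnit isUnit_one)
      have hj0 : j ≠ 0 := fun h => hc'.2 (by
        rw [h, pow_zero] at hj; exact hj.isUnit isUnit_one)
      obtain ⟨w, hw⟩ : Associated (pW ^ (i + j)) pW := by
        have h' := hi.mul_mul hj
        rwa [← pow_add, ← huv] at h'
      obtain ⟨m, hm⟩ : ∃ m, i + j = m + 2 := ⟨i + j - 2, by omega⟩
      rw [hm, pow_succ', mul_assoc] at hw
      have hpW0 : pW ≠ 0 := fun h => hι0 hp.ne_zero (congrArg Subtype.val h)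
      have h2' : pW ^ (m + 1) * (w : W) = 1 := mul_left_cancel₀ hpW0 (hw.trans (mul_one pW).symm)
      exact hpWnu ((isUnit_pow_iff (Nat.succ_ne_zero m)).mp (IsUnit.of_mul_eq_one _ h2'))
    have hdvr : IsDiscreteValuationRing W :=
      IsDiscreteValuationRing.ofHasUnitMulPowIrreducibleFactorization ⟨pW, hirr, fun {z} hz => hfac z hz⟩
    have hqW : ¬ p ∣ (q : Localization.AtPrime c) := hpq
    have hK : ∀ a : inertiaField A, algebraMap (inertiaField A) (F₂ A M q) a ∈ W := by
      intro a
      rcases eq_or_ne a 0 with rfl | ha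
      · rw [map_zero]; exact zero_mem _
      have hq0 : (q : F₂ A M q) ≠ 0 := Nat.cast_ne_zero.mpr (Fact.out : q.Prime).ne_zero
      have hqK : (q : inertiaField A) ≠ 0 := Nat.cast_ne_zero.mpr (Fact.out : q.Prime).ne_zero
      set m := sideVal A M q .s20 (algebraMap (inertiaField A) (F₂ A M q) a) with hm
      set u : inertiaField A := a * (q : inertiaField A) ^ (-m) with hu
      have hu' : algebraMap (inertiaField A) (F₂ A M q) u =
          algebraMap (inertiaField A) (F₂ A M q) a * (q : F₂ A M q) ^ (-m) := by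
        rw [hu, map_mul, map_zpow₀, map_natCast]
      have huv : algebraMap (inertiaField A) (F₂ A M q) u ∈ sideInt A M q .s20 := by
        refine mem_sideInt_of_sideVal_eq_zero hA hqM _ ((map_ne_zero _).mpr
          (mul_ne_zero ha (zpow_ne_zero _ hqK))) ?_
        rw [hu', sideVal_mul hA hqM _ ((map_ne_zero _).mpr ha) (zpow_ne_zero _ hq0),
          sideVal_zpow hA hqM _ hq0, (sideVal_algebraMap_natCast (M := M) hA hqM).1, ← hm]
        ring
      have hu'' := constInt_le_chart (jCoord A (M * q * q) b)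
        (mem_constInt_of_mem_sideInt (M * q * q) (κ := u)
          (mem_gaussInt_of_mem_sideInt A M q .s20 huv).1).1
      have huW : algebraMap (inertiaField A) (F₂ A M q) u ∈ W := by
        have := hιW (algebraMap (chart₂ A M q b) _ ⟨_, hu''⟩)
        rwa [hι, locEmb_algebraMap] at this
      have hqmem : ∀ i : ℤ, (q : F₂ A M q) ^ i ∈ W := by
        intro i
        obtain ⟨i, rfl | rfl⟩ := i.eq_nat_or_neg
        · rw [zpow_natCast]; exact pow_mem (_root_.natCast_mem _ _) _
        · rw [zpow_neg, zpow_natCast, ← inv_pow]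
          refine pow_mem ((memW _).mpr ⟨1, q, hqW, ?_⟩) _
          rw [map_natCast, map_one, inv_mul_cancel₀ hq0]
      have e : algebraMap (inertiaField A) (F₂ A M q) a =
          algebraMap (inertiaField A) (F₂ A M q) u * (q : F₂ A M q) ^ m := by
        rw [hu', mul_assoc, ← zpow_add₀ hq0, neg_add_cancel, zpow_zero, mul_one]
      rw [e]
      exact mul_mem huW (hqmem m)
    let v : Place (inertiaField A) (F₂ A M q) :=
      { toValuationSubring := W
        algebraMap_mem' := hK
        ne_top' := fun h => by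
          have hmem : (ι p)⁻¹ ∈ W := h ▸ ValuationSubring.mem_top _
          exact hpWnu (IsUnit.of_mul_eq_one ⟨_, hmem⟩
            (Subtype.ext (mul_inv_cancel₀ (hι0 hp.ne_zero))))
        isPrincipalIdealRing' := hdvr.toIsPrincipalIdealRing }
    have hvp : v.ord (ι p) = 1 := v.ord_coe_irreducible (π := pW) hirr
    have hv0 : ∀ a, ¬ p ∣ a → v.ord (ι a) = 0 := fun a ha => by
      have := (v.adicValuation_coe_eq_one_iff ⟨ι a, hιW a⟩).mpr (hWu a ha)
      show -(WithZero.log (v.adicValuation (ι a))) = 0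
      rw [this, WithZero.log_one, neg_zero]
    have h := congrArg v.ord hkey
    rw [v.ord_mul (pow_ne_zero _ (hι0 hp.ne_zero)) (hι0 hy0), Curve.ord_pow, hvp, hv0 y hy,
      v.ord_mul hf (pow_ne_zero _ (mul_ne_zero (pow_ne_zero _ (hι0 hp.ne_zero)) (hι0 hB'0))),
      Curve.ord_pow, v.ord_mul (pow_ne_zero _ (hι0 hp.ne_zero)) (hι0 hB'0), Curve.ord_pow, hvp,
      hv0 B' hB'] at h
    obtain ⟨o, ho⟩ := hord v
    have : (n : ℤ) ∣ (k : ℤ) := ⟨o + l, by rw [ho] at h; linarith⟩
    exact_mod_cast this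

/-- Near `c`, `f` is a unit times an `n`-th power. -/
theorem exists_local_unit_mul_pow (hc : (q : chart₂ A M q b) ∈ c) {n : ℕ} (hn : 0 < n)
    {f : F₂ A M q} (hf : f ≠ 0)
    (hord : ∀ v : Place (inertiaField A) (F₂ A M q), (n : ℤ) ∣ v.ord f)
    (hval : ∀ s, sideVal A M q s f = 0) :
    ∃ a d : chart₂ A M q b, a ∉ c ∧ d ∉ c ∧ ∃ h : F₂ A M q, h ≠ 0 ∧
      f * (d : F₂ A M q) = (a : F₂ A M q) * h ^ n := by
  haveI := uniqueFactorizationMonoid_localization hA hM b c hc
  obtain ⟨u, hu, hu0, hfu⟩ := exists_mul_mem_chart hA (M * q * q) b f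
  set B := algebraMap (chart₂ A M q b) (Localization.AtPrime c) ⟨u, hu⟩ with hB
  set A₀ := algebraMap (chart₂ A M q b) (Localization.AtPrime c) ⟨_, hfu⟩ with hA₀
  have eB : locEmb c B = u := locEmb_algebraMap c _
  have eA : locEmb c A₀ = f * u := locEmb_algebraMap c _
  have hB0 : B ≠ 0 := fun h => hu0 (by rw [← eB, h, map_zero])
  obtain ⟨m, rfl⟩ : ∃ m, n = m + 1 := ⟨n - 1, by omega⟩
  set x := A₀ * B ^ m with hx
  have ex : locEmb c x = f * locEmb c B ^ (m + 1) := by
    rw [hx, map_mul, map_pow, eA, eB]; ring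
  have hx0 : x ≠ 0 := fun h => mul_ne_zero hf (pow_ne_zero _ hu0) (by
    rw [← eB, ← ex, h, map_zero])
  obtain ⟨w, z, hwz⟩ := exists_unit_mul_pow_of_dvd (m + 1) x hx0
    fun p y k hp hxy hy => dvd_exponent_of_prime hA hM c hc hf hord hval hB0 ex hp hxy hy
  obtain ⟨⟨a, d⟩, had⟩ := IsLocalization.surj (M := c.primeCompl) (w : Localization.AtPrime c)
  simp only at had
  have hac : a ∉ c := by
    intro hac
    have h1 : IsUnit (algebraMap (chart₂ A M q b) (Localization.AtPrime c) a) := by
      rw [← had]; exact w.isUnit.mul (IsLocalization.map_units _ d)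
    exact (IsLocalization.AtPrime.isUnit_to_map_iff _ c a).mp h1 hac
  have hd := congrArg (locEmb c) had
  rw [map_mul, locEmb_algebraMap, locEmb_algebraMap] at hd
  have hz0 : locEmb c z ≠ 0 := fun h => mul_ne_zero hf (pow_ne_zero _ hu0) (by
    rw [← eB, ← ex, hwz, map_mul, map_pow, h, zero_pow (Nat.succ_ne_zero m), mul_zero])
  refine ⟨a, d, hac, d.2, locEmb c z / u, div_ne_zero hz0 hu0, ?_⟩
  rw [hwz, map_mul, map_pow, eB] at ex
  rw [← hd, div_pow, mul_div_assoc', eq_div_iff (pow_ne_zero _ hu0)]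
  linear_combination (-((d : chart₂ A M q b) : F₂ A M q)) * ex

end Local

end Fermat.Agent.Carayol.Reg

end
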