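/-
Theorem of Carayol, global argument, part 5: residual `n`-th roots, and the relations between their
values at a point where the three components meet.
-/
import Fermat.Agent.Carayol.MainGlobalFactor

set_option autoImplicit false
set_option linter.style.haveILetI false

noncomputable section

namespace Fermat.Agent.Carayol.Reg

open ModularCurve IntermediateField AlgebraicCurve

variable {A : ValuationSubring (AlgebraicClosure ℚ)} {M q : ℕ} [NeZero M] [Fact q.Prime]

/-- The exchange of the extreme components. -/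
def sideSwap : Side → Side
  | .s20 => .s02
  | .s11 => .s11
  | .s02 => .s20

theorem sideSwap_sideSwap (s : Side) : sideSwap (sideSwap s) = s := by cases s <;> rfl

theorem sideVal_w₂' (hA : A.LiesOverPrime q) (hqM : ¬ q ∣ M) (s : Side) (f : F₂ A M q) :
    sideVal A M q s (w₂ A M q f) = sideVal A M q (sideSwap s) f := by
  obtain ⟨h1, h2, h3⟩ := sideVal_w₂ hA hqM f
  cases s
  · exact h1
  · exact h3
  · exact h2

theorem sideRes_w₂ (hA : A.LiesOverPrime q) (hqM : ¬ q ∣ M) (s : Side) {x : F₂ A M q}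
    (h : x ∈ sideInt A M q (sideSwap s)) :
    ∃ h' : w₂ A M q x ∈ sideInt A M q s,
      sideRes A M q s ⟨_, h'⟩ = sideRes A M q (sideSwap s) ⟨x, h⟩ := by
  have h' : w₂ A M q x ∈ sideInt A M q s := by
    rcases eq_or_ne x 0 with rfl | hx
    · rw [map_zero]; exact zero_mem _
    · rw [mem_sideInt_iff hA hqM s ((map_ne_zero _).mpr hx), sideVal_w₂' hA hqM s x]
      exact (mem_sideInt_iff hA hqM _ hx).mp h
  refine ⟨h', ?_⟩
  cases s
  · apply Subtype.ext
    rw [coe_sideRes, coe_sideRes]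
    rfl
  · exact sideRes_w₂_s11 hA hqM ⟨x, h⟩ ⟨_, h'⟩ rfl
  · apply Subtype.ext
    rw [coe_sideRes, coe_sideRes]
    show red A ((w₂ A M q (w₂ A M q x) : F₂ A M q) : LaurentSeries (AlgebraicClosure ℚ)) = _
    rw [w₂_w₂ hqM]
    rfl

theorem mem_place_of_pow_mem (P : Pt A M) {x : RFld A M} {n : ℕ} (hn : 0 < n)
    (h : x ^ n ∈ P.toValuationSubring) : x ∈ P.toValuationSubring := by
  rcases P.toValuationSubring.mem_or_inv_mem x with hx | hx
  · exact hx
  · obtain ⟨m, rfl⟩ : ∃ m, n = m + 1 := ⟨n - 1, by omega⟩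
    rcases eq_or_ne x 0 with rfl | h0
    · exact zero_mem _
    · have e : x = x ^ (m + 1) * x⁻¹ ^ m := by
        rw [pow_succ', mul_assoc, ← mul_pow, mul_inv_cancel₀ h0, one_pow, mul_one]
      rw [e]
      exact mul_mem h (pow_mem hx m)

/-- The value of a residual constant at a place. -/
def constVal (P : Pt A M) : Res A →+* P.ResidueField :=
  (IsLocalRing.residue P.toValuationSubring).comp (algebraMap (Res A) P.toValuationSubring)

/-- A function with a normalised norm condition, trivial valuations and residual `n`-th roots. -/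
structure Rooted (n : ℕ) (f : F₂ A M q) (G : Side → RFld A M) : Prop where
  ne_zero : f ≠ 0
  norm : NormCond n f
  val : ∀ s, sideVal A M q s f = 0
  G_ne : ∀ s, G s ≠ 0
  root : ∀ s (h : f ∈ sideInt A M q s), sideRes A M q s ⟨f, h⟩ = G s ^ n

theorem exists_eq_pow_of_pow_coprime {L : Type*} [Field L] {x y : L} {n m : ℕ} (hx : x ≠ 0)
    (hcop : Nat.Coprime m n) (h : x ^ m = y ^ n) : ∃ z : L, x = z ^ n := by
  obtain ⟨u, w, huw⟩ := Nat.isCoprime_iff_coprime.mpr hcop
  refine ⟨y ^ u * x ^ w, ?_⟩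
  have h' : (x ^ (m : ℤ)) = y ^ (n : ℤ) := by rw [zpow_natCast, zpow_natCast, h]
  rw [← zpow_natCast (y ^ u * x ^ w), mul_zpow, ← zpow_mul, ← zpow_mul, mul_comm u (n : ℤ),
    zpow_mul, ← h', ← zpow_mul, ← zpow_add₀ hx,
    show (m : ℤ) * u + w * n = 1 by linear_combination huw, zpow_one]

/-- After the exponent `q - 1` all three residues are `n`-th powers. -/
theorem exists_rooted (hA : A.LiesOverPrime q) (hqM : ¬ q ∣ M) {n : ℕ} (hn : 0 < n)
    (hnq : ¬ q ∣ n) {f : F₂ A M q} (h : RootInput n f) (hval : ∀ s, sideVal A M q s f = 0) :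
    ∃ G : Side → RFld A M, Rooted n (f ^ (q - 1)) G := by
  have hf := h.ne_zero
  have hval' : ∀ s, sideVal A M q s (w₂ A M q f) = 0 := fun s => by
    rw [sideVal_w₂' hA hqM, hval]
  obtain ⟨κ, g, γ, -, -, -, hu, hv, m, hγ, e1, e2⟩ :=
    exists_norm_residues hA hqM hn hf hval h.norm
  obtain ⟨κ', g', γ', -, -, -, hu', hv', m', hγ', -, e2'⟩ :=
    exists_norm_residues hA hqM hn ((map_ne_zero (w₂ A M q)).mpr hf) hval' h.norm'
  obtain ⟨hw, ew⟩ := sideRes_w₂ hA hqM .s02 (x := f) (m _)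
  have ew' : sideRes A M q .s02 ⟨w₂ A M q f, m' _⟩ = sideRes A M q .s20 ⟨f, m _⟩ := ew
  rw [ew'] at e2'
  obtain ⟨δ, hδ⟩ := exists_pow_eq_const hA hn γ
  obtain ⟨δ', hδ'⟩ := exists_pow_eq_const hA hn γ'
  have hne : ∀ s, sideRes A M q s ⟨f, m s⟩ ≠ 0 := fun s =>
    sideRes_ne_zero hA hqM s hf (hval s) _
  rw [← hδ, map_pow, ← mul_pow] at e1 e2
  rw [← hδ', map_pow, ← mul_pow] at e2'
  have hq : Nat.Coprime q n := (Fact.out : q.Prime).coprime_iff_not_dvd.mpr hnq
  obtain ⟨G02, hG02⟩ := exists_eq_pow_of_pow_coprime (hne .s02) hq e2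
  obtain ⟨G20, hG20⟩ := exists_eq_pow_of_pow_coprime (hne .s20) hq e2'
  set Y := algebraMap (Res A) (RFld A M) δ * sideRes A M q .s20 ⟨_, hu⟩ with hY
  have hG11 : sideRes A M q .s11 ⟨f, m _⟩ ^ (q - 1) = (Y / G20) ^ n := by
    rw [div_pow, eq_div_iff (hG20 ▸ hne .s20), mul_comm, ← hG20]
    exact e1
  let G : Side → RFld A M := fun s => match s with
    | .s20 => G20 ^ (q - 1)
    | .s11 => Y / G20
    | .s02 => G02 ^ (q - 1)
  have hroot : ∀ s, sideRes A M q s ⟨f, m s⟩ ^ (q - 1) = G s ^ n := fun s => by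
    cases s
    · show _ = (G20 ^ (q - 1)) ^ n
      rw [hG20, ← pow_mul, ← pow_mul, Nat.mul_comm]
    · exact hG11
    · show _ = (G02 ^ (q - 1)) ^ n
      rw [hG02, ← pow_mul, ← pow_mul, Nat.mul_comm]
  refine ⟨G, pow_ne_zero _ hf, h.norm.pow _, fun s => ?_, fun s hs => ?_, fun s hs => ?_⟩
  · rw [sideVal_pow hA hqM s hf, hval, mul_zero]
  · have := hroot s
    rw [hs, zero_pow hn.ne'] at this
    exact pow_ne_zero _ (hne s) this
  · rw [← hroot s, ← map_pow]
    rfl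

/-- A local decomposition has unit residues on the branches. -/
theorem sideVal_local_eq_zero (hA : A.LiesOverPrime q) (hqM : ¬ q ∣ M) {b : Bool}
    {c : Ideal (chart₂ A M q b)} {s : Side} {P : Pt A M} (H : IsBranch A M q b c s P) {n : ℕ}
    (hn : 0 < n) {f : F₂ A M q} (hval : sideVal A M q s f = 0) (hf : f ≠ 0)
    {a d : chart₂ A M q b} (ha : a ∉ c) (hd : d ∉ c) {h : F₂ A M q} (hh : h ≠ 0)
    (e : f * (d : F₂ A M q) = (a : F₂ A M q) * h ^ n) : sideVal A M q s h = 0 := by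
  have key : ∀ x : chart₂ A M q b, x ∉ c →
      (x : F₂ A M q) ≠ 0 ∧ sideVal A M q s (x : F₂ A M q) = 0 := fun x hx => by
    have h1 := H.resHom_ne_zero hx
    rw [H.coe_resHom] at h1
    refine ⟨fun h0 => h1 ?_, sideVal_eq_zero_of_res hA hqM s _ h1⟩
    rw [show (⟨(x : F₂ A M q), H.mem_sideInt x⟩ : sideInt A M q s) = 0 from Subtype.ext h0,
      map_zero]
  have h1 := congrArg (sideVal A M q s) e
  rw [sideVal_mul hA hqM s hf (key d hd).1, hval, (key d hd).2,
    sideVal_mul hA hqM s (key a ha).1 (pow_ne_zero _ hh), (key a ha).2,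
    sideVal_pow hA hqM s hh] at h1
  have hn' : (n : ℤ) ≠ 0 := by exact_mod_cast hn.ne'
  exact (mul_eq_zero.mp (by linarith : (n : ℤ) * sideVal A M q s h = 0)).resolve_left hn'

/-- On a branch, the root divided by the residue of `h` is a unit at the point. -/
theorem exists_gamma (hA : A.LiesOverPrime q) (hqM : ¬ q ∣ M) {b : Bool}
    {c : Ideal (chart₂ A M q b)} {s : Side} {P : Pt A M} (H : IsBranch A M q b c s P) {n : ℕ}
    (hn : 0 < n) {f : F₂ A M q} {G : Side → RFld A M} (R : Rooted n f G)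
    {a d : chart₂ A M q b} (ha : a ∉ c) (hd : d ∉ c) {h : F₂ A M q} (hh : h ≠ 0)
    (e : f * (d : F₂ A M q) = (a : F₂ A M q) * h ^ n) :
    ∃ (hs : h ∈ sideInt A M q s) (Γ : P.toValuationSubring),
      (Γ : RFld A M) * sideRes A M q s ⟨h, hs⟩ = G s ∧ sideRes A M q s ⟨h, hs⟩ ≠ 0 ∧
      H.resHom d * Γ ^ n = H.resHom a ∧ IsLocalRing.residue P.toValuationSubring Γ ≠ 0 := by
  have hv := sideVal_local_eq_zero hA hqM H hn (R.val s) R.ne_zero ha hd hh e
  have hs := mem_sideInt_of_sideVal_eq_zero hA hqM s hh hv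
  have hfs := mem_sideInt_of_sideVal_eq_zero hA hqM s R.ne_zero (R.val s)
  have hr := sideRes_ne_zero hA hqM s hh hv hs
  have e' : G s ^ n * (H.resHom d : RFld A M) =
      (H.resHom a : RFld A M) * sideRes A M q s ⟨h, hs⟩ ^ n := by
    rw [← R.root s hfs, H.coe_resHom, H.coe_resHom, ← map_pow, ← map_mul, ← map_mul]
    exact congrArg _ (Subtype.ext e)
  set Γ₀ : RFld A M := G s / sideRes A M q s ⟨h, hs⟩ with hΓ₀
  have hd0 : H.valHom d ≠ 0 := fun h0 => hd ((H.valHom_eq_zero_iff d).mp h0)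
  obtain ⟨v, hv'⟩ : ∃ v : P.toValuationSubring, H.resHom d * v = 1 := by
    have hu : IsUnit (H.resHom d) := by
      by_contra hu
      exact hd0 (Ideal.Quotient.eq_zero_iff_mem.mpr ((IsLocalRing.mem_maximalIdeal _).mpr hu))
    exact hu.exists_right_inv
  have hdv : (H.resHom d : RFld A M) * (v : RFld A M) = 1 := congrArg Subtype.val hv'
  have hpow : (H.resHom d : RFld A M) * Γ₀ ^ n = (H.resHom a : RFld A M) := by
    rw [hΓ₀, div_pow, mul_div_assoc', div_eq_iff (pow_ne_zero _ hr), mul_comm, e']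
  have hΓn : Γ₀ ^ n ∈ P.toValuationSubring := by
    have e2 : Γ₀ ^ n = (v : RFld A M) * (H.resHom a : RFld A M) := by
      rw [← hpow, ← mul_assoc, mul_comm (v : RFld A M), hdv, one_mul]
    rw [e2]
    exact mul_mem v.2 (H.resHom a).2
  refine ⟨hs, ⟨Γ₀, mem_place_of_pow_mem P hn hΓn⟩, div_mul_cancel₀ _ hr, hr, Subtype.ext hpow,
    fun h0 => ha ((H.valHom_eq_zero_iff a).mp ?_)⟩
  show IsLocalRing.residue P.toValuationSubring (H.resHom a) = 0
  rw [show H.resHom a = H.resHom d * ⟨Γ₀, mem_place_of_pow_mem P hn hΓn⟩ ^ n from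
    (Subtype.ext hpow).symm, map_mul, map_pow, h0, zero_pow hn.ne', mul_zero]

/-- The relation between the values of the roots at a common point of the three components. -/
theorem exists_glued_relation (hA : A.LiesOverPrime q) (hM : Admissible q M) {n : ℕ} (hn : 0 < n)
    {f : F₂ A M q} {G : Side → RFld A M} (R : Rooted n f G) :
    ∃ μ : Res A, μ ^ n = 1 ∧
      ∀ (c : Ideal (chart₂ A M q false)) [c.IsMaximal], (q : chart₂ A M q false) ∈ c →
      ∀ (P : Pt A M), (∀ s, IsBranch A M q false c s P) →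
      ∀ (a d : chart₂ A M q false) (h : F₂ A M q), a ∉ c → d ∉ c → h ≠ 0 →
        f * (d : F₂ A M q) = (a : F₂ A M q) * h ^ n →
      ∀ Γ : Side → P.toValuationSubring,
        (∀ s (hs : h ∈ sideInt A M q s),
          (Γ s : RFld A M) * sideRes A M q s ⟨h, hs⟩ = G s) →
        IsLocalRing.residue P.toValuationSubring (Γ .s20) *
            IsLocalRing.residue P.toValuationSubring (Γ .s11) ^ (q - 1) =
          constVal P μ * IsLocalRing.residue P.toValuationSubring (Γ .s02) ^ q := by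
  have hqM := hM.1
  obtain ⟨κ, g, γ, eN, hκ, hκ', hu, hv, m, hγ, e1, e2⟩ :=
    exists_norm_residues hA hqM hn R.ne_zero R.val R.norm
  haveI := isAlgClosed_res A
  set U := sideRes A M q .s20 ⟨_, hu⟩ with hU
  set V := sideRes A M q .s02 ⟨_, hv⟩ with hV
  have hγ0 : algebraMap (Res A) (RFld A M) γ ≠ 0 := (map_ne_zero _).mpr hγ
  simp only [R.root] at e1 e2
  have hU0 : U ≠ 0 := fun h0 => by
    rw [h0, zero_pow hn.ne', mul_zero] at e1
    exact mul_ne_zero (pow_ne_zero _ (R.G_ne _)) (pow_ne_zero _ (pow_ne_zero _ (R.G_ne _))) e1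
  have hV0 : V ≠ 0 := fun h0 => by
    rw [h0, zero_pow hn.ne', mul_zero] at e2
    exact pow_ne_zero _ (pow_ne_zero _ (R.G_ne _)) e2
  obtain ⟨μ₁, hμ₁⟩ := mem_range_of_pow_eq_algebraMap (k := Res A) hn
    (x := G .s20 * G .s11 ^ (q - 1) / U) (c := γ) (by
      rw [div_pow, div_eq_iff (pow_ne_zero _ hU0), ← e1, mul_pow, ← pow_mul, ← pow_mul,
        Nat.mul_comm])
  obtain ⟨μ₂, hμ₂⟩ := mem_range_of_pow_eq_algebraMap (k := Res A) hn
    (x := G .s02 ^ q / V) (c := γ) (by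
      rw [div_pow, div_eq_iff (pow_ne_zero _ hV0), ← e2, ← pow_mul, ← pow_mul, Nat.mul_comm])
  have h1n : μ₁ ^ n = γ := (algebraMap (Res A) (RFld A M)).injective (by
    rw [map_pow, hμ₁, div_pow, div_eq_iff (pow_ne_zero _ hU0), ← e1, mul_pow, ← pow_mul,
      ← pow_mul, Nat.mul_comm])
  have h2n : μ₂ ^ n = γ := (algebraMap (Res A) (RFld A M)).injective (by
    rw [map_pow, hμ₂, div_pow, div_eq_iff (pow_ne_zero _ hV0), ← e2, ← pow_mul, ← pow_mul,
      Nat.mul_comm])
  have hμ₁0 : μ₁ ≠ 0 := fun h0 => hγ (by rw [← h1n, h0, zero_pow hn.ne'])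
  have hμ₂0 : μ₂ ≠ 0 := fun h0 => hγ (by rw [← h2n, h0, zero_pow hn.ne'])
  rw [eq_div_iff hU0] at hμ₁
  rw [eq_div_iff hV0] at hμ₂
  refine ⟨μ₁ / μ₂, by rw [div_pow, h1n, h2n, div_self hγ], ?_⟩
  intro c _ hc P H a d h ha hd hh e Γ hΓ
  have hs : ∀ s, h ∈ sideInt A M q s := fun s => mem_sideInt_of_sideVal_eq_zero hA hqM s hh
    (sideVal_local_eq_zero hA hqM (H s) hn (R.val s) R.ne_zero ha hd hh e)
  have hres0 : ∀ s, sideRes A M q s ⟨h, hs s⟩ ≠ 0 := fun s => sideRes_ne_zero hA hqM s hh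
    (sideVal_local_eq_zero hA hqM (H s) hn (R.val s) R.ne_zero ha hd hh e) _
  obtain ⟨t20, t02, et20, et02⟩ := sideRes_p₀₁_norm₀₁ hA hqM h (hs _) (hs _) (hs _)
  set Nh := p₀₁ A M q (norm₀₁ A M q h) with hNh
  have hNh0 : Nh ≠ 0 := fun h0 => by
    rw [show (⟨Nh, t02⟩ : sideInt A M q .s02) = 0 from Subtype.ext h0, map_zero] at et02
    exact pow_ne_zero _ (hres0 _) et02.symm
  set pg := p₀₁ A M q g with hpg
  set x : F₂ A M q := pg / Nh with hx
  set Kκ : F₂ A M q := algebraMap (inertiaField A) (F₂ A M q) κ with hKκ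
  set B' : chart₂ A M q false :=
    ⟨Kκ * p₀₁ A M q (norm₀₁ A M q (d : F₂ A M q)),
      mul_mem (constInt_le_chart _ hκ) (p₀₁_norm₀₁_mem_chart hqM false d.2)⟩ with hB'
  have hNa : p₀₁ A M q (norm₀₁ A M q (a : F₂ A M q)) ∈ chart₂ A M q false :=
    p₀₁_norm₀₁_mem_chart hqM false a.2
  have hkey : x ^ n * (B' : F₂ A M q) = p₀₁ A M q (norm₀₁ A M q (a : F₂ A M q)) := by
    have h1 := congrArg (fun z => p₀₁ A M q (norm₀₁ A M q z)) e
    simp only [map_mul, map_pow, eN, AlgHom.commutes] at h1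
    rw [hx, div_pow, div_mul_eq_mul_div, div_eq_iff (pow_ne_zero _ hNh0)]
    show pg ^ n * (Kκ * p₀₁ A M q (norm₀₁ A M q (d : F₂ A M q))) = _
    rw [← h1]; ring
  have ha' : x * (B' : F₂ A M q) ∈ chart₂ A M q false := by
    obtain ⟨k, hk⟩ : ∃ k, n = k + 1 := ⟨n - 1, by omega⟩
    refine mem_chart_of_pow_mem _ n hn _ ?_
    have e3 : (x * (B' : F₂ A M q)) ^ n =
        p₀₁ A M q (norm₀₁ A M q (a : F₂ A M q)) * (B' : F₂ A M q) ^ k := by
      rw [mul_pow, ← hkey, hk]; ring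
    rw [e3]
    exact mul_mem hNa (pow_mem B'.2 _)
  set a' : chart₂ A M q false := ⟨_, ha'⟩ with ha'def
  have hdB : B' ∉ c := by
    intro hB
    have hinv : (Kκ⁻¹ : F₂ A M q) ∈ chart₂ A M q false := constInt_le_chart _ hκ'
    have hK0 : Kκ ≠ 0 := fun h0 => by
      have := congrArg (fun z => p₀₁ A M q z) eN
      simp only [map_mul, map_pow, AlgHom.commutes, ← hKκ, h0, zero_mul] at this
      obtain ⟨u20, -, eu, -⟩ := sideRes_p₀₁_norm₀₁ hA hqM f (m _) (m _) (m _)
      rw [show (⟨_, u20⟩ : sideInt A M q .s20) = 0 from Subtype.ext this, map_zero, R.root,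
        R.root] at eu
      exact mul_ne_zero (pow_ne_zero _ (R.G_ne _)) (pow_ne_zero _ (pow_ne_zero _ (R.G_ne _)))
        eu.symm
    have hNd : (⟨_, p₀₁_norm₀₁_mem_chart hqM false d.2⟩ : chart₂ A M q false) ∈ c := by
      have e4 : (⟨_, p₀₁_norm₀₁_mem_chart hqM false d.2⟩ : chart₂ A M q false) =
          ⟨Kκ⁻¹, hinv⟩ * B' := by
        apply Subtype.ext
        show _ = Kκ⁻¹ * (Kκ * _)
        rw [← mul_assoc, inv_mul_cancel₀ hK0, one_mul]
      rw [e4]
      exact c.mul_mem_left _ hB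
    rw [← (H .s20).valHom_eq_zero_iff] at hNd
    obtain ⟨u20, -, eu, -⟩ := sideRes_p₀₁_norm₀₁ hA hqM (d : F₂ A M q)
      ((H .s20).mem_sideInt d) ((H .s11).mem_sideInt d) ((H .s02).mem_sideInt d)
    have e5 : (H .s20).resHom ⟨_, p₀₁_norm₀₁_mem_chart hqM false d.2⟩ =
        (H .s20).resHom d * (H .s11).resHom d ^ (q - 1) := Subtype.ext eu
    simp only [IsBranch.valHom, RingHom.comp_apply, e5, map_mul, map_pow] at hNd
    have hd20 : (H .s20).valHom d ≠ 0 := fun h0 => hd (((H .s20).valHom_eq_zero_iff d).mp h0)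
    have hd11 : (H .s11).valHom d ≠ 0 := fun h0 => hd (((H .s11).valHom_eq_zero_iff d).mp h0)
    exact mul_ne_zero hd20 (pow_ne_zero _ hd11) hNd
  -- the two residues of `x`
  let X20 : P.toValuationSubring :=
    Γ .s20 * Γ .s11 ^ (q - 1) * algebraMap (Res A) P.toValuationSubring μ₁⁻¹
  let X02 : P.toValuationSubring :=
    Γ .s02 ^ q * algebraMap (Res A) P.toValuationSubring μ₂⁻¹
  have hμ₁i : algebraMap (Res A) (RFld A M) μ₁⁻¹ * algebraMap (Res A) (RFld A M) μ₁ = 1 := by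
    rw [← map_mul, inv_mul_cancel₀ hμ₁0, map_one]
  have hμ₂i : algebraMap (Res A) (RFld A M) μ₂⁻¹ * algebraMap (Res A) (RFld A M) μ₂ = 1 := by
    rw [← map_mul, inv_mul_cancel₀ hμ₂0, map_one]
  have hx20 : (X20 : RFld A M) * sideRes A M q .s20 ⟨Nh, t20⟩ = U := by
    rw [et20]
    push_cast [X20]
    rw [Place.coe_algebraMap]
    rw [← hΓ .s20 (hs _), ← hΓ .s11 (hs _), mul_pow] at hμ₁
    linear_combination (-algebraMap (Res A) (RFld A M) μ₁⁻¹) * hμ₁ + U * hμ₁i
  have hx02 : (X02 : RFld A M) * sideRes A M q .s02 ⟨Nh, t02⟩ = V := by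
    rw [et02]
    push_cast [X02]
    rw [Place.coe_algebraMap]
    rw [← hΓ .s02 (hs _), mul_pow] at hμ₂
    linear_combination (-algebraMap (Res A) (RFld A M) μ₂⁻¹) * hμ₂ + V * hμ₂i
  have hxm : ∀ (s : Side) (ts : Nh ∈ sideInt A M q s) (X : P.toValuationSubring)
      (hpgs : pg ∈ sideInt A M q s), sideRes A M q s ⟨Nh, ts⟩ ≠ 0 →
      (X : RFld A M) * sideRes A M q s ⟨Nh, ts⟩ = sideRes A M q s ⟨pg, hpgs⟩ →
      (H s).resHom a' = X * (H s).resHom B' := by
    intro s ts X hpgs hne hX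
    apply Subtype.ext
    refine mul_right_cancel₀ hne ?_
    have e6 : (⟨(a' : F₂ A M q), (H s).mem_sideInt a'⟩ : sideInt A M q s) * ⟨Nh, ts⟩ =
        ⟨pg, hpgs⟩ * ⟨(B' : F₂ A M q), (H s).mem_sideInt B'⟩ := by
      apply Subtype.ext
      show x * (B' : F₂ A M q) * Nh = pg * (B' : F₂ A M q)
      rw [hx, div_mul_eq_mul_div, div_mul_cancel₀ _ hNh0]
    have e7 := congrArg (sideRes A M q s) e6
    rw [map_mul, map_mul, ← hX] at e7
    simp only [MulMemClass.coe_mul, IsBranch.coe_resHom]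
    rw [e7]; ring
  have h20 := hxm .s20 t20 X20 hu (by
    rw [et20]; exact mul_ne_zero (hres0 _) (pow_ne_zero _ (hres0 _))) hx20
  have h02 := hxm .s02 t02 X02 hv (by rw [et02]; exact pow_ne_zero _ (hres0 _)) hx02
  have hval := valHom_eq_valHom hA hM hc (H .s20) (H .s02) a'
  have hvB := valHom_eq_valHom hA hM hc (H .s20) (H .s02) B'
  simp only [IsBranch.valHom, RingHom.comp_apply] at hval hvB
  simp only [h20, h02, map_mul] at hval
  rw [← hvB] at hval
  have hne : IsLocalRing.residue P.toValuationSubring ((H .s20).resHom B') ≠ 0 :=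
    fun h0 => hdB (((H .s20).valHom_eq_zero_iff B').mp h0)
  have hX := mul_right_cancel₀ hne hval
  simp only [X20, X02, map_mul, map_pow] at hX
  have c1 : constVal P μ₁⁻¹ * constVal P μ₁ = 1 := by
    rw [← map_mul, inv_mul_cancel₀ hμ₁0, map_one]
  show _ = constVal P (μ₁ / μ₂) * _
  rw [div_eq_mul_inv, map_mul]
  simp only [constVal, RingHom.comp_apply] at c1 ⊢
  linear_combination
    (IsLocalRing.residue P.toValuationSubring (algebraMap (Res A) _ μ₁)) * hX -
      IsLocalRing.residue P.toValuationSubring (Γ .s20) *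
        IsLocalRing.residue P.toValuationSubring (Γ .s11) ^ (q - 1) * c1

end Fermat.Agent.Carayol.Reg

end
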