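/-
Theorem of Carayol, global argument, part 6: the residual roots lift at every closed point over `q`.
-/
import Fermat.Agent.Carayol.MainGlobalRoots

set_option autoImplicit false
set_option linter.style.haveILetI false

noncomputable section

namespace Fermat.Agent.Carayol.Reg

open ModularCurve IntermediateField AlgebraicCurve

variable {A : ValuationSubring (AlgebraicClosure ℚ)} {M q : ℕ} [NeZero M] [Fact q.Prime]

/-- The residual roots lift at `c` to `{ξ | f ξⁿ integral}`. -/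
def HasLift (b : Bool) (c : Ideal (chart₂ A M q b)) (n : ℕ) (f : F₂ A M q)
    (α : Side → RFld A M) : Prop :=
  ∃ β : chart₂ A M q b, β ∉ c ∧ ∃ ξ : F₂ A M q, f * ξ ^ n ∈ chart₂ A M q b ∧
    ∀ s, ∃ (hξ : ξ ∈ sideInt A M q s) (hβ : (β : F₂ A M q) ∈ sideInt A M q s),
      sideRes A M q s ⟨ξ, hξ⟩ = sideRes A M q s ⟨β, hβ⟩ * α s

theorem hasLift_of_branch_lift (hA : A.LiesOverPrime q) (hM : Admissible q M) {b : Bool}
    {c : Ideal (chart₂ A M q b)} [c.IsMaximal] (hc : (q : chart₂ A M q b) ∈ c) {n : ℕ} (hn : 0 < n)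
    {f : F₂ A M q} (hf : f ≠ 0) (hval : ∀ s, sideVal A M q s f = 0) {G : Side → RFld A M}
    (hG : ∀ s, G s ≠ 0) {a d : chart₂ A M q b} (ha : a ∉ c) (hd : d ∉ c) {h : F₂ A M q}
    (hh : h ≠ 0) (e : f * (d : F₂ A M q) = (a : F₂ A M q) * h ^ n) {x y : chart₂ A M q b}
    (hy : y ∉ c)
    (hxy : ∀ s P (H : IsBranch A M q b c s P), ∃ hs : h ∈ sideInt A M q s,
      (H.resHom x : RFld A M) * G s = (H.resHom y : RFld A M) * sideRes A M q s ⟨h, hs⟩) :
    HasLift b c n f (fun s => (G s)⁻¹) := by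
  classical
  have hqM := hM.1
  have hprime := (inferInstance : c.IsMaximal).isPrime
  have hsel : ∀ s, ∃ w : chart₂ A M q b, w ∉ c ∧ ((∃ P, IsBranch A M q b c s P) ∨
      ∃ hw : (w : F₂ A M q) ∈ sideInt A M q s, sideRes A M q s ⟨w, hw⟩ = 0) := by
    intro s
    by_cases hP : ∃ P, IsBranch A M q b c s P
    · exact ⟨1, fun h1 => hprime.ne_top (c.eq_top_iff_one.mpr h1), Or.inl hP⟩
    · obtain ⟨w, hw, hw0, hwc⟩ : ∃ (w : chart₂ A M q b) (hw : (w : F₂ A M q) ∈ sideInt A M q s),
          sideRes A M q s ⟨w, hw⟩ = 0 ∧ w ∉ c := by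
        by_contra hne
        push_neg at hne
        exact hP (exists_branch_of_ker_le hA hM b c hc s hne)
      exact ⟨w, hwc, Or.inr ⟨hw, hw0⟩⟩
  choose w hwc hw using hsel
  set D : chart₂ A M q b := ∏ s, w s with hD
  have hDc : D ∉ c := by
    intro hDc
    obtain ⟨s, -, hs⟩ := (Ideal.IsPrime.prod_mem_iff (hp := hprime)).mp hDc
    exact hwc s hs
  obtain ⟨m, hm⟩ : ∃ m, n = m + 1 := ⟨n - 1, by omega⟩
  set ξ' : F₂ A M q := (d : F₂ A M q) * (x : F₂ A M q) / h with hξ'
  have hξint : f * ξ' ^ n ∈ chart₂ A M q b := by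
    have e' : f * ξ' ^ n = (a : F₂ A M q) * (d : F₂ A M q) ^ m * (x : F₂ A M q) ^ n := by
      rw [hξ', div_pow, mul_div_assoc', div_eq_iff (pow_ne_zero _ hh), mul_pow,
        show (d : F₂ A M q) ^ n = (d : F₂ A M q) * (d : F₂ A M q) ^ m by rw [hm, pow_succ']]
      linear_combination ((d : F₂ A M q) ^ m * (x : F₂ A M q) ^ n) * e
    rw [e']
    exact mul_mem (mul_mem a.2 (pow_mem d.2 _)) (pow_mem x.2 _)
  have hξV : ∀ s, ξ' ∈ sideInt A M q s := by
    intro s
    have hmem := chart_le_sideInt hA hqM b s hξint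
    rcases eq_or_ne ξ' 0 with h0 | h0
    · rw [h0]; exact zero_mem _
    · rw [mem_sideInt_iff hA hqM s h0]
      have h1 := (mem_sideInt_iff hA hqM s (mul_ne_zero hf (pow_ne_zero _ h0))).mp hmem
      rw [sideVal_mul hA hqM s hf (pow_ne_zero _ h0), hval, sideVal_pow hA hqM s h0, zero_add] at h1
      exact nonneg_of_mul_nonneg_right h1 (by exact_mod_cast hn)
  refine ⟨d * y * D, fun hmem => ?_, ξ' * (D : F₂ A M q), ?_, fun s => ?_⟩
  · rcases hprime.mem_or_mem hmem with h1 | h1
    · rcases hprime.mem_or_mem h1 with h2 | h2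
      · exact hd h2
      · exact hy h2
    · exact hDc h1
  · rw [mul_pow, ← mul_assoc]
    exact mul_mem hξint (pow_mem D.2 _)
  · have hDs := chart_le_sideInt hA hqM b s D.2
    refine ⟨mul_mem (hξV s) hDs, chart_le_sideInt hA hqM b s (d * y * D).2, ?_⟩
    have eβ : (⟨((d * y * D : chart₂ A M q b) : F₂ A M q),
        chart_le_sideInt hA hqM b s (d * y * D).2⟩ : sideInt A M q s) =
        ⟨d, chart_le_sideInt hA hqM b s d.2⟩ * ⟨y, chart_le_sideInt hA hqM b s y.2⟩ *
          ⟨D, hDs⟩ := rfl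
    have eξ : (⟨ξ' * (D : F₂ A M q), mul_mem (hξV s) hDs⟩ : sideInt A M q s) =
        ⟨ξ', hξV s⟩ * ⟨D, hDs⟩ := rfl
    rw [eβ, eξ, map_mul, map_mul, map_mul]
    rcases hw s with ⟨P, H⟩ | ⟨hws, hw0⟩
    · obtain ⟨hs, exy⟩ := hxy s P H
      rw [H.coe_resHom, H.coe_resHom] at exy
      have hh0 : sideRes A M q s ⟨h, hs⟩ ≠ 0 := sideRes_ne_zero hA hqM s hh
        (sideVal_local_eq_zero hA hqM H hn (hval s) hf ha hd hh e) hs
      have e1 : sideRes A M q s ⟨ξ', hξV s⟩ * sideRes A M q s ⟨h, hs⟩ =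
          sideRes A M q s ⟨d, chart_le_sideInt hA hqM b s d.2⟩ *
            sideRes A M q s ⟨x, H.mem_sideInt x⟩ := by
        rw [← map_mul, ← map_mul]
        refine congrArg _ (Subtype.ext ?_)
        show ξ' * h = (d : F₂ A M q) * (x : F₂ A M q)
        rw [hξ', div_mul_cancel₀ _ hh]
      refine mul_right_cancel₀ (mul_ne_zero hh0 (hG s)) ?_
      linear_combination
        (sideRes A M q s ⟨(D : F₂ A M q), hDs⟩ * G s) * e1 +
        (sideRes A M q s ⟨(D : F₂ A M q), hDs⟩ *
          sideRes A M q s ⟨(d : F₂ A M q), chart_le_sideInt hA hqM b s d.2⟩) * exy -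
        (sideRes A M q s ⟨(D : F₂ A M q), hDs⟩ *
          sideRes A M q s ⟨(d : F₂ A M q), chart_le_sideInt hA hqM b s d.2⟩ *
          sideRes A M q s ⟨(y : F₂ A M q), chart_le_sideInt hA hqM b s y.2⟩ *
          sideRes A M q s ⟨h, hs⟩) * inv_mul_cancel₀ (hG s)
    · have e0 : sideRes A M q s ⟨(D : F₂ A M q), hDs⟩ = 0 := by
        have eD : (⟨(D : F₂ A M q), hDs⟩ : sideInt A M q s) = ⟨w s, hws⟩ *
            ⟨_, chart_le_sideInt hA hqM b s (∏ t ∈ Finset.univ.erase s, w t).2⟩ := by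
          apply Subtype.ext
          show (D : F₂ A M q) =
            (w s : F₂ A M q) * ((∏ t ∈ Finset.univ.erase s, w t : chart₂ A M q b) : F₂ A M q)
          rw [← Subring.coe_mul, Finset.mul_prod_erase _ _ (Finset.mem_univ s)]
        rw [eD, map_mul, hw0, zero_mul]
      rw [e0]; ring

theorem hasLift_single (hA : A.LiesOverPrime q) (hM : Admissible q M) {b : Bool}
    {c : Ideal (chart₂ A M q b)} [c.IsMaximal] (hc : (q : chart₂ A M q b) ∈ c) {n : ℕ} (hn : 0 < n)
    {f : F₂ A M q} {G : Side → RFld A M} (R : Rooted n f G)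
    (hord : ∀ v : Place (inertiaField A) (F₂ A M q), (n : ℤ) ∣ v.ord f)
    (hbr : ∃ s P, ∀ s' P', IsBranch A M q b c s' P' ↔ s' = s ∧ P' = P) :
    HasLift b c n f (fun s => (G s)⁻¹) := by
  obtain ⟨a, d, ha, hd, h, hh, e⟩ :=
    exists_local_unit_mul_pow hA hM c hc hn R.ne_zero hord R.val
  obtain ⟨s₀, P₀, hbr⟩ := hbr
  have H := (hbr s₀ P₀).mpr ⟨rfl, rfl⟩
  obtain ⟨hs, Γ, eΓ, -, -, hΓ0⟩ := exists_gamma hA hM.1 H hn R ha hd hh e
  have hu : IsUnit Γ := by
    by_contra hu
    exact hΓ0 (Ideal.Quotient.eq_zero_iff_mem.mpr ((IsLocalRing.mem_maximalIdeal _).mpr hu))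
  obtain ⟨Γ', hΓ'⟩ := hu.exists_right_inv
  have hΓ'' : (Γ : RFld A M) * (Γ' : RFld A M) = 1 := congrArg Subtype.val hΓ'
  obtain ⟨x, y, hy, hx, hy', exy⟩ := exists_lift_branch hA hM b c hc s₀ P₀ H (Γ' : RFld A M)
    (Or.inr (Curve.ord_nonneg_of_mem P₀ Γ'.2))
  refine hasLift_of_branch_lift hA hM hc hn R.ne_zero R.val R.G_ne ha hd hh e (x := x) hy ?_
  intro s P H'
  obtain ⟨rfl, rfl⟩ := (hbr s P).mp H'
  refine ⟨hs, ?_⟩
  rw [H'.coe_resHom, H'.coe_resHom, ← eΓ]
  show sideRes A M q s ⟨x, hx⟩ * _ = sideRes A M q s ⟨y, hy'⟩ * _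
  rw [exy]
  linear_combination (sideRes A M q s ⟨(y : F₂ A M q), hy'⟩ * sideRes A M q s ⟨h, hs⟩) * hΓ''

/-- At a common point of the three components, a tuple of residual units with equal values and
`n`-th power in the local ring lies in the local ring. -/
theorem exists_interpolate (hA : A.LiesOverPrime q) (hM : Admissible q M) {b : Bool}
    {c : Ideal (chart₂ A M q b)} [c.IsMaximal] (hc : (q : chart₂ A M q b) ∈ c) {n : ℕ}
    (hnq : ¬ q ∣ n) {P : Pt A M} (H : ∀ s, IsBranch A M q b c s P) {a d : chart₂ A M q b}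
    (ha : a ∉ c) (hd : d ∉ c) (Z : Side → P.toValuationSubring)
    (hpow : ∀ s, (H s).resHom d * Z s ^ n = (H s).resHom a)
    (hval : ∀ s, IsLocalRing.residue P.toValuationSubring (Z s) =
      IsLocalRing.residue P.toValuationSubring (Z .s11)) :
    ∃ x y : chart₂ A M q b, y ∉ c ∧
      ∀ s, (H s).resHom x = (H s).resHom y * Z s := by
  classical
  have hne : ∀ (s : Side) (z : chart₂ A M q b), z ∉ c → ((H s).resHom z : RFld A M) ≠ 0 :=
    fun s z hz => (H s).resHom_ne_zero hz
  let π : chart₂ A M q b →+* (Side → RFld A M) :=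
    RingHom.pi fun s => P.toValuationSubring.subtype.comp (H s).resHom
  have hπ : ∀ z : c.primeCompl, IsUnit (π z) := fun z =>
    Pi.isUnit_iff.mpr fun s => isUnit_iff_ne_zero.mpr (hne s z z.2)
  let Φ : Localization.AtPrime c →+* (Side → RFld A M) := IsLocalization.lift hπ
  letI : Algebra (Localization.AtPrime c) (Side → RFld A M) := Φ.toAlgebra
  set loc := algebraMap (chart₂ A M q b) (Localization.AtPrime c) with hloc
  have hΦ : ∀ z, Φ (loc z) = π z := fun z => IsLocalization.lift_eq hπ z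
  have hunit : ∀ z : chart₂ A M q b, z ∉ c → IsUnit (loc z) := fun z hz =>
    IsLocalization.map_units (Localization.AtPrime c) (⟨z, hz⟩ : c.primeCompl)
  have hmax : ∀ z : chart₂ A M q b, z ∈ c → loc z ∈ IsLocalRing.maximalIdeal _ := fun z hz =>
    (IsLocalRing.mem_maximalIdeal _).mpr fun hu =>
      (IsLocalization.AtPrime.isUnit_to_map_iff _ c z).mp hu hz
  have hfrac : ∀ (z y : chart₂ A M q b) (hy : y ∉ c) (r : Side → RFld A M),
      (∀ s, ((H s).resHom z : RFld A M) = ((H s).resHom y : RFld A M) * r s) →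
      Φ (loc z * ((hunit y hy).unit⁻¹ : (Localization.AtPrime c)ˣ)) = r := by
    intro z y hy r hr
    have h1 : Φ (loc z * ((hunit y hy).unit⁻¹ : (Localization.AtPrime c)ˣ)) * π y = π z := by
      rw [← hΦ y, ← map_mul, mul_assoc, IsUnit.val_inv_mul, mul_one, hΦ]
    funext s
    refine mul_right_cancel₀ (hne s y hy) ?_
    calc _ = π z s := congrFun h1 s
      _ = _ := (hr s).trans (mul_comm _ _)
  obtain ⟨x₁, y₁, hy₁, hx₁, hy₁', e₁⟩ := exists_lift_branch hA hM b c hc .s11 P (H .s11)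
    (Z .s11 : RFld A M) (Or.inr (Curve.ord_nonneg_of_mem P (Z .s11).2))
  have e₁' : (H .s11).resHom x₁ = (H .s11).resHom y₁ * Z .s11 := Subtype.ext e₁
  have hva : ∀ s, IsLocalRing.residue P.toValuationSubring ((H s).resHom a) ≠ 0 := fun s h0 =>
    ha (((H s).valHom_eq_zero_iff a).mp h0)
  have hn0 : n ≠ 0 := fun h => hnq (h ▸ dvd_zero q)
  have hZ0 : ∀ s, IsLocalRing.residue P.toValuationSubring (Z s) ≠ 0 := fun s h0 => hva s (by
    rw [← hpow, map_mul, map_pow, h0, zero_pow hn0, mul_zero])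
  have hx₁c : x₁ ∉ c := fun hx => by
    have h0 := ((H .s11).valHom_eq_zero_iff x₁).mpr hx
    simp only [IsBranch.valHom, RingHom.comp_apply, e₁', map_mul] at h0
    exact (mul_eq_zero.mp h0).elim
      (fun h => hy₁ (((H .s11).valHom_eq_zero_iff y₁).mp h)) (hZ0 _)
  have hW : ∀ s, ∃ u : P.toValuationSubring, (H s).resHom x₁ * u = 1 := fun s => by
    refine IsUnit.exists_right_inv (by_contra fun hu => hx₁c (((H s).valHom_eq_zero_iff x₁).mp ?_))
    exact Ideal.Quotient.eq_zero_iff_mem.mpr ((IsLocalRing.mem_maximalIdeal _).mpr hu)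
  choose u hu using hW
  -- `δ = Z / (x₁ / y₁) - 1` vanishes at the point on every branch
  let δ : Side → P.toValuationSubring := fun s => Z s * (H s).resHom y₁ * u s - 1
  have hresu : ∀ s, IsLocalRing.residue P.toValuationSubring ((H s).resHom x₁) *
      IsLocalRing.residue P.toValuationSubring (u s) = 1 := fun s => by
    rw [← map_mul, hu s, map_one]
  have hδ : ∀ s, IsLocalRing.residue P.toValuationSubring (δ s) = 0 := fun s => by
    have hx := valHom_eq_valHom hA hM hc (H s) (H .s11) x₁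
    have hy := valHom_eq_valHom hA hM hc (H s) (H .s11) y₁
    simp only [IsBranch.valHom, RingHom.comp_apply] at hx hy
    rw [e₁', map_mul, ← hy, ← hval s] at hx
    simp only [δ, map_sub, map_mul, map_one]
    linear_combination hresu s -
      IsLocalRing.residue P.toValuationSubring (u s) * hx
  have hL : ∀ s, ∃ L ∈ IsLocalRing.maximalIdeal (Localization.AtPrime c),
      Φ L s = (δ s : RFld A M) := by
    intro s
    obtain ⟨x, y, hy, hx, hy', e⟩ := exists_lift_branch hA hM b c hc s P (H s) (δ s : RFld A M)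
      (Or.inr (Curve.ord_nonneg_of_mem P (δ s).2))
    have e' : (H s).resHom x = (H s).resHom y * δ s := Subtype.ext e
    have hxc : x ∈ c := ((H s).valHom_eq_zero_iff x).mp (by
      show IsLocalRing.residue P.toValuationSubring ((H s).resHom x) = 0
      rw [e', map_mul, hδ, mul_zero])
    refine ⟨loc x * ((hunit y hy).unit⁻¹ : (Localization.AtPrime c)ˣ),
      Ideal.mul_mem_right _ _ (hmax x hxc), ?_⟩
    have h1 : (Φ (loc x * ((hunit y hy).unit⁻¹ : (Localization.AtPrime c)ˣ)) * π y) s = π x s := by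
      rw [← hΦ y, ← map_mul, mul_assoc, IsUnit.val_inv_mul, mul_one, hΦ]
    refine mul_right_cancel₀ (hne s y hy) ?_
    exact h1.trans ((congrArg Subtype.val e').trans (mul_comm _ _))
  choose L hLm hLδ using hL
  let dd : Side → RFld A M := fun s => (δ s : RFld A M)
  have hcubic : dd ^ 3 = Φ (L .s20 + L .s11 + L .s02) * dd ^ 2 +
      Φ (-(L .s20 * L .s11 + L .s20 * L .s02 + L .s11 * L .s02)) * dd +
      Φ (L .s20 * L .s11 * L .s02) := by
    funext s
    simp only [Pi.add_apply, Pi.mul_apply, Pi.pow_apply, map_add, map_mul, map_neg, Pi.neg_apply]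
    have := hLδ s
    cases s <;> simp only [dd] <;> rw [this] <;> ring
  have hv : ∀ s, (1 + dd s) ^ n * (((H s).resHom d : RFld A M) * ((H s).resHom x₁ : RFld A M) ^ n)
      = ((H s).resHom a : RFld A M) * ((H s).resHom y₁ : RFld A M) ^ n := by
    intro s
    have h1 : (1 + dd s) * ((H s).resHom x₁ : RFld A M) =
        (Z s : RFld A M) * ((H s).resHom y₁ : RFld A M) := by
      have := congrArg Subtype.val (hu s)
      push_cast at this
      simp only [dd, δ]
      push_cast
      linear_combination ((Z s : RFld A M) * ((H s).resHom y₁ : RFld A M)) * this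
    have h2 : ((H s).resHom d : RFld A M) * (Z s : RFld A M) ^ n =
        ((H s).resHom a : RFld A M) := by exact_mod_cast congrArg Subtype.val (hpow s)
    rw [mul_comm ((H s).resHom d : RFld A M), ← mul_assoc, ← mul_pow, h1, ← h2, mul_pow]
    ring
  have hden : d * x₁ ^ n ∉ c := fun h =>
    ((inferInstance : c.IsMaximal).isPrime.mem_or_mem h).elim hd
      fun h' => hx₁c ((inferInstance : c.IsMaximal).isPrime.mem_of_pow_mem n h')
  set num : chart₂ A M q b := a * y₁ ^ n - d * x₁ ^ n with hnum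
  have hnumc : num ∈ c := ((H .s11).valHom_eq_zero_iff num).mp (by
    simp only [hnum, IsBranch.valHom, RingHom.comp_apply, map_sub, map_mul, map_pow, e₁', mul_pow]
    rw [← hpow .s11, map_mul, map_pow]
    ring)
  set v := loc num * ((hunit _ hden).unit⁻¹ : (Localization.AtPrime c)ˣ) with hvdef
  have hpow' : (1 + dd) ^ n = 1 + Φ v := by
    have e' : Φ v = (1 + dd) ^ n - 1 := by
      refine hfrac num _ hden _ fun s => ?_
      simp only [hnum, map_sub, map_mul, map_pow, Pi.sub_apply, Pi.pow_apply, Pi.add_apply,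
        Pi.one_apply]
      push_cast
      linear_combination -(hv s)
    rw [e']; ring
  have hn' : IsUnit ((n : ℕ) : Localization.AtPrime c) := by
    have hnc : (n : chart₂ A M q b) ∉ c := fun h => by
      have hcop : Nat.Coprime q n := (Fact.out : q.Prime).coprime_iff_not_dvd.mpr hnq
      obtain ⟨u', w', huw⟩ := Nat.isCoprime_iff_coprime.mpr hcop
      refine (inferInstance : c.IsMaximal).isPrime.ne_top (c.eq_top_iff_one.mpr ?_)
      have : (1 : chart₂ A M q b) = u' * (q : chart₂ A M q b) + w' * (n : chart₂ A M q b) := by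
        exact_mod_cast congrArg (fun z : ℤ => (z : chart₂ A M q b)) huw.symm
      rw [this]
      exact add_mem (c.mul_mem_left _ hc) (c.mul_mem_left _ h)
    have := hunit _ hnc
    rwa [hloc, map_natCast] at this
  obtain ⟨r, hr⟩ := mem_range_of_cubic_of_pow (S := Localization.AtPrime c) n hn' dd _ _ _
    (Ideal.mul_mem_left _ _ (hLm .s02))
    (neg_mem (add_mem (add_mem (Ideal.mul_mem_left _ _ (hLm _)) (Ideal.mul_mem_left _ _ (hLm _)))
      (Ideal.mul_mem_left _ _ (hLm _))))
    (add_mem (add_mem (hLm _) (hLm _)) (hLm _)) hcubic v (Ideal.mul_mem_right _ _ (hmax _ hnumc))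
    hpow'
  obtain ⟨⟨x, ⟨y, hy⟩⟩, hxy⟩ := IsLocalization.surj (M := c.primeCompl) (1 + r)
  refine ⟨x * x₁, y * y₁, fun h => ((inferInstance : c.IsMaximal).isPrime.mem_or_mem h).elim hy hy₁,
    fun s => Subtype.ext ?_⟩
  have h1 := congrFun (congrArg Φ hxy) s
  simp only [map_mul, map_add, map_one, Pi.mul_apply, Pi.add_apply, Pi.one_apply] at h1
  rw [hΦ, hΦ, show Φ r s = dd s from congrFun hr s] at h1
  change (1 + dd s) * ((H s).resHom y : RFld A M) = ((H s).resHom x : RFld A M) at h1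
  have h2 := congrArg Subtype.val (hu s)
  push_cast at h2
  simp only [map_mul]
  push_cast
  rw [← h1]
  simp only [dd, δ]
  push_cast
  linear_combination
    ((Z s : RFld A M) * ((H s).resHom y₁ : RFld A M) * ((H s).resHom y : RFld A M)) * h2

theorem hasLift_glued (hA : A.LiesOverPrime q) (hM : Admissible q M) {n : ℕ} (hn : 0 < n)
    (hnq : ¬ q ∣ n) {f : F₂ A M q} {G : Side → RFld A M} (R : Rooted n f G)
    (hord : ∀ v : Place (inertiaField A) (F₂ A M q), (n : ℤ) ∣ v.ord f)
    {b : Bool} {c : Ideal (chart₂ A M q b)} [c.IsMaximal] (hc : (q : chart₂ A M q b) ∈ c)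
    {P : Pt A M} (hbr : ∀ s' P', IsBranch A M q b c s' P' ↔ P' = P) (ν : Side → Res A)
    (hν : ∀ s, ν s ^ n = 1) (k : ℕ)
    (hval : ∀ (a d : chart₂ A M q b) (h : F₂ A M q), a ∉ c → d ∉ c → h ≠ 0 →
      f * (d : F₂ A M q) = (a : F₂ A M q) * h ^ n → ∀ Γ : Side → P.toValuationSubring,
        (∀ s (hs : h ∈ sideInt A M q s),
          (Γ s : RFld A M) * sideRes A M q s ⟨h, hs⟩ = G s) →
        (∀ s, IsLocalRing.residue P.toValuationSubring (Γ s) ≠ 0) →
        ∀ s, constVal P (ν s) * IsLocalRing.residue P.toValuationSubring (Γ s) ^ k =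
          IsLocalRing.residue P.toValuationSubring (Γ .s11) ^ k) :
    HasLift b c n (f ^ k) (fun s => (algebraMap (Res A) (RFld A M) (ν s) * G s ^ k)⁻¹) := by
  have hqM := hM.1
  have H : ∀ s, IsBranch A M q b c s P := fun s => (hbr s P).mpr rfl
  obtain ⟨a, d, ha, hd, h, hh, e⟩ :=
    exists_local_unit_mul_pow hA hM c hc hn R.ne_zero hord R.val
  choose hs Γ eΓ hh0 hpow hΓ0 using fun s => exists_gamma hA hqM (H s) hn R ha hd hh e
  have hv := hval a d h ha hd hh e Γ (fun s hs' => eΓ s) hΓ0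
  have hν0 : ∀ s, ν s ≠ 0 := fun s h0 => one_ne_zero ((hν s).symm.trans (by
    rw [h0, zero_pow hn.ne']))
  -- inverses of the units `ν s * Γ s ^ k`
  have hu : ∀ s, ∃ Z : P.toValuationSubring,
      algebraMap (Res A) P.toValuationSubring (ν s) * Γ s ^ k * Z = 1 := fun s => by
    refine IsUnit.exists_right_inv (IsUnit.mul ((IsUnit.mk0 _ (hν0 s)).map _) (IsUnit.pow _ ?_))
    by_contra hu
    exact hΓ0 s (Ideal.Quotient.eq_zero_iff_mem.mpr ((IsLocalRing.mem_maximalIdeal _).mpr hu))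
  choose Z hZ using hu
  have hak : a ^ k ∉ c := fun h' => ha ((inferInstance : c.IsMaximal).isPrime.mem_of_pow_mem k h')
  have hdk : d ^ k ∉ c := fun h' => hd ((inferInstance : c.IsMaximal).isPrime.mem_of_pow_mem k h')
  have hres1 : ∀ s, constVal P (ν s) * IsLocalRing.residue P.toValuationSubring (Γ s) ^ k *
      IsLocalRing.residue P.toValuationSubring (Z s) = 1 := fun s => by
    have := congrArg (IsLocalRing.residue P.toValuationSubring) (hZ s)
    rwa [map_mul, map_mul, map_pow, map_one] at this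
  obtain ⟨x, y, hy, exy⟩ := exists_interpolate hA hM hc hnq H hdk hak Z (fun s => by
      have h1 : (algebraMap (Res A) P.toValuationSubring (ν s) * Γ s ^ k * Z s) ^ n = 1 := by
        rw [hZ s, one_pow]
      rw [mul_pow, mul_pow, ← map_pow, hν s, map_one, one_mul, ← pow_mul, Nat.mul_comm,
        pow_mul] at h1
      rw [map_pow, map_pow, ← hpow s, mul_pow, mul_assoc, h1, mul_one]) (fun s => by
      have h1 := hres1 s
      have h2 := hres1 .s11
      rw [hv s] at h1
      rw [hv .s11] at h2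
      exact mul_left_cancel₀ (pow_ne_zero _ (hΓ0 .s11)) (h1.trans h2.symm))
  have ek : f ^ k * ((d ^ k : chart₂ A M q b) : F₂ A M q) =
      ((a ^ k : chart₂ A M q b) : F₂ A M q) * (h ^ k) ^ n := by
    push_cast
    rw [← mul_pow, e, mul_pow, ← pow_mul, ← pow_mul, Nat.mul_comm]
  refine hasLift_of_branch_lift hA hM hc hn (pow_ne_zero _ R.ne_zero)
    (fun s => by rw [sideVal_pow hA hqM s R.ne_zero, R.val, mul_zero])
    (fun s => mul_ne_zero ((map_ne_zero _).mpr (hν0 s)) (pow_ne_zero _ (R.G_ne s)))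
    hak hdk (pow_ne_zero _ hh) ek (x := x) hy ?_
  intro s P' H'
  obtain rfl : P' = P := (hbr s P').mp H'
  refine ⟨pow_mem (hs s) k, ?_⟩
  have h1 : (H'.resHom x : RFld A M) = (H'.resHom y : RFld A M) * (Z s : RFld A M) :=
    congrArg Subtype.val (exy s)
  have h2 : algebraMap (Res A) (RFld A M) (ν s) * (Γ s : RFld A M) ^ k * (Z s : RFld A M) = 1 :=
    congrArg Subtype.val (hZ s)
  rw [h1, ← eΓ s, show (⟨h ^ k, pow_mem (hs s) k⟩ : sideInt A M q s) = ⟨h, hs s⟩ ^ k from rfl,
    map_pow, mul_pow]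
  linear_combination
    ((H'.resHom y : RFld A M) * sideRes A M q s ⟨h, hs s⟩ ^ k) * h2

/-- Off the cusps, the second chart inherits the lifts of the first. -/
theorem hasLift_transfer (hA : A.LiesOverPrime q) (hM : Admissible q M) {n : ℕ} (hn : 0 < n)
    {f : F₂ A M q} {α : Side → RFld A M}
    (hfalse : ∀ (c : Ideal (chart₂ A M q false)) [c.IsMaximal], (q : chart₂ A M q false) ∈ c →
      HasLift false c n f α)
    {c : Ideal (chart₂ A M q true)} [c.IsMaximal] (hc : (q : chart₂ A M q true) ∈ c)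
    (hT : (⟨jCoord A (M * q * q) true, self_mem_chart _⟩ : chart₂ A M q true) ∉ c) :
    HasLift true c n f α := by
  set T : chart₂ A M q true := ⟨jCoord A (M * q * q) true, self_mem_chart _⟩ with hTdef
  have hprime := (inferInstance : c.IsMaximal).isPrime
  have hTk : ∀ k : ℕ, T ^ k ∉ c := fun k h => hT (hprime.mem_of_pow_mem k h)
  have hloc : ∀ x : chart₂ A M q false, ∃ k : ℕ,
      (x : F₂ A M q) * jCoord A (M * q * q) true ^ k ∈ chart₂ A M q true := fun x =>
    exists_mul_pow_mem_chart (M * q * q) false _ x.2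
  have mono : ∀ (z : F₂ A M q) (k l : ℕ), k ≤ l →
      z * jCoord A (M * q * q) true ^ k ∈ chart₂ A M q true →
      z * jCoord A (M * q * q) true ^ l ∈ chart₂ A M q true := fun z k l hkl h => by
    obtain ⟨e, rfl⟩ := Nat.exists_eq_add_of_le hkl
    rw [pow_add, ← mul_assoc]
    exact mul_mem h (pow_mem T.2 _)
  -- membership does not depend on the exponent
  have indep : ∀ (z : F₂ A M q) (k l : ℕ)
      (hk : z * jCoord A (M * q * q) true ^ k ∈ chart₂ A M q true)
      (hl : z * jCoord A (M * q * q) true ^ l ∈ chart₂ A M q true),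
      (⟨_, hk⟩ : chart₂ A M q true) ∈ c → (⟨_, hl⟩ : chart₂ A M q true) ∈ c := by
    intro z k l hk hl h
    have e : (⟨_, hl⟩ : chart₂ A M q true) * T ^ k = ⟨_, hk⟩ * T ^ l := by
      apply Subtype.ext; push_cast [hTdef]; ring
    exact ((hprime.mem_or_mem (e ▸ c.mul_mem_right (T ^ l) h :
      (⟨_, hl⟩ : chart₂ A M q true) * T ^ k ∈ c))).resolve_right (hTk k)
  let c₀ : Ideal (chart₂ A M q false) :=
    { carrier := {x | ∀ (k : ℕ) (h : (x : F₂ A M q) * jCoord A (M * q * q) true ^ k ∈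
          chart₂ A M q true), (⟨_, h⟩ : chart₂ A M q true) ∈ c}
      zero_mem' := fun k h => by
        have e : (⟨_, h⟩ : chart₂ A M q true) = 0 := Subtype.ext (by simp)
        rw [e]; exact c.zero_mem
      add_mem' := fun {x y} hx hy k h => by
        obtain ⟨i, hi⟩ := hloc x
        obtain ⟨j, hj⟩ := hloc y
        have hi' := mono _ i (i + j) (Nat.le_add_right _ _) hi
        have hj' := mono _ j (i + j) (Nat.le_add_left _ _) hj
        have hk' : ((x + y : chart₂ A M q false) : F₂ A M q) *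
            jCoord A (M * q * q) true ^ (i + j) ∈ chart₂ A M q true := by
          push_cast; rw [add_mul]; exact add_mem hi' hj'
        refine indep _ (i + j) k hk' h ?_
        have e : (⟨_, hk'⟩ : chart₂ A M q true) = ⟨_, hi'⟩ + ⟨_, hj'⟩ := by
          apply Subtype.ext; push_cast; rw [add_mul]
        rw [e]; exact c.add_mem (hx _ hi') (hy _ hj')
      smul_mem' := fun r x hx k h => by
        obtain ⟨i, hi⟩ := hloc r
        obtain ⟨j, hj⟩ := hloc x
        have hk' : ((r • x : chart₂ A M q false) : F₂ A M q) *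
            jCoord A (M * q * q) true ^ (i + j) ∈ chart₂ A M q true := by
          simp only [smul_eq_mul, Subring.coe_mul, pow_add]
          rw [mul_mul_mul_comm]
          exact mul_mem hi hj
        refine indep _ (i + j) k hk' h ?_
        have e : (⟨_, hk'⟩ : chart₂ A M q true) = ⟨_, hi⟩ * ⟨_, hj⟩ := by
          apply Subtype.ext
          simp only [smul_eq_mul, Subring.coe_mul, pow_add]
          rw [mul_mul_mul_comm]
        rw [e]; exact c.mul_mem_left _ (hx _ hj) }
  have h1 : (1 : chart₂ A M q false) ∉ c₀ := fun h => by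
    have h0 := h 0 (by simpa using (one_mem (chart₂ A M q true)))
    exact hprime.ne_top (c.eq_top_iff_one.mpr (by convert h0 using 1; apply Subtype.ext; simp))
  haveI : c₀.IsMaximal := by
    refine Ideal.isMaximal_iff.mpr ⟨h1, fun J x hJ hx hxJ => ?_⟩
    obtain ⟨k, hk, hkc⟩ : ∃ (k : ℕ) (h : (x : F₂ A M q) * jCoord A (M * q * q) true ^ k ∈
        chart₂ A M q true), (⟨_, h⟩ : chart₂ A M q true) ∉ c := by
      have hx' : ¬ ∀ (k : ℕ) (h : (x : F₂ A M q) * jCoord A (M * q * q) true ^ k ∈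
          chart₂ A M q true), (⟨_, h⟩ : chart₂ A M q true) ∈ c := hx
      push_neg at hx'
      exact hx'
    obtain ⟨i, z, hzc, hi⟩ := (inferInstance : c.IsMaximal).exists_inv hkc
    obtain ⟨a₀, ha₀, ha₀'⟩ := exists_const_sub_mem hA hM true c hc i
    obtain ⟨τ, hτ, hτ'⟩ := exists_const_sub_mem hA hM true c hc T
    set y : chart₂ A M q false :=
      ⟨(a₀ : F₂ A M q) * (τ : F₂ A M q) ^ k,
        mul_mem (constInt_le_chart _ ha₀) (pow_mem (constInt_le_chart _ hτ) _)⟩ with hy
    have hmem : 1 - x * y ∈ c₀ := by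
      intro l hl
      have hz1 : ((1 - x * y : chart₂ A M q false) : F₂ A M q) *
          jCoord A (M * q * q) true ^ k = ((T ^ k - ⟨_, hk⟩ * a₀ * τ ^ k : chart₂ A M q true) :
            F₂ A M q) := by
        push_cast [hy, hTdef]; ring
      refine indep _ k l (by rw [hz1]; exact SetLike.coe_mem _) hl ?_
      have e : (⟨_, (by rw [hz1]; exact SetLike.coe_mem _ : ((1 - x * y : chart₂ A M q false) :
          F₂ A M q) * jCoord A (M * q * q) true ^ k ∈ chart₂ A M q true)⟩ : chart₂ A M q true) =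
          T ^ k - ⟨_, hk⟩ * a₀ * τ ^ k := Subtype.ext hz1
      rw [e]
      rw [← Ideal.Quotient.eq_zero_iff_mem] at ha₀' hτ' hzc ⊢
      simp only [map_sub, map_mul, map_pow, sub_eq_zero] at ha₀' hτ' ⊢
      have hi' := congrArg (Ideal.Quotient.mk c) hi
      rw [map_add, map_mul, hzc, add_zero, map_one, ha₀'] at hi'
      rw [hτ']
      linear_combination (-(Ideal.Quotient.mk c τ) ^ k) * hi'
    have h1J : (1 - x * y) + x * y ∈ J := J.add_mem (hJ hmem) (J.mul_mem_right y hxJ)
    rwa [sub_add_cancel] at h1J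
  have hc₀ : (q : chart₂ A M q false) ∈ c₀ := by
    intro k h
    have e : (⟨_, h⟩ : chart₂ A M q true) = (q : chart₂ A M q true) * T ^ k := by
      apply Subtype.ext; push_cast [hTdef]; ring
    rw [e]; exact c.mul_mem_right _ hc
  obtain ⟨β, hβ, ξ, hξ, hres⟩ := hfalse c₀ hc₀
  have hx' : ¬ ∀ (k : ℕ) (h : (β : F₂ A M q) * jCoord A (M * q * q) true ^ k ∈
      chart₂ A M q true), (⟨_, h⟩ : chart₂ A M q true) ∈ c := hβ
  push_neg at hx'
  obtain ⟨i, hi, hic⟩ := hx'
  obtain ⟨j, hj⟩ := hloc ⟨_, hξ⟩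
  have hij := mono _ i (i + j) (Nat.le_add_right _ _) hi
  refine ⟨⟨_, hij⟩, fun h => hic (indep _ (i + j) i hij hi h),
    ξ * jCoord A (M * q * q) true ^ (i + j), ?_, fun s => ?_⟩
  · rw [mul_pow, ← mul_assoc, ← pow_mul]
    refine mono _ j _ ?_ hj
    exact (Nat.le_add_left j i).trans (Nat.le_mul_of_pos_right _ hn)
  · obtain ⟨hξs, hβs, e⟩ := hres s
    have hTs : jCoord A (M * q * q) true ^ (i + j) ∈ sideInt A M q s :=
      chart_le_sideInt hA hM.1 true s (pow_mem T.2 _)
    refine ⟨mul_mem hξs hTs, mul_mem hβs hTs, ?_⟩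
    show sideRes A M q s (⟨ξ, hξs⟩ * ⟨_, hTs⟩) = sideRes A M q s (⟨_, hβs⟩ * ⟨_, hTs⟩) * α s
    rw [map_mul, map_mul, e]; ring

end Fermat.Agent.Carayol.Reg

end
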