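/-
Theorem of Carayol: a lifting lemma for `n`-th roots on a two-chart arithmetic surface.

`F` is a field with two charts `B false`, `B true`, finite over `𝒪[T]`, and finitely many residue
maps detecting the radical of `ϖ`.  If a function `f` has residues `α⁻ⁿ` and the tuple `α` is
everywhere locally liftable to `{h | f hⁿ integral}`, then `f` is a constant times an `n`-th power.
-/
import Mathlib.RingTheory.Noetherian.Basic
import Mathlib.RingTheory.Ideal.Maximal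
import Mathlib.RingTheory.Finiteness.Basic
import Mathlib.Tactic

set_option autoImplicit false

noncomputable section

namespace Fermat.Agent.Carayol.Reg.Lift

variable {F : Type*} [Field F] {L : Type*} [Field L] {ι : Type*}

/-- The data of two charts with residue maps. -/
structure Charts (F : Type*) [Field F] (L : Type*) [Field L] (ι : Type*) where
  /-- The constants. -/
  O : Subring F
  /-- The uniformiser. -/
  ϖ : F
  /-- The two charts. -/
  B : Bool → Subring F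
  /-- The two coordinates. -/
  T : Bool → F
  /-- The valuation rings. -/
  V : ι → Subring F
  /-- The residue maps. -/
  res : ∀ i, V i →+* L
  /-- The constant functions. -/
  Kc : Subfield F
  O_le : ∀ b, O ≤ B b
  ϖ_mem : ϖ ∈ O
  noeth_O : IsNoetherianRing O
  noeth_B : ∀ b, IsNoetherianRing (B b)
  T_mem : ∀ b, T b ∈ B b
  T_mul : T false * T true = 1
  finite_B : ∀ b, ∃ S : Finset F, (∀ s ∈ S, s ∈ B b) ∧ ∀ x ∈ B b,
    x ∈ Submodule.span O {y | ∃ k : ℕ, ∃ s ∈ S, y = T b ^ k * s}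
  loc : ∀ b, ∀ x ∈ B b, ∃ k : ℕ, x * T (!b) ^ k ∈ B (!b)
  const : ∀ x, x ∈ B false → x ∈ B true → x ∈ Kc
  B_le : ∀ b i, B b ≤ V i
  mem_V_of_pow : ∀ i (x : F) (k : ℕ), 0 < k → x ^ k ∈ V i → x ∈ V i
  res_ϖ : ∀ i, res i ⟨ϖ, B_le false i (O_le false ϖ_mem)⟩ = 0
  rad : ∀ b, ∀ x ∈ B b, (∀ i (h : x ∈ V i), res i ⟨x, h⟩ = 0) →
    ∃ e : ℕ, ∃ y ∈ B b, x ^ e = ϖ * y

theorem exists_add_pow_two {R : Type*} [CommRing R] (x : R) (n : ℕ) :
    ∃ r, (1 + x) ^ n = 1 + (n : R) * x + x ^ 2 * r := by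
  induction n with
  | zero => exact ⟨0, by simp⟩
  | succ n ih =>
    obtain ⟨r, hr⟩ := ih
    exact ⟨(n : R) + (1 + x) * r, by rw [pow_succ, hr]; push_cast; ring⟩

theorem exists_geom_sum_eq {R : Type*} [CommRing R] (x : R) (n : ℕ) :
    ∃ r, ∑ k ∈ Finset.range n, (1 + x) ^ k = (n : R) + x * r := by
  induction n with
  | zero => exact ⟨0, by simp⟩
  | succ n ih =>
    obtain ⟨r, hr⟩ := ih
    obtain ⟨r', hr'⟩ := exists_add_pow_two x n
    refine ⟨r + n + x * r', ?_⟩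
    rw [Finset.sum_range_succ, hr, hr']; push_cast; ring

variable (D : Charts F L ι) (n : ℕ) (f : F) (α : ι → L)

/-- The hypotheses on `(f, α)`. -/
structure Root : Prop where
  pos : 0 < n
  inv_n : ∃ u ∈ D.O, (n : F) * u = 1
  root : ∀ b, ∀ x : F, x ^ n ∈ D.B b → x ∈ D.B b
  res_f : ∀ i, ∃ h : f ∈ D.V i, D.res i ⟨f, h⟩ * α i ^ n = 1
  inv_f : ∀ i, ∃ g ∈ D.V i, g * f = 1
  local_lift : ∀ b, ∀ c : Ideal (D.B b), c.IsMaximal →
    (⟨D.ϖ, D.O_le b D.ϖ_mem⟩ : D.B b) ∈ c → ∃ β : D.B b, β ∉ c ∧ ∃ ξ : F, f * ξ ^ n ∈ D.B b ∧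
      ∀ i, ∃ hξ : ξ ∈ D.V i, D.res i ⟨ξ, hξ⟩ = D.res i ⟨β, D.B_le b i β.2⟩ * α i

namespace Charts

/-- The overlap of the charts. -/
def overlap : Subring F where
  carrier := {x | ∃ k : ℕ, x * D.T false ^ k ∈ D.B false}
  zero_mem' := ⟨0, by simp⟩
  one_mem' := ⟨0, by simp⟩
  neg_mem' := by
    rintro x ⟨k, hk⟩
    exact ⟨k, by rw [neg_mul]; exact neg_mem hk⟩
  add_mem' := by
    rintro x y ⟨k, hk⟩ ⟨l, hl⟩
    refine ⟨k + l, ?_⟩
    have e : (x + y) * D.T false ^ (k + l) =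
        x * D.T false ^ k * D.T false ^ l + y * D.T false ^ l * D.T false ^ k := by ring
    rw [e]
    exact add_mem (mul_mem hk (pow_mem (D.T_mem _) _)) (mul_mem hl (pow_mem (D.T_mem _) _))
  mul_mem' := by
    rintro x y ⟨k, hk⟩ ⟨l, hl⟩
    refine ⟨k + l, ?_⟩
    have e : x * y * D.T false ^ (k + l) = (x * D.T false ^ k) * (y * D.T false ^ l) := by ring
    rw [e]
    exact mul_mem hk hl

theorem T_pow_mul (k : ℕ) : D.T false ^ k * D.T true ^ k = 1 := by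
  rw [← mul_pow, D.T_mul, one_pow]

theorem B_le_overlap (b : Bool) : D.B b ≤ D.overlap := by
  intro x hx
  cases b with
  | false => exact ⟨0, by simpa using hx⟩
  | true => exact D.loc true x hx

theorem overlap_pow_mem (x : F) (hx : x ∈ D.overlap) : ∃ k : ℕ, x * D.T false ^ k ∈ D.B false := hx

end Charts

variable {D n f α}

namespace Root

variable (H : Root D n f α)
include H

theorem root_overlap (x : F) (hx : x ^ n ∈ D.overlap) : x ∈ D.overlap := by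
  obtain ⟨k, hk⟩ := hx
  refine ⟨k, H.root false _ ?_⟩
  obtain ⟨m, hm⟩ : ∃ m, n = m + 1 := ⟨n - 1, by have := H.pos; omega⟩
  have e : (x * D.T false ^ k) ^ n = x ^ n * D.T false ^ k * (D.T false ^ k) ^ m := by
    rw [mul_pow, hm, pow_succ' (D.T false ^ k)]; ring
  rw [e]
  exact mul_mem hk (pow_mem (pow_mem (D.T_mem _) _) _)

theorem lift_add_mem {R : Subring F} (hroot : ∀ x : F, x ^ n ∈ R → x ∈ R) {x y : F}
    (hx : f * x ^ n ∈ R) (hy : f * y ^ n ∈ R) : f * (x + y) ^ n ∈ R := by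
  rw [add_pow, Finset.mul_sum]
  refine sum_mem fun a ha => ?_
  have hz : f * (x ^ a * y ^ (n - a)) ∈ R := by
    refine hroot _ ?_
    have han : a + (n - a) = n := by simp at ha; omega
    have e : (f * (x ^ a * y ^ (n - a))) ^ n = (f * x ^ n) ^ a * (f * y ^ n) ^ (n - a) := by
      have e1 : ∀ g : F, g ^ n = g ^ a * g ^ (n - a) := fun g => by rw [← pow_add, han]
      rw [mul_pow, mul_pow, mul_pow, mul_pow, e1 f, ← pow_mul, ← pow_mul, ← pow_mul, ← pow_mul,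
        Nat.mul_comm a n, Nat.mul_comm (n - a) n]
      ring
    rw [e]
    exact mul_mem (pow_mem hx _) (pow_mem hy _)
  have e : f * (x ^ a * y ^ (n - a) * (n.choose a : F)) =
      f * (x ^ a * y ^ (n - a)) * (n.choose a : F) := by ring
  rw [e]
  exact mul_mem hz (natCast_mem R _)

/-- The `R`-stable set `{h | f hⁿ ∈ R}` as a module over the constants. -/
def liftMod {R : Subring F} (hO : D.O ≤ R) (hroot : ∀ x : F, x ^ n ∈ R → x ∈ R) :
    Submodule D.O F where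
  carrier := {h | f * h ^ n ∈ R}
  zero_mem' := by simp [zero_pow (Nat.pos_iff_ne_zero.mp H.pos)]
  add_mem' := fun {x y} hx hy => H.lift_add_mem hroot hx hy
  smul_mem' := fun c x hx => by
    show f * ((c : F) * x) ^ n ∈ R
    have e : f * ((c : F) * x) ^ n = (c : F) ^ n * (f * x ^ n) := by ring
    rw [e]
    exact mul_mem (pow_mem (hO c.2) _) hx

theorem lift_mul_mem {R : Subring F} {c x : F} (hc : c ∈ R) (hx : f * x ^ n ∈ R) :
    f * (c * x) ^ n ∈ R := by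
  have e : f * (c * x) ^ n = c ^ n * (f * x ^ n) := by ring
  rw [e]
  exact mul_mem (pow_mem hc _) hx

theorem f_ne_zero [Nonempty ι] : f ≠ 0 := by
  intro h0
  obtain ⟨i⟩ := ‹Nonempty ι›
  obtain ⟨hf, h⟩ := H.res_f i
  have : (⟨f, hf⟩ : D.V i) = 0 := Subtype.ext h0
  rw [this, map_zero, zero_mul] at h
  exact zero_ne_one h

theorem mem_V_of_lift (i : ι) {x : F} (hx : f * x ^ n ∈ D.V i) : x ∈ D.V i := by
  obtain ⟨hfi, ef⟩ := H.res_f i
  refine D.mem_V_of_pow i x n H.pos ?_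
  obtain ⟨g, hg, hgf⟩ := H.inv_f i
  have e : x ^ n = g * (f * x ^ n) := by rw [← mul_assoc, hgf, one_mul]
  rw [e]
  exact mul_mem hg hx

/-- A global approximate root on a chart. -/
theorem exists_root_mod_rad (b : Bool) :
    ∃ ξ : F, f * ξ ^ n ∈ D.B b ∧ ∀ i, ∃ hξ : ξ ∈ D.V i, D.res i ⟨ξ, hξ⟩ = α i := by
  let 𝔞 : Ideal (D.B b) :=
    { carrier := {β | ∃ ξ : F, f * ξ ^ n ∈ D.B b ∧
        ∀ i, ∃ hξ : ξ ∈ D.V i, D.res i ⟨ξ, hξ⟩ = D.res i ⟨β, D.B_le b i β.2⟩ * α i}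
      zero_mem' := ⟨0, by simp [zero_pow (Nat.pos_iff_ne_zero.mp H.pos)], fun i =>
        ⟨zero_mem _, by
          have h1 : (⟨(0 : F), zero_mem (D.V i)⟩ : D.V i) = 0 := rfl
          have h2 : (⟨((0 : D.B b) : F), D.B_le b i (0 : D.B b).2⟩ : D.V i) = 0 := rfl
          rw [h1, h2, map_zero, zero_mul]⟩⟩
      add_mem' := by
        rintro β β' ⟨ξ, hξ, hr⟩ ⟨ξ', hξ', hr'⟩
        refine ⟨ξ + ξ', H.lift_add_mem (H.root b) hξ hξ', fun i => ?_⟩
        obtain ⟨h, e⟩ := hr i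
        obtain ⟨h', e'⟩ := hr' i
        refine ⟨add_mem h h', ?_⟩
        have h1 : (⟨ξ + ξ', add_mem h h'⟩ : D.V i) = ⟨ξ, h⟩ + ⟨ξ', h'⟩ := rfl
        have h2 : (⟨((β + β' : D.B b) : F), D.B_le b i (β + β').2⟩ : D.V i) =
            ⟨β, D.B_le b i β.2⟩ + ⟨β', D.B_le b i β'.2⟩ := rfl
        rw [h1, h2, map_add, map_add, e, e', add_mul]
      smul_mem' := by
        rintro c β ⟨ξ, hξ, hr⟩
        refine ⟨(c : F) * ξ, H.lift_mul_mem c.2 hξ, fun i => ?_⟩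
        obtain ⟨h, e⟩ := hr i
        refine ⟨mul_mem (D.B_le b i c.2) h, ?_⟩
        have h1 : (⟨(c : F) * ξ, mul_mem (D.B_le b i c.2) h⟩ : D.V i) =
            ⟨c, D.B_le b i c.2⟩ * ⟨ξ, h⟩ := rfl
        have h2 : (⟨((c • β : D.B b) : F), D.B_le b i (c • β).2⟩ : D.V i) =
            ⟨c, D.B_le b i c.2⟩ * ⟨β, D.B_le b i β.2⟩ := rfl
        rw [h1, h2, map_mul, map_mul, e, mul_assoc] }
  have htop : 𝔞 = ⊤ := by
    by_contra hne
    obtain ⟨c, hc, hle⟩ := Ideal.exists_le_maximal 𝔞 hne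
    have hϖ : (⟨D.ϖ, D.O_le b D.ϖ_mem⟩ : D.B b) ∈ 𝔞 := by
      refine ⟨0, by simp [zero_pow (Nat.pos_iff_ne_zero.mp H.pos)], fun i => ⟨zero_mem _, ?_⟩⟩
      have h1 : (⟨(0 : F), zero_mem (D.V i)⟩ : D.V i) = 0 := rfl
      rw [h1, map_zero, D.res_ϖ i, zero_mul]
    obtain ⟨β, hβ, hβ'⟩ := H.local_lift b c hc (hle hϖ)
    exact hβ (hle hβ')
  obtain ⟨ξ, hξ, hr⟩ : (1 : D.B b) ∈ 𝔞 := by rw [htop]; trivial
  refine ⟨ξ, hξ, fun i => ?_⟩
  obtain ⟨h, e⟩ := hr i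
  refine ⟨h, ?_⟩
  have h2 : (⟨((1 : D.B b) : F), D.B_le b i (1 : D.B b).2⟩ : D.V i) = 1 := rfl
  rw [e, h2, map_one, one_mul]

/-- Newton: approximate roots modulo every power of `ϖ`. -/
theorem exists_root_mod_pow (b : Bool) (m : ℕ) :
    ∃ ξ : F, (∃ y ∈ D.B b, f * ξ ^ n = 1 + D.ϖ ^ m * y) ∧
      ∀ i, ∃ hξ : ξ ∈ D.V i, D.res i ⟨ξ, hξ⟩ = α i := by
  obtain ⟨ξ₀, hξ₀, hr₀⟩ := H.exists_root_mod_rad b
  set ε₀ : F := f * ξ₀ ^ n - 1 with hε₀
  have hεB : ε₀ ∈ D.B b := sub_mem hξ₀ (one_mem _)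
  obtain ⟨u, hu, hun⟩ := H.inv_n
  have hεres : ∀ i (h : ε₀ ∈ D.V i), D.res i ⟨ε₀, h⟩ = 0 := by
    intro i h
    obtain ⟨hf, ef⟩ := H.res_f i
    obtain ⟨hξ, eξ⟩ := hr₀ i
    have h1 : (⟨ε₀, h⟩ : D.V i) = ⟨f, hf⟩ * ⟨ξ₀, hξ⟩ ^ n - 1 := Subtype.ext rfl
    rw [h1, map_sub, map_mul, map_pow, eξ, ef, map_one, sub_self]
  have step : ∀ k : ℕ, ∃ ξ : F, (∃ y ∈ D.B b, f * ξ ^ n = 1 + ε₀ ^ (2 ^ k) * y) ∧
      ∀ i, ∃ hξ : ξ ∈ D.V i, D.res i ⟨ξ, hξ⟩ = α i := by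
    intro k
    induction k with
    | zero => exact ⟨ξ₀, ⟨1, one_mem _, by rw [hε₀]; ring⟩, hr₀⟩
    | succ k ih =>
      obtain ⟨ξ, ⟨y, hy, hξy⟩, hr⟩ := ih
      set ε := ε₀ ^ (2 ^ k) * y with hε
      have hεm : ε ∈ D.B b := mul_mem (pow_mem hεB _) hy
      have hneg : -(u * ε) ∈ D.B b := neg_mem (mul_mem (D.O_le b hu) hεm)
      obtain ⟨r, hr2⟩ := exists_add_pow_two (⟨-(u * ε), hneg⟩ : D.B b) n
      have hr2' : (1 + -(u * ε)) ^ n = 1 + (n : F) * -(u * ε) + (-(u * ε)) ^ 2 * (r : F) := by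
        simpa using congrArg Subtype.val hr2
      refine ⟨(1 + -(u * ε)) * ξ, ⟨y ^ 2 * (u ^ 2 * r * (1 + ε) - 1), ?_, ?_⟩, fun i => ?_⟩
      · exact mul_mem (pow_mem hy _) (sub_mem (mul_mem (mul_mem (pow_mem (D.O_le b hu) _) r.2)
          (add_mem (one_mem _) hεm)) (one_mem _))
      · have e : f * ((1 + -(u * ε)) * ξ) ^ n = (f * ξ ^ n) * (1 + -(u * ε)) ^ n := by
          rw [mul_pow]; ring
        rw [e, hξy, hr2']
        have e2 : ε₀ ^ 2 ^ (k + 1) * (y ^ 2 * (u ^ 2 * (r : F) * (1 + ε) - 1)) =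
            ε ^ 2 * (u ^ 2 * (r : F) * (1 + ε) - 1) := by rw [hε, pow_succ 2 k, pow_mul]; ring
        rw [e2]
        linear_combination (-(ε * (1 + ε))) * hun
      · obtain ⟨h, e⟩ := hr i
        have hm : 1 + -(u * ε) ∈ D.V i := D.B_le b i (add_mem (one_mem _) hneg)
        have hε0V : ε₀ ∈ D.V i := D.B_le b i hεB
        refine ⟨mul_mem hm h, ?_⟩
        have h1 : (⟨(1 + -(u * ε)) * ξ, mul_mem hm h⟩ : D.V i) =
            (1 + -(⟨u, D.B_le b i (D.O_le b hu)⟩ * (⟨ε₀, hε0V⟩ ^ (2 ^ k) *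
              ⟨y, D.B_le b i hy⟩))) * ⟨ξ, h⟩ := Subtype.ext rfl
        rw [h1, map_mul, map_add, map_neg, map_mul, map_mul, map_pow, hεres i hε0V, map_one, e,
          zero_pow (pow_ne_zero k two_ne_zero)]
        ring
  obtain ⟨e, y₀, hy₀, hpow⟩ := D.rad b ε₀ hεB hεres
  obtain ⟨ξ, ⟨y, hy, hξy⟩, hr⟩ := step (e * m)
  refine ⟨ξ, ⟨y₀ ^ m * ε₀ ^ (2 ^ (e * m) - e * m) * y, ?_, ?_⟩, hr⟩
  · exact mul_mem (mul_mem (pow_mem hy₀ _) (pow_mem hεB _)) hy
  · have hle : e * m ≤ 2 ^ (e * m) := Nat.le_of_lt Nat.lt_two_pow_self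
    rw [hξy, ← Nat.add_sub_cancel' hle, pow_add, pow_mul, hpow, Nat.add_sub_cancel_left]
    ring

theorem res_eq_one_sub {x : F} (hx : ∀ i, ∃ h : x ∈ D.V i, D.res i ⟨x, h⟩ = 1) :
    ∀ i (h : x - 1 ∈ D.V i), D.res i ⟨x - 1, h⟩ = 0 := by
  intro i h
  obtain ⟨hx', e⟩ := hx i
  have h1 : (⟨x - 1, h⟩ : D.V i) = ⟨x, hx'⟩ - 1 := Subtype.ext rfl
  rw [h1, map_sub, e, map_one, sub_self]

/-- An element of the overlap with residues `1` and `n`-th power `≡ 1` is `≡ 1`. -/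
theorem sub_one_mem_of_pow {η : F} (hη : η ∈ D.overlap)
    (hres : ∀ i, ∃ h : η ∈ D.V i, D.res i ⟨η, h⟩ = 1) (m : ℕ)
    (hpow : ∃ y ∈ D.overlap, η ^ n = 1 + D.ϖ ^ m * y) :
    ∃ z ∈ D.overlap, η - 1 = D.ϖ ^ m * z := by
  obtain ⟨u, hu, hun⟩ := H.inv_n
  have huO : u ∈ D.overlap := D.B_le_overlap false (D.O_le false hu)
  have hϖO : D.ϖ ∈ D.overlap := D.B_le_overlap false (D.O_le false D.ϖ_mem)
  obtain ⟨y, hy, hpow⟩ := hpow
  set d := η - 1 with hd
  have hdO : d ∈ D.overlap := sub_mem hη (one_mem _)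
  obtain ⟨r, hr⟩ := exists_geom_sum_eq (⟨d, hdO⟩ : D.overlap) n
  have hr' : ∑ k ∈ Finset.range n, η ^ k = (n : F) + d * (r : F) := by
    have := congrArg Subtype.val hr
    simpa [hd] using this
  have hkey : ∃ a ∈ D.overlap, ∃ c ∈ D.overlap, d = d ^ 2 * a + D.ϖ ^ m * c := by
    refine ⟨-(u * r), neg_mem (mul_mem huO r.2), u * y, mul_mem huO hy, ?_⟩
    have h2 : d * ((n : F) + d * r) = D.ϖ ^ m * y := by
      rw [← hr', hd, mul_geom_sum, hpow]; ring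
    linear_combination u * h2 - d * hun
  obtain ⟨a, ha, c, hc, hac⟩ := hkey
  have hiter : ∀ k : ℕ, ∃ a' ∈ D.overlap, ∃ c' ∈ D.overlap, d = d ^ (k + 1) * a' + D.ϖ ^ m * c' := by
    intro k
    induction k with
    | zero => exact ⟨1, one_mem _, 0, zero_mem _, by ring⟩
    | succ k ih =>
      obtain ⟨a', ha', c', hc', h⟩ := ih
      refine ⟨a * a', mul_mem ha ha', c' + d ^ k * a' * c,
        add_mem hc' (mul_mem (mul_mem (pow_mem hdO _) ha') hc), ?_⟩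
      linear_combination h + d ^ k * a' * hac
  obtain ⟨l, hl⟩ := D.overlap_pow_mem d hdO
  obtain ⟨e, y₀, hy₀, hpow₀⟩ := D.rad false (d * D.T false ^ l) hl (by
    intro i h
    have hd' : d ∈ D.V i := sub_mem (hres i).choose (one_mem _)
    have hT : D.T false ^ l ∈ D.V i := D.B_le false i (pow_mem (D.T_mem _) _)
    have h1 : (⟨d * D.T false ^ l, h⟩ : D.V i) = ⟨d, hd'⟩ * ⟨_, hT⟩ := Subtype.ext rfl
    rw [h1, map_mul, H.res_eq_one_sub hres i hd', zero_mul])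
  have hT1 : D.T true ∈ D.overlap := D.B_le_overlap true (D.T_mem _)
  have hde : d ^ e = D.ϖ * (y₀ * D.T true ^ (l * e)) := by
    rw [← mul_assoc, ← hpow₀, mul_pow, ← pow_mul, mul_assoc, D.T_pow_mul, mul_one]
  obtain ⟨a', ha', c', hc', h⟩ := hiter (e * m)
  refine ⟨(y₀ * D.T true ^ (l * e)) ^ m * d * a' + c', add_mem (mul_mem (mul_mem
    (pow_mem (mul_mem (D.B_le_overlap false hy₀) (pow_mem hT1 _)) _) hdO) ha') hc', ?_⟩
  rw [pow_succ, pow_mul, hde, mul_pow] at h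
  linear_combination h

/-- Torsion in the comparison of the two charts is bounded. -/
theorem exists_torsion_bound (hf : f ≠ 0) :
    ∃ t : ℕ, ∀ (k : ℕ) (x : F), f * x ^ n ∈ D.overlap →
      (∃ a b : F, f * a ^ n ∈ D.B false ∧ f * b ^ n ∈ D.B true ∧ D.ϖ ^ k * x = a + b) →
      ∃ a b : F, f * a ^ n ∈ D.B false ∧ f * b ^ n ∈ D.B true ∧ D.ϖ ^ t * x = a + b := by
  classical
  haveI := D.noeth_O
  haveI := D.noeth_B false
  let U : Submodule D.O F := H.liftMod (D.O_le false) (H.root false) ⊔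
    H.liftMod (D.O_le true) (H.root true)
  have mem_U : ∀ x : F, x ∈ U ↔
      ∃ a b : F, f * a ^ n ∈ D.B false ∧ f * b ^ n ∈ D.B true ∧ x = a + b := by
    intro x
    rw [Submodule.mem_sup]
    exact ⟨fun ⟨a, ha, b, hb, e⟩ => ⟨a, b, ha, hb, e.symm⟩,
      fun ⟨a, b, ha, hb, e⟩ => ⟨a, ha, b, hb, e.symm⟩⟩
  -- the lifts on the first chart form a finitely generated module over it
  let I₀ : Submodule (D.B false) F :=
    { carrier := {h | f * h ^ n ∈ D.B false}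
      zero_mem' := by simp [zero_pow (Nat.pos_iff_ne_zero.mp H.pos)]
      add_mem' := fun {x y} hx hy => H.lift_add_mem (H.root false) hx hy
      smul_mem' := fun c x hx => H.lift_mul_mem c.2 hx }
  have hfg : I₀.FG := by
    by_cases h0 : I₀ = ⊥
    · rw [h0]; exact Submodule.fg_bot
    obtain ⟨h₁, hh₁, hh₁0⟩ := Submodule.exists_mem_ne_zero_of_ne_bot h0
    set a : F := f * h₁ ^ (n - 1) with ha
    have ha0 : a ≠ 0 := mul_ne_zero hf (pow_ne_zero _ hh₁0)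
    let φ : I₀ →ₗ[D.B false] D.B false :=
      { toFun := fun x => ⟨a * (x : F), H.root false _ (by
          have e : (a * (x : F)) ^ n = (f * h₁ ^ n) ^ (n - 1) * (f * (x : F) ^ n) := by
            rw [ha, mul_pow, mul_pow, mul_pow, ← pow_mul, ← pow_mul, Nat.mul_comm (n - 1) n]
            obtain ⟨m, hm⟩ : ∃ m, n = m + 1 := ⟨n - 1, by have := H.pos; omega⟩
            rw [hm, Nat.add_sub_cancel, pow_succ]
            ring
          rw [e]
          exact mul_mem (pow_mem (show f * h₁ ^ n ∈ D.B false from hh₁) _) (show f * (x : F) ^ n ∈ D.B false from x.2))⟩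
        map_add' := fun x y => Subtype.ext (by simp [mul_add])
        map_smul' := fun c x => Subtype.ext (by simp [Subring.smul_def, mul_left_comm]) }
    have hφ : Function.Injective φ := fun x y h => Subtype.ext
      (mul_left_cancel₀ ha0 (congrArg Subtype.val h))
    haveI : IsNoetherian (D.B false) I₀ := isNoetherian_of_injective φ hφ
    exact Module.Finite.iff_fg.mp inferInstance
  obtain ⟨G, hG⟩ := hfg
  obtain ⟨S, hSmem, hS⟩ := D.finite_B false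
  let G₂ : Finset F := (S ×ˢ G).image fun p => p.1 * p.2
  have hG₂ : ∀ g ∈ G₂, f * g ^ n ∈ D.B false := by
    intro g hg
    obtain ⟨⟨s, g'⟩, hp, rfl⟩ := Finset.mem_image.mp hg
    obtain ⟨hs, hg'⟩ := Finset.mem_product.mp hp
    exact H.lift_mul_mem (hSmem s hs) (hG ▸ Submodule.subset_span hg' : g' ∈ I₀)
  choose! K hK using fun g hg => D.loc false _ (hG₂ g hg)
  have hneg : ∀ g ∈ G₂, ∀ k, K g ≤ k → f * (D.T true ^ k * g) ^ n ∈ D.B true := by
    intro g hg k hk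
    obtain ⟨e, he⟩ : ∃ e, k * n = K g + e :=
      ⟨k * n - K g, by have := Nat.le_mul_of_pos_right k H.pos; omega⟩
    rw [mul_pow, ← pow_mul, he, pow_add,
      show f * (D.T true ^ K g * D.T true ^ e * g ^ n) =
        f * g ^ n * D.T (!false) ^ K g * D.T true ^ e by rw [Bool.not_false]; ring]
    exact mul_mem (hK g hg) (pow_mem (D.T_mem _) _)
  let Q : Set F := ↑(G₂.biUnion fun g => (Finset.range (K g)).image fun j => D.T true ^ j * g)
  let P : Submodule D.O F := Submodule.span D.O Q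
  have hPU : ∀ x : F, f * x ^ n ∈ D.overlap → x ∈ U ⊔ P := by
    intro x hx
    obtain ⟨l, hl⟩ := hx
    have hxl : D.T false ^ l * x ∈ I₀ := by
      show f * (D.T false ^ l * x) ^ n ∈ D.B false
      obtain ⟨e, he⟩ : ∃ e, l * n = l + e :=
        ⟨l * n - l, by have := Nat.le_mul_of_pos_right l H.pos; omega⟩
      rw [mul_pow, ← pow_mul, he, pow_add,
        show f * (D.T false ^ l * D.T false ^ e * x ^ n) =
          f * x ^ n * D.T false ^ l * D.T false ^ e by ring]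
      exact mul_mem hl (pow_mem (D.T_mem _) _)
    have hterm : ∀ g ∈ G₂, ∀ i : ℕ, D.T true ^ l * (D.T false ^ i * g) ∈ U ⊔ P := by
      intro g hg i
      rcases le_or_gt l i with h | h
      · have e : D.T true ^ l * (D.T false ^ i * g) = D.T false ^ (i - l) * g := by
          obtain ⟨d, rfl⟩ := Nat.exists_eq_add_of_le h
          rw [Nat.add_sub_cancel_left, pow_add,
            show D.T true ^ l * (D.T false ^ l * D.T false ^ d * g) =
              D.T false ^ l * D.T true ^ l * (D.T false ^ d * g) by ring, D.T_pow_mul, one_mul]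
        rw [e]
        exact Submodule.mem_sup_left (Submodule.mem_sup_left
          (H.lift_mul_mem (pow_mem (D.T_mem _) _) (hG₂ g hg)))
      · have e : D.T true ^ l * (D.T false ^ i * g) = D.T true ^ (l - i) * g := by
          obtain ⟨d, rfl⟩ := Nat.exists_eq_add_of_le h.le
          rw [Nat.add_sub_cancel_left, pow_add,
            show D.T true ^ i * D.T true ^ d * (D.T false ^ i * g) =
              D.T false ^ i * D.T true ^ i * (D.T true ^ d * g) by ring, D.T_pow_mul, one_mul]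
        rw [e]
        rcases le_or_gt (K g) (l - i) with hk | hk
        · exact Submodule.mem_sup_left (Submodule.mem_sup_right (hneg g hg _ hk))
        · refine Submodule.mem_sup_right (Submodule.subset_span ?_)
          exact Finset.mem_coe.mpr (Finset.mem_biUnion.mpr
            ⟨g, hg, Finset.mem_image.mpr ⟨l - i, Finset.mem_range.mpr hk, rfl⟩⟩)
    have hsg : ∀ y ∈ D.B false, ∀ g ∈ G, D.T true ^ l * (y * g) ∈ U ⊔ P := by
      intro y hy g hg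
      refine Submodule.span_induction ?_ ?_ ?_ ?_ (hS y hy)
      · rintro z ⟨i, s, hs, rfl⟩
        rw [mul_assoc (D.T false ^ i)]
        exact hterm _ (Finset.mem_image.mpr ⟨(s, g), Finset.mem_product.mpr ⟨hs, hg⟩, rfl⟩) i
      · simp
      · intro z z' _ _ hz hz'; rw [add_mul, mul_add]; exact add_mem hz hz'
      · intro c z _ hz
        rw [Algebra.smul_mul_assoc, Algebra.mul_smul_comm]
        exact Submodule.smul_mem _ c hz
    have hall : ∀ z ∈ I₀, D.T true ^ l * z ∈ U ⊔ P := by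
      intro z hz
      rw [← hG, Submodule.mem_span_finset] at hz
      obtain ⟨c, -, rfl⟩ := hz
      rw [Finset.mul_sum]
      exact sum_mem fun g hg => hsg _ (c g).2 g hg
    have h := hall _ hxl
    rwa [← mul_assoc, mul_comm (D.T true ^ l), D.T_pow_mul, one_mul] at h
  let ϖO : D.O := ⟨D.ϖ, D.ϖ_mem⟩
  have hϖs : ∀ (k : ℕ) (y : F), (ϖO ^ k) • y = D.ϖ ^ k * y := fun k y => rfl
  let St : ℕ →o Submodule D.O P :=
    { toFun := fun k =>
        { carrier := {p | (ϖO ^ k) • (p : F) ∈ U}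
          zero_mem' := by simp
          add_mem' := fun {x y} hx hy => by
            show (ϖO ^ k) • ((x : F) + y) ∈ U
            rw [smul_add]; exact add_mem hx hy
          smul_mem' := fun c x hx => by
            show (ϖO ^ k) • (c • (x : F)) ∈ U
            rw [smul_comm]; exact Submodule.smul_mem _ c hx }
      monotone' := fun a b hab p hp => by
        show (ϖO ^ b) • (p : F) ∈ U
        rw [← Nat.sub_add_cancel hab, pow_add, mul_smul]
        exact Submodule.smul_mem _ _ hp }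
  haveI : IsNoetherian D.O P :=
    isNoetherian_of_fg_of_noetherian P (Submodule.fg_span (Finset.finite_toSet _))
  obtain ⟨t, ht⟩ := monotone_stabilizes_iff_noetherian.mpr inferInstance St
  refine ⟨t, fun k x hx hkx => ?_⟩
  rw [← mem_U]
  rw [← mem_U, ← hϖs] at hkx
  obtain ⟨a, ha, p, hp, rfl⟩ := Submodule.mem_sup.mp (hPU x hx)
  rw [smul_add] at hkx
  have hkp : (⟨p, hp⟩ : P) ∈ St k := by
    show (ϖO ^ k) • p ∈ U
    simpa using sub_mem hkx (Submodule.smul_mem U (ϖO ^ k) ha)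
  have hmem : (⟨p, hp⟩ : P) ∈ St (max k t) := St.monotone (le_max_left _ _) hkp
  rw [← ht _ (le_max_right _ _)] at hmem
  rw [← hϖs, smul_add]
  exact add_mem (Submodule.smul_mem U _ ha) hmem

/-- A function with locally liftable residual roots is a constant times an `n`-th power. -/
theorem exists_eq_const_mul_pow [Nonempty ι] :
    ∃ c ∈ D.Kc, ∃ w : F, w ≠ 0 ∧ f = c * w ^ n := by
  have hf : f ≠ 0 := H.f_ne_zero
  obtain ⟨t, ht⟩ := H.exists_torsion_bound hf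
  obtain ⟨ξ₀, ⟨y₀, hy₀, h₀⟩, hr₀⟩ := H.exists_root_mod_pow false (t + 1)
  obtain ⟨ξ₁, ⟨y₁, hy₁, h₁⟩, hr₁⟩ := H.exists_root_mod_pow true (t + 1)
  set M := t + 1 with hMdef
  obtain ⟨m, hm⟩ : ∃ m, n = m + 1 := ⟨n - 1, by have := H.pos; omega⟩
  have hϖ : D.ϖ ∈ D.overlap := D.B_le_overlap false (D.O_le false D.ϖ_mem)
  have hmem : ∀ b y, y ∈ D.B b → 1 + D.ϖ ^ M * y ∈ D.B b := fun b y hy =>
    add_mem (one_mem _) (mul_mem (pow_mem (D.O_le b D.ϖ_mem) _) hy)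
  have h₀O : f * ξ₀ ^ n ∈ D.overlap := by rw [h₀]; exact D.B_le_overlap _ (hmem _ _ hy₀)
  have h₁O : f * ξ₁ ^ n ∈ D.overlap := by rw [h₁]; exact D.B_le_overlap _ (hmem _ _ hy₁)
  set η := f * ξ₀ ^ m * ξ₁ with hη
  have hηn : η ^ n = (f * ξ₀ ^ n) ^ m * (f * ξ₁ ^ n) := by
    rw [hη, hm, pow_succ, pow_succ, pow_succ]; ring
  have hηO : η ∈ D.overlap :=
    H.root_overlap _ (by rw [hηn]; exact mul_mem (pow_mem h₀O _) h₁O)
  have hηres : ∀ i, ∃ h : η ∈ D.V i, D.res i ⟨η, h⟩ = 1 := by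
    intro i
    obtain ⟨hfi, ef⟩ := H.res_f i
    obtain ⟨a, ea⟩ := hr₀ i
    obtain ⟨b, eb⟩ := hr₁ i
    refine ⟨mul_mem (mul_mem hfi (pow_mem a _)) b, ?_⟩
    have h1 : (⟨η, mul_mem (mul_mem hfi (pow_mem a _)) b⟩ : D.V i) =
        ⟨f, hfi⟩ * ⟨ξ₀, a⟩ ^ m * ⟨ξ₁, b⟩ := Subtype.ext rfl
    rw [h1, map_mul, map_mul, map_pow, ea, eb, mul_assoc, ← pow_succ, ← hm, ef]
  have hpow : ∃ y ∈ D.overlap, η ^ n = 1 + D.ϖ ^ M * y := by
    obtain ⟨r, hr⟩ := exists_add_pow_two (⟨D.ϖ ^ M * y₀, mul_mem (pow_mem hϖ _)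
      (D.B_le_overlap _ hy₀)⟩ : D.overlap) m
    have hr' : (1 + D.ϖ ^ M * y₀) ^ m =
        1 + (m : F) * (D.ϖ ^ M * y₀) + (D.ϖ ^ M * y₀) ^ 2 * (r : F) := by
      simpa using congrArg Subtype.val hr
    refine ⟨((m : F) * y₀ + D.ϖ ^ M * y₀ ^ 2 * r) * (1 + D.ϖ ^ M * y₁) + y₁, ?_, ?_⟩
    · exact add_mem (mul_mem (add_mem (mul_mem (natCast_mem _ m) (D.B_le_overlap _ hy₀))
        (mul_mem (mul_mem (pow_mem hϖ _) (pow_mem (D.B_le_overlap _ hy₀) _)) r.2))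
        (D.B_le_overlap _ (hmem _ _ hy₁))) (D.B_le_overlap _ hy₁)
    · rw [hηn, h₀, h₁, hr']; ring
  obtain ⟨z, hz, hzη⟩ := H.sub_one_mem_of_pow hηO hηres M hpow
  have hdiff : ξ₁ - ξ₀ = D.ϖ ^ M * (ξ₀ * z - ξ₁ * y₀) := by
    have e1 : η * ξ₀ = (f * ξ₀ ^ n) * ξ₁ := by rw [hη, hm, pow_succ]; ring
    linear_combination (-ξ₁) * h₀ - e1 + ξ₀ * hzη
  have hzI : f * (ξ₀ * z - ξ₁ * y₀) ^ n ∈ D.overlap := by
    rw [sub_eq_add_neg]
    refine H.lift_add_mem H.root_overlap ?_ ?_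
    · rw [mul_comm ξ₀]; exact H.lift_mul_mem hz h₀O
    · rw [← neg_mul, neg_mul_comm, mul_comm ξ₁]
      exact H.lift_mul_mem (neg_mem (D.B_le_overlap _ hy₀)) h₁O
  have hξ₀ : f * (-ξ₀) ^ n ∈ D.B false := by
    rw [neg_eq_neg_one_mul]
    exact H.lift_mul_mem (neg_mem (one_mem _)) (by rw [h₀]; exact hmem _ _ hy₀)
  obtain ⟨a, b, ha, hb, hab⟩ := ht M _ hzI
    ⟨-ξ₀, ξ₁, hξ₀, by rw [h₁]; exact hmem _ _ hy₁, by rw [← hdiff]; ring⟩
  have e0 : ξ₁ - D.ϖ * b = ξ₀ + D.ϖ * a := by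
    rw [hMdef, pow_succ'] at hdiff
    linear_combination hdiff + D.ϖ * hab
  set w := ξ₁ - D.ϖ * b with hw
  have hwB1 : f * w ^ n ∈ D.B true := by
    rw [hw, sub_eq_add_neg, ← neg_mul]
    exact H.lift_add_mem (H.root true) (by rw [h₁]; exact hmem _ _ hy₁)
      (H.lift_mul_mem (neg_mem (D.O_le true D.ϖ_mem)) hb)
  have hwB0 : f * w ^ n ∈ D.B false := by
    rw [e0]
    exact H.lift_add_mem (H.root false) (by rw [h₀]; exact hmem _ _ hy₀)
      (H.lift_mul_mem (D.O_le false D.ϖ_mem) ha)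
  have hw0 : w ≠ 0 := by
    intro h0
    obtain ⟨i⟩ := ‹Nonempty ι›
    obtain ⟨hfi, ef⟩ := H.res_f i
    obtain ⟨hξ, eξ⟩ := hr₁ i
    -- `b` lies in the valuation ring: `f b ^ n` does
    have hb1 : (⟨ξ₁, hξ⟩ : D.V i) = ⟨D.ϖ, D.B_le false i (D.O_le false D.ϖ_mem)⟩ *
        ⟨b, H.mem_V_of_lift i (D.B_le true i hb)⟩ := Subtype.ext (sub_eq_zero.mp h0)
    rw [hb1, map_mul, D.res_ϖ, zero_mul] at eξ
    rw [← eξ, zero_pow (Nat.pos_iff_ne_zero.mp H.pos), mul_zero] at ef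
    exact zero_ne_one ef
  refine ⟨f * w ^ n, D.const _ hwB0 hwB1, w⁻¹, inv_ne_zero hw0, ?_⟩
  rw [inv_pow, mul_assoc, mul_inv_cancel₀ (pow_ne_zero _ hw0), mul_one]

end Root

end Fermat.Agent.Carayol.Reg.Lift

end
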