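/-
Theorem of Carayol at `q ^ 2 ∥ M`: a function of level `q ^ 2 M` over the inertia
field with divisor divisible by `n` and both norms `n`-th powers up to constants is, up to a bounded
power, a constant times an `n`-th power.
-/
import Fermat.Agent.Carayol.MainGlobalLocal
import Fermat.Agent.Carayol.MainLift

set_option autoImplicit false
set_option linter.style.haveILetI false

noncomputable section

namespace Fermat.Agent.Carayol.Reg

open ModularCurve IntermediateField AlgebraicCurve

variable {A : ValuationSubring (AlgebraicClosure ℚ)} {M q : ℕ} [NeZero M] [Fact q.Prime]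

/-- The data of the two charts at the top level. -/
def liftCharts (hA : A.LiesOverPrime q) (hM : Admissible q M) :
    Lift.Charts (F₂ A M q) (RFld A M) Side where
  O := constInt A (M * q * q)
  ϖ := (q : F₂ A M q)
  B := chart₂ A M q
  T := jCoord A (M * q * q)
  V := sideInt A M q
  res := sideRes A M q
  Kc := (algebraMap (inertiaField A) (F₂ A M q)).fieldRange
  O_le b := constInt_le_chart _
  ϖ_mem := _root_.natCast_mem _ _
  noeth_O := isNoetherianRing_constInt hA _
  noeth_B b := isNoetherianRing_chart hA _ b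
  T_mem b := self_mem_chart _
  T_mul := jCoord_mul _
  finite_B b := exists_span_chart hA _ b
  loc b x hx := exists_mul_pow_mem_chart _ b x hx
  const x h₀ h₁ := exists_eq_algebraMap_of_mem_both _ x h₀ h₁
  B_le b s := chart_le_sideInt hA hM.1 b s
  mem_V_of_pow s x k hk hx := by
    rcases eq_or_ne x 0 with rfl | h0
    · exact zero_mem _
    · rw [mem_sideInt_iff hA hM.1 s h0]
      have h1 := (mem_sideInt_iff hA hM.1 s (pow_ne_zero k h0)).mp hx
      rw [sideVal_pow hA hM.1 s h0] at h1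
      exact nonneg_of_mul_nonneg_right h1 (by exact_mod_cast hk)
  res_ϖ s := sideInt_natCast_res hA hM.1 s _
  rad b x hx hres := by
    obtain ⟨y, hy⟩ := exists_pow_eq_natCast_mul hA hM.1 b ⟨x, hx⟩ fun s => hres s _
    exact ⟨q - 1, (y : F₂ A M q), y.2, by simpa using congrArg Subtype.val hy⟩

theorem exists_natCast_inv (hA : A.LiesOverPrime q) {n : ℕ} (hnq : ¬ q ∣ n) :
    ∃ u ∈ constInt A (M * q * q), (n : F₂ A M q) * u = 1 := by
  have hn0 : n ≠ 0 := fun h => hnq (h ▸ dvd_zero q)
  have hK : (n : inertiaField A) ≠ 0 := Nat.cast_ne_zero.mpr hn0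
  refine ⟨algebraMap (inertiaField A) (F₂ A M q) (n : inertiaField A)⁻¹,
    Subring.mem_map.mpr ⟨_, ?_, rfl⟩, ?_⟩
  · have hunit : IsUnit ((n : ℕ) : A) := by
      by_contra hu
      haveI := charP_res (q := q) hA
      refine hnq ((CharP.cast_eq_zero_iff (Res A) q n).mp ?_)
      rw [← map_natCast (IsLocalRing.residue A) n]
      exact Ideal.Quotient.eq_zero_iff_mem.mpr ((IsLocalRing.mem_maximalIdeal _).mpr hu)
    obtain ⟨v, hv⟩ := hunit.exists_right_inv
    show ((n : inertiaField A)⁻¹ : inertiaField A).1 ∈ A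
    have e : (((n : inertiaField A)⁻¹ : inertiaField A) : AlgebraicClosure ℚ) =
        (v : AlgebraicClosure ℚ) := by
      push_cast
      exact inv_eq_of_mul_eq_one_right (by exact_mod_cast congrArg Subtype.val hv)
    rw [e]; exact v.2
  · rw [← map_natCast (algebraMap (inertiaField A) (F₂ A M q)) n, ← map_mul,
      mul_inv_cancel₀ hK, map_one]

/-- Residual roots after the exponent `q ^ 2 - 1` are compatible. -/
theorem exists_compatible (hA : A.LiesOverPrime q) (hM : Admissible q M) {n : ℕ} (hn : 0 < n)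
    {f : F₂ A M q} (hI : RootInput n f) {G : Side → RFld A M} (R : Rooted n f G) :
    ∃ ν : Side → Res A, (∀ s, ν s ^ n = 1) ∧
      ∀ (c : Ideal (chart₂ A M q false)) [c.IsMaximal], (q : chart₂ A M q false) ∈ c →
      ∀ (P : Pt A M), (∀ s, IsBranch A M q false c s P) →
      ∀ (a d : chart₂ A M q false) (h : F₂ A M q), a ∉ c → d ∉ c → h ≠ 0 →
        f * (d : F₂ A M q) = (a : F₂ A M q) * h ^ n → ∀ Γ : Side → P.toValuationSubring,
        (∀ s (hs : h ∈ sideInt A M q s),
          (Γ s : RFld A M) * sideRes A M q s ⟨h, hs⟩ = G s) →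
        (∀ s, IsLocalRing.residue P.toValuationSubring (Γ s) ≠ 0) →
        ∀ s, constVal P (ν s) * IsLocalRing.residue P.toValuationSubring (Γ s) ^ (q * q - 1) =
          IsLocalRing.residue P.toValuationSubring (Γ .s11) ^ (q * q - 1) := by
  have hqM := hM.1
  have R' : Rooted n (w₂ A M q f) (fun s => G (sideSwap s)) :=
    { ne_zero := (map_ne_zero _).mpr R.ne_zero
      norm := hI.norm'
      val := fun s => by rw [sideVal_w₂' hA hqM, R.val]
      G_ne := fun s => R.G_ne _
      root := fun s h => by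
        have hm := mem_sideInt_of_sideVal_eq_zero hA hqM (sideSwap s) R.ne_zero (R.val _)
        obtain ⟨h', e⟩ := sideRes_w₂ hA hqM s hm
        exact e.trans (R.root _ hm) }
  obtain ⟨μ, hμ, rel⟩ := exists_glued_relation hA hM hn R
  obtain ⟨μ', hμ', rel'⟩ := exists_glued_relation hA hM hn R'
  let ν : Side → Res A := fun s => match s with
    | .s20 => μ * μ' ^ q
    | .s11 => 1
    | .s02 => μ' * μ ^ q
  refine ⟨ν, fun s => ?_, ?_⟩
  · cases s
    · show (μ * μ' ^ q) ^ n = 1
      rw [mul_pow, hμ, one_mul, ← pow_mul, Nat.mul_comm, pow_mul, hμ', one_pow]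
    · exact one_pow n
    · show (μ' * μ ^ q) ^ n = 1
      rw [mul_pow, hμ', one_mul, ← pow_mul, Nat.mul_comm, pow_mul, hμ, one_pow]
  intro c _ hc P H a d h ha hd hh e Γ hΓ hΓ0
  -- the image of the point under the involution
  let wB : chart₂ A M q false →+* chart₂ A M q false :=
    ((w₂ A M q).toRingEquiv.toRingHom.comp (chart₂ A M q false).subtype).codRestrict _
      fun x => w₂_mem hqM x.2
  have hwB : ∀ x, ((wB x : chart₂ A M q false) : F₂ A M q) = w₂ A M q (x : F₂ A M q) :=
    fun x => rfl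
  have hinv : ∀ x, wB (wB x) = x := fun x => Subtype.ext (w₂_w₂ hqM _)
  haveI : (c.comap wB).IsMaximal :=
    Ideal.comap_isMaximal_of_surjective wB fun x => ⟨wB x, hinv x⟩
  have hc' : (q : chart₂ A M q false) ∈ c.comap wB := by
    rw [Ideal.mem_comap, map_natCast]; exact hc
  have H' : ∀ s, IsBranch A M q false (c.comap wB) s P := by
    intro s x
    obtain ⟨h', hreg, hiff⟩ := H (sideSwap s) (wB x)
    obtain ⟨h'', e''⟩ := sideRes_w₂ hA hqM s (x := ((wB x : chart₂ A M q false) : F₂ A M q)) h'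
    have hx : w₂ A M q ((wB x : chart₂ A M q false) : F₂ A M q) = (x : F₂ A M q) := by
      rw [hwB, w₂_w₂ hqM]
    have hm : (x : F₂ A M q) ∈ sideInt A M q s := hx ▸ h''
    have e3 : sideRes A M q s ⟨x, hm⟩ = sideRes A M q (sideSwap s) ⟨_, h'⟩ := by
      rw [← e'']
      exact congrArg _ (Subtype.ext hx.symm)
    refine ⟨hm, ?_⟩
    rw [e3]
    exact ⟨hreg, hiff⟩
  have r1 := rel c hc P H a d h ha hd hh e Γ hΓ
  have r2 := rel' (c.comap wB) hc' P H' (wB a) (wB d) (w₂ A M q h)
    (fun h0 => ha (by rw [Ideal.mem_comap, hinv] at h0; exact h0))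
    (fun h0 => hd (by rw [Ideal.mem_comap, hinv] at h0; exact h0))
    ((map_ne_zero _).mpr hh) (by rw [hwB, hwB, ← map_mul, e, map_mul, map_pow])
    (fun s => Γ (sideSwap s)) (fun s hs => by
      have hm := mem_sideInt_of_sideVal_eq_zero hA hqM (sideSwap s) hh
        (sideVal_local_eq_zero hA hqM (H _) hn (R.val _) R.ne_zero ha hd hh e)
      obtain ⟨h', e'⟩ := sideRes_w₂ hA hqM s hm
      rw [e']
      exact hΓ _ hm)
  simp only [sideSwap] at r2
  set ρa := IsLocalRing.residue P.toValuationSubring (Γ .s20) with hρa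
  set ρm := IsLocalRing.residue P.toValuationSubring (Γ .s11) with hρm
  set ρb := IsLocalRing.residue P.toValuationSubring (Γ .s02) with hρb
  set X := constVal P μ with hX
  set Y := constVal P μ' with hY
  have hq1 : 1 ≤ q := (Fact.out : q.Prime).one_le
  have hqq : q * q = (q * q - 1) + 1 := (Nat.sub_add_cancel (Nat.one_le_iff_ne_zero.mpr
    (mul_ne_zero (by omega) (by omega)))).symm
  have hqe : (q - 1) * q + (q - 1) = q * q - 1 := by
    obtain ⟨p, rfl⟩ : ∃ p, q = p + 1 := ⟨q - 1, by omega⟩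
    simp only [Nat.add_sub_cancel]
    have : (p + 1) * (p + 1) = p * (p + 1) + p + 1 := by ring
    omega
  have solve : ∀ u v U V : P.ResidueField, u ≠ 0 →
      u * ρm ^ (q - 1) = U * v ^ q → v * ρm ^ (q - 1) = V * u ^ q →
      U * V ^ q * u ^ (q * q - 1) = ρm ^ (q * q - 1) := by
    intro u v U V hu h1 h2
    have h3 : u * ρm ^ (q - 1) * ρm ^ ((q - 1) * q) = U * V ^ q * u ^ (q * q) := by
      rw [h1, pow_mul, mul_assoc, ← mul_pow, h2, mul_pow, ← pow_mul]
      ring
    rw [mul_assoc, ← pow_add, Nat.add_comm, hqe,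
      show u ^ (q * q) = u ^ (q * q - 1) * u by rw [← pow_succ, ← hqq]] at h3
    refine mul_left_cancel₀ hu ?_
    linear_combination -h3
  intro s
  cases s
  · show constVal P (μ * μ' ^ q) * _ = _
    rw [map_mul, map_pow]
    exact solve ρa ρb X Y (hΓ0 _) r1 r2
  · show constVal P (1 : Res A) * _ = _
    rw [map_one, one_mul]
  · show constVal P (μ' * μ ^ q) * _ = _
    rw [map_mul, map_pow]
    exact solve ρb ρa Y X (hΓ0 _) r2 r1

/-- A normalised function with rooted residues becomes a constant times an `n`-th power after the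
exponent `q ^ 2 - 1`. -/
theorem exists_eq_const_mul_pow_of_rooted (hA : A.LiesOverPrime q) (hM : Admissible q M) {n : ℕ}
    (hn : 0 < n) (hnq : ¬ q ∣ n) {f : F₂ A M q} (hI : RootInput n f) {G : Side → RFld A M}
    (R : Rooted n f G) :
    ∃ (c : inertiaField A) (w : F₂ A M q),
      f ^ (q * q - 1) = algebraMap (inertiaField A) (F₂ A M q) c * w ^ n := by
  have hqM := hM.1
  obtain ⟨ν, hν, hcomp⟩ := exists_compatible hA hM hn hI R
  set k := q * q - 1 with hk
  set G' : Side → RFld A M := fun s => algebraMap (Res A) (RFld A M) (ν s) * G s ^ k with hG'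
  have hν0 : ∀ s, ν s ≠ 0 := fun s h0 => one_ne_zero ((hν s).symm.trans (by
    rw [h0, zero_pow hn.ne']))
  have R4 : Rooted n (f ^ k) G' :=
    { ne_zero := pow_ne_zero _ R.ne_zero
      norm := R.norm.pow k
      val := fun s => by rw [sideVal_pow hA hqM s R.ne_zero, R.val, mul_zero]
      G_ne := fun s => mul_ne_zero ((map_ne_zero _).mpr (hν0 s)) (pow_ne_zero _ (R.G_ne s))
      root := fun s h => by
        have hm := mem_sideInt_of_sideVal_eq_zero hA hqM s R.ne_zero (R.val s)
        rw [show (⟨f ^ k, h⟩ : sideInt A M q s) = ⟨f, hm⟩ ^ k from rfl, map_pow, R.root, hG']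
        simp only
        rw [mul_pow, ← map_pow, hν, map_one, one_mul, ← pow_mul, ← pow_mul, Nat.mul_comm] }
  have hfalse : ∀ (c : Ideal (chart₂ A M q false)) [c.IsMaximal],
      (q : chart₂ A M q false) ∈ c → HasLift false c n (f ^ k) (fun s => (G' s)⁻¹) := by
    intro c _ hc
    rcases branch_cases hA hM false c hc with hs | ⟨P, hP⟩
    · exact hasLift_single hA hM hc hn R4 (hI.pow k).ord hs
    · exact hasLift_glued hA hM hn hnq R hI.ord hc hP ν hν k
        (hcomp c hc P fun s => (hP s P).mpr rfl)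
  have hall : ∀ (b : Bool) (c : Ideal (chart₂ A M q b)) [c.IsMaximal],
      (q : chart₂ A M q b) ∈ c → HasLift b c n (f ^ k) (fun s => (G' s)⁻¹) := by
    intro b c hmax hc
    cases b with
    | false => exact hfalse c hc
    | true =>
      by_cases hT : (⟨jCoord A (M * q * q) true, self_mem_chart _⟩ : chart₂ A M q true) ∈ c
      · exact hasLift_single hA hM hc hn R4 (hI.pow k).ord (branch_single_cusp hA hM c hc hT)
      · exact hasLift_transfer hA hM hn hfalse hc hT
  obtain ⟨u, hu, hun⟩ := exists_natCast_inv (M := M) hA hnq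
  have hroot : Lift.Root (liftCharts hA hM) n (f ^ k) (fun s => (G' s)⁻¹) :=
    { pos := hn
      inv_n := ⟨u, hu, hun⟩
      root := fun b x hx => mem_chart_of_pow_mem _ n hn x hx
      res_f := fun s => by
        have hm := mem_sideInt_of_sideVal_eq_zero hA hqM s R4.ne_zero (R4.val s)
        refine ⟨hm, ?_⟩
        show sideRes A M q s ⟨_, hm⟩ * (G' s)⁻¹ ^ n = 1
        rw [R4.root s hm, ← mul_pow, mul_inv_cancel₀ (R4.G_ne s), one_pow]
      inv_f := fun s => by
        refine ⟨(f ^ k)⁻¹, ?_, inv_mul_cancel₀ R4.ne_zero⟩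
        refine mem_sideInt_of_sideVal_eq_zero hA hqM s (inv_ne_zero R4.ne_zero) ?_
        rw [sideVal_inv hA hqM s R4.ne_zero, R4.val, neg_zero]
      local_lift := fun b c hmax hc => by
        obtain ⟨β, hβ, ξ, hξ, hres⟩ := @hall b c hmax hc
        refine ⟨β, hβ, ξ, hξ, fun s => ?_⟩
        obtain ⟨h₁, h₂, e⟩ := hres s
        exact ⟨h₁, e⟩ }
  haveI : Nonempty Side := ⟨.s20⟩
  obtain ⟨x, hx, w, -, e⟩ := hroot.exists_eq_const_mul_pow
  obtain ⟨c, rfl⟩ := RingHom.mem_fieldRange.mp hx
  exact ⟨c, w, e⟩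

theorem exists_pow_eq_const_mul_pow (hA : A.LiesOverPrime q) (hM : Admissible q M) :
    ∃ m : ℕ, 0 < m ∧ ∀ n : ℕ, ¬ q ∣ n → ∀ f : F₂ A M q, f ≠ 0 →
      (∀ v : Place (inertiaField A) (F₂ A M q), (n : ℤ) ∣ v.ord f) →
      (∃ (c : inertiaField A) (g : F₁ A M q),
        norm₀₁ A M q f = algebraMap (inertiaField A) (F₁ A M q) c * g ^ n) →
      (∃ (c : inertiaField A) (g : F₁ A M q),
        norm₁₂ A M q f = algebraMap (inertiaField A) (F₁ A M q) c * g ^ n) →
      ∃ (c : inertiaField A) (w : F₂ A M q),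
        f ^ m = algebraMap (inertiaField A) (F₂ A M q) c * w ^ n := by
  have hq2 := (Fact.out : q.Prime).two_le
  refine ⟨(q + 1) * (q - 1) * (q * q - 1), ?_, ?_⟩
  · have : 4 ≤ q * q := Nat.mul_le_mul hq2 hq2
    exact Nat.mul_pos (Nat.mul_pos (by omega) (by omega)) (by omega)
  intro n hnq f hf hord h01 h12
  have hn : 0 < n := Nat.pos_of_ne_zero fun h => hnq (h ▸ dvd_zero q)
  have hI : RootInput n f := ⟨hf, hord, h01, normCond_w₂_of hM.1 h12⟩
  obtain ⟨a, X, ha, hX, hI2, hval⟩ := exists_normalised hA hM hn hI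
  obtain ⟨G, R⟩ := exists_rooted hA hM.1 hn hnq hI2 hval
  obtain ⟨c, w, e⟩ := exists_eq_const_mul_pow_of_rooted hA hM hn hnq (hI2.pow (q - 1)) R
  set e₀ := (q - 1) * (q * q - 1) with he₀
  refine ⟨c / a ^ e₀, w / X ^ e₀, ?_⟩
  set AF := algebraMap (inertiaField A) (F₂ A M q) with hAF
  have ha' : AF a ≠ 0 := (map_ne_zero _).mpr ha
  rw [← pow_mul, ← he₀, mul_pow, mul_pow, ← pow_mul, ← pow_mul, Nat.mul_comm n e₀, pow_mul X]
    at e
  rw [show (q + 1) * (q - 1) * (q * q - 1) = (q + 1) * e₀ by rw [he₀]; ring, div_pow,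
    map_div₀, map_pow, div_mul_div_comm, eq_div_iff (mul_ne_zero (pow_ne_zero _ ha')
      (pow_ne_zero _ (pow_ne_zero _ hX)))]
  exact e

end Fermat.Agent.Carayol.Reg

end
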