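/-
Theorem of Carayol at `q ^ 2 ∥ M`: inertia-fixed torsion classes of level `q ^ 2 M'`
killed by both pushforwards are killed by a bounded integer.

The class contains an inertia-invariant divisor `D`, so `n • D` is the divisor of a function over
the inertia field whose two norms are constants times `n`-th powers; at an admissible multiple `M`
of `M'` the main theorem makes a bounded power of it a constant times an `n`-th power, and the norm
back to level `M'` kills a bounded multiple of the class.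
-/
import Fermat.Agent.Carayol.MainGlobal
import Fermat.Agent.Carayol.MainDescentFunction
import Fermat.Agent.Carayol.CuspidalPic
import Fermat.Prelude.Def_ModularCurve_ArithmeticGalois

set_option autoImplicit false
set_option linter.style.haveILetI false
set_option synthInstance.maxHeartbeats 400000

noncomputable section

namespace Fermat.Agent.Carayol.Reg

open ModularCurve AlgebraicCurve

local notation "ℚbar" => AlgebraicClosure ℚ

theorem bar_mono {N N' : ℕ} [NeZero N] [NeZero N'] (h : N ∣ N') :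
    modularFunctionFieldBar N ≤ modularFunctionFieldBar N' :=
  IntermediateField.adjoin.mono ℚbar _ _ (Set.image_mono (full_degeneracy_le h))

/-- The inclusion of levels over `ℚ̄`. -/
def barIncl (N N' : ℕ) [NeZero N] [NeZero N'] (h : N ∣ N') :
    modularFunctionFieldBar N →ₐ[ℚbar] modularFunctionFieldBar N' :=
  IntermediateField.inclusion (bar_mono h)

theorem barIncl_barHom (A : ValuationSubring (AlgebraicClosure ℚ)) {N N' : ℕ} [NeZero N] [NeZero N']
    (h : N ∣ N') (a : Fld A N) :
    barIncl N N' h (barHom A N a) = barHom A N' (incl A N N' h a) := by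
  refine Subtype.ext ?_
  rw [coe_barHom, coe_incl, barIncl, IntermediateField.coe_inclusion, coe_barHom]

theorem heckeAlphaBar_barHom (A : ValuationSubring (AlgebraicClosure ℚ)) (N ℓ : ℕ) [NeZero N]
    [NeZero ℓ] (a : Fld A N) :
    heckeAlphaBar ℚbar N ℓ (barHom A N a) =
      barHom A (N * ℓ) (incl A N (N * ℓ) (dvd_mul_right N ℓ) a) := by
  refine Subtype.ext ?_
  rw [coe_barHom, coe_incl, coe_heckeAlphaBar, coe_barHom]

theorem heckeBetaBar_barHom (A : ValuationSubring (AlgebraicClosure ℚ)) (N ℓ : ℕ) [NeZero N]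
    [NeZero ℓ] (a : Fld A N) :
    heckeBetaBar ℚbar N ℓ (barHom A N a) = barHom A (N * ℓ) (scale A N ℓ a) := by
  refine Subtype.ext ?_
  rw [coe_barHom, coe_scale, coe_heckeBetaBar, coe_barHom]

theorem exists_admissible_multiple {M' q : ℕ} [NeZero M'] [Fact q.Prime] (hqM : ¬ q ∣ M') :
    ∃ r : ℕ, r ≠ 0 ∧ Admissible q (M' * r) := by
  have hq : q.Prime := Fact.out
  refine ⟨if q = 2 then 9 else if q = 3 then 4 else 6, by split_ifs <;> norm_num, ?_, ?_, ?_, ?_⟩
  · intro h
    rcases hq.dvd_mul.mp h with h | h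
    · exact hqM h
    · split_ifs at h with h2 h3
      · subst h2; norm_num at h
      · subst h3; norm_num at h
      · rcases hq.dvd_mul.mp (show q ∣ 2 * 3 by simpa using h) with h | h
        · exact h2 ((Nat.prime_dvd_prime_iff_eq hq Nat.prime_two).mp h)
        · exact h3 ((Nat.prime_dvd_prime_iff_eq hq Nat.prime_three).mp h)
  · intro h; rw [if_pos h]; exact dvd_mul_left _ _
  · intro h; rw [if_neg (by omega), if_pos h]; exact dvd_mul_left _ _
  · intro h; rw [if_neg (by omega), if_neg (by omega)]; exact dvd_mul_left _ _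

theorem fld_ext {A : ValuationSubring (AlgebraicClosure ℚ)} {N : ℕ} {a b : Fld A N}
    (h : (a : LaurentSeries ℚbar) = (b : LaurentSeries ℚbar)) : a = b := Subtype.ext h

/-- An inertia-fixed torsion class at level `M' q q` killed by both pushforwards is killed by a
bounded positive integer. -/
theorem exists_exponent_inertia_fixed {M' q : ℕ} [NeZero M'] [Fact q.Prime] (hqM : ¬ q ∣ M')
    {A : ValuationSubring (AlgebraicClosure ℚ)} (hA : A.LiesOverPrime q) :
    ∃ m : ℕ, 0 < m ∧ ∀ n : ℕ, ¬ q ∣ n → ∀ x : JZero (M' * q * q), n • x = 0 →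
      (∀ σ ∈ A.inertiaSubgroupIn ℚ, σ • x = x) →
      Cuspidal.pushAlpha (M' * q) q x = 0 → Cuspidal.pushBeta (M' * q) q x = 0 → m • x = 0 := by
  obtain ⟨r, hr0, hM⟩ := exists_admissible_multiple hqM
  haveI : NeZero r := ⟨hr0⟩
  set M := M' * r with hMdef
  have hdiv : M' ∣ M := hMdef ▸ dvd_mul_right M' r
  have h2 : M' * q * q ∣ M * q * q := mul_dvd_mul (mul_dvd_mul hdiv dvd_rfl) dvd_rfl
  have h1 : M' * q ∣ M * q := mul_dvd_mul hdiv dvd_rfl
  obtain ⟨m, hm0, hm⟩ := exists_pow_eq_const_mul_pow hA hM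
  set ψ := barIncl (M' * q * q) (M * q * q) h2 with hψ
  have hd : 0 < finrankAlong ℚbar ψ := by
    letI := algebraAlong ψ
    haveI : Module.Finite (modularFunctionFieldBar (M' * q * q))
        (modularFunctionFieldBar (M * q * q)) := Curve.finiteAlong ψ
    exact Module.finrank_pos
  refine ⟨finrankAlong ℚbar ψ * m, mul_pos hd hm0, fun n hqn x hnx hfix hα hβ => ?_⟩
  have hn : n ≠ 0 := fun h => hqn (h ▸ dvd_zero q)
  obtain ⟨D, f, rfl, hf, hord⟩ := exists_fld_of_inertia_fixed hnx hfix
  set f' : F₂ A M q := incl A (M' * q * q) (M * q * q) h2 f with hf'def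
  have hf' : f' ≠ 0 := (map_ne_zero _).mpr hf
  obtain ⟨c₁, g₁, hg₁⟩ := exists_norm_eq_const_mul_pow (p₀₁ A M' q)
    (heckeAlphaBar ℚbar (M' * q) q) (heckeAlphaBar_barHom A (M' * q) q) hn hα hf hord
  obtain ⟨c₂, g₂, hg₂⟩ := exists_norm_eq_const_mul_pow (p₁₂ A M' q)
    (heckeBetaBar ℚbar (M' * q) q) (heckeBetaBar_barHom A (M' * q) q) hn hβ hf hord
  have hlift : ∀ (c : inertiaField A) (g : F₁ A M' q),
      ((incl A (M' * q) (M * q) h1
        (algebraMap (inertiaField A) (F₁ A M' q) c * g ^ n) : F₁ A M q) : LaurentSeries ℚbar) =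
      ((algebraMap (inertiaField A) (F₁ A M q) c * incl A (M' * q) (M * q) h1 g ^ n : F₁ A M q) :
        LaurentSeries ℚbar) := fun c g => by
    rw [map_mul, map_pow, AlgHom.commutes]
  obtain ⟨c, w, hw⟩ := hm n hqn f' hf'
    (dvd_ord_of_ord_eq (incl A (M' * q * q) (M * q * q) h2) ψ (barIncl_barHom A h2) hf hord)
    ⟨c₁, incl A (M' * q) (M * q) h1 g₁, fld_ext (by
      rw [hf'def, norm₀₁_incl hM.1 hdiv, show norm₀₁ A M' q f = _ from hg₁, ← hlift, coe_incl])⟩
    ⟨c₂, incl A (M' * q) (M * q) h1 g₂, fld_ext (by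
      rw [hf'def, norm₁₂_incl hM.1 hdiv, show norm₁₂ A M' q f = _ from hg₂, ← hlift, coe_incl])⟩
  exact smul_eq_zero_of_pow_eq (incl A (M' * q * q) (M * q * q) h2) ψ (barIncl_barHom A h2) hn hf
    hord hw

end Fermat.Agent.Carayol.Reg

end
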