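/-
Theorem of Carayol at `q ^ 2 ∥ M`: a constituent of the Tate module in the eigenspace
of a newform of level `M` is not unipotent on inertia at `q`.  Were it so, a common fixed vector
would give a non-zero inertia fixed Tate vector killed by both pushforwards to level `M / q`, whose
levels are then killed by a bounded integer.
-/
import Fermat.Agent.Carayol.MainDescent
import Fermat.Agent.Carayol.CuspidalPush
import Fermat.Agent.GaloisAdic.Inputs
import Fermat.Prelude.Def_GaloisRep_LocalConditions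
import Fermat.Prelude.Def_GaloisRep_Residual
import Mathlib.LinearAlgebra.Charpoly.Basic
import Mathlib.LinearAlgebra.Matrix.NonsingularInverse
import Mathlib.LinearAlgebra.Dimension.StrongRankCondition

set_option autoImplicit false
set_option linter.style.haveILetI false

noncomputable section

open scoped Matrix TensorProduct

namespace Fermat.Agent.Carayol.Reg

open ModularCurve GaloisAdic

local notation "ℚbar" => AlgebraicClosure ℚ
local notation "Γℚ" => AlgebraicClosure ℚ ≃ₐ[ℚ] AlgebraicClosure ℚ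

section Unipotent

variable {O V : Type*} [CommRing O] [IsDomain O] [CharZero O] [AddCommGroup V] [Module O V]
  [Module.IsTorsionFree O V]

/-- A group of unipotent operators of a lattice of rank two has a common fixed vector. -/
theorem exists_ne_zero_forall_fixed [Module.Finite O V] (hV : Module.finrank O V = 2)
    {G : Type*} [Group G] (r : G →* Module.End O V) (hr : ∀ g, (r g - 1) * (r g - 1) = 0) :
    ∃ x : V, x ≠ 0 ∧ ∀ g, r g x = x := by
  haveI : Nontrivial V := by
    by_contra h
    rw [not_nontrivial_iff_subsingleton] at h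
    rw [Module.finrank_zero_of_subsingleton] at hV
    exact absurd hV (by norm_num)
  by_cases hall : ∀ g, r g = 1
  · obtain ⟨x, hx⟩ := exists_ne (0 : V)
    exact ⟨x, hx, fun g => by rw [hall g]; rfl⟩
  push Not at hall
  obtain ⟨g, hg⟩ := hall
  set a := r g - 1 with ha
  have ha2 : a * a = 0 := hr g
  obtain ⟨y, hy⟩ : ∃ y, a y ≠ 0 := by
    by_contra h
    push Not at h
    exact hg (sub_eq_zero.1 (LinearMap.ext h))
  refine ⟨a y, hy, fun h => ?_⟩
  set b := r h - 1 with hb
  have hb2 : b * b = 0 := hr h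
  have hrg : r g = 1 + a := by rw [ha]; abel
  have hrh : r h = 1 + b := by rw [hb]; abel
  have e1 : (a + b + a * b) * (a + b + a * b) = 0 := by
    have h1 := hr (g * h)
    rw [map_mul, hrg, hrh] at h1
    rw [← h1]
    noncomm_ring
  have e2 : (a + a + b + (a + a) * b) * (a + a + b + (a + a) * b) = 0 := by
    have h1 := hr (g * g * h)
    rw [map_mul, map_mul, hrg, hrh] at h1
    have h2 : (1 + a) * (1 + a) = 1 + (a + a) := by
      simp only [mul_add, add_mul, one_mul, mul_one, ha2]
      abel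
    rw [h2] at h1
    rw [← h1]
    noncomm_ring
  have e3 : (2 : O) • (a * b + b * a + b * a * b) = 0 := by
    have hE : (a + b + a * b) * (a + b + a * b) =
        a * a + a * (a * b) + (a * b) * a + (a * b) * (a * b) +
          (a * b + b * a + b * a * b) + a * (b * b) + b * b := by noncomm_ring
    have hE2 : (a + a + b + (a + a) * b) * (a + a + b + (a + a) * b) =
        4 • (a * a + a * (a * b) + (a * b) * a + (a * b) * (a * b)) +
          2 • ((a * b + b * a + b * a * b) + a * (b * b)) + b * b := by noncomm_ring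
    rw [hb2] at hE hE2
    simp only [mul_zero, add_zero] at hE hE2
    rw [e1] at hE
    rw [e2] at hE2
    have hA : a * a + a * (a * b) + (a * b) * a + (a * b) * (a * b) =
        -(a * b + b * a + b * a * b) := eq_neg_of_add_eq_zero_left hE.symm
    rw [hA] at hE2
    rw [two_smul]
    have : (0 : Module.End O V) = -(2 • (a * b + b * a + b * a * b)) := by
      rw [hE2]; abel
    rw [← two_nsmul]
    exact neg_eq_zero.1 this.symm
  have e4 : a * b + b * a + b * a * b = 0 := (smul_eq_zero.1 e3).resolve_left two_ne_zero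
  have e5 : a * b + b * a = 0 := by
    have h1 : b * (a * b + b * a + b * a * b) = 0 := by rw [e4, mul_zero]
    have h2 : b * (a * b + b * a + b * a * b) = b * a * b + b * b * a + b * b * (a * b) := by
      noncomm_ring
    rw [hb2, zero_mul, zero_mul, add_zero, add_zero, h1] at h2
    rwa [← h2, add_zero] at e4
  -- `a y` and `b (a y)` are killed by `a`
  have hav : a (a y) = 0 := by rw [← Module.End.mul_apply, ha2]; rfl
  have habv : a (b (a y)) = 0 := by
    have h1 := LinearMap.congr_fun e5 (a y)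
    rw [LinearMap.add_apply, Module.End.mul_apply, Module.End.mul_apply, hav, map_zero,
      add_zero] at h1
    exact h1
  have hbv : b (a y) = 0 := by
    by_contra hne
    have hbbv : b (b (a y)) = 0 := by rw [← Module.End.mul_apply, hb2]; rfl
    have hli : LinearIndependent O ![y, a y, b (a y)] := by
      rw [Fintype.linearIndependent_iff]
      intro c hc
      simp only [Fin.sum_univ_three, Matrix.cons_val_zero, Matrix.cons_val_one,
        Matrix.cons_val_two, Matrix.head_cons, Matrix.tail_cons] at hc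
      have h0 : c 0 = 0 := by
        have h1 := congrArg a hc
        simp only [map_add, map_smul, hav, habv, smul_zero, add_zero, map_zero] at h1
        exact (smul_eq_zero.1 h1).resolve_right hy
      rw [h0, zero_smul, zero_add] at hc
      have h1' : c 1 = 0 := by
        have h1 := congrArg b hc
        simp only [map_add, map_smul, hbbv, smul_zero, add_zero, map_zero] at h1
        exact (smul_eq_zero.1 h1).resolve_right hne
      rw [h1', zero_smul, zero_add] at hc
      intro i
      fin_cases i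
      · exact h0
      · exact h1'
      · exact (smul_eq_zero.1 hc).resolve_right hne
    have := hli.fintype_card_le_finrank
    rw [hV, Fintype.card_fin] at this
    omega
  rw [hrh, LinearMap.add_apply, hbv, add_zero]
  rfl

end Unipotent

section Descend

/-- A system of linear equations without non-zero solution has none over a larger domain. -/
theorem exists_ne_zero_of_map {R S : Type*} [CommRing R] [IsDomain R] [CommRing S] [IsDomain S]
    (φ : R →+* S) (hφ : Function.Injective φ) {n : ℕ} {ι : Type*}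
    (A : ι → Matrix (Fin n) (Fin n) R) {y : Fin n → S} (hy : y ≠ 0)
    (h : ∀ i, (A i).map φ *ᵥ y = 0) : ∃ v : Fin n → R, v ≠ 0 ∧ ∀ i, A i *ᵥ v = 0 := by
  classical
  by_contra hcon
  push Not at hcon
  let K := FractionRing R
  let row : ι × Fin n → Fin n → K := fun x j => algebraMap R K (A x.1 x.2 j)
  by_cases htop : Submodule.span K (Set.range row) = ⊤
  · obtain ⟨b, hbsub, hbspan, hbli⟩ := exists_linearIndependent K (Set.range row)
    rw [htop] at hbspan
    let B : Module.Basis b K (Fin n → K) := Module.Basis.mk hbli (by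
      rw [Subtype.range_coe]; exact hbspan.ge)
    have hfin : Finite b := Module.Finite.finite_basis B
    haveI := Fintype.ofFinite b
    have hcard : Fintype.card b = Fintype.card (Fin n) := by
      rw [← Module.finrank_eq_card_basis B, Module.finrank_fintype_fun_eq_card]
    let e : Fin n ≃ b := (Fintype.equivOfCardEq hcard).symm
    have hidx : ∀ k : Fin n, ∃ x, row x = (e k : Fin n → K) := fun k => hbsub (e k).2
    choose idx hidx using hidx
    let C : Matrix (Fin n) (Fin n) R := Matrix.of fun k j => A (idx k).1 (idx k).2 j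
    have hC : C.det ≠ 0 := by
      intro h0
      have hu : IsUnit (C.map (algebraMap R K)) := by
        rw [← Matrix.linearIndependent_rows_iff_isUnit]
        have : (C.map (algebraMap R K)).row = fun k => ((e k : b) : Fin n → K) :=
          funext fun k => hidx k
        rw [this]
        exact hbli.comp e e.injective
      rw [Matrix.isUnit_iff_isUnit_det, ← RingHom.mapMatrix_apply, ← RingHom.map_det, h0,
        map_zero] at hu
      exact not_isUnit_zero hu
    refine hy (Matrix.eq_zero_of_mulVec_eq_zero (M := C.map φ) ?_ (funext fun k => ?_))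
    · rw [← RingHom.mapMatrix_apply, ← RingHom.map_det]
      exact (map_ne_zero_iff _ hφ).2 hC
    · exact congrFun (h (idx k).1) (idx k).2
  · obtain ⟨f, hf0, hf⟩ := Submodule.exists_dual_map_eq_bot_of_lt_top
      (lt_top_iff_ne_top.2 htop) inferInstance
    let w : Fin n → K := fun j => f (Pi.single j 1)
    obtain ⟨⟨d, hd⟩, hint⟩ := IsLocalization.exist_integer_multiples_of_finite (nonZeroDivisors R) w
    choose v hv using hint
    simp only [Algebra.smul_def] at hv
    have hd0 : algebraMap R K d ≠ 0 := IsFractionRing.to_map_ne_zero_of_mem_nonZeroDivisors hd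
    have hv0 : v ≠ 0 := by
      rintro rfl
      refine hf0 ((Pi.basisFun K (Fin n)).ext fun j => ?_)
      have h1 := (hv j).symm
      rw [Pi.zero_apply, map_zero] at h1
      simpa [w, Pi.basisFun_apply] using (mul_eq_zero.1 h1).resolve_left hd0
    obtain ⟨i, hi⟩ := hcon v hv0
    apply hi
    funext k
    apply IsFractionRing.injective R K
    rw [RingHom.map_mulVec, Pi.zero_apply, map_zero]
    have h1 : f (row (i, k)) = 0 := by
      have : f (row (i, k)) ∈ (Submodule.span K (Set.range row)).map f :=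
        Submodule.mem_map_of_mem (Submodule.subset_span ⟨(i, k), rfl⟩)
      simpa [hf] using this
    rw [pi_eq_sum_univ' (row (i, k)), map_sum] at h1
    simp only [map_smul] at h1
    have h2 : ∀ j, algebraMap R K (v j) = algebraMap R K d * f (Pi.single j 1) := hv
    simp only [Matrix.mulVec, dotProduct, Matrix.map_apply, Function.comp_apply, h2]
    rw [← mul_zero (algebraMap R K d), ← h1, Finset.mul_sum]
    refine Finset.sum_congr rfl fun j _ => ?_
    simp only [row, smul_eq_mul]
    ring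

/-- `ℤ_[p] → O` is injective in characteristic zero. -/
theorem padicIntHom_inj {p : ℕ} [Fact p.Prime] (O : Type*) [CommRing O] [IsDomain O] [CharZero O]
    [IsLocalRing O] [IsAdicComplete (IsLocalRing.maximalIdeal O) O]
    (hp : (p : O) ∈ IsLocalRing.maximalIdeal O) : Function.Injective (padicIntHom O hp) := by
  rw [injective_iff_map_eq_zero]
  intro x hx
  by_contra h0
  rw [PadicInt.unitCoeff_spec h0, map_mul, map_pow, map_natCast] at hx
  rcases mul_eq_zero.1 hx with h | h
  · exact ((PadicInt.unitCoeff h0).isUnit.map (padicIntHom O hp)).ne_zero h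
  · exact Nat.cast_ne_zero.2 (Fact.out (p := p.Prime)).ne_zero (eq_zero_of_pow_eq_zero h)

end Descend

/-- A vector of the Tate module fixed by inertia at `q` and annihilated by the kernel of the
eigencharacter of a newform of level `M' q q` is zero. -/
theorem tate_eq_zero_of_fixed {M' q : ℕ} [NeZero M'] [Fact q.Prime] (hqM : ¬ q ∣ M')
    {A : ValuationSubring ℚbar} (hA : A.LiesOverPrime q)
    {g : CuspForm (CongruenceSubgroup.Gamma0 (M' * q * q)) 2} (hg : g.IsNewform) (S : Finset ℕ)
    {p : ℕ} [Fact p.Prime] (hpq : p ≠ q) (F : TorsionFrame (M' * q * q) p)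
    (v : Fin F.H.r → ℤ_[p])
    (hv : ∀ t : CuspForm.heckeAlgebra (M' * q * q) 2 (↑S : Set ℕ),
      Eigen.eigenChar g hg.1 (↑S : Set ℕ) t = 0 →
        (F.H.mat (Subalgebra.inclusion (CuspForm.heckeAlgebra_mono (Set.empty_subset _)) t)).map
          (Int.cast : ℤ → ℤ_[p]) *ᵥ v = 0)
    (hfix : ∀ σ ∈ A.inertiaSubgroupIn ℚ, F.galMatrix σ *ᵥ v = v) : v = 0 := by
  obtain ⟨m, hm, hkill⟩ := exists_exponent_inertia_fixed hqM hA
  funext i
  refine (mul_eq_zero.1 (PadicInt.ext_of_toZModPow.1 fun n => ?_ :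
    (m : ℤ_[p]) * v i = 0)).resolve_left (Nat.cast_ne_zero.2 hm.ne')
  set x := F.e n fun j => PadicInt.toZModPow n (v j) with hx
  have hxp : p ^ n • x = 0 := ((F.isTorsionIso n).mem_range_iff _).1 ⟨_, rfl⟩
  have hσ : ∀ σ ∈ A.inertiaSubgroupIn ℚ, σ • x = x := by
    intro σ hσ
    rw [hx, ← F.e_galMatrix]
    refine congrArg (F.e n) (funext fun j => ?_)
    have h := congrFun (hfix σ hσ) j
    conv_rhs => rw [← h]
    exact (RingHom.map_mulVec (PadicInt.toZModPow n) _ _ j).symm
  obtain ⟨ha, hb⟩ := Cuspidal.pushforward_tate_eq_zero (N := M' * q) (Fact.out (p := q.Prime)).one_lt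
    hg S F v hv n
  have h0 := hkill (p ^ n) (fun hd => hpq ((Nat.prime_dvd_prime_iff_eq (Fact.out (p := q.Prime))
    (Fact.out (p := p.Prime))).1 ((Fact.out (p := q.Prime)).dvd_of_dvd_pow hd)).symm) x hxp hσ ha hb
  rw [hx, ← map_nsmul] at h0
  have h1 := congrFun ((F.isTorsionIso n).injective (h0.trans (F.e n).map_zero.symm)) i
  simpa [nsmul_eq_mul] using h1

/-- **No constituent in the eigenspace of a newform is unipotent on inertia at `q`, `q ^ 2 ∥ M`.** -/
theorem not_isUnipotentOnInertiaAt_of_isConstituent {M : ℕ} [NeZero M] {q : ℕ} [Fact q.Prime]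
    (hq : M.factorization q = 2) {g : CuspForm (CongruenceSubgroup.Gamma0 M) 2} (hg : g.IsNewform)
    (S : Finset ℕ) {p : ℕ} [Fact p.Prime] (hpq : p ≠ q) (F : TorsionFrame M p) {O : Type}
    [CommRing O] [IsDomain O] [IsLocalRing O] [IsAdicComplete (IsLocalRing.maximalIdeal O) O]
    [CharZero O] (hp : (p : O) ∈ IsLocalRing.maximalIdeal O)
    (χ : CuspForm.heckeAlgebra M 2 (↑S : Set ℕ) →+* O)
    (hχ : ∀ t, Eigen.eigenChar g hg.1 (↑S : Set ℕ) t = 0 → χ t = 0)
    (ρ : GaloisRepAdic O) (hc : IsConstituent F hp χ ρ) : ¬ ρ.IsUnipotentOnInertiaAt q := by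
  intro hu
  have hqp : q.Prime := Fact.out
  obtain ⟨M', hM', hqM'⟩ : ∃ M', M = M' * q * q ∧ ¬ q ∣ M' := by
    refine ⟨M / q ^ 2, ?_, fun h => ?_⟩
    · rw [mul_assoc, ← pow_two, Nat.div_mul_cancel (hq ▸ Nat.ordProj_dvd M q)]
    · have h3 : q ^ 3 ∣ M := by
        rw [← Nat.div_mul_cancel (hq ▸ Nat.ordProj_dvd M q : q ^ 2 ∣ M), pow_succ']
        exact Nat.mul_dvd_mul h dvd_rfl
      rw [hqp.pow_dvd_iff_le_factorization (NeZero.ne M), hq] at h3
      omega
  subst hM'
  have hM0 : M' ≠ 0 := fun h => NeZero.ne (M' * q * q) (by simp [h])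
  haveI : NeZero M' := ⟨hM0⟩
  obtain ⟨f, hf, -, hfσ, hft⟩ := hc
  haveI : Module.Free O ρ.V := ρ.instFree
  haveI : Module.Finite O ρ.V := Module.finite_of_finrank_eq_succ ρ.finrank_eq
  obtain ⟨A, hA⟩ := Galois.exists_liesOverPrime hqp
  have hsq : ∀ g' : A.inertiaSubgroupIn ℚ,
      ((ρ.ρ.comp (A.inertiaSubgroupIn ℚ).subtype) g' - 1) *
        ((ρ.ρ.comp (A.inertiaSubgroupIn ℚ).subtype) g' - 1) = 0 := fun g' => by
    have h := LinearMap.aeval_self_charpoly (ρ.ρ (g' : Γℚ))
    rw [hu A hA g' g'.2, map_pow, map_sub, Polynomial.aeval_X, map_one, pow_two] at h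
    exact h
  obtain ⟨x, hx, hxfix⟩ := exists_ne_zero_forall_fixed (O := O) ρ.finrank_eq
    (ρ.ρ.comp (A.inertiaSubgroupIn ℚ).subtype) hsq
  let ι := A.inertiaSubgroupIn ℚ ⊕
    {t : CuspForm.heckeAlgebra (M' * q * q) 2 (↑S : Set ℕ) //
      Eigen.eigenChar g hg.1 (↑S : Set ℕ) t = 0}
  let B : ι → Matrix (Fin F.H.r) (Fin F.H.r) ℤ_[p] := Sum.elim
    (fun σ => F.galMatrix (σ : Γℚ) - 1)
    (fun t => (F.H.mat (Subalgebra.inclusion
      (CuspForm.heckeAlgebra_mono (Set.empty_subset _)) t.1)).map (Int.cast : ℤ → ℤ_[p]))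
  obtain ⟨v, hv0, hv⟩ := exists_ne_zero_of_map (padicIntHom O hp) (padicIntHom_inj O hp) B
    (y := f x) (fun h => hx (hf (h.trans (map_zero f).symm))) (fun i => by
      rcases i with σ | t
      · show (F.galMatrix (σ : Γℚ) - 1).map (padicIntHom O hp) *ᵥ f x = 0
        rw [Matrix.map_sub _ (map_sub _), Matrix.map_one _ (map_zero _) (map_one _),
          Matrix.sub_mulVec, Matrix.one_mulVec, ← hfσ, show ρ.ρ (σ : Γℚ) x = x from hxfix σ,
          sub_self]
      · show ((F.H.mat _).map (Int.cast : ℤ → ℤ_[p])).map (padicIntHom O hp) *ᵥ f x = 0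
        rw [Matrix.map_map, show (padicIntHom O hp) ∘ (Int.cast : ℤ → ℤ_[p]) =
          Int.castRingHom O from funext fun k => map_intCast _ k, hft, hχ t.1 t.2, zero_smul])
  refine hv0 (tate_eq_zero_of_fixed hqM' hA hg S hpq F v (fun t ht => hv (Sum.inr ⟨t, ht⟩))
    fun σ hσ => ?_)
  have h := hv (Sum.inl ⟨σ, hσ⟩)
  rw [show B (Sum.inl ⟨σ, hσ⟩) = F.galMatrix σ - 1 from rfl, Matrix.sub_mulVec,
    Matrix.one_mulVec, sub_eq_zero] at h
  exact h

/-- A stable line which is a direct factor makes the residual representation reducible. -/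
theorem not_residual_isAbsolutelyIrreducible {O : Type} [CommRing O] [IsLocalRing O]
    (ρ : GaloisRepAdic O) {v : ρ.V}
    (hv : v ∉ IsLocalRing.maximalIdeal O • (⊤ : Submodule O ρ.V))
    (hline : ∀ σ : Γℚ, ρ.ρ σ v ∈ Submodule.span O {v}) :
    ¬ ρ.residual.IsAbsolutelyIrreducible := by
  intro hirr
  haveI : Module.Free O ρ.V := ρ.instFree
  haveI : Module.Finite O ρ.V := Module.finite_of_finrank_eq_succ ρ.finrank_eq
  let k := IsLocalRing.ResidueField O
  let b : Module.Basis (Fin 2) O ρ.V := Module.finBasisOfFinrankEq O ρ.V ρ.finrank_eq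
  obtain ⟨i, hi⟩ : ∃ i, b.repr v i ∉ IsLocalRing.maximalIdeal O := by
    by_contra h
    push Not at h
    exact hv (b.sum_repr v ▸ sum_mem fun i _ =>
      Submodule.smul_mem_smul (h i) Submodule.mem_top)
  let w' : AlgebraicClosure k ⊗[k] (k ⊗[O] ρ.V) :=
    (1 : AlgebraicClosure k) ⊗ₜ[k] ((1 : k) ⊗ₜ[O] v)
  let w : (ρ.residual.baseChange (AlgebraicClosure k)).V := w'
  have hw' : w' ≠ 0 := by
    intro h0
    have h1 : ((b.baseChange k).baseChange (AlgebraicClosure k)).repr w' i =
        algebraMap k (AlgebraicClosure k) (IsLocalRing.residue O (b.repr v i)) := by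
      rw [Module.Basis.baseChange_repr_tmul, Module.Basis.baseChange_repr_tmul, Algebra.smul_def,
        Algebra.smul_def, mul_one, mul_one]
      rfl
    rw [h0, map_zero, Finsupp.zero_apply] at h1
    exact hi ((IsLocalRing.residue_eq_zero_iff _).1 ((map_eq_zero _).1 h1.symm))
  have hw : w ≠ 0 := hw'
  have hfix : ∀ σ : Γℚ, ∃ c : AlgebraicClosure k,
      LinearMap.baseChange (AlgebraicClosure k) (LinearMap.baseChange k (ρ.ρ σ)) w' = c • w' := by
    intro σ
    obtain ⟨d, hd⟩ := Submodule.mem_span_singleton.1 (hline σ)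
    refine ⟨algebraMap k (AlgebraicClosure k) (algebraMap O k d), ?_⟩
    simp only [w', LinearMap.baseChange_tmul, ← hd]
    rw [TensorProduct.tmul_smul, ← algebraMap_smul k d ((1 : k) ⊗ₜ[O] v), TensorProduct.tmul_smul,
      ← algebraMap_smul (AlgebraicClosure k) (algebraMap O k d) _]
  let W : Submodule (AlgebraicClosure k) (ρ.residual.baseChange (AlgebraicClosure k)).V :=
    Submodule.span _ {w}
  have hstab : ∀ σ : Γℚ, ∀ x ∈ W, (ρ.residual.baseChange (AlgebraicClosure k)).ρ σ x ∈ W := by
    intro σ x hx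
    obtain ⟨c, rfl⟩ := Submodule.mem_span_singleton.1 hx
    rw [map_smul]
    refine W.smul_mem c ?_
    obtain ⟨d, hd⟩ := hfix σ
    show (ρ.residual.baseChange (AlgebraicClosure k)).ρ σ w ∈ W
    have hd' : (ρ.residual.baseChange (AlgebraicClosure k)).ρ σ w = d • w := hd
    rw [hd']
    exact W.smul_mem _ (Submodule.subset_span rfl)
  rcases hirr W hstab with hW | hW
  · exact hw ((Submodule.eq_bot_iff W).1 hW w (Submodule.subset_span rfl))
  · have h1 : Module.finrank (AlgebraicClosure k) W = 1 := finrank_span_singleton hw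
    rw [hW, finrank_top, (ρ.residual.baseChange (AlgebraicClosure k)).finrank_eq] at h1
    omega

open Polynomial in
/-- **The adic representation of a newform is not unipotent on inertia at `q` with `q ^ 2 ∥ M`.** -/
theorem exists_galoisRepAdic_not_unipotent
    {M : ℕ} [NeZero M] {g : CuspForm (CongruenceSubgroup.Gamma0 M) 2} (hg : g.IsNewform)
    (lam : ℕ) [Fact lam.Prime] (S : Finset ℕ)
    (O' : Type) [CommRing O'] [IsDomain O'] [IsDiscreteValuationRing O']
    [IsAdicComplete (IsLocalRing.maximalIdeal O') O'] [Finite (IsLocalRing.ResidueField O')]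
    [CharZero O'] (hlamO' : (lam : O') ∈ IsLocalRing.maximalIdeal O')
    (chig : CuspForm.heckeAlgebra M 2 (↑S : Set ℕ) →+* ℂ)
    (hchig : ∀ (ℓ : ℕ) (hℓ : ℓ.Prime) (hℓM : ¬ ℓ ∣ M) (hℓS : ℓ ∉ (↑S : Set ℕ)),
      chig (CuspForm.heckeAlgebra.T hℓ hℓM hℓS) = ModularFormClass.qCoeff g ℓ)
    (iota : chig.range →+* O')
    (hlamS : lam ∈ S) (hMS : ∀ q : ℕ, q.Prime → q ∣ M → q ∈ S)
    (hres : ∀ (O'' : Type) [CommRing O''] [IsDomain O''] [IsDiscreteValuationRing O'']
      [IsAdicComplete (IsLocalRing.maximalIdeal O'') O''] [Finite (IsLocalRing.ResidueField O'')]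
      [CharZero O'']
      [Algebra O' O''] [Module.Finite O' O''] [IsLocalHom (algebraMap O' O'')],
      Function.Injective (algebraMap O' O'') → ∀ (ρ : GaloisRepAdic O''),
      (∀ (ℓ : ℕ) (hℓ : ℓ.Prime) (hℓlam : ℓ ≠ lam) (hℓM : ¬ ℓ ∣ M) (hℓS : ℓ ∉ (↑S : Set ℕ)),
        ∀ A : ValuationSubring (AlgebraicClosure ℚ), A.LiesOverPrime ℓ →
          ∀ σ : AlgebraicClosure ℚ ≃ₐ[ℚ] AlgebraicClosure ℚ, A.IsFrobeniusAt σ ℓ →
            LinearMap.charpoly (ρ.ρ σ) =
              X ^ 2 - C (algebraMap O' O'' ((iota.comp chig.rangeRestrict)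
                (CuspForm.heckeAlgebra.T hℓ hℓM hℓS))) * X + C ((ℓ : O'')))
      → ρ.residual.IsAbsolutelyIrreducible ∧ ρ.residual.IsOdd) :
    ∃ (O'' : Type) (_ : CommRing O'') (_ : IsDomain O'') (_ : IsDiscreteValuationRing O'')
      (_ : IsAdicComplete (IsLocalRing.maximalIdeal O'') O'')
      (_ : Finite (IsLocalRing.ResidueField O''))
      (_ : CharZero O'') (_ : Algebra O' O'') (_ : Module.Finite O' O'')
      (_ : IsLocalHom (algebraMap O' O'')),
      Function.Injective (algebraMap O' O'') ∧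
      ∃ ρ : GaloisRepAdic O'',
        (∀ (ℓ : ℕ) (hℓ : ℓ.Prime) (hℓM : ¬ ℓ ∣ M) (hℓS : ℓ ∉ (↑S : Set ℕ)),
          ∀ A : ValuationSubring (AlgebraicClosure ℚ), A.LiesOverPrime ℓ →
            ∀ σ : AlgebraicClosure ℚ ≃ₐ[ℚ] AlgebraicClosure ℚ, A.IsFrobeniusAt σ ℓ →
              LinearMap.charpoly (ρ.ρ σ) =
                X ^ 2 - C (algebraMap O' O'' ((iota.comp chig.rangeRestrict)
                  (CuspForm.heckeAlgebra.T hℓ hℓM hℓS))) * X + C ((ℓ : O''))) ∧
        (∀ q : ℕ, q.Prime → q ≠ lam → M.factorization q = 2 →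
          ¬ ρ.IsUnipotentOnInertiaAt q) := by
  let χ := iota.comp chig.rangeRestrict
  have hchi : ∀ t, Eigen.eigenChar g hg.1 (↑S : Set ℕ) t = chig t := by
    rintro ⟨t, ht⟩
    induction ht using Algebra.adjoin_induction with
    | mem x hx =>
      rcases hx with ⟨ℓ, hℓ, hℓN, hℓS, rfl⟩ | ⟨q, hqN, hq, hqS, rfl⟩
      · exact (Eigen.eigenChar_T hg.1 hℓ hℓN hℓS).trans (hchig ℓ hℓ hℓN hℓS).symm
      · exact absurd (hMS q hq hqN) hqS
    | algebraMap c =>
      exact DFunLike.congr_fun (RingHom.ext_int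
        ((Eigen.eigenChar g hg.1 (↑S : Set ℕ)).comp (algebraMap ℤ _))
        (chig.comp (algebraMap ℤ _))) c
    | add x y hx hy ihx ihy =>
      rw [show (⟨x + y, _⟩ : CuspForm.heckeAlgebra M 2 (↑S : Set ℕ)) =
        ⟨x, hx⟩ + ⟨y, hy⟩ from rfl, map_add, map_add, ihx, ihy]
    | mul x y hx hy ihx ihy =>
      rw [show (⟨x * y, _⟩ : CuspForm.heckeAlgebra M 2 (↑S : Set ℕ)) =
        ⟨x, hx⟩ * ⟨y, hy⟩ from rfl, map_mul, map_mul, ihx, ihy]
  obtain ⟨F⟩ := nonempty_torsionFrame M lam
  obtain ⟨O'', i₁, i₂, i₃, i₄, i₅, i₆, i₇, i₈, i₉, hinj, hp'', ρ, hfrob, -, -, halt⟩ :=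
    exists_galoisRepAdic F (torsionFacts M lam) (↑S) S (fun _ _ h => Finset.mem_coe.1 h) O'
      hlamO' χ
  have hne : ∀ {ℓ : ℕ}, ℓ ∉ (↑S : Set ℕ) → ℓ ≠ lam := fun h he =>
    h (he ▸ Finset.mem_coe.2 hlamS)
  refine ⟨O'', i₁, i₂, i₃, i₄, i₅, i₆, i₇, i₈, i₉, hinj, ρ,
    fun ℓ hℓ hℓM hℓS => hfrob ℓ hℓ hℓM hℓS (hne hℓS), fun q hq hqlam hqM => ?_⟩
  haveI : Fact q.Prime := ⟨hq⟩
  rcases halt with hc | ⟨v, hv, hline⟩
  · refine not_isUnipotentOnInertiaAt_of_isConstituent hqM hg S hqlam.symm F hp''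
      ((algebraMap O' O'').comp χ) (fun t ht => ?_) ρ hc
    rw [hchi] at ht
    have h0 : chig.rangeRestrict t = 0 := Subtype.ext ht
    simp [χ, h0]
  · exact absurd (hres O'' hinj ρ fun ℓ hℓ hℓlam hℓM hℓS => hfrob ℓ hℓ hℓM hℓS hℓlam).1
      (not_residual_isAbsolutelyIrreducible ρ hv hline)

end Fermat.Agent.Carayol.Reg

end
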